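/-
The integral closure of `W[x]` in a function field: Noetherian, finite over `W[x]`, spanning `F`.
-/
import Mathlib.RingTheory.DedekindDomain.IntegralClosure
import Mathlib.RingTheory.Polynomial.Basic
import Mathlib.RingTheory.Adjoin.Polynomial.Basic
import Mathlib.RingTheory.Polynomial.RationalRoot
import Mathlib.RingTheory.Polynomial.IntegralNormalization
import Mathlib.FieldTheory.Perfect
import Mathlib.FieldTheory.IntermediateField.Adjoin.Basic
import Mathlib.RingTheory.IntegralClosure.IntegrallyClosed
import Mathlib.RingTheory.Polynomial.GaussLemma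
import Mathlib.RingTheory.Polynomial.IsIntegral

set_option autoImplicit false

namespace Fermat.Agent.Carayol

variable {W F : Type} [CommRing W] [Field F] [Algebra W F]

/-- The integral closure of `W[x]` in `F`, as a `W`-subalgebra. -/
noncomputable def chartRing (W : Type) [CommRing W] [Algebra W F] (x : F) : Subalgebra W F :=
  (integralClosure (Algebra.adjoin W {x}) F).restrictScalars W

theorem self_mem_chartRing (x : F) : x ∈ chartRing W x :=
  (integralClosure (Algebra.adjoin W {x}) F).algebraMap_mem ⟨x, Algebra.subset_adjoin rfl⟩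

theorem chartRing_closed (x : F) (a : F) (ha : IsIntegral (chartRing W x) a) :
    a ∈ chartRing W x := by
  have ha' : IsIntegral (integralClosure (Algebra.adjoin W {x}) F) a := ha
  exact isIntegral_trans (R := Algebra.adjoin W {x}) a ha'

variable [IsDomain W] [IsNoetherianRing W] [IsIntegrallyClosed W] [CharZero F]

/-- Finiteness: the chart ring is Noetherian, finite over `W[x]`, and `F` is its fraction field. -/
theorem chartRing_finite (x : F) (hx : Function.Injective (Polynomial.aeval (R := W) x))
    (hfin : ∃ s : Finset F, ∀ a : F,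
      a ∈ Submodule.span (Subfield.closure (Set.range (algebraMap W F) ∪ {x})) (s : Set F)) :
    IsNoetherianRing (chartRing W x) ∧
      (∃ s₀ : Finset F, (s₀ : Set F) ⊆ chartRing W x ∧
        ∀ a ∈ chartRing W x, a ∈ Submodule.span (Algebra.adjoin W {x}) (s₀ : Set F)) ∧
      ∀ a : F, ∃ b c : F, b ∈ chartRing W x ∧ c ∈ chartRing W x ∧ c ≠ 0 ∧ a = b / c := by
  classical
  let B := Algebra.adjoin W {x}
  have e : Polynomial W ≃ₐ[W] B :=
    (AlgEquiv.ofInjective _ hx).trans
      (Subalgebra.equivOfEq _ _ (Algebra.adjoin_singleton_eq_range_aeval W x).symm)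
  have hB : IsNoetherianRing B := isNoetherianRing_of_ringEquiv _ e.toRingEquiv
  have hB' : IsIntegrallyClosed B := IsIntegrallyClosed.of_equiv e.toRingEquiv
  let K := FractionRing B
  let : Algebra K F := FractionRing.liftAlgebra B F
  have : IsScalarTower B K F := FractionRing.isScalarTower_liftAlgebra B F
  have hKx : ∀ b : B, ((b : F)) ∈ (algebraMap K F).fieldRange := fun b =>
    ⟨algebraMap B K b, (IsScalarTower.algebraMap_apply B K F b).symm⟩
  have : CharZero K := (algebraMap K F).charZero
  have hle : Subfield.closure (Set.range (algebraMap W F) ∪ {x}) ≤ (algebraMap K F).fieldRange := by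
    rw [Subfield.closure_le]
    rintro a (⟨w, rfl⟩ | rfl)
    · exact hKx (algebraMap W B w)
    · exact hKx ⟨a, Algebra.subset_adjoin rfl⟩
  have : FiniteDimensional K F := by
    obtain ⟨s, hs⟩ := hfin
    refine ⟨⟨s, eq_top_iff.mpr fun a _ => ?_⟩⟩
    refine Submodule.span_induction (p := fun a _ => a ∈ Submodule.span K (s : Set F))
      (fun v hv => Submodule.subset_span hv) (zero_mem _) (fun a b _ _ => add_mem)
      (fun c a _ ha => ?_) (hs a)
    obtain ⟨k, hk⟩ := hle c.2
    rw [Subfield.smul_def, smul_eq_mul, ← hk, ← Algebra.smul_def]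
    exact Submodule.smul_mem _ k ha
  have hfinR : IsNoetherian B (integralClosure B F) :=
    IsIntegralClosure.isNoetherian B K F (integralClosure B F)
  refine ⟨?_, ?_, fun a => ?_⟩
  · exact (IsIntegralClosure.isNoetherianRing B K F (integralClosure B F) :)
  · obtain ⟨s, hs⟩ := hfinR.noetherian ⊤
    refine ⟨s.image Subtype.val, ?_, fun a ha => ?_⟩
    · intro v hv
      obtain ⟨v, -, rfl⟩ := Finset.mem_image.mp hv
      exact v.2
    · have h := Submodule.mem_map_of_mem (f := (integralClosure B F).val.toLinearMap)
        (hs ▸ Submodule.mem_top (x := (⟨a, ha⟩ : integralClosure B F)))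
      rw [Submodule.map_span, ← Finset.coe_image] at h
      exact h
  · have : IsFractionRing (integralClosure B F) F :=
      integralClosure.isFractionRing_of_finite_extension K F
    obtain ⟨b, c, hc, h⟩ := IsFractionRing.div_surjective (integralClosure B F) a
    refine ⟨b, c, b.2, c.2, fun h0 => nonZeroDivisors.ne_zero hc (Subtype.ext h0), h.symm⟩

end Fermat.Agent.Carayol
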