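/-
The two charts of the model of `X₀(q² L)` at `q`: the criterion for membership in the integral
closure of `W[x]` and the chart properties following from it.
-/
import Fermat.Agent.Carayol.FiniteClosure
import Fermat.Agent.CarayolHigh.ChartRadical
import Fermat.Agent.RED.CoordData
import Fermat.Prelude.Def_ModularCurve_X0ModL

set_option autoImplicit false

noncomputable section

open Polynomial

namespace Fermat.Agent.Carayol

open CarayolHigh RED

section Integral

variable {W F : Type} [CommRing W] [Field F] [Algebra W F] {x : F}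

/-- Integrality over `W[x]`, in polynomial form. -/
theorem mem_chartRing_iff_isIntegralElem {a : F} :
    a ∈ chartRing W x ↔ (aeval (R := W) x).toRingHom.IsIntegralElem a := by
  let e : W[X] →ₐ[W] Algebra.adjoin W {x} :=
    (aeval x).codRestrict _ fun p => Algebra.adjoin_singleton_eq_range_aeval W x ▸ ⟨p, rfl⟩
  have he : Function.Surjective e := by
    rintro ⟨y, hy⟩
    rw [Algebra.adjoin_singleton_eq_range_aeval] at hy
    obtain ⟨p, hp⟩ := hy
    exact ⟨p, Subtype.ext hp⟩
  have hcomp : (algebraMap (Algebra.adjoin W {x}) F).comp e.toRingHom = (aeval x).toRingHom :=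
    RingHom.ext fun p => rfl
  constructor
  · rintro ⟨g, hg, hga⟩
    obtain ⟨G, hG, -, hGmon⟩ := lifts_and_natDegree_eq_and_monic
      ((mem_lifts _).mpr (Polynomial.map_surjective e.toRingHom he g)) hg
    refine ⟨G, hGmon, ?_⟩
    rwa [← hcomp, ← eval₂_map, hG]
  · rintro ⟨G, hG, hGa⟩
    exact ⟨G.map e.toRingHom, hG.map _, by rwa [eval₂_map, hcomp]⟩

theorem aeval_mem_chartRing (p : W[X]) : aeval x p ∈ chartRing W x :=
  mem_chartRing_iff_isIntegralElem.mpr (RingHom.isIntegralElem_map _ (x := p))

/-- A chart is contained in every valuation ring containing `W` and `x`. -/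
theorem chartRing_mem_valuationSubring {V : ValuationSubring F}
    (hW : ∀ w : W, algebraMap W F w ∈ V) (hx : x ∈ V) {a : F} (ha : a ∈ chartRing W x) :
    a ∈ V := by
  refine mem_valuationSubring_of_isIntegralElem V (fun p => ?_)
    (mem_chartRing_iff_isIntegralElem.mp ha)
  show aeval x p ∈ V
  rw [aeval_eq_sum_range]
  exact sum_mem fun i _ => by rw [Algebra.smul_def]; exact mul_mem (hW _) (pow_mem hx i)

/-- Clearing a power of `x`. -/
theorem exists_mul_inv_pow_mem_chartRing (hx : x ≠ 0) {a : F} (ha : a ∈ chartRing W x) :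
    ∃ N : ℕ, a * x⁻¹ ^ N ∈ chartRing W x⁻¹ := by
  classical
  obtain ⟨g, hg, hga⟩ := mem_chartRing_iff_isIntegralElem.mp ha
  obtain ⟨N, hN⟩ : ∃ N, ∀ i, (g.coeff i).natDegree ≤ N := by
    refine ⟨(Finset.range (g.natDegree + 1)).sup fun i => (g.coeff i).natDegree, fun i => ?_⟩
    by_cases hi : i ∈ Finset.range (g.natDegree + 1)
    · exact Finset.le_sup (f := fun i => (g.coeff i).natDegree) hi
    · rw [coeff_eq_zero_of_natDegree_lt (by simpa using hi), natDegree_zero]
      exact Nat.zero_le _
  refine ⟨N, chartRing_closed _ _ ?_⟩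
  set d := g.natDegree
  -- the coefficient of `T ^ i` times `x ^ (-N (d - i))` is a polynomial in `x⁻¹`
  have hc : ∀ i < d, aeval x (g.coeff i) * x⁻¹ ^ (N * (d - i)) ∈ chartRing W x⁻¹ := by
    intro i hi
    have hdeg : (g.coeff i).natDegree ≤ N * (d - i) :=
      (hN i).trans (Nat.le_mul_of_pos_right _ (by omega))
    rw [aeval_eq_sum_range' (Nat.lt_succ_of_le hdeg), Finset.sum_mul]
    refine sum_mem fun j hj => ?_
    have hj' : j ≤ N * (d - i) := Nat.lt_succ_iff.mp (Finset.mem_range.mp hj)
    rw [smul_mul_assoc]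
    refine Subalgebra.smul_mem _ ?_ _
    have : x ^ j * x⁻¹ ^ (N * (d - i)) = x⁻¹ ^ (N * (d - i) - j) := by
      conv_lhs => rw [← Nat.sub_add_cancel hj', pow_add, ← mul_assoc, mul_comm (x ^ j), mul_assoc,
        ← mul_pow, mul_inv_cancel₀ hx, one_pow, mul_one]
    rw [this]
    exact pow_mem (self_mem_chartRing _) _
  refine ⟨X ^ d + ∑ i : Fin d, C (⟨_, hc i i.2⟩ : chartRing W x⁻¹) * X ^ (i : ℕ),
    monic_X_pow_add ((degree_sum_fin_lt _)), ?_⟩
  have h0 : a ^ d + ∑ i : Fin d, aeval x (g.coeff i) * a ^ (i : ℕ) = 0 := by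
    rw [eval₂_eq_sum_range, Finset.sum_range_succ, hg.coeff_natDegree, map_one, one_mul,
      Finset.sum_range] at hga
    rw [add_comm]
    exact hga
  have h1 : (a * x⁻¹ ^ N) ^ d = a ^ d * x⁻¹ ^ (N * d) := by rw [mul_pow, pow_mul]
  have h2 : ∀ i : Fin d, aeval x (g.coeff i) * x⁻¹ ^ (N * (d - i)) * (a * x⁻¹ ^ N) ^ (i : ℕ) =
      aeval x (g.coeff i) * a ^ (i : ℕ) * x⁻¹ ^ (N * d) := fun i => by
    rw [mul_pow, ← pow_mul, mul_mul_mul_comm, ← pow_add, ← Nat.mul_add,
      Nat.sub_add_cancel i.2.le]
  simp only [eval₂_add, eval₂_X_pow, eval₂_finsetSum, eval₂_mul, eval₂_C]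
  show (a * x⁻¹ ^ N) ^ d +
    ∑ i : Fin d, aeval x (g.coeff i) * x⁻¹ ^ (N * (d - i)) * (a * x⁻¹ ^ N) ^ (i : ℕ) = 0
  rw [h1, Finset.sum_congr rfl fun i _ => h2 i, ← Finset.sum_mul, ← add_mul, h0, zero_mul]

variable {E : Type} [Field E] [Algebra W E] [Algebra E F] [IsScalarTower W E F]

/-- The chart ring upstairs is the integral closure of the chart ring downstairs. -/
theorem mem_chartRing_algebraMap_iff {xE : E} {a : F} :
    a ∈ chartRing W (algebraMap E F xE) ↔ IsIntegral (chartRing W xE) a := by
  constructor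
  · intro h
    obtain ⟨g, hg, hga⟩ := mem_chartRing_iff_isIntegralElem.mp h
    let e : W[X] →+* chartRing W xE :=
      ((aeval xE).codRestrict (chartRing W xE) aeval_mem_chartRing).toRingHom
    refine ⟨g.map e, hg.map _, ?_⟩
    rw [eval₂_map]
    have hmap : (algebraMap (chartRing W xE) F).comp e =
        (aeval (R := W) (algebraMap E F xE)).toRingHom :=
      RingHom.ext fun p => (aeval_algebraMap_apply F xE p).symm
    rwa [hmap]
  · rintro ⟨g, hg, hga⟩
    refine chartRing_closed _ _ ?_
    have hmem : ∀ e : chartRing W xE, algebraMap E F e ∈ chartRing W (algebraMap E F xE) := by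
      intro e
      obtain ⟨G, hG, hGe⟩ := mem_chartRing_iff_isIntegralElem.mp e.2
      refine mem_chartRing_iff_isIntegralElem.mpr ⟨G, hG, ?_⟩
      have hmap : (aeval (R := W) (algebraMap E F xE)).toRingHom =
          (algebraMap E F).comp (aeval xE).toRingHom :=
        RingHom.ext fun p => aeval_algebraMap_apply F xE p
      rw [hmap, ← hom_eval₂, hGe, map_zero]
    let f : chartRing W xE →+* chartRing W (algebraMap E F xE) :=
      ((algebraMap E F).comp (chartRing W xE).val.toRingHom).codRestrict _ hmem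
    exact ⟨g.map f, hg.map f, by rw [eval₂_map]; exact hga⟩

end Integral

/-- Evaluation over `W` factors through evaluation over `K`. -/
theorem coordEval_comp_map {W K E : Type} [CommRing W] [Field K] [Field E] [Algebra W K]
    [Algebra W E] [Algebra K E] [IsScalarTower W K E] (x : E) :
    (coordEval K x).comp (mapRingHom (algebraMap W K)) = (aeval (R := W) x).toRingHom :=
  RingHom.ext fun p => aeval_map_algebraMap K x p

section Criterion

variable {K E F Ω : Type} [Field K] [Field E] [Field F] [Field Ω] [Algebra K E] [Algebra K F]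
  [Algebra E F] [IsScalarTower K E F] [FiniteDimensional E F]

/-- The minimal polynomial over `E` of a function integral over `K[x]` has coefficients integral
over `K[x]`. -/
theorem coeff_minpoly_mem_coordRing {xE : E} {a : F}
    (ha : a ∈ coordRing K (algebraMap E F xE)) (m : ℕ) :
    (minpoly E a).coeff m ∈ coordRing K xE := by
  let : Algebra K[X] E := (coordEval K xE).toAlgebra
  obtain ⟨g, hg, hga⟩ := ha
  have hmap : coordEval K (algebraMap E F xE) = (algebraMap E F).comp (algebraMap K[X] E) :=
    RingHom.ext fun p => aeval_algebraMap_apply F xE p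
  have hdvd : minpoly E a ∣ g.map (algebraMap K[X] E) := by
    refine minpoly.dvd E a ?_
    rw [aeval_def, eval₂_map, ← hmap]
    exact hga
  obtain ⟨Q, hQ⟩ := (mem_lifts _).mp (integralClosure.mem_lifts_of_monic_of_dvd_map E hg
    (minpoly.monic (Algebra.IsIntegral.isIntegral a)) hdvd)
  rw [← hQ, coeff_map]
  exact (Q.coeff m).2

variable [Algebra.IsSeparable E F]

/-- If all conjugates lie in a valuation ring, so do the coefficients of the minimal
polynomial. -/
theorem coeff_minpoly_mem_of_conjugates (O : ValuationSubring Ω) (ψE : E →+* Ω) {σ : Type*}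
    [Fintype σ] (ψ : σ → F →+* Ω) (hψ : Function.Injective ψ)
    (hψE : ∀ j, (ψ j).comp (algebraMap E F) = ψE)
    (hcard : Fintype.card σ = Module.finrank E F) {a : F} (ha : ∀ j, ψ j a ∈ O) (m : ℕ) :
    ψE ((minpoly E a).coeff m) ∈ O := by
  classical
  let : Algebra E Ω := ψE.toAlgebra
  let ι₀ : Ω →+* AlgebraicClosure Ω := algebraMap Ω (AlgebraicClosure Ω)
  let φ : σ → F →ₐ[E] AlgebraicClosure Ω := fun j =>
    { ι₀.comp (ψ j) with
      commutes' := fun e => by
        show ι₀ (ψ j (algebraMap E F e)) = _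
        rw [show ψ j (algebraMap E F e) = ψE e from RingHom.congr_fun (hψE j) e]
        exact (IsScalarTower.algebraMap_apply E Ω (AlgebraicClosure Ω) e).symm }
  have hφ : Function.Bijective φ := by
    rw [Fintype.bijective_iff_injective_and_card]
    refine ⟨fun i j h => hψ (RingHom.ext fun x => ι₀.injective (DFunLike.congr_fun h x :)), ?_⟩
    rw [hcard, AlgHom.card]
  set p := minpoly E a with hp
  have hmonic : p.Monic := minpoly.monic (Algebra.IsIntegral.isIntegral a)
  let M := p.map (algebraMap E (AlgebraicClosure Ω))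
  have hMeq : M = (M.roots.map fun r => X - C r).prod :=
    (IsAlgClosed.splits M).eq_prod_roots_of_monic (hmonic.map _)
  have hroots : ∀ r ∈ M.roots, ∃ j, r = ι₀ (ψ j a) := by
    intro r hr
    have : r ∈ p.rootSet (AlgebraicClosure Ω) := by
      rw [mem_rootSet, aeval_def, ← eval_map]
      exact ⟨hmonic.ne_zero, (mem_roots'.mp hr).2⟩
    rw [hp, ← Algebra.IsAlgebraic.range_eval_eq_rootSet_minpoly] at this
    obtain ⟨g, hg⟩ := this
    obtain ⟨j, rfl⟩ := hφ.2 g
    exact ⟨j, hg.symm⟩
  have hlift : M ∈ lifts (ι₀.comp O.subtype) := by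
    rw [hMeq]
    refine Subsemiring.multiset_prod_mem _ _ fun z hz => ?_
    obtain ⟨r, hr, rfl⟩ := Multiset.mem_map.mp hz
    obtain ⟨j, rfl⟩ := hroots r hr
    exact (mem_lifts _).mpr ⟨X - C ⟨ψ j a, ha j⟩, by simp⟩
  obtain ⟨y, hy⟩ := (lifts_iff_coeff_lifts _).mp hlift m
  rw [coeff_map, IsScalarTower.algebraMap_apply E Ω (AlgebraicClosure Ω)] at hy
  rw [show ψE (p.coeff m) = (y : Ω) from ι₀.injective hy.symm]
  exact y.2

variable {W : Type} [CommRing W] [Algebra W K] [Algebra W E] [Algebra W F] [IsScalarTower W K E]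
  [IsScalarTower W K F] [IsScalarTower W E F]

/-- **Criterion.** A function lies in a chart iff it is integral over `K[x]` and all its
conjugates are integral, provided this holds at the lower level. -/
theorem mem_chartRing_iff_conjugates (O : ValuationSubring Ω) (ψE : E →+* Ω) {σ : Type*}
    [Fintype σ] (ψ : σ → F →+* Ω) (hψ : Function.Injective ψ)
    (hψE : ∀ j, (ψ j).comp (algebraMap E F) = ψE)
    (hcard : Fintype.card σ = Module.finrank E F) {xE : E}
    (hW : ∀ w : W, ψE (algebraMap W E w) ∈ O) (hx : ψE xE ∈ O)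
    (hcrit : ∀ e : E, e ∈ coordRing K xE → ψE e ∈ O → e ∈ chartRing W xE) {a : F} :
    a ∈ chartRing W (algebraMap E F xE) ↔
      a ∈ coordRing K (algebraMap E F xE) ∧ ∀ j, ψ j a ∈ O := by
  constructor
  · intro h
    refine ⟨?_, fun j => ?_⟩
    · obtain ⟨g, hg, hga⟩ := mem_chartRing_iff_isIntegralElem.mp h
      refine ⟨g.map (mapRingHom (algebraMap W K)), hg.map _, ?_⟩
      rw [eval₂_map, coordEval_comp_map]
      exact hga
    · have h1 := mem_chartRing_iff_isIntegralElem.mp h
      refine chartRing_mem_valuationSubring (V := O.comap (ψ j)) (x := algebraMap E F xE)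
        (fun w => ?_) ?_ h
      · show ψ j (algebraMap W F w) ∈ O
        rw [IsScalarTower.algebraMap_apply W E F, ← RingHom.comp_apply (ψ j), hψE]
        exact hW w
      · show ψ j (algebraMap E F xE) ∈ O
        rw [← RingHom.comp_apply (ψ j), hψE]
        exact hx
  · rintro ⟨hcoord, hO⟩
    rw [mem_chartRing_algebraMap_iff]
    have hcoeff : ∀ m, (minpoly E a).coeff m ∈ chartRing W xE := fun m =>
      hcrit _ (coeff_minpoly_mem_coordRing hcoord m)
        (coeff_minpoly_mem_of_conjugates O ψE ψ hψ hψE hcard hO m)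
    have hlift : minpoly E a ∈ lifts (algebraMap (chartRing W xE) E) :=
      (lifts_iff_coeff_lifts _).mpr fun m => ⟨⟨_, hcoeff m⟩, rfl⟩
    obtain ⟨G, hG, -, hGmon⟩ :=
      lifts_and_natDegree_eq_and_monic hlift (minpoly.monic (Algebra.IsIntegral.isIntegral a))
    refine ⟨G, hGmon, ?_⟩
    have h0 := minpoly.aeval E a
    rw [aeval_def, ← hG, eval₂_map] at h0
    exact h0

/-- **The chart.** -/
theorem isChart_chartRing [IsDomain W] [IsDiscreteValuationRing W] [IsFractionRing W K]
    [CharZero F] {ι : Type} {C : ι → Type} [∀ i, Field (C i)] (Br : Branches F ι C) (π : W)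
    (hπ0 : π ≠ 0) (O : ValuationSubring Ω) (ψE : E →+* Ω) {σ : Type*} [Fintype σ]
    (ψ : σ → F →+* Ω) (hψ : Function.Injective ψ)
    (hψE : ∀ j, (ψ j).comp (algebraMap E F) = ψE)
    (hcard : Fintype.card σ = Module.finrank E F) {xE : E}
    (hinj : Function.Injective (aeval (R := W) (algebraMap E F xE)))
    (hfin : ∃ s : Finset F, ∀ a : F, a ∈ Submodule.span
      (Subfield.closure (Set.range (algebraMap W F) ∪ {algebraMap E F xE})) (s : Set F))
    (hcrit : ∀ e : E, e ∈ coordRing K xE → ψE e ∈ O → e ∈ chartRing W xE)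
    (hdiv : ∀ e : E, ψE e ∈ O.nonunits → ψE ((algebraMap W E π)⁻¹ * e) ∈ O)
    (hWV : ∀ i (w : W), algebraMap W F w ∈ Br.V i) (hxV : ∀ i, algebraMap E F xE ∈ Br.V i)
    (hπV : ∀ i (h : algebraMap W F π ∈ Br.V i), Br.res i ⟨algebraMap W F π, h⟩ = 0)
    (hbr : ∀ j, ∃ i, ∀ a (h : a ∈ Br.V i), Br.res i ⟨a, h⟩ = 0 → ψ j a ∈ O.nonunits) :
    IsChart Br π (chartRing W (algebraMap E F xE)) where
  closed := chartRing_closed _
  noetherian := (chartRing_finite _ hinj hfin).1
  mem_V a ha i := chartRing_mem_valuationSubring (hWV i) (hxV i) ha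
  res_π := hπV
  radical a ha hres := by
    have hrad : ∀ e ∈ chartRing W xE, ψE e ∈ O.nonunits →
        ∃ b ∈ chartRing W xE, e = algebraMap W E π * b := by
      intro e he hnu
      have hπE : algebraMap W E π ≠ 0 := by
        intro h0
        apply hπ0
        rw [IsScalarTower.algebraMap_apply W K E, map_eq_zero] at h0
        exact (map_eq_zero_iff _ (IsFractionRing.injective W K)).mp h0
      refine ⟨(algebraMap W E π)⁻¹ * e, hcrit _ ?_ (hdiv e hnu), by
        rw [← mul_assoc, mul_inv_cancel₀ hπE, one_mul]⟩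
      have hcoord : e ∈ coordRing K xE := by
        obtain ⟨g, hg, hga⟩ := mem_chartRing_iff_isIntegralElem.mp he
        refine ⟨g.map (mapRingHom (algebraMap W K)), hg.map _, ?_⟩
        rw [eval₂_map, coordEval_comp_map]
        exact hga
      rw [IsScalarTower.algebraMap_apply W K E, ← map_inv₀]
      exact mul_mem ((coordRing K xE).algebraMap_mem _) hcoord
    have hclosed : ∀ e : E, IsIntegral (chartRing W xE) e → e ∈ chartRing W xE :=
      chartRing_closed _
    obtain ⟨N, b, hb, hab⟩ := exists_pow_eq_of_conjugates π (chartRing W xE) hclosed O ψE hrad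
      ψ hψ hψE hcard (mem_chartClosure_iff.mpr (mem_chartRing_algebraMap_iff.mp ha)) fun j => by
        obtain ⟨i, hi⟩ := hbr j
        exact hi a (chartRing_mem_valuationSubring (hWV i) (hxV i) ha) (hres i _)
    exact ⟨N, b, mem_chartRing_algebraMap_iff.mpr (mem_chartClosure_iff.mp hb), hab⟩

end Criterion

section Const

/-- An algebraic Laurent series of positive order vanishes. -/
theorem eq_zero_of_isAlgebraic_of_coeff {K : Type*} [Field K] {b : LaurentSeries K}
    (hb : IsAlgebraic K b) (h0 : ∀ n ≤ (0 : ℤ), b.coeff n = 0) : b = 0 := by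
  by_contra hne
  have hint := hb.isIntegral
  have hev : ∀ n ≤ (0 : ℤ), ∀ i : ℕ, i ≠ 0 → (b ^ i).coeff n = 0 := by
    have hord : (0 : ℤ) < b.order := by
      by_contra hle
      exact HahnSeries.coeff_order_eq_zero.not.mpr hne (h0 _ (not_lt.mp hle))
    intro n hn i hi
    apply HahnSeries.coeff_eq_zero_of_lt_order
    rw [HahnSeries.order_pow, nsmul_eq_mul]
    have : (1 : ℤ) * 1 ≤ i * b.order :=
      mul_le_mul (by exact_mod_cast Nat.one_le_iff_ne_zero.mpr hi) hord (by norm_num) (by omega)
    omega
  have h1 := minpoly.aeval K b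
  have hc0 : (minpoly K b).coeff 0 ≠ 0 := minpoly.coeff_zero_ne_zero hint hne
  apply hc0
  have := congrArg (fun z : LaurentSeries K => z.coeff 0) h1
  simp only [aeval_eq_sum_range, HahnSeries.coeff_sum, Algebra.smul_def,
    ModularCurve.algebraMap_laurentSeries_eq_single, HahnSeries.coeff_single_zero_mul,
    HahnSeries.coeff_zero] at this
  rw [Finset.sum_eq_single 0 (fun i _ hi => by rw [hev 0 le_rfl i hi, mul_zero])
    (fun h => absurd (Finset.mem_range.mpr (Nat.succ_pos _)) h)] at this
  simpa using this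

/-- Algebraic Laurent series are constants. -/
theorem exists_eq_C_of_isAlgebraic {K : Type*} [Field K] {a : LaurentSeries K}
    (ha : IsAlgebraic K a) : ∃ c : K, a = HahnSeries.C c := by
  rcases lt_or_ge a.order 0 with hlt | hge
  · exfalso
    have hne : a ≠ 0 := fun h => by simp [h] at hlt
    have hinv : a⁻¹ = 0 := by
      refine eq_zero_of_isAlgebraic_of_coeff ha.inv fun n hn => ?_
      apply HahnSeries.coeff_eq_zero_of_lt_order
      have h := HahnSeries.order_mul hne (inv_ne_zero hne)
      rw [mul_inv_cancel₀ hne, HahnSeries.order_one] at h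
      omega
    exact inv_ne_zero hne hinv
  · refine ⟨a.coeff 0, sub_eq_zero.mp (eq_zero_of_isAlgebraic_of_coeff ?_ fun n hn => ?_)⟩
    · refine ha.sub ?_
      rw [show (HahnSeries.C (a.coeff 0) : LaurentSeries K) = algebraMap K _ (a.coeff 0) by
        rw [ModularCurve.algebraMap_laurentSeries_eq_single]; rfl]
      exact isAlgebraic_algebraMap _
    · rcases hn.lt_or_eq with h | h
      · rw [HahnSeries.coeff_sub, HahnSeries.coeff_eq_zero_of_lt_order (h.trans_le hge),
          HahnSeries.C_apply, HahnSeries.coeff_single_of_ne h.ne, sub_zero]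
      · subst h
        simp [HahnSeries.C_apply]

variable {W K : Type} [CommRing W] [Field K] [Algebra W K] [IsFractionRing W K]
  [IsIntegrallyClosed W] (F : IntermediateField K (LaurentSeries K)) [Algebra W F]
  [IsScalarTower W K F]

/-- Functions in both charts are integral constants. -/
theorem exists_const_of_mem_chartRing {x a : F} (h₀ : a ∈ chartRing W x)
    (h₁ : a ∈ chartRing W x⁻¹) : ∃ w : W, a = algebraMap W F w := by
  have hint : IsIntegral W a := by
    have hmem : a ∈ (⨅ V : {V : ValuationSubring F //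
        Set.range (algebraMap W F) ⊆ V.toSubring}, V.1.toSubring) := by
      refine Subring.mem_iInf.mpr fun V => ?_
      rcases V.1.mem_or_inv_mem x with h | h
      · exact chartRing_mem_valuationSubring (fun w => V.2 ⟨w, rfl⟩) h h₀
      · exact chartRing_mem_valuationSubring (fun w => V.2 ⟨w, rfl⟩) h h₁
    rw [iInf_valuationSubring_superset] at hmem
    have hle : Subring.closure (Set.range (algebraMap W F)) ≤ (algebraMap W F).range :=
      Subring.closure_le.mpr fun y hy => hy
    obtain ⟨g, hg, hga⟩ := hmem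
    let f : Subring.closure (Set.range (algebraMap W F)) →+* (algebraMap W F).range :=
      Subring.inclusion hle
    obtain ⟨G, hG, -, hGmon⟩ := lifts_and_natDegree_eq_and_monic ((mem_lifts _).mpr
      (Polynomial.map_surjective (algebraMap W F).rangeRestrict
        (algebraMap W F).rangeRestrict_surjective (g.map f))) (hg.map f)
    refine ⟨G, hGmon, ?_⟩
    have : algebraMap W F = (algebraMap W F).range.subtype.comp (algebraMap W F).rangeRestrict :=
      RingHom.ext fun w => rfl
    rw [this, ← eval₂_map, hG, eval₂_map]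
    exact hga
  have halg : IsAlgebraic K (a : LaurentSeries K) :=
    (hint.tower_top (A := K)).isAlgebraic.algHom F.val
  obtain ⟨c, hc⟩ := exists_eq_C_of_isAlgebraic halg
  have hac : a = algebraMap K F c := Subtype.ext (by
    rw [hc]
    show HahnSeries.C c = algebraMap K (LaurentSeries K) c
    rw [ModularCurve.algebraMap_laurentSeries_eq_single]; rfl)
  obtain ⟨w, hw⟩ := IsIntegrallyClosed.isIntegral_iff.mp
    ((isIntegral_algHom_iff (IsScalarTower.toAlgHom W K F)
      (algebraMap K F).injective).mp (hac ▸ hint : IsIntegral W (algebraMap K F c)))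
  exact ⟨w, by rw [hac, ← hw, ← IsScalarTower.algebraMap_apply]⟩

end Const

end Fermat.Agent.Carayol
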