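/-
Embeddings of function fields of modular curves into Laurent series given by substitutions
`τ ↦ W τ` on the upper half plane.
-/
import Fermat.Agent.RED.Specialization.SwapField
import Fermat.Agent.Igusa.ExpRing

set_option autoImplicit false

noncomputable section

open UpperHalfPlane HahnSeries ModularCurve IntermediateField
open Fermat.Agent.Igusa Fermat.Agent.RED.Spec Fermat.Agent.HK.Corr

namespace Fermat.Agent.Carayol

local notation "𝕢" => Function.Periodic.qParam

/-- A function with the zero expansion vanishes. -/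
theorem hasExp_zero_eq {h : ℕ} {f : ℍ → ℂ} (hf : HasExp h f 0) : f = 0 := by
  obtain ⟨M, p, hp, hsum⟩ := hf
  have hp0 : p = 0 := HahnSeries.ofPowerSeries_injective (Γ := ℤ) (R := ℂ) (by simpa using hp)
  funext τ
  have h1 : HasSum (fun n ↦ PowerSeries.coeff n p * 𝕢 (h : ℝ) τ ^ n)
      (f τ * 𝕢 (h : ℝ) τ ^ M) := hsum τ
  simp only [hp0, map_zero, zero_mul] at h1
  have h2 := h1.unique hasSum_zero
  exact (mul_eq_zero.mp h2).resolve_right (pow_ne_zero _ (Function.Periodic.qParam_ne_zero _))

/-- Expansions of polynomial expressions. -/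
theorem hasExp_aeval {ι : Type*} {h : ℕ} {G : ι → ℍ → ℂ} {s : ι → LaurentSeries ℂ}
    (hG : ∀ i, HasExp h (G i) (s i)) (P : MvPolynomial ι ℂ) :
    HasExp h (fun τ ↦ MvPolynomial.aeval (fun i ↦ G i τ) P) (MvPolynomial.aeval s P) := by
  induction P using MvPolynomial.induction_on with
  | C c =>
    simpa [algebraMap_laurentSeries_eq_single] using (hasExp_const (h := h) c)
  | add p r hp hr =>
    have h1 : (fun τ ↦ MvPolynomial.aeval (fun i ↦ G i τ) (p + r)) =
        (fun τ ↦ MvPolynomial.aeval (fun i ↦ G i τ) p) +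
          (fun τ ↦ MvPolynomial.aeval (fun i ↦ G i τ) r) := by
      funext τ; simp
    rw [h1, map_add]
    exact hp.add hr
  | mul_X p i hp =>
    have h1 : (fun τ ↦ MvPolynomial.aeval (fun j ↦ G j τ) (p * MvPolynomial.X i)) =
        (fun τ ↦ MvPolynomial.aeval (fun j ↦ G j τ) p) * G i := by
      funext τ; simp
    rw [h1, map_mul, MvPolynomial.aeval_X]
    exact hp.mul (hG i)

/-- The expansion of `j (d τ)`. -/
theorem hasExp_genFun {M : ℕ} (d : DivIdx M) : HasExp 1 (genFun d) (genSer ℂ d) := by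
  have : NeZero d.1 := ⟨d.2.1.ne'⟩
  have h := hasExp_jFun.comp (h' := 1) (MF.scaleH d.1) 1 d.1 fun τ ↦ by
    rw [Units.val_one, one_mul, MF.coe_scaleH, Function.Periodic.qParam,
      Function.Periodic.qParam, ← Complex.exp_nat_mul]
    congr 1
    push_cast
    ring
  rw [qScale_one, RingHom.id_apply] at h
  exact h

theorem coeffMap_aeval {K : Type*} [Field K] (ι : K →+* ℂ) {σ : Type*}
    (s : σ → LaurentSeries K) (P : MvPolynomial σ K) :
    coeffMap ι (MvPolynomial.aeval s P) =
      MvPolynomial.aeval (fun i ↦ coeffMap ι (s i)) (MvPolynomial.map ι P) := by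
  induction P using MvPolynomial.induction_on with
  | C c =>
    rw [MvPolynomial.map_C, MvPolynomial.aeval_C, MvPolynomial.aeval_C,
      algebraMap_laurentSeries_eq_single, algebraMap_laurentSeries_eq_single, coeffMap_single]
  | add p q hp hq => simp only [map_add, hp, hq]
  | mul_X p d hp => simp only [map_mul, hp, MvPolynomial.map_X, MvPolynomial.aeval_X]

variable {K : Type*} [Field K] [Algebra ℚ K] {M : ℕ} [NeZero M]

theorem genSer_mem (d : DivIdx M) : genSer K d ∈ modField K M := by
  rw [modField_eq_adjoin_genSer]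
  exact subset_adjoin K _ ⟨d, rfl⟩

omit [Algebra ℚ K] [NeZero M] in
open IntermediateField.algebraAdjoinAdjoin in
/-- **Substitution.** If `j (d W τ)` has expansion `s d` for a surjective `W`, there is an
embedding of the function field of level `M` sending `j (q^d)` to `s d`. -/
theorem exists_substEmbedding_adjoin (ι : K →+* ℂ) {h : ℕ} (hh : 0 < h) (W : ℍ → ℍ)
    (hW : Function.Surjective W)
    (s : DivIdx M → LaurentSeries K)
    (hexp : ∀ d, HasExp h (genFun d ∘ W) (coeffMap ι (s d))) :
    ∃ φ : adjoin K (Set.range (genSer K (M := M))) →ₐ[K] LaurentSeries K,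
      ∀ d, φ ⟨genSer K d, subset_adjoin K _ ⟨d, rfl⟩⟩ = s d := by
  have hinj : Function.Injective (coeffMap ι : LaurentSeries K → LaurentSeries ℂ) :=
    coeffMap_injective ι.injective
  have hgen : ∀ P : MvPolynomial (DivIdx M) K,
      HasExp 1 (fun τ ↦ MvPolynomial.aeval (fun d ↦ genFun d τ) (MvPolynomial.map ι P))
        (coeffMap ι (MvPolynomial.aeval (genSer K) P)) := fun P ↦ by
    have h1 := hasExp_aeval (hasExp_genFun (M := M)) (MvPolynomial.map ι P)
    have h2 := coeffMap_aeval ι (genSer K (M := M)) P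
    simp only [coeffMap_genSer] at h2
    exact h2 ▸ h1
  have hsub : ∀ P : MvPolynomial (DivIdx M) K,
      HasExp h (fun τ ↦ MvPolynomial.aeval (fun d ↦ genFun d (W τ)) (MvPolynomial.map ι P))
        (coeffMap ι (MvPolynomial.aeval s P)) := fun P ↦ by
    rw [coeffMap_aeval]
    exact hasExp_aeval hexp _
  have hfun : ∀ {n : ℕ} (_ : 0 < n) {g : ℍ → ℂ} {x : LaurentSeries ℂ}, HasExp n g x → g = 0 →
      x = 0 := fun hn g x hx hg ↦ hx.unique hn (hg ▸ hasExp_zero)
  have fwd : ∀ P : MvPolynomial (DivIdx M) K, MvPolynomial.aeval (genSer K) P = 0 →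
      MvPolynomial.aeval s P = 0 := by
    intro P hP
    have h0 := hgen P
    rw [hP, map_zero] at h0
    have h0' := hasExp_zero_eq h0
    apply hinj
    rw [map_zero]
    exact hfun hh (hsub P) (funext fun τ ↦ congrFun h0' (W τ))
  have bwd : ∀ P : MvPolynomial (DivIdx M) K, MvPolynomial.aeval s P = 0 →
      MvPolynomial.aeval (genSer K) P = 0 := by
    intro P hP
    have h0 := hsub P
    rw [hP, map_zero] at h0
    have h0' := hasExp_zero_eq h0
    apply hinj
    rw [map_zero]
    refine hfun Nat.one_pos (hgen P) (funext fun τ ↦ ?_)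
    obtain ⟨σ, rfl⟩ := hW τ
    exact congrFun h0' σ
  choose P hP using fun x : genAlg K M => exists_aeval_eq_of_mem_genAlg x
  set f := MvPolynomial.aeval (R := K) s
  have hf : ∀ (Q : MvPolynomial (DivIdx M) K) (x : genAlg K M),
      MvPolynomial.aeval (genSer K) Q = (x : LaurentSeries K) → f Q = f (P x) := by
    intro Q x hQ
    rw [← sub_eq_zero, ← map_sub]
    exact fwd _ (by rw [map_sub, hQ, hP, sub_self])
  let ψ : genAlg K M →ₐ[K] LaurentSeries K :=
    { toFun := fun x => f (P x)
      map_one' := (hf 1 1 (by simp)).symm.trans (map_one f)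
      map_mul' := fun x y => (hf (P x * P y) (x * y) (by simp [hP])).symm.trans (map_mul f _ _)
      map_zero' := (hf 0 0 (by simp)).symm.trans (map_zero f)
      map_add' := fun x y => (hf (P x + P y) (x + y) (by simp [hP])).symm.trans (map_add f _ _)
      commutes' := fun c => (hf (MvPolynomial.C c) (algebraMap K _ c)
        (by rw [MvPolynomial.aeval_C]; rfl)).symm.trans (MvPolynomial.aeval_C _ c) }
  have hψ : Function.Injective ψ := by
    rw [injective_iff_map_eq_zero]
    intro x hx
    exact Subtype.ext ((hP x).symm.trans (bwd _ hx))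
  have hψd : ∀ d, ψ ⟨genSer K d, Algebra.subset_adjoin ⟨d, rfl⟩⟩ = s d := fun d =>
    (hf (MvPolynomial.X d) ⟨genSer K d, Algebra.subset_adjoin ⟨d, rfl⟩⟩ (by simp)).symm.trans
      (MvPolynomial.aeval_X _ d)
  refine ⟨IsFractionRing.liftAlgHom hψ, fun d => ?_⟩
  rw [← hψd d, IsFractionRing.liftAlgHom_apply]
  exact IsFractionRing.lift_algebraMap hψ ⟨genSer K d, Algebra.subset_adjoin ⟨d, rfl⟩⟩

/-- The same on `modField`. -/
theorem exists_substEmbedding (ι : K →+* ℂ) {h : ℕ} (hh : 0 < h) (W : ℍ → ℍ)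
    (hW : Function.Surjective W) (s : DivIdx M → LaurentSeries K)
    (hexp : ∀ d, HasExp h (genFun d ∘ W) (coeffMap ι (s d))) :
    ∃ φ : modField K M →ₐ[K] LaurentSeries K,
      ∀ d, φ ⟨genSer K d, genSer_mem d⟩ = s d := by
  obtain ⟨φ₀, hφ₀⟩ := exists_substEmbedding_adjoin ι hh W hW s hexp
  exact ⟨φ₀.comp (inclusion (modField_eq_adjoin_genSer (L := K) M).le), fun d => hφ₀ d⟩

end Fermat.Agent.Carayol
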