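/-
Functions with algebraic integer expansions at all cusps inside `K(X₀(N))`: membership, integrality
over `ℤ[j]` and over `ℤ[1/j]`, and their images under substitution embeddings (helper50, S36).
-/
import Fermat.Agent.Carayol.SeriesSubst
import Fermat.Agent.Igusa.Irreducible
import Fermat.Agent.Igusa.ChartReduction
import Fermat.Agent.MF.Coeff.IntegralJN

set_option autoImplicit false

noncomputable section

open UpperHalfPlane Polynomial ModularCurve
open Fermat.Agent.Igusa Fermat.Agent.RED.Spec Fermat.Agent.HK.Corr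
open scoped MatrixGroups

namespace Fermat.Agent.Carayol

section Subst

variable {K : Type*} [Field K] [Algebra ℚ K] {M : ℕ} [NeZero M]

/-- The image of a function under a substitution embedding is its expansion after substitution. -/
theorem substEmbedding_eq (ι : K →+* ℂ) {h : ℕ} (hh : 0 < h) (W : ℍ → ℍ)
    (φ : modField K M →ₐ[K] LaurentSeries K)
    (hexp : ∀ d, HasExp h (genFun d ∘ W) (coeffMap ι (φ ⟨genSer K d, genSer_mem d⟩)))
    {f : ℍ → ℂ} {x : LaurentSeries K} (hx : x ∈ modField K M) (hf : HasExp 1 f (coeffMap ι x))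
    {y : LaurentSeries K} (hy : HasExp h (f ∘ W) (coeffMap ι y)) : φ ⟨x, hx⟩ = y := by
  let g : DivIdx M → modField K M := fun d => ⟨genSer K d, genSer_mem d⟩
  have hv : ∀ P : MvPolynomial (DivIdx M) K,
      ((MvPolynomial.aeval g P : modField K M) : LaurentSeries K) =
        MvPolynomial.aeval (genSer K) P := fun P =>
    DFunLike.congr_fun (MvPolynomial.comp_aeval g (modField K M).val) P
  have hφP : ∀ P : MvPolynomial (DivIdx M) K,
      φ (MvPolynomial.aeval g P) = MvPolynomial.aeval (fun d => φ (g d)) P := fun P =>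
    DFunLike.congr_fun (MvPolynomial.comp_aeval g φ) P
  obtain ⟨r, hr, s, hs, hxrs⟩ := IntermediateField.mem_adjoin_iff_div.mp
    (modField_eq_adjoin_genSer (L := K) M ▸ hx)
  rw [Algebra.adjoin_range_eq_range_aeval] at hr hs
  obtain ⟨P, rfl⟩ := hr
  obtain ⟨S, rfl⟩ := hs
  simp only [RingHom.coe_coe, AlgHom.toRingHom_eq_coe] at hxrs
  rcases eq_or_ne (MvPolynomial.aeval (genSer K) S) 0 with hS | hS
  · -- the zero function
    have hx0 : x = 0 := by rw [hxrs, hS, div_zero]
    subst hx0
    rw [map_zero] at hf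
    have h0 := hasExp_zero_eq hf
    rw [h0, show ((0 : ℍ → ℂ) ∘ W) = 0 from rfl] at hy
    have hy0 : y = 0 := coeffMap_injective ι.injective
      ((hy.unique hh hasExp_zero).trans (map_zero _).symm)
    rw [hy0]
    exact map_zero φ
  have hmul : x * MvPolynomial.aeval (genSer K) S = MvPolynomial.aeval (genSer K) P := by
    rw [hxrs, div_mul_cancel₀ _ hS]
  have hev : ∀ Q : MvPolynomial (DivIdx M) K,
      HasExp 1 (fun τ => MvPolynomial.aeval (fun d => genFun d τ) (MvPolynomial.map ι Q))
        (coeffMap ι (MvPolynomial.aeval (genSer K) Q)) := fun Q => by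
    rw [coeffMap_aeval]
    simp only [coeffMap_genSer]
    exact hasExp_aeval hasExp_genFun _
  have hevW : ∀ Q : MvPolynomial (DivIdx M) K,
      HasExp h (fun τ => MvPolynomial.aeval (fun d => genFun d (W τ)) (MvPolynomial.map ι Q))
        (coeffMap ι (φ (MvPolynomial.aeval g Q))) := fun Q => by
    rw [hφP, coeffMap_aeval]
    exact hasExp_aeval hexp _
  have hz := (hf.mul (hev S)).add (hev P).neg
  rw [← map_mul, hmul, add_neg_cancel] at hz
  have hfun := hasExp_zero_eq hz
  have hy' := (hy.mul (hevW S)).add (hevW P).neg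
  have hy0 := hy'.unique hh (t := 0) (by
    convert! (hasExp_zero (h := h)) using 1
    funext τ
    simpa using congrFun hfun (W τ))
  rw [← map_mul, ← map_neg, ← map_add] at hy0
  have hrel : y * φ (MvPolynomial.aeval g S) = φ (MvPolynomial.aeval g P) :=
    add_neg_eq_zero.mp (coeffMap_injective ι.injective (hy0.trans (map_zero _).symm))
  have hg : (⟨x, hx⟩ : modField K M) * MvPolynomial.aeval g S = MvPolynomial.aeval g P :=
    Subtype.ext (by rw [IntermediateField.coe_mul, hv, hv]; exact hmul)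
  have hgS : φ (MvPolynomial.aeval g S) ≠ 0 := by
    rw [Ne, map_eq_zero_iff φ φ.injective]
    exact fun h0 => hS (by rw [← hv, h0]; rfl)
  exact mul_right_cancel₀ hgS (by rw [← map_mul, hg, hrel])

end Subst

section Conjugable

variable {N : ℕ} [NeZero N]

/-- The trivial conjugate is the expansion at infinity. -/
theorem coeffMap_conj_one {f : ℍ → ℂ} (hf : Conjugable N f) {s : LaurentSeries ℂ}
    (hs : HasExp 1 f s) :
    coeffMap valC (expHom N (hf.conj ((1 : SL(2, ℤ)) : Coset N))) = qExpand ℂ N s := by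
  have h1 : ((hf.conj ((1 : SL(2, ℤ)) : Coset N) : ↥(expRing N)) : ℍ → ℂ) = f :=
    funext fun τ => hf.inv _ ((rep_mem_iff _).mpr rfl) τ
  have h2 := hasExp_expHom (hf.conj ((1 : SL(2, ℤ)) : Coset N))
  rw [h1] at h2
  refine h2.unique (Nat.pos_of_ne_zero (NeZero.ne N)) ?_
  have h3 := hs.comp (h' := N) id 1 N fun τ => by
    rw [Units.val_one, one_mul, id, Function.Periodic.qParam, Function.Periodic.qParam,
      ← Complex.exp_nat_mul]
    congr 1
    have : (N : ℂ) ≠ 0 := Nat.cast_ne_zero.mpr (NeZero.ne N)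
    push_cast
    field_simp
  rwa [qScale_one, RingHom.id_apply] at h3

variable {K : Type} [Field K] [Algebra ℚ K]

theorem conjugable_one : Conjugable N (fun _ => 1) :=
  ⟨fun _ _ _ => rfl, fun _ => (expRing N).one_mem⟩

/-- `Conjugable` functions lie in `ℂ(j, j_N)`. -/
theorem mem_adjoin_of_conjugable {f : ℍ → ℂ} (hf : Conjugable N f) {s : LaurentSeries ℂ}
    (hs : HasExp 1 f s) :
    s ∈ IntermediateField.adjoin ℂ {jqModC ℂ, jqNModC ℂ N} := by
  classical
  letI := Fintype.ofFinite (Coset N)
  haveI : NeZero (N * N) := ⟨Nat.mul_ne_zero (NeZero.ne N) (NeZero.ne N)⟩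
  let F := IntermediateField.adjoin ℂ {jqModC ℂ, jqNModC ℂ N}
  have hy := conjugable_jdFun (N := N) (dvd_refl N)
  let x : Coset N → LaurentSeries R0 := fun q => expHom N (hy.conj q)
  set one : Coset N := ((1 : SL(2, ℤ)) : Coset N)
  have hxone : coeffMap valC (x one) = qExpand ℂ N (jqNModC ℂ N) := by
    rw [show x one = _ from expHom_conj_jdFun (dvd_refl N) one, jSer_tri_one, coeffMap_qExpand,
      ModularCurve.coeffMap_jqModC, jqNModC, qExpand_qExpand]
  let e : R0[X] →+* LaurentSeries ℂ := eval₂RingHom (HahnSeries.C.comp valC) (jqModC ℂ)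
  have he : (coeffMap valC).comp (evJ N) = (qExpand ℂ N).comp e :=
    Polynomial.ringHom_ext (fun a => by simp [evJ, e, coeffMap_C', qExpand_C])
      (by simp [evJ, e, coeffMap_qExpand, ModularCurve.coeffMap_jqModC])
  have heF : ∀ p, e p ∈ F := by
    intro p
    induction p using Polynomial.induction_on' with
    | add p q hp hq => rw [map_add]; exact add_mem hp hq
    | monomial i a =>
      simp only [e, coe_eval₂RingHom, eval₂_monomial, RingHom.comp_apply]
      refine mul_mem ?_ (pow_mem (IntermediateField.subset_adjoin ℂ {jqModC ℂ, jqNModC ℂ N}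
        (Set.mem_insert (jqModC ℂ) {jqNModC ℂ N})) i)
      rw [show (HahnSeries.C (valC a) : LaurentSeries ℂ) = algebraMap ℂ (LaurentSeries ℂ) (valC a)
        by rw [algebraMap_laurentSeries_eq_single]; rfl]
      exact F.algebraMap_mem _
  have hsum : ∀ Q : R0[X][X], Q.eval₂ e (jqNModC ℂ N) ∈ F := by
    intro Q
    rw [eval₂_eq_sum_range]
    refine sum_mem fun i _ => ?_
    have hj : jqNModC ℂ N ∈ F :=
      IntermediateField.subset_adjoin ℂ {jqModC ℂ, jqNModC ℂ N}
        (Set.mem_insert_of_mem _ (Set.mem_singleton (jqNModC ℂ N)))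
    exact mul_mem (heF (Q.coeff i)) (pow_mem hj i)
  have key : ∀ (g : ℍ → ℂ) (hg : Conjugable N g), ∃ Q : R0[X][X],
      qExpand ℂ N (Q.eval₂ e (jqNModC ℂ N)) = coeffMap valC (expHom N (hg.conj one)) *
        coeffMap valC ((∏ q : Coset N, (X - C (x q))).derivative.eval (x one)) := by
    intro g hg
    obtain ⟨Q, hQ⟩ := exists_lagrange hy hg
    refine ⟨Q, ?_⟩
    have h1 : Q.eval₂ (evJ N) (x one) = expHom N (hg.conj one) *
        (∏ q : Coset N, (X - C (x q))).derivative.eval (x one) := by
      rw [eval₂_eq_eval_map, hQ]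
      exact eval_lagrangeNum x (fun q => expHom N (hg.conj q)) one
    calc qExpand ℂ N (Q.eval₂ e (jqNModC ℂ N))
        = Q.eval₂ ((qExpand ℂ N).comp e) (qExpand ℂ N (jqNModC ℂ N)) := Polynomial.hom_eval₂ Q _ _ _
      _ = Q.eval₂ ((coeffMap valC).comp (evJ N)) (coeffMap valC (x one)) := by rw [he, hxone]
      _ = coeffMap valC (Q.eval₂ (evJ N) (x one)) := (Polynomial.hom_eval₂ Q _ _ _).symm
      _ = _ := by rw [h1, map_mul]
  obtain ⟨Q, hQ⟩ := key f hf
  obtain ⟨Q1, hQ1⟩ := key _ (conjugable_one (N := N))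
  rw [coeffMap_conj_one hf hs] at hQ
  rw [coeffMap_conj_one conjugable_one (s := 1) (by exact hasExp_one), map_one, one_mul] at hQ1
  rw [← hQ1, ← map_mul] at hQ
  have hQ1ne : Q1.eval₂ e (jqNModC ℂ N) ≠ 0 := by
    intro h0
    rw [h0, map_zero] at hQ1
    have hinj : Function.Injective fun q => coeffMap valC (x q) := by
      have h := jK_injective (N := N) (k := ℂ) valC (Nat.cast_ne_zero.mpr (NeZero.ne N))
      intro a b hab
      exact h (by simpa only [x, expHom_conj_jdFun (dvd_refl N)] using! hab)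
    refine (separable_prod_X_sub_C_iff.mpr hinj).eval₂_derivative_ne_zero (RingHom.id _)
      (x := coeffMap valC (x one)) ?_ ?_
    · rw [eval₂_id, eval_prod]
      exact Finset.prod_eq_zero (Finset.mem_univ one) (by simp)
    · rw [eval₂_id, hQ1, ← eval₂_at_apply, eval₂_eq_eval_map, ← derivative_map,
        Polynomial.map_prod]
      simp only [Polynomial.map_sub, map_X, map_C]
  rw [eq_div_of_mul_eq hQ1ne (qExpand_injective N hQ).symm]
  exact div_mem (hsum Q) (hsum Q1)

/-- `Conjugable` functions with coefficients in `K` lie in `K(X₀(N))`. -/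
theorem mem_modField_of_conjugable (ι : K →+* ℂ) {f : ℍ → ℂ} (hf : Conjugable N f)
    {x : LaurentSeries K} (hx : HasExp 1 f (coeffMap ι x)) : x ∈ modField K N := by
  have h1 := mem_adjoin_of_conjugable hf hx
  rw [← coeffMap_jqModC ι, ← coeffMap_jqNModC ι N, ← MF.Coeff.bc_adjoin_pair,
    MF.Coeff.coeffMap_mem_bc_iff] at h1
  refine (IntermediateField.adjoin_le_iff.mpr ?_ : _ ≤ modField K N) h1
  rintro _ (rfl | rfl)
  · have h := genSer_mem (K := K) (M := N)
      ⟨1, one_pos, one_dvd N⟩
    simpa [genSer, qExpand_one_apply] using h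
  · exact genSer_mem (K := K) (M := N) ⟨N, Nat.pos_of_ne_zero (NeZero.ne N), dvd_refl N⟩

/-- Integrality over `ℤ[T]` from a monic relation with algebraic integer coefficients. -/
theorem isIntegralElem_evZ_of_relation {R : Type*} [CommRing R] [Algebra.IsIntegral ℤ R]
    {L : Type*} [Field L] (v : R →+* L) {K : Type*} [Field K] (ι : K →+* L)
    (T y : LaurentSeries K) (P : R[X][X]) (hP : P.Monic)
    (h : P.eval₂ (eval₂RingHom (HahnSeries.C.comp v) (coeffMap ι T)) (coeffMap ι y) = 0) :
    (eval₂RingHom (Int.castRingHom (LaurentSeries K)) T).IsIntegralElem y := by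
  set eK := eval₂RingHom (Int.castRingHom (LaurentSeries K)) T
  let f : LaurentSeries K →+* LaurentSeries L := coeffMap ι
  let _ : Algebra ℤ[X] (LaurentSeries L) := (f.comp eK).toAlgebra
  let S := integralClosure ℤ[X] (LaurentSeries L)
  have hconst : ∀ c : R, HahnSeries.C (v c) ∈ S := by
    intro c
    obtain ⟨Q, hQ, hQ0⟩ := Algebra.IsIntegral.isIntegral (R := ℤ) c
    refine ⟨Q.map Polynomial.C, hQ.map _, ?_⟩
    rw [Polynomial.eval₂_map,
      Subsingleton.elim ((algebraMap ℤ[X] (LaurentSeries L)).comp Polynomial.C)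
        ((HahnSeries.C.comp v).comp (algebraMap ℤ R)),
      ← RingHom.comp_apply HahnSeries.C v, ← Polynomial.hom_eval₂, hQ0, map_zero]
  have hT : f T ∈ S := by
    refine ⟨X - C X, monic_X_sub_C _, ?_⟩
    rw [eval₂_sub, eval₂_X, eval₂_C, sub_eq_zero]
    show f T = f (eK X)
    simp [eK]
  let g : R[X] →+* S := eval₂RingHom ((HahnSeries.C.comp v).codRestrict S.toSubring hconst)
    ⟨f T, hT⟩
  have hg : (algebraMap S (LaurentSeries L)).comp g =
      eval₂RingHom (HahnSeries.C.comp v) (f T) := by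
    refine Polynomial.ringHom_ext' ?_ ?_
    · ext c : 1
      simp only [RingHom.comp_apply, g, coe_eval₂RingHom, eval₂_C]
      rfl
    · simp only [RingHom.comp_apply, g, coe_eval₂RingHom, eval₂_X]
      rfl
  have hi : IsIntegral S (f y) := by
    refine ⟨P.map g, hP.map g, ?_⟩
    rw [eval₂_map, hg]
    exact h
  obtain ⟨Q, hQ, hQ0⟩ := isIntegral_trans (R := ℤ[X]) (f y) hi
  refine ⟨Q, hQ, coeffMap_injective ι.injective ?_⟩
  rw [map_zero, hom_eval₂]
  exact hQ0

/-- `Conjugable` functions are integral over `ℤ[j]`. -/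
theorem isIntegralElem_of_conjugable {f : ℍ → ℂ} (hf : Conjugable N f) (ι : K →+* ℂ)
    {x : LaurentSeries K} (hx : HasExp 1 f (coeffMap ι x)) :
    (eval₂RingHom (Int.castRingHom (LaurentSeries K)) (jqModC K)).IsIntegralElem x := by
  classical
  letI := Fintype.ofFinite (Coset N)
  obtain ⟨P, hPm, -, hP⟩ := exists_charPoly hf
  refine isIntegralElem_evZ_of_relation valC ι _ _ P hPm ?_
  rw [ModularCurve.coeffMap_jqModC]
  apply qExpand_injective (R := ℂ) N
  have he : (qExpand ℂ N).comp (eval₂RingHom (HahnSeries.C.comp valC) (jqModC ℂ)) =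
      (coeffMap valC).comp (evJ N) :=
    Polynomial.ringHom_ext (fun a => by simp [evJ, coeffMap_C', qExpand_C])
      (by simp [evJ, coeffMap_qExpand, ModularCurve.coeffMap_jqModC])
  rw [map_zero, hom_eval₂, he, ← coeffMap_conj_one hf hx, ← hom_eval₂, eval₂_eq_eval_map, hP,
    eval_prod, Finset.prod_eq_zero (Finset.mem_univ ((1 : SL(2, ℤ)) : Coset N)) (by simp),
    map_zero]

end Conjugable

end Fermat.Agent.Carayol
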