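/-
A `Conjugable` function with poles of bounded order at all cusps, divided by a power of `j`, is
integral over `ℤ[1/j]` (helper50, S36).
-/
import Fermat.Agent.Carayol.ModFieldMem

set_option autoImplicit false

noncomputable section

open UpperHalfPlane Polynomial ModularCurve
open Fermat.Agent.Igusa Fermat.Agent.HK.Corr
open scoped MatrixGroups

namespace Fermat.Agent.Carayol

/-- The coefficients of `∏ (X - t aᵢ)`. -/
theorem coeff_prod_X_sub_C_mul {R ι : Type*} [CommRing R] (O : Finset ι) (a : ι → R) (t : R)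
    (i : ℕ) (hi : i ≤ O.card) :
    (∏ o ∈ O, (X - C (t * a o))).coeff i = (∏ o ∈ O, (X - C (a o))).coeff i * t ^ (O.card - i) := by
  classical
  induction O using Finset.induction generalizing i with
  | empty =>
    obtain rfl : i = 0 := by simpa using hi
    simp
  | insert o O ho ih =>
    rw [Finset.prod_insert ho, Finset.prod_insert ho, Finset.card_insert_of_notMem ho] at *
    rcases i with _ | i
    · simp only [mul_coeff_zero, coeff_sub, coeff_X_zero, coeff_C_zero, zero_sub, Nat.sub_zero,
        pow_succ]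
      rw [ih 0 (Nat.zero_le _), Nat.sub_zero]
      ring
    · simp only [sub_mul, coeff_sub, coeff_X_mul, coeff_C_mul]
      rw [ih i (Nat.le_of_succ_le_succ hi), Nat.succ_sub_succ]
      rcases eq_or_lt_of_le (Nat.le_of_succ_le_succ hi) with h | h
      · subst h
        have hz : ∀ b : ι → R, (∏ p ∈ O, (X - C (b p))).coeff (O.card + 1) = 0 := fun b => by
          refine coeff_eq_zero_of_natDegree_lt ?_
          nontriviality R
          rw [natDegree_finsetProd_X_sub_C_eq_card]
          exact Nat.lt_succ_self _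
        rw [hz, hz]
        simp
      · rw [ih (i + 1) h, show O.card - i = O.card - (i + 1) + 1 by omega]
        ring

/-- Evaluating a reflected polynomial at an inverse. -/
theorem eval₂_reflect_of_mul_eq_one {R S : Type*} [CommSemiring R] [CommRing S] (f : R →+* S)
    {j u : S} (hju : j * u = 1) {k : ℕ} (p : R[X]) (hp : p.natDegree ≤ k) :
    (p.reflect k).eval₂ f u = p.eval₂ f j * u ^ k := by
  refine Polynomial.induction_with_natDegree_le
    (fun p : R[X] => (p.reflect k).eval₂ f u = p.eval₂ f j * u ^ k) k (by simp) ?_ ?_ p hp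
  · intro n r _ hn
    rw [reflect_C_mul_X_pow, Polynomial.revAt_le hn, eval₂_mul, eval₂_C, eval₂_X_pow, eval₂_mul,
      eval₂_C, eval₂_X_pow, mul_assoc]
    congr 1
    conv_rhs => rw [show u ^ k = u ^ n * u ^ (k - n) by rw [← pow_add, Nat.add_sub_cancel' hn],
      ← mul_assoc, ← mul_pow, hju, one_pow, one_mul]
  · intro a b _ _ h1 h2
    rw [reflect_add, eval₂_add, h1, h2, eval₂_add, add_mul]

theorem coeff_ofPowerSeries_of_neg {R : Type*} [CommRing R] (p : PowerSeries R) {n : ℤ}
    (hn : n < 0) : (HahnSeries.ofPowerSeries ℤ R p).coeff n = 0 := by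
  rw [HahnSeries.ofPowerSeries_apply]
  refine HahnSeries.embDomain_notin_image_support fun h => ?_
  obtain ⟨m, -, rfl⟩ := h
  exact absurd hn (not_lt.mpr (Int.natCast_nonneg m))

theorem ofPowerSeries_X_pow' {R : Type*} [CommRing R] (k : ℕ) :
    HahnSeries.ofPowerSeries ℤ R (PowerSeries.X ^ k) = HahnSeries.single (k : ℤ) 1 := by
  rw [map_pow, HahnSeries.ofPowerSeries_X, HahnSeries.single_pow, one_pow]
  simp

theorem hasLead_jInvSeries (R : Type) [CommRing R] : HasLead (jInvSeries R) 1 1 :=
  ⟨_, rfl, by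
    rw [constantCoeff_psMap, PowerSeries.constantCoeff_invOfUnit]
    simp⟩

theorem HasLead.pow' {R : Type*} [CommRing R] {s : LaurentSeries R} {m : ℤ} {c : R}
    (hs : HasLead s m c) (n : ℕ) : HasLead (s ^ n) (n * m) (c ^ n) := by
  induction n with
  | zero => simpa using hasLead_one
  | succ n ih =>
    rw [pow_succ, pow_succ]
    push_cast
    rw [add_mul, one_mul]
    exact ih.mul hs

variable {N : ℕ} [NeZero N]

theorem hasLead_evJ (p : R0[X]) :
    HasLead (evJ N p * (qExpand R0 N (jInvSeries R0)) ^ p.natDegree) 0 p.leadingCoeff := by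
  have hju : qExpand R0 N (jqModC R0) * qExpand R0 N (jInvSeries R0) = 1 := by
    rw [← map_mul, jqModC_mul_inv, map_one]
  rw [show evJ N p = p.eval₂ HahnSeries.C (qExpand R0 N (jqModC R0)) from rfl,
    ← eval₂_reflect_of_mul_eq_one HahnSeries.C hju p le_rfl]
  obtain ⟨w, hw, hw0⟩ := (hasLead_jInvSeries R0).qExpand N
  let wq : PowerSeries R0 := PowerSeries.X ^ N * w
  have hu : qExpand R0 N (jInvSeries R0) = HahnSeries.ofPowerSeries ℤ R0 wq := by
    rw [hw, mul_one, map_mul, ofPowerSeries_X_pow']
  have hwq : PowerSeries.constantCoeff wq = 0 := by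
    simp [wq, PowerSeries.constantCoeff_X, zero_pow (NeZero.ne N)]
  refine ⟨(p.reflect p.natDegree).eval₂ PowerSeries.C wq, ?_, ?_⟩
  · rw [HahnSeries.single_zero_one, one_mul, hom_eval₂, hu]
    congr 1
    exact RingHom.ext fun a => (HahnSeries.ofPowerSeries_C a).symm
  · rw [hom_eval₂, hwq, eval₂_at_zero]
    simp [coeff_reflect, Polynomial.revAt_le]

/-- `f / j^m` is integral over `ℤ[1/j]` if all conjugate expansions have poles of order at most
`m N` in `Q = q^(1/N)`. -/
theorem isIntegralElem_div_j_pow {f : ℍ → ℂ} (hf : Conjugable N f) {K : Type} [Field K]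
    (ι : K →+* ℂ) {x : LaurentSeries K} (hx : HasExp 1 f (coeffMap ι x)) (m : ℕ)
    (hlead : ∀ q : Coset N, ∃ (μ : ℤ) (c : R0),
      HasLead (expHom N (hf.conj q)) μ c ∧ -((m : ℤ) * N) ≤ μ) :
    (eval₂RingHom (Int.castRingHom (LaurentSeries K)) (jInvSeries K)).IsIntegralElem
      (x * jInvSeries K ^ m) := by
  classical
  letI := Fintype.ofFinite (Coset N)
  set w := qExpand R0 N (jInvSeries R0) with hw
  set ψ := Fintype.card (Coset N)
  obtain ⟨P, hPm, hPd, hP⟩ := exists_charPoly hf
  -- the scaled roots are power series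
  have hroot : ∀ q, w ^ m * expHom N (hf.conj q) ∈ (HahnSeries.ofPowerSeries ℤ R0).range := by
    intro q
    obtain ⟨μ, c, hl, hμ⟩ := hlead q
    obtain ⟨p, hp, -⟩ := (HasLead.pow' ((hasLead_jInvSeries R0).qExpand N) m).mul hl
    obtain ⟨k, hk⟩ := Int.eq_ofNat_of_zero_le (show (0 : ℤ) ≤ (m : ℤ) * ((N : ℤ) * 1) + μ by rw [mul_one]; linarith)
    exact ⟨PowerSeries.X ^ k * p, by
      rw [map_mul, ofPowerSeries_X_pow', hw, hp, hk]⟩
  -- so the coefficients of `P` have bounded degree
  have hdeg : ∀ i ≤ ψ, (P.coeff i).natDegree ≤ m * (ψ - i) := by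
    intro i hi
    by_contra! hlt
    set p := P.coeff i
    have hmem : evJ N p * w ^ (m * (ψ - i)) ∈ (HahnSeries.ofPowerSeries ℤ R0).range := by
      have h1 : ∀ n, (∏ q : Coset N, (X - C (w ^ m * expHom N (hf.conj q)))).coeff n ∈
          (HahnSeries.ofPowerSeries ℤ R0).range := by
        choose g hg using hroot
        intro n
        refine ⟨(∏ q : Coset N, (X - C (g q))).coeff n, ?_⟩
        rw [← Polynomial.coeff_map, Polynomial.map_prod]
        simp only [Polynomial.map_sub, map_X, map_C, hg]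
      have := h1 i
      rwa [coeff_prod_X_sub_C_mul _ _ _ _ (by simpa [Finset.card_univ] using hi), ← hP, coeff_map,
        Finset.card_univ, ← pow_mul] at this
    obtain ⟨r, hr⟩ := hmem
    have hl := hasLead_evJ (N := N) p
    have hfac : evJ N p * w ^ p.natDegree =
        (evJ N p * w ^ (m * (ψ - i))) * w ^ (p.natDegree - m * (ψ - i)) := by
      rw [mul_assoc, ← pow_add, Nat.add_sub_cancel' hlt.le]
    rw [hfac, ← hr] at hl
    obtain ⟨p', hp', -⟩ := HasLead.pow' ((hasLead_jInvSeries R0).qExpand N)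
      (p.natDegree - m * (ψ - i))
    have h0 := hl.coeff_eq
    rw [hw, hp', mul_left_comm, ← map_mul, HahnSeries.coeff_single_mul, one_mul,
      coeff_ofPowerSeries_of_neg _ (by
        have h2 : (0 : ℤ) < ((p.natDegree - m * (ψ - i) : ℕ) : ℤ) := by omega
        have h3 : (0 : ℤ) < N := by exact_mod_cast Nat.pos_of_ne_zero (NeZero.ne N)
        have := mul_pos h2 h3
        linarith)] at h0
    exact hlt.not_ge (by rw [leadingCoeff_eq_zero.mp h0.symm]; simp)
  -- the polynomial in `1/j`
  let c : ℕ → R0[X] := fun i => (P.coeff i).reflect (m * (ψ - i))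
  let P' : R0[X][X] := ∑ i ∈ Finset.range (ψ + 1), C (c i) * X ^ i
  have hPψ : P.coeff ψ = 1 := by
    rw [show ψ = P.natDegree from hPd.symm]; exact hPm
  have hP'ψ : P'.coeff ψ = 1 := by
    simp only [P', finsetSum_coeff, coeff_C_mul_X_pow]
    rw [Finset.sum_eq_single ψ (fun b _ hb => if_neg (Ne.symm hb)) (fun h => absurd
      (Finset.mem_range.mpr (Nat.lt_succ_self ψ)) h), if_pos rfl]
    simp only [c, hPψ, Nat.sub_self, mul_zero]
    rw [← C_1, reflect_C]
    simp
  have hP'd : P'.natDegree ≤ ψ := natDegree_sum_le_of_forall_le _ _ fun i hi =>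
    (natDegree_C_mul_X_pow_le _ _).trans (Nat.le_of_lt_succ (Finset.mem_range.mp hi))
  have hP'm : P'.Monic := monic_of_natDegree_le_of_coeff_eq_one ψ hP'd hP'ψ
  refine isIntegralElem_evZ_of_relation valC ι _ _ P' hP'm ?_
  rw [map_mul, map_pow, Fermat.Agent.Igusa.coeffMap_jInvSeries]
  apply qExpand_injective (R := ℂ) N
  set u := qExpand ℂ N (jInvSeries ℂ)
  set s := qExpand ℂ N (coeffMap ι x)
  have hju : qExpand ℂ N (jqModC ℂ) * u = 1 := by rw [← map_mul, jqModC_mul_inv, map_one]
  have hC : (qExpand ℂ N).comp (HahnSeries.C.comp valC) = HahnSeries.C.comp valC :=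
    RingHom.ext fun a => qExpand_C N _
  rw [map_zero, eval₂_eq_sum_range' _ (Nat.lt_succ_of_le hP'd), map_sum]
  have hroot0 : P.eval₂ ((coeffMap valC).comp (evJ N)) s = 0 := by
    rw [show s = _ from (coeffMap_conj_one hf hx).symm, ← hom_eval₂, eval₂_eq_eval_map, hP,
      eval_prod, Finset.prod_eq_zero (Finset.mem_univ ((1 : SL(2, ℤ)) : Coset N)) (by simp),
      map_zero]
  rw [eval₂_eq_sum_range, hPd] at hroot0
  calc _ = ∑ i ∈ Finset.range (ψ + 1),
        (coeffMap valC).comp (evJ N) (P.coeff i) * s ^ i * u ^ (m * ψ) := by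
        refine Finset.sum_congr rfl fun i hi => ?_
        have hiψ : i ≤ ψ := Nat.le_of_lt_succ (Finset.mem_range.mp hi)
        have hc : P'.coeff i = c i := by
          simp only [P', finsetSum_coeff, coeff_C_mul_X_pow]
          rw [Finset.sum_ite_eq, if_pos hi]
        have hev : coeffMap valC (evJ N (P.coeff i)) =
            (P.coeff i).eval₂ (HahnSeries.C.comp valC) (qExpand ℂ N (jqModC ℂ)) := by
          show ((coeffMap valC).comp (evJ N)) (P.coeff i) = _
          rw [show (coeffMap valC).comp (evJ N) =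
              eval₂RingHom (HahnSeries.C.comp valC) (qExpand ℂ N (jqModC ℂ)) from
            Polynomial.ringHom_ext (fun a => by simp [evJ, coeffMap_C'])
              (by simp [evJ, coeffMap_qExpand, ModularCurve.coeffMap_jqModC])]
          rfl
        rw [hc, map_mul, map_pow, map_mul, map_pow, coe_eval₂RingHom, hom_eval₂, hC,
          eval₂_reflect_of_mul_eq_one _ hju _ (hdeg i hiψ),
          show m * ψ = m * (ψ - i) + m * i by rw [← mul_add, Nat.sub_add_cancel hiψ], pow_add,
          pow_mul u m i, RingHom.comp_apply, hev, mul_pow]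
        ring
    _ = 0 := by rw [← Finset.sum_mul, hroot0, zero_mul]

end Fermat.Agent.Carayol
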