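/-
The unit `Δ(d₂ τ)/Δ(d₁ τ)` of a pair `d₁ ∣ d₂ ∣ N`, its inverse, and all their conjugate expansions
(helper50, S36).
-/
import Fermat.Agent.Carayol.ModFieldMem

set_option autoImplicit false

noncomputable section

open UpperHalfPlane ModularCurve HahnSeries
open Fermat.Agent.Igusa
open scoped Manifold MatrixGroups

namespace Fermat.Agent.Carayol

/-- `(d₂/d₁)^12 Δ(d₂τ)/Δ(d₁τ)`. -/
def uPair (d₁ d₂ : ℕ) (τ : ℍ) : ℂ :=
  ((d₂ / d₁ : ℕ) : ℂ) ^ 12 * (ModularForm.discriminant (MF.scaleH d₂ τ) *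
    (ModularForm.discriminant (MF.scaleH d₁ τ))⁻¹)

/-- `Δ(d₁τ)/Δ(d₂τ)`. -/
def vPair (d₁ d₂ : ℕ) (τ : ℍ) : ℂ :=
  ModularForm.discriminant (MF.scaleH d₁ τ) * (ModularForm.discriminant (MF.scaleH d₂ τ))⁻¹

theorem uPair_mul_vPair (d₁ d₂ : ℕ) (τ : ℍ) :
    uPair d₁ d₂ τ * vPair d₁ d₂ τ = ((d₂ / d₁ : ℕ) : ℂ) ^ 12 := by
  have h1 := ModularForm.discriminant_ne_zero (MF.scaleH d₁ τ)
  have h2 := ModularForm.discriminant_ne_zero (MF.scaleH d₂ τ)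
  simp only [uPair, vPair]
  field_simp

theorem discriminant_scaleH_smul {γ g : SL(2, ℤ)} {d a e : ℕ} {b : ℤ} [NeZero d]
    (h : IsTri γ d g a e b) (τ : ℍ) :
    ModularForm.discriminant (MF.scaleH d (γ • τ)) =
      (((γ 1 0 : ℤ) * (τ : ℂ) + γ 1 1) / e) ^ 12 * ModularForm.discriminant (affH a e b τ) := by
  obtain ⟨h1, h2⟩ := h.scaleH_smul τ
  rw [h1, discriminant_smul, h2]

section Tri

variable {γ g₁ g₂ : SL(2, ℤ)} {d₁ d₂ a₁ a₂ e₁ e₂ : ℕ} {b₁ b₂ : ℤ} [NeZero d₁] [NeZero d₂]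
  (h₁ : IsTri γ d₁ g₁ a₁ e₁ b₁) (h₂ : IsTri γ d₂ g₂ a₂ e₂ b₂)

include h₁ h₂

theorem vPair_smul (τ : ℍ) : vPair d₁ d₂ (γ • τ) = ((e₂ : ℂ) / e₁) ^ 12 *
    (ModularForm.discriminant (affH a₁ e₁ b₁ τ) *
      (ModularForm.discriminant (affH a₂ e₂ b₂ τ))⁻¹) := by
  have he₁ : (e₁ : ℂ) ≠ 0 := by exact_mod_cast h₁.pos.2.ne'
  have he₂ : (e₂ : ℂ) ≠ 0 := by exact_mod_cast h₂.pos.2.ne'
  have hne : ((γ 1 0 : ℤ) : ℂ) * (τ : ℂ) + γ 1 1 ≠ 0 := by simpa [denom] using denom_ne_zero γ τ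
  have h0 := ModularForm.discriminant_ne_zero (affH a₂ e₂ b₂ τ)
  rw [vPair, discriminant_scaleH_smul h₁, discriminant_scaleH_smul h₂, div_pow, div_pow, div_pow]
  field_simp

theorem uPair_smul (hd : d₁ ∣ d₂) (τ : ℍ) : uPair d₁ d₂ (γ • τ) = ((a₂ : ℂ) / a₁) ^ 12 *
    (ModularForm.discriminant (affH a₂ e₂ b₂ τ) *
      (ModularForm.discriminant (affH a₁ e₁ b₁ τ))⁻¹) := by
  have he₁ : (e₁ : ℂ) ≠ 0 := by exact_mod_cast h₁.pos.2.ne'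
  have he₂ : (e₂ : ℂ) ≠ 0 := by exact_mod_cast h₂.pos.2.ne'
  have ha₁ : (a₁ : ℂ) ≠ 0 := by exact_mod_cast h₁.pos.1.ne'
  have hd₁ : (d₁ : ℂ) = a₁ * e₁ := by exact_mod_cast h₁.mul_eq.symm
  have hd₂ : (d₂ : ℂ) = a₂ * e₂ := by exact_mod_cast h₂.mul_eq.symm
  have hne : ((γ 1 0 : ℤ) : ℂ) * (τ : ℂ) + γ 1 1 ≠ 0 := by simpa [denom] using denom_ne_zero γ τ
  have h0 := ModularForm.discriminant_ne_zero (affH a₁ e₁ b₁ τ)
  rw [uPair, discriminant_scaleH_smul h₁, discriminant_scaleH_smul h₂,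
    Nat.cast_div hd (by exact_mod_cast NeZero.ne d₁), hd₁, hd₂, div_pow, div_pow, div_pow, div_pow]
  field_simp

end Tri

variable {N : ℕ} [NeZero N] {d₁ d₂ : ℕ} [NeZero d₁] [NeZero d₂]

theorem tri_a_dvd (hd : d₁ ∣ d₂) (hd₂ : d₂ ∣ N) (q : Coset N) :
    (tri q (hd.trans hd₂)).a ∣ (tri q hd₂).a ∧ (tri q (hd.trans hd₂)).e ∣ (tri q hd₂).e := by
  obtain ⟨k, hk⟩ := hd
  have h1 := tri_mul q (d := d₁) (dvd_trans ⟨k, hk⟩ hd₂)
  have h2 := tri_mul q hd₂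
  set a₁ := (tri q (dvd_trans ⟨k, hk⟩ hd₂)).a
  set a₂ := (tri q hd₂).a
  have ha₁ : a₁ = Int.gcd d₁ (lowerLeft q) := tri_a q _
  have ha₂ : a₂ = Int.gcd d₂ (lowerLeft q) := tri_a q _
  have hdvd : a₁ ∣ a₂ := by
    rw [ha₁, ha₂]
    exact Int.gcd_dvd_gcd_of_dvd_left _ (by rw [hk]; push_cast; exact dvd_mul_right _ _)
  refine ⟨hdvd, ?_⟩
  have hle : a₂ ∣ k * a₁ := by
    rw [ha₁, ha₂, hk]
    push_cast
    have := Int.gcd_mul_left (k : ℤ) d₁ (lowerLeft q)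
    rw [Int.natAbs_natCast] at this
    rw [← this, mul_comm (k : ℤ) d₁]
    exact Int.gcd_dvd_gcd_of_dvd_right _ (dvd_mul_left _ _)
  obtain ⟨s, hs⟩ := hle
  refine ⟨s, ?_⟩
  have ha₂0 : a₂ ≠ 0 := (tri q hd₂).a_pos.ne'
  apply mul_left_cancel₀ ha₂0
  calc a₂ * (tri q hd₂).e = d₁ * k := h2.trans hk
    _ = (a₁ * (tri q (dvd_trans ⟨k, hk⟩ hd₂)).e) * k := by rw [h1]
    _ = (k * a₁) * (tri q (dvd_trans ⟨k, hk⟩ hd₂)).e := by ring
    _ = _ := by rw [hs]; ring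

/-- The series of `(a₂/a₁)^12 Δ(aff₂)/Δ(aff₁)`. -/
def uPairSer {R : Type*} [CommRing R] (t₁ t₂ : TriData N) (z : Rˣ) : LaurentSeries R :=
  single (0 : ℤ) (((t₂.a / t₁.a : ℕ) : R) ^ 12) *
    (t₂.twist z (deltaSeries R) * t₁.twist z (deltaInvSeries R))

/-- The series of `(e₂/e₁)^12 Δ(aff₁)/Δ(aff₂)`. -/
def vPairSer {R : Type*} [CommRing R] (t₁ t₂ : TriData N) (z : Rˣ) : LaurentSeries R :=
  single (0 : ℤ) (((t₂.e / t₁.e : ℕ) : R) ^ 12) *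
    (t₁.twist z (deltaSeries R) * t₂.twist z (deltaInvSeries R))

theorem hasExp_uPairSer (t₁ t₂ : TriData N) (h : t₁.a ∣ t₂.a) :
    HasExp N (fun τ ↦ ((t₂.a : ℂ) / t₁.a) ^ 12 *
        (ModularForm.discriminant (affH t₂.a t₂.e t₂.b τ) *
          (ModularForm.discriminant (affH t₁.a t₁.e t₁.b τ))⁻¹))
      (coeffMap valC (uPairSer t₁ t₂ (zetaUnit N))) := by
  rw [uPairSer, map_mul, map_mul, coeffMap_single, map_pow, map_natCast,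
    Nat.cast_div h (Nat.cast_ne_zero.mpr t₁.a_pos.ne')]
  exact (hasExp_const _).mul ((hasExp_affH t₂ hasExp_discriminant').mul
    (hasExp_affH t₁ hasExp_discriminant_inv'))

theorem hasExp_vPairSer (t₁ t₂ : TriData N) (h : t₁.e ∣ t₂.e) :
    HasExp N (fun τ ↦ ((t₂.e : ℂ) / t₁.e) ^ 12 *
        (ModularForm.discriminant (affH t₁.a t₁.e t₁.b τ) *
          (ModularForm.discriminant (affH t₂.a t₂.e t₂.b τ))⁻¹))
      (coeffMap valC (vPairSer t₁ t₂ (zetaUnit N))) := by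
  rw [vPairSer, map_mul, map_mul, coeffMap_single, map_pow, map_natCast,
    Nat.cast_div h (Nat.cast_ne_zero.mpr t₁.e_pos.ne')]
  exact (hasExp_const _).mul ((hasExp_affH t₁ hasExp_discriminant').mul
    (hasExp_affH t₂ hasExp_discriminant_inv'))

theorem mdifferentiable_uPair : MDiff (uPair d₁ d₂) :=
  mdifferentiable_const.mul ((mdifferentiable_comp_scaleH MF.mem_qFunctions_discriminant.2.1 d₂).mul
    (mdifferentiable_comp_scaleH mdifferentiable_discriminant_inv d₁))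

theorem mdifferentiable_vPair : MDiff (vPair d₁ d₂) :=
  (mdifferentiable_comp_scaleH MF.mem_qFunctions_discriminant.2.1 d₁).mul
    (mdifferentiable_comp_scaleH mdifferentiable_discriminant_inv d₂)

variable (hd : d₁ ∣ d₂) (hd₂ : d₂ ∣ N)

include hd hd₂

theorem hasExp_conj_uPair (q : Coset N) :
    HasExp N (conjFun (uPair d₁ d₂) q)
      (coeffMap valC (uPairSer (tri q (hd.trans hd₂)) (tri q hd₂) (zetaUnit N))) := by
  obtain ⟨g₁, h₁⟩ := tri_spec q (hd.trans hd₂)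
  obtain ⟨g₂, h₂⟩ := tri_spec q hd₂
  refine (congrArg (HasExp N · _) ?_).mpr (hasExp_uPairSer _ _ (tri_a_dvd hd hd₂ q).1)
  exact funext fun τ ↦ uPair_smul h₁ h₂ hd τ

theorem hasExp_conj_vPair (q : Coset N) :
    HasExp N (conjFun (vPair d₁ d₂) q)
      (coeffMap valC (vPairSer (tri q (hd.trans hd₂)) (tri q hd₂) (zetaUnit N))) := by
  obtain ⟨g₁, h₁⟩ := tri_spec q (hd.trans hd₂)
  obtain ⟨g₂, h₂⟩ := tri_spec q hd₂
  refine (congrArg (HasExp N · _) ?_).mpr (hasExp_vPairSer _ _ (tri_a_dvd hd hd₂ q).2)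
  exact funext fun τ ↦ vPair_smul h₁ h₂ τ

theorem gammaInv_uPair : GammaInv N (uPair d₁ d₂) := fun g₀ hg τ ↦ by
  obtain ⟨g₁, h₁⟩ := isTri_Gamma0 (hd.trans hd₂) hg
  obtain ⟨g₂, h₂⟩ := isTri_Gamma0 hd₂ hg
  rw [uPair_smul h₁ h₂ hd τ, affH_diag, affH_diag, uPair,
    Nat.cast_div hd (by exact_mod_cast NeZero.ne d₁)]

theorem gammaInv_vPair : GammaInv N (vPair d₁ d₂) := fun g₀ hg τ ↦ by
  obtain ⟨g₁, h₁⟩ := isTri_Gamma0 (hd.trans hd₂) hg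
  obtain ⟨g₂, h₂⟩ := isTri_Gamma0 hd₂ hg
  rw [vPair_smul h₁ h₂ τ, affH_diag, affH_diag, vPair]
  simp

theorem conjugable_uPair : Conjugable N (uPair d₁ d₂) :=
  ⟨gammaInv_uPair hd hd₂, fun q ↦ ⟨mdifferentiable_comp_smul mdifferentiable_uPair _, _,
    hasExp_conj_uPair hd hd₂ q⟩⟩

theorem conjugable_vPair : Conjugable N (vPair d₁ d₂) :=
  ⟨gammaInv_vPair hd hd₂, fun q ↦ ⟨mdifferentiable_comp_smul mdifferentiable_vPair _, _,
    hasExp_conj_vPair hd hd₂ q⟩⟩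

theorem expHom_conj_uPair (q : Coset N) :
    expHom N ((conjugable_uPair hd hd₂).conj q) =
      uPairSer (tri q (hd.trans hd₂)) (tri q hd₂) (zetaUnit N) :=
  expHom_eq (hasExp_conj_uPair hd hd₂ q)

theorem expHom_conj_vPair (q : Coset N) :
    expHom N ((conjugable_vPair hd hd₂).conj q) =
      vPairSer (tri q (hd.trans hd₂)) (tri q hd₂) (zetaUnit N) :=
  expHom_eq (hasExp_conj_vPair hd hd₂ q)

end Fermat.Agent.Carayol
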