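/-
The modular units of the pairs `(1, q)`, `(q, q²)` in `K(X₀(L q²))`: integrality over `ℤ[j]` and
`ℤ[1/j]`, and their expansions along the three branches (helper50, S36).

With `pairU a b = (b/a)^12 Δ(bτ)/Δ(aτ)` and `pairV a b = Δ(aτ)/Δ(bτ)` the units of the design are
`c01 = pairU 1 q`, `c'01 = pairV 1 q`, `c12 = pairU q q²`, `c'12 = pairV q q²`.
-/
import Fermat.Agent.Carayol.CuspBound
import Fermat.Agent.Carayol.UnitPairs
import Fermat.Agent.Carayol.MidBranch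

set_option autoImplicit false

noncomputable section

open UpperHalfPlane ModularCurve HahnSeries
open Fermat.Agent.Igusa Fermat.Agent.RED.Spec Fermat.Agent.HK.Corr
open scoped MatrixGroups Real

namespace Fermat.Agent.Carayol

local notation "𝕢" => Function.Periodic.qParam

section Series

variable (R : Type) [CommRing R]

/-- The expansion of `(b/a)^12 Δ(bτ)/Δ(aτ)`. -/
def pairU (a b : ℕ) [NeZero a] [NeZero b] : LaurentSeries R :=
  single (0 : ℤ) (((b / a : ℕ) : R) ^ 12) *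
    (qExpand R b (deltaSeries R) * qExpand R a (deltaInvSeries R))

/-- The expansion of `Δ(aτ)/Δ(bτ)`. -/
def pairV (a b : ℕ) [NeZero a] [NeZero b] : LaurentSeries R :=
  qExpand R a (deltaSeries R) * qExpand R b (deltaInvSeries R)

variable {R} {S : Type} [CommRing S] (φ : R →+* S) (a b : ℕ) [NeZero a] [NeZero b]

theorem coeffMap_pairU : coeffMap φ (pairU R a b) = pairU S a b := by
  simp only [pairU, map_mul, coeffMap_single, coeffMap_qExpand, coeffMap_deltaSeries,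
    coeffMap_deltaInvSeries, map_pow, map_natCast]

theorem coeffMap_pairV : coeffMap φ (pairV R a b) = pairV S a b := by
  simp only [pairV, map_mul, coeffMap_qExpand, coeffMap_deltaSeries, coeffMap_deltaInvSeries]

theorem pairU_mul_pairV : pairU R a b * pairV R a b = single (0 : ℤ) (((b / a : ℕ) : R) ^ 12) := by
  rw [pairU, pairV]
  calc _ = single (0 : ℤ) (((b / a : ℕ) : R) ^ 12) *
        (qExpand R b (deltaSeries R * deltaInvSeries R) *
          qExpand R a (deltaSeries R * deltaInvSeries R)) := by rw [map_mul, map_mul]; ring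
    _ = _ := by rw [deltaSeries_mul_inv, map_one, map_one, mul_one, mul_one]

end Series

/-- Expansions of `f(dτ)`. -/
theorem hasExp_comp_scaleH {f : ℍ → ℂ} {s : LaurentSeries ℂ} (hs : HasExp 1 f s) (d : ℕ)
    [NeZero d] : HasExp 1 (fun τ ↦ f (MF.scaleH d τ)) (qExpand ℂ d s) := by
  have h := hs.comp (h' := 1) (MF.scaleH d) 1 d fun τ ↦ by
    rw [Units.val_one, one_mul, MF.coe_scaleH, Function.Periodic.qParam,
      Function.Periodic.qParam, ← Complex.exp_nat_mul]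
    congr 1
    push_cast
    ring
  rwa [qScale_one, RingHom.id_apply] at h

theorem hasExp_uPair (a b : ℕ) [NeZero a] [NeZero b] :
    HasExp 1 (uPair a b) (pairU ℂ a b) :=
  (hasExp_const _).mul ((hasExp_comp_scaleH hasExp_discriminant b).mul
    (hasExp_comp_scaleH hasExp_discriminant_inv a))

theorem hasExp_vPair (a b : ℕ) [NeZero a] [NeZero b] :
    HasExp 1 (vPair a b) (pairV ℂ a b) :=
  (hasExp_comp_scaleH hasExp_discriminant a).mul (hasExp_comp_scaleH hasExp_discriminant_inv b)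

section Level

variable {N : ℕ} [NeZero N] {K : Type} [Field K] [Algebra ℚ K] (ι : K →+* ℂ)
  {a b : ℕ} [NeZero a] [NeZero b] (hab : a ∣ b) (hbN : b ∣ N)

include ι hab hbN

theorem pairU_mem : pairU K a b ∈ modField K N :=
  mem_modField_of_conjugable ι (conjugable_uPair hab hbN)
    ((coeffMap_pairU ι a b).symm ▸ hasExp_uPair a b)

theorem pairV_mem : pairV K a b ∈ modField K N :=
  mem_modField_of_conjugable ι (conjugable_vPair hab hbN)
    ((coeffMap_pairV ι a b).symm ▸ hasExp_vPair a b)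

theorem isIntegralElem_pairU :
    (Polynomial.eval₂RingHom (Int.castRingHom (LaurentSeries K)) (jqModC K)).IsIntegralElem
      (pairU K a b) :=
  isIntegralElem_of_conjugable (conjugable_uPair hab hbN) ι
    ((coeffMap_pairU ι a b).symm ▸ hasExp_uPair a b)

theorem isIntegralElem_pairV :
    (Polynomial.eval₂RingHom (Int.castRingHom (LaurentSeries K)) (jqModC K)).IsIntegralElem
      (pairV K a b) :=
  isIntegralElem_of_conjugable (conjugable_vPair hab hbN) ι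
    ((coeffMap_pairV ι a b).symm ▸ hasExp_vPair a b)

end Level

section Products

variable {N : ℕ} [NeZero N]

theorem Conjugable.mul' {f g : ℍ → ℂ} (hf : Conjugable N f) (hg : Conjugable N g) :
    Conjugable N (f * g) :=
  ⟨fun γ hγ τ ↦ congrArg₂ (· * ·) (hf.inv γ hγ τ) (hg.inv γ hγ τ),
    fun q ↦ (expRing N).mul_mem (hf.exp q) (hg.exp q)⟩

theorem expHom_conj_mul {f g : ℍ → ℂ} (hf : Conjugable N f) (hg : Conjugable N g) (q : Coset N) :
    expHom N ((Conjugable.mul' hf hg).conj q) = expHom N (hf.conj q) * expHom N (hg.conj q) := by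
  rw [← map_mul]
  rfl

theorem Conjugable.pow' {f : ℍ → ℂ} (hf : Conjugable N f) (n : ℕ) : Conjugable N (f ^ n) :=
  ⟨fun γ hγ τ ↦ congrArg (· ^ n) (hf.inv γ hγ τ), fun q ↦ (expRing N).pow_mem (hf.exp q) n⟩

theorem expHom_conj_pow {f : ℍ → ℂ} (hf : Conjugable N f) (n : ℕ) (q : Coset N) :
    expHom N ((Conjugable.pow' hf n).conj q) = expHom N (hf.conj q) ^ n := by
  rw [← map_pow]
  rfl

theorem hasExp_pow {h : ℕ} {f : ℍ → ℂ} {s : LaurentSeries ℂ} (hs : HasExp h f s) (n : ℕ) :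
    HasExp h (f ^ n) (s ^ n) := by
  induction n with
  | zero => simpa using hasExp_one
  | succ n ih => rw [pow_succ, pow_succ]; exact ih.mul hs

theorem exists_hasLead_twist (t : TriData N) :
    (∃ c : R0, HasLead (t.twist (zetaUnit N) (deltaSeries R0)) (t.r : ℤ) c) ∧
      ∃ c : R0, HasLead (t.twist (zetaUnit N) (deltaInvSeries R0)) (-(t.r : ℤ)) c := by
  constructor
  · have h := ((hasLead_deltaSeries R0).qScale (zetaUnit N ^ (t.b * (N / t.e : ℕ)))).qExpand t.r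
    rw [mul_one] at h
    exact ⟨_, h⟩
  · have h := ((hasLead_deltaInvSeries R0).qScale (zetaUnit N ^ (t.b * (N / t.e : ℕ)))).qExpand t.r
    rw [mul_neg, mul_one] at h
    exact ⟨_, h⟩

theorem exists_hasLead_uPairSer (t₁ t₂ : TriData N) :
    ∃ c : R0, HasLead (uPairSer t₁ t₂ (zetaUnit N)) ((t₂.r : ℤ) - t₁.r) c := by
  obtain ⟨⟨c₂, h₂⟩, -⟩ := exists_hasLead_twist t₂
  obtain ⟨-, c₁, h₁⟩ := exists_hasLead_twist t₁
  have h := (hasLead_C (((t₂.a / t₁.a : ℕ) : R0) ^ 12)).mul (h₂.mul h₁)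
  rw [zero_add, ← sub_eq_add_neg] at h
  exact ⟨_, h⟩

theorem exists_hasLead_vPairSer (t₁ t₂ : TriData N) :
    ∃ c : R0, HasLead (vPairSer t₁ t₂ (zetaUnit N)) ((t₁.r : ℤ) - t₂.r) c := by
  obtain ⟨⟨c₁, h₁⟩, -⟩ := exists_hasLead_twist t₁
  obtain ⟨-, c₂, h₂⟩ := exists_hasLead_twist t₂
  have h := (hasLead_C (((t₂.e / t₁.e : ℕ) : R0) ^ 12)).mul (h₁.mul h₂)
  rw [zero_add, ← sub_eq_add_neg] at h
  exact ⟨_, h⟩

end Products

variable {L q : ℕ} [NeZero L] [NeZero q]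

/-- The orders at the cusps. -/
theorem r_cases (hq : q.Prime) (c : Coset (L * q ^ 2)) :
    let d1 := one_dvd (L * q ^ 2)
    let dq : q ∣ L * q ^ 2 := (dvd_pow_self q two_ne_zero).trans (dvd_mul_left _ _)
    let dqq : q ^ 2 ∣ L * q ^ 2 := dvd_mul_left _ _
    (tri c d1).r = L * q ^ 2 ∧
      (((tri c dq).r = L * q ∧ (tri c dqq).r = L) ∨
       ((tri c dq).r = L * q ^ 3 ∧ (tri c dqq).r = L * q ^ 2) ∨
       ((tri c dq).r = L * q ^ 3 ∧ (tri c dqq).r = L * q ^ 4)) := by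
  intro d1 dq dqq
  have hq0 := hq.pos
  set n := lowerLeft c
  have r_of : ∀ {d : ℕ} [NeZero d] (hd : d ∣ L * q ^ 2) (a e f : ℕ), (tri c hd).a = a →
      a * e = d → e * f = L * q ^ 2 → (tri c hd).r = a * f := by
    intro d _ hd a e f ha hae hef
    have hm := tri_mul c hd
    rw [ha] at hm
    replace hm := hm.trans hae.symm
    have hapos : 0 < a := ha ▸ (tri c hd).a_pos
    have he : (tri c hd).e = e := Nat.eq_of_mul_eq_mul_left hapos hm
    have hepos : 0 < e := he ▸ (tri c hd).e_pos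
    rw [TriData.r, ha, he, ← hef, Nat.mul_div_cancel_left _ hepos]
  refine ⟨?_, ?_⟩
  · have h := r_of d1 1 1 (L * q ^ 2) (by rw [tri_a]; simp) (one_mul 1) (one_mul _)
    simpa using h
  by_cases h1 : (q : ℤ) ∣ n
  · have ha1 : (tri c dq).a = q := by
      rw [tri_a]
      exact Nat.dvd_antisymm (by exact_mod_cast (Int.gcd_dvd_left (q : ℤ) n))
        (Int.dvd_coe_gcd_iff.mpr ⟨dvd_rfl, h1⟩ |> Int.natCast_dvd_natCast.mp)
    have hr1 : (tri c dq).r = L * q ^ 3 := by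
      rw [r_of dq q 1 (L * q ^ 2) ha1 (mul_one q) (one_mul _)]; ring
    by_cases h2 : ((q ^ 2 : ℕ) : ℤ) ∣ n
    · have ha2 : (tri c dqq).a = q ^ 2 := by
        rw [tri_a]
        exact Nat.dvd_antisymm (by exact_mod_cast (Int.gcd_dvd_left ((q ^ 2 : ℕ) : ℤ) n))
          (Int.dvd_coe_gcd_iff.mpr ⟨dvd_rfl, h2⟩ |> Int.natCast_dvd_natCast.mp)
      refine Or.inr (Or.inr ⟨hr1, ?_⟩)
      rw [r_of dqq (q ^ 2) 1 (L * q ^ 2) ha2 (mul_one _) (one_mul _)]; ring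
    · have ha2 : (tri c dqq).a = q := by
        rw [tri_a]
        set g := Int.gcd ((q ^ 2 : ℕ) : ℤ) n
        have hg1 : g ∣ q ^ 2 := by exact_mod_cast (Int.gcd_dvd_left ((q ^ 2 : ℕ) : ℤ) n)
        have hg2 : q ∣ g := Int.natCast_dvd_natCast.mp (Int.dvd_coe_gcd_iff.mpr
          ⟨by exact_mod_cast dvd_pow_self q two_ne_zero, h1⟩)
        obtain ⟨k, hk, hgk⟩ := (Nat.dvd_prime_pow hq).mp hg1
        interval_cases k
        · rw [hgk, pow_zero] at hg2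
          exact absurd (Nat.dvd_one.mp hg2) hq.ne_one
        · rw [hgk, pow_one]
        · exact absurd (by rw [← hgk]; exact Int.gcd_dvd_right _ _) h2
      refine Or.inr (Or.inl ⟨hr1, ?_⟩)
      rw [r_of dqq q q (L * q) ha2 (by ring) (by ring)]; ring
  · have ha1 : (tri c dq).a = 1 := by
      rw [tri_a]
      exact (hq.eq_one_or_self_of_dvd _ (by exact_mod_cast (Int.gcd_dvd_left (q : ℤ) n))).resolve_right
        fun h ↦ h1 (h ▸ Int.gcd_dvd_right _ _)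
    have ha2 : (tri c dqq).a = 1 := by
      rw [tri_a]
      set g := Int.gcd ((q ^ 2 : ℕ) : ℤ) n
      have hg1 : g ∣ q ^ 2 := by exact_mod_cast (Int.gcd_dvd_left ((q ^ 2 : ℕ) : ℤ) n)
      obtain ⟨k, -, hgk⟩ := (Nat.dvd_prime_pow hq).mp hg1
      rcases k with _ | k
      · simpa using hgk
      · exact absurd ((Int.natCast_dvd_natCast.mpr (hgk ▸ dvd_pow_self q k.succ_ne_zero)).trans
          (Int.gcd_dvd_right _ _)) h1
    refine Or.inl ⟨?_, ?_⟩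
    · rw [r_of dq 1 q (L * q) ha1 (one_mul q) (by ring), one_mul]
    · rw [r_of dqq 1 (q ^ 2) L ha2 (one_mul _) (by ring), one_mul]

section ChartOne

variable {K : Type} [Field K] (ι : K →+* ℂ)

include ι

/-- `c01^q / j^(q-1)` is integral over `ℤ[1/j]`. -/
theorem isIntegralElem_e02_inf (hq : q.Prime) :
    (Polynomial.eval₂RingHom (Int.castRingHom (LaurentSeries K)) (jInvSeries K)).IsIntegralElem
      (pairU K 1 q ^ q * jInvSeries K ^ (q - 1)) := by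
  have dq : q ∣ 1 * q ^ 2 := (dvd_pow_self q two_ne_zero).trans (dvd_mul_left _ _)
  have hc := conjugable_uPair (d₁ := 1) (one_dvd q) dq
  refine isIntegralElem_div_j_pow (Conjugable.pow' hc q) ι ?_ _ fun c ↦ ?_
  · rw [map_pow, coeffMap_pairU]
    exact hasExp_pow (hasExp_uPair 1 q) q
  obtain ⟨x, hx⟩ := exists_hasLead_uPairSer (tri c ((one_dvd q).trans dq)) (tri c dq)
  refine ⟨_, _, by rw [expHom_conj_pow hc, expHom_conj_uPair (one_dvd q) dq]; exact HasLead.pow' hx q, ?_⟩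
  obtain ⟨h0, h⟩ := r_cases (L := 1) hq c
  have hq1 : (1 : ℤ) ≤ q := by exact_mod_cast hq.pos
  have hL : (0 : ℤ) ≤ ((1 : ℕ) : ℤ) := Int.natCast_nonneg 1
  have e0 : ((tri c ((one_dvd q).trans dq)).r : ℤ) = 1 * q ^ 2 := by exact_mod_cast h0
  rw [e0]
  push_cast [Nat.cast_sub hq.pos]
  rcases h with ⟨h1, -⟩ | ⟨h1, -⟩ | ⟨h1, -⟩ <;> rw [h1] <;> push_cast <;>
    nlinarith [mul_nonneg (mul_nonneg hL (sq_nonneg (q : ℤ))) (sub_nonneg.mpr hq1),
      mul_nonneg (mul_nonneg (mul_nonneg hL (sq_nonneg (q : ℤ))) (sub_nonneg.mpr hq1))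
        (Int.natCast_nonneg q)]

/-- `c'12 / j^(q(q-1))` is integral over `ℤ[1/j]`. -/
theorem isIntegralElem_e20_inf (hq : q.Prime) :
    (Polynomial.eval₂RingHom (Int.castRingHom (LaurentSeries K)) (jInvSeries K)).IsIntegralElem
      (pairV K q (q ^ 2) * jInvSeries K ^ (q * (q - 1))) := by
  have hd : q ∣ q ^ 2 := dvd_pow_self q two_ne_zero
  have dqq : q ^ 2 ∣ 1 * q ^ 2 := dvd_mul_left _ _
  refine isIntegralElem_div_j_pow (conjugable_vPair hd dqq) ι ?_ _ fun c ↦ ?_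
  · rw [coeffMap_pairV]
    exact hasExp_vPair q (q ^ 2)
  obtain ⟨x, hx⟩ := exists_hasLead_vPairSer (tri c (hd.trans dqq)) (tri c dqq)
  refine ⟨_, _, by rw [expHom_conj_vPair hd dqq]; exact hx, ?_⟩
  obtain ⟨-, h⟩ := r_cases (L := 1) hq c
  have hq1 : (1 : ℤ) ≤ q := by exact_mod_cast hq.pos
  have hL : (0 : ℤ) ≤ ((1 : ℕ) : ℤ) := Int.natCast_nonneg 1
  push_cast [Nat.cast_sub hq.pos]
  rcases h with ⟨h1, h2⟩ | ⟨h1, h2⟩ | ⟨h1, h2⟩ <;> rw [h1, h2] <;> push_cast <;>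
    nlinarith [mul_nonneg (mul_nonneg hL (sq_nonneg (q : ℤ))) (sub_nonneg.mpr hq1),
      mul_nonneg (mul_nonneg (mul_nonneg hL (sq_nonneg (q : ℤ))) (sub_nonneg.mpr hq1))
        (Int.natCast_nonneg q), sub_nonneg.mpr hq1,
      mul_nonneg (mul_nonneg (Int.natCast_nonneg q) (sub_nonneg.mpr hq1)) (sq_nonneg (q : ℤ))]

/-- `c'01 c12 / j^(2(q-1))` is integral over `ℤ[1/j]`. -/
theorem isIntegralElem_e11_inf (hq : q.Prime) :
    (Polynomial.eval₂RingHom (Int.castRingHom (LaurentSeries K)) (jInvSeries K)).IsIntegralElem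
      (pairV K 1 q * pairU K q (q ^ 2) * jInvSeries K ^ (2 * (q - 1))) := by
  have hd : q ∣ q ^ 2 := dvd_pow_self q two_ne_zero
  have dqq : q ^ 2 ∣ 1 * q ^ 2 := dvd_mul_left _ _
  refine isIntegralElem_div_j_pow
    (Conjugable.mul' (conjugable_vPair (d₁ := 1) (one_dvd q) (hd.trans dqq))
      (conjugable_uPair hd dqq)) ι ?_ _ fun c ↦ ?_
  · rw [map_mul, coeffMap_pairV, coeffMap_pairU]
    exact (hasExp_vPair 1 q).mul (hasExp_uPair q (q ^ 2))
  obtain ⟨x, hx⟩ := exists_hasLead_vPairSer (tri c ((one_dvd q).trans (hd.trans dqq)))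
    (tri c (hd.trans dqq))
  obtain ⟨y, hy⟩ := exists_hasLead_uPairSer (tri c (hd.trans dqq)) (tri c dqq)
  refine ⟨_, _, by
    rw [expHom_conj_mul (conjugable_vPair (d₁ := 1) (one_dvd q) (hd.trans dqq))
      (conjugable_uPair hd dqq), expHom_conj_vPair (one_dvd q) (hd.trans dqq),
      expHom_conj_uPair hd dqq]
    exact hx.mul hy, ?_⟩
  obtain ⟨h0, h⟩ := r_cases (L := 1) hq c
  have hq1 : (1 : ℤ) ≤ q := by exact_mod_cast hq.pos
  have hL : (0 : ℤ) ≤ ((1 : ℕ) : ℤ) := Int.natCast_nonneg 1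
  have e0 : ((tri c ((one_dvd q).trans (hd.trans dqq))).r : ℤ) = 1 * q ^ 2 := by exact_mod_cast h0
  rw [e0]
  push_cast [Nat.cast_sub hq.pos]
  rcases h with ⟨h1, h2⟩ | ⟨h1, h2⟩ | ⟨h1, h2⟩ <;> rw [h1, h2] <;> push_cast <;>
    nlinarith [mul_nonneg (mul_nonneg hL (sq_nonneg (q : ℤ))) (sub_nonneg.mpr hq1),
      mul_nonneg hL (sq_nonneg ((q : ℤ) - 1)),
      mul_nonneg (mul_nonneg hL (sq_nonneg (q : ℤ))) (sq_nonneg ((q : ℤ) - 1))]

end ChartOne

section Branches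

variable {L q : ℕ} [NeZero L] [NeZero q] {K : Type} [Field K] [Algebra ℚ K] (ι : K →+* ℂ)
  (hq : q.Prime) (hqL : ¬ q ∣ L)

omit [NeZero q] in
theorem exists_isTri_swap {x y : ℤ} (hdet : x * ((q : ℤ) ^ 2) - (-y) * (L : ℤ) = 1) {e i : ℕ}
    (he : e ∣ L) (hi : i ≤ 2) :
    ∃ g : SL(2, ℤ), IsTri (slMk x (-y) (L : ℤ) ((q : ℤ) ^ 2) hdet) (e * q ^ i) g e (q ^ i) 0 := by
  obtain ⟨c, hc⟩ := he
  have hcZ : (L : ℤ) = e * c := by exact_mod_cast hc
  have hp : (q : ℤ) ^ i * (q : ℤ) ^ (2 - i) = (q : ℤ) ^ 2 := by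
    rw [← _root_.pow_add, Nat.add_sub_cancel' hi]
  refine ⟨slMk (x * (q : ℤ) ^ i) (-y * e) c ((q : ℤ) ^ (2 - i)) ?_, ⟨rfl, ?_, ?_, ?_, ?_⟩⟩
  · linear_combination hdet + x * hp - y * hcZ
  all_goals simp [slMk]
  · ring
  · rw [hcZ]; ring
  · ring
  · linear_combination hp

theorem affH_scaleH_sq (hq0 : 0 < q) {e i : ℕ} [NeZero e] (hi : i ≤ 2) (τ : ℍ) :
    affH e (q ^ i) 0 (MF.scaleH (q ^ 2) τ) = MF.scaleH (e * q ^ (2 - i)) τ := by
  ext
  haveI : NeZero (q ^ 2) := ⟨(pow_pos hq0 2).ne'⟩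
  haveI : NeZero (e * q ^ (2 - i)) :=
    ⟨mul_ne_zero (NeZero.ne e) (pow_ne_zero _ hq0.ne')⟩
  rw [coe_affH 0 _ (Nat.pos_of_ne_zero (NeZero.ne e)) (pow_pos hq0 i), MF.coe_scaleH,
    MF.coe_scaleH]
  have hq' : (q : ℂ) ^ i ≠ 0 := pow_ne_zero _ (Nat.cast_ne_zero.mpr hq0.ne')
  have hp : (q : ℂ) ^ i * (q : ℂ) ^ (2 - i) = (q : ℂ) ^ 2 := by
    rw [← _root_.pow_add, Nat.add_sub_cancel' hi]
  push_cast
  field_simp
  linear_combination (-(e : ℂ) * (τ : ℂ)) * hp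

include ι hq hqL

/-- The units under the swap of the outer branches. -/
theorem pair_swapTwo (φ : modField K (L * q ^ 2) →ₐ[K] LaurentSeries K)
    (hφ : ∀ d, φ ⟨genSer K d, genSer_mem d⟩ = genSer K (swapTwo hq hqL d))
    {i j : ℕ} (hij : i ≤ j) (hj : j ≤ 2)
    (hu : pairU K (q ^ i) (q ^ j) ∈ modField K (L * q ^ 2))
    (hv : pairV K (q ^ i) (q ^ j) ∈ modField K (L * q ^ 2)) :
    φ ⟨_, hu⟩ = pairV K (q ^ (2 - j)) (q ^ (2 - i)) ∧
      φ ⟨_, hv⟩ = pairU K (q ^ (2 - j)) (q ^ (2 - i)) := by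
  obtain ⟨x, y, hxy⟩ : IsCoprime ((q : ℤ) ^ 2) (L : ℤ) :=
    (Int.isCoprime_iff_gcd_eq_one.mpr
      (by exact_mod_cast (hq.coprime_iff_not_dvd.mpr hqL))).pow_left
  have hdet : x * ((q : ℤ) ^ 2) - (-y) * (L : ℤ) = 1 := by linear_combination hxy
  set γ := slMk x (-y) (L : ℤ) ((q : ℤ) ^ 2) hdet
  let W : ℍ → ℍ := fun τ ↦ γ • MF.scaleH (q ^ 2) τ
  have hexp : ∀ d, HasExp 1 (genFun d ∘ W) (coeffMap ι (φ ⟨genSer K d, genSer_mem d⟩)) := by
    intro d
    obtain ⟨hd, hi', he, he0⟩ := qFree_spec hq hqL d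
    haveI : NeZero (qFree hq d) := ⟨he0.ne'⟩
    haveI : NeZero d.1 := ⟨d.2.1.ne'⟩
    obtain ⟨g, hg⟩ := exists_isTri_swap hdet (e := qFree hq d) he hi'
    rw [hφ, coeffMap_genSer, show genFun d ∘ W = genFun (swapTwo hq hqL d) from funext fun τ ↦ by
      show MF.kleinJ (MF.scaleH d.1 (γ • MF.scaleH (q ^ 2) τ)) = MF.kleinJ (MF.scaleH _ τ)
      rw [hd, hg.jFun_eq, affH_scaleH_sq hq.pos hi']
      rfl]
    exact hasExp_genFun _
  obtain ⟨g₁, h₁⟩ := exists_isTri_swap hdet (one_dvd L) (hij.trans hj)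
  obtain ⟨g₂, h₂⟩ := exists_isTri_swap hdet (one_dvd L) hj
  rw [one_mul] at h₁ h₂
  have hsub : 2 - i - (2 - j) = j - i := by omega
  refine ⟨substEmbedding_eq ι Nat.one_pos W φ hexp hu
      ((coeffMap_pairU ι (q ^ i) (q ^ j)).symm ▸ hasExp_uPair (q ^ i) (q ^ j)) ?_,
    substEmbedding_eq ι Nat.one_pos W φ hexp hv
      ((coeffMap_pairV ι (q ^ i) (q ^ j)).symm ▸ hasExp_vPair (q ^ i) (q ^ j)) ?_⟩
  · rw [coeffMap_pairV, show uPair (q ^ i) (q ^ j) ∘ W = vPair (q ^ (2 - j)) (q ^ (2 - i)) from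
      funext fun τ ↦ by
        show uPair _ _ (γ • _) = _
        rw [uPair_smul h₁ h₂ (pow_dvd_pow q hij), affH_scaleH_sq hq.pos (hij.trans hj),
          affH_scaleH_sq hq.pos hj, vPair, one_mul, one_mul]
        simp]
    exact hasExp_vPair _ _
  · rw [coeffMap_pairU, show vPair (q ^ i) (q ^ j) ∘ W = uPair (q ^ (2 - j)) (q ^ (2 - i)) from
      funext fun τ ↦ by
        show vPair _ _ (γ • _) = _
        rw [vPair_smul h₁ h₂, affH_scaleH_sq hq.pos (hij.trans hj),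
          affH_scaleH_sq hq.pos hj, uPair, one_mul, one_mul,
          Nat.pow_div (by omega) hq.pos, hsub, ← Nat.pow_div hij hq.pos,
          Nat.cast_div (pow_dvd_pow q hij) (by exact_mod_cast pow_ne_zero i hq.ne_zero)]]
    exact hasExp_uPair _ _

/-- **The middle branch**: existence, and the units of the two pairs. -/
theorem exists_embedding_middle (z : Kˣ) (hz : z ^ q = 1) (hz1 : z ≠ 1) :
    ∃ φ : modField K (L * q ^ 2) →ₐ[K] LaurentSeries K,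
      (∀ d, φ ⟨genSer K d, genSer_mem d⟩ = midVal hq hqL z d) ∧
      ∀ (hu1 : pairU K 1 q ∈ modField K (L * q ^ 2)) (hv1 : pairV K 1 q ∈ modField K (L * q ^ 2))
        (hu2 : pairU K q (q ^ 2) ∈ modField K (L * q ^ 2))
        (hv2 : pairV K q (q ^ 2) ∈ modField K (L * q ^ 2)),
        φ ⟨_, hu1⟩ = pairU K 1 q ∧ φ ⟨_, hv1⟩ = pairV K 1 q ∧
          φ ⟨_, hu2⟩ = qScale z (pairV K 1 q) ∧ φ ⟨_, hv2⟩ = qScale z (pairU K 1 q) := by
  -- `ι z = exp (2πi b/q)`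
  set w : ℂˣ := Units.map ι.toMonoidHom z with hw
  obtain ⟨b, hbq, hb⟩ := (Complex.isPrimitiveRoot_exp q hq.ne_zero).eq_pow_of_pow_eq_one
    (show (w : ℂ) ^ q = 1 by rw [← Units.val_pow_eq_pow_val, hw, ← map_pow, hz, map_one]; rfl)
  have hb0 : b ≠ 0 := by
    rintro rfl
    rw [pow_zero] at hb
    exact hz1 (Units.ext (ι.injective (hb.symm.trans (map_one ι).symm)))
  have hcop : IsCoprime ((L * b : ℕ) : ℤ) (q : ℤ) := by
    rw [Int.isCoprime_iff_gcd_eq_one, Int.gcd_natCast_natCast]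
    refine ((hq.coprime_iff_not_dvd.mpr fun h ↦ ?_).symm : Nat.Coprime (L * b) q)
    rcases hq.dvd_mul.mp h with h' | h'
    · exact hqL h'
    · exact absurd (Nat.le_of_dvd (Nat.pos_of_ne_zero hb0) h') (not_le.mpr hbq)
  obtain ⟨k, m, hkm⟩ := hcop
  push_cast at hkm
  set γ := slMk 1 0 ((L : ℤ) * q * k) 1 (by ring) with hγ
  have hγ0 : ∀ {M : ℕ}, M ∣ L * q → γ ∈ CongruenceSubgroup.Gamma0 M := by
    intro M hM
    rw [CongruenceSubgroup.Gamma0_mem, ZMod.intCast_zmod_eq_zero_iff_dvd]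
    show (M : ℤ) ∣ γ 1 0
    simp only [hγ, slMk]
    exact (Int.natCast_dvd_natCast.mpr hM).trans ⟨k, by push_cast; simp⟩
  have htwo : ∀ e : ℕ, e ∣ L →
      ∃ g : SL(2, ℤ), IsTri γ (e * q ^ 2) g (e * q) q ((e * b : ℕ) : ℤ) := by
    intro e he
    obtain ⟨c, hc⟩ := he
    have hcZ : (L : ℤ) = e * c := by exact_mod_cast hc
    refine ⟨slMk (q : ℤ) (-((e : ℤ) * b)) ((c : ℤ) * k) m ?_, ⟨by ring, ?_, ?_, ?_, ?_⟩⟩
    · linear_combination hkm - k * b * hcZ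
    all_goals simp [hγ, slMk]
    · ring
    · rw [hcZ]; ring
    · ring
    · linear_combination hkm - k * b * hcZ
  have hqp : ∀ (e : ℕ) [NeZero e] (τ : ℍ),
      Function.Periodic.qParam ((1 : ℕ) : ℝ) (affH (e * q) q ((e * b : ℕ) : ℤ) τ) =
        ((w ^ e : ℂˣ) : ℂ) * Function.Periodic.qParam ((1 : ℕ) : ℝ) τ ^ e := by
    intro e _ τ
    rw [Units.val_pow_eq_pow_val, ← hb, Function.Periodic.qParam, Function.Periodic.qParam,
      ← Complex.exp_nat_mul, ← Complex.exp_nat_mul, ← Complex.exp_nat_mul, ← Complex.exp_add,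
      coe_affH _ τ (Nat.pos_of_ne_zero (mul_ne_zero (NeZero.ne e) hq.ne_zero)) hq.pos]
    congr 1
    have hq' : (q : ℂ) ≠ 0 := Nat.cast_ne_zero.mpr hq.ne_zero
    push_cast
    field_simp
    ring
  let W : ℍ → ℍ := fun τ ↦ γ • τ
  have hexp : ∀ d : DivIdx (L * q ^ 2),
      HasExp 1 (genFun d ∘ W) (coeffMap ι (midVal hq hqL z d)) := by
    intro d
    obtain ⟨hd, hi, he, he0⟩ := qFree_spec hq hqL d
    haveI : NeZero (qFree hq d) := ⟨he0.ne'⟩
    haveI : NeZero d.1 := ⟨d.2.1.ne'⟩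
    unfold midVal
    split_ifs with h
    · obtain ⟨g, hg⟩ := htwo _ he
      rw [coeffMap_qScale, coeffMap_genSer, show genSer ℂ (freeIdx hq hqL d) =
        qExpand ℂ (qFree hq d) (jqModC ℂ) from rfl, qScale_qExpand, ← hw]
      refine (congrArg (HasExp 1 · _) ?_).mpr
        (hasExp_jFun.comp (fun τ ↦ affH (qFree hq d * q) q ((qFree hq d * b : ℕ) : ℤ) τ)
          (w ^ qFree hq d) (qFree hq d) (hqp _))
      funext τ
      show MF.kleinJ (MF.scaleH d.1 (γ • τ)) = _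
      rw [hd, h, hg.jFun_eq]
      rfl
    · rw [coeffMap_genSer, show genFun d ∘ W = genFun d from funext fun τ ↦
        gammaInv_jFun_scale (d := d.1) (N := L * q) ?_ γ (hγ0 dvd_rfl) τ]
      · exact hasExp_genFun d
      · have hi1 : qExp hq d ≤ 1 := by
          rcases eq_or_lt_of_le hi with h2 | h2
          · exact absurd h2 h
          · omega
        rw [hd]
        exact mul_dvd_mul he ((pow_dvd_pow q hi1).trans (pow_one q).dvd)
  obtain ⟨φ, hφ⟩ := exists_substEmbedding (M := L * q ^ 2) ι Nat.one_pos W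
    (fun τ ↦ ⟨γ⁻¹ • τ, smul_inv_smul γ τ⟩) _ hexp
  refine ⟨φ, hφ, fun hu1 hv1 hu2 hv2 ↦ ?_⟩
  have hexp' : ∀ d, HasExp 1 (genFun d ∘ W) (coeffMap ι (φ ⟨genSer K d, genSer_mem d⟩)) :=
    fun d ↦ hφ d ▸ hexp d
  have key := @substEmbedding_eq K _ _ (L * q ^ 2) _ ι 1 Nat.one_pos W φ hexp'
  have hd2 : q ∣ q ^ 2 := dvd_pow_self q two_ne_zero
  obtain ⟨g₁, h₁⟩ := isTri_Gamma0 (d := q) dvd_rfl (hγ0 (dvd_mul_left q L))
  obtain ⟨g₂, h₂⟩ := htwo 1 (one_dvd L)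
  rw [one_mul, one_mul, one_mul] at h₂
  have haff : ∀ τ, Function.Periodic.qParam ((1 : ℕ) : ℝ) (affH q q (b : ℤ) τ) =
      (w : ℂ) * Function.Periodic.qParam ((1 : ℕ) : ℝ) τ ^ 1 := fun τ ↦ by
    simpa using hqp 1 τ
  have hsc : HasExp 1 (fun τ ↦ ModularForm.discriminant (affH q q (b : ℤ) τ))
      (qScale w (deltaSeries ℂ)) := by
    simpa [qExpand_one_apply, Function.comp_def] using hasExp_discriminant.comp _ w 1 haff
  have hsi : HasExp 1 (fun τ ↦ (ModularForm.discriminant (affH q q (b : ℤ) τ))⁻¹)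
      (qScale w (deltaInvSeries ℂ)) := by
    simpa [qExpand_one_apply, Function.comp_def] using hasExp_discriminant_inv.comp _ w 1 haff
  have hwq : w ^ q = 1 := by rw [hw, ← map_pow, hz, map_one]
  have hfix : ∀ x : LaurentSeries ℂ, qScale w (qExpand ℂ q x) = qExpand ℂ q x := fun x ↦ by
    rw [qScale_qExpand, hwq, qScale_one, RingHom.id_apply]
  refine ⟨key hu1 ((coeffMap_pairU ι 1 q).symm ▸ hasExp_uPair 1 q) ?_,
    key hv1 ((coeffMap_pairV ι 1 q).symm ▸ hasExp_vPair 1 q) ?_,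
    key hu2 ((coeffMap_pairU ι q (q ^ 2)).symm ▸ hasExp_uPair q (q ^ 2)) ?_,
    key hv2 ((coeffMap_pairV ι q (q ^ 2)).symm ▸ hasExp_vPair q (q ^ 2)) ?_⟩
  · rw [coeffMap_pairU, show uPair 1 q ∘ W = uPair 1 q from funext fun τ ↦
      gammaInv_uPair (one_dvd q) dvd_rfl γ (hγ0 (dvd_mul_left q L)) τ]
    exact hasExp_uPair 1 q
  · rw [coeffMap_pairV, show vPair 1 q ∘ W = vPair 1 q from funext fun τ ↦
      gammaInv_vPair (one_dvd q) dvd_rfl γ (hγ0 (dvd_mul_left q L)) τ]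
    exact hasExp_vPair 1 q
  · rw [coeffMap_qScale, coeffMap_pairV, ← hw, pairV, map_mul, hfix, qExpand_one_apply]
    refine (congrArg (HasExp 1 · _) ?_).mpr
      (hsc.mul (hasExp_comp_scaleH hasExp_discriminant_inv q))
    funext τ
    show uPair q (q ^ 2) (γ • τ) = _
    rw [uPair_smul h₁ h₂ hd2, affH_diag, div_self (Nat.cast_ne_zero.mpr hq.ne_zero), one_pow,
      one_mul]
    rfl
  · rw [coeffMap_qScale, coeffMap_pairU, ← hw, pairU, map_mul, map_mul, qScale_single, hfix,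
      qExpand_one_apply, zpow_zero, Units.val_one, one_mul, Nat.div_one]
    refine (congrArg (HasExp 1 · _) ?_).mpr
      ((hasExp_const ((q : ℂ) ^ 12)).mul
        ((hasExp_comp_scaleH hasExp_discriminant q).mul hsi))
    funext τ
    show vPair q (q ^ 2) (γ • τ) = _
    rw [vPair_smul h₁ h₂, affH_diag, Nat.cast_one, div_one]
    rfl

omit hq hqL in
/-- The values of any embedding with the data of a branch. -/
theorem isSubst_eq_fieldExt {K₀ : Type} [Field K₀] [Algebra ℚ K₀] {κ : K₀ →+* K} {M : ℕ} [NeZero M]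
    {e : modField K₀ M →+* LaurentSeries K} {s : DivIdx M → LaurentSeries K}
    (he : IsSubst κ e s) (φ : modField K M →ₐ[K] LaurentSeries K)
    (hφ : ∀ d, φ ⟨genSer K d, genSer_mem d⟩ = s d) {x : LaurentSeries K₀}
    (hx : x ∈ modField K₀ M) {y : LaurentSeries K} (hxy : coeffMap κ x = y)
    (hy : y ∈ modField K M) : e ⟨x, hx⟩ = φ ⟨y, hy⟩ := by
  subst hxy
  exact DFunLike.congr_fun (he.ext (isSubst_comp_fieldExt κ φ hφ) fun _ ↦ rfl) ⟨x, hx⟩

/-- **The units of the two pairs along the branches.** -/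
theorem branchEmbs_pair {K₀ : Type} [Field K₀] [Algebra ℚ K₀] {κ : K₀ →+* K} {z : Kˣ}
    {e0 e02 : modField K₀ (L * q ^ 2) →+* LaurentSeries K}
    {ez : Fin (q - 1) → modField K₀ (L * q ^ 2) →+* LaurentSeries K}
    (hB : BranchEmbs hq hqL κ z e0 e02 ez)
    (hu1 : pairU K₀ 1 q ∈ modField K₀ (L * q ^ 2)) (hv1 : pairV K₀ 1 q ∈ modField K₀ (L * q ^ 2))
    (hu2 : pairU K₀ q (q ^ 2) ∈ modField K₀ (L * q ^ 2))
    (hv2 : pairV K₀ q (q ^ 2) ∈ modField K₀ (L * q ^ 2)) :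
    (e0 ⟨_, hu1⟩ = pairU K 1 q ∧ e0 ⟨_, hv1⟩ = pairV K 1 q ∧
      e0 ⟨_, hu2⟩ = pairU K q (q ^ 2) ∧ e0 ⟨_, hv2⟩ = pairV K q (q ^ 2)) ∧
    (e02 ⟨_, hu1⟩ = pairV K q (q ^ 2) ∧ e02 ⟨_, hv1⟩ = pairU K q (q ^ 2) ∧
      e02 ⟨_, hu2⟩ = pairV K 1 q ∧ e02 ⟨_, hv2⟩ = pairU K 1 q) ∧
    ∀ k, ez k ⟨_, hu1⟩ = pairU K 1 q ∧ ez k ⟨_, hv1⟩ = pairV K 1 q ∧
      ez k ⟨_, hu2⟩ = qScale (z ^ ((k : ℕ) + 1)) (pairV K 1 q) ∧
      ez k ⟨_, hv2⟩ = qScale (z ^ ((k : ℕ) + 1)) (pairU K 1 q) := by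
  have hb : ∀ (x : LaurentSeries K₀) (hx : x ∈ modField K₀ (L * q ^ 2)),
      e0 ⟨x, hx⟩ = coeffMap κ x := fun x hx ↦
    DFunLike.congr_fun (hB.h0.ext (isSubst_baseEmb κ _) fun _ ↦ rfl) ⟨x, hx⟩
  have hd2 : q ∣ q ^ 2 := dvd_pow_self q two_ne_zero
  have dqq : q ^ 2 ∣ L * q ^ 2 := dvd_mul_left _ _
  have U1 := pairU_mem (K := K) ι (one_dvd q) (hd2.trans dqq)
  have V1 := pairV_mem (K := K) ι (one_dvd q) (hd2.trans dqq)
  have U2 := pairU_mem (K := K) ι hd2 dqq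
  have V2 := pairV_mem (K := K) ι hd2 dqq
  have c1 := coeffMap_pairU κ 1 q
  have c2 := coeffMap_pairV κ 1 q
  have c3 := coeffMap_pairU κ q (q ^ 2)
  have c4 := coeffMap_pairV κ q (q ^ 2)
  refine ⟨⟨(hb _ _).trans c1, (hb _ _).trans c2, (hb _ _).trans c3, (hb _ _).trans c4⟩, ?_, ?_⟩
  · obtain ⟨φ, hφ⟩ := exists_embedding_swapTwo (L₀ := L) ι hq hqL
    obtain ⟨p1, p2⟩ := pair_swapTwo ι hq hqL φ hφ (i := 0) (j := 1) zero_le_one one_le_two
      (by simpa using U1) (by simpa using V1)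
    obtain ⟨p3, p4⟩ := pair_swapTwo ι hq hqL φ hφ (i := 1) (j := 2) one_le_two le_rfl
      (by simpa using U2) (by simpa using V2)
    simp only [pow_zero, pow_one, show 2 - 1 = 1 from rfl, Nat.sub_zero, Nat.sub_self]
      at p1 p2 p3 p4
    rw [isSubst_eq_fieldExt ι hB.h02 φ hφ hu1 c1 U1, isSubst_eq_fieldExt ι hB.h02 φ hφ hv1 c2 V1,
      isSubst_eq_fieldExt ι hB.h02 φ hφ hu2 c3 U2, isSubst_eq_fieldExt ι hB.h02 φ hφ hv2 c4 V2]
    exact ⟨p1, p2, p3, p4⟩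
  · intro k
    have hk : z ^ ((k : ℕ) + 1) ≠ 1 :=
      hB.prim.pow_ne_one_of_pos_of_lt (Nat.succ_ne_zero _) (by omega)
    obtain ⟨φ, hφ, hval⟩ := exists_embedding_middle ι hq hqL (z ^ ((k : ℕ) + 1))
      (by rw [← pow_mul, mul_comm, pow_mul, hB.prim.pow_eq_one, one_pow]) hk
    obtain ⟨p1, p2, p3, p4⟩ := hval U1 V1 U2 V2
    rw [isSubst_eq_fieldExt ι (hB.hz k) φ hφ hu1 c1 U1,
      isSubst_eq_fieldExt ι (hB.hz k) φ hφ hv1 c2 V1,
      isSubst_eq_fieldExt ι (hB.hz k) φ hφ hu2 c3 U2,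
      isSubst_eq_fieldExt ι (hB.hz k) φ hφ hv2 c4 V2]
    exact ⟨p1, p2, p3, p4⟩

end Branches

end Fermat.Agent.Carayol
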