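/-
The three branches of `X₀(q² L)` at `q`, as embeddings of the function field into Laurent series:
the identity, the swap `d qⁱ ↦ d q^(2-i)` and, for every `q`-th root of unity `z ≠ 1`, the middle
branch `d, d q ↦ J_d, J_{dq}`, `d q² ↦ J_d(z Q)`.
-/
import Fermat.Agent.Carayol.SeriesSubst

set_option autoImplicit false

noncomputable section

open UpperHalfPlane HahnSeries ModularCurve
open Fermat.Agent.Igusa Fermat.Agent.RED.Spec Fermat.Agent.HK.Corr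
open scoped MatrixGroups Real

namespace Fermat.Agent.Carayol

local notation "𝕢" => Function.Periodic.qParam

section Indices

variable {L₀ q : ℕ}

/-- The power of `q` in a divisor of `L₀ q²`. -/
def qExp (hq : q.Prime) (d : DivIdx (L₀ * q ^ 2)) : ℕ :=
  haveI := Fact.mk hq
  padicValNat q d.1

/-- The prime-to-`q` part of a divisor of `L₀ q²`. -/
def qFree (hq : q.Prime) (d : DivIdx (L₀ * q ^ 2)) : ℕ := d.1 / q ^ qExp hq d

theorem qFree_spec (hq : q.Prime) (hqL : ¬ q ∣ L₀) (d : DivIdx (L₀ * q ^ 2)) :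
    d.1 = qFree hq d * q ^ qExp hq d ∧ qExp hq d ≤ 2 ∧ qFree hq d ∣ L₀ ∧ 0 < qFree hq d := by
  obtain ⟨a, b, ha, hb, hab⟩ := Nat.dvd_mul.mp d.2.2
  obtain ⟨i, hi, rfl⟩ := (Nat.dvd_prime_pow hq).mp hb
  have : Fact q.Prime := ⟨hq⟩
  have ha0 : a ≠ 0 := fun h => d.2.1.ne' (by rw [← hab, h, zero_mul])
  have hqa : ¬ q ∣ a := fun h => hqL (h.trans ha)
  have he : qExp hq d = i := by
    show padicValNat q d.1 = i
    rw [← hab, padicValNat.mul ha0 (pow_ne_zero i hq.ne_zero), padicValNat.prime_pow,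
      padicValNat.eq_zero_of_not_dvd hqa, zero_add]
  have hf : qFree hq d = a := by
    rw [qFree, he, ← hab, Nat.mul_div_cancel _ (pow_pos hq.pos i)]
  rw [he, hf]
  exact ⟨hab.symm, hi, ha, Nat.pos_of_ne_zero ha0⟩

theorem qExp_eq (hq : q.Prime) (hqL : ¬ q ∣ L₀) {d : DivIdx (L₀ * q ^ 2)} {e i : ℕ}
    (h : d.1 = e * q ^ i) (he : e ∣ L₀) : qExp hq d = i ∧ qFree hq d = e := by
  have : Fact q.Prime := ⟨hq⟩
  have he0 : e ≠ 0 := fun h0 => d.2.1.ne' (by rw [h, h0, zero_mul])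
  have hv : qExp hq d = i := by
    show padicValNat q d.1 = i
    rw [h, padicValNat.mul he0 (pow_ne_zero i hq.ne_zero), padicValNat.prime_pow,
      padicValNat.eq_zero_of_not_dvd (fun hd => hqL (hd.trans he)), zero_add]
  exact ⟨hv, by rw [qFree, hv, h, Nat.mul_div_cancel _ (pow_pos hq.pos i)]⟩

end Indices

/-- Multiplying the variable commutes with raising it to a power. -/
theorem qScale_qExpand {R : Type*} [CommRing R] (z : Rˣ) (d : ℕ) [NeZero d]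
    (x : LaurentSeries R) :
    qScale z (qExpand R d x) = qExpand R d (qScale (z ^ d) x) := by
  ext n
  by_cases hn : (d : ℤ) ∣ n
  · obtain ⟨m, rfl⟩ := hn
    rw [qScale_coeff, qExpand_coeff_mul, qExpand_coeff_mul, qScale_coeff, zpow_mul, zpow_natCast]
  · rw [qScale_coeff, qExpand_coeff_of_not_dvd _ _ hn, qExpand_coeff_of_not_dvd _ _ hn, mul_zero]

theorem surjective_smul_comp (γ : SL(2, ℤ)) (r : ℕ) :
    Function.Surjective fun τ : ℍ => γ • ModularForm.heckeDiagMatrix r • τ := fun w =>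
  ⟨(ModularForm.heckeDiagMatrix r)⁻¹ • γ⁻¹ • w, by simp⟩

variable {L₀ q : ℕ} {K : Type*} [Field K] [Algebra ℚ K]

/-- The index `d qⁱ ↦ d q^(2-i)`. -/
def swapTwo (hq : q.Prime) (hqL : ¬ q ∣ L₀) (d : DivIdx (L₀ * q ^ 2)) : DivIdx (L₀ * q ^ 2) :=
  ⟨qFree hq d * q ^ (2 - qExp hq d),
    Nat.mul_pos (qFree_spec hq hqL d).2.2.2 (pow_pos hq.pos _),
    mul_dvd_mul (qFree_spec hq hqL d).2.2.1 (pow_dvd_pow q (Nat.sub_le _ _))⟩

variable [NeZero L₀] [NeZero q]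

/-- The substitution realising the exchange of the outer branches. -/
theorem exists_genFun_swapTwo (hq : q.Prime) (hqL : ¬ q ∣ L₀) :
    ∃ W : ℍ → ℍ, Function.Surjective W ∧
      ∀ (d : DivIdx (L₀ * q ^ 2)) (τ : ℍ), genFun d (W τ) = genFun (swapTwo hq hqL d) τ := by
  obtain ⟨x, y, hxy⟩ : IsCoprime ((q : ℤ) ^ 2) (L₀ : ℤ) :=
    (Int.isCoprime_iff_gcd_eq_one.mpr
      (by exact_mod_cast (hq.coprime_iff_not_dvd.mpr hqL))).pow_left
  have hdet : x * ((q : ℤ) ^ 2) - (-y) * (L₀ : ℤ) = 1 := by linear_combination hxy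
  refine ⟨_, surjective_smul_comp (slMk x (-y) (L₀ : ℤ) ((q : ℤ) ^ 2) hdet) (q ^ 2),
    fun d τ => ?_⟩
  obtain ⟨hd, hi, ⟨c, hc⟩, he⟩ := qFree_spec hq hqL d
  set e := qFree hq d
  set i := qExp hq d
  have hq0 : (q : ℂ) ≠ 0 := Nat.cast_ne_zero.mpr hq.ne_zero
  have hcC : (L₀ : ℂ) = e * c := by exact_mod_cast hc
  have hcZ : (L₀ : ℤ) = e * c := by exact_mod_cast hc
  show MF.kleinJ (ModularForm.heckeDiagMatrix d.1 • slMk x (-y) (L₀ : ℤ) ((q : ℤ) ^ 2) hdet •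
      ModularForm.heckeDiagMatrix (q ^ 2) • τ) =
    MF.kleinJ (ModularForm.heckeDiagMatrix (e * q ^ (2 - i)) • τ)
  rw [← MF.kleinJ_smul (slMk (x * (q : ℤ) ^ i) (-y * e) c ((q : ℤ) ^ (2 - i)) (by
      have hp : (q : ℤ) ^ i * (q : ℤ) ^ (2 - i) = (q : ℤ) ^ 2 := by
        rw [← _root_.pow_add, Nat.add_sub_cancel' hi]
      linear_combination hxy + x * hp - y * hcZ))
    (ModularForm.heckeDiagMatrix (e * q ^ (2 - i)) • τ)]
  congr 1
  refine UpperHalfPlane.ext ?_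
  rw [ModularForm.coe_heckeDiagMatrix_smul d.2.1.ne', coe_slMk_smul, coe_slMk_smul,
    ModularForm.coe_heckeDiagMatrix_smul (pow_ne_zero 2 hq.ne_zero),
    ModularForm.coe_heckeDiagMatrix_smul (mul_ne_zero he.ne' (pow_ne_zero _ hq.ne_zero)), hd]
  have hp : (q : ℂ) ^ i * (q : ℂ) ^ (2 - i) = (q : ℂ) ^ 2 := by
    rw [← _root_.pow_add, Nat.add_sub_cancel' hi]
  push_cast
  have hden : ((L₀ : ℂ) * ((q : ℂ) ^ 2 * τ) + (q : ℂ) ^ 2) =
      (q : ℂ) ^ i * ((c : ℂ) * ((e : ℂ) * (q : ℂ) ^ (2 - i) * τ) + (q : ℂ) ^ (2 - i)) := by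
    rw [hcC, ← hp]; ring
  rw [hden, mul_div_assoc', mul_comm ((q : ℂ) ^ i) ((c : ℂ) * _ + _)]
  rw [show (e : ℂ) * (q : ℂ) ^ i * ((x : ℂ) * ((q : ℂ) ^ 2 * τ) + -(y : ℂ)) =
      ((x : ℂ) * (q : ℂ) ^ i * ((e : ℂ) * (q : ℂ) ^ (2 - i) * τ) + -(y : ℂ) * e) * (q : ℂ) ^ i by
    rw [← hp]; ring]
  rw [mul_div_mul_right _ _ (pow_ne_zero i hq0)]

/-- **The branch `C₀₂`.** -/
theorem exists_embedding_swapTwo (ι : K →+* ℂ) (hq : q.Prime) (hqL : ¬ q ∣ L₀) :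
    ∃ φ : modField K (L₀ * q ^ 2) →ₐ[K] LaurentSeries K,
      ∀ d, φ ⟨genSer K d, genSer_mem d⟩ = genSer K (swapTwo hq hqL d) := by
  obtain ⟨W, hW, hWd⟩ := exists_genFun_swapTwo (L₀ := L₀) hq hqL
  refine exists_substEmbedding ι Nat.one_pos W hW _ fun d => ?_
  rw [coeffMap_genSer, show genFun d ∘ W = genFun (swapTwo hq hqL d) from funext (hWd d)]
  exact hasExp_genFun _

end Fermat.Agent.Carayol
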