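/-
Complete lists of embeddings of the function field of level `L₀ q²` into Laurent series, relative
to its subfields of levels `L₀` and `L₀ q` (degeneracy maps), with trace, norm and minimal
polynomial in terms of them.
-/
import Fermat.Agent.Carayol.ThreeBranches
import Fermat.Agent.HK.HeckeFinal
import Mathlib.FieldTheory.PrimitiveElement
import Mathlib.FieldTheory.IsAlgClosed.AlgebraicClosure
import Mathlib.RingTheory.Norm.Transitivity
import Mathlib.RingTheory.Trace.Basic

set_option autoImplicit false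

noncomputable section

open Polynomial HahnSeries ModularCurve AlgebraicCurve IntermediateField
open Fermat.Agent.Igusa Fermat.Agent.RED.Spec Fermat.Agent.HK.Corr

namespace Fermat.Agent.Carayol

section Abstract

variable {F' F Ω ι : Type*} [Field F'] [Field F] [Field Ω] [Fintype ι] [Algebra F' F]

/-- A family of `[F : F']` distinct extensions of `ψ` to `F`. -/
structure CompleteEmb (ψ : F' →+* Ω) (φ : ι → F →+* Ω) : Prop where
  comp : ∀ i x, φ i (algebraMap F' F x) = ψ x
  inj : Function.Injective φ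
  card : Fintype.card ι = Module.finrank F' F
  nonempty : Nonempty ι

namespace CompleteEmb

variable {ψ : F' →+* Ω} {φ : ι → F →+* Ω} (h : CompleteEmb ψ φ)

include h

theorem finiteDimensional : FiniteDimensional F' F :=
  haveI := h.nonempty
  Module.finite_of_finrank_pos (h.card ▸ Fintype.card_pos)

variable [CharZero F']

/-- The family gives every embedding into an algebraic closure. -/
theorem exists_eq (φ' : F →+* AlgebraicClosure Ω)
    (h' : ∀ x, φ' (algebraMap F' F x) = algebraMap Ω _ (ψ x)) :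
    ∃ i, ∀ a, φ' a = algebraMap Ω _ (φ i a) := by
  haveI := h.finiteDimensional
  letI : Algebra F' (AlgebraicClosure Ω) := ((algebraMap Ω (AlgebraicClosure Ω)).comp ψ).toAlgebra
  let σ : ι → (F →ₐ[F'] AlgebraicClosure Ω) := fun i =>
    { (algebraMap Ω (AlgebraicClosure Ω)).comp (φ i) with
      commutes' := fun x => congrArg (algebraMap Ω (AlgebraicClosure Ω)) (h.comp i x) }
  have hσ : Function.Injective σ := fun i j hij => h.inj (RingHom.ext fun a =>
    (algebraMap Ω (AlgebraicClosure Ω)).injective (DFunLike.congr_fun hij a))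
  have hb := (Fintype.bijective_iff_injective_and_card σ).mpr
    ⟨hσ, h.card.trans (AlgHom.card F' F (AlgebraicClosure Ω)).symm⟩
  obtain ⟨i, hi⟩ := hb.2 { φ' with commutes' := h' }
  exact ⟨i, fun a => (DFunLike.congr_fun hi a).symm⟩

/-- The family is exhaustive. -/
theorem exists_eq' (φ' : F →+* Ω) (h' : ∀ x, φ' (algebraMap F' F x) = ψ x) : ∃ i, φ' = φ i := by
  obtain ⟨i, hi⟩ := h.exists_eq ((algebraMap Ω _).comp φ') fun x => congrArg (algebraMap Ω _) (h' x)
  exact ⟨i, RingHom.ext fun a => (algebraMap Ω (AlgebraicClosure Ω)).injective (hi a)⟩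

theorem map_norm (a : F) : ψ (Algebra.norm F' a) = ∏ i, φ i a := by
  haveI := h.finiteDimensional
  letI : Algebra F' (AlgebraicClosure Ω) := ((algebraMap Ω (AlgebraicClosure Ω)).comp ψ).toAlgebra
  let σ : ι → (F →ₐ[F'] AlgebraicClosure Ω) := fun i =>
    { (algebraMap Ω (AlgebraicClosure Ω)).comp (φ i) with
      commutes' := fun x => congrArg (algebraMap Ω (AlgebraicClosure Ω)) (h.comp i x) }
  have hσ : Function.Injective σ := fun i j hij => h.inj (RingHom.ext fun a =>
    (algebraMap Ω (AlgebraicClosure Ω)).injective (DFunLike.congr_fun hij a))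
  have hb := (Fintype.bijective_iff_injective_and_card σ).mpr
    ⟨hσ, h.card.trans (AlgHom.card F' F (AlgebraicClosure Ω)).symm⟩
  have := Algebra.norm_eq_prod_embeddings F' (AlgebraicClosure Ω) a
  rw [← Fintype.prod_bijective σ hb (fun i => σ i a) _ fun _ => rfl] at this
  apply (algebraMap Ω (AlgebraicClosure Ω)).injective
  rw [map_prod]
  exact this

theorem map_trace (a : F) : ψ (Algebra.trace F' F a) = ∑ i, φ i a := by
  haveI := h.finiteDimensional
  letI : Algebra F' (AlgebraicClosure Ω) := ((algebraMap Ω (AlgebraicClosure Ω)).comp ψ).toAlgebra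
  let σ : ι → (F →ₐ[F'] AlgebraicClosure Ω) := fun i =>
    { (algebraMap Ω (AlgebraicClosure Ω)).comp (φ i) with
      commutes' := fun x => congrArg (algebraMap Ω (AlgebraicClosure Ω)) (h.comp i x) }
  have hσ : Function.Injective σ := fun i j hij => h.inj (RingHom.ext fun a =>
    (algebraMap Ω (AlgebraicClosure Ω)).injective (DFunLike.congr_fun hij a))
  have hb := (Fintype.bijective_iff_injective_and_card σ).mpr
    ⟨hσ, h.card.trans (AlgHom.card F' F (AlgebraicClosure Ω)).symm⟩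
  have := trace_eq_sum_embeddings (K := F') (E := AlgebraicClosure Ω) (x := a)
  rw [← Fintype.sum_bijective σ hb (fun i => σ i a) _ fun _ => rfl] at this
  apply (algebraMap Ω (AlgebraicClosure Ω)).injective
  rw [map_sum]
  exact this

omit h [Fintype ι] [CharZero F'] in
theorem eval₂_minpoly {φ' : F →+* Ω} (h' : ∀ x, φ' (algebraMap F' F x) = ψ x) (a : F) :
    (minpoly F' a).eval₂ ψ (φ' a) = 0 := by
  have := congrArg φ' (minpoly.aeval F' a)
  rw [map_zero, aeval_def, hom_eval₂] at this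
  rwa [show φ'.comp (algebraMap F' F) = ψ from RingHom.ext h'] at this

/-- If all conjugates of `a` lie in `B`, so do the coefficients of its minimal polynomial. -/
theorem coeff_minpoly_mem (B : Subring Ω) (a : F) (hB : ∀ i, φ i a ∈ B) (n : ℕ) :
    ψ ((minpoly F' a).coeff n) ∈ B := by
  classical
  haveI := h.finiteDimensional
  let g : F' →+* AlgebraicClosure Ω := (algebraMap Ω (AlgebraicClosure Ω)).comp ψ
  letI : Algebra F' (AlgebraicClosure Ω) := g.toAlgebra
  let f : B →+* AlgebraicClosure Ω := (algebraMap Ω (AlgebraicClosure Ω)).comp B.subtype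
  have hint : IsIntegral F' a := Algebra.IsIntegral.isIntegral a
  have hroot : ∀ r ∈ ((minpoly F' a).map g).roots, r ∈ f.range := by
    intro r hr
    have h1 : r ∈ (minpoly F' a).rootSet (AlgebraicClosure Ω) := by
      rw [rootSet, Finset.mem_coe, Multiset.mem_toFinset]
      exact hr
    rw [← Algebra.IsAlgebraic.range_eval_eq_rootSet_minpoly] at h1
    obtain ⟨σ, rfl⟩ := h1
    obtain ⟨i, hi⟩ := h.exists_eq σ.toRingHom σ.commutes
    exact ⟨⟨φ i a, hB i⟩, (hi a).symm⟩
  have hl : (minpoly F' a).map g ∈ lifts f := by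
    rw [(IsAlgClosed.splits _).eq_prod_roots_of_monic ((minpoly.monic hint).map g)]
    refine Subsemiring.multiset_prod_mem _ _ fun p hp => ?_
    obtain ⟨r, hr, rfl⟩ := Multiset.mem_map.mp hp
    obtain ⟨b, rfl⟩ := hroot r hr
    exact (mem_lifts _).mpr ⟨X - Polynomial.C b, by simp [f]⟩
  obtain ⟨b, hb⟩ := (lifts_iff_coeff_lifts _).mp hl n
  rw [coeff_map] at hb
  rw [← (algebraMap Ω (AlgebraicClosure Ω)).injective hb]
  exact b.2

end CompleteEmb
end Abstract

/-! ### Substitutions -/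

section Subst

variable {K K' : Type*} [Field K] [Algebra ℚ K] [Field K'] [Algebra ℚ K']

/-- `φ` is `κ` on constants and sends `j (q^d)` to `s d`. -/
structure IsSubst (κ : K →+* K') {M : ℕ} (φ : modField K M →+* LaurentSeries K')
    (s : DivIdx M → LaurentSeries K') : Prop where
  gen : ∀ (d : DivIdx M) (h : genSer K d ∈ modField K M), φ ⟨_, h⟩ = s d
  const : ∀ c, φ (algebraMap K (modField K M) c) = single 0 (κ c)

/-- The multiples of the indices. -/
def mulIdx {M M' : ℕ} (e : ℕ) [NeZero e] (h : M * e ∣ M') (d : DivIdx M) : DivIdx M' :=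
  ⟨e * d.1, Nat.mul_pos (Nat.pos_of_ne_zero (NeZero.ne e)) d.2.1,
    (mul_comm M e ▸ mul_dvd_mul_left e d.2.2).trans (mul_comm e M ▸ h)⟩

theorem coe_mulIdx {M M' : ℕ} (e : ℕ) [NeZero e] (h : M * e ∣ M') (d : DivIdx M) :
    (mulIdx e h d).1 = e * d.1 := rfl

theorem genSer_congr (R : Type*) [CommRing R] {M M' : ℕ} {d : DivIdx M} {d' : DivIdx M'}
    (h : d.1 = d'.1) : genSer R d = genSer R d' := by
  have : NeZero d.1 := ⟨d.2.1.ne'⟩
  have : NeZero d'.1 := ⟨d'.2.1.ne'⟩
  exact qExpand_congr h _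

theorem qExpand_genSer (R : Type*) [CommRing R] {M M' : ℕ} {e : ℕ} [NeZero e] {d : DivIdx M}
    {d' : DivIdx M'} (h : d'.1 = e * d.1) : qExpand R e (genSer R d) = genSer R d' := by
  have : NeZero d.1 := ⟨d.2.1.ne'⟩
  have : NeZero d'.1 := ⟨d'.2.1.ne'⟩
  rw [genSer, genSer, qExpand_qExpand]
  exact qExpand_congr h.symm _

theorem qScale_genSer_of_pow {R : Type*} [CommRing R] {M : ℕ} (d : DivIdx M) {u : Rˣ}
    (hu : u ^ d.1 = 1) : qScale u (genSer R d) = genSer R d := by
  have : NeZero d.1 := ⟨d.2.1.ne'⟩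
  rw [genSer, qScale_qExpand, hu, qScale_one]
  rfl

theorem hasLead_genSer {R : Type*} [CommRing R] {M : ℕ} (d : DivIdx M) :
    HasLead (genSer R d) (-(d.1 : ℤ)) 1 := by
  have : NeZero d.1 := ⟨d.2.1.ne'⟩
  simpa [genSer] using (hasLead_jqModC R).qExpand d.1

theorem degenMap_genSer {M M' : ℕ} (e : ℕ) [NeZero e] (h : M * e ∣ M') (d : DivIdx M)
    (hd : genSer K d ∈ modField K M) (hd' : genSer K (mulIdx e h d) ∈ modField K M') :
    degenMap K e h ⟨_, hd⟩ = ⟨_, hd'⟩ :=
  Subtype.ext (qExpand_genSer K (coe_mulIdx e h d))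

namespace IsSubst

variable {κ : K →+* K'} {M : ℕ} {φ φ' : modField K M →+* LaurentSeries K'}
  {s s' : DivIdx M → LaurentSeries K'}

theorem congr_val (h : IsSubst κ φ s) (hs : s = s') : IsSubst κ φ s' := hs ▸ h

/-- A substitution is determined by its values. -/
theorem ext [NeZero M] (h : IsSubst κ φ s) (h' : IsSubst κ φ' s') (hs : ∀ d, s d = s' d) :
    φ = φ' := by
  refine RingHom.ext fun x => ?_
  obtain ⟨x, hx⟩ := x
  have hx' : x ∈ adjoin K (Set.range (genSer K (M := M))) :=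
    modField_eq_adjoin_genSer (L := K) M ▸ hx
  have hM := fun {a : LaurentSeries K} (ha : a ∈ adjoin K (Set.range (genSer K (M := M)))) =>
    (modField_eq_adjoin_genSer (L := K) M).symm ▸ ha
  revert hx
  induction hx' using adjoin_induction with
  | mem y hy => obtain ⟨d, rfl⟩ := hy; exact fun hx => by rw [h.gen, h'.gen, hs]
  | algebraMap c =>
    intro hx
    exact (h.const c).trans (h'.const c).symm
  | add a b ha hb iha ihb =>
    intro hx
    rw [show (⟨a + b, hx⟩ : modField K M) = ⟨a, hM ha⟩ + ⟨b, hM hb⟩ from rfl, map_add, map_add,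
      iha (hM ha), ihb (hM hb)]
  | inv a ha iha =>
    intro hx
    rw [show (⟨a⁻¹, hx⟩ : modField K M) = ⟨a, hM ha⟩⁻¹ from rfl, map_inv₀, map_inv₀, iha (hM ha)]
  | mul a b ha hb iha ihb =>
    intro hx
    rw [show (⟨a * b, hx⟩ : modField K M) = ⟨a, hM ha⟩ * ⟨b, hM hb⟩ from rfl, map_mul, map_mul,
      iha (hM ha), ihb (hM hb)]

theorem qExpand_comp (h : IsSubst κ φ s) (n : ℕ) [NeZero n] :
    IsSubst κ ((qExpand K' n).comp φ) fun d => qExpand K' n (s d) :=
  ⟨fun d hd => by rw [RingHom.comp_apply, h.gen],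
    fun c => by rw [RingHom.comp_apply, h.const, qExpand_single, mul_zero]⟩

theorem qScale_comp (h : IsSubst κ φ s) (u : K'ˣ) :
    IsSubst κ ((qScale u).comp φ) fun d => qScale u (s d) :=
  ⟨fun d hd => by rw [RingHom.comp_apply, h.gen],
    fun c => by rw [RingHom.comp_apply, h.const, qScale_single, zpow_zero, Units.val_one, one_mul]⟩

theorem comp_degen {M' : ℕ} [NeZero M'] {φ : modField K M' →+* LaurentSeries K'}
    {s : DivIdx M' → LaurentSeries K'} (h : IsSubst κ φ s) (e : ℕ) [NeZero e] (he : M * e ∣ M') :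
    IsSubst κ (φ.comp (degenMap K e he : modField K M →+* modField K M'))
      fun d => s (mulIdx e he d) :=
  ⟨fun d hd => by
    rw [RingHom.comp_apply, RingHom.coe_coe,
      degenMap_genSer e he d hd (genSer_mem _), h.gen],
    fun c => by rw [RingHom.comp_apply, RingHom.coe_coe, AlgHom.commutes, h.const]⟩

end IsSubst

/-- The tautological embedding. -/
def baseEmb (κ : K →+* K') (M : ℕ) : modField K M →+* LaurentSeries K' :=
  (coeffMap κ).comp (modField K M).val.toRingHom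

theorem isSubst_baseEmb (κ : K →+* K') (M : ℕ) : IsSubst κ (baseEmb κ M) (genSer K') :=
  ⟨fun d hd => coeffMap_genSer κ d,
    fun c => by
      show coeffMap κ (algebraMap K (LaurentSeries K) c) = _
      rw [algebraMap_laurentSeries_eq_single, coeffMap_single]⟩

theorem isSubst_of_algHom (κ : K →+* K') {M M' : ℕ} (σ : DivIdx M → DivIdx M')
    (φ : modField K M →ₐ[K] LaurentSeries K)
    (hφ : ∀ (d : DivIdx M) (h : genSer K d ∈ modField K M), φ ⟨_, h⟩ = genSer K (σ d)) :
    IsSubst κ ((coeffMap κ).comp φ.toRingHom) fun d => genSer K' (σ d) :=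
  ⟨fun d hd => by
    show coeffMap κ (φ _) = _
    rw [hφ, coeffMap_genSer],
    fun c => by
      show coeffMap κ (φ (algebraMap K _ c)) = _
      rw [AlgHom.commutes, algebraMap_laurentSeries_eq_single, coeffMap_single]⟩

/-- Homomorphisms with different leading terms at one element are different. -/
theorem injective_of_hasLead {F ι : Type*} [Semiring F] (φ : ι → F →+* LaurentSeries K') (x : F)
    (m : ι → ℤ) (c : ι → K') (h : ∀ i, HasLead (φ i x) (m i) (c i)) (hc : ∀ i, c i ≠ 0)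
    (hinj : ∀ i j, m i = m j → c i = c j → i = j) : Function.Injective φ := fun i j hij => by
  obtain ⟨h1, h2⟩ := (h i).ext (hij ▸ h j) (hc i) (hc j)
  exact hinj i j h1 h2

omit [Algebra ℚ K'] in
theorem unit_pow_inj {u : K'ˣ} {n : ℕ} (hu : IsPrimitiveRoot u n) {a b : ℕ} (ha : a < n)
    (hb : b < n) {m : ℤ} (hm : m = 1 ∨ m = -1)
    (h : (((u ^ a) ^ m : K'ˣ) : K') = (((u ^ b) ^ m : K'ˣ) : K')) : a = b := by
  refine hu.pow_inj ha hb ?_
  rcases hm with rfl | rfl
  · simpa using Units.ext h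
  · simpa using Units.ext h

omit [Algebra ℚ K'] in
theorem unit_pow_pow_eq_one {u : K'ˣ} {n : ℕ} (hu : IsPrimitiveRoot u n) (a : ℕ) {d : ℕ}
    (h : n ∣ d) : (u ^ a) ^ d = 1 := by
  rw [← pow_mul, mul_comm, pow_mul, (hu.pow_eq_one_iff_dvd d).mpr h, one_pow]

/-- `Sum.elim` of injective families with different orders. -/
theorem sum_lead_inj {α β : Type*} {R : Type*} {m : α → ℤ} {m' : β → ℤ} {c : α → R} {c' : β → R}
    (h : ∀ i j, m i = m j → c i = c j → i = j) (h' : ∀ i j, m' i = m' j → c' i = c' j → i = j)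
    (hne : ∀ i j, m i ≠ m' j) :
    ∀ i j : α ⊕ β, Sum.elim m m' i = Sum.elim m m' j → Sum.elim c c' i = Sum.elim c c' j → i = j
  | .inl i, .inl j, h1, h2 => congrArg Sum.inl (h i j h1 h2)
  | .inl i, .inr j, h1, _ => absurd h1 (hne i j)
  | .inr i, .inl j, h1, _ => absurd h1.symm (hne j i)
  | .inr i, .inr j, h1, h2 => congrArg Sum.inr (h' i j h1 h2)

end Subst

/-! ### The lists -/

section Lists

variable {K K' : Type*} [Field K] [Algebra ℚ K] [Field K'] [Algebra ℚ K']
variable {L₀ q : ℕ} [NeZero L₀] [NeZero q]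

/-- The prime-to-`q` index. -/
def freeIdx (hq : q.Prime) (hqL : ¬ q ∣ L₀) (d : DivIdx (L₀ * q ^ 2)) : DivIdx L₀ :=
  ⟨qFree hq d, (qFree_spec hq hqL d).2.2.2, (qFree_spec hq hqL d).2.2.1⟩

/-- Values of the middle branch: `d, d q ↦ J_d, J_{dq}` and `d q² ↦ J_d (z Q)`. -/
def midVal (hq : q.Prime) (hqL : ¬ q ∣ L₀) (z : K'ˣ) (d : DivIdx (L₀ * q ^ 2)) :
    LaurentSeries K' :=
  if qExp hq d = 2 then qScale z (genSer K' (freeIdx hq hqL d)) else genSer K' d

variable (hq : q.Prime) (hqL : ¬ q ∣ L₀)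

omit [NeZero L₀] [NeZero q] [Algebra ℚ K'] in
theorem midVal_of_eq (z : K'ˣ) {d : DivIdx (L₀ * q ^ 2)} {e i : ℕ} (h : d.1 = e * q ^ i)
    (he : e ∣ L₀) (hi : i ≤ 1) : midVal hq hqL z d = genSer K' d := by
  rw [midVal, if_neg]
  rw [(qExp_eq hq hqL h he).1]
  omega

omit [NeZero L₀] [NeZero q] [Algebra ℚ K'] in
theorem midVal_of_eq_two (z : K'ˣ) {d : DivIdx (L₀ * q ^ 2)} (e : DivIdx L₀)
    (h : d.1 = e.1 * q ^ 2) : midVal hq hqL z d = qScale z (genSer K' e) := by
  rw [midVal, if_pos (qExp_eq hq hqL h e.2.2).1]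
  exact congrArg _ (genSer_congr K' (qExp_eq hq hqL h e.2.2).2)

omit [NeZero L₀] [NeZero q] in
theorem coe_swapTwo_of_eq {d : DivIdx (L₀ * q ^ 2)} {e i : ℕ} (h : d.1 = e * q ^ i)
    (he : e ∣ L₀) : (swapTwo hq hqL d).1 = e * q ^ (2 - i) := by
  show qFree hq d * q ^ (2 - qExp hq d) = _
  rw [(qExp_eq hq hqL h he).1, (qExp_eq hq hqL h he).2]

omit [NeZero L₀] [NeZero q] in
theorem exists_split (hq : q.Prime) (d : DivIdx (L₀ * q)) :
    ∃ e i, d.1 = e * q ^ i ∧ e ∣ L₀ ∧ i ≤ 1 := by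
  obtain ⟨a, b, ha, hb, hab⟩ := Nat.dvd_mul.mp d.2.2
  rcases (Nat.dvd_prime hq).mp hb with rfl | rfl
  · exact ⟨a, 0, by rw [← hab, pow_zero], ha, zero_le_one⟩
  · exact ⟨a, 1, by rw [← hab, pow_one], ha, le_rfl⟩

/-- The data of the branches: `e0`, `e02` and the `q - 1` middle embeddings. -/
structure BranchEmbs (κ : K →+* K') (z : K'ˣ) (e0 e02 : modField K (L₀ * q ^ 2) →+* LaurentSeries K')
    (ez : Fin (q - 1) → modField K (L₀ * q ^ 2) →+* LaurentSeries K') : Prop where
  prim : IsPrimitiveRoot z q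
  h0 : IsSubst κ e0 (genSer K')
  h02 : IsSubst κ e02 fun d => genSer K' (swapTwo hq hqL d)
  hz : ∀ k, IsSubst κ (ez k) (midVal hq hqL (z ^ ((k : ℕ) + 1)))

variable (e0 e02 : modField K (L₀ * q ^ 2) →+* LaurentSeries K')
  (ez : Fin (q - 1) → modField K (L₀ * q ^ 2) →+* LaurentSeries K')

/-- All embeddings over the pullback of level `L₀` by `τ ↦ τ`. -/
def listZero (η : K'ˣ) :
    Unit ⊕ Fin (q - 1) ⊕ Fin (q ^ 2) → modField K (L₀ * q ^ 2) →+* LaurentSeries K' :=
  Sum.elim (fun _ => (qExpand K' (q ^ 2)).comp e0)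
    (Sum.elim (fun k => (qExpand K' (q ^ 2)).comp (ez k))
      fun b => (qScale (η ^ (b : ℕ))).comp e02)

/-- All embeddings over the pullback of level `L₀` by `τ ↦ q² τ`. -/
def listTwo (η z : K'ˣ) :
    Unit ⊕ Fin (q - 1) ⊕ Fin (q ^ 2) → modField K (L₀ * q ^ 2) →+* LaurentSeries K' :=
  Sum.elim (fun _ => (qExpand K' (q ^ 2)).comp e02)
    (Sum.elim (fun k => ((qExpand K' (q ^ 2)).comp (qScale (z ^ ((k : ℕ) + 1))⁻¹)).comp (ez k))
      fun b => (qScale (η ^ (b : ℕ))).comp e0)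

/-- All embeddings over level `L₀ q` by `τ ↦ τ`, restricting to the inclusion. -/
def listAlphaZero : Unit ⊕ Fin (q - 1) → modField K (L₀ * q ^ 2) →+* LaurentSeries K' :=
  Sum.elim (fun _ => e0) ez

/-- All embeddings over level `L₀ q` by `τ ↦ τ`, restricting to `e02`. -/
def listAlphaTwo (z : K'ˣ) : Fin q → modField K (L₀ * q ^ 2) →+* LaurentSeries K' :=
  fun k => (qScale (z ^ (k : ℕ))).comp e02

/-- All embeddings over level `L₀ q` by `τ ↦ q τ`, restricting to `e0`. -/
def listBetaZero (z : K'ˣ) : Fin q → modField K (L₀ * q ^ 2) →+* LaurentSeries K' :=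
  fun k => (qScale (z ^ (k : ℕ))).comp e0

/-- All embeddings over level `L₀ q` by `τ ↦ q τ`, restricting to `e02`. -/
def listBetaTwo (z : K'ˣ) : Unit ⊕ Fin (q - 1) → modField K (L₀ * q ^ 2) →+* LaurentSeries K' :=
  Sum.elim (fun _ => e02) fun k => (qScale (z ^ ((k : ℕ) + 1))⁻¹).comp (ez k)

include hq hqL in
theorem finrank_degen_level (e : ℕ) [NeZero e] (h : L₀ * e ∣ L₀ * q ^ 2) :
    finrankAlong K (degenMap K e h : modField K L₀ →ₐ[K] modField K (L₀ * q ^ 2)) = q ^ 2 + q := by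
  have h1 := finrankAlong_degenMap (degreeInput K) e h (MF.Coeff.functionFieldGeneration e)
  have h2 : dedekindPsi (L₀ * q ^ 2) = dedekindPsi L₀ * (q ^ 2 + q) := by
    rw [pow_two, ← mul_assoc, psi_mul_prime_of_dvd hq (dvd_mul_left q L₀),
      psi_mul_prime_of_not_dvd hq hqL]
    ring
  rw [h2] at h1
  exact Nat.eq_of_mul_eq_mul_left (psi_pos L₀) h1

include hq hqL in
theorem finrank_degen_prime (e : ℕ) [NeZero e] (h : L₀ * q * e ∣ L₀ * q ^ 2) :
    finrankAlong K (degenMap K e h : modField K (L₀ * q) →ₐ[K] modField K (L₀ * q ^ 2)) = q := by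
  have h1 := finrankAlong_degenMap (degreeInput K) e h (MF.Coeff.functionFieldGeneration e)
  have h2 : dedekindPsi (L₀ * q ^ 2) = dedekindPsi (L₀ * q) * q := by
    rw [pow_two, ← mul_assoc, psi_mul_prime_of_dvd hq (dvd_mul_left q L₀), mul_comm q]
  rw [h2] at h1
  exact Nat.eq_of_mul_eq_mul_left (psi_pos _) h1

include hq in
omit [Algebra ℚ K] [NeZero L₀] [NeZero q] in
theorem sub_one_add_one : Fintype.card (Unit ⊕ Fin (q - 1)) = q := by
  simp only [Fintype.card_sum, Fintype.card_unit, Fintype.card_fin]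
  have := hq.pos
  omega

variable {hq hqL} {κ : K →+* K'} {z : K'ˣ} {e0 e02 ez}

/-- The index `1`. -/
def oneIdx (M : ℕ) [NeZero M] : DivIdx M := ⟨1, Nat.one_pos, one_dvd M⟩

/-- The index `q²`. -/
def sqIdx (L₀ q : ℕ) [NeZero q] : DivIdx (L₀ * q ^ 2) :=
  ⟨q ^ 2, pow_pos (Nat.pos_of_ne_zero (NeZero.ne q)) 2, dvd_mul_left _ _⟩

omit [Algebra ℚ K] [Algebra ℚ K'] [NeZero q] in
theorem hasLead_qScale_one (u : K'ˣ) :
    HasLead (qScale u (genSer K' (oneIdx L₀))) (-1) ((u ^ (-1 : ℤ) : K'ˣ) : K') := by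
  simpa [oneIdx] using (hasLead_genSer (R := K') (oneIdx L₀)).qScale u

theorem BranchEmbs.complete_zero (hB : BranchEmbs hq hqL κ z e0 e02 ez) {η : K'ˣ}
    (hη : IsPrimitiveRoot η (q ^ 2)) (h : L₀ * 1 ∣ L₀ * q ^ 2) :
    letI := algebraAlong (degenMap K 1 h)
    CompleteEmb ((qExpand K' (q ^ 2)).comp (baseEmb κ L₀)) (listZero e0 e02 ez η) := by
  letI := algebraAlong (degenMap K 1 h)
  have hone : ∀ d : DivIdx L₀, (mulIdx 1 h d).1 = d.1 * q ^ 0 := fun d => by
    rw [coe_mulIdx, one_mul, pow_zero, mul_one]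
  refine ⟨fun i x => DFunLike.congr_fun (f := (listZero e0 e02 ez η i).comp
    (degenMap K 1 h : modField K L₀ →+* modField K (L₀ * q ^ 2))) ?_ x, ?_, ?_, ⟨.inl ()⟩⟩
  · have hψ := (isSubst_baseEmb κ L₀).qExpand_comp (q ^ 2)
    rcases i with u | k | b
    · exact ((hB.h0.qExpand_comp (q ^ 2)).comp_degen 1 h).ext hψ fun d =>
        congrArg _ (genSer_congr K' (one_mul _))
    · refine (((hB.hz k).qExpand_comp (q ^ 2)).comp_degen 1 h).ext hψ fun d => congrArg _ ?_
      rw [midVal_of_eq hq hqL _ (hone d) d.2.2 zero_le_one]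
      exact genSer_congr K' (one_mul _)
    · refine ((hB.h02.qScale_comp (η ^ (b : ℕ))).comp_degen 1 h).ext hψ fun d => ?_
      have hs := coe_swapTwo_of_eq hq hqL (hone d) d.2.2
      rw [qScale_genSer_of_pow _ (unit_pow_pow_eq_one hη b ⟨d.1, by rw [hs, mul_comm]⟩)]
      exact (qExpand_genSer K' (by rw [hs, mul_comm])).symm
  · let x : modField K (L₀ * q ^ 2) := ⟨genSer K (sqIdx L₀ q), genSer_mem _⟩
    refine injective_of_hasLead _ x
      (Sum.elim (fun _ => ((q ^ 2 : ℕ) : ℤ) * (-((q ^ 2 : ℕ) : ℤ)))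
        (Sum.elim (fun _ => ((q ^ 2 : ℕ) : ℤ) * (-1)) fun _ => -1))
      (Sum.elim (fun _ => 1) (Sum.elim (fun k => (((z ^ ((k : ℕ) + 1)) ^ (-1 : ℤ) : K'ˣ) : K'))
        fun b => (((η ^ (b : ℕ)) ^ (-1 : ℤ) : K'ˣ) : K'))) ?_ ?_ ?_
    · rintro (u | k | b)
      · show HasLead (qExpand K' (q ^ 2) (e0 x)) _ _
        rw [hB.h0.gen]
        exact (hasLead_genSer _).qExpand _
      · show HasLead (qExpand K' (q ^ 2) (ez k x)) _ _
        rw [(hB.hz k).gen, midVal_of_eq_two hq hqL _ (oneIdx L₀) (one_mul _).symm]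
        exact (hasLead_qScale_one _).qExpand (q ^ 2)
      · show HasLead (qScale (η ^ (b : ℕ)) (e02 x)) _ _
        have hs := coe_swapTwo_of_eq hq hqL (d := sqIdx L₀ q) (one_mul _).symm (one_dvd L₀)
        rw [hB.h02.gen, genSer_congr K' (d' := oneIdx L₀) (hs.trans (by simp [oneIdx]))]
        exact hasLead_qScale_one _
    · rintro (u | k | b) <;> simp
    · have h2 : (2 : ℤ) ≤ ((q ^ 2 : ℕ) : ℤ) := by
        exact_mod_cast hq.two_le.trans (Nat.le_self_pow two_ne_zero q)
      refine sum_lead_inj (fun _ _ _ _ => rfl) (sum_lead_inj ?_ ?_ ?_) ?_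
      · exact fun k l _ e => Fin.ext (Nat.succ_injective
          (unit_pow_inj hB.prim (by omega) (by omega) (.inr rfl) e))
      · exact fun k l _ e => Fin.ext (unit_pow_inj hη k.2 l.2 (.inr rfl) e)
      · intro _ _; nlinarith
      · rintro _ (_ | _) <;> simp only [Sum.elim_inl, Sum.elim_inr] <;> nlinarith
  · rw [show Module.finrank (modField K L₀) (modField K (L₀ * q ^ 2)) =
      finrankAlong K (degenMap K 1 h) from rfl, finrank_degen_level hq hqL]
    simp only [Fintype.card_sum, Fintype.card_unit, Fintype.card_fin]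
    have := hq.pos
    omega

omit [Algebra ℚ K] [Algebra ℚ K'] [NeZero q] in
theorem hasLead_one_idx : HasLead (genSer K' (oneIdx L₀)) (-1) 1 := by
  simpa [oneIdx] using hasLead_genSer (R := K') (oneIdx L₀)

theorem BranchEmbs.complete_two (hB : BranchEmbs hq hqL κ z e0 e02 ez) {η : K'ˣ}
    (hη : IsPrimitiveRoot η (q ^ 2)) (h : L₀ * q ^ 2 ∣ L₀ * q ^ 2) :
    letI := algebraAlong (degenMap K (q ^ 2) h)
    CompleteEmb ((qExpand K' (q ^ 2)).comp (baseEmb κ L₀)) (listTwo e0 e02 ez η z) := by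
  letI := algebraAlong (degenMap K (q ^ 2) h)
  have htwo : ∀ d : DivIdx L₀, (mulIdx (q ^ 2) h d).1 = d.1 * q ^ 2 := fun d => mul_comm _ _
  refine ⟨fun i x => DFunLike.congr_fun (f := (listTwo e0 e02 ez η z i).comp
    (degenMap K (q ^ 2) h : modField K L₀ →+* modField K (L₀ * q ^ 2))) ?_ x, ?_, ?_, ⟨.inl ()⟩⟩
  · have hψ := (isSubst_baseEmb κ L₀).qExpand_comp (q ^ 2)
    rcases i with u | k | b
    · refine ((hB.h02.qExpand_comp (q ^ 2)).comp_degen (q ^ 2) h).ext hψ fun d => congrArg _ ?_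
      refine genSer_congr K' ((coe_swapTwo_of_eq hq hqL (htwo d) d.2.2).trans ?_)
      rw [Nat.sub_self, pow_zero, mul_one]
    · refine ((((hB.hz k).qScale_comp (z ^ ((k : ℕ) + 1))⁻¹).qExpand_comp (q ^ 2)).comp_degen
        (q ^ 2) h).ext hψ fun d => congrArg _ ?_
      rw [midVal_of_eq_two hq hqL _ d (htwo d)]
      ext n
      simp only [qScale_coeff, ← mul_assoc, ← Units.val_mul, ← mul_zpow, inv_mul_cancel, one_zpow,
        Units.val_one, one_mul]
    · refine ((hB.h0.qScale_comp (η ^ (b : ℕ))).comp_degen (q ^ 2) h).ext hψ fun d => ?_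
      rw [qScale_genSer_of_pow _ (unit_pow_pow_eq_one hη b ⟨d.1, rfl⟩)]
      exact (qExpand_genSer K' (coe_mulIdx _ _ _)).symm
  · let x : modField K (L₀ * q ^ 2) :=
      ⟨genSer K (oneIdx (L₀ * q ^ 2)), genSer_mem _⟩
    refine injective_of_hasLead _ x
      (Sum.elim (fun _ => ((q ^ 2 : ℕ) : ℤ) * (-((q ^ 2 : ℕ) : ℤ)))
        (Sum.elim (fun _ => ((q ^ 2 : ℕ) : ℤ) * (-1)) fun _ => -1))
      (Sum.elim (fun _ => 1) (Sum.elim
        (fun k => ((((z ^ ((k : ℕ) + 1))⁻¹) ^ (-1 : ℤ) : K'ˣ) : K'))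
        fun b => (((η ^ (b : ℕ)) ^ (-1 : ℤ) : K'ˣ) : K'))) ?_ ?_ ?_
    · have h1 : (oneIdx (L₀ * q ^ 2)).1 = 1 * q ^ 0 := by simp [oneIdx]
      rintro (u | k | b)
      · show HasLead (qExpand K' (q ^ 2) (e02 x)) _ _
        rw [hB.h02.gen, genSer_congr K' (d' := sqIdx L₀ q)
          ((coe_swapTwo_of_eq hq hqL h1 (one_dvd L₀)).trans (one_mul _))]
        exact (hasLead_genSer _).qExpand _
      · show HasLead (qExpand K' (q ^ 2) (qScale _ (ez k x))) _ _
        rw [(hB.hz k).gen, midVal_of_eq hq hqL _ h1 (one_dvd L₀) zero_le_one,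
          genSer_congr K' (d := oneIdx (L₀ * q ^ 2)) (d' := oneIdx L₀) rfl]
        exact (hasLead_qScale_one _).qExpand _
      · show HasLead (qScale (η ^ (b : ℕ)) (e0 x)) _ _
        rw [hB.h0.gen, genSer_congr K' (d := oneIdx (L₀ * q ^ 2)) (d' := oneIdx L₀) rfl]
        exact hasLead_qScale_one _
    · rintro (u | k | b) <;> simp
    · have h2 : (2 : ℤ) ≤ ((q ^ 2 : ℕ) : ℤ) := by
        exact_mod_cast hq.two_le.trans (Nat.le_self_pow two_ne_zero q)
      refine sum_lead_inj (fun _ _ _ _ => rfl) (sum_lead_inj ?_ ?_ ?_) ?_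
      · exact fun k l _ e => Fin.ext (Nat.succ_injective
          (unit_pow_inj hB.prim (by omega) (by omega) (.inl rfl) (by simpa using e)))
      · exact fun k l _ e => Fin.ext (unit_pow_inj hη k.2 l.2 (.inr rfl) e)
      · intro _ _; nlinarith
      · rintro _ (_ | _) <;> simp only [Sum.elim_inl, Sum.elim_inr] <;> nlinarith
  · rw [show Module.finrank (modField K L₀) (modField K (L₀ * q ^ 2)) =
      finrankAlong K (degenMap K (q ^ 2) h) from rfl, finrank_degen_level hq hqL]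
    simp only [Fintype.card_sum, Fintype.card_unit, Fintype.card_fin]
    have := hq.pos
    omega

theorem BranchEmbs.complete_alpha_zero (hB : BranchEmbs hq hqL κ z e0 e02 ez)
    (h : L₀ * q * 1 ∣ L₀ * q ^ 2) :
    letI := algebraAlong (degenMap K 1 h)
    CompleteEmb (e0.comp (degenMap K 1 h : modField K (L₀ * q) →+* modField K (L₀ * q ^ 2)))
      (listAlphaZero e0 ez) := by
  letI := algebraAlong (degenMap K 1 h)
  refine ⟨fun i x => DFunLike.congr_fun (f := (listAlphaZero e0 ez i).comp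
    (degenMap K 1 h : modField K (L₀ * q) →+* modField K (L₀ * q ^ 2))) ?_ x, ?_, ?_, ⟨.inl ()⟩⟩
  · rcases i with u | k
    · rfl
    · refine ((hB.hz k).comp_degen 1 h).ext (hB.h0.comp_degen 1 h) fun d => ?_
      obtain ⟨e, i, hd, he, hi⟩ := exists_split hq d
      exact midVal_of_eq hq hqL _ ((one_mul _).trans hd) he hi
  · let x : modField K (L₀ * q ^ 2) := ⟨genSer K (sqIdx L₀ q), genSer_mem _⟩
    refine injective_of_hasLead _ x
      (Sum.elim (fun _ => -((q ^ 2 : ℕ) : ℤ)) fun _ => -1)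
      (Sum.elim (fun _ => 1) fun k => (((z ^ ((k : ℕ) + 1)) ^ (-1 : ℤ) : K'ˣ) : K')) ?_ ?_ ?_
    · rintro (u | k)
      · show HasLead (e0 x) _ _
        rw [hB.h0.gen]
        exact hasLead_genSer _
      · show HasLead (ez k x) _ _
        rw [(hB.hz k).gen, midVal_of_eq_two hq hqL _ (oneIdx L₀) (one_mul _).symm]
        exact hasLead_qScale_one _
    · rintro (u | k) <;> simp
    · have h2 : (2 : ℤ) ≤ ((q ^ 2 : ℕ) : ℤ) := by
        exact_mod_cast hq.two_le.trans (Nat.le_self_pow two_ne_zero q)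
      refine sum_lead_inj (fun _ _ _ _ => rfl) ?_ fun _ _ => by linarith
      exact fun k l _ e => Fin.ext (Nat.succ_injective
        (unit_pow_inj hB.prim (by omega) (by omega) (.inr rfl) e))
  · rw [show Module.finrank (modField K (L₀ * q)) (modField K (L₀ * q ^ 2)) =
      finrankAlong K (degenMap K 1 h) from rfl, finrank_degen_prime hq hqL, sub_one_add_one hq]

theorem BranchEmbs.complete_alpha_two (hB : BranchEmbs hq hqL κ z e0 e02 ez)
    (h : L₀ * q * 1 ∣ L₀ * q ^ 2) :
    letI := algebraAlong (degenMap K 1 h)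
    CompleteEmb (e02.comp (degenMap K 1 h : modField K (L₀ * q) →+* modField K (L₀ * q ^ 2)))
      (listAlphaTwo e02 z) := by
  letI := algebraAlong (degenMap K 1 h)
  refine ⟨fun i x => DFunLike.congr_fun (f := (listAlphaTwo e02 z i).comp
    (degenMap K 1 h : modField K (L₀ * q) →+* modField K (L₀ * q ^ 2))) ?_ x, ?_, ?_,
      ⟨⟨0, hq.pos⟩⟩⟩
  · refine ((hB.h02.qScale_comp (z ^ (i : ℕ))).comp_degen 1 h).ext (hB.h02.comp_degen 1 h)
      fun d => ?_
    obtain ⟨e, j, hd, he, hj⟩ := exists_split hq d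
    refine qScale_genSer_of_pow _ (unit_pow_pow_eq_one hB.prim i ?_)
    rw [coe_swapTwo_of_eq hq hqL ((one_mul _).trans hd) he]
    exact Dvd.dvd.mul_left (dvd_pow_self q (by omega)) _
  · let x : modField K (L₀ * q ^ 2) := ⟨genSer K (sqIdx L₀ q), genSer_mem _⟩
    refine injective_of_hasLead _ x (fun _ => -1)
      (fun k => (((z ^ (k : ℕ)) ^ (-1 : ℤ) : K'ˣ) : K')) (fun k => ?_) (fun k => by simp)
      fun k l _ e => Fin.ext (unit_pow_inj hB.prim k.2 l.2 (.inr rfl) e)
    show HasLead (qScale _ (e02 x)) _ _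
    have hs := coe_swapTwo_of_eq hq hqL (d := sqIdx L₀ q) (one_mul _).symm (one_dvd L₀)
    rw [hB.h02.gen, genSer_congr K' (d' := oneIdx L₀) (hs.trans (by simp [oneIdx]))]
    exact hasLead_qScale_one _
  · rw [show Module.finrank (modField K (L₀ * q)) (modField K (L₀ * q ^ 2)) =
      finrankAlong K (degenMap K 1 h) from rfl, finrank_degen_prime hq hqL, Fintype.card_fin]

theorem BranchEmbs.complete_beta_zero (hB : BranchEmbs hq hqL κ z e0 e02 ez)
    (h : L₀ * q * q ∣ L₀ * q ^ 2) :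
    letI := algebraAlong (degenMap K q h)
    CompleteEmb (e0.comp (degenMap K q h : modField K (L₀ * q) →+* modField K (L₀ * q ^ 2)))
      (listBetaZero e0 z) := by
  letI := algebraAlong (degenMap K q h)
  refine ⟨fun i x => DFunLike.congr_fun (f := (listBetaZero e0 z i).comp
    (degenMap K q h : modField K (L₀ * q) →+* modField K (L₀ * q ^ 2))) ?_ x, ?_, ?_,
      ⟨⟨0, hq.pos⟩⟩⟩
  · exact ((hB.h0.qScale_comp (z ^ (i : ℕ))).comp_degen q h).ext (hB.h0.comp_degen q h)
      fun d => qScale_genSer_of_pow _ (unit_pow_pow_eq_one hB.prim i ⟨d.1, rfl⟩)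
  · let x : modField K (L₀ * q ^ 2) := ⟨genSer K (oneIdx (L₀ * q ^ 2)), genSer_mem _⟩
    refine injective_of_hasLead _ x (fun _ => -1)
      (fun k => (((z ^ (k : ℕ)) ^ (-1 : ℤ) : K'ˣ) : K')) (fun k => ?_) (fun k => by simp)
      fun k l _ e => Fin.ext (unit_pow_inj hB.prim k.2 l.2 (.inr rfl) e)
    show HasLead (qScale _ (e0 x)) _ _
    rw [hB.h0.gen, genSer_congr K' (d := oneIdx (L₀ * q ^ 2)) (d' := oneIdx L₀) rfl]
    exact hasLead_qScale_one _
  · rw [show Module.finrank (modField K (L₀ * q)) (modField K (L₀ * q ^ 2)) =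
      finrankAlong K (degenMap K q h) from rfl, finrank_degen_prime hq hqL, Fintype.card_fin]

theorem BranchEmbs.complete_beta_two (hB : BranchEmbs hq hqL κ z e0 e02 ez)
    (h : L₀ * q * q ∣ L₀ * q ^ 2) :
    letI := algebraAlong (degenMap K q h)
    CompleteEmb (e02.comp (degenMap K q h : modField K (L₀ * q) →+* modField K (L₀ * q ^ 2)))
      (listBetaTwo e02 ez z) := by
  letI := algebraAlong (degenMap K q h)
  refine ⟨fun i x => DFunLike.congr_fun (f := (listBetaTwo e02 ez z i).comp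
    (degenMap K q h : modField K (L₀ * q) →+* modField K (L₀ * q ^ 2))) ?_ x, ?_, ?_, ⟨.inl ()⟩⟩
  · rcases i with u | k
    · rfl
    · refine (((hB.hz k).qScale_comp (z ^ ((k : ℕ) + 1))⁻¹).comp_degen q h).ext
        (hB.h02.comp_degen q h) fun d => ?_
      obtain ⟨e, j, hd, he, hj⟩ := exists_split hq d
      have hd' : (mulIdx q h d).1 = e * q ^ (j + 1) := by
        rw [coe_mulIdx, hd]; ring
      have hs := coe_swapTwo_of_eq hq hqL hd' he
      obtain rfl | rfl : j = 0 ∨ j = 1 := by omega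
      · rw [midVal_of_eq hq hqL _ hd' he le_rfl, qScale_genSer_of_pow _ (by
          rw [inv_pow, unit_pow_pow_eq_one hB.prim _ (coe_mulIdx q h d ▸ dvd_mul_right q d.1), inv_one])]
        exact genSer_congr K' (hd'.trans hs.symm)
      · let e' : DivIdx L₀ := ⟨e, Nat.pos_of_ne_zero fun h0 => d.2.1.ne' (by simp [hd, h0]), he⟩
        rw [midVal_of_eq_two hq hqL _ e' hd',
          genSer_congr K' (d' := e') (hs.trans (by simp [e']))]
        ext n
        simp only [qScale_coeff, ← mul_assoc, ← Units.val_mul, ← mul_zpow, inv_mul_cancel,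
          one_zpow, Units.val_one, one_mul]
  · let x : modField K (L₀ * q ^ 2) := ⟨genSer K (oneIdx (L₀ * q ^ 2)), genSer_mem _⟩
    refine injective_of_hasLead _ x
      (Sum.elim (fun _ => -((q ^ 2 : ℕ) : ℤ)) fun _ => -1)
      (Sum.elim (fun _ => 1) fun k => ((((z ^ ((k : ℕ) + 1))⁻¹) ^ (-1 : ℤ) : K'ˣ) : K')) ?_ ?_ ?_
    · have h1 : (oneIdx (L₀ * q ^ 2)).1 = 1 * q ^ 0 := by simp [oneIdx]
      rintro (u | k)
      · show HasLead (e02 x) _ _
        rw [hB.h02.gen, genSer_congr K' (d' := sqIdx L₀ q)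
          ((coe_swapTwo_of_eq hq hqL h1 (one_dvd L₀)).trans (one_mul _))]
        exact hasLead_genSer _
      · show HasLead (qScale _ (ez k x)) _ _
        rw [(hB.hz k).gen, midVal_of_eq hq hqL _ h1 (one_dvd L₀) zero_le_one,
          genSer_congr K' (d := oneIdx (L₀ * q ^ 2)) (d' := oneIdx L₀) rfl]
        exact hasLead_qScale_one _
    · rintro (u | k) <;> simp
    · have h2 : (2 : ℤ) ≤ ((q ^ 2 : ℕ) : ℤ) := by
        exact_mod_cast hq.two_le.trans (Nat.le_self_pow two_ne_zero q)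
      refine sum_lead_inj (fun _ _ _ _ => rfl) ?_ fun _ _ => by linarith
      exact fun k l _ e => Fin.ext (Nat.succ_injective
        (unit_pow_inj hB.prim (by omega) (by omega) (.inl rfl) (by simpa using e)))
  · rw [show Module.finrank (modField K (L₀ * q)) (modField K (L₀ * q ^ 2)) =
      finrankAlong K (degenMap K q h) from rfl, finrank_degen_prime hq hqL, sub_one_add_one hq]

end Lists

end Fermat.Agent.Carayol
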