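/-
The residue fields of the three branches lie in the function field of level `L₀` in characteristic
`q`: Gauss residues of series, and the trace to level `L₀`.
-/
import Fermat.Agent.Carayol.Relative
import Fermat.Agent.CarayolHigh.Gauss
import Fermat.Agent.RED.X0Red

set_option autoImplicit false

noncomputable section

open HahnSeries ModularCurve AlgebraicCurve
open Fermat.Agent.Igusa Fermat.Agent.RED.Spec Fermat.Agent.HK.Corr Fermat.Agent.CarayolHigh

namespace Fermat.Agent.Carayol

/-! ### Gauss residues of series -/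

section Gauss

variable {K' : Type*} [Field K'] {O : ValuationSubring K'} {k : Type*} [Field k] (π : O →+* k)

/-- `z` is Gauss integral with residue `r`. -/
def IsGauss (z : LaurentSeries K') (r : LaurentSeries k) : Prop :=
  ∃ a b : LaurentSeries O, coeffMap π b ≠ 0 ∧ z * intSeries O b = intSeries O a ∧
    r = coeffMap π a / coeffMap π b

variable {π}

theorem isGauss_int (a : LaurentSeries O) : IsGauss π (intSeries O a) (coeffMap π a) :=
  ⟨a, 1, by simp, by rw [map_one, mul_one], by rw [map_one, div_one]⟩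

theorem isGauss_zero : IsGauss π (0 : LaurentSeries K') 0 := by
  simpa using isGauss_int (π := π) 0

theorem isGauss_one : IsGauss π (1 : LaurentSeries K') 1 := by
  simpa using isGauss_int (π := π) 1

namespace IsGauss

variable {z z' : LaurentSeries K'} {r r' : LaurentSeries k}

theorem unique (h : IsGauss π z r) (h' : IsGauss π z r') : r = r' := by
  obtain ⟨a, b, hb, he, rfl⟩ := h
  obtain ⟨a', b', hb', he', rfl⟩ := h'
  rw [div_eq_div_iff hb hb', ← map_mul, ← map_mul]
  refine congrArg _ (intSeries_injective O ?_)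
  rw [map_mul, map_mul, ← he, ← he']
  ring

theorem mul (h : IsGauss π z r) (h' : IsGauss π z' r') : IsGauss π (z * z') (r * r') := by
  obtain ⟨a, b, hb, he, rfl⟩ := h
  obtain ⟨a', b', hb', he', rfl⟩ := h'
  refine ⟨a * a', b * b', by rw [map_mul]; exact mul_ne_zero hb hb', ?_, ?_⟩
  · rw [map_mul, map_mul, ← he, ← he']; ring
  · rw [map_mul, map_mul, div_mul_div_comm]

theorem add (h : IsGauss π z r) (h' : IsGauss π z' r') : IsGauss π (z + z') (r + r') := by
  obtain ⟨a, b, hb, he, rfl⟩ := h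
  obtain ⟨a', b', hb', he', rfl⟩ := h'
  refine ⟨a * b' + b * a', b * b', by rw [map_mul]; exact mul_ne_zero hb hb', ?_, ?_⟩
  · rw [map_mul, map_add, map_mul, map_mul, ← he, ← he']; ring
  · rw [map_mul, map_add, map_mul, map_mul, div_add_div _ _ hb hb']

theorem pow (h : IsGauss π z r) (n : ℕ) : IsGauss π (z ^ n) (r ^ n) := by
  induction n with
  | zero => simpa using isGauss_one
  | succ n ih => rw [pow_succ, pow_succ]; exact ih.mul h

theorem neg (h : IsGauss π z r) : IsGauss π (-z) (-r) := by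
  obtain ⟨a, b, hb, he, rfl⟩ := h
  exact ⟨-a, b, hb, by rw [map_neg, ← he, neg_mul], by rw [map_neg, neg_div]⟩

theorem sub (h : IsGauss π z r) (h' : IsGauss π z' r') : IsGauss π (z - z') (r - r') := by
  rw [sub_eq_add_neg, sub_eq_add_neg]
  exact h.add h'.neg

theorem sum {ι : Type*} (s : Finset ι) {z : ι → LaurentSeries K'} {r : ι → LaurentSeries k}
    (h : ∀ i ∈ s, IsGauss π (z i) (r i)) : IsGauss π (∑ i ∈ s, z i) (∑ i ∈ s, r i) := by
  classical
  induction s using Finset.induction with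
  | empty => simpa using isGauss_zero
  | insert a s ha ih =>
    rw [Finset.sum_insert ha, Finset.sum_insert ha]
    exact (h a (Finset.mem_insert_self a s)).add (ih fun i hi => h i (Finset.mem_insert_of_mem hi))

theorem prod {ι : Type*} (s : Finset ι) {z : ι → LaurentSeries K'} {r : ι → LaurentSeries k}
    (h : ∀ i ∈ s, IsGauss π (z i) (r i)) : IsGauss π (∏ i ∈ s, z i) (∏ i ∈ s, r i) := by
  classical
  induction s using Finset.induction with
  | empty => simpa using isGauss_one
  | insert a s ha ih =>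
    rw [Finset.prod_insert ha, Finset.prod_insert ha]
    exact (h a (Finset.mem_insert_self a s)).mul (ih fun i hi => h i (Finset.mem_insert_of_mem hi))

theorem qExpand (h : IsGauss π z r) (n : ℕ) [NeZero n] :
    IsGauss π (ModularCurve.qExpand K' n z) (ModularCurve.qExpand k n r) := by
  obtain ⟨a, b, hb, he, rfl⟩ := h
  refine ⟨ModularCurve.qExpand O n a, ModularCurve.qExpand O n b, ?_, ?_, ?_⟩
  · rw [coeffMap_qExpand]
    exact (map_ne_zero_iff _ (qExpand_injective (R := k) (N := n))).mpr hb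
  · rw [intSeries, coeffMap_qExpand, coeffMap_qExpand, ← map_mul]
    exact congrArg _ he
  · rw [map_div₀, coeffMap_qExpand, coeffMap_qExpand]

/-- Substituting `u Q` for a unit `u ≡ 1` changes nothing. -/
theorem qScale (h : IsGauss π z r) {u : K'ˣ} {v : Oˣ} (huv : ((v : O) : K') = u)
    (hv : π v = 1) : IsGauss π (Igusa.qScale u z) r := by
  obtain ⟨a, b, hb, he, rfl⟩ := h
  have h1 : ∀ c, coeffMap π (Igusa.qScale v c) = coeffMap π c := fun c => by
    rw [coeffMap_qScale, show Units.map π.toMonoidHom v = 1 from Units.ext hv, qScale_one]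
    rfl
  have h2 : ∀ c, intSeries O (Igusa.qScale v c) = Igusa.qScale u (intSeries O c) := fun c => by
    rw [intSeries, coeffMap_qScale,
      show Units.map O.subtype.toMonoidHom v = u from Units.ext huv]
  exact ⟨Igusa.qScale v a, Igusa.qScale v b, by rwa [h1], by rw [h2, h2, ← map_mul, he],
    by rw [h1, h1]⟩

/-- Applying an automorphism of the coefficients trivial modulo `π`. -/
theorem coeffMap (h : IsGauss π z r) (σ : K' →+* K') (hσ : ∀ c ∈ O, σ c ∈ O)
    (hσπ : ∀ c : O, π ⟨σ c, hσ c c.2⟩ = π c) : IsGauss π (ModularCurve.coeffMap σ z) r := by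
  obtain ⟨a, b, hb, he, rfl⟩ := h
  let σO : O →+* O := (σ.comp O.subtype).codRestrict O fun c => hσ c c.2
  have h1 : ∀ c, ModularCurve.coeffMap π (ModularCurve.coeffMap σO c) =
      ModularCurve.coeffMap π c := fun c => by
    rw [coeffMap_coeffMap]
    exact congrArg (fun f : O →+* k => ModularCurve.coeffMap f c) (RingHom.ext hσπ)
  have h2 : ∀ c, intSeries O (ModularCurve.coeffMap σO c) =
      ModularCurve.coeffMap σ (intSeries O c) := fun c => by
    rw [intSeries, coeffMap_coeffMap, coeffMap_coeffMap]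
    rfl
  exact ⟨ModularCurve.coeffMap σO a, ModularCurve.coeffMap σO b, by rwa [h1],
    by rw [h2, h2, ← map_mul, he], by rw [h1, h1]⟩

theorem mem_fracSeries (h : IsGauss π z r) : z ∈ fracSeries O := by
  obtain ⟨a, b, hb, he, -⟩ := h
  exact ⟨a, b, fun hb0 => hb (by rw [hb0, map_zero]), he⟩

theorem not_inv_zero (h : IsGauss π z r) (hz : z ≠ 0) : ¬ IsGauss π z⁻¹ 0 := fun h' => by
  have h1 := h.mul h'
  rw [mul_inv_cancel₀ hz, mul_zero] at h1
  exact one_ne_zero (isGauss_one.unique h1)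

end IsGauss

variable (hπ : ∀ c, π c = 0 ↔ ¬ IsUnit c) [IsDiscreteValuationRing O]

include hπ in
/-- A quotient of integral series is integral, or its inverse has residue zero. -/
theorem isGauss_or_inv {z : LaurentSeries K'} (hz : z ∈ fracSeries O) :
    (∃ r, IsGauss π z r) ∨ IsGauss π z⁻¹ 0 := by
  let G : GaussBranch O k (fracSeries O) := ⟨π, hπ, (fracSeries O).subtype, fun x => x.2⟩
  have key : ∀ y : G.V, IsGauss π ((y : fracSeries O) : LaurentSeries K') (G.res y) := fun y => by
    obtain ⟨a, b, hab⟩ := G.mem_V_iff.mp y.2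
    exact ⟨a, b, hab.1, hab.2, G.res_eq y.2 hab⟩
  by_cases h : (⟨z, hz⟩ : fracSeries O) ∈ G.V
  · exact Or.inl ⟨_, key ⟨_, h⟩⟩
  · have hinv := (G.V.mem_or_inv_mem _).resolve_left h
    refine Or.inr ?_
    have h0 : G.res ⟨_, hinv⟩ = 0 := (G.res_eq_zero _).mpr fun hu => h (by
      obtain ⟨⟨y, hy⟩, hxy⟩ := isUnit_iff_exists_inv.mp hu
      have h1 : (⟨z, hz⟩ : fracSeries O)⁻¹ * y = 1 := congrArg Subtype.val hxy
      rcases eq_or_ne (⟨z, hz⟩ : fracSeries O) 0 with h0 | h0
      · rw [h0]; exact zero_mem _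
      · rwa [← (inv_mul_eq_iff_eq_mul₀ h0).mp h1 |>.trans (mul_one _)])
    simpa [h0] using key ⟨_, hinv⟩

include hπ in
/-- Residues of `w (Q ^ n)` are residues of `w` expanded. -/
theorem exists_isGauss_of_qExpand {w : LaurentSeries K'} (hw : w ∈ fracSeries O) {n : ℕ}
    [NeZero n] {R : LaurentSeries k} (h : IsGauss π (qExpand K' n w) R) :
    ∃ r, IsGauss π w r ∧ R = qExpand k n r := by
  rcases eq_or_ne w 0 with rfl | hw0
  · exact ⟨0, isGauss_zero, h.unique (by simpa using isGauss_zero (π := π))⟩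
  rcases isGauss_or_inv hπ hw with ⟨r, hr⟩ | hr
  · exact ⟨r, hr, h.unique (hr.qExpand n)⟩
  · refine absurd ?_ (h.not_inv_zero ((map_ne_zero_iff _ (qExpand_injective (R := K') (N := n))).mpr hw0))
    simpa [map_inv₀] using hr.qExpand n

include hπ in
/-- A series with residue zero raised to a large power kills any quotient of integral series. -/
theorem exists_pow_mul_isGauss_zero {e z : LaurentSeries K'} (he : IsGauss π e 0)
    (hz : z ∈ fracSeries O) : ∃ N₀, ∀ N, N₀ ≤ N → IsGauss π (e ^ N * z) 0 := by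
  obtain ⟨a, b, hb, h⟩ := hz
  obtain ⟨a', b', hb', he', hr⟩ := he
  have ha' : coeffMap π a' = 0 := (div_eq_zero_iff.mp hr.symm).resolve_right hb'
  obtain ⟨ϖ, hϖ⟩ := IsDiscreteValuationRing.exists_irreducible O
  obtain ⟨a'', ha''⟩ : ∃ a'', a' = HahnSeries.C ϖ * a'' := by
    rcases eq_or_ne a' 0 with h0 | h0
    · exact ⟨0, by rw [h0, mul_zero]⟩
    obtain ⟨t, a₀, hat, ha₀⟩ := exists_primitive O hπ hϖ h0
    rcases t with _ | t
    · exact absurd ha' (by rwa [hat, pow_zero, map_one, one_mul])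
    · exact ⟨HahnSeries.C (ϖ ^ t) * a₀, by rw [hat, pow_succ', map_mul, mul_assoc]⟩
  obtain ⟨s, b₀, hbs, hb₀⟩ := exists_primitive O hπ hϖ hb
  refine ⟨s + 1, fun N hN => ⟨HahnSeries.C (ϖ ^ (N - s)) * (a'' ^ N * a), b' ^ N * b₀,
    by rw [map_mul, map_pow]; exact mul_ne_zero (pow_ne_zero _ hb') hb₀, ?_, ?_⟩⟩
  · have hC : (HahnSeries.C (ϖ ^ s) : LaurentSeries O) ≠ 0 :=
      HahnSeries.C_ne_zero (pow_ne_zero _ hϖ.ne_zero)
    refine mul_right_cancel₀ (intSeries_ne_zero O hC) ?_
    rw [← map_mul, map_mul (intSeries O) (b' ^ N)]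
    calc e ^ N * z * (intSeries O (b' ^ N) * intSeries O b₀) * intSeries O (HahnSeries.C (ϖ ^ s))
        = (e * intSeries O b') ^ N * (z * intSeries O (HahnSeries.C (ϖ ^ s) * b₀)) := by
          rw [map_mul, map_pow, mul_pow]; ring
      _ = intSeries O ((HahnSeries.C ϖ * a'') ^ N * a) := by
          rw [he', ← hbs, h, ← map_pow, ← map_mul, ha'']
      _ = _ := by
          rw [mul_pow, ← map_pow,
            show ϖ ^ N = ϖ ^ (N - s) * ϖ ^ s by rw [← _root_.pow_add, Nat.sub_add_cancel (by omega)],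
            map_mul (HahnSeries.C : O →+* LaurentSeries O)]
          congr 1
          ring
  · have : π ϖ = 0 := (hπ ϖ).mpr hϖ.not_isUnit
    rw [map_mul, CarayolHigh.coeffMap_C', map_pow, this, zero_pow (by omega), map_zero, zero_mul, zero_div]

omit [IsDiscreteValuationRing O] in
/-- Roots of unity are integral, with residue one when the residue characteristic divides the
order. -/
theorem exists_unit_res_one {q m : ℕ} [Fact q.Prime] [CharP k q] {u : K'ˣ}
    (hu : u ^ q ^ m = 1) : ∃ v : Oˣ, ((v : O) : K') = u ∧ π v = 1 := by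
  have hmem : ∀ x : K'ˣ, x ^ q ^ m = 1 → (x : K') ∈ O := fun x hx => by
    rcases O.mem_or_inv_mem (x : K') with h | h
    · exact h
    · have h1 : (x : K') = ((x : K')⁻¹) ^ (q ^ m - 1) := by
        have hx' : (x : K') ^ q ^ m = 1 := by rw [← Units.val_pow_eq_pow_val, hx, Units.val_one]
        have hpos : 1 ≤ q ^ m := Nat.one_le_pow _ _ (Fact.out : q.Prime).pos
        rw [inv_pow]
        refine eq_inv_of_mul_eq_one_right ?_
        rw [← pow_succ, Nat.sub_add_cancel hpos, hx']
      rw [h1]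
      exact pow_mem h _
  let v : Oˣ := ⟨⟨(u : K'), hmem u hu⟩, ⟨((u⁻¹ : K'ˣ) : K'), hmem u⁻¹ (by rw [inv_pow, hu, inv_one])⟩,
    Subtype.ext (Units.mul_inv u), Subtype.ext (Units.inv_mul u)⟩
  refine ⟨v, rfl, sub_eq_zero.mp (pow_eq_zero_iff (n := q ^ m) ?_ |>.mp ?_)⟩
  · exact pow_ne_zero _ (Fact.out : q.Prime).ne_zero
  · rw [sub_pow_char_pow, one_pow, ← map_pow, show (v : O) ^ q ^ m = 1 from Subtype.ext (by
      show (u : K') ^ q ^ m = 1
      rw [← Units.val_pow_eq_pow_val, hu, Units.val_one]), map_one, sub_self]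

end Gauss

/-! ### Substitutions and residues -/

section Subst

variable {K K' : Type*} [Field K] [Algebra ℚ K] [Field K'] [Algebra ℚ K'] {κ : K →+* K'}
  {M : ℕ} {φ : modField K M →+* LaurentSeries K'} {s : DivIdx M → LaurentSeries K'}

theorem genSer_mem_fracSeries (O : ValuationSubring K') {M : ℕ} (d : DivIdx M) :
    genSer K' d ∈ fracSeries O := by
  rw [← coeffMap_genSer O.subtype d]
  exact intSeries_mem_fracSeries O _

/-- Substitutions with values among quotients of integral series. -/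
theorem IsSubst.mem_fracSeries [NeZero M] (h : IsSubst κ φ s) {O : ValuationSubring K'}
    (hs : ∀ d, s d ∈ fracSeries O) (x : modField K M) : φ x ∈ fracSeries O := by
  let S : IntermediateField K (modField K M) :=
    ((fracSeries O).comap φ).toIntermediateField fun c => by
      show φ (algebraMap K _ c) ∈ fracSeries O
      rw [h.const]
      exact C_mem_fracSeries O (κ c)
  have hle : modField K M ≤ IntermediateField.lift S := by
    refine (modField_eq_adjoin_genSer (L := K) M).le.trans ?_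
    rw [IntermediateField.adjoin_le_iff]
    rintro _ ⟨d, rfl⟩
    refine (IntermediateField.mem_lift (⟨_, genSer_mem d⟩ : modField K M)).mpr ?_
    show φ _ ∈ fracSeries O
    rw [h.gen]
    exact hs d
  exact (IntermediateField.mem_lift x).mp (hle x.2)

/-- Applying an automorphism of the constants over `κ`. -/
theorem IsSubst.coeffMap_comp (h : IsSubst κ φ s) (σ : K' →+* K') (hσ : σ.comp κ = κ) :
    IsSubst κ ((coeffMap σ).comp φ) fun d => coeffMap σ (s d) :=
  ⟨fun d hd => by rw [RingHom.comp_apply, h.gen],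
    fun c => by
      rw [RingHom.comp_apply, h.const, coeffMap_single, ← RingHom.comp_apply σ κ, hσ]⟩

end Subst

/-! ### The trace to level `L₀` -/

section Trace

variable {K : Type} [Field K] [Algebra ℚ K] {K' : Type} [Field K'] [Algebra ℚ K']
  {O : ValuationSubring K'} {k : Type} [Field k] {π : O →+* k}
variable {L₀ q : ℕ} [NeZero L₀] [NeZero q] {hq : q.Prime} {hqL : ¬ q ∣ L₀}
variable {κ : K →+* K'} {z : K'ˣ} {e0 e02 : modField K (L₀ * q ^ 2) →+* LaurentSeries K'}
  {ez : Fin (q - 1) → modField K (L₀ * q ^ 2) →+* LaurentSeries K'}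

omit [NeZero q] in
/-- **Good reduction at level `L₀`.** Residues of functions of level `L₀` lie in the function
field of level `L₀` in characteristic `q`. -/
theorem isGauss_baseEmb_mem (A : ValuationSubring K) (hA : ∀ a ∈ A, κ a ∈ O)
    (hsurj : ∀ y : k, ∃ (a : K) (ha : a ∈ A), π ⟨κ a, hA a ha⟩ = y) (hL : (L₀ : k) ≠ 0)
    {g : modField K L₀} {r : LaurentSeries k} (h : IsGauss π (baseEmb κ L₀ g) r) :
    r ∈ modularFunctionFieldFullC k L₀ := by
  rcases eq_or_ne g 0 with rfl | hg
  · rw [h.unique (by simpa using isGauss_zero (π := π))]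
    exact zero_mem _
  let ιA : A →+* O := (κ.comp A.subtype).codRestrict O fun a => hA a a.2
  have hs : Function.Surjective (π.comp ιA) := fun y => by
    obtain ⟨a, ha, hy⟩ := hsurj y
    exact ⟨⟨a, ha⟩, hy⟩
  have hgood := RED.good_x0 A (π.comp ιA) L₀ hs hL
  obtain ⟨c, y, w, hc, hy, hw, heq⟩ := hgood.exists_scale hg
  have hy0 : coeffMap (π.comp ιA) (y : LaurentSeries A) ≠ 0 := fun h0 => hy (Subtype.ext h0)
  have hw0 : coeffMap (π.comp ιA) (w : LaurentSeries A) ≠ 0 := fun h0 => hw (Subtype.ext h0)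
  have hint : ∀ t : LaurentSeries A,
      intSeries O (coeffMap ιA t) = coeffMap κ (coeffMap A.subtype t) := fun t => by
    rw [intSeries, coeffMap_coeffMap, coeffMap_coeffMap]
    rfl
  have hred : ∀ t : LaurentSeries A, coeffMap π (coeffMap ιA t) = coeffMap (π.comp ιA) t :=
    fun t => coeffMap_coeffMap _ _ _
  have he : baseEmb κ L₀ g * intSeries O (coeffMap ιA w) =
      HahnSeries.C (κ c) * intSeries O (coeffMap ιA y) := by
    have h1 := congrArg (baseEmb κ L₀) heq
    rw [map_mul, map_mul, (isSubst_baseEmb κ L₀).const] at h1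
    rw [hint, hint]
    exact h1
  by_cases hcO : κ c ∈ O
  · have h' : IsGauss π (baseEmb κ L₀ g) (coeffMap π (HahnSeries.C (⟨κ c, hcO⟩ : O)) *
        coeffMap (π.comp ιA) y / coeffMap (π.comp ιA) w) :=
      ⟨HahnSeries.C (⟨κ c, hcO⟩ : O) * coeffMap ιA y, coeffMap ιA w, by rwa [hred],
        by rw [he, map_mul, intSeries, CarayolHigh.coeffMap_C']; rfl, by rw [map_mul, hred, hred]⟩
    rw [h.unique h', CarayolHigh.coeffMap_C']
    refine div_mem (mul_mem ?_ y.2.2) w.2.2
    rw [show (HahnSeries.C (π ⟨κ c, hcO⟩) : LaurentSeries k) = algebraMap k _ (π ⟨κ c, hcO⟩) by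
      rw [algebraMap_laurentSeries_eq_single]; rfl]
    exact IntermediateField.algebraMap_mem _ _
  · exfalso
    have hcO' : (κ c)⁻¹ ∈ O := (O.mem_or_inv_mem _).resolve_left hcO
    have hg0 : baseEmb κ L₀ g ≠ 0 := (map_ne_zero _).mpr hg
    have hπ0 : ¬ IsUnit (⟨(κ c)⁻¹, hcO'⟩ : O) := fun hu => by
      obtain ⟨⟨t, ht⟩, htu⟩ := isUnit_iff_exists_inv.mp hu
      have h1 : (κ c)⁻¹ * t = 1 := congrArg Subtype.val htu
      exact hcO (by rwa [← (inv_mul_eq_iff_eq_mul₀ ((map_ne_zero _).mpr hc)).mp h1 |>.trans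
        (mul_one _)])
    have hker : π ⟨(κ c)⁻¹, hcO'⟩ = 0 := by
      have := RingHom.ker_isMaximal_of_surjective π fun t => by
        obtain ⟨a, ha, ht⟩ := hsurj t
        exact ⟨_, ht⟩
      rw [← RingHom.mem_ker, IsLocalRing.eq_maximalIdeal this, IsLocalRing.mem_maximalIdeal]
      exact hπ0
    refine h.not_inv_zero hg0
      ⟨HahnSeries.C (⟨(κ c)⁻¹, hcO'⟩ : O) * coeffMap ιA w, coeffMap ιA y, by rwa [hred], ?_, ?_⟩
    · rw [map_mul (intSeries O), intSeries, CarayolHigh.coeffMap_C', inv_mul_eq_iff_eq_mul₀ hg0, ← intSeries,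
        mul_left_comm, he, ← mul_assoc, ← map_mul]
      simp [inv_mul_cancel₀ ((map_ne_zero κ).mpr hc)]
    · rw [map_mul, CarayolHigh.coeffMap_C', hker, map_zero, zero_mul, zero_div]

variable (hB : BranchEmbs hq hqL κ z e0 e02 ez)

omit [Algebra ℚ K] [Algebra ℚ K'] [NeZero L₀] [NeZero q] in
/-- `u Q` for a `q`-power root of unity `u` has the residue of `Q`. -/
theorem IsGauss.qScale_root [Fact q.Prime] [CharP k q] {w : LaurentSeries K'}
    {r : LaurentSeries k} (h : IsGauss π w r) {u : K'ˣ} {m : ℕ} (hu : u ^ q ^ m = 1) :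
    IsGauss π (Igusa.qScale u w) r := by
  obtain ⟨v, hv, hv1⟩ := exists_unit_res_one (π := π) hu
  exact h.qScale hv hv1

include hB in
/-- The values of the branches are quotients of integral series. -/
theorem BranchEmbs.mem_fracSeries [Fact q.Prime] [CharP k q] (π : O →+* k)
    (x : modField K (L₀ * q ^ 2)) :
    e0 x ∈ fracSeries O ∧ e02 x ∈ fracSeries O ∧ ∀ i, ez i x ∈ fracSeries O := by
  refine ⟨hB.h0.mem_fracSeries (fun d => genSer_mem_fracSeries O d) x,
    hB.h02.mem_fracSeries (fun _ => genSer_mem_fracSeries O _) x,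
    fun i => (hB.hz i).mem_fracSeries (fun d => ?_) x⟩
  have hu : (z ^ ((i : ℕ) + 1)) ^ q ^ 1 = 1 := by
    rw [pow_one, unit_pow_pow_eq_one hB.prim _ dvd_rfl]
  rw [midVal]
  split_ifs
  · rw [← coeffMap_genSer O.subtype (freeIdx hq hqL d)]
    exact ((isGauss_int (π := π) (genSer O (freeIdx hq hqL d))).qScale_root hu).mem_fracSeries
  · exact genSer_mem_fracSeries O d

include hB in
/-- An automorphism of the constants trivial modulo `π` carrying one middle embedding to another
preserves integrality and residues. -/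
theorem BranchEmbs.isGauss_mid_of_sigma {i i' : Fin (q - 1)} (σ : K' →+* K')
    (hσκ : σ.comp κ = κ) (hσz : σ ((z ^ ((i : ℕ) + 1) : K'ˣ) : K') = ((z ^ ((i' : ℕ) + 1) : K'ˣ) : K'))
    (hσ : ∀ c ∈ O, σ c ∈ O) (hσπ : ∀ c : O, π ⟨σ c, hσ c c.2⟩ = π c)
    {x : modField K (L₀ * q ^ 2)} {r : LaurentSeries k} (h : IsGauss π (ez i x) r) :
    IsGauss π (ez i' x) r := by
  have he : (coeffMap σ).comp (ez i) = ez i' :=
    ((hB.hz i).coeffMap_comp σ hσκ).ext (hB.hz i') fun d => by
      rw [midVal, midVal]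
      split_ifs
      · rw [coeffMap_qScale, coeffMap_genSer,
          show Units.map σ.toMonoidHom (z ^ ((i : ℕ) + 1)) = z ^ ((i' : ℕ) + 1) from Units.ext hσz]
      · rw [coeffMap_genSer]
  rw [← he]
  exact h.coeffMap σ hσ hσπ

variable (hπ : ∀ c, π c = 0 ↔ ¬ IsUnit c) [IsDiscreteValuationRing O] [Fact q.Prime] [CharP k q]
  (A : ValuationSubring K) (hA : ∀ a ∈ A, κ a ∈ O)
  (hsurj : ∀ y : k, ∃ (a : K) (ha : a ∈ A), π ⟨κ a, hA a ha⟩ = y) (hL : (L₀ : k) ≠ 0)
  {η : K'ˣ} (hη : IsPrimitiveRoot η (q ^ 2))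

omit [IsDiscreteValuationRing O] [Algebra ℚ K] [Algebra ℚ K'] [NeZero L₀] [Fact q.Prime] in
/-- Residues in a sum over a list: only the first two terms survive. -/
theorem list_residue_sum (r0 r1 r2 : LaurentSeries k) :
    ∑ i : Unit ⊕ Fin (q - 1) ⊕ Fin (q ^ 2),
      Sum.elim (fun _ => qExpand k (q ^ 2) r0)
        (Sum.elim (fun _ => qExpand k (q ^ 2) r1) fun _ => r2) i =
      qExpand k (q ^ 2) (r0 - r1) := by
  have hq0 : (q : LaurentSeries k) = 0 := by
    rw [← map_natCast (algebraMap k (LaurentSeries k)), CharP.cast_eq_zero, map_zero]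
  simp only [Fintype.sum_sum_type, Sum.elim_inl, Sum.elim_inr, Finset.sum_const, Finset.card_univ,
    Fintype.card_unit, Fintype.card_fin, one_smul, map_sub]
  rw [nsmul_eq_mul, nsmul_eq_mul, Nat.cast_sub (Nat.one_le_iff_ne_zero.mpr (NeZero.ne q)),
    Nat.cast_pow, hq0]
  simp [sub_eq_add_neg]

include hB hπ hA hsurj hL hη in
/-- **Trace down `τ ↦ τ`.** -/
theorem BranchEmbs.residue_diff_zero {y : modField K (L₀ * q ^ 2)} {r0 r1 r2 : LaurentSeries k}
    (h0 : IsGauss π (e0 y) r0) (h1 : ∀ i, IsGauss π (ez i y) r1) (h2 : IsGauss π (e02 y) r2) :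
    r0 - r1 ∈ modularFunctionFieldFullC k L₀ := by
  have h : L₀ * 1 ∣ L₀ * q ^ 2 := mul_dvd_mul_left L₀ (one_dvd _)
  letI := algebraAlong (degenMap K 1 h)
  have : CharZero K := charZero_of_injective_algebraMap (algebraMap ℚ K).injective
  have : CharZero (modField K L₀) :=
    charZero_of_injective_algebraMap (algebraMap K (modField K L₀)).injective
  have hC := hB.complete_zero hη h
  have htr := hC.map_trace y
  have hsum : IsGauss π (∑ i, listZero e0 e02 ez η i y)
      (qExpand k (q ^ 2) (r0 - r1)) := by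
    rw [← list_residue_sum (q := q) r0 r1 r2]
    refine IsGauss.sum _ fun i _ => ?_
    rcases i with u | i | b
    · exact h0.qExpand _
    · exact (h1 i).qExpand _
    · exact h2.qScale_root (m := 2) (unit_pow_pow_eq_one hη b dvd_rfl)
  rw [← htr] at hsum
  obtain ⟨r, hr, hre⟩ := exists_isGauss_of_qExpand hπ
    ((isSubst_baseEmb κ L₀).mem_fracSeries (fun d => genSer_mem_fracSeries O d) _) hsum
  rw [qExpand_injective (R := k) (N := q ^ 2) hre]
  exact isGauss_baseEmb_mem A hA hsurj hL hr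

include hB hπ hA hsurj hL hη in
/-- **Trace down `τ ↦ q² τ`.** -/
theorem BranchEmbs.residue_diff_two {y : modField K (L₀ * q ^ 2)} {r0 r1 r2 : LaurentSeries k}
    (h0 : IsGauss π (e0 y) r0) (h1 : ∀ i, IsGauss π (ez i y) r1) (h2 : IsGauss π (e02 y) r2) :
    r2 - r1 ∈ modularFunctionFieldFullC k L₀ := by
  have h : L₀ * q ^ 2 ∣ L₀ * q ^ 2 := dvd_rfl
  letI := algebraAlong (degenMap K (q ^ 2) h)
  have : CharZero K := charZero_of_injective_algebraMap (algebraMap ℚ K).injective
  have : CharZero (modField K L₀) :=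
    charZero_of_injective_algebraMap (algebraMap K (modField K L₀)).injective
  have hC := hB.complete_two hη h
  have htr := hC.map_trace y
  have hsum : IsGauss π (∑ i, listTwo e0 e02 ez η z i y)
      (qExpand k (q ^ 2) (r2 - r1)) := by
    rw [← list_residue_sum (q := q) r2 r1 r0]
    refine IsGauss.sum _ fun i _ => ?_
    rcases i with u | i | b
    · exact h2.qExpand _
    · exact ((h1 i).qScale_root (m := 1) (by
        rw [pow_one, inv_pow, unit_pow_pow_eq_one hB.prim _ dvd_rfl, inv_one])).qExpand _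
    · exact h0.qScale_root (m := 2) (unit_pow_pow_eq_one hη b dvd_rfl)
  rw [← htr] at hsum
  obtain ⟨r, hr, hre⟩ := exists_isGauss_of_qExpand hπ
    ((isSubst_baseEmb κ L₀).mem_fracSeries (fun d => genSer_mem_fracSeries O d) _) hsum
  rw [qExpand_injective (R := k) (N := q ^ 2) hre]
  exact isGauss_baseEmb_mem A hA hsurj hL hr

include hB hπ hA hsurj hL hη in
/-- **Residues on `C₂₀`**, given a separator `e`. -/
theorem BranchEmbs.residue_mem_zero {e : modField K (L₀ * q ^ 2)} {s : LaurentSeries k}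
    (he0 : IsGauss π (e0 e) s) (hs : s ≠ 0) (he1 : ∀ i, IsGauss π (ez i e) 0)
    (he2 : IsGauss π (e02 e) 0) {x : modField K (L₀ * q ^ 2)} {r : LaurentSeries k}
    (hx : IsGauss π (e0 x) r) : r ∈ modularFunctionFieldFullC k L₀ := by
  have hsC : s ∈ modularFunctionFieldFullC k L₀ := by
    simpa using hB.residue_diff_zero hπ A hA hsurj hL hη he0 he1 he2
  obtain ⟨hf0, hf2, hfz⟩ := hB.mem_fracSeries π x
  choose N1 hN1 using fun i => exists_pow_mul_isGauss_zero hπ (he1 i) (hfz i)
  obtain ⟨N2, hN2⟩ := exists_pow_mul_isGauss_zero hπ he2 hf2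
  let N := max N2 (Finset.univ.sup N1)
  have hy := hB.residue_diff_zero hπ A hA hsurj hL hη (y := e ^ N * x)
    (r0 := s ^ N * r) (r1 := 0) (r2 := 0)
    (by rw [map_mul, map_pow]; exact (he0.pow N).mul hx)
    (fun i => by
      rw [map_mul, map_pow]
      exact hN1 i N ((Finset.le_sup (Finset.mem_univ i)).trans (le_max_right _ _)))
    (by rw [map_mul, map_pow]; exact hN2 N (le_max_left _ _))
  rw [sub_zero] at hy
  simpa [← mul_assoc, hs] using mul_mem (inv_mem (pow_mem hsC N)) hy

include hB hπ hA hsurj hL hη in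
/-- **Residues on the middle branch**, given a separator `e`. -/
theorem BranchEmbs.residue_mem_one {e : modField K (L₀ * q ^ 2)} {s : LaurentSeries k}
    (he0 : IsGauss π (e0 e) 0) (hs : s ≠ 0) (he1 : ∀ i, IsGauss π (ez i e) s)
    (he2 : IsGauss π (e02 e) 0) {x : modField K (L₀ * q ^ 2)} {r : LaurentSeries k}
    (hx : ∀ i, IsGauss π (ez i x) r) : r ∈ modularFunctionFieldFullC k L₀ := by
  have hsC : s ∈ modularFunctionFieldFullC k L₀ := by
    simpa using neg_mem (hB.residue_diff_zero hπ A hA hsurj hL hη he0 he1 he2)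
  obtain ⟨hf0, hf2, hfz⟩ := hB.mem_fracSeries π x
  obtain ⟨N0, hN0⟩ := exists_pow_mul_isGauss_zero hπ he0 hf0
  obtain ⟨N2, hN2⟩ := exists_pow_mul_isGauss_zero hπ he2 hf2
  let N := max N0 N2
  have hy := hB.residue_diff_zero hπ A hA hsurj hL hη (y := e ^ N * x)
    (r0 := 0) (r1 := s ^ N * r) (r2 := 0)
    (by rw [map_mul, map_pow]; exact hN0 N (le_max_left _ _))
    (fun i => by rw [map_mul, map_pow]; exact ((he1 i).pow N).mul (hx i))
    (by rw [map_mul, map_pow]; exact hN2 N (le_max_right _ _))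
  rw [zero_sub, neg_mem_iff] at hy
  simpa [← mul_assoc, hs] using mul_mem (inv_mem (pow_mem hsC N)) hy

include hB hπ hA hsurj hL hη in
/-- **Residues on `C₀₂`**, given a separator `e`. -/
theorem BranchEmbs.residue_mem_two {e : modField K (L₀ * q ^ 2)} {s : LaurentSeries k}
    (he0 : IsGauss π (e0 e) 0) (hs : s ≠ 0) (he1 : ∀ i, IsGauss π (ez i e) 0)
    (he2 : IsGauss π (e02 e) s) {x : modField K (L₀ * q ^ 2)} {r : LaurentSeries k}
    (hx : IsGauss π (e02 x) r) : r ∈ modularFunctionFieldFullC k L₀ := by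
  have hsC : s ∈ modularFunctionFieldFullC k L₀ := by
    simpa using hB.residue_diff_two hπ A hA hsurj hL hη he0 he1 he2
  obtain ⟨hf0, hf2, hfz⟩ := hB.mem_fracSeries π x
  choose N1 hN1 using fun i => exists_pow_mul_isGauss_zero hπ (he1 i) (hfz i)
  obtain ⟨N0, hN0⟩ := exists_pow_mul_isGauss_zero hπ he0 hf0
  let N := max N0 (Finset.univ.sup N1)
  have hy := hB.residue_diff_two hπ A hA hsurj hL hη (y := e ^ N * x)
    (r0 := 0) (r1 := 0) (r2 := s ^ N * r)
    (by rw [map_mul, map_pow]; exact hN0 N (le_max_left _ _))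
    (fun i => by
      rw [map_mul, map_pow]
      exact hN1 i N ((Finset.le_sup (Finset.mem_univ i)).trans (le_max_right _ _)))
    (by rw [map_mul, map_pow]; exact (he2.pow N).mul hx)
  rw [sub_zero] at hy
  simpa [← mul_assoc, hs] using mul_mem (inv_mem (pow_mem hsC N)) hy

end Trace

end Fermat.Agent.Carayol
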