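/-
Gauss residues of divided differences along a root of unity: `(x (uQ) - x (Q)) / (u - 1)` has
residue `θ x`, and `(u - 1)^(q-1) / q` has residue `-1`.
-/
import Fermat.Agent.Carayol.ResidueField
import Fermat.Agent.MF.ThetaJ
import Mathlib.RingTheory.RootsOfUnity.Lemmas
import Mathlib.NumberTheory.Wilson

set_option autoImplicit false

noncomputable section

open HahnSeries ModularCurve Finset Nat
open Fermat.Agent.Igusa Fermat.Agent.RED.Spec Fermat.Agent.HK.Corr Fermat.Agent.CarayolHigh
open Fermat.Agent.MF (thetaL thetaL_coeff)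

namespace Fermat.Agent.Carayol

variable {K' : Type*} [Field K'] {O : ValuationSubring K'} {k : Type*} [Field k] (π : O →+* k)

/-- `v ^ n - 1 = (v - 1) g` with `g ≡ n`. -/
theorem exists_zpow_sub_one_eq {v : Oˣ} (hv : π v = 1) (n : ℤ) :
    ∃ g : O, ((v ^ n : Oˣ) : O) - 1 = ((v : O) - 1) * g ∧ π g = n := by
  have hnat : ∀ m : ℕ, ((v ^ m : Oˣ) : O) - 1 =
      ((v : O) - 1) * ∑ i ∈ range m, (v : O) ^ i := fun m => by
    rw [mul_geom_sum, Units.val_pow_eq_pow_val]
  have hres : ∀ m : ℕ, π (∑ i ∈ range m, (v : O) ^ i) = m := fun m => by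
    simp [map_sum, hv]
  rcases Int.eq_nat_or_neg n with ⟨m, rfl | rfl⟩
  · exact ⟨_, by rw [zpow_natCast, hnat m], by rw [hres, Int.cast_natCast]⟩
  · refine ⟨-(((v ^ (-(m : ℤ)) : Oˣ) : O) * ∑ i ∈ range m, (v : O) ^ i), ?_, ?_⟩
    · have h1 : ((v ^ (-(m : ℤ)) : Oˣ) : O) * ((v ^ m : Oˣ) : O) = 1 := by
        rw [zpow_neg, zpow_natCast, ← Units.val_mul, inv_mul_cancel, Units.val_one]
      calc ((v ^ (-(m : ℤ)) : Oˣ) : O) - 1
          = -(((v ^ (-(m : ℤ)) : Oˣ) : O) * (((v ^ m : Oˣ) : O) - 1)) := by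
            rw [mul_sub, mul_one, h1, neg_sub]
        _ = _ := by rw [hnat m]; ring
    · have hone : Units.map π.toMonoidHom v = 1 := Units.ext hv
      have h1 : π ((v ^ (-(m : ℤ)) : Oˣ) : O) = 1 := by
        show ((Units.map π.toMonoidHom (v ^ (-(m : ℤ))) : kˣ) : k) = 1
        rw [map_zpow, hone, one_zpow, Units.val_one]
      rw [map_neg, map_mul, h1, one_mul, hres, Int.cast_neg, Int.cast_natCast]

/-- `(x (uQ) - x (Q)) / (u - 1)` has residue `θ x`. -/
theorem isGauss_qScale_sub_div {q m : ℕ} [Fact q.Prime] [CharP k q] {u : K'ˣ}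
    (hu : u ^ q ^ m = 1) (hu1 : u ≠ 1) (x : LaurentSeries ℤ) :
    IsGauss π ((Igusa.qScale u (coeffMap (Int.castRingHom K') x) -
        coeffMap (Int.castRingHom K') x) / HahnSeries.C ((u : K') - 1))
      (thetaL (coeffMap (Int.castRingHom k) x)) := by
  obtain ⟨v, hv, hv1⟩ := exists_unit_res_one (π := π) hu
  choose g hg hgπ using exists_zpow_sub_one_eq π hv1
  let Y : LaurentSeries O := HahnSeries.mk (fun n => g n * (x.coeff n : O))
    (x.isPWO_support.mono fun n hn => by
      rw [Function.mem_support] at hn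
      exact fun h0 => hn (by rw [h0, Int.cast_zero, mul_zero]))
  have hY : ∀ n, Y.coeff n = g n * (x.coeff n : O) := fun n => rfl
  have hne : HahnSeries.C ((u : K') - 1) ≠ (0 : LaurentSeries K') :=
    HahnSeries.C_ne_zero (sub_ne_zero.mpr fun h => hu1 (Units.ext h))
  have hz : (Igusa.qScale u (coeffMap (Int.castRingHom K') x) -
      coeffMap (Int.castRingHom K') x) / HahnSeries.C ((u : K') - 1) = intSeries O Y := by
    rw [div_eq_iff hne, mul_comm]
    ext n
    have hpow : ((u ^ n : K'ˣ) : K') = O.subtype ((v ^ n : Oˣ) : O) := by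
      rw [← show Units.map O.subtype.toMonoidHom v = u from Units.ext hv, ← map_zpow]
      rfl
    rw [HahnSeries.coeff_sub, qScale_coeff, coeffMap_coeff, HahnSeries.C_apply,
      HahnSeries.coeff_single_zero_mul, intSeries, coeffMap_coeff, hY, map_mul, hpow, map_intCast,
      eq_intCast, ← sub_one_mul, ← hv, show ((v : O) : K') = O.subtype v from rfl,
      ← map_one O.subtype, ← map_sub, ← map_sub, hg, map_mul, mul_assoc]
  have hr : coeffMap π Y = thetaL (coeffMap (Int.castRingHom k) x) := by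
    ext n
    rw [coeffMap_coeff, hY, thetaL_coeff, coeffMap_coeff, map_mul, hgπ, map_intCast, eq_intCast]
  rw [hz, ← hr]
  exact isGauss_int Y

/-- `(u - 1)^(q-1) / q` has residue `-1`. -/
theorem isGauss_sub_one_pow_div {q : ℕ} [Fact q.Prime] [CharP k q] {u : K'ˣ}
    (hu : IsPrimitiveRoot u q) :
    IsGauss π (HahnSeries.C ((u : K') - 1) ^ (q - 1) / (q : LaurentSeries K')) (-1) := by
  have hq : q.Prime := Fact.out
  obtain ⟨n, rfl⟩ : ∃ n, q = n + 1 := ⟨q - 1, (Nat.succ_pred hq.ne_zero).symm⟩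
  obtain ⟨v, hv, hv1⟩ := exists_unit_res_one (π := π) (q := n + 1) (m := 1)
    (show u ^ (n + 1) ^ 1 = 1 by rw [pow_one, hu.pow_eq_one])
  choose g hg hgπ using exists_zpow_sub_one_eq π hv1
  have huK : IsPrimitiveRoot (u : K') (n + 1) := IsPrimitiveRoot.coe_units_iff.mpr hu
  let G : O := ∏ i ∈ range n, -g (i + 1 : ℕ)
  have hprod : ((n + 1 : ℕ) : K') = ((u : K') - 1) ^ n * (G : K') := by
    rw [Nat.cast_succ, ← huK.prod_one_sub_pow_eq_order]
    show _ = _ * O.subtype G
    rw [map_prod]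
    calc ∏ i ∈ range n, (1 - (u : K') ^ (i + 1))
        = ∏ i ∈ range n, ((u : K') - 1) * O.subtype (-g (i + 1 : ℕ)) := by
          refine prod_congr rfl fun i _ => ?_
          have h1 := congrArg O.subtype (hg (i + 1 : ℕ))
          rw [map_mul, map_sub, map_sub, map_one, zpow_natCast, Units.val_pow_eq_pow_val,
            map_pow, show O.subtype (v : O) = (u : K') from hv] at h1
          rw [map_neg]
          linear_combination -h1
      _ = _ := by rw [prod_mul_distrib, prod_const, card_range]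
  have hG : π G = -1 := by
    have hW : ((n ! : ℕ) : k) = -1 := by
      have := congrArg (ZMod.castHom (dvd_refl (n + 1)) k) (ZMod.wilsons_lemma (p := n + 1))
      simpa using this
    have hodd : (-1 : k) ^ n = 1 := by
      rcases hq.eq_two_or_odd' with h2 | ⟨r, hr⟩
      · have : CharP k 2 := h2 ▸ inferInstance
        rw [CharTwo.neg_eq, one_pow]
      · rw [show n = 2 * r by omega, pow_mul, neg_one_sq, one_pow]
    simp only [G, map_prod, map_neg, hgπ, Int.cast_natCast]
    rw [prod_neg, card_range, hodd, one_mul, ← Nat.cast_prod, prod_range_add_one_eq_factorial, hW]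
  refine ⟨1, HahnSeries.C G, ?_, ?_, ?_⟩
  · rw [CarayolHigh.coeffMap_C', hG]
    exact HahnSeries.C_ne_zero (neg_ne_zero.mpr one_ne_zero)
  · have hne : ((u : K') - 1) ^ n ≠ 0 := pow_ne_zero _ (sub_ne_zero.mpr fun h =>
      hu.ne_one hq.one_lt (Units.ext h))
    have hG0 : (G : K') ≠ 0 := fun h => by
      have : G = 0 := Subtype.ext h
      rw [this, map_zero] at hG
      exact neg_ne_zero.mpr one_ne_zero hG.symm
    rw [map_one, intSeries, CarayolHigh.coeffMap_C', Nat.add_sub_cancel, ← map_pow,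
      ← map_natCast (HahnSeries.C (Γ := ℤ) : K' →+* LaurentSeries K'), hprod, ← map_div₀, ← map_mul,
      show O.subtype G = (G : K') from rfl, div_mul_eq_mul_div, div_self (mul_ne_zero hne hG0),
      map_one]
  · rw [map_one, CarayolHigh.coeffMap_C', hG, map_neg, map_one, one_div, inv_neg, inv_one]

end Fermat.Agent.Carayol
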