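/-
The units of the two pairs as elements of `K(X₀(L₀ q²))`: their Gauss residues on the three branches,
integrality helpers, and the values of functions of level `L₀` at `τ` and `q² τ`.
-/
import Fermat.Agent.Carayol.Elements
import Fermat.Agent.Carayol.RootDifference
import Fermat.Agent.Carayol.Chart
import Fermat.Agent.CarayolHigh.Units

set_option autoImplicit false
set_option linter.unusedSectionVars false

noncomputable section

open Polynomial ModularCurve
open Fermat.Agent.Igusa Fermat.Agent.RED.Spec Fermat.Agent.HK.Corr Fermat.Agent.CarayolHigh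

namespace Fermat.Agent.Carayol

section Integral

variable {K : Type} [Field K]

/-- Membership in a chart from integrality over `ℤ[T]`. -/
theorem mem_chartRing_of_intEval {E : IntermediateField K (LaurentSeries K)} {W : Type}
    [CommRing W] [Algebra W E] {T : E} {y : E}
    (h : (eval₂RingHom (Int.castRingHom (LaurentSeries K))
      (T : LaurentSeries K)).IsIntegralElem (y : LaurentSeries K)) :
    y ∈ chartRing W T := by
  obtain ⟨Q, hQ, hQ0⟩ := h
  refine mem_chartRing_iff_isIntegralElem.mpr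
    ⟨Q.map (mapRingHom (Int.castRingHom W)), hQ.map _, ?_⟩
  have hcomp : (E.val.toRingHom.comp ((aeval (R := W) T).toRingHom.comp
      (mapRingHom (Int.castRingHom W)))) =
      eval₂RingHom (Int.castRingHom (LaurentSeries K)) (T : LaurentSeries K) :=
    Polynomial.ringHom_ext' (RingHom.ext_int _ _) (by simp)
  apply E.val.toRingHom.injective
  rw [eval₂_map, hom_eval₂, hcomp, map_zero]
  exact hQ0

/-- Transitivity of integrality over `ℤ[T]`. -/
theorem isIntegralElem_intEval_trans {T T' y : LaurentSeries K}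
    (hT : (eval₂RingHom (Int.castRingHom (LaurentSeries K)) T).IsIntegralElem T')
    (hy : (eval₂RingHom (Int.castRingHom (LaurentSeries K)) T').IsIntegralElem y) :
    (eval₂RingHom (Int.castRingHom (LaurentSeries K)) T).IsIntegralElem y := by
  letI : Algebra ℤ[X] (LaurentSeries K) :=
    (eval₂RingHom (Int.castRingHom (LaurentSeries K)) T).toAlgebra
  let S := integralClosure ℤ[X] (LaurentSeries K)
  let g : ℤ[X] →+* S := eval₂RingHom (Int.castRingHom S) ⟨T', hT⟩
  obtain ⟨Q, hQ, hQ0⟩ := hy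
  have hg : (algebraMap S (LaurentSeries K)).comp g =
      eval₂RingHom (Int.castRingHom (LaurentSeries K)) T' :=
    Polynomial.ringHom_ext' (RingHom.ext_int _ _) (by
      simp only [g, RingHom.comp_apply, coe_eval₂RingHom, eval₂_X]; rfl)
  have hi : IsIntegral S y := ⟨Q.map g, hQ.map g, by rw [eval₂_map, hg]; exact hQ0⟩
  exact isIntegral_trans (R := ℤ[X]) y hi

end Integral

section Gauss

variable {K' : Type} [Field K'] {O : ValuationSubring K'} {k : Type} [Field k] {π : O →+* k}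

/-- An integral series defined over `ℤ`. -/
theorem isGauss_intCast (x : LaurentSeries ℤ) :
    IsGauss π (coeffMap (Int.castRingHom K') x) (coeffMap (Int.castRingHom k) x) := by
  have h := isGauss_int (π := π) (coeffMap (Int.castRingHom O) x)
  rwa [intSeries, coeffMap_coeffMap, coeffMap_coeffMap,
    RingHom.ext_int (O.subtype.comp _) (Int.castRingHom K'),
    RingHom.ext_int (π.comp _) (Int.castRingHom k)] at h

variable {q : ℕ} [CharP k q]

theorem natCast_series_char : (q : LaurentSeries k) = 0 := by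
  rw [← map_natCast (algebraMap k (LaurentSeries k)) q, CharP.cast_eq_zero, map_zero]

/-- A natural number divisible by `q` has residue zero. -/
theorem isGauss_natCast_char : IsGauss π (q : LaurentSeries K') 0 := by
  have h := isGauss_int (π := π) (q : LaurentSeries O)
  rwa [map_natCast, map_natCast, natCast_series_char (k := k) (q := q)] at h

/-- Divisible by `q` implies residue zero. -/
theorem IsGauss.zero_of_div [CharZero K'] (hq : q ≠ 0) {x : LaurentSeries K'} {r : LaurentSeries k}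
    (h : IsGauss π (x / (q : LaurentSeries K')) r) : IsGauss π x 0 := by
  have hne : (q : LaurentSeries K') ≠ 0 := by
    rw [← map_natCast (algebraMap K' (LaurentSeries K'))]
    exact (_root_.map_ne_zero _).mpr (Nat.cast_ne_zero.mpr hq)
  have h1 := h.mul (isGauss_natCast_char (π := π) (q := q))
  rwa [mul_zero, div_mul_cancel₀ _ hne] at h1

variable [Fact q.Prime] [NeZero q]

/-- `V (a, aq)` modulo `q`. -/
theorem pairV_char (a : ℕ) [NeZero a] :
    pairV k a (a * q) = qExpand k a (deltaInvSeries k ^ (q - 1)) := by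
  rw [← delta_mul_qExpand_deltaInv_char, map_mul, qExpand_qExpand, pairV]

theorem qExpand_dRes_char :
    qExpand k q (deltaInvSeries k ^ (q - 1)) = (deltaInvSeries k ^ (q - 1)) ^ q := by
  rw [map_pow, qExpand_deltaInv_char, ← pow_mul, ← pow_mul, mul_comm]

theorem isGauss_pairV_one : IsGauss π (pairV K' 1 q) (deltaInvSeries k ^ (q - 1)) := by
  have h := isGauss_int (π := π) (pairV O 1 q)
  rw [intSeries, coeffMap_pairV, coeffMap_pairV] at h
  have h2 : pairV k 1 q = deltaInvSeries k ^ (q - 1) := by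
    have := pairV_char (k := k) (q := q) 1
    rw [qExpand_one_apply] at this
    rw [← this]
    simp [pairV]
  rwa [h2] at h

theorem isGauss_pairV_self :
    IsGauss π (pairV K' q (q ^ 2)) ((deltaInvSeries k ^ (q - 1)) ^ q) := by
  have h := isGauss_int (π := π) (pairV O q (q ^ 2))
  rw [intSeries, coeffMap_pairV, coeffMap_pairV] at h
  have h2 : pairV k q (q ^ 2) = (deltaInvSeries k ^ (q - 1)) ^ q := by
    rw [← qExpand_dRes_char, ← pairV_char]
    simp [pairV, qExpand_congr (sq q)]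
  rwa [h2] at h

/-- `U (a, b)` is divisible by `q` when `b = a q`. -/
theorem isGauss_pairU_div [CharZero K'] {a b : ℕ} [NeZero a] [NeZero b] (h : b / a = q) :
    IsGauss π (pairU K' a b / (q : LaurentSeries K')) 0 := by
  have hne : (q : LaurentSeries K') ≠ 0 := by
    rw [← map_natCast (algebraMap K' (LaurentSeries K'))]
    exact (_root_.map_ne_zero _).mpr (Nat.cast_ne_zero.mpr (NeZero.ne q))
  let w : LaurentSeries O := qExpand O b (deltaSeries O) * qExpand O a (deltaInvSeries O)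
  have hU : pairU K' a b / (q : LaurentSeries K') = intSeries O ((q : LaurentSeries O) ^ 11 * w) := by
    rw [div_eq_iff hne, ← coeffMap_pairU O.subtype a b, pairU, h, ← HahnSeries.C_apply, intSeries,
      map_pow (HahnSeries.C (Γ := ℤ)), map_natCast]
    simp only [map_mul, map_pow, map_natCast, w]
    ring
  have hr : coeffMap π ((q : LaurentSeries O) ^ 11 * w) = 0 := by
    rw [map_mul, map_pow, map_natCast, natCast_series_char, zero_pow (by norm_num), zero_mul]
  rw [hU, ← hr]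
  exact isGauss_int _

end Gauss

/-! ### The elements -/

section Elements

variable {K : Type} [Field K] [Algebra ℚ K] (ι : K →+* ℂ) {L₀ q : ℕ} [NeZero L₀] [NeZero q]

variable (L₀ q) in
/-- `c01`. -/
def unitU01 : modField K (L₀ * q ^ 2) :=
  ⟨pairU K 1 q, pairU_mem ι (one_dvd q) ((dvd_pow_self q two_ne_zero).trans (dvd_mul_left _ _))⟩

variable (L₀ q) in
/-- `c'01`. -/
def unitV01 : modField K (L₀ * q ^ 2) :=
  ⟨pairV K 1 q, pairV_mem ι (one_dvd q) ((dvd_pow_self q two_ne_zero).trans (dvd_mul_left _ _))⟩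

variable (L₀ q) in
/-- `c12`. -/
def unitU12 : modField K (L₀ * q ^ 2) :=
  ⟨pairU K q (q ^ 2), pairU_mem ι (dvd_pow_self q two_ne_zero) (dvd_mul_left _ _)⟩

variable (L₀ q) in
/-- `c'12`. -/
def unitV12 : modField K (L₀ * q ^ 2) :=
  ⟨pairV K q (q ^ 2), pairV_mem ι (dvd_pow_self q two_ne_zero) (dvd_mul_left _ _)⟩

end Elements

section Values

variable {K : Type} [Field K] [Algebra ℚ K] {K' : Type} [Field K'] [Algebra ℚ K']
  {O : ValuationSubring K'} {k : Type} [Field k] {π : O →+* k}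
  {L₀ q : ℕ} [NeZero L₀] [NeZero q] [Fact q.Prime] [CharP k q] {hq : q.Prime} {hqL : ¬ q ∣ L₀}
  {κ : K →+* K'} {z : K'ˣ} {e0 e02 : modField K (L₀ * q ^ 2) →+* LaurentSeries K'}
  {ez : Fin (q - 1) → modField K (L₀ * q ^ 2) →+* LaurentSeries K'}

theorem BranchEmbs.root_pow (hB : BranchEmbs hq hqL κ z e0 e02 ez) (i : Fin (q - 1)) :
    (z ^ ((i : ℕ) + 1)) ^ q ^ 1 = 1 := by
  rw [pow_one, unit_pow_pow_eq_one hB.prim _ dvd_rfl]

variable (π) in
/-- The residues of `c01, c'01, c12, c'12` on the branches, with divisibility by `q`. -/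
theorem BranchEmbs.isGauss_units (hB : BranchEmbs hq hqL κ z e0 e02 ez) (ι : K' →+* ℂ) :
    (IsGauss π (e0 (unitU01 (ι.comp κ) L₀ q) / (q : LaurentSeries K')) 0 ∧
      IsGauss π (e0 (unitV01 (ι.comp κ) L₀ q)) (deltaInvSeries k ^ (q - 1)) ∧
      IsGauss π (e0 (unitU12 (ι.comp κ) L₀ q) / (q : LaurentSeries K')) 0 ∧
      IsGauss π (e0 (unitV12 (ι.comp κ) L₀ q)) ((deltaInvSeries k ^ (q - 1)) ^ q)) ∧
    (∀ i, IsGauss π (ez i (unitU01 (ι.comp κ) L₀ q) / (q : LaurentSeries K')) 0 ∧
      IsGauss π (ez i (unitV01 (ι.comp κ) L₀ q)) (deltaInvSeries k ^ (q - 1)) ∧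
      IsGauss π (ez i (unitU12 (ι.comp κ) L₀ q)) (deltaInvSeries k ^ (q - 1)) ∧
      IsGauss π (ez i (unitV12 (ι.comp κ) L₀ q) / (q : LaurentSeries K')) 0) ∧
    (IsGauss π (e02 (unitU01 (ι.comp κ) L₀ q)) ((deltaInvSeries k ^ (q - 1)) ^ q) ∧
      IsGauss π (e02 (unitV01 (ι.comp κ) L₀ q) / (q : LaurentSeries K')) 0 ∧
      IsGauss π (e02 (unitU12 (ι.comp κ) L₀ q)) (deltaInvSeries k ^ (q - 1)) ∧
      IsGauss π (e02 (unitV12 (ι.comp κ) L₀ q) / (q : LaurentSeries K')) 0) := by
  haveI : CharZero K' := charZero_of_injective_algebraMap (algebraMap ℚ K').injective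
  obtain ⟨⟨a1, a2, a3, a4⟩, ⟨c1, c2, c3, c4⟩, hm⟩ := branchEmbs_pair ι hq hqL hB
    (unitU01 (ι.comp κ) L₀ q).2 (unitV01 (ι.comp κ) L₀ q).2 (unitU12 (ι.comp κ) L₀ q).2
    (unitV12 (ι.comp κ) L₀ q).2
  have h1 : q / 1 = q := Nat.div_one q
  have h2 : q ^ 2 / q = q := by rw [sq, Nat.mul_div_cancel _ hq.pos]
  refine ⟨⟨?_, ?_, ?_, ?_⟩, fun i => ?_, ?_, ?_, ?_, ?_⟩
  · rw [show e0 (unitU01 (ι.comp κ) L₀ q) = _ from a1]; exact isGauss_pairU_div h1
  · rw [show e0 (unitV01 (ι.comp κ) L₀ q) = _ from a2]; exact isGauss_pairV_one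
  · rw [show e0 (unitU12 (ι.comp κ) L₀ q) = _ from a3]; exact isGauss_pairU_div h2
  · rw [show e0 (unitV12 (ι.comp κ) L₀ q) = _ from a4]; exact isGauss_pairV_self
  · obtain ⟨b1, b2, b3, b4⟩ := hm i
    refine ⟨?_, ?_, ?_, ?_⟩
    · rw [show ez i (unitU01 (ι.comp κ) L₀ q) = _ from b1]; exact isGauss_pairU_div h1
    · rw [show ez i (unitV01 (ι.comp κ) L₀ q) = _ from b2]; exact isGauss_pairV_one
    · rw [show ez i (unitU12 (ι.comp κ) L₀ q) = _ from b3]
      exact isGauss_pairV_one.qScale_root (hB.root_pow i)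
    · rw [show ez i (unitV12 (ι.comp κ) L₀ q) = _ from b4,
        ← map_natCast (Igusa.qScale (z ^ ((i : ℕ) + 1))) q, ← map_div₀]
      exact (isGauss_pairU_div h1).qScale_root (hB.root_pow i)
  · rw [show e02 (unitU01 (ι.comp κ) L₀ q) = _ from c1]; exact isGauss_pairV_self
  · rw [show e02 (unitV01 (ι.comp κ) L₀ q) = _ from c2]; exact isGauss_pairU_div h2
  · rw [show e02 (unitU12 (ι.comp κ) L₀ q) = _ from c3]; exact isGauss_pairV_one
  · rw [show e02 (unitV12 (ι.comp κ) L₀ q) = _ from c4]; exact isGauss_pairU_div h1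

omit [Fact q.Prime] [CharP k q] in
/-- Functions of level `L₀` at `τ` and at `q² τ` along the branches. -/
theorem BranchEmbs.degen_values (hB : BranchEmbs hq hqL κ z e0 e02 ez)
    (h1 : L₀ * 1 ∣ L₀ * q ^ 2) (h2 : L₀ * q ^ 2 ∣ L₀ * q ^ 2) (g : modField K L₀) :
    (e0 (degenMap K 1 h1 g) = baseEmb κ L₀ g ∧
      e0 (degenMap K (q ^ 2) h2 g) = qExpand K' (q ^ 2) (baseEmb κ L₀ g)) ∧
    (∀ i, ez i (degenMap K 1 h1 g) = baseEmb κ L₀ g ∧
      ez i (degenMap K (q ^ 2) h2 g) = Igusa.qScale (z ^ ((i : ℕ) + 1)) (baseEmb κ L₀ g)) ∧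
    (e02 (degenMap K 1 h1 g) = qExpand K' (q ^ 2) (baseEmb κ L₀ g) ∧
      e02 (degenMap K (q ^ 2) h2 g) = baseEmb κ L₀ g) := by
  have hb := isSubst_baseEmb κ L₀
  have hfree : ∀ d : DivIdx L₀, (mulIdx 1 h1 d).1 = d.1 * q ^ 0 ∧
      (mulIdx (q ^ 2) h2 d).1 = d.1 * q ^ 2 := fun d =>
    ⟨by rw [coe_mulIdx, one_mul, pow_zero, mul_one], by rw [coe_mulIdx, mul_comm]⟩
  refine ⟨⟨?_, ?_⟩, fun i => ⟨?_, ?_⟩, ?_, ?_⟩
  · exact DFunLike.congr_fun ((hB.h0.comp_degen 1 h1).ext hb fun d =>
      genSer_congr K' (by rw [coe_mulIdx, one_mul])) g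
  · exact DFunLike.congr_fun ((hB.h0.comp_degen (q ^ 2) h2).ext (hb.qExpand_comp (q ^ 2)) fun d =>
      (qExpand_genSer K' (coe_mulIdx (q ^ 2) h2 d)).symm) g
  · exact DFunLike.congr_fun (((hB.hz i).comp_degen 1 h1).ext hb fun d =>
      (midVal_of_eq hq hqL _ (hfree d).1 d.2.2 zero_le_one).trans
        (genSer_congr K' (by rw [coe_mulIdx, one_mul]))) g
  · exact DFunLike.congr_fun (((hB.hz i).comp_degen (q ^ 2) h2).ext
      (hb.qScale_comp (z ^ ((i : ℕ) + 1))) fun d => midVal_of_eq_two hq hqL _ d (hfree d).2) g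
  · exact DFunLike.congr_fun ((hB.h02.comp_degen 1 h1).ext (hb.qExpand_comp (q ^ 2)) fun d =>
      (qExpand_genSer K' (by
        rw [coe_swapTwo_of_eq hq hqL (hfree d).1 d.2.2, mul_comm])).symm) g
  · exact DFunLike.congr_fun ((hB.h02.comp_degen (q ^ 2) h2).ext hb fun d =>
      genSer_congr K' (by
        rw [coe_swapTwo_of_eq hq hqL (hfree d).2 d.2.2, Nat.sub_self, pow_zero, mul_one])) g

end Values

end Fermat.Agent.Carayol
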