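/-
The level `L` input of the chart criterion: the Gauss reduction of `K(X₀(L))`, and its embedding
into the Gauss valuation field of Laurent series over an extension of `K`.
-/
import Fermat.Agent.Carayol.Chart
import Fermat.Agent.CarayolHigh.Gauss
import Fermat.Agent.RED.X0Red
import Fermat.Agent.RED.ConstRedDatum
import Fermat.Agent.HK.Degen

set_option autoImplicit false
set_option linter.unusedSectionVars false
set_option maxHeartbeats 800000

noncomputable section

open Polynomial ModularCurve IntermediateField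

namespace Fermat.Agent.Carayol

open CarayolHigh RED
open HK.Corr (modField)

section General

variable {K : Type} [Field K] (A : ValuationSubring K) {E : Type} [Field E] [Algebra K E]

/-- The constants of a valuation ring act through the field. -/
theorem isScalarTower_valuationSubring : IsScalarTower A K E :=
  IsScalarTower.of_algebraMap_eq fun _ => rfl

/-- Integrality over `A[x]` gives membership in the chart ring. -/
theorem mem_chartRing_of_mem_intRing {x e : E} (he : e ∈ intRing A x) :
    e ∈ chartRing A x := by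
  have hmap : intEval A x = (aeval (R := A) x).toRingHom := by
    refine Polynomial.ringHom_ext (fun a => ?_) ?_
    · simp only [intEval, coe_eval₂RingHom, eval₂_C, AlgHom.toRingHom_eq_coe, RingHom.coe_coe,
        aeval_C]
      rfl
    · simp [intEval]
  rw [mem_chartRing_iff_isIntegralElem, ← hmap]
  exact he

variable {W : Type} [CommRing W] [Algebra W K] [IsFractionRing W K] [Algebra W E]
  [IsScalarTower W K E]

/-- Evaluation at a transcendental is injective over `W`. -/
theorem injective_aeval_of_transcendental {x : E} (hx : Transcendental K x) :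
    Function.Injective (aeval (R := W) x) := by
  intro p r h
  apply Polynomial.map_injective _ (IsFractionRing.injective W K)
  apply transcendental_iff_injective.mp hx
  simpa [aeval_map_algebraMap] using h

/-- A function field finite over `K(x)` is finite over the field generated by `W` and `x`. -/
theorem exists_span_closure_of_finiteDimensional {x : E}
    (h : FiniteDimensional K⟮x⟯ E) :
    ∃ s : Finset E, ∀ a : E, a ∈ Submodule.span
      (Subfield.closure (Set.range (algebraMap W E) ∪ {x})) (s : Set E) := by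
  classical
  obtain ⟨s, hs⟩ := h.fg_top
  refine ⟨s, fun a => ?_⟩
  have hle : ∀ c : K⟮x⟯, (c : E) ∈ Subfield.closure (Set.range (algebraMap W E) ∪ {x}) := by
    intro c
    refine IntermediateField.adjoin_induction K (p := fun y _ => y ∈ _) ?_ ?_ ?_ ?_ ?_ c.2
    · intro y hy
      exact Subfield.subset_closure (Or.inr hy)
    · intro k
      obtain ⟨u, v, -, rfl⟩ := IsFractionRing.div_surjective W k
      rw [map_div₀, ← IsScalarTower.algebraMap_apply, ← IsScalarTower.algebraMap_apply]
      exact div_mem (Subfield.subset_closure (Or.inl ⟨u, rfl⟩))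
        (Subfield.subset_closure (Or.inl ⟨v, rfl⟩))
    · intro y z _ _ hy hz; exact add_mem hy hz
    · intro y _ hy; exact inv_mem hy
    · intro y z _ _ hy hz; exact mul_mem hy hz
  have ha : a ∈ Submodule.span K⟮x⟯ (s : Set E) := hs ▸ Submodule.mem_top
  refine Submodule.span_induction (fun v hv => Submodule.subset_span hv) (zero_mem _)
    (fun u v _ _ hu hv => add_mem hu hv) (fun c u _ hu => ?_) ha
  show (⟨(c : E), hle c⟩ : Subfield.closure (Set.range (algebraMap W E) ∪ {x})) • u ∈ _
  exact Submodule.smul_mem _ _ hu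

end General

section Red

variable {K k : Type} [Field K] [Field k] {A : ValuationSubring K} {π : A →+* k}
  {E Fb Ω : Type} [Field E] [Field Fb] [Field Ω] [Algebra K E] [Algebra k Fb]
  (R : ConstRed A π E Fb) (O : ValuationSubring Ω) (ψ : E →+* Ω)

/-- The ring of a constant reduction is the pullback of a valuation ring agreeing with it on
constants and containing it. -/
theorem mem_constRed_iff_of_embedding (hc : ∀ c : K, ψ (algebraMap K E c) ∈ O → c ∈ A)
    (hw : ∀ w : R.W, ψ (w : E) ∈ O) (hu : ∀ w : R.W, R.red w ≠ 0 → ψ (w : E) ∉ O.nonunits)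
    {e : E} : e ∈ R.W ↔ ψ e ∈ O := by
  refine ⟨fun h => hw ⟨e, h⟩, fun h => ?_⟩
  rcases eq_or_ne e 0 with rfl | he
  · exact zero_mem _
  obtain ⟨c, w, hc0, hw0, rfl⟩ := R.exists_scale he
  have hunit : ψ (w : E)⁻¹ ∈ O := hw ⟨_, R.inv_mem_of_red_ne_zero hw0⟩
  have hcA : c ∈ A := by
    refine hc c ?_
    have := mul_mem h hunit
    rwa [← map_mul, mul_assoc, mul_inv_cancel₀ (R.ne_zero_of_red_ne_zero hw0), mul_one] at this
  exact mul_mem (R.algebraMap_mem ⟨c, hcA⟩) w.2

/-- An element of the maximal ideal is divisible by the uniformiser. -/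
theorem inv_mul_mem_of_nonunits [IsDiscreteValuationRing A] (hπ : ∀ a : A, π a = 0 ↔ ¬IsUnit a)
    (hc : ∀ c : K, ψ (algebraMap K E c) ∈ O → c ∈ A)
    (hw : ∀ w : R.W, ψ (w : E) ∈ O) (hu : ∀ w : R.W, R.red w ≠ 0 → ψ (w : E) ∉ O.nonunits)
    {ϖ : A} (hϖ : Irreducible ϖ) {e : E} (he : ψ e ∈ O.nonunits) :
    ψ ((algebraMap A E ϖ)⁻¹ * e) ∈ O := by
  have heW : e ∈ R.W :=
    (mem_constRed_iff_of_embedding R O ψ hc hw hu).mpr (O.nonunits_subset he)
  have h0 : R.red ⟨e, heW⟩ = 0 := by
    by_contra h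
    exact hu _ h he
  obtain ⟨a, w', ha, haw⟩ := R.exists_const_mul_of_red_eq_zero h0
  obtain ⟨b, hb⟩ : ϖ ∣ a := by
    rw [← Ideal.mem_span_singleton, ← hϖ.maximalIdeal_eq]
    exact (hπ a).mp ha
  have hϖ0 : algebraMap A E ϖ ≠ 0 := by
    show algebraMap K E (ϖ : K) ≠ 0
    simpa using hϖ.ne_zero
  have he' : (algebraMap A E ϖ)⁻¹ * e = algebraMap K E (b : K) * (w' : E) := by
    have h1 : e = algebraMap K E (a : K) * (w' : E) := congrArg Subtype.val haw
    rw [h1, hb, MulMemClass.coe_mul, map_mul]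
    change (algebraMap K E (ϖ : K))⁻¹ * _ = _
    rw [mul_assoc, ← mul_assoc (algebraMap K E (ϖ : K))⁻¹, inv_mul_cancel₀ (show algebraMap K E (ϖ : K) ≠ 0 from hϖ0), one_mul]
  rw [he', map_mul]
  exact mul_mem (hw ⟨_, R.algebraMap_mem b⟩) (hw w')

end Red

section Gauss

variable {K' k : Type} [Field K'] [Field k] (O' : ValuationSubring K')
  [IsDiscreteValuationRing O'] (π' : O' →+* k) (hπ' : ∀ c, π' c = 0 ↔ ¬IsUnit c)

/-- The Gauss branch of the field of all quotients of integral series. -/
def gaussTop : GaussBranch O' k (fracSeries O') where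
  π := π'
  π_eq_zero := hπ'
  ψ := (fracSeries O').subtype
  frac x := x.2

/-- An embedding seen in the field of quotients of integral series. -/
def toFrac {F : Type} [Field F] (G : GaussBranch O' k F) : F →+* fracSeries O' :=
  G.ψ.codRestrict (fracSeries O') G.frac

theorem mem_V_iff_toFrac {F : Type} [Field F] (G : GaussBranch O' k F) (hG : G.π = π') {a : F} :
    a ∈ G.V ↔ toFrac O' G a ∈ (gaussTop O' π' hπ').V := by
  subst hG
  exact Iff.rfl

/-- A residue zero on a branch is a nonunit of the big Gauss ring. -/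
theorem toFrac_mem_nonunits {F : Type} [Field F] (G : GaussBranch O' k F) (hG : G.π = π')
    {a : F} (ha : a ∈ G.V) (h : G.res ⟨a, ha⟩ = 0) :
    toFrac O' G a ∈ (gaussTop O' π' hπ').V.nonunits := by
  subst hG
  have ha' : toFrac O' G a ∈ (gaussTop O' G.π hπ').V := ha
  obtain ⟨x, y, hxy⟩ := G.mem_V_iff.mp ha
  rw [ValuationSubring.mem_nonunits_iff_exists_mem_maximalIdeal]
  refine ⟨ha', ?_⟩
  rw [IsLocalRing.mem_maximalIdeal, mem_nonunits_iff, ← GaussBranch.res_eq_zero,
    GaussBranch.res_eq _ ha' (a := x) (b := y) hxy]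
  rw [G.res_eq ha hxy] at h
  exact h

variable {K : Type} [Field K] [Algebra ℚ K] {A : ValuationSubring K} {π : A →+* k}
  (f : K →+* K') (hf : ∀ c : K, c ∈ A → f c ∈ O') (hfπ : ∀ a : A, π' ⟨f a, hf a a.2⟩ = π a)
  (L : ℕ) [NeZero L] (n : ℕ) [NeZero n]

/-- The Gauss reduction of `K(X₀(L))`. -/
abbrev levelRed (hπ : Function.Surjective π) (hL : (L : k) ≠ 0) :
    ConstRed A π (modField K L) (modularFunctionFieldFullC k L) :=
  (good_x0 A π L hπ hL).constRed

/-- `coeff`-extension and `q ↦ q ^ n` on functions of level `L`. -/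
def levelSeries : modField K L →+* LaurentSeries K' :=
  ((qExpand K' n).comp (coeffMap f)).comp (modField K L).val.toRingHom

/-- Applying `q ↦ q^n` to integral series. -/
def levelInt : LaurentSeries A →+* LaurentSeries O' :=
  (qExpand O' n).comp (coeffMap ((f.comp A.subtype).codRestrict O' fun a => hf a a.2))

theorem qExpand_coeffMap' {R S : Type*} [CommRing R] [CommRing S] (φ : R →+* S)
    (y : LaurentSeries R) : qExpand S n (coeffMap φ y) = coeffMap φ (qExpand R n y) :=
  HahnSeries.ext <| funext fun i => by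
    by_cases hi : (n : ℤ) ∣ i
    · obtain ⟨l, rfl⟩ := hi
      rw [qExpand_coeff_mul, coeffMap_coeff, coeffMap_coeff, qExpand_coeff_mul]
    · rw [qExpand_coeff_of_not_dvd _ _ hi, coeffMap_coeff, qExpand_coeff_of_not_dvd _ _ hi,
        map_zero]

theorem intSeries_levelInt (y : LaurentSeries A) :
    intSeries O' (levelInt O' f hf n y) = qExpand K' n (coeffMap f (coeffMap A.subtype y)) := by
  rw [levelInt, RingHom.comp_apply, intSeries, ← qExpand_coeffMap', coeffMap_coeffMap,
    coeffMap_coeffMap]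
  rfl

include hfπ in
theorem coeffMap_levelInt (y : LaurentSeries A) :
    coeffMap π' (levelInt O' f hf n y) = qExpand k n (coeffMap π y) := by
  rw [levelInt, RingHom.comp_apply, ← qExpand_coeffMap', coeffMap_coeffMap]
  congr 1
  exact congrArg (fun φ : A →+* k => coeffMap φ y) (RingHom.ext hfπ)

variable (hπ : Function.Surjective π) (hL : (L : k) ≠ 0)

include hfπ in
/-- An element of the Gauss ring of level `L` as a normalised fraction upstairs. -/
theorem exists_levelFrac (e : (levelRed L hπ hL).W) :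
    ∃ a b : LaurentSeries O', coeffMap π' b ≠ 0 ∧
      levelSeries f L n (e : modField K L) * intSeries O' b = intSeries O' a ∧
      coeffMap π' a / coeffMap π' b =
        qExpand k n (((levelRed L hπ hL).red e : modularFunctionFieldFullC k L) :
          LaurentSeries k) := by
  obtain ⟨y, z, hz, hyz, hred⟩ := (good_x0 A π L hπ hL).exists_pairs_of_mem e.2
  refine ⟨levelInt O' f hf n (y : LaurentSeries A), levelInt O' f hf n (z : LaurentSeries A),
    ?_, ?_, ?_⟩
  · rw [coeffMap_levelInt O' π' f hf hfπ n]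
    refine fun h0 => hz (Subtype.ext ?_)
    exact qExpand_injective (R := k) (N := n) (h0.trans (map_zero _).symm)
  · rw [intSeries_levelInt, intSeries_levelInt]
    show qExpand K' n (coeffMap f ((e : modField K L) : LaurentSeries K)) * _ = _
    rw [← map_mul, ← map_mul]
    exact congrArg (fun u : modField K L => qExpand K' n (coeffMap f (u : LaurentSeries K))) hyz
  · rw [coeffMap_levelInt O' π' f hf hfπ n, coeffMap_levelInt O' π' f hf hfπ n, ← map_div₀,
      show (levelRed L hπ hL).red e = _ from hred]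
    rfl

include hfπ hπ hL in
theorem levelSeries_mem_fracSeries (e : modField K L) :
    levelSeries f L n e ∈ fracSeries O' := by
  rcases eq_or_ne e 0 with rfl | he
  · rw [map_zero]; exact zero_mem _
  obtain ⟨c, w, -, -, rfl⟩ := (levelRed L hπ hL).exists_scale he
  rw [map_mul]
  refine mul_mem ?_ ?_
  · have : levelSeries f L n (algebraMap K (modField K L) c) = HahnSeries.C (f c) := by
      show qExpand K' n (coeffMap f (algebraMap K (LaurentSeries K) c)) = _
      rw [algebraMap_laurentSeries_eq_single, coeffMap_single, qExpand_single, mul_zero]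
      rfl
    rw [this]
    exact C_mem_fracSeries O' _
  · obtain ⟨a, b, hb, hab, -⟩ := exists_levelFrac O' π' f hf hfπ L n hπ hL w
    exact ⟨a, b, fun h0 => hb (by rw [h0, map_zero]), hab⟩

/-- The Gauss branch of level `L` along `q ↦ q^n`. -/
def levelBranch : GaussBranch O' k (modField K L) where
  π := π'
  π_eq_zero := hπ'
  ψ := levelSeries f L n
  frac := levelSeries_mem_fracSeries O' π' f hf hfπ L n hπ hL

local notation "Ψ" => toFrac O' (levelBranch O' π' hπ' f hf hfπ L n hπ hL)
local notation "𝒪" => GaussBranch.V (gaussTop O' π' hπ')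

theorem levelBranch_res (e : (levelRed L hπ hL).W) :
    ∃ h : (e : modField K L) ∈ (levelBranch O' π' hπ' f hf hfπ L n hπ hL).V,
      (levelBranch O' π' hπ' f hf hfπ L n hπ hL).res ⟨_, h⟩ =
        qExpand k n (((levelRed L hπ hL).red e : modularFunctionFieldFullC k L) :
          LaurentSeries k) := by
  obtain ⟨a, b, hb, hab, hred⟩ := exists_levelFrac O' π' f hf hfπ L n hπ hL e
  refine ⟨(GaussBranch.mem_V_iff _).mpr ⟨a, b, hb, hab⟩, ?_⟩
  exact (GaussBranch.res_eq (levelBranch O' π' hπ' f hf hfπ L n hπ hL) _ (a := a) (b := b)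
    ⟨hb, hab⟩).trans hred

theorem toFrac_levelRed_mem (e : (levelRed L hπ hL).W) : Ψ (e : modField K L) ∈ 𝒪 :=
  (levelBranch_res O' π' hπ' f hf hfπ L n hπ hL e).1

theorem toFrac_levelRed_not_mem_nonunits (e : (levelRed L hπ hL).W)
    (he : (levelRed L hπ hL).red e ≠ 0) : Ψ (e : modField K L) ∉ (𝒪).nonunits := by
  intro hnu
  have hinv : ((e : modField K L))⁻¹ ∈ (levelRed L hπ hL).W :=
    (levelRed L hπ hL).inv_mem_of_red_ne_zero he
  rw [ValuationSubring.mem_nonunits_iff_exists_mem_maximalIdeal] at hnu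
  obtain ⟨hmem, hmax⟩ := hnu
  rw [IsLocalRing.mem_maximalIdeal, mem_nonunits_iff] at hmax
  refine hmax (isUnit_iff_exists_inv.mpr ⟨⟨_, toFrac_levelRed_mem O' π' hπ' f hf hfπ L n hπ hL
    ⟨_, hinv⟩⟩, Subtype.ext ?_⟩)
  show Ψ (e : modField K L) * Ψ ((e : modField K L))⁻¹ = 1
  rw [← map_mul, mul_inv_cancel₀ ((levelRed L hπ hL).ne_zero_of_red_ne_zero he), map_one]

variable (hAO : ∀ c : K, f c ∈ O' → c ∈ A)

include hAO in
theorem algebraMap_mem_of_toFrac_mem (hkA : ∀ a : A, π a = 0 ↔ ¬IsUnit a) (c : K)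
    (h : Ψ (algebraMap K (modField K L) c) ∈ 𝒪) : c ∈ A := by
  by_contra hcA
  have hci : c⁻¹ ∈ A := (A.mem_or_inv_mem c).resolve_left hcA
  have hc0 : c ≠ 0 := fun h0 => hcA (h0 ▸ A.zero_mem)
  obtain ⟨hm, hr⟩ := levelBranch_res O' π' hπ' f hf hfπ L n hπ hL
    ⟨_, (levelRed L hπ hL).algebraMap_mem ⟨c⁻¹, hci⟩⟩
  have h0 : π ⟨c⁻¹, hci⟩ = 0 := (hkA _).mpr fun hu => by
    obtain ⟨y, hy⟩ := hu.exists_right_inv
    exact hcA ((inv_mul_eq_one₀ hc0).mp (congrArg Subtype.val hy : c⁻¹ * (y : K) = 1) ▸ y.2)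
  have hcV : algebraMap K (modField K L) c ∈
      (levelBranch O' π' hπ' f hf hfπ L n hπ hL).V := h
  have h1 : (⟨_, hm⟩ : (levelBranch O' π' hπ' f hf hfπ L n hπ hL).V) * ⟨_, hcV⟩ = 1 :=
    Subtype.ext (by
      show algebraMap K (modField K L) c⁻¹ * algebraMap K (modField K L) c = 1
      rw [← map_mul, inv_mul_cancel₀ hc0, map_one])
  have h2 := congrArg (levelBranch O' π' hπ' f hf hfπ L n hπ hL).res h1
  rw [map_mul, map_one, hr] at h2
  rw [show (levelRed L hπ hL).red ⟨_, (levelRed L hπ hL).algebraMap_mem ⟨c⁻¹, hci⟩⟩ =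
    algebraMap k _ (π ⟨c⁻¹, hci⟩) from (levelRed L hπ hL).red_algebraMap' _, h0] at h2
  simp at h2

include hAO in
/-- Membership in the level `L` Gauss ring seen upstairs. -/
theorem mem_levelRed_iff (hkA : ∀ a : A, π a = 0 ↔ ¬IsUnit a) {e : modField K L} :
    e ∈ (levelRed L hπ hL).W ↔ Ψ e ∈ 𝒪 :=
  mem_constRed_iff_of_embedding _ _ _
    (algebraMap_mem_of_toFrac_mem O' π' hπ' f hf hfπ L n hπ hL hAO hkA)
    (toFrac_levelRed_mem O' π' hπ' f hf hfπ L n hπ hL)
    (toFrac_levelRed_not_mem_nonunits O' π' hπ' f hf hfπ L n hπ hL)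

include hAO in
/-- Nonunits of level `L` are divisible by the uniformiser. -/
theorem inv_mul_levelEmb_mem [IsDiscreteValuationRing A] (hkA : ∀ a : A, π a = 0 ↔ ¬IsUnit a)
    {ϖ : A} (hϖ : Irreducible ϖ) {e : modField K L} (he : Ψ e ∈ (𝒪).nonunits) :
    Ψ ((algebraMap A (modField K L) ϖ)⁻¹ * e) ∈ 𝒪 :=
  inv_mul_mem_of_nonunits _ _ _ hkA
    (algebraMap_mem_of_toFrac_mem O' π' hπ' f hf hfπ L n hπ hL hAO hkA)
    (toFrac_levelRed_mem O' π' hπ' f hf hfπ L n hπ hL)
    (toFrac_levelRed_not_mem_nonunits O' π' hπ' f hf hfπ L n hπ hL) hϖ he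

include hAO in
/-- **Criterion at level `L`, finite chart.** -/
theorem mem_chartRing_jElem (hkA : ∀ a : A, π a = 0 ↔ ¬IsUnit a) {e : modField K L}
    (hcoord : e ∈ coordRing K (MF.Coeff.jElem K L)) (he : Ψ e ∈ 𝒪) :
    e ∈ chartRing A (MF.Coeff.jElem K L) := by
  refine mem_chartRing_of_mem_intRing A ?_
  have h := good_x0 A π L hπ hL
  have hX : ((h.paramX : (levelRed L hπ hL).W) : modField K L) = MF.Coeff.jElem K L :=
    toE_jPair A π L
  have := (levelRed L hπ hL).mem_intRing h.param (f := e) (by rw [hX]; exact hcoord)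
    ((mem_levelRed_iff O' π' hπ' f hf hfπ L n hπ hL hAO hkA).mpr he)
  rwa [hX] at this

include hAO in
/-- **Criterion at level `L`, chart at infinity.** -/
theorem mem_chartRing_inv_jElem (hkA : ∀ a : A, π a = 0 ↔ ¬IsUnit a) {e : modField K L}
    (hcoord : e ∈ coordRing K (MF.Coeff.jElem K L)⁻¹) (he : Ψ e ∈ 𝒪) :
    e ∈ chartRing A (MF.Coeff.jElem K L)⁻¹ := by
  refine mem_chartRing_of_mem_intRing A ?_
  have h := good_x0 A π L hπ hL
  have hX : ((h.paramX : (levelRed L hπ hL).W) : modField K L) = MF.Coeff.jElem K L :=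
    toE_jPair A π L
  obtain ⟨B, -⟩ := (levelRed L hπ hL).exists_liftedBasis h.param
  have hred0 : (levelRed L hπ hL).red h.paramX ≠ 0 := by
    intro h0
    exact (transcendental_iff.mp h.param.transcendental) Polynomial.X (by rw [aeval_X, h0])
      |> fun h1 => Polynomial.X_ne_zero h1
  have hx0 : ((h.paramX : (levelRed L hπ hL).W) : modField K L) ≠ 0 :=
    (levelRed L hπ hL).ne_zero_of_red_ne_zero hred0
  have := (B.invCoord hx0 hred0).mem_intRing
    (((levelRed L hπ hL).reduces_coe h.paramX).inv hred0)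
    (fun hh => h.param.transcendental (by simpa using hh.inv))
    (fun hh => (levelRed L hπ hL).transcendental_of_red h.param.transcendental
      (by simpa using hh.inv))
    (f := e) (by rw [hX]; exact hcoord)
    ((mem_levelRed_iff O' π' hπ' f hf hfπ L n hπ hL hAO hkA).mpr he)
  rwa [hX] at this

end Gauss

end Fermat.Agent.Carayol
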