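/-
Lifting `m`-th roots of `1/f` from the branches of the special fibre to a global function.

`rootSet R m f = {a | a ^ m * f ∈ R}` plays the role of the line bundle `O(D)` when `div f = m • D`.
Owner of the proofs: helper2 (statements: helper85).
-/
import Mathlib.RingTheory.DiscreteValuationRing.Basic
import Mathlib.RingTheory.Valuation.ValuationSubring
import Mathlib.RingTheory.Adjoin.Basic
import Mathlib.RingTheory.IntegralClosure.IsIntegralClosure.Basic
import Mathlib.Dynamics.Newton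
import Mathlib.RingTheory.Noetherian.Basic
import Mathlib.RingTheory.Ideal.Maximal
import Mathlib.Tactic.LinearCombination
import Mathlib.Tactic.FieldSimp

set_option autoImplicit false

noncomputable section

namespace Fermat.Agent.Carayol

variable {W F : Type} [CommRing W] [IsDomain W] [IsDiscreteValuationRing W] [Field F]
  [Algebra W F]

/-- A family of branches: valuation rings of `F` with their residue maps. -/
structure Branches (F : Type) [Field F] (ι : Type) (C : ι → Type) [∀ i, Field (C i)] where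
  V : ι → ValuationSubring F
  res : ∀ i, V i →+* C i
  res_eq_zero : ∀ i (a : V i), res i a = 0 ↔ ¬ IsUnit a

variable {ι : Type} {C : ι → Type} [∀ i, Field (C i)] (Br : Branches F ι C)

/-- The hypotheses on one affine chart of the model. -/
structure IsChart (π : W) (R : Subalgebra W F) : Prop where
  closed : ∀ a : F, IsIntegral R a → a ∈ R
  noetherian : IsNoetherianRing R
  mem_V : ∀ a ∈ R, ∀ i, a ∈ Br.V i
  res_π : ∀ i (h : algebraMap W F π ∈ Br.V i), Br.res i ⟨algebraMap W F π, h⟩ = 0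
  radical : ∀ a ∈ R, (∀ i (h : a ∈ Br.V i), Br.res i ⟨a, h⟩ = 0) →
    ∃ N : ℕ, ∃ b ∈ R, a ^ N = algebraMap W F π * b

/-- `{a | a ^ m * f ∈ R}`. -/
def rootSet (R : Subalgebra W F) (m : ℕ) (f : F) : Set F := {a | a ^ m * f ∈ R}

variable (π : W) {R : Subalgebra W F} (m : ℕ) (f : F)

variable {π m f}

/-- An element whose power lies in a chart lies in the chart. -/
theorem mem_of_pow_mem_chart (hR : IsChart Br π R) {a : F} {k : ℕ} (hk : k ≠ 0)
    (h : a ^ k ∈ R) : a ∈ R :=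
  hR.closed a (IsIntegral.of_pow (Nat.pos_of_ne_zero hk)
    (isIntegral_algebraMap (x := (⟨a ^ k, h⟩ : R))))

/-- Mixed products of two sections. -/
theorem mixed_mem (hR : IsChart Br π R) {a b : F} (ha : a ∈ rootSet R m f)
    (hb : b ∈ rootSet R m f) {i : ℕ} (hi : i ≤ m) : a ^ i * b ^ (m - i) * f ∈ R := by
  rcases eq_or_ne m 0 with hm | hm
  · subst hm
    obtain rfl : i = 0 := by omega
    simpa [rootSet] using ha
  refine mem_of_pow_mem_chart Br hR hm ?_
  have h : (a ^ i * b ^ (m - i) * f) ^ m = (a ^ m * f) ^ i * (b ^ m * f) ^ (m - i) := by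
    obtain ⟨j, rfl⟩ := Nat.exists_eq_add_of_le hi
    rw [Nat.add_sub_cancel_left]
    simp only [mul_pow, ← pow_mul]
    rw [show i * (i + j) = (i + j) * i by ring, show j * (i + j) = (i + j) * j by ring,
      pow_add f i j]
    ring
  rw [h]
  exact mul_mem (pow_mem ha i) (pow_mem hb (m - i))

variable (π m f)

/-- `rootSet` is closed under addition. -/
theorem add_mem_rootSet (hR : IsChart Br π R) {a b : F} (ha : a ∈ rootSet R m f)
    (hb : b ∈ rootSet R m f) : a + b ∈ rootSet R m f := by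
  show (a + b) ^ m * f ∈ R
  rw [add_pow, Finset.sum_mul]
  refine sum_mem fun i hi => ?_
  rw [mul_right_comm]
  exact mul_mem (mixed_mem Br hR ha hb (Nat.lt_succ_iff.mp (Finset.mem_range.mp hi)))
    (R.natCast_mem _)

variable {π m f}

theorem smul_mem_rootSet {a r : F} (ha : a ∈ rootSet R m f) (hr : r ∈ R) :
    r * a ∈ rootSet R m f := by
  show (r * a) ^ m * f ∈ R
  rw [mul_pow, mul_assoc]
  exact mul_mem (pow_mem hr m) ha

theorem zero_mem_rootSet (hm : m ≠ 0) : (0 : F) ∈ rootSet R m f := by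
  show (0 : F) ^ m * f ∈ R
  rw [zero_pow hm, zero_mul]
  exact R.zero_mem

/-- The residue maps on a chart. -/
def chartRes (hR : IsChart Br π R) (i : ι) : R →+* C i where
  toFun r := Br.res i ⟨r, hR.mem_V r r.2 i⟩
  map_one' := map_one (Br.res i)
  map_mul' a b := map_mul (Br.res i) ⟨a, hR.mem_V a a.2 i⟩ ⟨b, hR.mem_V b b.2 i⟩
  map_zero' := map_zero (Br.res i)
  map_add' a b := map_add (Br.res i) ⟨a, hR.mem_V a a.2 i⟩ ⟨b, hR.mem_V b b.2 i⟩

theorem ne_zero_of_isUnit_natCast (hm : IsUnit (m : W)) : m ≠ 0 := by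
  rintro rfl
  exact not_isUnit_zero (Nat.cast_zero (R := W) ▸ hm)

/-- Sections are integral on the branches. -/
theorem rootSet_mem_V (hR : IsChart Br π R) (hm : m ≠ 0) {s : ∀ i, C i}
    (hf : ∀ i, ∃ h : f ∈ Br.V i, Br.res i ⟨f, h⟩ * s i ^ m = 1) {a : F}
    (ha : a ∈ rootSet R m f) (i : ι) : a ∈ Br.V i := by
  obtain ⟨hfi, hs⟩ := hf i
  have hu : IsUnit (⟨f, hfi⟩ : Br.V i) := by
    by_contra hu
    rw [(Br.res_eq_zero i _).mpr hu, zero_mul] at hs
    exact zero_ne_one hs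
  obtain ⟨u, hu⟩ := hu
  have h1 : a ^ m ∈ Br.V i := by
    have hf1 : f * (((u⁻¹ : (Br.V i)ˣ) : Br.V i) : F) = 1 := by
      have h := congrArg Subtype.val u.mul_inv
      rw [hu] at h
      exact h
    have h2 := mul_mem (hR.mem_V _ ha i) ((u⁻¹ : (Br.V i)ˣ) : Br.V i).2
    rwa [mul_assoc, hf1, mul_one] at h2
  rcases (Br.V i).mem_or_inv_mem a with h | h
  · exact h
  · obtain ⟨k, rfl⟩ := Nat.exists_eq_succ_of_ne_zero hm
    by_cases ha0 : a = 0
    · rw [ha0]; exact zero_mem _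
    have h2 := mul_mem h1 (pow_mem h k)
    rwa [inv_pow, pow_succ', mul_assoc, mul_inv_cancel₀ (pow_ne_zero _ ha0), mul_one] at h2

variable (π m f)

/-- The local condition at a maximal ideal: the prescribed tuple of roots `s` is, up to a
factor not vanishing at `y`, the residue of a section of `rootSet`. -/
def LocalRootAt (R : Subalgebra W F) (m : ℕ) (f : F) (s : ∀ i, C i) (y : Ideal R) : Prop :=
  ∃ a ∈ rootSet R m f, ∃ r : R, r ∉ y ∧
    ∀ i (ha : a ∈ Br.V i) (hr : (r : F) ∈ Br.V i),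
      Br.res i ⟨a, ha⟩ = Br.res i ⟨(r : F), hr⟩ * s i

variable (s : ∀ i, C i)

/-- Existence of approximate global roots on one chart. -/
theorem exists_root_mod (hR : IsChart Br π R) (hm : IsUnit (m : W))
    (hf : ∀ i, ∃ h : f ∈ Br.V i, Br.res i ⟨f, h⟩ * s i ^ m = 1)
    (hloc : ∀ y : Ideal R, y.IsMaximal →
      (⟨algebraMap W F π, R.algebraMap_mem π⟩ : R) ∈ y → LocalRootAt Br R m f s y)
    (n : ℕ) :
    ∃ a ∈ rootSet R m f, (∃ b ∈ R, a ^ m * f - 1 = algebraMap W F π ^ n * b) ∧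
      ∀ i (ha : a ∈ Br.V i), Br.res i ⟨a, ha⟩ = s i := by
  classical
  have hm0 := ne_zero_of_isUnit_natCast hm
  have hV := fun {a : F} (ha : a ∈ rootSet R m f) => rootSet_mem_V Br hR hm0 hf ha
  -- a section with the prescribed residues
  let I : Ideal R :=
    { carrier := {r | ∃ (a : F) (ha : a ∈ rootSet R m f), ∀ i,
        Br.res i ⟨a, hV ha i⟩ = chartRes Br hR i r * s i}
      zero_mem' := ⟨0, zero_mem_rootSet hm0, fun i => by
        rw [map_zero, zero_mul]; exact map_zero (Br.res i)⟩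
      add_mem' := by
        rintro r r' ⟨a, ha, h⟩ ⟨a', ha', h'⟩
        refine ⟨a + a', add_mem_rootSet Br π m f hR ha ha', fun i => ?_⟩
        rw [map_add, add_mul, ← h i, ← h' i, ← map_add]
        rfl
      smul_mem' := by
        rintro c r ⟨a, ha, h⟩
        refine ⟨c * a, smul_mem_rootSet ha c.2, fun i => ?_⟩
        rw [smul_eq_mul, map_mul, mul_assoc, ← h i]
        exact map_mul (Br.res i) ⟨c, hR.mem_V c c.2 i⟩ ⟨a, hV ha i⟩ }
  let πR : R := ⟨algebraMap W F π, R.algebraMap_mem π⟩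
  have hπI : πR ∈ I := by
    refine ⟨0, zero_mem_rootSet hm0, fun i => ?_⟩
    rw [show chartRes Br hR i πR = 0 from hR.res_π i _, zero_mul]
    exact map_zero (Br.res i)
  have hI : I = ⊤ := by
    by_contra hI
    obtain ⟨y, hy, hIy⟩ := Ideal.exists_le_maximal I hI
    obtain ⟨a, ha, r, hr, h⟩ := hloc y hy (hIy hπI)
    exact hr (hIy ⟨a, ha, fun i => h i (hV ha i) (hR.mem_V r r.2 i)⟩)
  obtain ⟨a₀, ha₀, hres₀⟩ : (1 : R) ∈ I := hI ▸ Submodule.mem_top
  simp only [map_one, one_mul] at hres₀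
  -- its error is nilpotent modulo powers of `π`
  let e : R := ⟨a₀ ^ m * f, ha₀⟩ - 1
  obtain ⟨N, b, hb, hN⟩ := hR.radical e e.2 (fun i h => by
    obtain ⟨hfi, hs⟩ := hf i
    change chartRes Br hR i e = 0
    rw [map_sub, map_one]
    have h1 : chartRes Br hR i ⟨a₀ ^ m * f, ha₀⟩ =
        Br.res i (⟨a₀, hV ha₀ i⟩ ^ m * ⟨f, hfi⟩) := rfl
    rw [h1, map_mul, map_pow, hres₀ i, mul_comm, hs, sub_self])
  let J : Ideal R := Ideal.span {πR ^ (n + 1)}
  have hnil : IsNilpotent (Ideal.Quotient.mk J e) := by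
    refine ⟨N * (n + 1), ?_⟩
    rw [← map_pow, Ideal.Quotient.eq_zero_iff_mem, Ideal.mem_span_singleton']
    exact ⟨(⟨b, hb⟩ : R) ^ (n + 1), by
      rw [pow_mul, ← mul_pow, mul_comm]
      exact congrArg (· ^ (n + 1)) (Subtype.ext hN.symm)⟩
  let P : Polynomial (R ⧸ J) :=
    Polynomial.C (1 + Ideal.Quotient.mk J e) * Polynomial.X ^ m - 1
  have hP : IsNilpotent (Polynomial.aeval (1 : R ⧸ J) P) := by
    simp only [P, Polynomial.coe_aeval_eq_eval, Polynomial.eval_sub, Polynomial.eval_mul,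
      Polynomial.eval_C, Polynomial.eval_pow, Polynomial.eval_X, Polynomial.eval_one, one_pow,
      mul_one, add_sub_cancel_left]
    exact hnil
  have hP' : IsUnit (Polynomial.aeval (1 : R ⧸ J) (Polynomial.derivative P)) := by
    simp only [P, Polynomial.derivative_sub, Polynomial.derivative_one, sub_zero,
      Polynomial.derivative_C_mul, Polynomial.derivative_X_pow, Polynomial.coe_aeval_eq_eval,
      Polynomial.eval_mul, Polynomial.eval_C, Polynomial.eval_pow, Polynomial.eval_X, one_pow,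
      mul_one]
    refine (IsNilpotent.isUnit_one_add hnil).mul ?_
    have h := hm.map (algebraMap W (R ⧸ J))
    rwa [map_natCast] at h
  obtain ⟨rb, ⟨⟨k, hk⟩, hroot⟩, -⟩ :=
    Polynomial.existsUnique_nilpotent_sub_and_aeval_eq_zero hP hP'
  obtain ⟨r, rfl⟩ := Ideal.Quotient.mk_surjective rb
  simp only [P, Polynomial.coe_aeval_eq_eval, Polynomial.eval_sub, Polynomial.eval_mul,
    Polynomial.eval_C, Polynomial.eval_pow, Polynomial.eval_X, Polynomial.eval_one] at hroot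
  rw [← map_one (Ideal.Quotient.mk J), ← map_add, ← map_pow, ← map_mul, ← map_sub,
    Ideal.Quotient.eq_zero_iff_mem, Ideal.mem_span_singleton'] at hroot
  rw [← map_one (Ideal.Quotient.mk J), ← map_sub, ← map_pow, Ideal.Quotient.eq_zero_iff_mem,
    Ideal.mem_span_singleton'] at hk
  obtain ⟨c, hc⟩ := hroot
  obtain ⟨c', hc'⟩ := hk
  refine ⟨r * a₀, smul_mem_rootSet ha₀ r.2, ⟨c * πR, (c * πR).2, ?_⟩, fun i hi => ?_⟩
  · have h2 := congrArg Subtype.val hc
    simp only [e, πR, MulMemClass.coe_mul, SubmonoidClass.coe_pow, AddSubgroupClass.coe_sub,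
      OneMemClass.coe_one, AddMemClass.coe_add] at h2 ⊢
    linear_combination -h2
  · have h3 : chartRes Br hR i (1 - r) = 0 := by
      have h4 := congrArg (chartRes Br hR i) hc'
      rw [map_mul, map_pow, show chartRes Br hR i πR = 0 from hR.res_π i _,
        zero_pow (Nat.succ_ne_zero n), mul_zero, map_pow] at h4
      exact eq_zero_of_pow_eq_zero h4.symm
    rw [map_sub, map_one, sub_eq_zero] at h3
    have h5 : Br.res i ⟨r * a₀, hi⟩ = Br.res i (⟨r, hR.mem_V r r.2 i⟩ * ⟨a₀, hV ha₀ i⟩) := rfl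
    rw [h5, map_mul, hres₀ i, show Br.res i ⟨r, hR.mem_V r r.2 i⟩ = 1 from h3.symm, one_mul]

/-- **Global root.** Two charts `R₀ ∋ x`, `R₁ ∋ x⁻¹`, the first one finite over `W[x]`. -/
theorem exists_global_root (x : F) (hx : x ≠ 0)
    {R₀ R₁ : Subalgebra W F} (h₀ : IsChart Br π R₀) (h₁ : IsChart Br π R₁)
    (hx₀ : x ∈ R₀) (hx₁ : x⁻¹ ∈ R₁)
    (hfin₀ : ∃ s₀ : Finset F, (s₀ : Set F) ⊆ R₀ ∧
      ∀ a ∈ R₀, a ∈ Submodule.span (Algebra.adjoin W {x}) (s₀ : Set F))
    (hfrac : ∀ a : F, ∃ b c : F, b ∈ R₀ ∧ c ∈ R₀ ∧ c ≠ 0 ∧ a = b / c)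
    (hglue₀ : ∀ a ∈ R₀, ∃ N : ℕ, a * x⁻¹ ^ N ∈ R₁)
    (hglue₁ : ∀ a ∈ R₁, ∃ N : ℕ, a * x ^ N ∈ R₀)
    (hm : IsUnit (m : W)) (hm0 : 0 < m)
    (hf : ∀ i, ∃ h : f ∈ Br.V i, Br.res i ⟨f, h⟩ * s i ^ m = 1)
    (hloc₀ : ∀ y : Ideal R₀, y.IsMaximal →
      (⟨algebraMap W F π, R₀.algebraMap_mem π⟩ : R₀) ∈ y → LocalRootAt Br R₀ m f s y)
    (hloc₁ : ∀ y : Ideal R₁, y.IsMaximal →
      (⟨algebraMap W F π, R₁.algebraMap_mem π⟩ : R₁) ∈ y → LocalRootAt Br R₁ m f s y) :
    ∃ h : F, h ^ m * f ∈ R₀ ∧ h ^ m * f ∈ R₁ ∧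
      ∀ i (hh : h ∈ Br.V i), Br.res i ⟨h, hh⟩ = s i := by
  classical
  have hm' : m ≠ 0 := hm0.ne'
  rcases isEmpty_or_nonempty ι with hι | ⟨⟨i₀⟩⟩
  · exact ⟨0, zero_mem_rootSet hm', zero_mem_rootSet hm', fun i => isEmptyElim i⟩
  have hf0 : f ≠ 0 := by
    rintro rfl
    obtain ⟨h, hh⟩ := hf i₀
    rw [show (⟨0, h⟩ : Br.V i₀) = 0 from rfl, map_zero, zero_mul] at hh
    exact zero_ne_one hh
  -- the sections as `W`-submodules
  have hW : ∀ {R : Subalgebra W F} (c : W) {a : F}, a ∈ rootSet R m f →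
      c • a ∈ rootSet R m f := fun {R} c {a} ha => by
    rw [Algebra.smul_def]; exact smul_mem_rootSet ha (R.algebraMap_mem c)
  let L₀ : Submodule W F :=
    { carrier := rootSet R₀ m f
      add_mem' := fun ha hb => add_mem_rootSet Br π m f h₀ ha hb
      zero_mem' := zero_mem_rootSet hm'
      smul_mem' := fun c a ha => hW c ha }
  let L₁ : Submodule W F :=
    { carrier := rootSet R₁ m f
      add_mem' := fun ha hb => add_mem_rootSet Br π m f h₁ ha hb
      zero_mem' := zero_mem_rootSet hm'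
      smul_mem' := fun c a ha => hW c ha }
  -- finitely many `e` with `L₀` in the span of the `x ^ i * e`
  obtain ⟨num, den, hnum, hden, hden0, hfeq⟩ := hfrac f
  have hnum0 : num ≠ 0 := fun h => hf0 (by rw [hfeq, h, zero_div])
  have hL₀R : ∀ a ∈ L₀, a * num ∈ R₀ := fun a ha => by
    refine mem_of_pow_mem_chart Br h₀ hm' ?_
    have h : (a * num) ^ m = a ^ m * f * (den * num ^ (m - 1)) := by
      rw [hfeq, mul_pow]
      obtain ⟨k, rfl⟩ := Nat.exists_eq_succ_of_ne_zero hm'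
      simp only [Nat.succ_eq_add_one, add_tsub_cancel_right]
      field_simp
      ring
    rw [h]
    exact mul_mem ha (mul_mem hden (pow_mem hnum _))
  let I₀ : Ideal R₀ :=
    { carrier := {r | (r : F) / num ∈ L₀}
      zero_mem' := by simp
      add_mem' := fun {r r'} h h' => by
        simp only [Set.mem_ofPred_eq, AddMemClass.coe_add, add_div]; exact add_mem h h'
      smul_mem' := fun c r h => by
        simp only [Set.mem_ofPred_eq, smul_eq_mul, MulMemClass.coe_mul, mul_div_assoc]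
        exact smul_mem_rootSet h c.2 }
  obtain ⟨gs, hgs⟩ := (h₀.noetherian.noetherian I₀ : I₀.FG)
  obtain ⟨s₀, hs₀, hs₀span⟩ := hfin₀
  let E : Finset F := (s₀ ×ˢ gs).image fun p => p.1 * ((p.2 : F) / num)
  have hEL : ∀ e ∈ E, e ∈ L₀ := fun e he => by
    obtain ⟨⟨t, g⟩, hp, rfl⟩ := Finset.mem_image.mp he
    obtain ⟨ht, hg⟩ := Finset.mem_product.mp hp
    exact smul_mem_rootSet (show g ∈ I₀ from hgs ▸ Ideal.subset_span hg) (hs₀ ht)
  let G₀ : Submodule W F :=
    Submodule.span W {a | ∃ i : ℕ, ∃ e ∈ E, a = x ^ i * e}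
  have hxG : ∀ a ∈ G₀, x * a ∈ G₀ := fun a ha => by
    induction ha using Submodule.span_induction with
    | mem a h =>
      obtain ⟨i, e, he, rfl⟩ := h
      exact Submodule.subset_span ⟨i + 1, e, he, by ring⟩
    | zero => simp
    | add a b _ _ ha hb => rw [mul_add]; exact add_mem ha hb
    | smul c a _ ha => rw [mul_smul_comm]; exact G₀.smul_mem c ha
  have hadjG : ∀ p ∈ Algebra.adjoin W {x}, ∀ a ∈ G₀, p * a ∈ G₀ := fun p hp => by
    induction hp using Algebra.adjoin_induction with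
    | mem p h => rw [Set.mem_singleton_iff.mp h]; exact hxG
    | algebraMap c => intro a ha; rw [← Algebra.smul_def]; exact G₀.smul_mem c ha
    | add p q _ _ hp hq => intro a ha; rw [add_mul]; exact add_mem (hp a ha) (hq a ha)
    | mul p q _ _ hp hq => intro a ha; rw [mul_assoc]; exact hp _ (hq a ha)
  have hL₀G : ∀ a ∈ L₀, a ∈ G₀ := fun a ha => by
    have hmem : (⟨a * num, hL₀R a ha⟩ : R₀) ∈ Ideal.span (gs : Set R₀) :=
      by
        rw [Ideal.span, hgs]
        show a * num / num ∈ L₀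
        rwa [mul_div_cancel_right₀ a hnum0]
    suffices H : ∀ r ∈ Ideal.span (gs : Set R₀), (r : F) / num ∈ G₀ by
      simpa [hnum0] using H _ hmem
    intro r hr
    suffices H : ∀ c : F, c ∈ R₀ → c * ((r : F) / num) ∈ G₀ by
      simpa using H 1 R₀.one_mem
    induction hr using Submodule.span_induction with
    | mem g hg =>
      intro c hc
      have hc' := hs₀span c hc
      clear hc
      induction hc' using Submodule.span_induction with
      | mem t ht =>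
        exact Submodule.subset_span ⟨0, _, Finset.mem_image.mpr
          ⟨(t, g), Finset.mem_product.mpr ⟨ht, hg⟩, rfl⟩, by ring⟩
      | zero => simp
      | add a b _ _ ha hb => rw [add_mul]; exact add_mem ha hb
      | smul p a _ ha =>
        rw [Subalgebra.smul_def, smul_eq_mul, mul_assoc]
        exact hadjG p p.2 _ ha
    | zero => intro c _; simp
    | add r r' _ _ h h' =>
      intro c hc
      rw [AddMemClass.coe_add, add_div, mul_add]; exact add_mem (h c hc) (h' c hc)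
    | smul t r _ h =>
      intro c hc
      rw [smul_eq_mul, MulMemClass.coe_mul, mul_div_assoc, ← mul_assoc]
      exact h _ (mul_mem hc t.2)
  -- gluing of sections
  have hglue : ∀ a ∈ L₀, ∃ K : ℕ, ∀ k ≥ K, x⁻¹ ^ k * a ∈ L₁ := fun a ha => by
    obtain ⟨K, hK⟩ := hglue₀ _ ha
    refine ⟨K, fun k hk => ?_⟩
    obtain ⟨d, rfl⟩ := Nat.exists_eq_add_of_le hk
    show (x⁻¹ ^ (K + d) * a) ^ m * f ∈ R₁
    obtain ⟨m', rfl⟩ := Nat.exists_eq_succ_of_ne_zero hm'
    have h : (x⁻¹ ^ (K + d) * a) ^ (m' + 1) * f =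
        x⁻¹ ^ (d + (K + d) * m') * (a ^ (m' + 1) * f * x⁻¹ ^ K) := by ring
    rw [h]
    exact mul_mem (pow_mem hx₁ _) hK
  choose! K hK using hglue
  let k₀ := E.sup K
  let G : Submodule W F := Submodule.span W
    ((Finset.range k₀ ×ˢ E).image fun p => x⁻¹ ^ p.1 * p.2 : Finset F)
  have hdecomp : ∀ l : F, (∃ k : ℕ, x ^ k * l ∈ L₀) → l ∈ (L₀ ⊔ L₁) ⊔ G := fun l ⟨k, hk⟩ => by
    have hmem := hL₀G _ hk
    suffices H : ∀ a ∈ G₀, x⁻¹ ^ k * a ∈ (L₀ ⊔ L₁) ⊔ G by
      have := H _ hmem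
      rwa [← mul_assoc, ← mul_pow, inv_mul_cancel₀ hx, one_pow, one_mul] at this
    intro a ha
    induction ha using Submodule.span_induction with
    | mem a h =>
      obtain ⟨i, e, he, rfl⟩ := h
      rcases le_total k i with hki | hki
      · obtain ⟨d, rfl⟩ := Nat.exists_eq_add_of_le hki
        refine Submodule.mem_sup_left (Submodule.mem_sup_left ?_)
        rw [show x⁻¹ ^ k * (x ^ (k + d) * e) = (x⁻¹ * x) ^ k * (x ^ d * e) by ring,
          inv_mul_cancel₀ hx, one_pow, one_mul]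
        exact smul_mem_rootSet (hEL e he) (pow_mem hx₀ d)
      · obtain ⟨d, rfl⟩ := Nat.exists_eq_add_of_le hki
        rw [show x⁻¹ ^ (i + d) * (x ^ i * e) = (x⁻¹ * x) ^ i * (x⁻¹ ^ d * e) by ring,
          inv_mul_cancel₀ hx, one_pow, one_mul]
        by_cases hd : d < k₀
        · exact Submodule.mem_sup_right (Submodule.subset_span (Finset.mem_image.mpr
            ⟨(d, e), Finset.mem_product.mpr ⟨Finset.mem_range.mpr hd, he⟩, rfl⟩))
        · exact Submodule.mem_sup_left (Submodule.mem_sup_right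
            (hK e (hEL e he) d ((Finset.le_sup he).trans (not_lt.mp hd))))
    | zero => simp
    | add a b _ _ ha hb => rw [mul_add]; exact add_mem ha hb
    | smul c a _ ha => rw [mul_smul_comm]; exact Submodule.smul_mem _ c ha
  -- bounded torsion
  have hG : IsNoetherian W G :=
    isNoetherian_of_fg_of_noetherian G (Submodule.fg_span (Finset.finite_toSet _))
  let T : ℕ →o Submodule W G :=
    { toFun := fun k => (L₀ ⊔ L₁).comap ((π ^ k) • G.subtype)
      monotone' := fun a b hab v hv => by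
        obtain ⟨d, rfl⟩ := Nat.exists_eq_add_of_le hab
        simp only [Submodule.mem_comap, LinearMap.smul_apply] at hv ⊢
        rw [add_comm, pow_add, mul_smul]
        exact Submodule.smul_mem _ _ hv }
  obtain ⟨c, hc⟩ := monotone_stabilizes_iff_noetherian.mpr hG T
  -- roots modulo `π ^ (c + 1)` on both charts
  obtain ⟨a₀, ha₀, ⟨b₀, hb₀, he₀⟩, hr₀⟩ := exists_root_mod Br π m f s h₀ hm hf hloc₀ (c + 1)
  obtain ⟨a₁, ha₁, ⟨b₁, hb₁, he₁⟩, hr₁⟩ := exists_root_mod Br π m f s h₁ hm hf hloc₁ (c + 1)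
  let U : Subalgebra W F :=
    { carrier := {a | ∃ k : ℕ, x ^ k * a ∈ R₀}
      one_mem' := ⟨0, by simp⟩
      mul_mem' := fun {a b} ⟨k, ha⟩ ⟨l, hb⟩ => ⟨k + l, by
        rw [show x ^ (k + l) * (a * b) = (x ^ k * a) * (x ^ l * b) by ring]
        exact mul_mem ha hb⟩
      zero_mem' := ⟨0, by simp⟩
      add_mem' := fun {a b} ⟨k, ha⟩ ⟨l, hb⟩ => ⟨k + l, by
        rw [show x ^ (k + l) * (a + b) = x ^ l * (x ^ k * a) + x ^ k * (x ^ l * b) by ring]
        exact add_mem (mul_mem (pow_mem hx₀ _) ha) (mul_mem (pow_mem hx₀ _) hb)⟩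
      algebraMap_mem' := fun r => ⟨0, by simp⟩ }
  have hU₀ : ∀ a ∈ R₀, a ∈ U := fun a ha => ⟨0, by simpa using ha⟩
  have hU₁ : ∀ a ∈ R₁, a ∈ U := fun a ha => by
    obtain ⟨k, hk⟩ := hglue₁ a ha; exact ⟨k, by rwa [mul_comm]⟩
  obtain ⟨k₁, hk₁⟩ := hglue₁ _ ha₁
  have ha₀' : x ^ k₁ * a₀ ∈ rootSet R₀ m f := smul_mem_rootSet ha₀ (pow_mem hx₀ _)
  have ha₁' : x ^ k₁ * a₁ ∈ rootSet R₀ m f := by
    obtain ⟨m', rfl⟩ := Nat.exists_eq_succ_of_ne_zero hm'
    show (x ^ k₁ * a₁) ^ (m' + 1) * f ∈ R₀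
    rw [show (x ^ k₁ * a₁) ^ (m' + 1) * f = (a₁ ^ (m' + 1) * f * x ^ k₁) * x ^ (k₁ * m') by ring]
    exact mul_mem hk₁ (pow_mem hx₀ _)
  set S : F := ∑ i ∈ Finset.range m, a₀ ^ i * a₁ ^ (m - 1 - i) with hS
  set z : F := S * f * a₀
  have hzR : x ^ (k₁ * m) * z ∈ R₀ := by
    simp only [z, hS, Finset.sum_mul, Finset.mul_sum]
    refine sum_mem fun i hi => ?_
    have hi' := Finset.mem_range.mp hi
    have h := mixed_mem Br h₀ ha₀' ha₁' (i := i + 1) (by omega)
    rw [show m - (i + 1) = m - 1 - i by omega] at h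
    obtain ⟨j, hj⟩ : ∃ j, m = i + 1 + j := ⟨m - 1 - i, by omega⟩
    rw [show m - 1 - i = j by omega] at h ⊢
    rw [hj]
    convert h using 1
    ring
  have hmW : (m : F) = algebraMap W F (m : W) := (map_natCast _ m).symm
  -- `z` is `m` up to an element nilpotent modulo `π`
  have hz : ∀ i (h : x ^ (k₁ * m) * (z - m) ∈ Br.V i),
      Br.res i ⟨x ^ (k₁ * m) * (z - m), h⟩ = 0 := by
    intro i h
    obtain ⟨hfi, hs⟩ := hf i
    have hA := rootSet_mem_V Br h₀ hm' hf ha₀ i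
    have hB := rootSet_mem_V Br h₁ hm' hf ha₁ i
    have e : (⟨x ^ (k₁ * m) * (z - m), h⟩ : Br.V i) = ⟨x, h₀.mem_V x hx₀ i⟩ ^ (k₁ * m) *
        ((∑ j ∈ Finset.range m, ⟨a₀, hA⟩ ^ j * ⟨a₁, hB⟩ ^ (m - 1 - j)) * ⟨f, hfi⟩ * ⟨a₀, hA⟩ -
          (m : Br.V i)) := by
      apply Subtype.ext
      simp [z, hS]
    rw [e]
    simp only [map_mul, map_sub, map_sum, map_pow, map_natCast, hr₀ i hA, hr₁ i hB]
    have h2 : (∑ j ∈ Finset.range m, s i ^ j * s i ^ (m - 1 - j)) * Br.res i ⟨f, hfi⟩ * s i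
        = (m : C i) := by
      rw [Finset.sum_mul, Finset.sum_mul, Finset.sum_congr rfl fun j hj => by
        rw [show s i ^ j * s i ^ (m - 1 - j) * Br.res i ⟨f, hfi⟩ * s i =
            Br.res i ⟨f, hfi⟩ * s i ^ (j + (m - 1 - j) + 1) by ring,
          show j + (m - 1 - j) + 1 = m by have := Finset.mem_range.mp hj; omega, hs]]
      simp
    rw [h2, sub_self, mul_zero]
  obtain ⟨N, bN, hbN, hN⟩ := h₀.radical (x ^ (k₁ * m) * (z - m))
    (by rw [mul_sub]; exact sub_mem hzR (mul_mem (pow_mem hx₀ _) (R₀.natCast_mem m))) hz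
  -- so `z` is a unit modulo `π ^ (c + 1)`
  let πU : U := ⟨algebraMap W F π, U.algebraMap_mem π⟩
  let zU : U := ⟨z, ⟨k₁ * m, hzR⟩⟩
  let Q : Ideal U := Ideal.span {πU ^ (c + 1)}
  have hunit : IsUnit (Ideal.Quotient.mk Q zU) := by
    have hmU : IsUnit (Ideal.Quotient.mk Q (m : U)) := by
      have h := hm.map ((Ideal.Quotient.mk Q).comp (algebraMap W U))
      rwa [map_natCast, ← map_natCast (Ideal.Quotient.mk Q)] at h
    have hn : IsNilpotent (Ideal.Quotient.mk Q (zU - m)) := by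
      refine ⟨N * (c + 1), ?_⟩
      rw [← map_pow, Ideal.Quotient.eq_zero_iff_mem, Ideal.mem_span_singleton']
      let v : U := ⟨(x ^ (k₁ * m * N))⁻¹ * bN, ⟨k₁ * m * N, by
        rwa [← mul_assoc, mul_inv_cancel₀ (pow_ne_zero _ hx), one_mul]⟩⟩
      refine ⟨v ^ (c + 1), ?_⟩
      rw [pow_mul, ← mul_pow, mul_comm]
      congr 1
      apply Subtype.ext
      show algebraMap W F π * ((x ^ (k₁ * m * N))⁻¹ * bN) = (z - m) ^ N
      apply mul_left_cancel₀ (pow_ne_zero (k₁ * m * N) hx)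
      rw [mul_left_comm (x ^ _) (algebraMap W F π), ← mul_assoc (x ^ _),
        mul_inv_cancel₀ (pow_ne_zero _ hx), one_mul, ← hN, mul_pow, ← pow_mul]
    rw [show zU = (m : U) + (zU - m) by ring, map_add]
    exact hn.isUnit_add_left_of_commute hmU (Commute.all _ _)
  obtain ⟨wq, hwq⟩ := hunit.exists_left_inv
  obtain ⟨w, rfl⟩ := Ideal.Quotient.mk_surjective wq
  rw [← map_mul, ← map_one (Ideal.Quotient.mk Q), Ideal.Quotient.eq,
    Ideal.mem_span_singleton'] at hwq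
  obtain ⟨v, hv⟩ := hwq
  have hvF : (v : F) * algebraMap W F π ^ (c + 1) = w * z - 1 := congrArg Subtype.val hv
  -- hence the two roots differ by a multiple of `π ^ (c + 1)` on the overlap
  set l : F := (w : F) * (a₀ * (b₀ - b₁)) - v * (a₀ - a₁)
  have hl : a₀ - a₁ = π ^ (c + 1) • l := by
    have h1 : (a₀ - a₁) * z = a₀ * (algebraMap W F π ^ (c + 1) * (b₀ - b₁)) := by
      have hg : S * (a₀ - a₁) = a₀ ^ m - a₁ ^ m := geom_sum₂_mul a₀ a₁ m
      linear_combination (f * a₀) * hg + a₀ * he₀ - a₀ * he₁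
    rw [Algebra.smul_def, map_pow]
    linear_combination (a₀ - a₁) * hvF + (w : F) * h1
  have hlM : ∃ k : ℕ, x ^ k * l ∈ L₀ := by
    let M : Submodule W F :=
      { carrier := {a | ∃ k : ℕ, x ^ k * a ∈ L₀}
        zero_mem' := ⟨0, by simp⟩
        add_mem' := fun {a b} ⟨k, ha⟩ ⟨l, hb⟩ => ⟨k + l, by
          rw [show x ^ (k + l) * (a + b) = x ^ l * (x ^ k * a) + x ^ k * (x ^ l * b) by ring]
          exact add_mem (smul_mem_rootSet ha (pow_mem hx₀ _))
            (smul_mem_rootSet hb (pow_mem hx₀ _))⟩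
        smul_mem' := fun r a ⟨k, ha⟩ => ⟨k, by rw [mul_smul_comm]; exact L₀.smul_mem r ha⟩ }
    have hM : ∀ a ∈ M, ∀ u ∈ U, u * a ∈ M := fun a ⟨k, ha⟩ u ⟨k', hu⟩ => ⟨k' + k, by
      rw [show x ^ (k' + k) * (u * a) = (x ^ k' * u) * (x ^ k * a) by ring]
      exact smul_mem_rootSet ha hu⟩
    have hA : a₀ ∈ M := ⟨0, by simpa using (show a₀ ∈ L₀ from ha₀)⟩
    have hB : a₁ ∈ M := ⟨k₁, ha₁'⟩
    show l ∈ M
    refine sub_mem (hM _ ?_ _ w.2) (hM _ (sub_mem hA hB) _ v.2)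
    rw [mul_comm]
    exact hM _ hA _ (sub_mem (hU₀ _ hb₀) (hU₁ _ hb₁))
  obtain ⟨l', hl', g, hg, hlg⟩ := Submodule.mem_sup.mp (hdecomp l hlM)
  rw [← hlg] at hl
  have hstab : π ^ c • g ∈ L₀ ⊔ L₁ := by
    have h1 : π ^ (c + 1) • g ∈ L₀ ⊔ L₁ := by
      have h2 : π ^ (c + 1) • (l' + g) ∈ L₀ ⊔ L₁ := by
        rw [← hl]
        exact sub_mem (Submodule.mem_sup_left ha₀) (Submodule.mem_sup_right ha₁)
      rw [smul_add] at h2
      simpa using sub_mem h2 (Submodule.smul_mem _ (π ^ (c + 1)) hl')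
    have h3 : (⟨g, hg⟩ : G) ∈ T (c + 1) := h1
    rw [← hc (c + 1) (Nat.le_succ c)] at h3
    exact h3
  obtain ⟨q₀, hq₀, q₁, hq₁, hq⟩ := Submodule.mem_sup.mp
    (add_mem (Submodule.smul_mem (L₀ ⊔ L₁) (π ^ c) hl') hstab)
  have hh : a₀ - π • q₀ = a₁ + π • q₁ := by
    rw [pow_succ', mul_smul, smul_add (π ^ c), ← hq, smul_add] at hl
    linear_combination hl
  refine ⟨a₀ - π • q₀, L₀.sub_mem ha₀ (L₀.smul_mem π hq₀), ?_, fun i hi => ?_⟩
  · rw [hh]; exact L₁.add_mem ha₁ (L₁.smul_mem π hq₁)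
  · have hA := rootSet_mem_V Br h₀ hm' hf ha₀ i
    have hB := rootSet_mem_V Br h₀ hm' hf (show q₀ ∈ rootSet R₀ m f from hq₀) i
    have hp : algebraMap W F π ∈ Br.V i := h₀.mem_V _ (R₀.algebraMap_mem π) i
    have e : (⟨a₀ - π • q₀, hi⟩ : Br.V i) = ⟨a₀, hA⟩ - ⟨_, hp⟩ * ⟨q₀, hB⟩ :=
      Subtype.ext (by simp [Algebra.smul_def])
    rw [e, map_sub, map_mul, h₀.res_π i hp, zero_mul, sub_zero, hr₀ i hA]

end Fermat.Agent.Carayol
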