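import Mathlib

/-! Root ideals in factorial domains are principal. -/

set_option autoImplicit false

namespace Fermat.Agent.Carayol

section RootIdeal

variable {R : Type*} [CommRing R] [IsDomain R] [UniqueFactorizationMonoid R]

omit [IsDomain R] in
/-- Split off the largest `m`-th power. -/
theorem exists_pow_mul_powFree {m : ℕ} (hm : m ≠ 0) {z : R} (hz : z ≠ 0) :
    ∃ w z' : R, z = w ^ m * z' ∧ ∀ d : R, d ^ m ∣ z' → IsUnit d := by
  induction z using (wellFounded_dvdNotUnit (α := R)).induction with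
  | _ z ih => ?_
  by_cases h : ∀ d : R, d ^ m ∣ z → IsUnit d
  · exact ⟨1, z, by simp, h⟩
  push Not at h
  obtain ⟨d, ⟨z1, rfl⟩, hd⟩ := h
  have hz1 : z1 ≠ 0 := fun h => hz (by simp [h])
  obtain ⟨w, z', rfl, hz'⟩ := ih z1 ⟨hz1, d ^ m, mt (isUnit_pow_iff hm).mp hd, mul_comm _ _⟩ hz1
  exact ⟨d * w, z', by ring, hz'⟩

/-- In a factorial domain the set of `a` with `a ^ m * f` integral is a principal fractional
ideal. -/
theorem exists_root_ideal_principal {K : Type*} [Field K] [Algebra R K] [IsFractionRing R K]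
    {m : ℕ} (hm : m ≠ 0) {f : K} (hf : f ≠ 0) :
    ∃ g : K, g ≠ 0 ∧ ∀ a : K,
      IsLocalization.IsInteger R (a ^ m * f) ↔ IsLocalization.IsInteger R (a * g) := by
  obtain ⟨x, y, hy, rfl⟩ := IsFractionRing.div_surjective R f
  have hy0 : y ≠ 0 := nonZeroDivisors.ne_zero hy
  have hinj := IsFractionRing.injective R K
  have hyK : algebraMap R K y ≠ 0 := (map_ne_zero_iff _ hinj).mpr hy0
  have hx0 : x ≠ 0 := fun h => hf (by simp [h])
  obtain ⟨w, z', hw, hfree⟩ :=
    exists_pow_mul_powFree hm (mul_ne_zero hx0 (pow_ne_zero (m - 1) hy0))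
  have hw0 : w ≠ 0 := fun h => mul_ne_zero hx0 (pow_ne_zero (m - 1) hy0) (by simp [hw, h, hm])
  refine ⟨algebraMap R K w / algebraMap R K y,
    div_ne_zero ((map_ne_zero_iff _ hinj).mpr hw0) hyK, fun a => ?_⟩
  have key : a ^ m * (algebraMap R K x / algebraMap R K y) =
      (a * (algebraMap R K w / algebraMap R K y)) ^ m * algebraMap R K z' := by
    have h1 : algebraMap R K x * algebraMap R K y ^ (m - 1) =
        algebraMap R K w ^ m * algebraMap R K z' := by
      rw [← map_pow, ← map_mul, hw, map_mul, map_pow]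
    obtain ⟨k, rfl⟩ : ∃ k, m = k + 1 := ⟨m - 1, by omega⟩
    rw [add_tsub_cancel_right] at h1
    rw [mul_pow, div_pow, ← mul_div_assoc, ← mul_div_assoc, div_mul_eq_mul_div,
      div_eq_div_iff hyK (pow_ne_zero _ hyK)]
    linear_combination (algebraMap R K y * a ^ (k + 1)) * h1
  rw [key]
  generalize a * (algebraMap R K w / algebraMap R K y) = b
  constructor
  · rintro ⟨r, hr⟩
    obtain ⟨c, d, hcd, rfl⟩ := IsFractionRing.exists_reduced_fraction (A := R) b
    have hdK : algebraMap R K (d : R) ≠ 0 :=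
      (map_ne_zero_iff _ hinj).mpr (nonZeroDivisors.ne_zero d.2)
    have h2 : r * (d : R) ^ m = c ^ m * z' := by
      apply hinj
      rw [map_mul, map_mul, map_pow, map_pow, hr, ← IsLocalization.mk'_spec K c d, mul_pow]
      ring
    have hdvd : (d : R) ^ m ∣ z' := by
      refine ((hcd.symm.pow_left (m := m)).pow_right (n := m)).dvd_of_dvd_mul_left ⟨r, ?_⟩
      rw [← h2]; ring
    obtain ⟨u, hu⟩ := hfree _ hdvd
    refine ⟨c * ↑u⁻¹, ?_⟩
    rw [IsLocalization.eq_mk'_iff_mul_eq, ← map_mul, ← hu]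
    simp
  · rintro ⟨r, rfl⟩
    exact ⟨r ^ m * z', by rw [map_mul, map_pow]⟩

end RootIdeal

end Fermat.Agent.Carayol
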