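/-
The interface between the geometry of `X₀(q² L)` at `q` and the descent of torsion classes.

`Model W k F C` collects what is used about the three branches (`0`: `C₂₀`, `1`: the middle one,
`2`: `C₀₂`, all with residue field inside the field `C` of level `L` in characteristic `q`), the two
charts (`0`: finite `j`, `1`: around the cusps), the local rings and the norms to level `q L`.
-/
import Fermat.Agent.Carayol.ChartLift
import Fermat.Agent.Carayol.RootMem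
import Fermat.Agent.Carayol.Regular
import Mathlib.RingTheory.Localization.AtPrime.Basic
import Mathlib.RingTheory.UniqueFactorizationDomain.Basic
import Mathlib.FieldTheory.IsAlgClosed.Basic

set_option autoImplicit false

noncomputable section

namespace Fermat.Agent.Carayol

variable {W F : Type} [CommRing W] [IsDomain W] [IsDiscreteValuationRing W] [Field F]
  [Algebra W F]

variable (W) in
/-- Every discrete valuation of `F` trivial on the nonzero constants gives `f` a value divisible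
by `m`: the shape of `div f = m • D` on the generic fibre. -/
def HorizDvd (m : ℕ) (f : F) : Prop :=
  ∀ O : ValuationSubring F, IsDiscreteValuationRing O →
    (∀ w : W, w ≠ 0 → algebraMap W F w ∈ O ∧ (algebraMap W F w)⁻¹ ∈ O) →
      ∃ a u : F, u ∈ O ∧ u⁻¹ ∈ O ∧ f = a ^ m * u

variable (W F) in
/-- The geometry of `X₀(q² L)` at `q`. -/
structure Model (k C : Type) [Field k] [Field C] [Algebra k C] where
  q : ℕ
  hq : q.Prime
  hinj : Function.Injective (algebraMap W F)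
  irreducible_q : Irreducible (q : W)
  ρ : W →+* k
  ρ_surjective : Function.Surjective ρ
  algClosed : IsAlgClosed k
  /-- the branches -/
  Br : Branches F (Fin 3) (fun _ => C)
  res_const : ∀ i (w : W) (h : algebraMap W F w ∈ Br.V i),
    Br.res i ⟨algebraMap W F w, h⟩ = algebraMap k C (ρ w)
  /-- normalised orders along the branches -/
  ord : Fin 3 → F → ℤ
  ord_mul : ∀ i a b, a ≠ 0 → b ≠ 0 → ord i (a * b) = ord i a + ord i b
  mem_iff : ∀ i a, a ≠ 0 → (a ∈ Br.V i ↔ 0 ≤ ord i a)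
  res_eq_zero_iff : ∀ i a (h : a ∈ Br.V i), a ≠ 0 → (Br.res i ⟨a, h⟩ = 0 ↔ 0 < ord i a)
  ord_q : ord 0 (algebraMap W F q) = 1 ∧ ord 1 (algebraMap W F q) = (q : ℤ) - 1 ∧
    ord 2 (algebraMap W F q) = 1
  /-- the coordinate -/
  x : F
  x_ne_zero : x ≠ 0
  /-- the two charts -/
  R : Fin 2 → Subalgebra W F
  chart : ∀ c, IsChart Br (q : W) (R c)
  x_mem : x ∈ R 0
  x_inv_mem : x⁻¹ ∈ R 1
  finite₀ : ∃ s₀ : Finset F, (s₀ : Set F) ⊆ R 0 ∧
    ∀ a ∈ R 0, a ∈ Submodule.span (Algebra.adjoin W {x}) (s₀ : Set F)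
  frac : ∀ c, ∀ a : F, ∃ b d : F, b ∈ R c ∧ d ∈ R c ∧ d ≠ 0 ∧ a = b / d
  glue₀ : ∀ a ∈ R 0, ∃ N : ℕ, a * x⁻¹ ^ N ∈ R 1
  glue₁ : ∀ a ∈ R 1, ∃ N : ℕ, a * x ^ N ∈ R 0
  const : ∀ a, a ∈ R 0 → a ∈ R 1 → ∃ w : W, a = algebraMap W F w
  /-- a uniformiser and a separator of every branch inside the finite chart -/
  exists_unif : ∀ i, ∃ p ∈ R 0, p ≠ 0 ∧ ord i p = 1
  exists_sep : ∀ i, ∃ e ∈ R 0, e ≠ 0 ∧ ord i e = 0 ∧ ∀ j, j ≠ i → 0 < ord j e
  /-- the local rings of the points of the special fibre are factorial -/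
  ufm : ∀ c (y : Ideal (R c)) [y.IsMaximal],
    (⟨algebraMap W F q, (R c).algebraMap_mem _⟩ : R c) ∈ y →
      UniqueFactorizationMonoid (Localization.AtPrime y)
  /-- the image of the local ring on a branch through the point is a valuation ring -/
  branchValue : ∀ c (y : Ideal (R c)) [y.IsMaximal],
    (⟨algebraMap W F q, (R c).algebraMap_mem _⟩ : R c) ∈ y → ∀ i,
    (∀ (a : R c) (h : (a : F) ∈ Br.V i), Br.res i ⟨a, h⟩ = 0 → a ∈ y) →
    ∃ O : ValuationSubring C,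
      (∀ (a : R c) (h : (a : F) ∈ Br.V i), Br.res i ⟨a, h⟩ ∈ O) ∧
      ∀ z ∈ O, ∃ a r : R c, r ∉ y ∧ ∀ (ha : (a : F) ∈ Br.V i) (hr : (r : F) ∈ Br.V i),
        z * Br.res i ⟨r, hr⟩ = Br.res i ⟨a, ha⟩
  /-- a point lies on one branch, or is supersingular: it lies on all three, at the same point
  of the reduced curve -/
  dichotomy : ∀ c (y : Ideal (R c)) [y.IsMaximal],
    (⟨algebraMap W F q, (R c).algebraMap_mem _⟩ : R c) ∈ y →
    (∃ i, ∀ j, j ≠ i → ∃ (a : R c) (h : (a : F) ∈ Br.V j), Br.res j ⟨a, h⟩ = 0 ∧ a ∉ y) ∨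
    ((∀ i (a : R c) (h : (a : F) ∈ Br.V i), Br.res i ⟨a, h⟩ = 0 → a ∈ y) ∧
      ∀ i j (a r : R c), r ∉ y → ∀ (ha : (a : F) ∈ Br.V i) (hr : (r : F) ∈ Br.V i),
        ∃ a' r' : R c, r' ∉ y ∧ a * r' - a' * r ∈ y ∧
          ∀ (ha' : (a' : F) ∈ Br.V j) (hr' : (r' : F) ∈ Br.V j),
            Br.res i ⟨a, ha⟩ * Br.res j ⟨r', hr'⟩ = Br.res j ⟨a', ha'⟩ * Br.res i ⟨r, hr⟩)
  /-- the pullbacks of the norms along the two degeneracy maps to level `q L` -/
  normα : F →* F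
  normβ : F →* F
  normα_ne_zero : ∀ a, a ≠ 0 → normα a ≠ 0
  normβ_ne_zero : ∀ a, a ≠ 0 → normβ a ≠ 0
  normα_mem : ∀ c, ∀ a ∈ R c, normα a ∈ R c
  /-- the second norm does not preserve the chart at the cusps, but it does near the points on
  all branches -/
  normβ_mem : ∀ c (y : Ideal (R c)) [y.IsMaximal],
    (⟨algebraMap W F q, (R c).algebraMap_mem _⟩ : R c) ∈ y →
    (∀ i (a : R c) (h : (a : F) ∈ Br.V i), Br.res i ⟨a, h⟩ = 0 → a ∈ y) →
    ∀ a ∈ R c, ∃ r : R c, r ∉ y ∧ (r : F) * normβ a ∈ R c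
  ord_normα : ∀ a, a ≠ 0 →
    ord 0 (normα a) = ord 0 a + ord 1 a ∧ ord 2 (normα a) = q * ord 2 a
  ord_normβ : ∀ a, a ≠ 0 →
    ord 2 (normβ a) = ord 2 a + ord 1 a ∧ ord 0 (normβ a) = q * ord 0 a
  normα_const : ∀ w : W, normα (algebraMap W F w) = algebraMap W F w ^ q
  normβ_const : ∀ w : W, normβ (algebraMap W F w) = algebraMap W F w ^ q
  res_normα₀ : ∀ a (h0 : a ∈ Br.V 0) (h1 : a ∈ Br.V 1) (hN : normα a ∈ Br.V 0),
    Br.res 0 ⟨normα a, hN⟩ = Br.res 0 ⟨a, h0⟩ * Br.res 1 ⟨a, h1⟩ ^ (q - 1)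
  res_normα₂ : ∀ a (h2 : a ∈ Br.V 2) (hN : normα a ∈ Br.V 2),
    Br.res 2 ⟨normα a, hN⟩ = Br.res 2 ⟨a, h2⟩ ^ q
  res_normβ₂ : ∀ a (h2 : a ∈ Br.V 2) (h1 : a ∈ Br.V 1) (hN : normβ a ∈ Br.V 2),
    Br.res 2 ⟨normβ a, hN⟩ = Br.res 2 ⟨a, h2⟩ * Br.res 1 ⟨a, h1⟩ ^ (q - 1)
  res_normβ₀ : ∀ a (h0 : a ∈ Br.V 0) (hN : normβ a ∈ Br.V 0),
    Br.res 0 ⟨normβ a, hN⟩ = Br.res 0 ⟨a, h0⟩ ^ q

namespace Model

variable {k C : Type} [Field k] [Field C] [Algebra k C]

/-- `N f` is a constant times an `m`-th power, `N` the pullback of a norm. -/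
def NormPow (N : F →* F) (m : ℕ) (f : F) : Prop :=
  ∃ (a b : W) (G : F), a ≠ 0 ∧ b ≠ 0 ∧ G ≠ 0 ∧
    algebraMap W F b * N f = algebraMap W F a * G ^ m

end Model

end Fermat.Agent.Carayol
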