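/-
The charts `R_0`, `R_1` of the model of `X₀(q² L)` at `q`: the criterion in terms of the three
branches and the `Model` fields about the charts.
-/
import Fermat.Agent.Carayol.ChartLevel
import Fermat.Agent.Carayol.ResidueField
import Fermat.Agent.Carayol.Model

set_option autoImplicit false
set_option linter.unusedSectionVars false

noncomputable section

open HahnSeries ModularCurve AlgebraicCurve Polynomial IntermediateField
open Fermat.Agent.Igusa Fermat.Agent.RED.Spec Fermat.Agent.HK.Corr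
open Fermat.Agent.CarayolHigh Fermat.Agent.RED

namespace Fermat.Agent.Carayol

section Top

variable {K' k : Type} [Field K'] [Field k] (O : ValuationSubring K') [IsDiscreteValuationRing O]
  (π : O →+* k) (hπ : ∀ c, π c = 0 ↔ ¬IsUnit c)

theorem mem_gaussTop_iff {y : fracSeries O} :
    y ∈ (gaussTop O π hπ).V ↔ ∃ r, IsGauss π (y : LaurentSeries K') r := by
  rw [GaussBranch.mem_V_iff]
  constructor
  · rintro ⟨a, b, hb, h⟩
    exact ⟨_, a, b, hb, h, rfl⟩
  · rintro ⟨r, a, b, hb, h, -⟩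
    exact ⟨a, b, hb, h⟩

theorem mem_gaussTop_nonunits {y : fracSeries O} (h : IsGauss π (y : LaurentSeries K') 0) :
    y ∈ (gaussTop O π hπ).V.nonunits := by
  have hy := (mem_gaussTop_iff O π hπ).mpr ⟨0, h⟩
  rw [ValuationSubring.mem_nonunits_iff_exists_mem_maximalIdeal]
  refine ⟨hy, ?_⟩
  obtain ⟨a, b, hb, he, hr⟩ := h
  rw [IsLocalRing.mem_maximalIdeal, mem_nonunits_iff, ← GaussBranch.res_eq_zero,
    GaussBranch.res_eq (gaussTop O π hπ) hy (a := a) (b := b) ⟨hb, he⟩]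
  exact hr.symm

end Top

section Concrete

variable {K : Type} [Field K] [Algebra ℚ K] {K' : Type} [Field K'] [Algebra ℚ K']
  {O : ValuationSubring K'} {k : Type} [Field k] {π : O →+* k}
variable {L₀ q : ℕ} [NeZero L₀] [NeZero q] {hq : q.Prime} {hqL : ¬ q ∣ L₀}
variable {κ : K →+* K'} {z : K'ˣ} {e0 e02 : modField K (L₀ * q ^ 2) →+* LaurentSeries K'}
  {ez : Fin (q - 1) → modField K (L₀ * q ^ 2) →+* LaurentSeries K'}

/-- The three branches used by the charts. -/
def branchTriple (e0 e02 : modField K (L₀ * q ^ 2) →+* LaurentSeries K')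
    (ez : Fin (q - 1) → modField K (L₀ * q ^ 2) →+* LaurentSeries K') (k₀ : Fin (q - 1)) :
    Fin 3 → modField K (L₀ * q ^ 2) →+* LaurentSeries K' :=
  ![e0, ez k₀, e02]

/-- The hypotheses of the chart facts: the constants, the embeddings and the branches. -/
structure ChartData (hq : q.Prime) (hqL : ¬ q ∣ L₀) (π : O →+* k) (κ : K →+* K') (z : K'ˣ)
    (e0 e02 : modField K (L₀ * q ^ 2) →+* LaurentSeries K')
    (ez : Fin (q - 1) → modField K (L₀ * q ^ 2) →+* LaurentSeries K') (η : K'ˣ)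
    (A : ValuationSubring K) {C : Type} [Field C]
    (Br : Branches (modField K (L₀ * q ^ 2)) (Fin 3) (fun _ => C)) (ev : C →+* LaurentSeries k)
    (k₀ : Fin (q - 1)) : Prop where
  hπ : ∀ c, π c = 0 ↔ ¬IsUnit c
  dvr : IsDiscreteValuationRing O
  dvrA : IsDiscreteValuationRing A
  charP : CharP k q
  hA : ∀ a ∈ A, κ a ∈ O
  hAO : ∀ a, κ a ∈ O → a ∈ A
  hAπ : ∀ a : A, π ⟨κ a, hA a a.2⟩ = 0 ↔ ¬IsUnit a
  hsurj : ∀ y : k, ∃ (a : K) (ha : a ∈ A), π ⟨κ a, hA a ha⟩ = y
  hL : (L₀ : k) ≠ 0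
  branches : BranchEmbs hq hqL κ z e0 e02 ez
  hη : IsPrimitiveRoot η (q ^ 2)
  sigma : ∀ i : Fin (q - 1), ∃ (σ : K' →+* K') (hσ : ∀ c ∈ O, σ c ∈ O), σ.comp κ = κ ∧
    σ ((z ^ ((k₀ : ℕ) + 1) : K'ˣ) : K') = ((z ^ ((i : ℕ) + 1) : K'ˣ) : K') ∧
    ∀ c : O, π ⟨σ c, hσ c c.2⟩ = π c
  isGauss_iff : ∀ i a r, IsGauss π (branchTriple e0 e02 ez k₀ i a) r ↔
    ∃ h : a ∈ Br.V i, ev (Br.res i ⟨a, h⟩) = r

variable {η : K'ˣ} {A : ValuationSubring K} {C : Type} [Field C]
  {Br : Branches (modField K (L₀ * q ^ 2)) (Fin 3) (fun _ => C)} {ev : C →+* LaurentSeries k}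
  {k₀ : Fin (q - 1)}
  (D : ChartData hq hqL π κ z e0 e02 ez η A Br ev k₀)

/-- `j` at level `L₀ q²`. -/
abbrev jTop (K : Type) [Field K] [Algebra ℚ K] (L₀ q : ℕ) [NeZero L₀] [NeZero q] :
    modField K (L₀ * q ^ 2) :=
  MF.Coeff.jElem K (L₀ * q ^ 2)

omit [NeZero q] in
theorem degenMap_one_jElem [NeZero (L₀ * q ^ 2)] (h : L₀ * 1 ∣ L₀ * q ^ 2) :
    (degenMap K 1 h : modField K L₀ →+* modField K (L₀ * q ^ 2)) (MF.Coeff.jElem K L₀) =
      MF.Coeff.jElem K (L₀ * q ^ 2) :=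
  Subtype.ext (qExpand_one_apply _)

include D in
/-- A function with the residue zero on the three branches, and the conjugates over level
`L₀`. -/
theorem ChartData.isGauss_list {a : modField K (L₀ * q ^ 2)} {r : Fin 3 → LaurentSeries k}
    (h : ∀ i, IsGauss π (branchTriple e0 e02 ez k₀ i a) (r i))
    (j : Unit ⊕ Fin (q - 1) ⊕ Fin (q ^ 2)) :
    IsGauss π (listZero e0 e02 ez η j a)
      (Sum.elim (fun _ => qExpand k (q ^ 2) (r 0))
        (Sum.elim (fun _ => qExpand k (q ^ 2) (r 1)) fun _ => r 2) j) := by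
  haveI := D.dvr
  haveI := D.charP
  haveI := Fact.mk hq
  rcases j with u | i | b
  · exact (h 0).qExpand _
  · obtain ⟨σ, hσ, hσκ, hσz, hσπ⟩ := D.sigma i
    exact (D.branches.isGauss_mid_of_sigma σ hσκ hσz hσ hσπ (h 1)).qExpand _
  · refine (h 2).qScale_root (u := η ^ (b : ℕ)) (m := 2) ?_
    rw [← pow_mul, mul_comm, pow_mul, D.hη.pow_eq_one, one_pow]

/-- The residue map of `A`. -/
def residueA (π : O →+* k) (κ : K →+* K') (A : ValuationSubring K) (hA : ∀ a ∈ A, κ a ∈ O) :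
    A →+* k :=
  π.comp ((κ.comp A.subtype).codRestrict O fun a => hA a a.2)

include D in
/-- The level `L₀` input, for `x = j` and `x = 1/j`, and the conjugates in the Gauss field. -/
theorem ChartData.exists_setting (inv : Bool) :
    letI := algebraAlong (degenMap K 1
      (show L₀ * 1 ∣ L₀ * q ^ 2 from mul_dvd_mul_left L₀ (one_dvd (q ^ 2))))
    ∃ (Oc : ValuationSubring (fracSeries O)) (ψE : modField K L₀ →+* fracSeries O)
      (ψ : Unit ⊕ Fin (q - 1) ⊕ Fin (q ^ 2) → modField K (L₀ * q ^ 2) →+* fracSeries O)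
      (xE : modField K L₀),
      Function.Injective ψ ∧
      (∀ j, (ψ j).comp (algebraMap (modField K L₀) (modField K (L₀ * q ^ 2))) = ψE) ∧
      Fintype.card (Unit ⊕ Fin (q - 1) ⊕ Fin (q ^ 2)) =
        Module.finrank (modField K L₀) (modField K (L₀ * q ^ 2)) ∧
      algebraMap (modField K L₀) (modField K (L₀ * q ^ 2)) xE =
        (if inv then (jTop K L₀ q)⁻¹ else jTop K L₀ q) ∧
      (∀ e, e ∈ coordRing K xE → ψE e ∈ Oc → e ∈ chartRing A xE) ∧
      (∀ e, ψE e ∈ Oc.nonunits → ∀ ϖ : A, Irreducible ϖ →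
        ψE ((algebraMap A (modField K L₀) ϖ)⁻¹ * e) ∈ Oc) ∧
      ψE xE ∈ Oc ∧ (∀ w : A, ψE (algebraMap A (modField K L₀) w) ∈ Oc) ∧
      (∀ (j : Unit ⊕ Fin (q - 1) ⊕ Fin (q ^ 2)) a, (∀ i, a ∈ Br.V i) → ψ j a ∈ Oc) ∧
      (∀ j, ∃ i, ∀ a (h : a ∈ Br.V i), Br.res i ⟨a, h⟩ = 0 → ψ j a ∈ Oc.nonunits) ∧
      ∀ a, (∀ j, ψ j a ∈ Oc) → ∀ i, a ∈ Br.V i := by
  classical
  letI hd := algebraAlong (degenMap K 1
    (show L₀ * 1 ∣ L₀ * q ^ 2 from mul_dvd_mul_left L₀ (one_dvd (q ^ 2))))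
  haveI := D.dvr
  haveI := D.dvrA
  haveI := D.charP
  haveI := Fact.mk hq
  have hdvd : L₀ * 1 ∣ L₀ * q ^ 2 := mul_dvd_mul_left L₀ (one_dvd (q ^ 2))
  have hA := D.hA
  have hπA : Function.Surjective (residueA π κ A hA) := fun y => by
    obtain ⟨a, ha, hy⟩ := D.hsurj y
    exact ⟨⟨a, ha⟩, hy⟩
  let GE := levelBranch O π D.hπ κ (π := residueA π κ A hA) hA (fun _ => rfl) L₀ (q ^ 2) hπA D.hL
  have hmem : ∀ j x, listZero e0 e02 ez η j x ∈ fracSeries O := by
    intro j x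
    obtain ⟨h0, h2, hz⟩ := D.branches.mem_fracSeries π x
    rcases j with u | i | b
    · show qExpand K' (q ^ 2) (e0 x) ∈ fracSeries O
      rcases isGauss_or_inv D.hπ h0 with ⟨r, hr⟩ | hr
      · exact (hr.qExpand (q ^ 2)).mem_fracSeries
      · simpa using (fracSeries O).inv_mem (hr.qExpand (q ^ 2)).mem_fracSeries
    · show qExpand K' (q ^ 2) (ez i x) ∈ fracSeries O
      rcases isGauss_or_inv D.hπ (hz i) with ⟨r, hr⟩ | hr
      · exact (hr.qExpand (q ^ 2)).mem_fracSeries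
      · simpa using (fracSeries O).inv_mem (hr.qExpand (q ^ 2)).mem_fracSeries
    · have hu : (η ^ (b : ℕ)) ^ q ^ 2 = 1 := by
        rw [← pow_mul, mul_comm, pow_mul, D.hη.pow_eq_one, one_pow]
      show qScale (η ^ (b : ℕ)) (e02 x) ∈ fracSeries O
      rcases isGauss_or_inv D.hπ h2 with ⟨r, hr⟩ | hr
      · exact (hr.qScale_root hu).mem_fracSeries
      · simpa using (fracSeries O).inv_mem (hr.qScale_root hu).mem_fracSeries
  let ψ : Unit ⊕ Fin (q - 1) ⊕ Fin (q ^ 2) → modField K (L₀ * q ^ 2) →+* fracSeries O :=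
    fun j => (listZero e0 e02 ez η j).codRestrict (fracSeries O) (hmem j)
  have hC := D.branches.complete_zero D.hη hdvd
  have hiff : ∀ a i r, IsGauss π (branchTriple e0 e02 ez k₀ i a) r ↔
      ∃ h : a ∈ Br.V i, ev (Br.res i ⟨a, h⟩) = r := fun a i r => D.isGauss_iff i a r
  have hj : algebraMap (modField K L₀) (modField K (L₀ * q ^ 2)) (MF.Coeff.jElem K L₀) =
      jTop K L₀ q := degenMap_one_jElem hdvd
  refine ⟨(gaussTop O π D.hπ).V, toFrac O GE, ψ,
    if inv then (MF.Coeff.jElem K L₀)⁻¹ else MF.Coeff.jElem K L₀, ?_, ?_, hC.card, ?_, ?_, ?_,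
    ?_, ?_, ?_, ?_, ?_⟩
  · intro i j hij
    exact hC.inj (RingHom.ext fun x => congrArg Subtype.val (RingHom.congr_fun hij x))
  · exact fun j => RingHom.ext fun x => Subtype.ext (hC.comp j x)
  · split_ifs
    · rw [map_inv₀, hj]
    · exact hj
  · intro e he hO
    cases inv
    · exact mem_chartRing_jElem O π D.hπ κ hA (fun _ => rfl) L₀ (q ^ 2) hπA D.hL D.hAO D.hAπ he hO
    · exact mem_chartRing_inv_jElem O π D.hπ κ hA (fun _ => rfl) L₀ (q ^ 2) hπA D.hL D.hAO D.hAπ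
        he hO
  · intro e he ϖ hϖ
    exact inv_mul_levelEmb_mem O π D.hπ κ hA (fun _ => rfl) L₀ (q ^ 2) hπA D.hL D.hAO D.hAπ hϖ he
  · have hX : MF.Coeff.jElem K L₀ ∈ (levelRed (A := A) L₀ hπA D.hL).W :=
      toE_jPair A (residueA π κ A hA) L₀ ▸
        ((good_x0 A (residueA π κ A hA) L₀ hπA D.hL).paramX).2
    have hred : (levelRed (A := A) L₀ hπA D.hL).red ⟨_, hX⟩ ≠ 0 := by
      have h1 : (levelRed (A := A) L₀ hπA D.hL).red ⟨_, hX⟩ =
          (levelRed (A := A) L₀ hπA D.hL).red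
            (good_x0 A (residueA π κ A hA) L₀ hπA D.hL).paramX :=
        congrArg _ (Subtype.ext (toE_jPair A (residueA π κ A hA) L₀).symm)
      rw [h1]
      intro h0
      refine Polynomial.X_ne_zero ((transcendental_iff.mp
        (good_x0 A (residueA π κ A hA) L₀ hπA D.hL).param.transcendental) X ?_)
      rw [aeval_X, h0]
    cases inv
    · exact toFrac_levelRed_mem O π D.hπ κ hA (fun _ => rfl) L₀ (q ^ 2) hπA D.hL ⟨_, hX⟩
    · exact toFrac_levelRed_mem O π D.hπ κ hA (fun _ => rfl) L₀ (q ^ 2) hπA D.hL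
        ⟨_, (levelRed (A := A) L₀ hπA D.hL).inv_mem_of_red_ne_zero hred⟩
  · exact fun w => toFrac_levelRed_mem O π D.hπ κ hA (fun _ => rfl) L₀ (q ^ 2) hπA D.hL
      ⟨_, (levelRed (A := A) L₀ hπA D.hL).algebraMap_mem w⟩
  · intro j a ha
    exact (mem_gaussTop_iff O π D.hπ).mpr
      ⟨_, D.isGauss_list (fun i => (hiff a i _).mpr ⟨ha i, rfl⟩) j⟩
  · intro j
    refine ⟨Sum.elim (fun _ => 0) (Sum.elim (fun _ => 1) fun _ => 2) j, fun a h h0 => ?_⟩
    have hg := (hiff a _ _).mpr ⟨h, by rw [h0, map_zero]⟩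
    refine mem_gaussTop_nonunits O π D.hπ ?_
    rcases j with u | i | b
    · simpa using! hg.qExpand (q ^ 2)
    · obtain ⟨σ, hσ, hσκ, hσz, hσπ⟩ := D.sigma i
      simpa using! (D.branches.isGauss_mid_of_sigma σ hσκ hσz hσ hσπ hg).qExpand (q ^ 2)
    · refine IsGauss.qScale_root (m := 2) hg ?_
      rw [← pow_mul, mul_comm, pow_mul, D.hη.pow_eq_one, one_pow]
  · intro a ha
    have hd := D.branches.mem_fracSeries π a
    intro i
    fin_cases i
    · obtain ⟨r, hr⟩ := (mem_gaussTop_iff O π D.hπ).mp (ha (.inl ()))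
      obtain ⟨r', hr', -⟩ := exists_isGauss_of_qExpand D.hπ hd.1 hr
      exact ((hiff a 0 r').mp hr').1
    · obtain ⟨r, hr⟩ := (mem_gaussTop_iff O π D.hπ).mp (ha (.inr (.inl k₀)))
      obtain ⟨r', hr', -⟩ := exists_isGauss_of_qExpand D.hπ (hd.2.2 k₀) hr
      exact ((hiff a 1 r').mp hr').1
    · have : NeZero (q ^ 2) := ⟨pow_ne_zero _ hq.ne_zero⟩
      obtain ⟨r, hr⟩ := (mem_gaussTop_iff O π D.hπ).mp (ha (.inr (.inr 0)))
      refine ((hiff a 2 r).mp ?_).1
      have : listZero e0 e02 ez η (.inr (.inr 0)) a = e02 a := by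
        show qScale (η ^ (0 : ℕ)) (e02 a) = e02 a
        rw [pow_zero, qScale_one]
        rfl
      show IsGauss π (e02 a) r
      rw [← this]
      exact hr

include D in
/-- **Criterion and chart.** For `x = j` or `1/j`: membership, and the chart properties. -/
theorem ChartData.chart (inv : Bool) {ϖ : A} (hϖ : Irreducible ϖ) :
    let x : modField K (L₀ * q ^ 2) := if inv then (jTop K L₀ q)⁻¹ else jTop K L₀ q
    IsChart Br ϖ (chartRing A x) ∧
      ∀ a, a ∈ chartRing A x ↔ a ∈ coordRing K x ∧ ∀ i, a ∈ Br.V i := by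
  intro x
  letI := algebraAlong (degenMap K 1
    (show L₀ * 1 ∣ L₀ * q ^ 2 from mul_dvd_mul_left L₀ (one_dvd (q ^ 2))))
  haveI := D.dvrA
  haveI := isScalarTower_valuationSubring (E := modField K L₀) A
  haveI := isScalarTower_valuationSubring (E := modField K (L₀ * q ^ 2)) A
  haveI : IsScalarTower K (modField K L₀) (modField K (L₀ * q ^ 2)) :=
    IsScalarTower.of_algebraMap_eq fun c => ((degenMap K 1 _).commutes c).symm
  haveI : IsScalarTower A (modField K L₀) (modField K (L₀ * q ^ 2)) :=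
    IsScalarTower.of_algebraMap_eq fun c => ((degenMap K 1 _).commutes (c : K)).symm
  obtain ⟨Oc, ψE, ψ, xE, hinj, hψE, hcard, hx, hcrit, hdiv, hxO, hWO, hmem, hnu, hback⟩ :=
    D.exists_setting inv
  have hC := D.branches.complete_zero D.hη (mul_dvd_mul_left L₀ (one_dvd (q ^ 2)))
  haveI := hC.finiteDimensional
  haveI : CharZero K := charZero_of_injective_algebraMap (algebraMap ℚ K).injective
  haveI : CharZero (modField K L₀) := charZero_of_injective_algebraMap
    (algebraMap K (modField K L₀)).injective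
  haveI : CharZero (modField K (L₀ * q ^ 2)) := charZero_of_injective_algebraMap
    (algebraMap K (modField K (L₀ * q ^ 2))).injective
  have hcriterion := fun a => mem_chartRing_iff_conjugates (W := A) Oc ψE ψ hinj hψE hcard
    (xE := xE) hWO hxO hcrit (a := a)
  have hxV : ∀ i, algebraMap (modField K L₀) (modField K (L₀ * q ^ 2)) xE ∈ Br.V i :=
    hback _ fun j => by rw [← RingHom.comp_apply (ψ j), hψE]; exact hxO
  have hWV : ∀ i (w : A), algebraMap A (modField K (L₀ * q ^ 2)) w ∈ Br.V i := fun i w =>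
    hback _ (fun j => by
      rw [IsScalarTower.algebraMap_apply A (modField K L₀) (modField K (L₀ * q ^ 2)),
        ← RingHom.comp_apply (ψ j), hψE]
      exact hWO w) i
  have htx : Transcendental K (algebraMap (modField K L₀) (modField K (L₀ * q ^ 2)) xE) := by
    have := MF.Coeff.transcendental_jElem K (L₀ * q ^ 2)
    rw [hx]
    split_ifs
    · exact fun h => this (by simpa using h.inv)
    · exact this
  have hfd : FiniteDimensional K⟮algebraMap (modField K L₀) (modField K (L₀ * q ^ 2)) xE⟯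
      (modField K (L₀ * q ^ 2)) :=
    haveI := MF.Coeff.isFunctionField_laurentBaseChange K (L₀ * q ^ 2)
    FF.finiteDimensional_adjoin htx
  have hπV : ∀ i (h : algebraMap A (modField K (L₀ * q ^ 2)) ϖ ∈ Br.V i),
      Br.res i ⟨_, h⟩ = 0 := by
    intro i h
    have hB := D.branches
    have hc : branchTriple e0 e02 ez k₀ i (algebraMap A _ ϖ) =
        HahnSeries.single 0 (κ (ϖ : K)) := by
      fin_cases i
      · exact hB.h0.const (ϖ : K)
      · exact (hB.hz k₀).const (ϖ : K)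
      · exact hB.h02.const (ϖ : K)
    have hg : IsGauss π (branchTriple e0 e02 ez k₀ i (algebraMap A _ ϖ)) 0 := by
      rw [hc]
      have h0 : π ⟨κ (ϖ : K), D.hA _ ϖ.2⟩ = 0 := (D.hAπ ϖ).mpr hϖ.not_isUnit
      have := isGauss_int (π := π) (HahnSeries.C (⟨κ (ϖ : K), D.hA _ ϖ.2⟩ : O))
      rw [intSeries, CarayolHigh.coeffMap_C', CarayolHigh.coeffMap_C', h0, map_zero] at this
      exact this
    obtain ⟨_, hr⟩ := (D.isGauss_iff i _ 0).mp hg
    exact (map_eq_zero ev).mp hr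
  have hfin := exists_span_closure_of_finiteDimensional (W := A) hfd
  have hinjx := injective_aeval_of_transcendental (W := A) htx
  simp only [x]
  rw [← hx]
  refine ⟨isChart_chartRing Br ϖ hϖ.ne_zero Oc ψE ψ hinj hψE hcard hinjx hfin hcrit
    (fun e he => hdiv e he ϖ hϖ) hWV hxV hπV hnu, fun a => (hcriterion a).trans
    (and_congr_right fun _ => ⟨hback a, fun h j => hmem j a h⟩)⟩

include D in
/-- The remaining chart fields of `Model`. -/
theorem ChartData.chart_facts :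
    (∃ s₀ : Finset (modField K (L₀ * q ^ 2)), (s₀ : Set _) ⊆ (chartRing A (jTop K L₀ q) : Set (modField K (L₀ * q ^ 2))) ∧
      ∀ a ∈ chartRing A (jTop K L₀ q),
        a ∈ Submodule.span (Algebra.adjoin A {jTop K L₀ q}) (s₀ : Set _)) ∧
    (∀ a : modField K (L₀ * q ^ 2), ∃ b d, b ∈ chartRing A (jTop K L₀ q) ∧
      d ∈ chartRing A (jTop K L₀ q) ∧ d ≠ 0 ∧ a = b / d) ∧
    (∀ a : modField K (L₀ * q ^ 2), ∃ b d, b ∈ chartRing A (jTop K L₀ q)⁻¹ ∧
      d ∈ chartRing A (jTop K L₀ q)⁻¹ ∧ d ≠ 0 ∧ a = b / d) ∧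
    (∀ a ∈ chartRing A (jTop K L₀ q), ∃ N : ℕ,
      a * (jTop K L₀ q)⁻¹ ^ N ∈ chartRing A (jTop K L₀ q)⁻¹) ∧
    (∀ a ∈ chartRing A (jTop K L₀ q)⁻¹, ∃ N : ℕ,
      a * jTop K L₀ q ^ N ∈ chartRing A (jTop K L₀ q)) ∧
    ∀ a, a ∈ chartRing A (jTop K L₀ q) → a ∈ chartRing A (jTop K L₀ q)⁻¹ →
      ∃ w : A, a = algebraMap A (modField K (L₀ * q ^ 2)) w := by
  haveI := D.dvrA
  haveI := isScalarTower_valuationSubring (E := modField K (L₀ * q ^ 2)) A
  haveI : CharZero K := charZero_of_injective_algebraMap (algebraMap ℚ K).injective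
  haveI : CharZero (modField K (L₀ * q ^ 2)) := charZero_of_injective_algebraMap
    (algebraMap K (modField K (L₀ * q ^ 2))).injective
  haveI := MF.Coeff.isFunctionField_laurentBaseChange K (L₀ * q ^ 2)
  have ht := MF.Coeff.transcendental_jElem K (L₀ * q ^ 2)
  have ht' : Transcendental K (jTop K L₀ q)⁻¹ := fun h => ht (by simpa using h.inv)
  have hne : jTop K L₀ q ≠ 0 := fun h => ht (by
    rw [show MF.Coeff.jElem K (L₀ * q ^ 2) = 0 from h]; exact isAlgebraic_zero)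
  have hf := chartRing_finite (W := A) (jTop K L₀ q) (injective_aeval_of_transcendental ht)
    (exists_span_closure_of_finiteDimensional (FF.finiteDimensional_adjoin ht))
  have hf' := chartRing_finite (W := A) (jTop K L₀ q)⁻¹ (injective_aeval_of_transcendental ht')
    (exists_span_closure_of_finiteDimensional (FF.finiteDimensional_adjoin ht'))
  refine ⟨hf.2.1, hf.2.2, hf'.2.2, fun a ha => exists_mul_inv_pow_mem_chartRing hne ha,
    fun a ha => ?_, fun a h0 h1 => exists_const_of_mem_chartRing _ h0 h1⟩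
  obtain ⟨N, hN⟩ := exists_mul_inv_pow_mem_chartRing (inv_ne_zero hne) ha
  rw [inv_inv] at hN
  exact ⟨N, hN⟩

end Concrete

end Fermat.Agent.Carayol
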