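import Fermat.Agent.RED.Hauptmodul.Level4
import Fermat.Agent.RED.Hauptmodul.Level9
import Fermat.Agent.MF.ThetaJ

/-!
Hauptmoduln of level 4 and 9 with the weight-two form `z`: `θ t = -z G(t)`, `Δ = z⁶ D(t)`,
`D(t) j = P(t)³`.
-/

set_option autoImplicit false

noncomputable section

namespace Fermat.Agent.Carayol

open Polynomial ModularCurve Fermat.Agent.MF Fermat.Agent.RED.Hauptmodul

/-- Make an integral Laurent series rational. -/
abbrev ratSeries : LaurentSeries ℤ →+* LaurentSeries ℚ := coeffMap (Int.castRingHom ℚ)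

/-- The expansion of `Δ`. -/
def deltaSeries (R : Type*) [CommRing R] : LaurentSeries R :=
  HahnSeries.single (1 : ℤ) 1 *
    HahnSeries.ofPowerSeries ℤ R (dedekindEtaUnit.map (Int.castRingHom R))

theorem coeffMap_deltaSeries {R S : Type*} [CommRing R] [CommRing S] (f : R →+* S) :
    coeffMap f (deltaSeries R) = deltaSeries S := by
  rw [deltaSeries, map_mul, coeffMap_single, map_one, coeffMap_ofPowerSeries, deltaSeries]
  congr 2
  rw [← RingHom.ext_int (f.comp (Int.castRingHom R)) (Int.castRingHom S)]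
  rfl

/-- The data of a Hauptmodul `t = q⁻¹ + ⋯` of level `N₀`. -/
structure Haupt (N₀ : ℕ) where
  tZ : LaurentSeries ℤ
  zZ : LaurentSeries ℤ
  P : ℤ[X]
  G : ℤ[X]
  D : ℤ[X]
  coeff_neg_one : tZ.coeff (-1) = 1
  coeff_of_lt : ∀ m : ℤ, m < -1 → tZ.coeff m = 0
  mem : ratSeries tZ ∈ modularFunctionFieldFull N₀
  gen : modularFunctionFieldFull N₀ ≤ IntermediateField.adjoin ℚ {ratSeries tZ}
  D_monic : D.Monic
  P_monic : P.Monic
  degree_lt : D.natDegree < 3 * P.natDegree
  theta : thetaL tZ = -(zZ * G.eval₂ (Int.castRingHom _) tZ)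
  delta : deltaSeries ℤ = zZ ^ 6 * D.eval₂ (Int.castRingHom _) tZ
  j_eq : D.eval₂ (Int.castRingHom _) tZ * jqModC ℤ = P.eval₂ (Int.castRingHom _) tZ ^ 3
  /-- `P` and `D` are coprime away from the primes of `N₀` -/
  coprime : ∃ (U V : ℤ[X]) (e : ℕ), U * P + V * D = C ((N₀ : ℤ) ^ e)
  G_dvd : ∃ m : ℕ, G ∣ D ^ m

theorem thetaL_eval₂ {R : Type*} [CommRing R] (x : LaurentSeries R) (P : ℤ[X]) :
    thetaL (P.eval₂ (Int.castRingHom (LaurentSeries R)) x) =
      P.derivative.eval₂ (Int.castRingHom (LaurentSeries R)) x * thetaL x := by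
  induction P using Polynomial.induction_on' with
  | add p r hp hr => simp only [eval₂_add, map_add, hp, hr, derivative_add, add_mul]
  | monomial n c =>
    have hc : thetaL ((c : LaurentSeries R)) = 0 := by
      rw [← map_intCast (HahnSeries.C (Γ := ℤ) : R →+* LaurentSeries R), thetaL_C]
    have hp : ∀ m : ℕ, thetaL (x ^ (m + 1)) = ((m + 1 : ℕ) : LaurentSeries R) * x ^ m * thetaL x := by
      intro m
      induction m with
      | zero => simp
      | succ m ih =>
        rw [pow_succ, thetaL_mul, ih]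
        push_cast
        ring
    rw [eval₂_monomial, derivative_monomial, eval₂_monomial, eq_intCast, eq_intCast, thetaL_mul,
      hc, zero_mul, zero_add]
    rcases n with _ | n
    · simp
    · rw [hp]
      push_cast
      ring

theorem ratSeries_injective : Function.Injective ratSeries :=
  MF.coeffMap_injective Int.cast_injective

theorem ratSeries_eval₂ (x : LaurentSeries ℤ) (P : ℤ[X]) :
    ratSeries (P.eval₂ (Int.castRingHom _) x) = P.eval₂ (Int.castRingHom _) (ratSeries x) := by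
  rw [Polynomial.hom_eval₂]
  congr 1
  exact RingHom.ext_int _ _

theorem ratSeries_ofPowerSeries (u : PowerSeries ℤ) :
    ratSeries (HahnSeries.ofPowerSeries ℤ ℤ u) = lq u :=
  MF.coeffMap_ofPowerSeries _ u

/-- The derivative and the discriminant from the parametrisation of `E₄`, `E₆`. -/
theorem theta_delta_of_param {T Z : LaurentSeries ℤ} {P P₆ E G : ℤ[X]}
    (hZ : ratSeries Z ≠ 0)
    (h₄ : lq eisenstein4 = ratSeries Z ^ 2 * P.eval₂ (Int.castRingHom _) (ratSeries T))
    (h₆ : lq eisenstein6 = ratSeries Z ^ 3 * P₆.eval₂ (Int.castRingHom _) (ratSeries T))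
    (hE : E.eval₂ (Int.castRingHom _) (ratSeries T) ≠ 0)
    (hPP : (P * P₆).eval₂ (Int.castRingHom _) (ratSeries T) ≠ 0)
    (hrel : P ^ 3 - P₆ ^ 2 = 1728 * (E * G))
    (hbr : 3 * derivative P * (E * G) - derivative (E * G) * P = E * P₆)
    (hj : ((E * G).eval₂ (Int.castRingHom _) T) * jqModC ℤ =
      P.eval₂ (Int.castRingHom _) T ^ 3) :
    thetaL T = -(Z * G.eval₂ (Int.castRingHom _) T) ∧
      deltaSeries ℤ = Z ^ 6 * (E * G).eval₂ (Int.castRingHom _) T := by
  set φ : ℤ[X] →+* LaurentSeries ℚ := eval₂RingHom (Int.castRingHom _) (ratSeries T) with hφ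
  set z := ratSeries Z
  have hdel0 : ratSeries (deltaSeries ℤ) = lq (PowerSeries.X * dedekindEtaUnit) := by
    rw [deltaSeries, map_mul, coeffMap_single, map_one, ratSeries_ofPowerSeries, map_mul lq]
    congr 1
    · simp [lq]
  have hdelta : ratSeries (deltaSeries ℤ) = z ^ 6 * φ (E * G) := by
    have h := congrArg lq eisenstein_relation
    rw [map_sub, map_pow, map_pow, h₄, h₆, map_mul, map_ofNat, ← hdel0] at h
    have hr := congrArg φ hrel
    simp only [map_sub, map_pow, map_mul, map_ofNat] at hr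
    refine mul_left_cancel₀ (a := (1728 : LaurentSeries ℚ)) ?_ ?_
    · rw [← map_ofNat (algebraMap ℚ (LaurentSeries ℚ)) 1728]
      exact (_root_.map_ne_zero _).mpr (by norm_num)
    · simp only [hφ, coe_eval₂RingHom] at hr h ⊢
      rw [eval₂_mul]
      linear_combination -h + z ^ 6 * hr
  refine ⟨ratSeries_injective ?_, ratSeries_injective ?_⟩
  · set dt := ratSeries (thetaL T)
    set j := ratSeries (jqModC ℤ)
    set dj := ratSeries (thetaL (jqModC ℤ))
    have hd := congrArg (fun x => ratSeries (thetaL x)) hj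
    simp only [show ∀ a : LaurentSeries ℤ, a ^ 3 = a * (a * a) from fun a => by ring, thetaL_mul,
      thetaL_eval₂, map_mul, map_add, ratSeries_eval₂] at hd
    have hj' := congrArg ratSeries hj
    rw [map_mul, map_pow, ratSeries_eval₂, ratSeries_eval₂] at hj'
    have ht := congrArg ratSeries thetaL_jqModC_int
    rw [map_mul, map_neg, ratSeries_ofPowerSeries, map_mul lq, map_pow, h₄, h₆,
      show HahnSeries.single (1 : ℤ) 1 * HahnSeries.ofPowerSeries ℤ ℤ dedekindEtaUnit =
        deltaSeries ℤ by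
        rw [deltaSeries]; congr 2, hdelta] at ht
    have hb := congrArg φ hbr
    simp only [hφ, coe_eval₂RingHom, map_sub, map_mul, map_ofNat, eval₂_mul, eval₂_sub,
      eval₂_ofNat] at hb
    simp only [hφ, coe_eval₂RingHom, eval₂_mul] at ht hd hj' hPP hE ⊢
    rw [map_neg, map_mul, ratSeries_eval₂]
    set p := P.eval₂ (Int.castRingHom _) (ratSeries T)
    set p' := (derivative P).eval₂ (Int.castRingHom _) (ratSeries T)
    set p6 := P₆.eval₂ (Int.castRingHom _) (ratSeries T)
    set e := E.eval₂ (Int.castRingHom _) (ratSeries T)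
    set g := G.eval₂ (Int.castRingHom _) (ratSeries T)
    set d' := (derivative (E * G)).eval₂ (Int.castRingHom _) (ratSeries T)
    refine mul_left_cancel₀ (a := z ^ 6 * (p ^ 2 * p6) * e) ?_ ?_
    · exact mul_ne_zero (mul_ne_zero (pow_ne_zero 6 hZ)
        (mul_ne_zero (pow_ne_zero 2 (left_ne_zero_of_mul hPP)) (right_ne_zero_of_mul hPP))) hE
    · linear_combination (e * g) * ht - z ^ 6 * (e * g) * hd + z ^ 6 * d' * dt * hj'
        + -(z ^ 6 * dt * p ^ 2) * hb
  · rw [hdelta, map_mul ratSeries, map_pow ratSeries, ratSeries_eval₂]; rfl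

theorem eval₂_ratSeries_ne_zero {T : LaurentSeries ℤ} (h1 : T.coeff (-1) = 1)
    (h0 : ∀ m : ℤ, m < -1 → T.coeff m = 0) {P : ℤ[X]} (hP : P ≠ 0) :
    P.eval₂ (Int.castRingHom _) (ratSeries T) ≠ 0 := by
  have ho := order_eq_neg_one (x := ratSeries T) (by rw [coeffMap_coeff, h1, map_one])
    fun m hm => by rw [coeffMap_coeff, h0 m hm, map_zero]
  have h := (aeval_ne_zero_of_order_neg (x := ratSeries T) (by rw [ho.2]; norm_num)
    (P.map (Int.castRingHom ℚ)) ((Polynomial.map_ne_zero_iff Int.cast_injective).mpr hP)).1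
  rwa [aeval_def, eval₂_map,
    RingHom.ext_int ((algebraMap ℚ (LaurentSeries ℚ)).comp (Int.castRingHom ℚ))
      (Int.castRingHom _)] at h

theorem mem_adjoin_of_mul_eq {x a b y : LaurentSeries ℚ}
    (ha : a ∈ IntermediateField.adjoin ℚ {x}) (hb : b ∈ IntermediateField.adjoin ℚ {x})
    (ha0 : a ≠ 0) (h : a * y = b) : y ∈ IntermediateField.adjoin ℚ {x} := by
  rw [show y = b / a by rw [eq_div_iff ha0, mul_comm]; exact h]
  exact div_mem hb ha

theorem adjoin_of_divisors {N : ℕ} {x : LaurentSeries ℚ}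
    (h : ∀ d, [NeZero d] → d ∣ N → qExpand ℚ d jq ∈ IntermediateField.adjoin ℚ {x}) :
    modularFunctionFieldFull N ≤ IntermediateField.adjoin ℚ {x} := by
  rw [modularFunctionFieldFull, IntermediateField.adjoin_le_iff]
  rintro y ⟨d, _, hd, rfl⟩
  exact h d hd

/-- The Hauptmodul of level 4. -/
def haupt4 : Haupt 4 := by
  have h1 : t4Z.coeff (-1) = 1 := by
    have := coeff_t4_neg_one
    rw [t4, coeffMap_coeff, eq_intCast] at this
    exact_mod_cast this
  have h0 : ∀ m : ℤ, m < -1 → t4Z.coeff m = 0 := fun m hm => by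
    have := coeff_t4_of_lt hm
    rw [t4, coeffMap_coeff, eq_intCast] at this
    exact_mod_cast this
  let P : ℤ[X] := X ^ 2 + 256 * X + 4096
  let P₆ : ℤ[X] := X ^ 3 - 480 * X ^ 2 - 24576 * X - 262144
  have hZ : ratSeries (HahnSeries.ofPowerSeries ℤ ℤ z4) ≠ 0 := by
    rw [ratSeries_ofPowerSeries]; exact lq_z4_ne_zero
  have hj : (X ^ 3 * (X * (X + 16)) : ℤ[X]).eval₂ (Int.castRingHom _) t4Z * jqModC ℤ =
      P.eval₂ (Int.castRingHom _) t4Z ^ 3 := by
    apply ratSeries_injective
    rw [map_mul, map_pow, ratSeries_eval₂, ratSeries_eval₂,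
      show ratSeries (jqModC ℤ) = jq from map_jqModC _]
    simp only [P, eval₂_mul, eval₂_add, eval₂_pow, eval₂_X, eval₂_ofNat]
    rw [show ratSeries t4Z = t4 from rfl]
    linear_combination t4_mul_jq
  have hne : ∀ {Q : ℤ[X]}, Q.eval 1 ≠ 0 → Q.eval₂ (Int.castRingHom _) (ratSeries t4Z) ≠ 0 :=
    fun hQ => eval₂_ratSeries_ne_zero h1 h0 fun h => hQ (by simp [h])
  have key := theta_delta_of_param (T := t4Z) (Z := HahnSeries.ofPowerSeries ℤ ℤ z4)
    (P := P) (P₆ := P₆) (E := X ^ 3) (G := X * (X + 16)) hZ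
    (by
      rw [eisenstein4_level4, lq_quad4, ratSeries_ofPowerSeries]
      simp [P, t4, eval₂_add, eval₂_mul, eval₂_pow, eval₂_ofNat])
    (by
      rw [eisenstein6_level4, lq_cubic4, ratSeries_ofPowerSeries]
      simp only [P₆, eval₂_add, eval₂_sub, eval₂_mul, eval₂_pow, eval₂_ofNat, eval₂_X]
      push_cast
      rw [show ratSeries t4Z = t4 from rfl]
      ring)
    (hne (by simp)) (hne (by norm_num [P, P₆]))
    (by simp only [P, P₆]; ring)
    (by
      simp only [P, P₆, derivative_mul, derivative_pow, derivative_X, derivative_add,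
        derivative_ofNat]
      simp only [map_natCast]
      push_cast
      ring)
    hj
  exact
  { tZ := t4Z
    zZ := HahnSeries.ofPowerSeries ℤ ℤ z4
    P := P
    G := X * (X + 16)
    D := X ^ 3 * (X * (X + 16))
    coeff_neg_one := h1
    coeff_of_lt := h0
    mem := t4_mem
    gen := adjoin_of_divisors fun d _ hd => by
      have hx : t4 ∈ IntermediateField.adjoin ℚ {t4} := IntermediateField.mem_adjoin_simple_self ℚ t4
      have hp : ∀ {Q : ℤ[X]}, Q.eval 1 ≠ 0 → (Q.eval₂ (Int.castRingHom _) t4) ≠ 0 :=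
        fun hQ => hne hQ
      have hd4 : d = 1 ∨ d = 2 ∨ d = 4 := by
        have := Nat.le_of_dvd (by norm_num) hd
        interval_cases d <;> simp_all
      rcases hd4 with rfl | rfl | rfl
      · rw [qExpand_one_apply]
        refine mem_adjoin_of_mul_eq ?_ ?_ ?_ t4_mul_jq
        · exact mul_mem (pow_mem hx _) (add_mem hx (ofNat_mem _ _))
        · exact pow_mem (add_mem (add_mem (pow_mem hx _) (mul_mem (ofNat_mem _ _) hx)) (ofNat_mem _ _)) _
        · have h : (X ^ 4 * (X + 16) : ℤ[X]).eval 1 ≠ 0 := by norm_num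
          have h' := hp h
          rw [ne_eq] at h' ⊢
          simpa only [eval₂_mul, eval₂_add, eval₂_pow, eval₂_ofNat, eval₂_X] using h'
      · refine mem_adjoin_of_mul_eq ?_ ?_ ?_ t4_mul_jq_two
        · exact mul_mem (pow_mem hx _) (pow_mem (add_mem hx (ofNat_mem _ _)) _)
        · exact pow_mem (add_mem (add_mem (pow_mem hx _) (mul_mem (ofNat_mem _ _) hx)) (ofNat_mem _ _)) _
        · have h : (X ^ 2 * (X + 16) ^ 2 : ℤ[X]).eval 1 ≠ 0 := by norm_num
          have h' := hp h
          rw [ne_eq] at h' ⊢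
          simpa only [eval₂_mul, eval₂_add, eval₂_pow, eval₂_ofNat, eval₂_X] using h'
      · refine mem_adjoin_of_mul_eq ?_ ?_ ?_ t4_mul_jq_four
        · exact mul_mem hx (add_mem hx (ofNat_mem _ _))
        · exact pow_mem (add_mem (add_mem (pow_mem hx _) (mul_mem (ofNat_mem _ _) hx)) (ofNat_mem _ _)) _
        · have h : (X * (X + 16) : ℤ[X]).eval 1 ≠ 0 := by norm_num
          have h' := hp h
          rw [ne_eq] at h' ⊢
          simpa only [eval₂_mul, eval₂_add, eval₂_ofNat, eval₂_X] using h'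
    D_monic := by monicity!
    P_monic := by simp only [P]; monicity!
    degree_lt := by
      rw [show (X ^ 3 * (X * (X + 16)) : ℤ[X]).natDegree = 5 by compute_degree!,
        show P.natDegree = 2 by simp only [P]; compute_degree!]
      norm_num
    theta := key.1
    delta := key.2
    j_eq := hj
    coprime := ⟨195 * X ^ 4 - 224 * X ^ 3 + 3840 * X ^ 2 - 65536 * X + 1048576, -195 * X - 46576,
      16, by
        simp only [P]
        rw [show ((4 : ℕ) : ℤ) ^ 16 = 4294967296 by norm_num, map_ofNat]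
        ring⟩
    G_dvd := ⟨1, by rw [pow_one]; exact dvd_mul_left _ _⟩ }

/-- The Hauptmodul of level 9. -/
def haupt9 : Haupt 9 := by
  have h1 : t9Z.coeff (-1) = 1 := by
    have := coeff_t9_neg_one
    rw [t9, coeffMap_coeff, eq_intCast] at this
    exact_mod_cast this
  have h0 : ∀ m : ℤ, m < -1 → t9Z.coeff m = 0 := fun m hm => by
    have := coeff_t9_of_lt hm
    rw [t9, coeffMap_coeff, eq_intCast] at this
    exact_mod_cast this
  let P : ℤ[X] := (X + 9) * (X ^ 3 + 243 * X ^ 2 + 2187 * X + 6561)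
  let P₆ : ℤ[X] := X ^ 6 - 486 * X ^ 5 - 24057 * X ^ 4 - 367416 * X ^ 3 - 2657205 * X ^ 2
    - 9565938 * X - 14348907
  have hZ : ratSeries (HahnSeries.ofPowerSeries ℤ ℤ z9) ≠ 0 := by
    rw [ratSeries_ofPowerSeries]; exact lq_z9_ne_zero
  have hj : (X ^ 8 * (X * (X ^ 2 + 9 * X + 27)) : ℤ[X]).eval₂ (Int.castRingHom _) t9Z * jqModC ℤ =
      P.eval₂ (Int.castRingHom _) t9Z ^ 3 := by
    apply ratSeries_injective
    rw [map_mul, map_pow, ratSeries_eval₂, ratSeries_eval₂,
      show ratSeries (jqModC ℤ) = jq from map_jqModC _]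
    simp only [P, eval₂_mul, eval₂_add, eval₂_pow, eval₂_X, eval₂_ofNat]
    rw [show ratSeries t9Z = t9 from rfl]
    linear_combination t9_mul_jq
  have hne : ∀ {Q : ℤ[X]}, Q.eval 1 ≠ 0 → Q.eval₂ (Int.castRingHom _) (ratSeries t9Z) ≠ 0 :=
    fun hQ => eval₂_ratSeries_ne_zero h1 h0 fun h => hQ (by simp [h])
  have key := theta_delta_of_param (T := t9Z) (Z := HahnSeries.ofPowerSeries ℤ ℤ z9)
    (P := P) (P₆ := P₆) (E := X ^ 8) (G := X * (X ^ 2 + 9 * X + 27)) hZ
    (by
      rw [eisenstein4_level9, lq_quad9, ratSeries_ofPowerSeries]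
      simp only [P, eval₂_add, eval₂_mul, eval₂_pow, eval₂_ofNat, eval₂_X]
      push_cast
      rw [show ratSeries t9Z = t9 from rfl]
      ring)
    (by
      rw [eisenstein6_level9, lq_cubic9, ratSeries_ofPowerSeries]
      simp only [P₆, eval₂_add, eval₂_sub, eval₂_mul, eval₂_pow, eval₂_ofNat, eval₂_X]
      push_cast
      rw [show ratSeries t9Z = t9 from rfl]
      ring)
    (hne (by simp)) (hne (by norm_num [P, P₆]))
    (by simp only [P, P₆]; ring)
    (by
      simp only [P, P₆, derivative_mul, derivative_pow, derivative_X, derivative_add,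
        derivative_ofNat]
      simp only [map_natCast]
      push_cast
      ring)
    hj
  exact
  { tZ := t9Z
    zZ := HahnSeries.ofPowerSeries ℤ ℤ z9
    P := P
    G := X * (X ^ 2 + 9 * X + 27)
    D := X ^ 8 * (X * (X ^ 2 + 9 * X + 27))
    coeff_neg_one := h1
    coeff_of_lt := h0
    mem := t9_mem
    gen := adjoin_of_divisors fun d _ hd => by
      have hx : t9 ∈ IntermediateField.adjoin ℚ {t9} := IntermediateField.mem_adjoin_simple_self ℚ t9
      have hQ : t9 ^ 2 + 9 * t9 + 27 ∈ IntermediateField.adjoin ℚ {t9} :=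
        add_mem (add_mem (pow_mem hx _) (mul_mem (ofNat_mem _ _) hx)) (ofNat_mem _ _)
      have hp : ∀ {Q : ℤ[X]}, Q.eval 1 ≠ 0 → (Q.eval₂ (Int.castRingHom _) t9) ≠ 0 :=
        fun hQ => hne hQ
      have hd9 : d = 1 ∨ d = 3 ∨ d = 9 := by
        have := Nat.le_of_dvd (by norm_num) hd
        interval_cases d <;> simp_all
      rcases hd9 with rfl | rfl | rfl
      · rw [qExpand_one_apply]
        refine mem_adjoin_of_mul_eq ?_ ?_ ?_ t9_mul_jq
        · exact mul_mem (pow_mem hx _) hQ
        · exact mul_mem (pow_mem (add_mem hx (ofNat_mem _ _)) _) (pow_mem (add_mem (add_mem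
            (add_mem (pow_mem hx _) (mul_mem (ofNat_mem _ _) (pow_mem hx _)))
              (mul_mem (ofNat_mem _ _) hx)) (ofNat_mem _ _)) _)
        · have h : (X ^ 9 * (X ^ 2 + 9 * X + 27) : ℤ[X]).eval 1 ≠ 0 := by norm_num
          have h' := hp h
          rw [ne_eq] at h' ⊢
          simpa only [eval₂_mul, eval₂_add, eval₂_pow, eval₂_ofNat, eval₂_X] using h'
      · refine mem_adjoin_of_mul_eq ?_ ?_ ?_ t9_mul_jq_three
        · exact mul_mem (pow_mem hx _) (pow_mem hQ _)
        · exact mul_mem (mul_mem (pow_mem (add_mem hx (ofNat_mem _ _)) _)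
            (pow_mem (add_mem hx (ofNat_mem _ _)) _))
            (pow_mem (add_mem (pow_mem hx _) (ofNat_mem _ _)) _)
        · have h : (X ^ 3 * (X ^ 2 + 9 * X + 27) ^ 3 : ℤ[X]).eval 1 ≠ 0 := by norm_num
          have h' := hp h
          rw [ne_eq] at h' ⊢
          simpa only [eval₂_mul, eval₂_add, eval₂_pow, eval₂_ofNat, eval₂_X] using h'
      · refine mem_adjoin_of_mul_eq ?_ ?_ ?_ t9_mul_jq_nine
        · exact mul_mem hx hQ
        · exact mul_mem (pow_mem (add_mem hx (ofNat_mem _ _)) _) (pow_mem (add_mem (add_mem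
            (add_mem (pow_mem hx _) (mul_mem (ofNat_mem _ _) (pow_mem hx _)))
              (mul_mem (ofNat_mem _ _) hx)) (ofNat_mem _ _)) _)
        · have h : (X * (X ^ 2 + 9 * X + 27) : ℤ[X]).eval 1 ≠ 0 := by norm_num
          have h' := hp h
          rw [ne_eq] at h' ⊢
          simpa only [eval₂_mul, eval₂_add, eval₂_pow, eval₂_ofNat, eval₂_X] using h'
    D_monic := by monicity!
    P_monic := by simp only [P]; monicity!
    degree_lt := by
      rw [show (X ^ 8 * (X * (X ^ 2 + 9 * X + 27)) : ℤ[X]).natDegree = 11 by compute_degree!,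
        show P.natDegree = 4 by simp only [P]; compute_degree!]
      norm_num
    theta := key.1
    delta := key.2
    j_eq := hj
    coprime := ⟨-1724271 * X ^ 10 - 2044926 * X ^ 9 - 1326699 * X ^ 8 + 3470040 * X ^ 7
      + 5380020 * X ^ 6 - 148803480 * X ^ 5 + 1238788971 * X ^ 4 - 7404036012 * X ^ 3
      + 34867844010 * X ^ 2 - 125524238436 * X + 282429536481,
      1724271 * X ^ 3 + 421042779 * X ^ 2 + 4222669077 * X + 5154955830, 17, by
        simp only [P]
        rw [show ((9 : ℕ) : ℤ) ^ 17 = 16677181699666569 by norm_num, map_ofNat]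
        ring⟩
    G_dvd := ⟨1, by rw [pow_one]; exact dvd_mul_left _ _⟩ }

end Fermat.Agent.Carayol
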