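import Fermat.Agent.Carayol.LiftChart
import Fermat.Agent.RED.X0Red
import Fermat.Agent.RED.X0Lift

/-!
# Normality of the special fibre over a discretely valued field of constants

`K ⊆ ℚ̄` with `ℚ̄ / K` Galois and `W = A ∩ K` a principal ideal domain with the residue field of
`A`. The chart `integral closure of W[x]` of `X₀(N)` over `K`, `x = j` or `1/j`, maps onto
`coordRing k x̄` as soon as the chart over `A` does, with kernel generated by a uniformiser.
-/

set_option autoImplicit false
set_option linter.style.haveILetI false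
set_option linter.unusedSectionVars false

noncomputable section

open Polynomial IntermediateField ModularCurve

namespace Fermat.Agent.Carayol.LiftBase

open Fermat.Agent.RED Fermat.Agent.MF.Coeff

local notation "Qbar" => AlgebraicClosure ℚ

variable {N : ℕ} [NeZero N] {A : ValuationSubring Qbar} {k : Type} [Field k] (π : A →+* k)
variable {K : Type} [Field K] [Algebra ℚ K] [Algebra K Qbar] {W : ValuationSubring K}
variable (π₀ : W →+* k) (hπ : Function.Surjective π) (hπ₀ : Function.Surjective π₀)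
variable (hN : (N : k) ≠ 0) (hWA : ∀ w : W, algebraMap K Qbar (w : K) ∈ A)
variable (hcompat : ∀ w : W, π ⟨_, hWA w⟩ = π₀ w)

/-- `Ω(F)` for `F = K(X₀(N))` is `ℚ̄(X₀(N))`. -/
theorem bc_laurentBaseChange :
    bc (algebraMap K Qbar) (laurentBaseChange K (modularFunctionFieldFull N)) =
      modularFunctionFieldBar N := by
  rw [laurentBaseChange_eq_bc, bc_bc, RingHom.ext_rat ((algebraMap K Qbar).comp (algebraMap ℚ K))
    (algebraMap ℚ Qbar)]
  rfl

theorem exists_combination_of_eq {K Ω : Type} [Field K] [Field Ω] [Algebra K Ω] [IsGalois K Ω]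
    {F : IntermediateField K (LaurentSeries K)} {E' : IntermediateField Ω (LaurentSeries Ω)}
    (h : bc (algebraMap K Ω) F = E') (ι : F →+* E')
    (hι : ∀ a, (ι a : LaurentSeries Ω) = coeffMap (algebraMap K Ω) (a : LaurentSeries K))
    (x : F) (w : E') (hw : w ∈ coordRing Ω (ι x)) :
    ∃ (n : ℕ) (c : Fin n → Ω) (a : Fin n → F), (∀ l, a l ∈ coordRing K x) ∧
      w = ∑ l, algebraMap Ω E' (c l) * ι (a l) := by
  subst h
  obtain rfl : ι = bcIncl F := RingHom.ext fun a => Subtype.ext (hι a)
  exact exists_integral_combination x hw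

/-- Descent of integral functions from `ℚ̄` to `K`. -/
theorem exists_combination_bar [IsGalois K Qbar]
    (x : laurentBaseChange K (modularFunctionFieldFull N)) (w : modularFunctionFieldBar N)
    (hw : w ∈ coordRing Qbar (baseChangeMap (modularFunctionFieldFull N) (algebraMap K Qbar) x)) :
    ∃ (n : ℕ) (c : Fin n → Qbar) (a : Fin n → laurentBaseChange K (modularFunctionFieldFull N)),
      (∀ l, a l ∈ coordRing K x) ∧ w = ∑ l, algebraMap Qbar (modularFunctionFieldBar N) (c l) *
        baseChangeMap (modularFunctionFieldFull N) (algebraMap K Qbar) (a l) := by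
  exact exists_combination_of_eq bc_laurentBaseChange
    (baseChangeMap (modularFunctionFieldFull N) (algebraMap K Qbar))
    (fun a => coe_baseChangeMap_apply _ _ a) x w hw

variable (N) in
/-- The constant reduction of `X₀(N)` over `K`. -/
def baseConstRed : ConstRed W π₀ (laurentBaseChange K (modularFunctionFieldFull N))
    (modularFunctionFieldFullC k N) :=
  (good_x0 W π₀ N hπ₀ hN).constRed

variable (N) in
/-- `j` in the valuation ring of `baseConstRed`. -/
def baseParam : (baseConstRed N π₀ hπ₀ hN).W := (good_x0 W π₀ N hπ₀ hN).paramX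

theorem baseParam_param : (baseConstRed N π₀ hπ₀ hN).Param (baseParam N π₀ hπ₀ hN) :=
  (good_x0 W π₀ N hπ₀ hN).param

theorem coe_baseParam :
    ((baseParam N π₀ hπ₀ hN : (baseConstRed N π₀ hπ₀ hN).W) :
      laurentBaseChange K (modularFunctionFieldFull N)) = jElem K N :=
  toE_jPair W π₀ N

theorem red_baseParam :
    (baseConstRed N π₀ hπ₀ hN).red (baseParam N π₀ hπ₀ hN) = jSpecial N :=
  (good_x0 W π₀ N hπ₀ hN).red_paramX.trans (toEb_jPair W π₀ N)

theorem exists_red_map {K Ω k : Type} [Field K] [Field Ω] [Field k] {W : ValuationSubring K}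
    {A : ValuationSubring Ω} {π₀ : W →+* k} {π : A →+* k}
    {E : IntermediateField K (LaurentSeries K)} {E' : IntermediateField Ω (LaurentSeries Ω)}
    {Eb : IntermediateField k (LaurentSeries k)} {y₀ : pairs π₀ E Eb} {y₀' : pairs π E' Eb}
    (h : (laurentMaps π₀ E Eb).Good y₀) (h' : (laurentMaps π E' Eb).Good y₀') (f : K →+* Ω)
    (hWA : ∀ w : W, f (w : K) ∈ A) (hcompat : ∀ w : W, π ⟨_, hWA w⟩ = π₀ w) (ι : E →+* E')
    (hι : ∀ a, (ι a : LaurentSeries Ω) = coeffMap f (a : LaurentSeries K)) (w : h.constRed.W) :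
    ∃ hw : ι (w : E) ∈ h'.constRed.W, h'.constRed.red ⟨_, hw⟩ = h.constRed.red w := by
  let incl : W →+* A := (f.comp W.subtype).codRestrict A.toSubring hWA
  have h1 : A.subtype.comp incl = f.comp W.subtype := rfl
  have h2 : π.comp incl = π₀ := RingHom.ext hcompat
  obtain ⟨y, z, hz, heq, hred⟩ := h.exists_pairs_of_mem w.2
  have hmem : ∀ u : pairs π₀ E Eb, coeffMap incl (u : LaurentSeries W) ∈ pairs π E' Eb := by
    intro u
    refine mem_pairs.mpr ⟨?_, ?_⟩
    · rw [coeffMap_coeffMap, h1, ← coeffMap_coeffMap]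
      have hu := (ι ⟨coeffMap W.subtype (u : LaurentSeries W), (mem_pairs.mp u.2).1⟩).2
      rw [hι] at hu
      exact hu
    · rw [coeffMap_coeffMap, h2]
      exact (mem_pairs.mp u.2).2
  have hE : ∀ u, (laurentMaps π E' Eb).toE ⟨_, hmem u⟩ = ι ((laurentMaps π₀ E Eb).toE u) :=
    fun u => Subtype.ext (by
      rw [hι, coe_laurentMaps_toE, coe_laurentMaps_toE, coeffMap_coeffMap, coeffMap_coeffMap, h1])
  have hEb : ∀ u, (laurentMaps π E' Eb).toEb ⟨_, hmem u⟩ = (laurentMaps π₀ E Eb).toEb u :=
    fun u => Subtype.ext (by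
      rw [coe_laurentMaps_toEb, coe_laurentMaps_toEb, coeffMap_coeffMap, h2])
  have hz' : (laurentMaps π E' Eb).toEb ⟨_, hmem z⟩ ≠ 0 := (hEb z).symm ▸ hz
  have heq' : ι (w : E) * (laurentMaps π E' Eb).toE ⟨_, hmem z⟩ =
      (laurentMaps π E' Eb).toE ⟨_, hmem y⟩ := by
    rw [hE, hE, ← map_mul, heq]
  obtain ⟨hw, hr⟩ : ∃ hw : ι (w : E) ∈ h'.gaussRing, h'.gaussRed ⟨_, hw⟩ =
      (laurentMaps π E' Eb).toEb ⟨_, hmem y⟩ / (laurentMaps π E' Eb).toEb ⟨_, hmem z⟩ :=
    ⟨⟨_, _, hz', heq'⟩, h'.gaussRed_eq hz' heq'⟩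
  refine ⟨hw, ?_⟩
  rw [hEb, hEb] at hr
  exact hr.trans hred.symm

include hWA hcompat in
/-- Compatibility of the reductions over `K` and `ℚ̄`. -/
theorem exists_red_baseChange
    (w : (baseConstRed N π₀ hπ₀ hN).W) :
    ∃ h : baseChangeMap (modularFunctionFieldFull N) (algebraMap K Qbar)
        (w : laurentBaseChange K (modularFunctionFieldFull N)) ∈ (good_x0 A π N hπ hN).constRed.W,
      (good_x0 A π N hπ hN).constRed.red ⟨_, h⟩ = (baseConstRed N π₀ hπ₀ hN).red w :=
  exists_red_map (good_x0 W π₀ N hπ₀ hN) (good_x0 A π N hπ hN) (algebraMap K Qbar) hWA hcompat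
    (baseChangeMap (modularFunctionFieldFull N) (algebraMap K Qbar))
    (fun a => coe_baseChangeMap_apply _ _ a) w

include hπ hWA hcompat in
/-- **Lifting over `W`.** The chart of `x` maps onto `coordRing k x̄` if the chart over `A` does. -/
theorem exists_chartRed_eq_base [IsGalois K Qbar] [IsPrincipalIdealRing W]
    {X : (baseConstRed N π₀ hπ₀ hN).W} (hX : (baseConstRed N π₀ hπ₀ hN).Param X)
    (hlift : ∀ g ∈ coordRing k ((baseConstRed N π₀ hπ₀ hN).red X),
      ∃ w : (good_x0 A π N hπ hN).constRed.W,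
        (w : modularFunctionFieldBar N) ∈ coordRing Qbar
          (baseChangeMap (modularFunctionFieldFull N) (algebraMap K Qbar)
            (X : laurentBaseChange K (modularFunctionFieldFull N))) ∧
        (good_x0 A π N hπ hN).constRed.red w = g)
    {g : modularFunctionFieldFullC k N}
    (hg : g ∈ coordRing k ((baseConstRed N π₀ hπ₀ hN).red X)) :
    ∃ a, chartRed (baseConstRed N π₀ hπ₀ hN) X a = g :=
  exists_chartRed_eq _ X hX (algebraMap K Qbar)
    (baseChangeMap (modularFunctionFieldFull N) (algebraMap K Qbar))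
    (fun c => baseChangeMap_algebraMap _ _ c)
    (fun w => (exists_red_baseChange π π₀ hπ hπ₀ hN hWA hcompat w).1)
    (fun w => (exists_red_baseChange π π₀ hπ hπ₀ hN hWA hcompat w).2)
    (fun w hw => exists_combination_bar _ w hw) hlift hg

/-- `1/j` in the valuation ring of `baseConstRed`. -/
def baseParamInv : (baseConstRed N π₀ hπ₀ hN).W :=
  (baseConstRed N π₀ hπ₀ hN).invParam (baseParam_param π₀ hπ₀ hN)

include hπ hWA hcompat in
/-- The `j`-chart over `W` maps onto `coordRing k j̄`. -/
theorem exists_chartRed_eq_jParam [IsGalois K Qbar] [IsPrincipalIdealRing W]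
    (hnormal : (good_x0 A π N hπ hN).constRed.Normal (good_x0 A π N hπ hN).paramX)
    {g : modularFunctionFieldFullC k N} (hg : g ∈ coordRing k (jSpecial (k := k) N)) :
    ∃ a, chartRed (baseConstRed N π₀ hπ₀ hN) (baseParam N π₀ hπ₀ hN) a = g := by
  refine exists_chartRed_eq_base π π₀ hπ hπ₀ hN hWA hcompat (baseParam_param π₀ hπ₀ hN) ?_
    ((red_baseParam π₀ hπ₀ hN).symm ▸ hg)
  intro g' hg'
  have hbc : baseChangeMap (modularFunctionFieldFull N) (algebraMap K Qbar)
      ((baseParam N π₀ hπ₀ hN : (baseConstRed N π₀ hπ₀ hN).W) :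
        laurentBaseChange K (modularFunctionFieldFull N)) =
      ((good_x0 A π N hπ hN).paramX : (good_x0 A π N hπ hN).constRed.W) := Subtype.ext (by
    rw [coe_baseChangeMap_apply, coe_baseParam]
    refine Eq.trans ?_ (congrArg Subtype.val (toE_jPair A π N)).symm
    show coeffMap (algebraMap K Qbar) (jqModC K) = jqModC Qbar
    exact coeffMap_jqModC _)
  rw [red_baseParam] at hg'
  rw [hbc]
  exact hnormal g' ((good_x0 A π N hπ hN).red_paramX.trans (toEb_jPair A π N) ▸ hg')

include hπ hWA hcompat in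
/-- The chart at the cusps over `W` maps onto `coordRing k j̄⁻¹`. -/
theorem exists_chartRed_eq_jParamInv [IsGalois K Qbar] [IsPrincipalIdealRing W]
    (hnormal : (good_x0 A π N hπ hN).constRed.Normal
      ((good_x0 A π N hπ hN).constRed.invParam (good_x0 A π N hπ hN).param))
    {g : modularFunctionFieldFullC k N} (hg : g ∈ coordRing k (jSpecial (k := k) N)⁻¹) :
    ∃ a, chartRed (baseConstRed N π₀ hπ₀ hN) (baseParamInv π₀ hπ₀ hN) a = g := by
  have hred : (baseConstRed N π₀ hπ₀ hN).red (baseParamInv π₀ hπ₀ hN) = (jSpecial N)⁻¹ :=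
    ((baseConstRed N π₀ hπ₀ hN).red_invParam _).trans
      (congrArg (·⁻¹) (red_baseParam π₀ hπ₀ hN))
  refine exists_chartRed_eq_base π π₀ hπ hπ₀ hN hWA hcompat
    ((baseConstRed N π₀ hπ₀ hN).param_invParam (baseParam_param π₀ hπ₀ hN)) ?_ (hred.symm ▸ hg)
  intro g' hg'
  have hbc : baseChangeMap (modularFunctionFieldFull N) (algebraMap K Qbar)
      (((baseConstRed N π₀ hπ₀ hN).invParam (baseParam_param π₀ hπ₀ hN) :
        (baseConstRed N π₀ hπ₀ hN).W) : laurentBaseChange K (modularFunctionFieldFull N)) =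
      (((good_x0 A π N hπ hN).constRed.invParam (good_x0 A π N hπ hN).param :
        (good_x0 A π N hπ hN).constRed.W) : modularFunctionFieldBar N) := by
    show baseChangeMap (modularFunctionFieldFull N) (algebraMap K Qbar)
      ((baseParam N π₀ hπ₀ hN : (baseConstRed N π₀ hπ₀ hN).W) :
        laurentBaseChange K (modularFunctionFieldFull N))⁻¹ =
      (((good_x0 A π N hπ hN).paramX : (good_x0 A π N hπ hN).constRed.W) :
        modularFunctionFieldBar N)⁻¹
    rw [map_inv₀]
    refine congrArg (·⁻¹) (Subtype.ext ?_)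
    rw [coe_baseChangeMap_apply, coe_baseParam]
    refine Eq.trans ?_ (congrArg Subtype.val (toE_jPair A π N)).symm
    show coeffMap (algebraMap K Qbar) (jqModC K) = jqModC Qbar
    exact coeffMap_jqModC _
  have hg'' : g' ∈ coordRing k ((good_x0 A π N hπ hN).constRed.red
      ((good_x0 A π N hπ hN).constRed.invParam (good_x0 A π N hπ hN).param)) := by
    rw [ConstRed.red_invParam, (good_x0 A π N hπ hN).red_paramX, toEb_jPair]
    exact hred ▸ hg'
  rw [hbc]
  exact hnormal g' hg''

end Fermat.Agent.Carayol.LiftBase
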