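/-
Two-dimensional noetherian local domains with two-generated maximal ideal are factorial.
Used for the local rings of `X₀(q² L)` at supersingular and at ordinary points of the special fibre.
-/
import Mathlib.RingTheory.UniqueFactorizationDomain.Kaplansky
import Mathlib.RingTheory.Ideal.KrullsHeightTheorem
import Mathlib.RingTheory.Filtration
import Mathlib.RingTheory.Nakayama

set_option autoImplicit false

namespace Fermat.Agent.Carayol

open Ideal IsLocalRing

variable {R : Type*} [CommRing R] [IsDomain R] [IsLocalRing R] [IsNoetherianRing R]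

omit [IsDomain R] in
/-- Nakayama: `Q ≤ J + x • Q` implies `Q ≤ J`. -/
theorem le_of_le_sup_mul_self {x : R} (hx : x ∈ maximalIdeal R) {Q J : Ideal R}
    (h : Q ≤ J ⊔ span {x} * Q) : Q ≤ J :=
  Submodule.le_of_le_smul_of_le_jacobson_bot (I := span {x}) (IsNoetherian.noetherian Q)
    (by rw [jacobson_eq_maximalIdeal _ bot_ne_top]; simpa [span_le] using hx)
    (by rwa [smul_eq_mul])

variable {x y : R}

/-- No power of `y` lies in `(x)` when the dimension is at least two. -/
theorem pow_not_mem_span (hm : maximalIdeal R = span {x, y})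
    {P : Ideal R} [P.IsPrime] (hP0 : P ≠ ⊥) (hPm : P ≠ maximalIdeal R) (n : ℕ) :
    y ^ n ∉ span ({x} : Set R) := by
  intro hy
  have hxm : x ∈ maximalIdeal R := hm ▸ subset_span (Set.mem_insert _ _)
  have hmin : maximalIdeal R ∈ (span ({x} : Set R)).minimalPrimes := by
    refine ⟨⟨inferInstance, by simpa [span_le] using hxm⟩, fun q ⟨hq, hxq⟩ _ => ?_⟩
    rw [hm, span_le, Set.insert_subset_iff, Set.singleton_subset_iff]
    exact ⟨hxq (mem_span_singleton_self x), hq.mem_of_pow_mem n (hxq hy)⟩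
  have h1 := height_le_one_of_isPrincipal_of_mem_minimalPrimes _ _ hmin
  have hlt : P < maximalIdeal R :=
    lt_of_le_of_ne (le_maximalIdeal (IsPrime.ne_top ‹_›)) hPm
  have hb : (⊥ : Ideal R) < P := bot_lt_iff_ne_bot.mpr hP0
  have : (⊥ : Ideal R).IsPrime := isPrime_bot
  have h2 := height_add_one_le_of_lt_of_isPrime hlt
  have h3 := height_add_one_le_of_lt_of_isPrime hb
  have : (P.height : ℕ∞) + 1 ≤ 1 := h2.trans h1
  have : P.height = 0 := by
    rcases eq_or_ne P.height 0 with h | h
    · exact h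
    · exact absurd ((add_le_add_left (Order.one_le_iff_ne_zero.mpr h) 1).trans this) (by decide)
  rw [this] at h3
  exact absurd (le_trans le_add_self h3) (by decide)

omit [IsDomain R] in
/-- Modulo `x` every nonzero element is a unit times a power of `y`. -/
theorem exists_unit_mul_pow_sub_mem (hm : maximalIdeal R = span {x, y}) {r : R}
    (hr : r ∉ span ({x} : Set R)) : ∃ (n : ℕ) (u : R), IsUnit u ∧ r - u * y ^ n ∈ span {x} := by
  let I := span ({x} : Set R)
  have hxm : x ∈ maximalIdeal R := hm ▸ subset_span (Set.mem_insert _ _)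
  have hI : I ≠ ⊤ := fun h => maximalIdeal.isMaximal R |>.ne_top
    (top_le_iff.mp (h ▸ (by simpa [I, span_le] using hxm)))
  have : Nontrivial (R ⧸ I) := Ideal.Quotient.nontrivial_iff.mpr hI
  have : IsLocalRing (R ⧸ I) :=
    IsLocalRing.of_surjective' (Ideal.Quotient.mk I) Ideal.Quotient.mk_surjective
  let π := Ideal.Quotient.mk I
  have hbot := iInf_pow_eq_bot_of_isLocalRing (span {π y}) (fun h => by
    have hu : IsUnit (π y) := span_singleton_eq_top.mp h
    obtain ⟨z, hz⟩ := isUnit_iff_exists_inv.mp hu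
    obtain ⟨z, rfl⟩ := Ideal.Quotient.mk_surjective z
    rw [← map_mul, ← map_one π, Ideal.Quotient.eq] at hz
    have hy : y ∈ maximalIdeal R := hm ▸ subset_span (Set.mem_insert_of_mem _ rfl)
    have : (1 : R) ∈ maximalIdeal R := by
      have := sub_mem ((maximalIdeal R).mul_mem_right z hy)
        ((span_le.mpr (Set.singleton_subset_iff.mpr hxm)) hz)
      simp at this
    exact (maximalIdeal.isMaximal R).ne_top ((eq_top_iff_one _).mpr this))
  have hr' : π r ≠ 0 := fun h => hr (Ideal.Quotient.eq_zero_iff_mem.mp h)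
  have hex : ∃ n, π r ∉ span {π y} ^ n := by
    by_contra! h
    have h' : π r ∈ ⨅ i : ℕ, span {π y} ^ i := (Submodule.mem_iInf _).mpr h
    rw [hbot] at h'
    exact hr' (Ideal.mem_bot.mp h')
  classical
  have hn0 : Nat.find hex ≠ 0 := fun h => Nat.find_spec hex (by rw [h]; simp)
  obtain ⟨n, hn⟩ := Nat.exists_eq_succ_of_ne_zero hn0
  have hmem : π r ∈ span {π y} ^ n := by
    by_contra h
    exact Nat.find_min hex (hn ▸ n.lt_succ_self) h
  rw [span_singleton_pow, mem_span_singleton] at hmem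
  obtain ⟨c, hc⟩ := hmem
  obtain ⟨u, rfl⟩ := Ideal.Quotient.mk_surjective c
  refine ⟨n, u, ?_, ?_⟩
  · by_contra hu
    have : u ∈ span ({x, y} : Set R) := hm ▸ (mem_maximalIdeal u).mpr hu
    obtain ⟨a, b, rfl⟩ := mem_span_pair.mp this
    apply Nat.find_spec hex
    rw [hn, span_singleton_pow, mem_span_singleton]
    refine ⟨π b, ?_⟩
    have hx0 : π x = 0 := Ideal.Quotient.eq_zero_iff_mem.mpr (mem_span_singleton_self x)
    simp only [map_add, map_mul] at hc
    rw [hc, hx0, pow_succ]
    ring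
  · refine Ideal.Quotient.eq.mp (show π r = π (u * y ^ n) from ?_)
    rw [hc, map_mul, map_pow, mul_comm]

/-- `(x)` is prime. -/
theorem prime_of_two_gen (hm : maximalIdeal R = span {x, y}) (hx0 : x ≠ 0)
    {P : Ideal R} [P.IsPrime] (hP0 : P ≠ ⊥) (hPm : P ≠ maximalIdeal R) : Prime x := by
  have hxm : x ∈ maximalIdeal R := hm ▸ subset_span (Set.mem_insert _ _)
  refine (span_singleton_prime hx0).mp ⟨fun h => ?_, fun {a b} hab => ?_⟩
  · exact (mem_maximalIdeal x).mp hxm (span_singleton_eq_top.mp h)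
  by_contra! hne
  obtain ⟨n, u, hu, ha⟩ := exists_unit_mul_pow_sub_mem hm hne.1
  obtain ⟨n', u', hu', hb⟩ := exists_unit_mul_pow_sub_mem hm hne.2
  apply pow_not_mem_span hm hP0 hPm (n + n')
  have : u * u' * y ^ (n + n') ∈ span ({x} : Set R) := by
    have e : u * u' * y ^ (n + n') =
        a * b - (a - u * y ^ n) * b - u * y ^ n * (b - u' * y ^ n') := by ring
    rw [e]
    exact sub_mem (sub_mem hab (Ideal.mul_mem_right _ _ ha)) (Ideal.mul_mem_left _ _ hb)
  exact (Ideal.unit_mul_mem_iff_mem _ (hu.mul hu')).mp this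

/-- A noetherian local domain of dimension at least two whose maximal ideal is generated by two
elements is a unique factorisation domain. -/
theorem ufm_of_two_gen (hm : maximalIdeal R = span {x, y}) (hx0 : x ≠ 0)
    {P : Ideal R} [P.IsPrime] (hP0 : P ≠ ⊥) (hPm : P ≠ maximalIdeal R) :
    UniqueFactorizationMonoid R := by
  have hxm : x ∈ maximalIdeal R := hm ▸ subset_span (Set.mem_insert _ _)
  have hxp := prime_of_two_gen hm hx0 hP0 hPm
  rw [UniqueFactorizationMonoid.iff_exists_prime_mem_of_isPrime]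
  intro Q hQ0 hQ
  by_cases hxQ : x ∈ Q
  · exact ⟨x, hxQ, hxp⟩
  have hdvd : ∀ q ∈ Q, q ∈ span ({x} : Set R) → q ∈ span {x} * Q := by
    intro q hq hq'
    obtain ⟨c, rfl⟩ := mem_span_singleton.mp hq'
    exact mul_mem_mul (mem_span_singleton_self x) ((hQ.mem_or_mem hq).resolve_left hxQ)
  have hex : ∃ n, ∃ q ∈ Q, ∃ u, IsUnit u ∧ q - u * y ^ n ∈ span ({x} : Set R) := by
    by_contra! h
    refine hQ0 (le_bot_iff.mp (le_of_le_sup_mul_self hxm fun q hq => ?_))
    rw [bot_sup_eq]
    refine hdvd q hq ?_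
    by_contra hqx
    obtain ⟨n, u, hu, hqu⟩ := exists_unit_mul_pow_sub_mem hm hqx
    exact h n q hq u hu hqu
  classical
  obtain ⟨q₀, hq₀, u₀, hu₀, hmem₀⟩ := Nat.find_spec hex
  have hle : Q ≤ span {q₀} := by
    refine le_of_le_sup_mul_self hxm fun q hq => ?_
    by_cases hqx : q ∈ span ({x} : Set R)
    · exact Submodule.mem_sup_right (hdvd q hq hqx)
    obtain ⟨n, u, hu, hqu⟩ := exists_unit_mul_pow_sub_mem hm hqx
    obtain ⟨d, hd⟩ := Nat.exists_eq_add_of_le (Nat.find_le (h := hex) ⟨q, hq, u, hu, hqu⟩)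
    obtain ⟨v, hv⟩ := hu₀.exists_left_inv
    have hc : q - u * v * y ^ d * q₀ ∈ span ({x} : Set R) := by
      have e : q - u * v * y ^ d * q₀ =
          (q - u * y ^ n) - u * v * y ^ d * (q₀ - u₀ * y ^ Nat.find hex) := by
        rw [hd, pow_add]
        linear_combination (-(u * y ^ Nat.find hex * y ^ d)) * hv
      rw [e]
      exact sub_mem hqu (Ideal.mul_mem_left _ _ hmem₀)
    have hq' : q - u * v * y ^ d * q₀ ∈ Q := sub_mem hq (Q.mul_mem_left _ hq₀)
    rw [Submodule.mem_sup]
    exact ⟨u * v * y ^ d * q₀, Ideal.mul_mem_left _ _ (mem_span_singleton_self q₀),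
      _, hdvd _ hq' hc, by ring⟩
  have hQeq : Q = span {q₀} := le_antisymm hle (by simpa [span_le] using hq₀)
  have hq00 : q₀ ≠ 0 := fun h => hQ0 (by rw [hQeq, h, span_singleton_eq_bot])
  exact ⟨q₀, hq₀, (span_singleton_prime hq00).mp (hQeq ▸ hQ)⟩

end Fermat.Agent.Carayol
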