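import Fermat.Agent.CarayolHigh.Local
import Fermat.Agent.Carayol.TwoDimUFD
import Mathlib.RingTheory.IntegralClosure.IntegrallyClosed
import Mathlib.RingTheory.Polynomial.ScaleRoots

/-!
Supersingular points of the finite chart of `X₀(q² Lss)` at `q`.

`R` is the chart, `B` the chart of level `Lss` with its three embeddings `ι i` (`τ ↦ qⁱ τ`), `Bb` its
reduction, `r i` the reductions along the three branches. A point of the level `Lss` reduction with
`x^(q²) = x` and `Ū (x, x^q) ≠ 0` lies on all three branches, where it gives one and the same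
point; the local ring there is factorial.
-/

set_option autoImplicit false

namespace Fermat.Agent.Carayol

open Polynomial

/-- `D (a)`. -/
noncomputable def evalZ {A : Type*} [CommRing A] (a : A) (D : ℤ[X]) : A :=
  D.eval₂ (Int.castRingHom A) a

/-- `U (a, b)`. -/
noncomputable def bieval {A : Type*} [CommRing A] (a b : A) (U : Polynomial ℤ[X]) : A :=
  U.eval₂ (eval₂RingHom (Int.castRingHom A) a) b

theorem map_bieval {A A' : Type*} [CommRing A] [CommRing A'] (f : A →+* A') (a b : A)
    (U : Polynomial ℤ[X]) : f (bieval a b U) = bieval (f a) (f b) U := by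
  rw [bieval, Polynomial.hom_eval₂, bieval]
  congr 1
  exact Polynomial.ringHom_ext' (RingHom.ext_int _ _) (by simp)

theorem map_evalZ {A A' : Type*} [CommRing A] [CommRing A'] (f : A →+* A') (a : A)
    (D : ℤ[X]) : f (evalZ a D) = evalZ (f a) D := by
  rw [evalZ, Polynomial.hom_eval₂, RingHom.ext_int (f.comp _) (Int.castRingHom A'), evalZ]

/-- `τ ↦ qʲ τ` seen on the branch `i`: the power of Frobenius. -/
def depth : Fin 3 → Fin 3 → ℕ := ![![0, 1, 2], ![0, 1, 0], ![2, 1, 0]]

/-- A root of the scaled polynomial is a multiple of the scale in a factorial domain. -/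
theorem exists_eq_mul_of_scaleRoots {A L : Type*} [CommRing A] [CommRing L] [IsDomain L]
    [UniqueFactorizationMonoid L] (f : A →+* L) {p : A[X]} (hp : p.Monic) {s z : A}
    (hs : f s ≠ 0) (h0 : (p.scaleRoots s).eval z = 0) : ∃ y, f z = y * f s := by
  have : IsIntegrallyClosed L := UniqueFactorizationMonoid.instIsIntegrallyClosed
  let φ : A →+* FractionRing L := (algebraMap L (FractionRing L)).comp f
  have hs' : φ s ≠ 0 := (map_ne_zero_iff _ (IsFractionRing.injective L _)).mpr hs
  have hx : p.eval₂ φ (φ z / φ s) = 0 := by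
    have h1 := scaleRoots_eval₂_mul (p := p) φ (φ z / φ s) s
    rw [mul_div_cancel₀ _ hs', eval₂_at_apply, h0, map_zero] at h1
    exact (mul_eq_zero.mp h1.symm).resolve_left (pow_ne_zero _ hs')
  have hxi : IsIntegral L (φ z / φ s) := ⟨p.map f, hp.map _, by rw [eval₂_map]; exact hx⟩
  obtain ⟨y, hy⟩ := IsIntegrallyClosed.isIntegral_iff.mp hxi
  refine ⟨y, IsFractionRing.injective L (FractionRing L) ?_⟩
  rw [map_mul, hy]
  exact (div_mul_cancel₀ _ hs').symm

variable (W k R B Bb : Type) [CommRing W] [Field k] [CommRing R] [CommRing B] [CommRing Bb]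
  [Algebra W R] [Algebra W B] [Algebra k Bb]

/-- The three branches and the modular equation on the finite chart. -/
structure SSData where
  q : ℕ
  hq : q.Prime
  ρ : W →+* k
  r : Fin 3 → R →+* Bb
  r_const : ∀ i (w : W), r i (algebraMap W R w) = algebraMap k Bb (ρ w)
  ι : Fin 3 → B →ₐ[W] R
  red : B →+* Bb
  red_surjective : Function.Surjective red
  σ : Bb →ₐ[k] Bb
  r_ι : ∀ i j b, r i (ι j b) = σ^[depth i j] (red b)
  t : B
  σ_t : σ (red t) = red t ^ q
  D : ℤ[X]
  e : ℕ
  U : Polynomial ℤ[X]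
  /-- `Φ (t_j, t_1) = 0` -/
  rel : ∀ j : Fin 3, j ≠ 1 → evalZ (ι j t) D ^ e *
    ((ι j t - ι 1 t ^ q) * (ι j t ^ q - ι 1 t)) + q * bieval (ι j t) (ι 1 t) U = 0
  /-- `Φ (t_1, t_j) = 0` -/
  rel' : ∀ j : Fin 3, j ≠ 1 → evalZ (ι 1 t) D ^ e *
    ((ι 1 t - ι j t ^ q) * (ι 1 t ^ q - ι j t)) + q * bieval (ι 1 t) (ι j t) U = 0
  /-- what vanishes on the branch `2` times `(t₁ - t₀^q)/q` is in the chart -/
  div₀ : ∀ a, r 2 a = 0 → ∃ a', (q : R) * a' = a * (ι 1 t - ι 0 t ^ q)
  div₂ : ∀ a, r 0 a = 0 → ∃ a', (q : R) * a' = a * (ι 1 t - ι 2 t ^ q)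
  q_ne_zero : (q : R) ≠ 0

variable {W k R B Bb}

namespace SSData

variable (S : SSData W k R B Bb) (π : Bb →ₐ[k] k)

/-- The value of `t`. -/
def x : k := π (S.red S.t)

/-- A supersingular point: `x ∈ 𝔽_(q²)` is not a cusp and `Ū (x, x^q) ≠ 0`. -/
def IsSS : Prop :=
  (evalZ (S.x π) S.D : k) ≠ 0 ∧ S.x π ^ (S.q ^ 2) = S.x π ∧
    bieval (S.x π) (S.x π ^ S.q) S.U ≠ 0

/-- The point on the branch `i`. -/
def point (i : Fin 3) : R →+* k := π.toRingHom.comp (S.r i)

theorem point_apply (i : Fin 3) (a : R) : S.point π i a = π (S.r i a) := rfl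

theorem σ_iterate_t : ∀ n, S.σ^[n] (S.red S.t) = S.red S.t ^ (S.q ^ n)
  | 0 => by simp
  | n + 1 => by
    rw [Function.iterate_succ_apply', σ_iterate_t n, map_pow, S.σ_t, ← pow_mul, pow_succ']

theorem point_ι_t (i j : Fin 3) :
    S.point π i (S.ι j S.t) = S.x π ^ (S.q ^ depth i j) := by
  rw [point_apply, S.r_ι, S.σ_iterate_t, map_pow]; rfl

variable [IsDomain R] {π}

/-- Where a branch `i` kills `t_j - t₁^q`, what vanishes on the opposite branch vanishes. -/
theorem point_eq_zero {j : Fin 3} (hj : j ≠ 1) {i : Fin 3}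
    (hx : (S.x π ^ (S.q ^ depth i 1)) ^ S.q = S.x π ^ (S.q ^ depth i j))
    (hU : bieval (S.x π ^ (S.q ^ depth i j)) (S.x π ^ (S.q ^ depth i 1)) S.U ≠ 0)
    {a a' : R} (ha' : (S.q : R) * a' = a * (S.ι 1 S.t - S.ι j S.t ^ S.q)) :
    S.point π i a = 0 := by
  have h : a' * (evalZ (S.ι j S.t) S.D ^ S.e * (S.ι j S.t - S.ι 1 S.t ^ S.q)) =
      a * bieval (S.ι j S.t) (S.ι 1 S.t) S.U := by
    refine mul_left_cancel₀ S.q_ne_zero ?_
    linear_combination (evalZ (S.ι j S.t) S.D ^ S.e * (S.ι j S.t - S.ι 1 S.t ^ S.q)) * ha'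
      - a * S.rel j hj
  have h' := congrArg (S.point π i) h
  simp only [map_mul, map_sub, map_pow, map_bieval, S.point_ι_t, hx, sub_self, mul_zero] at h'
  exact (mul_eq_zero.mp h'.symm).resolve_right hU

variable (hπ : S.IsSS π)
include hπ

/-- **A supersingular point lies on all three branches**, as one point. -/
theorem point_eq (i : Fin 3) : S.point π i = S.point π 1 := by
  obtain ⟨-, hx, hU⟩ := hπ
  have key : ∀ j : Fin 3, depth j j = 0 → depth 1 j = 0 →
      (∀ a, S.r j a = 0 → S.point π 1 a = 0) → S.point π j = S.point π 1 := by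
    intro j hjj h1j h
    refine RingHom.ext fun a => ?_
    obtain ⟨b, hb⟩ := S.red_surjective (S.r j a)
    have hz : S.r j (a - S.ι j b) = 0 := by
      rw [map_sub, S.r_ι, hjj, Function.iterate_zero_apply, hb, sub_self]
    have := h _ hz
    rw [map_sub, sub_eq_zero, point_apply, point_apply, S.r_ι, h1j,
      Function.iterate_zero_apply, hb] at this
    rw [point_apply, point_apply, this]
  have hx' : (S.x π ^ S.q) ^ S.q = S.x π := by rw [← pow_mul, ← sq]; exact hx
  fin_cases i
  · refine key 0 rfl rfl fun a ha => ?_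
    obtain ⟨a', ha'⟩ := S.div₂ a ha
    exact S.point_eq_zero (j := 2) (by decide) (i := 1) (by simpa [depth] using hx')
      (by simpa [depth] using hU) ha'
  · rfl
  · refine key 2 rfl rfl fun a ha => ?_
    obtain ⟨a', ha'⟩ := S.div₀ a ha
    exact S.point_eq_zero (j := 0) (by decide) (i := 1) (by simpa [depth] using hx')
      (by simpa [depth] using hU) ha'

/-- All three branches pass through a supersingular point. -/
theorem point_eq_zero_of_r_eq_zero (i j : Fin 3) {a : R} (h : S.r j a = 0) :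
    S.point π i a = 0 := by
  rw [S.point_eq hπ i, ← S.point_eq hπ j, point_apply, h, map_zero]

omit [IsDomain R] hπ in
/-- The subalgebra generated by the three images of the level `Lss` chart. -/
def gens : Subalgebra W R := Algebra.adjoin W (⋃ j, Set.range (S.ι j))

omit [IsDomain R] hπ in
theorem ι_mem (j : Fin 3) (b : B) : S.ι j b ∈ S.gens :=
  Algebra.subset_adjoin (Set.mem_iUnion_of_mem j ⟨b, rfl⟩)

omit [IsDomain R] hπ in
/-- `ι j` into the generated subalgebra. -/
noncomputable def gι (j : Fin 3) : B →ₐ[W] S.gens := (S.ι j).codRestrict S.gens (S.ι_mem j)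

omit [IsDomain R] hπ in
theorem coe_gι (j : Fin 3) (b : B) : ((S.gι j b : S.gens) : R) = S.ι j b := rfl

/-- The point, restricted to the generated subalgebra. -/
noncomputable def gensPoint : S.gens →+* k := (S.point π 1).comp S.gens.val.toRingHom

instance isPrime_gensPoint : (RingHom.ker (S.gensPoint (π := π))).IsPrime :=
  RingHom.ker_isPrime _

omit [IsDomain R] hπ in
theorem gensPoint_algebraMap (u : W) :
    S.gensPoint (π := π) (algebraMap W S.gens u) = S.ρ u := by
  change π (S.r 1 (algebraMap W R u)) = _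
  rw [S.r_const, AlgHom.commutes]; rfl

omit [IsDomain R] hπ in
theorem gensPoint_gι_t (j : Fin 3) :
    S.gensPoint (π := π) (S.gι j S.t) = S.x π ^ (S.q ^ depth 1 j) :=
  S.point_ι_t π 1 j

omit [IsDomain R] hπ in
theorem gι_rel {i j : Fin 3} (h : evalZ (S.ι i S.t) S.D ^ S.e *
    ((S.ι i S.t - S.ι j S.t ^ S.q) * (S.ι i S.t ^ S.q - S.ι j S.t)) +
      S.q * bieval (S.ι i S.t) (S.ι j S.t) S.U = 0) :
    evalZ (S.gι i S.t) S.D ^ S.e *
      ((S.gι i S.t - S.gι j S.t ^ S.q) * (S.gι i S.t ^ S.q - S.gι j S.t)) +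
      S.q * bieval (S.gι i S.t) (S.gι j S.t) S.U = 0 := by
  have hv : Function.Injective S.gens.val.toRingHom := Subtype.val_injective
  apply hv
  simp only [map_add, map_mul, map_pow, map_sub, map_natCast, map_bieval, map_evalZ, map_zero]
  exact h

omit [IsDomain R] in
theorem evalZ_D_frob [Fact S.q.Prime] [CharP k S.q] (j : Fin 3) :
    (evalZ (S.x π ^ (S.q ^ depth 1 j)) S.D : k) ≠ 0 := by
  have e : (evalZ (S.x π ^ S.q) S.D : k) = evalZ (S.x π) S.D ^ S.q :=
    (map_evalZ (frobenius k S.q) _ _).symm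
  fin_cases j <;> simp [depth, e, hπ.1]

section Local

variable (hρ : Function.Surjective S.ρ)
  (hker : ∀ w, S.ρ w = 0 → (S.q : W) ∣ w)
  (het : ∀ π' : Bb →ₐ[k] k, (evalZ (π' (S.red S.t)) S.D : k) ≠ 0 →
    ∀ w, S.ρ w = π' (S.red S.t) → ∀ b, π' (S.red b) = 0 →
      ∃ s, π' (S.red s) ≠ 0 ∧ s * b ∈ Ideal.span {(S.q : B), S.t - algebraMap W B w})
  [IsNoetherianRing S.gens] [CharP k S.q] [Fact S.q.Prime]
  (hne : S.ι 0 S.t ≠ S.ι 2 S.t) (htr : ∀ c : k, S.red S.t ≠ algebraMap k Bb c) [IsDomain Bb]

local notation "Lss" => Localization.AtPrime (RingHom.ker (SSData.gensPoint S (π := π)))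

omit [IsDomain R] [IsNoetherianRing S.gens] [IsDomain Bb] in
include hρ hker het in
/-- `q` and the three coordinates generate the maximal ideal. -/
theorem maximalIdeal_le {w : Fin 3 → W} (hw : ∀ j, S.ρ (w j) = S.x π ^ (S.q ^ depth 1 j)) :
    IsLocalRing.maximalIdeal Lss ≤ Ideal.span (insert (S.q : Lss)
      (Set.range fun j => algebraMap S.gens Lss (S.gι j S.t - algebraMap W S.gens (w j)))) := by
  set I := RingHom.ker (S.gensPoint (π := π))
  set J := Ideal.span (insert (S.q : Lss)
    (Set.range fun j => algebraMap S.gens Lss (S.gι j S.t - algebraMap W S.gens (w j))))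
  have hqJ : (S.q : Lss) ∈ J := Ideal.subset_span (Set.mem_insert _ _)
  have hbase : ∀ (j : Fin 3) (b : B), S.point π 1 (S.ι j b) = 0 →
      algebraMap S.gens Lss (S.gι j b) ∈ J := by
    intro j b hb
    let π' : Bb →ₐ[k] k := Nat.rec π (fun _ f => f.comp S.σ) (depth 1 j)
    have hπ' : ∀ z, π' z = π (S.σ^[depth 1 j] z) := by
      intro z; fin_cases j <;> rfl
    have hp : ∀ b, π' (S.red b) = S.point π 1 (S.ι j b) := fun b => by
      rw [hπ', point_apply, S.r_ι]
    have hxj : π' (S.red S.t) = S.x π ^ (S.q ^ depth 1 j) := by rw [hp, S.point_ι_t]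
    obtain ⟨s, hs, hsb⟩ := het π' (by rw [hxj]; exact S.evalZ_D_frob hπ j) (w j)
      (by rw [hw, hxj]) b (by rw [hp]; exact hb)
    let f : B →+* Lss := (algebraMap S.gens Lss).comp (S.gι j).toRingHom
    have hf : f (s * b) ∈ J := by
      refine (Ideal.map_le_iff_le_comap.mpr ?_) (Ideal.mem_map_of_mem f hsb)
      rw [Ideal.span_le]
      rintro _ (rfl | rfl)
      · simp [hqJ]
      · refine Ideal.mem_comap.mpr (Ideal.subset_span (Set.mem_insert_of_mem _ ⟨j, ?_⟩))
        simp [f]
    rw [map_mul] at hf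
    refine (Ideal.unit_mul_mem_iff_mem _ ?_).mp hf
    exact IsLocalization.map_units Lss
      (⟨S.gι j s, show S.point π 1 (S.ι j s) ≠ 0 by rw [← hp]; exact hs⟩ : I.primeCompl)
  have hcst : ∀ u : W, S.ρ u = 0 → algebraMap S.gens Lss (algebraMap W S.gens u) ∈ J := by
    intro u hu
    obtain ⟨v, rfl⟩ := hker u hu
    rw [map_mul, map_mul, map_natCast, map_natCast]
    exact J.mul_mem_right _ hqJ
  have hgen : ∀ z : S.gens, ∀ u : W, S.gensPoint (π := π) z = S.ρ u →
      algebraMap S.gens Lss (z - algebraMap W S.gens u) ∈ J := by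
    rintro ⟨z, hz⟩
    induction hz using Algebra.adjoin_induction with
    | mem z hz =>
      intro u hu
      obtain ⟨j, b, rfl⟩ := Set.mem_iUnion.mp hz
      have := hbase j (b - algebraMap W B u) (by
        rw [map_sub, AlgHom.commutes, map_sub, point_apply _ _ _ (algebraMap W R u), S.r_const,
          AlgHom.commutes, sub_eq_zero]
        exact hu)
      rw [map_sub (S.gι j), AlgHom.commutes] at this
      exact this
    | algebraMap v =>
      intro u hu
      have := hcst (v - u) (by
        rw [map_sub, ← S.gensPoint_algebraMap (π := π) v, ← hu, sub_eq_zero]; rfl)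
      rw [map_sub (algebraMap W S.gens)] at this
      exact this
    | add a b ha hb iha ihb =>
      intro u hu
      obtain ⟨ua, hua⟩ := hρ (S.gensPoint (π := π) ⟨a, ha⟩)
      obtain ⟨ub, hub⟩ := hρ (S.gensPoint (π := π) ⟨b, hb⟩)
      have h0 := hcst (ua + ub - u) (by
        rw [map_sub, map_add, hua, hub, ← hu, ← map_add, sub_eq_zero]; rfl)
      have := J.add_mem (J.add_mem (iha ua hua.symm) (ihb ub hub.symm)) h0
      convert this using 1
      rw [show (⟨a + b, _⟩ : S.gens) = ⟨a, ha⟩ + ⟨b, hb⟩ from rfl]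
      simp only [map_add, map_sub]
      ring
    | mul a b ha hb iha ihb =>
      intro u hu
      obtain ⟨ua, hua⟩ := hρ (S.gensPoint (π := π) ⟨a, ha⟩)
      obtain ⟨ub, hub⟩ := hρ (S.gensPoint (π := π) ⟨b, hb⟩)
      have h0 := hcst (ua * ub - u) (by
        rw [map_sub, map_mul, hua, hub, ← hu, ← map_mul, sub_eq_zero]; rfl)
      have := J.add_mem (J.add_mem
        (J.mul_mem_right (algebraMap S.gens Lss ⟨b, hb⟩) (iha ua hua.symm))
        (J.mul_mem_left (algebraMap S.gens Lss (algebraMap W S.gens ua)) (ihb ub hub.symm))) h0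
      convert this using 1
      rw [show (⟨a * b, _⟩ : S.gens) = ⟨a, ha⟩ * ⟨b, hb⟩ from rfl]
      simp only [map_mul, map_sub]
      ring
  rw [← IsLocalization.AtPrime.map_eq_maximalIdeal I Lss, Ideal.map_le_iff_le_comap]
  intro z hz
  have := hgen z 0 (by rw [map_zero]; exact hz)
  simpa using this

include hρ hker het hne htr in
/-- The local ring of the generated subalgebra at a supersingular point is factorial. -/
theorem ufm_gens : UniqueFactorizationMonoid Lss := by
  set I := RingHom.ker (S.gensPoint (π := π))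
  have hxq : (S.x π ^ S.q) ^ S.q = S.x π := by rw [← pow_mul, ← sq]; exact hπ.2.1
  obtain ⟨w₀, hw₀⟩ := hρ (S.x π)
  let w : Fin 3 → W := ![w₀, w₀ ^ S.q, w₀]
  have hw : ∀ j, S.ρ (w j) = S.x π ^ (S.q ^ depth 1 j) := by
    intro j; fin_cases j <;> simp [w, depth, hw₀]
  let f := algebraMap S.gens Lss
  let T : Fin 3 → Lss := fun j => f (S.gι j S.t)
  let c : Fin 3 → Lss := fun j => f (algebraMap W S.gens (w j))
  have hle : I.primeCompl ≤ nonZeroDivisors S.gens :=
    le_nonZeroDivisors_of_noZeroDivisors fun h0 => h0 (Submodule.zero_mem _)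
  have : IsDomain Lss := IsLocalization.isDomain_of_le_nonZeroDivisors Lss hle
  have hinj : Function.Injective f := IsLocalization.injective Lss hle
  have hunit : ∀ s : S.gens, S.gensPoint (π := π) s ≠ 0 → IsUnit (f s) :=
    fun s hs => IsLocalization.map_units Lss (⟨s, hs⟩ : I.primeCompl)
  have hmax : ∀ s : S.gens, S.gensPoint (π := π) s = 0 → f s ∈ IsLocalRing.maximalIdeal Lss :=
    fun s hs => (IsLocalization.AtPrime.to_map_mem_maximal_iff Lss I s).mpr hs
  have hTc : ∀ j, T j - c j ∈ IsLocalRing.maximalIdeal Lss := by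
    intro j
    rw [← map_sub]
    exact hmax _ (by rw [map_sub, S.gensPoint_gι_t, S.gensPoint_algebraMap, hw, sub_self])
  -- the values of the modular equation
  have hmap : ∀ {i j : Fin 3}, evalZ (S.ι i S.t) S.D ^ S.e *
      ((S.ι i S.t - S.ι j S.t ^ S.q) * (S.ι i S.t ^ S.q - S.ι j S.t)) +
        S.q * bieval (S.ι i S.t) (S.ι j S.t) S.U = 0 →
      evalZ (T i) S.D ^ S.e * ((T i - T j ^ S.q) * (T i ^ S.q - T j)) +
        S.q * bieval (T i) (T j) S.U = 0 := fun h => by
    have h2 := congrArg f (S.gι_rel h)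
    simpa only [map_add, map_mul, map_pow, map_sub, map_natCast, map_bieval, map_evalZ,
      map_zero] using h2
  have hu1 : IsUnit (evalZ (T 1) S.D ^ S.e) := by
    refine IsUnit.pow _ ?_
    rw [show evalZ (T 1) S.D = f (evalZ (S.gι 1 S.t) S.D) from (map_evalZ f _ _).symm]
    refine hunit _ ?_
    rw [map_evalZ, S.gensPoint_gι_t]
    exact S.evalZ_D_frob hπ 1
  obtain ⟨v, hv⟩ := hu1.exists_left_inv
  have hrel : ∀ j : Fin 3, j ≠ 1 →
      (T 1 - T j ^ S.q) * (T 1 ^ S.q - T j) +
        (S.q : Lss) * (C v * S.U.map (eval₂RingHom (Int.castRingHom Lss) (T 1))).eval (T j) = 0 := by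
    intro j hj
    have h2 := hmap (S.rel' j hj)
    rw [bieval] at h2
    rw [eval_mul, eval_C, eval_map]
    linear_combination v * h2 - ((T 1 - T j ^ S.q) * (T 1 ^ S.q - T j)) * hv
  have hqsq : (S.q : Lss) ∈ IsLocalRing.maximalIdeal Lss ^ 2 := by
    have h2 := hmap (S.rel 0 (by decide))
    rw [← mul_assoc] at h2
    refine CarayolHigh.natCast_mem_sq (Ideal.mul_mem_left _ _ ?_) ?_ ?_ h2
    · simp only [T, ← map_pow, ← map_sub]
      refine hmax _ ?_
      simp only [map_sub, map_pow, S.gensPoint_gι_t]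
      simp [depth, hxq]
    · simp only [T, ← map_pow, ← map_sub]
      refine hmax _ ?_
      simp only [map_sub, map_pow, S.gensPoint_gι_t]
      simp [depth]
    · simp only [T, ← map_bieval]
      refine hunit _ ?_
      rw [map_bieval, S.gensPoint_gι_t, S.gensPoint_gι_t]
      simpa [depth] using hπ.2.2
  let t' : ℕ → Lss := fun n => if n = 0 then T 0 else if n = 1 then T 1 else T 2
  let c' : ℕ → Lss := fun n => if n = 0 then c 0 else if n = 1 then c 1 else c 2
  have hpair : IsLocalRing.maximalIdeal Lss = Ideal.span {t' 0 - c' 0, t' 2 - c' 2} := by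
    refine CarayolHigh.maximalIdeal_eq_supersingular (q := S.q) (by norm_num)
      (U := fun _ => C v * S.U.map (eval₂RingHom (Int.castRingHom Lss) (T 1))) ?_ ?_ ?_ ?_ ?_ ?_ ?_ hqsq
    · refine (S.maximalIdeal_le hπ hρ hker het hw).trans (Ideal.span_le.mpr ?_)
      rintro z (rfl | ⟨j, rfl⟩)
      · exact Ideal.subset_span (Set.mem_insert _ _)
      · refine Ideal.subset_span (Set.mem_insert_of_mem _ ⟨(j : ℕ), ?_, ?_⟩)
        · exact Set.mem_Iic.mpr (by omega)
        · fin_cases j <;> exact (map_sub f _ _).symm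
    · intro j _
      simp only [t', c']
      split_ifs <;> exact hTc _
    · intro j h1 h2 h
      obtain rfl : j = 1 := by omega
      exact hne (congrArg Subtype.val (hinj h))
    · intro j h1 h2
      obtain rfl : j = 1 := by omega
      change c 2 - c 0 ∈ _
      rw [show c 2 = c 0 from rfl, sub_self]
      exact Submodule.zero_mem _
    · intro j h1 h2
      obtain rfl : j = 1 := by omega
      change c 0 ^ S.q = c 1 ∧ c 1 ^ S.q - c 2 ∈ _
      refine ⟨by simp only [c, ← map_pow]; rfl, ?_⟩
      simp only [c, ← map_pow, ← map_sub]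
      refine hmax _ ?_
      rw [S.gensPoint_algebraMap, map_sub, map_pow, hw, hw]
      simp [depth, hxq]
    · intro j h1 h2
      obtain rfl : j = 1 := by omega
      exact hrel 0 (by decide)
    · intro j h1 h2
      obtain rfl : j = 1 := by omega
      exact hrel 2 (by decide)
  -- dimension two: the branch `0` is a prime strictly between
  let P := RingHom.ker ((S.r 0).comp S.gens.val.toRingHom)
  have hPle : P ≤ I := fun z hz => S.point_eq_zero_of_r_eq_zero hπ 1 0 hz
  have hdisj : Disjoint (I.primeCompl : Set S.gens) P :=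
    Set.disjoint_left.mpr fun z hz hz' => hz (hPle hz')
  have : P.IsPrime := RingHom.ker_isPrime _
  have hPL := IsLocalization.isPrime_of_isPrime_disjoint I.primeCompl Lss P ‹_› hdisj
  have hrq : S.r 0 (S.q : R) = 0 := by
    rw [← map_natCast (algebraMap W R), S.r_const, map_natCast, CharP.cast_eq_zero, map_zero]
  have hr0 : S.r 0 (S.ι 0 S.t - algebraMap W R (w 0)) ≠ 0 := by
    rw [map_sub, S.r_ι, S.r_const, sub_ne_zero]
    exact htr _
  have hcomap : (P.map f).comap f = P :=
    IsLocalization.under_map_of_isPrime_disjoint I.primeCompl Lss ‹_› hdisj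
  refine ufm_of_two_gen hpair (fun h => ?_) (P := P.map f) ?_ ?_
  · rw [sub_eq_zero] at h
    exact hr0 (by rw [show S.ι 0 S.t = algebraMap W R (w 0) from
      congrArg Subtype.val (hinj h), sub_self, map_zero])
  · intro h
    have hmem : f (S.q : S.gens) ∈ P.map f :=
      Ideal.mem_map_of_mem _ (by simpa [P] using hrq)
    rw [h, Ideal.mem_bot, ← map_zero f] at hmem
    exact S.q_ne_zero (by simpa using congrArg Subtype.val (hinj hmem))
  · intro h
    have h0 := hTc 0
    rw [← h, ← map_sub, ← Ideal.mem_comap, hcomap] at h0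
    exact hr0 h0

variable (hint : ∀ a : R, IsIntegral S.gens a)
  (hfrac : ∀ a : R, ∃ s z : S.gens, (s : R) ≠ 0 ∧ a * s = z)
include hρ hker het hne htr hint hfrac

/-- The generated subalgebra already gives the local ring of the chart. -/
theorem exists_mul_mem (a : R) :
    ∃ s z : S.gens, S.gensPoint (π := π) s ≠ 0 ∧ a * s = z := by
  set I := RingHom.ker (S.gensPoint (π := π))
  have : UniqueFactorizationMonoid Lss := S.ufm_gens hπ hρ hker het hne htr
  have hle : I.primeCompl ≤ nonZeroDivisors S.gens :=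
    le_nonZeroDivisors_of_noZeroDivisors fun h0 => h0 (Submodule.zero_mem _)
  have : IsDomain Lss := IsLocalization.isDomain_of_le_nonZeroDivisors Lss hle
  have hinj : Function.Injective (algebraMap S.gens Lss) := IsLocalization.injective Lss hle
  obtain ⟨s₀, z₀, hs₀, hz₀⟩ := hfrac a
  obtain ⟨p, hp, hp0⟩ := hint a
  have h0 : (p.scaleRoots s₀).eval z₀ = 0 := by
    have hv : Function.Injective S.gens.val.toRingHom := Subtype.val_injective
    apply hv
    rw [map_zero, ← eval₂_at_apply, show S.gens.val.toRingHom z₀ = algebraMap S.gens R s₀ * a by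
      rw [mul_comm]; exact hz₀.symm]
    exact scaleRoots_eval₂_eq_zero _ hp0
  have hs : algebraMap S.gens Lss s₀ ≠ 0 := fun h => hs₀ (by
    rw [← map_zero (algebraMap S.gens Lss)] at h; exact congrArg Subtype.val (hinj h))
  obtain ⟨y, hy⟩ := exists_eq_mul_of_scaleRoots (algebraMap S.gens Lss) hp hs h0
  obtain ⟨z, u, rfl⟩ := IsLocalization.exists_mk'_eq I.primeCompl y
  refine ⟨u, z, u.2, mul_right_cancel₀ hs₀ ?_⟩
  have h2 : algebraMap S.gens Lss z₀ * algebraMap S.gens Lss u =
      algebraMap S.gens Lss z * algebraMap S.gens Lss s₀ := by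
    rw [hy, ← IsLocalization.mk'_spec Lss z u]
    ring
  rw [← map_mul, ← map_mul] at h2
  rw [mul_right_comm, hz₀]
  exact congrArg Subtype.val (hinj h2)

/-- **The local ring at a supersingular point is factorial.** -/
theorem ufm :
    haveI : (RingHom.ker (S.point π 1)).IsPrime := RingHom.ker_isPrime _
    UniqueFactorizationMonoid (Localization.AtPrime (RingHom.ker (S.point π 1))) := by
  have : (RingHom.ker (S.point π 1)).IsPrime := RingHom.ker_isPrime _
  set I := RingHom.ker (S.gensPoint (π := π))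
  set J := RingHom.ker (S.point π 1)
  have hJ : I = J.comap S.gens.val.toRingHom := rfl
  let f := Localization.localRingHom I J S.gens.val.toRingHom hJ
  have hR : J.primeCompl ≤ nonZeroDivisors R :=
    le_nonZeroDivisors_of_noZeroDivisors fun h0 => h0 (Submodule.zero_mem _)
  have hf : Function.Bijective f := by
    constructor
    · rw [injective_iff_map_eq_zero]
      intro y hy
      obtain ⟨z, u, rfl⟩ := IsLocalization.exists_mk'_eq I.primeCompl y
      rw [Localization.localRingHom_mk', IsLocalization.mk'_eq_zero_iff] at hy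
      obtain ⟨m, hm⟩ := hy
      rw [show z = 0 from Subtype.ext ((mul_eq_zero.mp hm).resolve_left
        (fun h0 => m.2 (by rw [h0]; exact Submodule.zero_mem _))), IsLocalization.mk'_zero]
    · intro y
      obtain ⟨a, b, rfl⟩ := IsLocalization.exists_mk'_eq J.primeCompl y
      obtain ⟨s, z, hs, hz⟩ := S.exists_mul_mem hπ hρ hker het hne htr hint hfrac a
      obtain ⟨s', z', hs', hz'⟩ := S.exists_mul_mem hπ hρ hker het hne htr hint hfrac (b : R)
      have hb : S.gensPoint (π := π) z' ≠ 0 := by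
        change S.point π 1 (z' : R) ≠ 0
        rw [← hz', map_mul]
        exact mul_ne_zero b.2 hs'
      refine ⟨IsLocalization.mk' _ (z * s') (⟨z' * s, mul_mem (s := I.primeCompl) hb hs⟩ :
        I.primeCompl), ?_⟩
      rw [Localization.localRingHom_mk', IsLocalization.mk'_eq_iff_eq]
      congr 1
      change (b : R) * ((z : R) * (s' : R)) = ((z' : R) * (s : R)) * a
      rw [← hz, ← hz']
      ring
  exact (RingEquiv.ofBijective f hf).toMulEquiv.uniqueFactorizationMonoid
    (S.ufm_gens hπ hρ hker het hne htr)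

end Local

end SSData

end Fermat.Agent.Carayol
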