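import Fermat.Agent.Carayol.EtaleHauptmodul
import Fermat.Agent.Carayol.LiftBase
import Fermat.Agent.Carayol.Hauptmodul
import Fermat.Agent.Carayol.Supersingular
import Fermat.Agent.RED.X0LiftAll

/-!
# The level `N` chart over `W` at a point over `(q, t - x)`

`B` is the integral closure of `W[j]` in `K(X₀(N))`; its reduction is onto the chart
`coordRing k j̄` with kernel `(ϖ)`, and at a non-cuspidal value `x` of the Hauptmodul `t₄` or `t₉`
its maximal ideals are locally `(ϖ, t - x)`.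
-/

set_option autoImplicit false
set_option linter.style.haveILetI false
set_option linter.unusedSectionVars false
set_option maxHeartbeats 800000
set_option synthInstance.maxHeartbeats 100000

noncomputable section

open Polynomial IntermediateField AlgebraicCurve ModularCurve

namespace Fermat.Agent.Carayol.Etale

open Fermat.Agent.RED Fermat.Agent.MF.Coeff Fermat.Agent.Carayol.LiftBase

local notation "Qbar" => AlgebraicClosure ℚ

section Generic

variable {K k : Type} [Field K] [Field k] {W : ValuationSubring K} {π : W →+* k}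
variable {F Fb : Type} [Field F] [Field Fb] [Algebra K F] [Algebra k Fb]
variable (R : ConstRed W π F Fb) {X : R.W} {x : F} (hX : (X : F) = x)

/-- The reduction on the chart of an element `x` in the valuation ring. -/
def chartRedOf : Carayol.chartRing W x →+* Fb :=
  R.red.comp ((Carayol.chartRing W x).val.toRingHom.codRestrict R.W.toSubring
    fun a => chartRing_mem_W R X (hX.symm ▸ a.2))

theorem chartRedOf_apply (b : Carayol.chartRing W x) (h : (b : F) ∈ R.W) :
    chartRedOf R hX b = R.red ⟨b, h⟩ := rfl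

theorem chartRedOf_algebraMap (w : W) :
    chartRedOf R hX (algebraMap W (Carayol.chartRing W x) w) = algebraMap k Fb (π w) :=
  (chartRedOf_apply R hX _ (R.algebraMap_mem w)).trans (R.red_algebraMap' w)

theorem chartRedOf_mem (hP : R.Param X) (b : Carayol.chartRing W x) :
    chartRedOf R hX b ∈ coordRing k (R.red X) := by
  subst hX
  exact chartRed_mem_coordRing R X hP b

theorem chartRedOf_dvd (hP : R.Param X) {ϖ : W} (hϖ : ∀ w, π w = 0 → ϖ ∣ w)
    {b : Carayol.chartRing W x} (hb : chartRedOf R hX b = 0) :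
    algebraMap W (Carayol.chartRing W x) ϖ ∣ b := by
  subst hX
  exact dvd_of_chartRed_eq_zero R X hP hϖ hb

theorem exists_chartRedOf_eq {g : Fb} (h : ∃ a, chartRed R X a = g) :
    ∃ a, chartRedOf R hX a = g := by
  subst hX
  exact h

include hX in
theorem mem_chartRing_of_mem' (hP : R.Param X) {a : F} (ha : a ∈ coordRing K x) (haW : a ∈ R.W) :
    a ∈ Carayol.chartRing W x := by
  subst hX
  exact mem_chartRing_of_mem R X hP ha haW

end Generic

variable {N : ℕ} [NeZero N] {A : ValuationSubring Qbar} {k : Type} [Field k] (π : A →+* k)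
variable {K : Type} [Field K] [Algebra ℚ K] [Algebra K Qbar] {W : ValuationSubring K}
variable (π₀ : W →+* k) (hπ : Function.Surjective π) (hπ₀ : Function.Surjective π₀)
variable (hN : (N : k) ≠ 0) (hWA : ∀ w : W, algebraMap K Qbar (w : K) ∈ A)
variable (hcompat : ∀ w : W, π ⟨_, hWA w⟩ = π₀ w)

variable (K W N) in
/-- The chart of `j` at level `N`: the integral closure of `W[j]`. -/
abbrev jChart : Subalgebra W (laurentBaseChange K (modularFunctionFieldFull N)) :=
  Carayol.chartRing W (jElem K N)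

/-- The reduction of the `j`-chart into the function field. -/
def jChartRed₀ : jChart N K W →+* modularFunctionFieldFullC k N :=
  chartRedOf (baseConstRed N π₀ hπ₀ hN) (coe_baseParam π₀ hπ₀ hN)

theorem jChartRed₀_mem (b : jChart N K W) :
    jChartRed₀ π₀ hπ₀ hN b ∈ coordRing k (jSpecial (k := k) N) := by
  rw [← red_baseParam π₀ hπ₀ hN]
  exact chartRedOf_mem _ _ (baseParam_param π₀ hπ₀ hN) b

/-- The reduction of the `j`-chart onto `coordRing k j̄`. -/
def jChartRed : jChart N K W →+* coordRing k (jSpecial (k := k) N) :=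
  (jChartRed₀ π₀ hπ₀ hN).codRestrict (coordRing k (jSpecial (k := k) N)) (jChartRed₀_mem π₀ hπ₀ hN)

theorem coe_jChartRed (b : jChart N K W) :
    (jChartRed π₀ hπ₀ hN b : modularFunctionFieldFullC k N) = jChartRed₀ π₀ hπ₀ hN b := rfl

theorem jChartRed₀_eq (b : jChart N K W)
    (h : (b : laurentBaseChange K (modularFunctionFieldFull N)) ∈ (baseConstRed N π₀ hπ₀ hN).W) :
    jChartRed₀ π₀ hπ₀ hN b = (baseConstRed N π₀ hπ₀ hN).red ⟨b, h⟩ :=
  chartRedOf_apply _ _ b h

theorem jChartRed₀_algebraMap (w : W) :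
    jChartRed₀ π₀ hπ₀ hN (algebraMap W (jChart N K W) w) = algebraMap k _ (π₀ w) :=
  chartRedOf_algebraMap _ _ w

theorem jChartRed_algebraMap (w : W) :
    jChartRed π₀ hπ₀ hN (algebraMap W (jChart N K W) w) = algebraMap k _ (π₀ w) :=
  Subtype.ext (jChartRed₀_algebraMap π₀ hπ₀ hN w)

/-- The kernel is generated by a uniformiser. -/
theorem jChartRed₀_dvd {ϖ : W} (hϖ : ∀ w, π₀ w = 0 → ϖ ∣ w) {b : jChart N K W}
    (hb : jChartRed₀ π₀ hπ₀ hN b = 0) : algebraMap W (jChart N K W) ϖ ∣ b :=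
  chartRedOf_dvd _ _ (baseParam_param π₀ hπ₀ hN) hϖ hb

include hπ hWA hcompat in
/-- The reduction is onto. -/
theorem jChartRed_surjective [IsGalois K Qbar] [IsPrincipalIdealRing W]
    (hnormal : (good_x0 A π N hπ hN).constRed.Normal (good_x0 A π N hπ hN).paramX) :
    Function.Surjective (jChartRed (K := K) π₀ hπ₀ hN) := by
  intro g
  obtain ⟨a, ha⟩ := exists_chartRedOf_eq _ (coe_baseParam π₀ hπ₀ hN)
    (exists_chartRed_eq_jParam π π₀ hπ hπ₀ hN hWA hcompat hnormal g.2)
  exact ⟨a, Subtype.ext ha⟩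

/-- `t` as an element of the `j`-chart, with its reduction. -/
theorem exists_hauptElem {tZ : LaurentSeries ℤ} {num den : ℤ[X]}
    (hmem : coeffMap (Int.castRingHom ℚ) tZ ∈ modularFunctionFieldFull N)
    (hrel : den.eval₂ (Int.castRingHom _) tZ * jqModC ℤ = num.eval₂ (Int.castRingHom _) tZ ^ 3)
    (hnum : num.Monic) (hdeg : den.natDegree < 3 * num.natDegree) :
    ∃ tB : jChart N K W,
      ((tB : laurentBaseChange K (modularFunctionFieldFull N)) : LaurentSeries K) =
        coeffMap (Int.castRingHom K) tZ ∧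
      ((jChartRed₀ π₀ hπ₀ hN tB : modularFunctionFieldFullC k N) : LaurentSeries k) =
        coeffMap (Int.castRingHom k) tZ := by
  have hy : coeffMap W.subtype (coeffMap (Int.castRingHom W) tZ) ∈
      laurentBaseChange K (modularFunctionFieldFull N) := by
    have h := coeffEmb_mem_laurentBaseChange K hmem
    rw [coeffEmb, coeffMap_coeffMap] at h
    rw [coeffMap_coeffMap]
    rwa [RingHom.ext_int (W.subtype.comp (Int.castRingHom W))
      ((algebraMap ℚ K).comp (Int.castRingHom ℚ))]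
  obtain ⟨hw, hred⟩ := LaurentPair.exists_mem_of_coeffMap_mem (good_x0 W π₀ N hπ₀ hN) hy
  set t : laurentBaseChange K (modularFunctionFieldFull N) := ⟨_, hy⟩
  have htK : (t : LaurentSeries K) = coeffMap (Int.castRingHom K) tZ := by
    show coeffMap W.subtype (coeffMap (Int.castRingHom W) tZ) = _
    rw [coeffMap_coeffMap, RingHom.ext_int (W.subtype.comp _) (Int.castRingHom _)]
  have hrelK : aeval t (den.map (Int.castRingHom K)) * jElem K N =
      aeval t (num.map (Int.castRingHom K)) ^ 3 := by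
    apply Subtype.ext
    rw [MulMemClass.coe_mul, SubmonoidClass.coe_pow, coe_aeval_map, coe_aeval_map, htK]
    have := congrArg (coeffMap (Int.castRingHom K)) hrel
    rw [map_mul, map_pow, coeffMap_jqModC, coeffMap_eval₂, coeffMap_eval₂] at this
    exact this
  have hcoord : t ∈ coordRing K (jElem K N) := by
    set f : ℤ →+* K[X] := Int.castRingHom K[X]
    refine ⟨(num.map f) ^ 3 - Polynomial.C Polynomial.X * den.map f,
      ((hnum.map f).pow 3).sub_of_left ?_, ?_⟩
    · refine degree_lt_degree ((natDegree_C_mul_le _ _).trans_lt (natDegree_map_le.trans_lt ?_))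
      rwa [(hnum.map f).natDegree_pow, hnum.natDegree_map]
    · have hev : ∀ p : ℤ[X], (p.map f).eval₂ (coordEval K (jElem K N)) t =
          aeval t (p.map (Int.castRingHom K)) := fun p => by
        rw [eval₂_map, aeval_def, eval₂_map, RingHom.ext_int ((coordEval K _).comp f)
          ((algebraMap K _).comp (Int.castRingHom K))]
      rw [eval₂_sub, eval₂_pow, eval₂_mul, eval₂_C, hev, hev, coordEval, AlgHom.toRingHom_eq_coe,
        RingHom.coe_coe, aeval_X, ← hrelK]
      ring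
  have htB : t ∈ jChart N K W :=
    mem_chartRing_of_mem' _ (coe_baseParam π₀ hπ₀ hN) (baseParam_param π₀ hπ₀ hN) hcoord hw
  refine ⟨⟨t, htB⟩, htK, ?_⟩
  rw [jChartRed₀_eq π₀ hπ₀ hN ⟨t, htB⟩ hw]
  refine hred.trans ?_
  rw [coeffMap_coeffMap, RingHom.ext_int (π₀.comp _) (Int.castRingHom _)]

include hπ hWA hcompat in
/-- **The level `N` chart is locally `(ϖ, t - w)`** at a point where `t` takes the value of `w`
and the reduced `t` has only simple zeros. -/
theorem exists_mul_mem_span_of_point [IsAlgClosed k] [IsGalois K Qbar] [IsPrincipalIdealRing W]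
    (hnormal : (good_x0 A π N hπ hN).constRed.Normal (good_x0 A π N hπ hN).paramX)
    {ϖ : W} (hϖ : ∀ w, π₀ w = 0 → ϖ ∣ w) (hϖ0 : π₀ ϖ = 0)
    {tb : modularFunctionFieldFullC k N} (htb : (tb : LaurentSeries k).coeff (-1) ≠ 0)
    {tB : jChart N K W} (htB : jChartRed₀ π₀ hπ₀ hN tB = tb)
    (χ : coordRing k (jSpecial (k := k) N) →ₐ[k] k) {w : W}
    (hw : π₀ w = χ (jChartRed π₀ hπ₀ hN tB))
    (hsimple : ∀ v : Place k (modularFunctionFieldFullC k N),
      0 < v.ord (tb - algebraMap k _ (π₀ w)) → v.ord (tb - algebraMap k _ (π₀ w)) = 1)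
    {b : jChart N K W} (hb : χ (jChartRed π₀ hπ₀ hN b) = 0) :
    ∃ s, χ (jChartRed π₀ hπ₀ hN s) ≠ 0 ∧
      s * b ∈ Ideal.span ({algebraMap W (jChart N K W) ϖ,
        tB - algebraMap W (jChart N K W) w} : Set (jChart N K W)) := by
  let P : Ideal (jChart N K W) := RingHom.ker (χ.toRingHom.comp (jChartRed π₀ hπ₀ hN))
  haveI : P.IsMaximal := RingHom.ker_isMaximal_of_surjective _ fun c => by
    obtain ⟨u, rfl⟩ := hπ₀ c
    exact ⟨algebraMap W _ u, by
      rw [RingHom.comp_apply, jChartRed_algebraMap]; exact χ.commutes _⟩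
  haveI := isFunctionField_special (k := k) N hN
  haveI := FF.finiteDimensional_adjoin (transcendental_jSpecial (k := k) N)
  have hne : tb - algebraMap k _ (π₀ w) ≠ 0 := fun h => htb (by
    rw [sub_eq_zero.mp h]
    show ((algebraMap k (LaurentSeries k)) (π₀ w)).coeff (-1) = 0
    simp [algebraMap_laurentSeries_eq_single])
  have hredT : jChartRed₀ π₀ hπ₀ hN (tB - algebraMap W (jChart N K W) w) =
      tb - algebraMap k _ (π₀ w) := by
    rw [map_sub, htB, jChartRed₀_algebraMap]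
  obtain ⟨s, hs, hsb⟩ := exists_mul_mem_span (jChartRed₀ π₀ hπ₀ hN) (transcendental_jSpecial N)
    (ϖ := algebraMap W (jChart N K W) ϖ) (T := tB - algebraMap W (jChart N K W) w)
    (fun c hc => jChartRed₀_dvd π₀ hπ₀ hN hϖ hc) (jChartRed₀_mem π₀ hπ₀ hN)
    (fun g hg => by
      obtain ⟨c, hc⟩ := jChartRed_surjective π π₀ hπ hπ₀ hN hWA hcompat hnormal ⟨g, hg⟩
      exact ⟨c, congrArg Subtype.val hc⟩)
    (fun v _ hv => by
      rw [hredT] at hv ⊢
      exact hsimple v (by have := FF.le_ord_of_mem_ordGE v hv hne; omega))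
    (by rw [hredT]; exact hne) P
    (by
      show χ (jChartRed π₀ hπ₀ hN (algebraMap W _ ϖ)) = 0
      rw [jChartRed_algebraMap, hϖ0, map_zero, map_zero])
    (by
      show χ (jChartRed π₀ hπ₀ hN (tB - algebraMap W _ w)) = 0
      rw [map_sub, map_sub, jChartRed_algebraMap, χ.commutes, hw]
      exact sub_self _)
    (f := b) hb
  exact ⟨s, hs, hsb⟩

include hπ hWA hcompat in
/-- The case of `t₄`. -/
theorem exists_mul_mem_span_haupt4 [IsAlgClosed k] [IsGalois K Qbar] [IsPrincipalIdealRing W]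
    (h4 : 4 ∣ N)
    (hnormal : (good_x0 A π N hπ hN).constRed.Normal (good_x0 A π N hπ hN).paramX)
    {ϖ : W} (hϖ : ∀ w, π₀ w = 0 → ϖ ∣ w) (hϖ0 : π₀ ϖ = 0) {tB : jChart N K W}
    (htB : ((jChartRed π₀ hπ₀ hN tB : modularFunctionFieldFullC k N) : LaurentSeries k) =
      coeffMap (Int.castRingHom k) haupt4.tZ)
    (χ : coordRing k (jSpecial (k := k) N) →ₐ[k] k)
    (hD : evalZ (χ (jChartRed π₀ hπ₀ hN tB)) haupt4.D ≠ 0) {w : W}
    (hw : π₀ w = χ (jChartRed π₀ hπ₀ hN tB)) {b : jChart N K W}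
    (hb : χ (jChartRed π₀ hπ₀ hN b) = 0) :
    ∃ s, χ (jChartRed π₀ hπ₀ hN s) ≠ 0 ∧
      s * b ∈ Ideal.span ({algebraMap W (jChart N K W) ϖ,
        tB - algebraMap W (jChart N K W) w} : Set (jChart N K W)) := by
  refine exists_mul_mem_span_of_point π π₀ hπ hπ₀ hN hWA hcompat hnormal hϖ hϖ0 ?_ rfl χ hw
    (fun v hv => ?_) hb
  · rw [← coe_jChartRed, htB, coeffMap_coeff, haupt4.coeff_neg_one, map_one]
    exact one_ne_zero
  · rw [← hw] at hD
    have hD' : evalZ (π₀ w) (Polynomial.X ^ 3 * (Polynomial.X * (Polynomial.X + 16)) : ℤ[X]) ≠ 0 :=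
      hD
    simp only [evalZ, eval₂_mul, eval₂_pow, eval₂_X, eval₂_add, eval₂_ofNat, mul_ne_zero_iff]
      at hD'
    exact ord_t4_sub_eq_one π hπ hN h4 _ htB hD'.2.1 hD'.2.2 v hv

include hπ hWA hcompat in
/-- The case of `t₉`. -/
theorem exists_mul_mem_span_haupt9 [IsAlgClosed k] [IsGalois K Qbar] [IsPrincipalIdealRing W]
    (h9 : 9 ∣ N)
    (hnormal : (good_x0 A π N hπ hN).constRed.Normal (good_x0 A π N hπ hN).paramX)
    {ϖ : W} (hϖ : ∀ w, π₀ w = 0 → ϖ ∣ w) (hϖ0 : π₀ ϖ = 0) {tB : jChart N K W}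
    (htB : ((jChartRed π₀ hπ₀ hN tB : modularFunctionFieldFullC k N) : LaurentSeries k) =
      coeffMap (Int.castRingHom k) haupt9.tZ)
    (χ : coordRing k (jSpecial (k := k) N) →ₐ[k] k)
    (hD : evalZ (χ (jChartRed π₀ hπ₀ hN tB)) haupt9.D ≠ 0) {w : W}
    (hw : π₀ w = χ (jChartRed π₀ hπ₀ hN tB)) {b : jChart N K W}
    (hb : χ (jChartRed π₀ hπ₀ hN b) = 0) :
    ∃ s, χ (jChartRed π₀ hπ₀ hN s) ≠ 0 ∧
      s * b ∈ Ideal.span ({algebraMap W (jChart N K W) ϖ,
        tB - algebraMap W (jChart N K W) w} : Set (jChart N K W)) := by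
  refine exists_mul_mem_span_of_point π π₀ hπ hπ₀ hN hWA hcompat hnormal hϖ hϖ0 ?_ rfl χ hw
    (fun v hv => ?_) hb
  · rw [← coe_jChartRed, htB, coeffMap_coeff, haupt9.coeff_neg_one, map_one]
    exact one_ne_zero
  · rw [← hw] at hD
    have hD' : evalZ (π₀ w) (Polynomial.X ^ 8 * (Polynomial.X *
        (Polynomial.X ^ 2 + 9 * Polynomial.X + 27)) : ℤ[X]) ≠ 0 := hD
    simp only [evalZ, eval₂_mul, eval₂_pow, eval₂_X, eval₂_add, eval₂_ofNat, mul_ne_zero_iff]
      at hD'
    exact ord_t9_sub_eq_one π hπ hN h9 _ htB hD'.2.1 hD'.2.2 v hv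

section Wiring

variable {ℓ : ℕ}

/-- The chart over `A` is normal at every good prime. -/
theorem normal_residue (hℓ : ℓ.Prime) (hℓN : ¬ℓ ∣ N) (hA : A.LiesOverPrime ℓ) :
    (good_x0 A (IsLocalRing.residue A) N IsLocalRing.residue_surjective
      (natCast_residue_ne_zero hℓ hℓN hA)).constRed.Normal
        (good_x0 A (IsLocalRing.residue A) N IsLocalRing.residue_surjective
          (natCast_residue_ne_zero hℓ hℓN hA)).paramX :=
  normal_x0Param hℓ hℓN hA (x0SmallLift hℓ hℓN hA)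

variable {q : ℕ} (hq : ∀ w, π₀ w = 0 → (q : W) ∣ w) (hq0 : π₀ (q : W) = 0)

include hπ hWA hcompat hq hq0 in
/-- The hypothesis `het` of the supersingular points, `t = t₄`. -/
theorem het_haupt4 [IsAlgClosed k] [IsGalois K Qbar] [IsPrincipalIdealRing W] (h4 : 4 ∣ N)
    (hnormal : (good_x0 A π N hπ hN).constRed.Normal (good_x0 A π N hπ hN).paramX)
    {tB : jChart N K W}
    (htB : ((jChartRed π₀ hπ₀ hN tB : modularFunctionFieldFullC k N) : LaurentSeries k) =
      coeffMap (Int.castRingHom k) haupt4.tZ) :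
    ∀ χ : coordRing k (jSpecial (k := k) N) →ₐ[k] k,
      evalZ (χ (jChartRed π₀ hπ₀ hN tB)) haupt4.D ≠ 0 →
      ∀ w, π₀ w = χ (jChartRed π₀ hπ₀ hN tB) → ∀ b, χ (jChartRed π₀ hπ₀ hN b) = 0 →
        ∃ s, χ (jChartRed π₀ hπ₀ hN s) ≠ 0 ∧
          s * b ∈ Ideal.span {(q : jChart N K W), tB - algebraMap W (jChart N K W) w} := by
  intro χ hD w hw b hb
  rw [← map_natCast (algebraMap W (jChart N K W)) q]
  exact exists_mul_mem_span_haupt4 π π₀ hπ hπ₀ hN hWA hcompat h4 hnormal hq hq0 htB χ hD hw hb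

include hπ hWA hcompat hq hq0 in
/-- The hypothesis `het` of the supersingular points, `t = t₉`. -/
theorem het_haupt9 [IsAlgClosed k] [IsGalois K Qbar] [IsPrincipalIdealRing W] (h9 : 9 ∣ N)
    (hnormal : (good_x0 A π N hπ hN).constRed.Normal (good_x0 A π N hπ hN).paramX)
    {tB : jChart N K W}
    (htB : ((jChartRed π₀ hπ₀ hN tB : modularFunctionFieldFullC k N) : LaurentSeries k) =
      coeffMap (Int.castRingHom k) haupt9.tZ) :
    ∀ χ : coordRing k (jSpecial (k := k) N) →ₐ[k] k,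
      evalZ (χ (jChartRed π₀ hπ₀ hN tB)) haupt9.D ≠ 0 →
      ∀ w, π₀ w = χ (jChartRed π₀ hπ₀ hN tB) → ∀ b, χ (jChartRed π₀ hπ₀ hN b) = 0 →
        ∃ s, χ (jChartRed π₀ hπ₀ hN s) ≠ 0 ∧
          s * b ∈ Ideal.span {(q : jChart N K W), tB - algebraMap W (jChart N K W) w} := by
  intro χ hD w hw b hb
  rw [← map_natCast (algebraMap W (jChart N K W)) q]
  exact exists_mul_mem_span_haupt9 π π₀ hπ hπ₀ hN hWA hcompat h9 hnormal hq hq0 htB χ hD hw hb

end Wiring

end Fermat.Agent.Carayol.Etale
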