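/-
The norms from level `L₀ q²` to level `L₀ q` along `τ ↦ τ` and `τ ↦ q τ`, pulled back: their values
on the three branches, Gauss orders and residues, and their effect on the two charts.
-/
import Fermat.Agent.Carayol.ResidueField
import Fermat.Agent.Carayol.Chart
import Fermat.Agent.MF.Coeff.IntegralJN

set_option autoImplicit false
set_option synthInstance.maxHeartbeats 100000

noncomputable section

open Polynomial ModularCurve AlgebraicCurve
open Fermat.Agent.Igusa Fermat.Agent.RED.Spec Fermat.Agent.HK.Corr Fermat.Agent.CarayolHigh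

namespace Fermat.Agent.Carayol

/-! ### Gauss orders -/

section Ord

variable {K' : Type} [Field K'] {O : ValuationSubring K'} {k : Type} [Field k]

/-- `z` is `ϖ ^ n` times a series with nonzero residue. -/
def HasGaussOrd (π : O →+* k) (ϖ : K') (z : LaurentSeries K') (n : ℤ) : Prop :=
  ∃ r, r ≠ 0 ∧ IsGauss π (HahnSeries.C (ϖ ^ (-n)) * z) r

variable {π : O →+* k} {ϖ : K'}

theorem HasGaussOrd.ne_zero {z : LaurentSeries K'} {n : ℤ} (h : HasGaussOrd π ϖ z n) : z ≠ 0 := by
  obtain ⟨r, hr, hg⟩ := h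
  rintro rfl
  rw [mul_zero] at hg
  exact hr (hg.unique isGauss_zero)

theorem hasGaussOrd_one : HasGaussOrd π ϖ 1 0 :=
  ⟨1, one_ne_zero, by simpa using isGauss_one (π := π)⟩

theorem HasGaussOrd.mul (hϖ : ϖ ≠ 0) {z z' : LaurentSeries K'} {n n' : ℤ}
    (h : HasGaussOrd π ϖ z n) (h' : HasGaussOrd π ϖ z' n') :
    HasGaussOrd π ϖ (z * z') (n + n') := by
  obtain ⟨r, hr, hg⟩ := h
  obtain ⟨r', hr', hg'⟩ := h'
  refine ⟨r * r', mul_ne_zero hr hr', ?_⟩
  convert hg.mul hg' using 1
  rw [neg_add, zpow_add₀ hϖ, map_mul]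
  ring

theorem HasGaussOrd.prod (hϖ : ϖ ≠ 0) {ι : Type*} (s : Finset ι) {z : ι → LaurentSeries K'}
    {n : ι → ℤ} (h : ∀ i ∈ s, HasGaussOrd π ϖ (z i) (n i)) :
    HasGaussOrd π ϖ (∏ i ∈ s, z i) (∑ i ∈ s, n i) := by
  classical
  induction s using Finset.induction with
  | empty => simpa using hasGaussOrd_one
  | insert a s ha ih =>
    rw [Finset.prod_insert ha, Finset.sum_insert ha]
    exact (h a (Finset.mem_insert_self a s)).mul hϖ
      (ih fun i hi => h i (Finset.mem_insert_of_mem hi))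

theorem HasGaussOrd.qScale_root {q m : ℕ} [Fact q.Prime] [CharP k q] {z : LaurentSeries K'}
    {n : ℤ} (h : HasGaussOrd π ϖ z n) {u : K'ˣ} (hu : u ^ q ^ m = 1) :
    HasGaussOrd π ϖ (Igusa.qScale u z) n := by
  obtain ⟨r, hr, hg⟩ := h
  refine ⟨r, hr, ?_⟩
  have := hg.qScale_root (q := q) hu
  rwa [map_mul, HahnSeries.C_apply, qScale_single, zpow_zero, Units.val_one, one_mul] at this

/-- An automorphism of the constants trivial modulo `π` keeps orders. -/
theorem HasGaussOrd.coeffMap_sigma (hπ : ∀ c, π c = 0 ↔ ¬ IsUnit c) (hϖ : ϖ ≠ 0)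
    {z : LaurentSeries K'} {n : ℤ} (h : HasGaussOrd π ϖ z n) (σ : K' →+* K')
    (hσ : ∀ c ∈ O, σ c ∈ O) (hσπ : ∀ c : O, π ⟨σ c, hσ c c.2⟩ = π c) {v : Oˣ}
    (hv : σ ϖ = ((v : O) : K') * ϖ) : HasGaussOrd π ϖ (ModularCurve.coeffMap σ z) n := by
  obtain ⟨r, hr, hg⟩ := h
  have hg' := hg.coeffMap σ hσ hσπ
  rw [map_mul, CarayolHigh.coeffMap_C', map_zpow₀, hv, mul_zpow, map_mul, mul_assoc] at hg'
  have hvn : ((((v ^ (-n))⁻¹ : Oˣ) : O) : K') * (((v : O) : K') ^ (-n)) = 1 := by
    have h1 : (((v ^ (-n) : Oˣ) : O) : K') = ((v : O) : K') ^ (-n) :=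
      map_zpow ((Units.coeHom K').comp (Units.map O.subtype.toMonoidHom)) v (-n)
    rw [← h1, ← MulMemClass.coe_mul, Units.inv_mul]
    rfl
  have hc := isGauss_int (π := π) (HahnSeries.C (((v ^ (-n))⁻¹ : Oˣ) : O))
  rw [intSeries, CarayolHigh.coeffMap_C', CarayolHigh.coeffMap_C'] at hc
  refine ⟨HahnSeries.C (π (((v ^ (-n))⁻¹ : Oˣ) : O)) * r, mul_ne_zero ?_ hr, ?_⟩
  · exact HahnSeries.C_ne_zero fun h0 => (hπ _).mp h0 (Units.isUnit _)
  · have e : HahnSeries.C (ϖ ^ (-n)) * ModularCurve.coeffMap σ z =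
        HahnSeries.C (O.subtype (((v ^ (-n))⁻¹ : Oˣ) : O)) *
          (HahnSeries.C (((v : O) : K') ^ (-n)) *
            (HahnSeries.C (ϖ ^ (-n)) * ModularCurve.coeffMap σ z)) := by
      rw [← mul_assoc (HahnSeries.C (O.subtype _)), ← map_mul, show O.subtype
        (((v ^ (-n))⁻¹ : Oˣ) : O) * (((v : O) : K') ^ (-n)) = 1 from hvn, map_one, one_mul]
    rw [e]
    exact hc.mul hg' 

end Ord

/-! ### The two norms -/

section Norms

variable {K : Type} [Field K] [Algebra ℚ K]

theorem alphaDvd (L₀ q : ℕ) : L₀ * q * 1 ∣ L₀ * q ^ 2 :=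
  ⟨q, by ring⟩

theorem betaDvd (L₀ q : ℕ) : L₀ * q * q ∣ L₀ * q ^ 2 :=
  ⟨1, by ring⟩

/-- The norm along a degeneracy map, pulled back. -/
def normDegen {M M' : ℕ} (e : ℕ) [NeZero e] (h : M * e ∣ M') : modField K M' →* modField K M' :=
  letI := algebraAlong (degenMap K e h)
  (degenMap K e h : modField K M →+* modField K M').toMonoidHom.comp
    (Algebra.norm (modField K M))

variable (K) in
/-- The pullback of the norm along `τ ↦ τ`. -/
def normAlpha (L₀ q : ℕ) [NeZero L₀] [NeZero q] :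
    modField K (L₀ * q ^ 2) →* modField K (L₀ * q ^ 2) :=
  normDegen 1 (alphaDvd L₀ q)

variable (K) in
/-- The pullback of the norm along `τ ↦ q τ`. -/
def normBeta (L₀ q : ℕ) [NeZero L₀] [NeZero q] :
    modField K (L₀ * q ^ 2) →* modField K (L₀ * q ^ 2) :=
  normDegen q (betaDvd L₀ q)

variable {K' : Type} [Field K'] [Algebra ℚ K'] {L₀ q : ℕ} [NeZero L₀] [NeZero q] {hq : q.Prime}
  {hqL : ¬ q ∣ L₀} {κ : K →+* K'} {z : K'ˣ}
  {e0 e02 : modField K (L₀ * q ^ 2) →+* LaurentSeries K'}
  {ez : Fin (q - 1) → modField K (L₀ * q ^ 2) →+* LaurentSeries K'}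

omit [NeZero L₀] [NeZero q] in
theorem normDegen_ne_zero {M M' : ℕ} [NeZero M] [NeZero M'] (e : ℕ) [NeZero e] (h : M * e ∣ M')
    {a : modField K M'} (ha : a ≠ 0) : normDegen e h a ≠ 0 := by
  letI := algebraAlong (degenMap K e h)
  haveI : Module.Finite (modField K M) (modField K M') := finiteAlong_degenMap (degreeInput K) e h
  show degenMap K e h (Algebra.norm (modField K M) a) ≠ 0
  exact (_root_.map_ne_zero _).mpr (Algebra.norm_ne_zero_iff.mpr ha)

theorem normAlpha_ne_zero {a : modField K (L₀ * q ^ 2)} (ha : a ≠ 0) :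
    normAlpha K L₀ q a ≠ 0 :=
  normDegen_ne_zero 1 (alphaDvd L₀ q) ha

theorem normBeta_ne_zero {a : modField K (L₀ * q ^ 2)} (ha : a ≠ 0) :
    normBeta K L₀ q a ≠ 0 :=
  normDegen_ne_zero q (betaDvd L₀ q) ha

omit [NeZero L₀] [NeZero q] in
theorem normDegen_const {M M' : ℕ} [NeZero M] [NeZero M'] (e : ℕ) [NeZero e] (h : M * e ∣ M')
    (c : K) : normDegen e h (algebraMap K (modField K M') c) =
      algebraMap K (modField K M') c ^ finrankAlong K (degenMap K e h) := by
  letI := algebraAlong (degenMap K e h)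
  show degenMap K e h (Algebra.norm (modField K M) (algebraMap K (modField K M') c)) = _
  have hc : algebraMap K (modField K M') c =
      algebraMap (modField K M) (modField K M') (algebraMap K (modField K M) c) :=
    ((degenMap K e h).commutes c).symm
  rw [hc, Algebra.norm_algebraMap, map_pow]
  rfl

include hq hqL in
theorem normAlpha_const (c : K) :
    normAlpha K L₀ q (algebraMap K _ c) = algebraMap K (modField K (L₀ * q ^ 2)) c ^ q := by
  rw [normAlpha, normDegen_const, finrank_degen_prime hq hqL]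

include hq hqL in
theorem normBeta_const (c : K) :
    normBeta K L₀ q (algebraMap K _ c) = algebraMap K (modField K (L₀ * q ^ 2)) c ^ q := by
  rw [normBeta, normDegen_const, finrank_degen_prime hq hqL]

variable (hB : BranchEmbs hq hqL κ z e0 e02 ez)

include hB in
/-- `normAlpha` on `C₂₀` and on `C₀₂`. -/
theorem BranchEmbs.map_normAlpha (a : modField K (L₀ * q ^ 2)) :
    e0 (normAlpha K L₀ q a) = e0 a * ∏ i, ez i a ∧
      e02 (normAlpha K L₀ q a) = ∏ i : Fin q, qScale (z ^ (i : ℕ)) (e02 a) := by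
  letI := algebraAlong (degenMap K 1 (alphaDvd L₀ q))
  have : CharZero K := charZero_of_injective_algebraMap (algebraMap ℚ K).injective
  have : CharZero (modField K (L₀ * q)) :=
    charZero_of_injective_algebraMap (algebraMap K (modField K (L₀ * q))).injective
  have h0 := (hB.complete_alpha_zero (alphaDvd L₀ q)).map_norm a
  have h2 := (hB.complete_alpha_two (alphaDvd L₀ q)).map_norm a
  rw [Fintype.prod_sum_type, Fintype.prod_unique] at h0
  exact ⟨h0, h2⟩

include hB in
/-- `normBeta` on `C₂₀` and on `C₀₂`. -/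
theorem BranchEmbs.map_normBeta (a : modField K (L₀ * q ^ 2)) :
    e0 (normBeta K L₀ q a) = ∏ i : Fin q, qScale (z ^ (i : ℕ)) (e0 a) ∧
      e02 (normBeta K L₀ q a) =
        e02 a * ∏ i : Fin (q - 1), qScale (z ^ ((i : ℕ) + 1))⁻¹ (ez i a) := by
  letI := algebraAlong (degenMap K q (betaDvd L₀ q))
  have : CharZero K := charZero_of_injective_algebraMap (algebraMap ℚ K).injective
  have : CharZero (modField K (L₀ * q)) :=
    charZero_of_injective_algebraMap (algebraMap K (modField K (L₀ * q))).injective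
  have h0 := (hB.complete_beta_zero (betaDvd L₀ q)).map_norm a
  have h2 := (hB.complete_beta_two (betaDvd L₀ q)).map_norm a
  rw [Fintype.prod_sum_type, Fintype.prod_unique] at h2
  exact ⟨h0, h2⟩

variable {O : ValuationSubring K'} {k : Type} [Field k] {π : O →+* k} [Fact q.Prime] [CharP k q]

include hB in
/-- Residues of `normAlpha`. -/
theorem BranchEmbs.isGauss_normAlpha_zero {a : modField K (L₀ * q ^ 2)} {r0 r1 : LaurentSeries k}
    (h0 : IsGauss π (e0 a) r0) (h1 : ∀ i, IsGauss π (ez i a) r1) :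
    IsGauss π (e0 (normAlpha K L₀ q a)) (r0 * r1 ^ (q - 1)) := by
  rw [(hB.map_normAlpha a).1]
  refine h0.mul ?_
  simpa using IsGauss.prod Finset.univ (fun i _ => h1 i)

include hB in
theorem BranchEmbs.isGauss_normAlpha_two {a : modField K (L₀ * q ^ 2)} {r2 : LaurentSeries k}
    (h2 : IsGauss π (e02 a) r2) : IsGauss π (e02 (normAlpha K L₀ q a)) (r2 ^ q) := by
  rw [(hB.map_normAlpha a).2]
  simpa using IsGauss.prod Finset.univ (fun (i : Fin q) _ =>
    h2.qScale_root (u := z ^ (i : ℕ)) (m := 1) (by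
      rw [pow_one, unit_pow_pow_eq_one hB.prim _ dvd_rfl]))

include hB in
/-- Residues of `normBeta`. -/
theorem BranchEmbs.isGauss_normBeta_zero {a : modField K (L₀ * q ^ 2)} {r0 : LaurentSeries k}
    (h0 : IsGauss π (e0 a) r0) : IsGauss π (e0 (normBeta K L₀ q a)) (r0 ^ q) := by
  rw [(hB.map_normBeta a).1]
  simpa using IsGauss.prod Finset.univ (fun (i : Fin q) _ =>
    h0.qScale_root (u := z ^ (i : ℕ)) (m := 1) (by
      rw [pow_one, unit_pow_pow_eq_one hB.prim _ dvd_rfl]))

include hB in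
theorem BranchEmbs.isGauss_normBeta_two {a : modField K (L₀ * q ^ 2)} {r2 r1 : LaurentSeries k}
    (h2 : IsGauss π (e02 a) r2) (h1 : ∀ i, IsGauss π (ez i a) r1) :
    IsGauss π (e02 (normBeta K L₀ q a)) (r2 * r1 ^ (q - 1)) := by
  rw [(hB.map_normBeta a).2]
  refine h2.mul ?_
  simpa using IsGauss.prod Finset.univ (fun (i : Fin (q - 1)) _ =>
    (h1 i).qScale_root (u := (z ^ ((i : ℕ) + 1))⁻¹) (m := 1) (by
      rw [pow_one, inv_pow, unit_pow_pow_eq_one hB.prim _ dvd_rfl, inv_one]))

variable {ϖ : K'} (hϖ : ϖ ≠ 0)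

include hB hϖ in
/-- Orders of `normAlpha`, in units of `ϖ`. -/
theorem BranchEmbs.hasGaussOrd_normAlpha {a : modField K (L₀ * q ^ 2)} {n0 n1 n2 : ℤ}
    (h0 : HasGaussOrd π ϖ (e0 a) n0) (h1 : ∀ i, HasGaussOrd π ϖ (ez i a) n1)
    (h2 : HasGaussOrd π ϖ (e02 a) n2) :
    HasGaussOrd π ϖ (e0 (normAlpha K L₀ q a)) (n0 + ((q - 1 : ℕ) : ℤ) * n1) ∧
      HasGaussOrd π ϖ (e02 (normAlpha K L₀ q a)) (q * n2) := by
  rw [(hB.map_normAlpha a).1, (hB.map_normAlpha a).2]
  refine ⟨h0.mul hϖ ?_, ?_⟩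
  · simpa using HasGaussOrd.prod hϖ Finset.univ (fun i _ => h1 i)
  · simpa using HasGaussOrd.prod hϖ Finset.univ (fun (i : Fin q) _ =>
      h2.qScale_root (u := z ^ (i : ℕ)) (m := 1) (by
        rw [pow_one, unit_pow_pow_eq_one hB.prim _ dvd_rfl]))

include hB hϖ in
/-- Orders of `normBeta`, in units of `ϖ`. -/
theorem BranchEmbs.hasGaussOrd_normBeta {a : modField K (L₀ * q ^ 2)} {n0 n1 n2 : ℤ}
    (h0 : HasGaussOrd π ϖ (e0 a) n0) (h1 : ∀ i, HasGaussOrd π ϖ (ez i a) n1)
    (h2 : HasGaussOrd π ϖ (e02 a) n2) :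
    HasGaussOrd π ϖ (e02 (normBeta K L₀ q a)) (n2 + ((q - 1 : ℕ) : ℤ) * n1) ∧
      HasGaussOrd π ϖ (e0 (normBeta K L₀ q a)) (q * n0) := by
  rw [(hB.map_normBeta a).1, (hB.map_normBeta a).2]
  refine ⟨h2.mul hϖ ?_, ?_⟩
  · simpa using HasGaussOrd.prod hϖ Finset.univ (fun (i : Fin (q - 1)) _ =>
      (h1 i).qScale_root (u := (z ^ ((i : ℕ) + 1))⁻¹) (m := 1) (by
        rw [pow_one, inv_pow, unit_pow_pow_eq_one hB.prim _ dvd_rfl, inv_one]))
  · simpa using HasGaussOrd.prod hϖ Finset.univ (fun (i : Fin q) _ =>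
      h0.qScale_root (u := z ^ (i : ℕ)) (m := 1) (by
        rw [pow_one, unit_pow_pow_eq_one hB.prim _ dvd_rfl]))

end Norms

/-! ### The charts -/

section Charts

variable {W : Type} [CommRing W]

/-- The norm preserves a chart. -/
theorem algebraMap_norm_mem_chartRing {E F : Type} [Field E] [Field F] [Algebra W E] [Algebra W F]
    [Algebra E F] [IsScalarTower W E F] {xE : E} {a : F}
    (ha : a ∈ chartRing W (algebraMap E F xE)) :
    algebraMap E F (Algebra.norm E a) ∈ chartRing W (algebraMap E F xE) := by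
  have h1 : Algebra.norm E a ∈ chartRing W xE :=
    chartRing_closed _ _ (Algebra.isIntegral_norm E (mem_chartRing_algebraMap_iff.mp ha))
  exact mem_chartRing_algebraMap_iff.mpr
    (isIntegral_algebraMap (x := (⟨_, h1⟩ : chartRing W xE)))

/-- Charts of parameters integral over one another. -/
theorem chartRing_le_of_mem {F : Type} [Field F] [Algebra W F] {x y : F}
    (h : x ∈ chartRing W y) : chartRing W x ≤ chartRing W y := fun a ha => by
  obtain ⟨g, hg, hga⟩ := mem_chartRing_iff_isIntegralElem.mp ha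
  refine chartRing_closed _ _ ?_
  have hp : ∀ p : W[X], aeval x p ∈ chartRing W y := fun p => by
    induction p using Polynomial.induction_on' with
    | add p r hp hr => rw [map_add]; exact add_mem hp hr
    | monomial i c =>
      rw [aeval_monomial]
      exact mul_mem ((chartRing W y).algebraMap_mem c) (pow_mem h i)
  let f : W[X] →+* chartRing W y := ((aeval x).codRestrict (chartRing W y) hp).toRingHom
  exact ⟨g.map f, hg.map f, by rw [eval₂_map]; exact hga⟩

/-- An integral relation over `ℤ[x]` in a chart. -/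
theorem mem_chartRing_of_isIntegralElem {F : Type} [Field F] [Algebra W F] {x a : F}
    (ha : (eval₂RingHom (Int.castRingHom F) x).IsIntegralElem a) : a ∈ chartRing W x := by
  obtain ⟨Q, hQ, hQ0⟩ := ha
  refine mem_chartRing_iff_isIntegralElem.mpr
    ⟨Q.map (mapRingHom (Int.castRingHom W)), hQ.map _, ?_⟩
  rw [eval₂_map, show (aeval (R := W) x).toRingHom.comp (mapRingHom (Int.castRingHom W)) =
    eval₂RingHom (Int.castRingHom F) x from ringHom_ext (fun c => by simp) (by simp)]
  exact hQ0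

variable {K : Type} [Field K] [Algebra ℚ K]

/-- `j (q^n)` is integral over `ℤ[j]`. -/
theorem isIntegralElem_qExpand_jSer (n : ℕ) [NeZero n] :
    (eval₂RingHom (Int.castRingHom (LaurentSeries K)) (jSer K)).IsIntegralElem
      (qExpand K n (jSer K)) := by
  obtain ⟨Q, hQ, hQ0⟩ := MF.Coeff.isIntegralElem_jqN_all n
  refine ⟨Q, hQ, ?_⟩
  have he : (coeffEmb K).comp evalAtJ =
      eval₂RingHom (Int.castRingHom (LaurentSeries K)) (jSer K) :=
    ringHom_ext (fun c => by simp) (by simp [evalAtJ_X, jSer])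
  have := congrArg (coeffEmb K) hQ0
  rw [hom_eval₂, map_zero, he, show coeffEmb K (jqN n) = qExpand K n (jSer K) from
    coeffEmb_qExpand_eq n jq] at this
  exact this

/-- `j` is integral over `ℤ[j (q^p)]` for a prime `p`. -/
theorem isIntegralElem_jSer_qExpand (ι : K →+* ℂ) (p : ℕ) [NeZero p] (hp : p.Prime) :
    (eval₂RingHom (Int.castRingHom (LaurentSeries K)) (qExpand K p (jSer K))).IsIntegralElem
      (jSer K) := by
  obtain ⟨Q, hQ, hQ0⟩ := isIntegralElem_qExpand_jSer (K := K) p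
  obtain ⟨φ, hφα, hφβ⟩ := exists_swap_embedding (L := K) (N := 1) (ℓ := p) ι hp
    (fun h => hp.ne_one (Nat.dvd_one.mp h))
  let j₀ : modField K 1 := ⟨jSer K, jSer_mem_modField 1⟩
  let x : modField K (1 * p) := heckeAlphaBar K 1 p j₀
  let y : modField K (1 * p) := heckeBetaBar K 1 p j₀
  have hE : Q.eval₂ (eval₂RingHom (Int.castRingHom (modField K (1 * p))) x) y = 0 := by
    let f : modField K (1 * p) →+* LaurentSeries K := (modField K (1 * p)).val.toRingHom
    refine f.injective ?_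
    rw [map_zero, hom_eval₂,
      show f.comp
          (eval₂RingHom (Int.castRingHom (modField K (1 * p))) x) =
        eval₂RingHom (Int.castRingHom (LaurentSeries K)) (jSer K) from
        ringHom_ext (fun c => by simp [f]) (by simp [f, x, j₀, coe_heckeAlphaBar]),
      show f y =
        qExpand K p (jSer K) from coe_heckeBetaBar (L := K) 1 p j₀]
    exact hQ0
  refine ⟨Q, hQ, ?_⟩
  have := congrArg φ hE
  rw [map_zero, ← RingHom.coe_coe, hom_eval₂,
    show (φ : modField K (1 * p) →+* LaurentSeries K).comp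
        (eval₂RingHom (Int.castRingHom (modField K (1 * p))) x) =
      eval₂RingHom (Int.castRingHom (LaurentSeries K)) (qExpand K p (jSer K)) from
      ringHom_ext (fun c => by simp) (by simp [x, j₀, hφα]),
    show (φ : modField K (1 * p) →+* LaurentSeries K) y = jSer K from hφβ j₀] at this
  exact this

variable {L₀ q : ℕ} [NeZero L₀] [NeZero q] [Algebra W K]

/-- `j` in a level. -/
def jField (M : ℕ) : modField K M := ⟨jSer K, jSer_mem_modField M⟩

variable [Algebra W (modField K (L₀ * q ^ 2))] [IsScalarTower W K (modField K (L₀ * q ^ 2))]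
  [Algebra W (modField K (L₀ * q))] [IsScalarTower W K (modField K (L₀ * q))]

omit [NeZero L₀] [NeZero q] in
theorem isScalarTower_degen (e : ℕ) [NeZero e] (h : L₀ * q * e ∣ L₀ * q ^ 2) :
    letI := algebraAlong (degenMap K e h)
    IsScalarTower W (modField K (L₀ * q)) (modField K (L₀ * q ^ 2)) := by
  letI := algebraAlong (degenMap K e h)
  refine IsScalarTower.of_algebraMap_eq fun w => ?_
  rw [IsScalarTower.algebraMap_apply W K (modField K (L₀ * q ^ 2)),
    IsScalarTower.algebraMap_apply W K (modField K (L₀ * q))]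
  exact ((degenMap K e h).commutes (algebraMap W K w)).symm

omit [NeZero L₀] [NeZero q] in
theorem degenMap_one_jField (h : L₀ * q * 1 ∣ L₀ * q ^ 2) :
    degenMap K 1 h (jField (L₀ * q)) = jField (L₀ * q ^ 2) :=
  Subtype.ext (qExpand_one_apply _)

/-- `normAlpha` preserves both charts. -/
theorem normAlpha_mem_chartRing {a : modField K (L₀ * q ^ 2)} :
    (a ∈ chartRing W (jField (L₀ * q ^ 2)) →
      normAlpha K L₀ q a ∈ chartRing W (jField (L₀ * q ^ 2))) ∧
    (a ∈ chartRing W (jField (K := K) (L₀ * q ^ 2))⁻¹ →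
      normAlpha K L₀ q a ∈ chartRing W (jField (K := K) (L₀ * q ^ 2))⁻¹) := by
  letI := algebraAlong (degenMap K 1 (alphaDvd L₀ q))
  haveI := isScalarTower_degen (W := W) (K := K) 1 (alphaDvd L₀ q)
  have hj : algebraMap (modField K (L₀ * q)) (modField K (L₀ * q ^ 2)) (jField (L₀ * q)) =
      jField (L₀ * q ^ 2) := degenMap_one_jField (alphaDvd L₀ q)
  refine ⟨fun ha => ?_, fun ha => ?_⟩
  · rw [← hj] at ha ⊢
    exact algebraMap_norm_mem_chartRing ha
  · rw [← hj, ← map_inv₀] at ha ⊢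
    exact algebraMap_norm_mem_chartRing ha

/-- `normBeta` preserves the chart where `j` is finite. -/
theorem normBeta_mem_chartRing (ι : K →+* ℂ) (hq : q.Prime) {a : modField K (L₀ * q ^ 2)}
    (ha : a ∈ chartRing W (jField (L₀ * q ^ 2))) :
    normBeta K L₀ q a ∈ chartRing W (jField (L₀ * q ^ 2)) := by
  letI := algebraAlong (degenMap K q (betaDvd L₀ q))
  haveI := isScalarTower_degen (W := W) (K := K) q (betaDvd L₀ q)
  let xq : modField K (L₀ * q ^ 2) := degenMap K q (betaDvd L₀ q) (jField (L₀ * q))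
  have hco : ∀ T : modField K (L₀ * q ^ 2),
      (modField K (L₀ * q ^ 2)).val.toRingHom.comp
          (eval₂RingHom (Int.castRingHom (modField K (L₀ * q ^ 2))) T) =
        eval₂RingHom (Int.castRingHom (LaurentSeries K)) (T : LaurentSeries K) := fun T =>
    ringHom_ext (fun c => by simp) (by simp)
  have hinj := (modField K (L₀ * q ^ 2)).val.toRingHom.injective
  have hint : ∀ T S : modField K (L₀ * q ^ 2),
      (eval₂RingHom (Int.castRingHom (LaurentSeries K)) (T : LaurentSeries K)).IsIntegralElem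
        (S : LaurentSeries K) → S ∈ chartRing W T := fun T S h => by
    obtain ⟨Q, hQ, hQ0⟩ := h
    refine mem_chartRing_of_isIntegralElem
      ⟨Q, hQ, hinj ?_⟩
    rw [map_zero, hom_eval₂, hco]
    exact hQ0
  have h1 : xq ∈ chartRing W (jField (L₀ * q ^ 2)) :=
    hint _ _ (isIntegralElem_qExpand_jSer q)
  have h2 : jField (L₀ * q ^ 2) ∈ chartRing W xq := hint _ _ (isIntegralElem_jSer_qExpand ι q hq)
  refine chartRing_le_of_mem h1 ?_
  exact algebraMap_norm_mem_chartRing (xE := jField (L₀ * q)) (chartRing_le_of_mem h2 ha)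

end Charts

end Fermat.Agent.Carayol
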