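/-
The setting of the model of `X₀(q² L)` at a place `A₀` over `q`: the constants and what is asked of
the three branches (interface; proofs are in `ConstsExist`, `BranchData`).
-/
import Fermat.Agent.Carayol.ChartConcrete
import Fermat.Agent.Carayol.Norms
import Fermat.Agent.Carayol.EtaleChart

set_option autoImplicit false

noncomputable section

open ModularCurve IsLocalRing
open Fermat.Agent.HK.Corr

namespace Fermat.Agent.Carayol

local notation "Qb" => AlgebraicClosure ℚ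

section Consts

variable (A₀ : ValuationSubring Qb) {K K' k : Type} [Field K] [Algebra K Qb] [Field K'] [Field k]

/-- The place on the constants `K`. -/
abbrev constA (K : Type) [Field K] [Algebra K Qb] : ValuationSubring K :=
  A₀.comap (algebraMap K Qb)

/-- The place on the bigger constants `K'`. -/
abbrev constO (ι : K' →+* Qb) : ValuationSubring K' := A₀.comap ι

/-- The inclusion of the rings. -/
def constIncl (ι : K' →+* Qb) : constO A₀ ι →+* A₀ :=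
  (ι.comp (constO A₀ ι).subtype).codRestrict A₀ fun x => x.2

variable {A₀} in
/-- The reduction through a residue map `π₀` of the place. -/
def constRes (π₀ : A₀ →+* k) (ι : K' →+* Qb) : constO A₀ ι →+* k :=
  π₀.comp (constIncl A₀ ι)

/-- The constants: `K` is the fixed field of inertia at `A₀`, `K'` contains a primitive `q²`-th root
of unity `η`, with inertia moving it by every exponent. -/
structure Consts (q : ℕ) (π₀ : A₀ →+* k) (κ : K →+* K') (ι : K' →+* Qb) (η : K'ˣ) : Prop where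
  hq : q.Prime
  liesOver : A₀.LiesOverPrime q
  comp : ι.comp κ = algebraMap K Qb
  fixed : ∀ x : Qb, x ∈ (algebraMap K Qb).range ↔ ∀ σ ∈ A₀.inertiaSubgroupIn ℚ, σ x = x
  galois : IsGalois K Qb
  dvr : IsDiscreteValuationRing (constO A₀ ι)
  dvrA : IsDiscreteValuationRing (constA A₀ K)
  irreducible_q : Irreducible (q : constA A₀ K)
  π₀_surj : Function.Surjective π₀
  π₀_eq_zero_iff : ∀ a : A₀, π₀ a = 0 ↔ ¬ IsUnit a
  /-- the chart of `j` at every good level is normal over the place -/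
  normal : ∀ (N : ℕ) [NeZero N] (hN : (N : k) ≠ 0), ¬ q ∣ N →
    (RED.good_x0 A₀ π₀ N π₀_surj hN).constRed.Normal (RED.good_x0 A₀ π₀ N π₀_surj hN).paramX
  /-- the chart of `1/j` at every good level is normal over the place -/
  normalInv : ∀ (N : ℕ) [NeZero N] (hN : (N : k) ≠ 0), ¬ q ∣ N →
    (RED.good_x0 A₀ π₀ N π₀_surj hN).constRed.Normal
      ((RED.good_x0 A₀ π₀ N π₀_surj hN).constRed.invParam (RED.good_x0 A₀ π₀ N π₀_surj hN).param)
  surj : ∀ y : k, ∃ a : constA A₀ K, constRes π₀ (algebraMap K Qb) a = y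
  algClosed : IsAlgClosed k
  charP : CharP k q
  hη : IsPrimitiveRoot η (q ^ 2)
  sigma : ∀ u : ℕ, u.Coprime q → ∃ (σ : K' →+* K') (hσ : ∀ c ∈ constO A₀ ι, σ c ∈ constO A₀ ι),
    σ.comp κ = κ ∧ σ (η : K') = (η : K') ^ u ∧
      ∀ c : constO A₀ ι, constRes π₀ ι ⟨σ c, hσ c c.2⟩ = constRes π₀ ι c

end Consts

section Branch

variable (A₀ : ValuationSubring Qb) {K K' k : Type} [Field K] [Algebra ℚ K] [Algebra K Qb]
  [Field K'] [Algebra ℚ K'] [Field k] {q L₀ : ℕ} [NeZero q] [NeZero L₀]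

/-- The branch fields of `Model`, at this setting. -/
structure BranchData (hq : q.Prime) (hqL : ¬ q ∣ L₀) (π₀ : A₀ →+* k) (κ : K →+* K') (ι : K' →+* Qb) (η : K'ˣ)
    (e0 e02 : modField K (L₀ * q ^ 2) →+* LaurentSeries K')
    (ez : Fin (q - 1) → modField K (L₀ * q ^ 2) →+* LaurentSeries K') (k₀ : Fin (q - 1))
    (Br : Branches (modField K (L₀ * q ^ 2)) (Fin 3) (fun _ => modularFunctionFieldFullC k L₀))
    (ord : Fin 3 → modField K (L₀ * q ^ 2) → ℤ) : Prop where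
  chartData : ChartData hq hqL (constRes π₀ ι) κ (η ^ q) e0 e02 ez η (constA A₀ K) Br
    (modularFunctionFieldFullC k L₀).val.toRingHom k₀
  res_const : ∀ i (w : constA A₀ K)
    (h : algebraMap K (modField K (L₀ * q ^ 2)) (w : K) ∈ Br.V i),
    Br.res i ⟨_, h⟩ =
      algebraMap k (modularFunctionFieldFullC k L₀) (constRes π₀ (algebraMap K Qb) w)
  ord_mul : ∀ i a b, a ≠ 0 → b ≠ 0 → ord i (a * b) = ord i a + ord i b
  mem_iff : ∀ i a, a ≠ 0 → (a ∈ Br.V i ↔ 0 ≤ ord i a)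
  res_eq_zero_iff : ∀ i a (h : a ∈ Br.V i), a ≠ 0 → (Br.res i ⟨a, h⟩ = 0 ↔ 0 < ord i a)
  ord_q : ord 0 (q : modField K (L₀ * q ^ 2)) = 1 ∧
    ord 1 (q : modField K (L₀ * q ^ 2)) = (q : ℤ) - 1 ∧ ord 2 (q : modField K (L₀ * q ^ 2)) = 1
  ord_normα : ∀ a, a ≠ 0 → ord 0 (normAlpha K L₀ q a) = ord 0 a + ord 1 a ∧
    ord 2 (normAlpha K L₀ q a) = q * ord 2 a
  ord_normβ : ∀ a, a ≠ 0 → ord 2 (normBeta K L₀ q a) = ord 2 a + ord 1 a ∧
    ord 0 (normBeta K L₀ q a) = q * ord 0 a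
  res_normα₀ : ∀ a (h0 : a ∈ Br.V 0) (h1 : a ∈ Br.V 1) (hN : normAlpha K L₀ q a ∈ Br.V 0),
    Br.res 0 ⟨_, hN⟩ = Br.res 0 ⟨a, h0⟩ * Br.res 1 ⟨a, h1⟩ ^ (q - 1)
  res_normα₂ : ∀ a (h2 : a ∈ Br.V 2) (hN : normAlpha K L₀ q a ∈ Br.V 2),
    Br.res 2 ⟨_, hN⟩ = Br.res 2 ⟨a, h2⟩ ^ q
  res_normβ₂ : ∀ a (h2 : a ∈ Br.V 2) (h1 : a ∈ Br.V 1) (hN : normBeta K L₀ q a ∈ Br.V 2),
    Br.res 2 ⟨_, hN⟩ = Br.res 2 ⟨a, h2⟩ * Br.res 1 ⟨a, h1⟩ ^ (q - 1)
  res_normβ₀ : ∀ a (h0 : a ∈ Br.V 0) (hN : normBeta K L₀ q a ∈ Br.V 0),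
    Br.res 0 ⟨_, hN⟩ = Br.res 0 ⟨a, h0⟩ ^ q

end Branch

end Fermat.Agent.Carayol
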