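/-
The three branches of `X₀(q² L)` at `q`: valuation rings, residue maps into the function field of
level `L₀` in characteristic `q`, and normalised orders.
-/
import Fermat.Agent.Carayol.Setting
import Fermat.Agent.Carayol.Elements

set_option autoImplicit false
set_option linter.unusedSectionVars false

noncomputable section

open ModularCurve
open Fermat.Agent.Igusa Fermat.Agent.RED.Spec Fermat.Agent.HK.Corr Fermat.Agent.CarayolHigh

namespace Fermat.Agent.Carayol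

/-! ### Gauss orders -/

section Order

variable {K' : Type} [Field K'] {O : ValuationSubring K'} {k : Type} [Field k] {π : O →+* k}
  {ϖ : O} {z z' : LaurentSeries K'} {n m : ℤ}

theorem isGauss_C_pow (π : O →+* k) (ϖ : O) (d : ℕ) :
    IsGauss π (HahnSeries.C ((ϖ : K') ^ d)) (HahnSeries.C (π ϖ ^ d)) := by
  have h := isGauss_int (π := π) (HahnSeries.C (ϖ ^ d))
  rwa [intSeries, CarayolHigh.coeffMap_C', CarayolHigh.coeffMap_C', map_pow π,
    show O.subtype (ϖ ^ d) = (ϖ : K') ^ d from map_pow O.subtype ϖ d] at h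

/-- Inverses of units. -/
theorem IsGauss.inv {r : LaurentSeries k} (h : IsGauss π z r) (hr : r ≠ 0) :
    IsGauss π z⁻¹ r⁻¹ := by
  obtain ⟨a, b, hb, he, rfl⟩ := h
  have ha : ModularCurve.coeffMap π a ≠ 0 := fun h0 => hr (by rw [h0, zero_div])
  refine ⟨b, a, ha, ?_, inv_div _ _⟩
  have hz : z ≠ 0 := by
    rintro rfl
    rw [zero_mul] at he
    exact ha (by rw [intSeries_injective O (he.symm.trans (map_zero _).symm), map_zero])
  rw [← he, ← mul_assoc, inv_mul_cancel₀ hz, one_mul]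

theorem IsGauss.zpow {r : LaurentSeries k} (h : IsGauss π z r) (hr : r ≠ 0) (d : ℤ) :
    IsGauss π (z ^ d) (r ^ d) := by
  rcases d.eq_nat_or_neg with ⟨e, rfl | rfl⟩
  · rw [zpow_natCast, zpow_natCast]
    exact h.pow e
  · rw [zpow_neg, zpow_natCast, zpow_neg, zpow_natCast]
    exact (h.pow e).inv (pow_ne_zero e hr)

variable (hϖ : (ϖ : K') ≠ 0) (hϖ0 : π ϖ = 0)

include hϖ hϖ0 in
theorem HasGaussOrd.le_of {r : LaurentSeries k} (h : HasGaussOrd π (ϖ : K') z n)
    (hm : IsGauss π (HahnSeries.C ((ϖ : K') ^ (-m)) * z) r) : m ≤ n := by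
  by_contra hlt
  obtain ⟨s, hs, hg⟩ := h
  obtain ⟨d, hd⟩ : ∃ d : ℕ, m - n = (d : ℤ) + 1 :=
    ⟨(m - n - 1).toNat, by rw [Int.toNat_of_nonneg (by omega)]; ring⟩
  have h1 := (isGauss_C_pow π ϖ (d + 1)).mul hm
  rw [hϖ0, zero_pow (Nat.succ_ne_zero d), map_zero, zero_mul, ← mul_assoc, ← map_mul,
    ← zpow_natCast, ← zpow_add₀ hϖ,
    show ((d + 1 : ℕ) : ℤ) + -m = -n by push_cast; omega] at h1
  exact hs (hg.unique h1)

include hϖ hϖ0 in
theorem HasGaussOrd.unique (h : HasGaussOrd π (ϖ : K') z n) (h' : HasGaussOrd π (ϖ : K') z m) :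
    n = m :=
  le_antisymm (h'.le_of hϖ hϖ0 h.choose_spec.2) (h.le_of hϖ hϖ0 h'.choose_spec.2)

include hϖ hϖ0 in
/-- Integrality and positivity in terms of the order. -/
theorem HasGaussOrd.nonneg_of_isGauss {r : LaurentSeries k} (h : HasGaussOrd π (ϖ : K') z n)
    (hr : IsGauss π z r) : 0 ≤ n ∧ (r = 0 → 0 < n) ∧ (r ≠ 0 → n = 0) := by
  have h0 : IsGauss π (HahnSeries.C ((ϖ : K') ^ (-(0 : ℤ))) * z) r := by simpa using hr
  refine ⟨h.le_of hϖ hϖ0 h0, fun hr0 => lt_of_le_of_ne (h.le_of hϖ hϖ0 h0) ?_,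
    fun hr0 => h.unique hϖ hϖ0 ⟨r, hr0, h0⟩⟩
  rintro rfl
  obtain ⟨s, hs, hg⟩ := h
  exact hs (hg.unique (hr0 ▸ h0))

include hϖ in
theorem HasGaussOrd.exists_isGauss (h : HasGaussOrd π (ϖ : K') z n) (hn : 0 ≤ n) :
    ∃ r, IsGauss π z r := by
  obtain ⟨d, rfl⟩ := Int.eq_ofNat_of_zero_le hn
  obtain ⟨s, -, hg⟩ := h
  refine ⟨HahnSeries.C (π ϖ ^ d) * s, ?_⟩
  have h1 := (isGauss_C_pow π ϖ d).mul hg
  rwa [← mul_assoc, ← map_mul, ← zpow_natCast, ← zpow_add₀ hϖ, add_neg_cancel, zpow_zero, map_one,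
    one_mul] at h1

include hϖ in
theorem hasGaussOrd_pow (h : HasGaussOrd π (ϖ : K') z n) (d : ℕ) :
    HasGaussOrd π (ϖ : K') (z ^ d) (d * n) := by
  induction d with
  | zero => simpa using hasGaussOrd_one
  | succ d ih =>
    rw [pow_succ, show ((d + 1 : ℕ) : ℤ) * n = d * n + n by push_cast; ring]
    exact ih.mul hϖ h

include hϖ in
theorem hasGaussOrd_zpow (h : HasGaussOrd π (ϖ : K') z n) (d : ℤ) :
    HasGaussOrd π (ϖ : K') (z ^ d) (d * n) := by
  obtain ⟨r, hr, hg⟩ := h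
  refine ⟨r ^ d, zpow_ne_zero _ hr, ?_⟩
  have := hg.zpow hr d
  rwa [mul_zpow, ← map_zpow₀, ← zpow_mul, show -n * d = -(d * n) by ring] at this

end Order

local notation "Qb" => AlgebraicClosure ℚ

section Construction

variable {A₀ : ValuationSubring Qb} {K K' k : Type} [Field K] [Algebra ℚ K] [Algebra K Qb]
  [Field K'] [Algebra ℚ K'] [Field k] {q L₀ : ℕ} [NeZero q] [NeZero L₀]
  {hq : q.Prime} {hqL : ¬ q ∣ L₀} {π₀ : A₀ →+* k} {κ : K →+* K'} {ι : K' →+* Qb} {η : K'ˣ}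
  (hC : Consts A₀ q π₀ κ ι η)

include hC

theorem Consts.hπ (c : constO A₀ ι) : constRes π₀ ι c = 0 ↔ ¬IsUnit c := by
  rw [constRes, RingHom.comp_apply, hC.π₀_eq_zero_iff]
  refine not_congr ⟨fun h => ?_, fun h => h.map _⟩
  obtain ⟨⟨y, hy⟩, hxy⟩ := isUnit_iff_exists_inv.mp h
  have h1 : ι (c : K') * y = 1 := congrArg Subtype.val hxy
  have hy' : y = ι (c : K')⁻¹ := by
    rw [map_inv₀]
    exact eq_inv_of_mul_eq_one_right h1
  refine isUnit_iff_exists_inv.mpr ⟨⟨(c : K')⁻¹, ValuationSubring.mem_comap.mpr (hy' ▸ hy)⟩,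
    Subtype.ext (mul_inv_cancel₀ fun h0 => ?_)⟩
  rw [h0, map_zero, zero_mul] at h1
  exact zero_ne_one h1

theorem Consts.κ_mem_iff (a : K) : κ a ∈ constO A₀ ι ↔ a ∈ constA A₀ K := by
  show ι (κ a) ∈ A₀ ↔ algebraMap K Qb a ∈ A₀
  rw [← RingHom.comp_apply, hC.comp]

theorem Consts.constRes_κ (a : constA A₀ K) (h : κ (a : K) ∈ constO A₀ ι) :
    constRes π₀ ι ⟨κ (a : K), h⟩ = constRes π₀ (algebraMap K Qb) a :=
  congrArg π₀ (Subtype.ext (RingHom.congr_fun hC.comp (a : K)))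

theorem Consts.constRes_κ_eq_zero (a : constA A₀ K) (h : κ (a : K) ∈ constO A₀ ι) :
    constRes π₀ ι ⟨κ (a : K), h⟩ = 0 ↔ ¬IsUnit a := by
  rw [hC.hπ]
  refine not_congr ⟨fun hu => ?_, fun hu => ?_⟩
  · obtain ⟨⟨y, hy⟩, hxy⟩ := isUnit_iff_exists_inv.mp hu
    have h1 : κ (a : K) * y = 1 := congrArg Subtype.val hxy
    have hy' : y = κ (a : K)⁻¹ := by
      rw [map_inv₀]
      exact eq_inv_of_mul_eq_one_right h1
    refine isUnit_iff_exists_inv.mpr ⟨⟨(a : K)⁻¹, (hC.κ_mem_iff _).mp (hy' ▸ hy)⟩,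
      Subtype.ext (mul_inv_cancel₀ fun h0 => ?_)⟩
    rw [h0, map_zero, zero_mul] at h1
    exact zero_ne_one h1
  · obtain ⟨b, hb⟩ := hu.exists_right_inv
    exact isUnit_iff_exists_inv.mpr ⟨⟨κ (b : K), (hC.κ_mem_iff _).mpr b.2⟩, Subtype.ext (by
      show κ (a : K) * κ (b : K) = 1
      rw [← map_mul, ← MulMemClass.coe_mul, hb, OneMemClass.coe_one, map_one])⟩

/-- `q = u ϖ^E`. -/
theorem Consts.exists_E {ϖ : constO A₀ ι} (hϖ : Irreducible ϖ) :
    ∃ E : ℕ, 0 < E ∧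
      HasGaussOrd (constRes π₀ ι) (ϖ : K') (HahnSeries.C (q : K')) E := by
  haveI := hC.dvr
  have hq0 : (q : constO A₀ ι) ≠ 0 := by
    intro h
    have h1 := congrArg (fun x : constO A₀ ι => ι (x : K')) h
    simp only [ZeroMemClass.coe_zero, map_zero] at h1
    push_cast at h1
    rw [map_natCast] at h1
    exact hC.hq.ne_zero (Nat.cast_eq_zero.mp h1)
  obtain ⟨E, u, hu⟩ := IsDiscreteValuationRing.eq_unit_mul_pow_irreducible hq0 hϖ
  have hπq : constRes π₀ ι (q : constO A₀ ι) = 0 := by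
    haveI := hC.charP
    rw [map_natCast, CharP.cast_eq_zero]
  have hπu : constRes π₀ ι (u : constO A₀ ι) ≠ 0 := fun h => (hC.hπ _).mp h u.isUnit
  refine ⟨E, Nat.pos_of_ne_zero ?_, HahnSeries.C (constRes π₀ ι (u : constO A₀ ι)),
    HahnSeries.C_ne_zero hπu, ?_⟩
  · rintro rfl
    rw [pow_zero, mul_one] at hu
    exact hπu (hu ▸ hπq)
  · have h := isGauss_int (π := constRes π₀ ι) (HahnSeries.C (u : constO A₀ ι))
    rw [intSeries, CarayolHigh.coeffMap_C', CarayolHigh.coeffMap_C'] at h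
    convert h using 1
    rw [← map_mul]
    congr 1
    have hp : (ϖ : K') ≠ 0 := by simpa [ZeroMemClass.coe_eq_zero] using hϖ.ne_zero
    have hu' := congrArg (fun x : constO A₀ ι => (x : K')) hu
    push_cast at hu'
    show (ϖ : K') ^ (-(E : ℤ)) * (q : K') = ((u : constO A₀ ι) : K')
    rw [hu', zpow_neg, zpow_natCast]
    field_simp

/-- Series with coefficients in `κ K` have orders divisible by that of `q`. -/
theorem Consts.exists_ord_coeffMap {ϖ : constO A₀ ι} (hϖ : Irreducible ϖ) {E : ℕ}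
    (hE : HasGaussOrd (constRes π₀ ι) (ϖ : K') (HahnSeries.C (q : K')) E)
    {w : LaurentSeries K} (hw : w ∈ fracSeries (constA A₀ K)) (hw0 : w ≠ 0) :
    ∃ m : ℤ, HasGaussOrd (constRes π₀ ι) (ϖ : K') (coeffMap κ w) (E * m) := by
  haveI := hC.dvrA
  have hp : (ϖ : K') ≠ 0 := by simpa [ZeroMemClass.coe_eq_zero] using hϖ.ne_zero
  let ιA : constA A₀ K →+* constO A₀ ι :=
    (κ.comp (constA A₀ K).subtype).codRestrict _ fun a => (hC.κ_mem_iff _).mpr a.2
  let G : GaussBranch (constA A₀ K) k (fracSeries (constA A₀ K)) :=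
    { π := (constRes π₀ ι).comp ιA
      π_eq_zero := fun a => hC.constRes_κ_eq_zero a _
      ψ := (fracSeries (constA A₀ K)).subtype
      frac := fun x => x.2 }
  obtain ⟨m, a, b, ha, hb, he⟩ := G.exists_scaled hC.irreducible_q
    (x := ⟨w, hw⟩) fun h => hw0 (congrArg Subtype.val h)
  suffices h : ∃ r, r ≠ 0 ∧ IsGauss (constRes π₀ ι)
      (HahnSeries.C ((ϖ : K') ^ (-((E : ℤ) * m))) * coeffMap κ w) r from ⟨m, h⟩
  have hint : ∀ t : LaurentSeries (constA A₀ K),
      intSeries (constO A₀ ι) (coeffMap ιA t) = coeffMap κ (intSeries (constA A₀ K) t) := fun t => by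
    rw [intSeries, intSeries, coeffMap_coeffMap, coeffMap_coeffMap]
    rfl
  -- the unit `q ^ m / ϖ ^ (E m)`
  obtain ⟨s, hs, hg⟩ := hE
  have h1 : IsGauss (constRes π₀ ι)
      (HahnSeries.C (((ϖ : K') ^ (-(E : ℤ)) * (q : K')) ^ m)) (s ^ m) := by
    rw [← map_mul] at hg
    rw [map_zpow₀]
    exact hg.zpow hs m
  have h2 : IsGauss (constRes π₀ ι)
      (coeffMap κ w * HahnSeries.C (((q : K') ^ m)⁻¹))
      (coeffMap G.π a / coeffMap G.π b) := by
    refine ⟨coeffMap ιA a, coeffMap ιA b, ?_, ?_, ?_⟩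
    · rw [coeffMap_coeffMap]; exact hb
    · have he' := congrArg (coeffMap κ) he
      rw [map_mul, map_mul, ← hint, ← hint, CarayolHigh.coeffMap_C', map_zpow₀] at he'
      have hqm : ((q : K') ^ m) ≠ 0 := zpow_ne_zero _ fun h0 => hC.hq.ne_zero (by
        have := congrArg ι h0
        rwa [map_natCast, map_zero, Nat.cast_eq_zero] at this)
      rw [mul_right_comm, show coeffMap κ (w : LaurentSeries K) =
        coeffMap κ (G.ψ ⟨w, hw⟩) from rfl, he']
      rw [show (κ (((q : constA A₀ K) : K)) : K') = (q : K') by simp, mul_right_comm, ← map_mul,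
        mul_inv_cancel₀ hqm, map_one, one_mul]
    · rw [coeffMap_coeffMap, coeffMap_coeffMap]
  have h3 := (h2.mul h1).mul (isGauss_one (π := constRes π₀ ι))
  rw [mul_one] at h3
  have hkey : coeffMap κ w * HahnSeries.C (((q : K') ^ m)⁻¹) *
      HahnSeries.C (((ϖ : K') ^ (-(E : ℤ)) * (q : K')) ^ m) =
      HahnSeries.C ((ϖ : K') ^ (-((E : ℤ) * m))) * coeffMap κ w := by
    have hqm : ((q : K') ^ m) ≠ 0 := zpow_ne_zero _ fun h0 => hC.hq.ne_zero (by
        have := congrArg ι h0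
        rwa [map_natCast, map_zero, Nat.cast_eq_zero] at this)
    rw [mul_assoc, ← map_mul, mul_zpow, ← zpow_mul, neg_mul, mul_comm (((q : K') ^ m)⁻¹),
      mul_assoc, mul_inv_cancel₀ hqm, mul_one, mul_comm]
  rw [hkey] at h3
  -- the residue is a nonzero multiple
  exact ⟨_, mul_ne_zero (mul_ne_zero (div_ne_zero ha hb) (zpow_ne_zero _ hs)) one_ne_zero, h3⟩

/-- Residues of the pair units. -/
theorem Consts.isGauss_pair {a b : ℕ} [NeZero a] [NeZero b] (hab : b / a = q) :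
    IsGauss (constRes π₀ ι) (pairU K' a b) 0 ∧
      IsGauss (constRes π₀ ι) (pairV K' a b) (pairV k a b) ∧ pairV k a b ≠ 0 := by
  haveI := hC.charP
  have hd : Igusa.deltaSeries k ≠ 0 ∧ deltaInvSeries k ≠ 0 :=
    mul_ne_zero_iff.mp (by rw [deltaSeries_mul_inv]; exact one_ne_zero)
  refine ⟨?_, ?_, ?_⟩
  · have h := isGauss_int (π := constRes π₀ ι) (pairU (constO A₀ ι) a b)
    rw [intSeries, coeffMap_pairU, coeffMap_pairU] at h
    have h0 : pairU k a b = 0 := by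
      rw [pairU, hab, CharP.cast_eq_zero, zero_pow (by norm_num), map_zero, zero_mul]
    rwa [h0] at h
  · have h := isGauss_int (π := constRes π₀ ι) (pairV (constO A₀ ι) a b)
    rwa [intSeries, coeffMap_pairV, coeffMap_pairV] at h
  · exact mul_ne_zero ((map_ne_zero_iff _ (qExpand_injective _)).mpr hd.1)
      ((map_ne_zero_iff _ (qExpand_injective _)).mpr hd.2)

/-- An embedding of the algebraic numbers into `ℂ`. -/
theorem Consts.exists_ιC : Nonempty (K →+* ℂ) ∧ Nonempty (K' →+* ℂ) :=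
  ⟨⟨(IsAlgClosed.lift : Qb →ₐ[ℚ] ℂ).toRingHom.comp (algebraMap K Qb)⟩,
    ⟨(IsAlgClosed.lift : Qb →ₐ[ℚ] ℂ).toRingHom.comp ι⟩⟩

variable {e0 e02 : modField K (L₀ * q ^ 2) →+* LaurentSeries K'}
  {ez : Fin (q - 1) → modField K (L₀ * q ^ 2) →+* LaurentSeries K'}
  (hB : BranchEmbs hq hqL κ (η ^ q) e0 e02 ez) (k₀ : Fin (q - 1))

include hB

/-- Orders on the outer branches. -/
theorem Consts.exists_ord_outer {ϖ : constO A₀ ι} (hϖ : Irreducible ϖ) {E : ℕ}
    (hE : HasGaussOrd (constRes π₀ ι) (ϖ : K') (HahnSeries.C (q : K')) E)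
    {a : modField K (L₀ * q ^ 2)} (ha : a ≠ 0) :
    (∃ m : ℤ, HasGaussOrd (constRes π₀ ι) (ϖ : K') (e0 a) (E * m)) ∧
      ∃ m : ℤ, HasGaussOrd (constRes π₀ ι) (ϖ : K') (e02 a) (E * m) := by
  obtain ⟨⟨ιC⟩, -⟩ := hC.exists_ιC
  have hid : ∀ w : LaurentSeries K, coeffMap (RingHom.id K) w = w := fun w => by
    ext n; rw [coeffMap_coeff]; rfl
  constructor
  · have h0 : e0 = baseEmb κ _ := hB.h0.ext (isSubst_baseEmb κ _) fun _ => rfl
    have hw : (a : LaurentSeries K) ∈ fracSeries (constA A₀ K) := by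
      have := (isSubst_baseEmb (RingHom.id K) (L₀ * q ^ 2)).mem_fracSeries
        (fun d => genSer_mem_fracSeries (constA A₀ K) d) a
      rwa [show baseEmb (RingHom.id K) (L₀ * q ^ 2) a = (a : LaurentSeries K) from hid _] at this
    rw [h0]
    exact hC.exists_ord_coeffMap hϖ hE hw fun h => ha (Subtype.ext h)
  · obtain ⟨φ, hφ⟩ := exists_embedding_swapTwo (L₀ := L₀) ιC hq hqL
    have h2 : e02 = (coeffMap κ).comp φ.toRingHom :=
      hB.h02.ext (isSubst_of_algHom κ _ φ fun d _ => hφ d) fun _ => rfl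
    have hw : φ a ∈ fracSeries (constA A₀ K) := by
      have := (isSubst_of_algHom (RingHom.id K) _ φ fun d _ => hφ d).mem_fracSeries
        (fun d => genSer_mem_fracSeries (constA A₀ K) _) a
      rwa [show ((coeffMap (RingHom.id K)).comp φ.toRingHom) a = φ a from hid _] at this
    rw [h2]
    exact hC.exists_ord_coeffMap hϖ hE hw ((map_ne_zero φ.toRingHom).mpr ha)

/-- Inertia is transitive on the middle embeddings. -/
theorem Consts.exists_sigma (i i' : Fin (q - 1)) :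
    ∃ (σ : K' →+* K') (hσ : ∀ c ∈ constO A₀ ι, σ c ∈ constO A₀ ι), σ.comp κ = κ ∧
      σ (((η ^ q) ^ ((i : ℕ) + 1) : K'ˣ) : K') = (((η ^ q) ^ ((i' : ℕ) + 1) : K'ˣ) : K') ∧
      ∀ c : constO A₀ ι, constRes π₀ ι ⟨σ c, hσ c c.2⟩ = constRes π₀ ι c := by
  haveI := Fact.mk hq
  let u : ℕ := ((((i' : ℕ) + 1 : ℕ) : ZMod q) * (((i : ℕ) + 1 : ℕ) : ZMod q)⁻¹).val
  have hne : ∀ j : Fin (q - 1), (((j : ℕ) + 1 : ℕ) : ZMod q) ≠ 0 := fun j h => by
    rw [ZMod.natCast_eq_zero_iff] at h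
    have := Nat.le_of_dvd (by omega) h
    have := j.2
    omega
  have hu : u.Coprime q := by
    rw [Nat.coprime_comm, hq.coprime_iff_not_dvd, ← ZMod.natCast_eq_zero_iff, ZMod.natCast_zmod_val]
    exact mul_ne_zero (hne i') (inv_ne_zero (hne i))
  obtain ⟨σ, hσ, hσκ, hση, hσπ⟩ := hC.sigma u hu
  refine ⟨σ, hσ, hσκ, ?_, hσπ⟩
  have hmod : (u * ((i : ℕ) + 1)) % q = ((i' : ℕ) + 1) % q := by
    refine (ZMod.natCast_eq_natCast_iff' _ _ q).mp ?_
    rw [Nat.cast_mul, ZMod.natCast_zmod_val, mul_assoc, inv_mul_cancel₀ (hne i), mul_one]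
  have hz : (η ^ q) ^ (u * ((i : ℕ) + 1)) = (η ^ q) ^ ((i' : ℕ) + 1) := by
    have hq1 : (η ^ q) ^ q = 1 := hB.prim.pow_eq_one
    rw [pow_eq_pow_mod _ hq1, hmod, ← pow_eq_pow_mod _ hq1]
  rw [← hz]
  simp only [Units.val_pow_eq_pow_val, map_pow, hση, ← pow_mul]
  congr 1
  ring

/-- Residues on the middle branches agree. -/
theorem Consts.isGauss_mid {i i' : Fin (q - 1)} {x : modField K (L₀ * q ^ 2)}
    {r : LaurentSeries k} (h : IsGauss (constRes π₀ ι) (ez i x) r) :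
    IsGauss (constRes π₀ ι) (ez i' x) r := by
  haveI := Fact.mk hq
  obtain ⟨σ, hσ, hσκ, hσz, hσπ⟩ := hC.exists_sigma hB i i'
  exact hB.isGauss_mid_of_sigma σ hσκ hσz hσ hσπ h

/-- Orders on the middle branches agree. -/
theorem Consts.exists_ord_mid {ϖ : constO A₀ ι} (hϖ : Irreducible ϖ) {E : ℕ} (hE0 : 0 < E)
    (hE : HasGaussOrd (constRes π₀ ι) (ϖ : K') (HahnSeries.C (q : K')) E)
    {a : modField K (L₀ * q ^ 2)} (ha : a ≠ 0) :
    ∃ n : ℤ, ∀ i, HasGaussOrd (constRes π₀ ι) (ϖ : K') (ez i a) n := by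
  haveI := hC.dvr
  haveI := hC.charP
  haveI := Fact.mk hq
  have hp : (ϖ : K') ≠ 0 := by simpa [ZeroMemClass.coe_eq_zero] using hϖ.ne_zero
  have hp0 : constRes π₀ ι ϖ = 0 := (hC.hπ ϖ).mpr hϖ.not_isUnit
  have hord : ∀ i, ∃ n, HasGaussOrd (constRes π₀ ι) (ϖ : K') (ez i a) n := fun i => by
    let G : GaussBranch (constO A₀ ι) k (modField K (L₀ * q ^ 2)) :=
      { π := constRes π₀ ι
        π_eq_zero := hC.hπ
        ψ := ez i
        frac := fun x => (hB.mem_fracSeries (constRes π₀ ι) x).2.2 i }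
    obtain ⟨m, x, y, hx, hy, he⟩ := G.exists_scaled hϖ ha
    refine ⟨m, coeffMap (constRes π₀ ι) x / coeffMap (constRes π₀ ι) y, div_ne_zero hx hy,
      x, y, hy, ?_, rfl⟩
    rw [mul_assoc, show ez i a * intSeries _ y = _ from he, ← mul_assoc, ← map_mul,
      ← zpow_add₀ hp, neg_add_cancel, zpow_zero, map_one, one_mul]
  choose n hn using hord
  let i₀ : Fin (q - 1) := ⟨0, by have := hq.two_le; omega⟩
  refine ⟨n i₀, fun i => ?_⟩
  let b : modField K (L₀ * q ^ 2) :=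
    a ^ E * (algebraMap K (modField K (L₀ * q ^ 2)) (q : K)) ^ (-(n i₀))
  have hb : ∀ j, HasGaussOrd (constRes π₀ ι) (ϖ : K') (ez j b) (E * n j + -(n i₀) * E) := fun j => by
    rw [map_mul, map_pow, map_zpow₀, (hB.hz j).const, map_natCast]
    exact (hasGaussOrd_pow hp (hn j) E).mul hp (hasGaussOrd_zpow hp hE _)
  obtain ⟨r, hr⟩ := (hb i₀).exists_isGauss hp (by ring_nf; exact le_rfl)
  have hr0 : r ≠ 0 := fun h => by
    have := ((hb i₀).nonneg_of_isGauss hp hp0 hr).2.1 h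
    ring_nf at this
    exact lt_irrefl _ this
  have h := ((hb i).nonneg_of_isGauss hp hp0 (hC.isGauss_mid hB hr)).2.2 hr0
  have hEn : (E : ℤ) * n i = E * n i₀ := by linear_combination h
  rw [← mul_left_cancel₀ (Int.natCast_ne_zero.mpr hE0.ne') hEn]
  exact hn i

/-- Residues on the three branches lie in the function field of level `L₀`. -/
theorem Consts.residue_mem (i : Fin 3) {a : modField K (L₀ * q ^ 2)} {r : LaurentSeries k}
    (h : IsGauss (constRes π₀ ι) (branchTriple e0 e02 ez k₀ i a) r) :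
    r ∈ modularFunctionFieldFullC k L₀ := by
  haveI := hC.dvr
  haveI := hC.charP
  haveI := Fact.mk hq
  obtain ⟨⟨ιK⟩, ⟨ιC⟩⟩ := hC.exists_ιC
  have hd2 : q ∣ q ^ 2 := dvd_pow_self q two_ne_zero
  have dqq : q ^ 2 ∣ L₀ * q ^ 2 := dvd_mul_left _ _
  have hu1 := pairU_mem (K := K) ιK (one_dvd q) (hd2.trans dqq)
  have hv1 := pairV_mem (K := K) ιK (one_dvd q) (hd2.trans dqq)
  have hu2 := pairU_mem (K := K) ιK hd2 dqq
  have hv2 := pairV_mem (K := K) ιK hd2 dqq
  obtain ⟨⟨p1, p2, p3, p4⟩, ⟨q1, q2, q3, q4⟩, hz⟩ := branchEmbs_pair ιC hq hqL hB hu1 hv1 hu2 hv2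
  obtain ⟨g1, g2, g2'⟩ := hC.isGauss_pair (a := 1) (b := q) (Nat.div_one q)
  obtain ⟨g3, g4, g4'⟩ := hC.isGauss_pair (a := q) (b := q ^ 2)
    (by rw [pow_two, Nat.mul_div_cancel _ hq.pos])
  have hL : (L₀ : k) ≠ 0 := fun h0 => hqL ((CharP.cast_eq_zero_iff k q L₀).mp h0)
  have hA : ∀ x ∈ constA A₀ K, κ x ∈ constO A₀ ι := fun x hx => (hC.κ_mem_iff x).mpr hx
  have hsurj : ∀ y : k, ∃ (x : K) (hx : x ∈ constA A₀ K),
      constRes π₀ ι ⟨κ x, hA x hx⟩ = y := fun y => by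
    obtain ⟨x, hx⟩ := hC.surj y
    exact ⟨x, x.2, (hC.constRes_κ x _).trans hx⟩
  have hu : ∀ j : Fin (q - 1), ((η ^ q) ^ ((j : ℕ) + 1)) ^ q ^ 1 = 1 := fun j => by
    rw [pow_one, unit_pow_pow_eq_one hB.prim _ dvd_rfl]
  fin_cases i
  · exact hB.residue_mem_zero hC.hπ _ hA hsurj hL hC.hη (e := ⟨_, hv2⟩) (s := pairV k q (q ^ 2))
      (by rw [p4]; exact g4) g4'
      (fun j => by rw [(hz j).2.2.2]; exact g1.qScale_root (hu j))
      (by rw [q4]; exact g1) h
  · exact hB.residue_mem_one hC.hπ _ hA hsurj hL hC.hη (e := ⟨_, hv1⟩ * ⟨_, hu2⟩)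
      (s := pairV k 1 q * pairV k 1 q)
      (by rw [map_mul, p2, p3]; simpa using g2.mul g3) (mul_ne_zero g2' g2')
      (fun j => by rw [map_mul, (hz j).2.1, (hz j).2.2.1]; exact g2.mul (g2.qScale_root (hu j)))
      (by rw [map_mul, q2, q3]; simpa using g3.mul g2) (fun j => hC.isGauss_mid hB h)
  · exact hB.residue_mem_two hC.hπ _ hA hsurj hL hC.hη (e := ⟨_, hu1⟩) (s := pairV k q (q ^ 2))
      (by rw [p1]; exact g1) g4'
      (fun j => by rw [(hz j).1]; exact g1)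
      (by rw [q1]; exact g4) h

/-- **The branches exist.** -/
theorem exists_branchData :
    ∃ (Br : Branches (modField K (L₀ * q ^ 2)) (Fin 3) (fun _ => modularFunctionFieldFullC k L₀))
      (ord : Fin 3 → modField K (L₀ * q ^ 2) → ℤ),
      BranchData A₀ hq hqL π₀ κ ι η e0 e02 ez k₀ Br ord := by
  classical
  haveI := hC.dvr
  haveI := hC.dvrA
  haveI := hC.charP
  haveI := Fact.mk hq
  have hdata := hB.mem_fracSeries (constRes π₀ ι)
  let G : Fin 3 → GaussBranch (constO A₀ ι) k (modField K (L₀ * q ^ 2)) := fun i =>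
    { π := constRes π₀ ι
      π_eq_zero := hC.hπ
      ψ := branchTriple e0 e02 ez k₀ i
      frac := fun x => by
        fin_cases i
        · exact (hdata x).1
        · exact (hdata x).2.2 k₀
        · exact (hdata x).2.1 }
  have hG : ∀ i (a : modField K (L₀ * q ^ 2)) (h : a ∈ (G i).V),
      IsGauss (constRes π₀ ι) (branchTriple e0 e02 ez k₀ i a) ((G i).res ⟨a, h⟩) := fun i a h => by
    obtain ⟨x, y, hy, he⟩ := (G i).mem_V_iff.mp h
    exact ⟨x, y, hy, he, (G i).res_eq h ⟨hy, he⟩⟩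
  let Br : Branches (modField K (L₀ * q ^ 2)) (Fin 3) (fun _ => modularFunctionFieldFullC k L₀) :=
    { V := fun i => (G i).V
      res := fun i => ((G i).res).codRestrict (modularFunctionFieldFullC k L₀).toSubfield
        fun x => hC.residue_mem hB k₀ i (hG i x x.2)
      res_eq_zero := fun i x => by
        rw [← (G i).res_eq_zero x]
        exact ⟨fun h => congrArg Subtype.val h, fun h => Subtype.ext h⟩ }
  have hiff : ∀ i a r, IsGauss (constRes π₀ ι) (branchTriple e0 e02 ez k₀ i a) r ↔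
      ∃ h : a ∈ Br.V i, (modularFunctionFieldFullC k L₀).val.toRingHom (Br.res i ⟨a, h⟩) = r := by
    intro i a r
    constructor
    · intro h
      obtain ⟨x, y, hy, he, -⟩ := id h
      have hmem : a ∈ (G i).V := (G i).mem_V_iff.mpr ⟨x, y, hy, he⟩
      exact ⟨hmem, (hG i a hmem).unique h⟩
    · rintro ⟨h, rfl⟩
      exact hG i a h
  obtain ⟨ϖ, hϖ⟩ := IsDiscreteValuationRing.exists_irreducible (constO A₀ ι)
  have hp : (ϖ : K') ≠ 0 := by simpa [ZeroMemClass.coe_eq_zero] using hϖ.ne_zero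
  have hp0 : constRes π₀ ι ϖ = 0 := (hC.hπ ϖ).mpr hϖ.not_isUnit
  obtain ⟨E, hE0, hE⟩ := hC.exists_E hϖ
  have hEz : (E : ℤ) ≠ 0 := Int.natCast_ne_zero.mpr hE0.ne'
  have houter := fun (a : modField K (L₀ * q ^ 2)) (ha : a ≠ 0) =>
    hC.exists_ord_outer hB hϖ hE ha
  have hmid := fun (a : modField K (L₀ * q ^ 2)) (ha : a ≠ 0) =>
    hC.exists_ord_mid hB hϖ hE0 hE ha
  -- normalised orders
  let m0 : modField K (L₀ * q ^ 2) → ℤ := fun a => if h : a = 0 then 0 else (houter a h).1.choose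
  let m2 : modField K (L₀ * q ^ 2) → ℤ := fun a => if h : a = 0 then 0 else (houter a h).2.choose
  let n1 : modField K (L₀ * q ^ 2) → ℤ := fun a => if h : a = 0 then 0 else (hmid a h).choose
  let m1 : modField K (L₀ * q ^ 2) → ℤ := fun a =>
    if a = 0 then 0 else m0 (normAlpha K L₀ q a) - m0 a
  let ord : Fin 3 → modField K (L₀ * q ^ 2) → ℤ := ![m0, m1, m2]
  have h0 : ∀ a, a ≠ 0 → HasGaussOrd (constRes π₀ ι) (ϖ : K') (e0 a) (E * m0 a) := fun a ha => by
    simp only [m0, dif_neg ha]; exact (houter a ha).1.choose_spec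
  have h2 : ∀ a, a ≠ 0 → HasGaussOrd (constRes π₀ ι) (ϖ : K') (e02 a) (E * m2 a) := fun a ha => by
    simp only [m2, dif_neg ha]; exact (houter a ha).2.choose_spec
  have h1 : ∀ a, a ≠ 0 → ∀ i, HasGaussOrd (constRes π₀ ι) (ϖ : K') (ez i a) (n1 a) := fun a ha => by
    simp only [n1, dif_neg ha]; exact (hmid a ha).choose_spec
  have hq1 : (0 : ℤ) < ((q - 1 : ℕ) : ℤ) := by
    have := hq.two_le
    exact_mod_cast (show 0 < q - 1 by omega)
  have hm1 : ∀ a, a ≠ 0 → (E : ℤ) * m1 a = ((q - 1 : ℕ) : ℤ) * n1 a := fun a ha => by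
    have hN := normAlpha_ne_zero (L₀ := L₀) (q := q) ha
    have := (h0 _ hN).unique hp hp0 (hB.hasGaussOrd_normAlpha hp (h0 a ha) (h1 a ha) (h2 a ha)).1
    simp only [m1, if_neg ha]
    linear_combination this
  -- the orders of the triple, in units of `ϖ`
  have htriple : ∀ i a, a ≠ 0 →
      ∃ n, HasGaussOrd (constRes π₀ ι) (ϖ : K') (branchTriple e0 e02 ez k₀ i a) n ∧
        (0 ≤ n ↔ 0 ≤ ord i a) ∧ (0 < n ↔ 0 < ord i a) := by
    intro i a ha
    have hEp : (0 : ℤ) < E := by exact_mod_cast hE0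
    fin_cases i
    · refine ⟨_, h0 a ha, ?_, ?_⟩
      · exact ⟨fun h => (mul_nonneg_iff_of_pos_left hEp).mp h, fun h => mul_nonneg hEp.le h⟩
      · exact mul_pos_iff_of_pos_left hEp
    · have := hm1 a ha
      refine ⟨_, h1 a ha k₀, ?_, ?_⟩
      · show 0 ≤ n1 a ↔ 0 ≤ m1 a
        rw [← mul_nonneg_iff_of_pos_left hq1, ← this, mul_nonneg_iff_of_pos_left hEp]
      · show 0 < n1 a ↔ 0 < m1 a
        rw [← mul_pos_iff_of_pos_left hq1, ← this, mul_pos_iff_of_pos_left hEp]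
    · refine ⟨_, h2 a ha, ?_, ?_⟩
      · exact ⟨fun h => (mul_nonneg_iff_of_pos_left hEp).mp h, fun h => mul_nonneg hEp.le h⟩
      · exact mul_pos_iff_of_pos_left hEp
  have hmul : ∀ i a b, a ≠ 0 → b ≠ 0 → ord i (a * b) = ord i a + ord i b := by
    intro i a b ha hb
    have hab := mul_ne_zero ha hb
    fin_cases i
    · show m0 (a * b) = m0 a + m0 b
      refine mul_left_cancel₀ hEz ((h0 _ hab).unique hp hp0 ?_)
      rw [map_mul, mul_add]
      exact (h0 a ha).mul hp (h0 b hb)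
    · show m1 (a * b) = m1 a + m1 b
      have hn : n1 (a * b) = n1 a + n1 b := (h1 _ hab k₀).unique hp hp0 (by
        rw [map_mul]; exact (h1 a ha k₀).mul hp (h1 b hb k₀))
      refine mul_left_cancel₀ hEz ?_
      rw [mul_add, hm1 _ hab, hm1 a ha, hm1 b hb, hn, mul_add]
    · show m2 (a * b) = m2 a + m2 b
      refine mul_left_cancel₀ hEz ((h2 _ hab).unique hp hp0 ?_)
      rw [map_mul, mul_add]
      exact (h2 a ha).mul hp (h2 b hb)
  have hmem : ∀ i a, a ≠ 0 → (a ∈ Br.V i ↔ 0 ≤ ord i a) := by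
    intro i a ha
    obtain ⟨n, hn, hn0, -⟩ := htriple i a ha
    rw [← hn0]
    refine ⟨fun h => (hn.nonneg_of_isGauss hp hp0 (hG i a h)).1, fun h => ?_⟩
    obtain ⟨r, hr⟩ := hn.exists_isGauss hp h
    exact ((hiff i a r).mp hr).1
  have hres0 : ∀ i a (h : a ∈ Br.V i), a ≠ 0 → (Br.res i ⟨a, h⟩ = 0 ↔ 0 < ord i a) := by
    intro i a h ha
    obtain ⟨n, hn, -, hn1⟩ := htriple i a ha
    rw [← hn1]
    have hg := hn.nonneg_of_isGauss hp hp0 (hG i a h)
    refine ⟨fun h0' => hg.2.1 (congrArg Subtype.val h0'), fun hpos => ?_⟩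
    by_contra hne
    exact hpos.ne' (hg.2.2 fun h0' => hne (Subtype.ext h0'))
  have : CharZero K := charZero_of_injective_algebraMap (algebraMap ℚ K).injective
  have hqF : (q : modField K (L₀ * q ^ 2)) ≠ 0 := by
    rw [← map_natCast (algebraMap K _)]
    exact (map_ne_zero _).mpr (Nat.cast_ne_zero.mpr hq.ne_zero)
  have hconst : ∀ (e : modField K (L₀ * q ^ 2) →+* LaurentSeries K'),
      e (q : modField K (L₀ * q ^ 2)) = HahnSeries.C (q : K') := fun e => by
    rw [map_natCast, map_natCast]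
  have hm0q : m0 (q : modField K (L₀ * q ^ 2)) = 1 :=
    mul_left_cancel₀ hEz (((h0 _ hqF).unique hp hp0 (by rw [hconst]; exact hE)).trans (mul_one _).symm)
  refine ⟨Br, ord,
    { chartData :=
        { hπ := hC.hπ
          dvr := hC.dvr
          dvrA := hC.dvrA
          charP := hC.charP
          hA := fun a ha => (hC.κ_mem_iff a).mpr ha
          hAO := fun a ha => (hC.κ_mem_iff a).mp ha
          hAπ := fun a => hC.constRes_κ_eq_zero a _
          hsurj := fun y => by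
            obtain ⟨x, hx⟩ := hC.surj y
            exact ⟨x, x.2, (hC.constRes_κ x _).trans hx⟩
          hL := fun h0' => hqL ((CharP.cast_eq_zero_iff k q L₀).mp h0')
          branches := hB
          hη := hC.hη
          sigma := fun i => hC.exists_sigma hB k₀ i
          isGauss_iff := hiff }
      res_const := fun i w h => ?_
      ord_mul := hmul
      mem_iff := hmem
      res_eq_zero_iff := hres0
      ord_q := ⟨hm0q, ?_, mul_left_cancel₀ hEz
        (((h2 _ hqF).unique hp hp0 (by rw [hconst]; exact hE)).trans (mul_one _).symm)⟩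
      ord_normα := fun a ha => ?_
      ord_normβ := fun a ha => ?_
      res_normα₀ := fun a ha0 ha1 hN => ?_
      res_normα₂ := fun a ha2 hN => ?_
      res_normβ₂ := fun a ha2 ha1 hN => ?_
      res_normβ₀ := fun a ha0 hN => ?_ }⟩
  · -- constants
    apply Subtype.ext
    refine (hG i _ h).unique ?_
    have hc : branchTriple e0 e02 ez k₀ i (algebraMap K _ (w : K)) =
        HahnSeries.single 0 (κ (w : K)) := by
      fin_cases i
      · exact hB.h0.const (w : K)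
      · exact (hB.hz k₀).const (w : K)
      · exact hB.h02.const (w : K)
    rw [hc]
    have hg := isGauss_int (π := constRes π₀ ι)
      (HahnSeries.C (⟨κ (w : K), (hC.κ_mem_iff _).mpr w.2⟩ : constO A₀ ι))
    rw [intSeries, CarayolHigh.coeffMap_C', CarayolHigh.coeffMap_C', hC.constRes_κ w] at hg
    convert hg using 1
    · rfl
    · show algebraMap k (LaurentSeries k) _ = _
      rw [algebraMap_laurentSeries_eq_single]
      rfl
  · show m1 _ = _
    refine mul_left_cancel₀ hEz ?_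
    rw [hm1 _ hqF, (h1 _ hqF k₀).unique hp hp0 (by rw [hconst]; exact hE),
      Nat.cast_sub hq.pos, Nat.cast_one, mul_comm]
  · have hN := normAlpha_ne_zero (L₀ := L₀) (q := q) ha
    have h := hB.hasGaussOrd_normAlpha hp (h0 a ha) (h1 a ha) (h2 a ha)
    refine ⟨?_, ?_⟩
    · show m0 _ = m0 a + m1 a
      simp only [m1, if_neg ha]
      ring
    · show m2 _ = q * m2 a
      exact mul_left_cancel₀ hEz (((h2 _ hN).unique hp hp0 h.2).trans (mul_left_comm _ _ _))
  · have hN := normBeta_ne_zero (L₀ := L₀) (q := q) ha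
    have h := hB.hasGaussOrd_normBeta hp (h0 a ha) (h1 a ha) (h2 a ha)
    refine ⟨?_, ?_⟩
    · show m2 _ = m2 a + m1 a
      refine mul_left_cancel₀ hEz (((h2 _ hN).unique hp hp0 h.1).trans ?_)
      rw [mul_add, hm1 a ha]
    · show m0 _ = q * m0 a
      exact mul_left_cancel₀ hEz (((h0 _ hN).unique hp hp0 h.2).trans (mul_left_comm _ _ _))
  · exact Subtype.ext ((hG 0 _ hN).unique
      (hB.isGauss_normAlpha_zero (hG 0 a ha0) fun i => hC.isGauss_mid hB (hG 1 a ha1)))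
  · exact Subtype.ext ((hG 2 _ hN).unique (hB.isGauss_normAlpha_two (hG 2 a ha2)))
  · exact Subtype.ext ((hG 2 _ hN).unique
      (hB.isGauss_normBeta_two (hG 2 a ha2) fun i => hC.isGauss_mid hB (hG 1 a ha1)))
  · exact Subtype.ext ((hG 0 _ hN).unique (hB.isGauss_normBeta_zero (hG 0 a ha0)))

end Construction

end Fermat.Agent.Carayol
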