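import Fermat.Agent.Carayol.Hauptmodul
import Fermat.Agent.Carayol.Supersingular
import Fermat.Agent.RED.Specialization.FrobSeries

/-!
In characteristic `q`: the residue `h` of `(t (qτ) - t^q)/q` is `A(t)/B(t)` by the modular
equation and `θ h = (θ t)^q - t^(q-1) θ t`. Hence `d = Δ^(1-q)` can only vanish at a point whose
value `x` of `t` satisfies `x^(q²) = x` and `Ū (x, x^q) ≠ 0`.
-/

set_option autoImplicit false

noncomputable section

namespace Fermat.Agent.Carayol

open Polynomial ModularCurve Fermat.Agent.MF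

/-- In characteristic `q` an integral series at `qτ` is its `q`-th power. -/
theorem coeffMap_qExpand_eq_pow {k : Type*} [CommRing k] (q : ℕ) [Fact q.Prime] [NeZero q]
    [CharP k q] (x : LaurentSeries ℤ) :
    coeffMap (Int.castRingHom k) (qExpand ℤ q x) = coeffMap (Int.castRingHom k) x ^ q := by
  rw [RED.Spec.laurentSeries_pow_char, coeffMap_qExpand]
  congr 1
  ext n
  simp

/-- `x (qτ) ≡ x (τ)^q (mod q)`. -/
theorem exists_qExpand_sub_pow (q : ℕ) [Fact q.Prime] [NeZero q] (x : LaurentSeries ℤ) :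
    ∃ y : LaurentSeries ℤ, qExpand ℤ q x - x ^ q = q * y := by
  have h : coeffMap (Int.castRingHom (ZMod q)) (qExpand ℤ q x - x ^ q) = 0 := by
    rw [map_sub, map_pow, coeffMap_qExpand_eq_pow, sub_self]
  have hd : ∀ n, (q : ℤ) ∣ (qExpand ℤ q x - x ^ q).coeff n := fun n => by
    refine (ZMod.intCast_zmod_eq_zero_iff_dvd _ q).mp ?_
    have h' := congrArg (fun z : LaurentSeries (ZMod q) => z.coeff n) h
    simp only [coeffMap_coeff, HahnSeries.coeff_zero] at h'
    exact h'
  refine ⟨HahnSeries.mk (fun n => (qExpand ℤ q x - x ^ q).coeff n / q)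
    ((qExpand ℤ q x - x ^ q).isPWO_support.mono fun n hn => ?_), ?_⟩
  · rw [Function.mem_support] at hn
    exact fun h0 => hn (by rw [h0, Int.zero_ediv])
  · ext n
    rw [← map_natCast (HahnSeries.C (Γ := ℤ) : ℤ →+* LaurentSeries ℤ), HahnSeries.C_apply,
      HahnSeries.coeff_single_zero_mul]
    exact (Int.mul_ediv_cancel' (hd n)).symm

/-- A Laurent series with a pole is transcendental. -/
theorem aeval_eq_zero_of_pole {K : Type*} [Field K] {x : LaurentSeries K} (hx : x.order < 0)
    {P : K[X]} (h : aeval x P = 0) : P = 0 := by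
  by_contra hP
  have hx0 : x ≠ 0 := fun h0 => by simp [h0] at hx
  set n := P.natDegree
  have hc : ∀ i < n, (algebraMap K (LaurentSeries K) (P.coeff i) * x ^ i).coeff
      ((n : ℤ) * x.order) = 0 := by
    intro i hi
    rcases eq_or_ne (P.coeff i) 0 with h0 | h0
    · simp [h0]
    apply HahnSeries.coeff_eq_zero_of_lt_order
    rw [algebraMap_laurentSeries_eq_single,
      HahnSeries.order_mul (HahnSeries.single_ne_zero h0) (pow_ne_zero _ hx0),
      HahnSeries.order_single h0, HahnSeries.order_pow]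
    simp only [nsmul_eq_mul, zero_add]
    exact mul_lt_mul_of_neg_right (by exact_mod_cast hi) hx
  have h2 := congrArg (fun y : LaurentSeries K => y.coeff ((n : ℤ) * x.order)) h
  simp only [aeval_eq_sum_range, HahnSeries.coeff_sum, Algebra.smul_def, HahnSeries.coeff_zero] at h2
  rw [Finset.sum_range_succ, Finset.sum_eq_zero fun i hi => hc i (Finset.mem_range.mp hi),
    zero_add] at h2
  rw [algebraMap_laurentSeries_eq_single, HahnSeries.coeff_single_zero_mul] at h2
  refine leadingCoeff_ne_zero.mpr hP ((mul_eq_zero.mp h2).resolve_right ?_)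
  have := HahnSeries.leadingCoeff_ne_zero.mpr (pow_ne_zero n hx0)
  rwa [HahnSeries.leadingCoeff_eq, HahnSeries.order_pow, nsmul_eq_mul] at this

namespace Haupt

variable {N₀ : ℕ} (H : Haupt N₀) (k : Type*) [Field k]

/-- `t` over `k`. -/
def tBar : LaurentSeries k := coeffMap (Int.castRingHom k) H.tZ

/-- `z` over `k`. -/
def zBar : LaurentSeries k := coeffMap (Int.castRingHom k) H.zZ

theorem coeff_neg_one_tBar : (H.tBar k).coeff (-1) = 1 := by
  rw [tBar, coeffMap_coeff, H.coeff_neg_one, map_one]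

theorem thetaL_tBar_ne_zero : thetaL (H.tBar k) ≠ 0 := by
  intro h
  have := congrArg (fun x : LaurentSeries k => x.coeff (-1)) h
  simp [H.coeff_neg_one_tBar] at this

theorem thetaL_tBar_eq : thetaL (H.tBar k) = -(H.zBar k * evalZ (H.tBar k) H.G) := by
  rw [tBar, ← coeffMap_thetaL, H.theta, map_neg, map_mul]
  congr 2
  exact map_evalZ _ _ _

theorem delta_eq : deltaSeries k = H.zBar k ^ 6 * evalZ (H.tBar k) H.D := by
  rw [← coeffMap_deltaSeries (R := ℤ) (Int.castRingHom k), H.delta, map_mul, map_pow]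
  congr 1
  exact map_evalZ _ _ _

/-- `(θt)⁶ D(t) = G(t)⁶ Δ`. -/
theorem thetaL_tBar_pow_six :
    thetaL (H.tBar k) ^ 6 * evalZ (H.tBar k) H.D = evalZ (H.tBar k) H.G ^ 6 * deltaSeries k := by
  rw [H.thetaL_tBar_eq, H.delta_eq]
  ring

theorem D_eval_ne_zero {A : Type*} [CommRing A] (π : A →+* k) {t j : A} {q : ℕ} [CharP k q]
    (hq : q.Prime) (hqN : ¬ q ∣ N₀) (h : evalZ t H.D * j = evalZ t H.P ^ 3) :
    evalZ (π t) H.D ≠ 0 := by
  intro h0
  obtain ⟨U, V, e, hUV⟩ := H.coprime
  have hP : evalZ (π t) H.P = 0 := by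
    have := congrArg π h
    rw [map_mul, map_pow, map_evalZ, map_evalZ, h0, zero_mul] at this
    exact eq_zero_of_pow_eq_zero this.symm
  have := congrArg (eval₂ (Int.castRingHom k) (π t)) hUV
  rw [eval₂_add, eval₂_mul, eval₂_mul, eval₂_C] at this
  simp only [evalZ] at h0 hP
  rw [h0, hP, mul_zero, mul_zero, add_zero, map_pow, map_natCast] at this
  have hN : (N₀ : k) ≠ 0 := fun h => hqN ((CharP.cast_eq_zero_iff k q N₀).mp h)
  exact pow_ne_zero e hN this.symm

theorem G_eval_ne_zero {x : k} (h : evalZ x H.D ≠ 0) : evalZ x H.G ≠ 0 := by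
  obtain ⟨m, W, hW⟩ := H.G_dvd
  intro h0
  refine pow_ne_zero m h ?_
  simp only [evalZ] at h0 ⊢
  rw [← eval₂_pow, hW, eval₂_mul, h0, zero_mul]

variable (q e : ℕ) (U : Polynomial ℤ[X])

/-- The numerator of `h`. -/
def numA : k[X] := bieval X (X ^ q) U

/-- The denominator of `h`. -/
def denB : k[X] := evalZ X H.D ^ e * (X - X ^ (q ^ 2))

/-- `(θ t)^(q-1) B²` as a polynomial in `t`. -/
def thetaNum : k[X] :=
  derivative (numA k q U) * H.denB k q e - numA k q U * derivative (H.denB k q e) +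
    X ^ (q - 1) * H.denB k q e ^ 2

theorem eval_numA (x : k) : (numA k q U).eval x = bieval x (x ^ q) U := by
  rw [← coe_evalRingHom, numA, map_bieval, coe_evalRingHom]; simp

theorem eval_denB (x : k) :
    (H.denB k q e).eval x = evalZ x H.D ^ e * (x - x ^ (q ^ 2)) := by
  rw [← coe_evalRingHom, denB, map_mul, map_pow, map_evalZ, coe_evalRingHom]; simp

theorem thetaL_aeval (x : LaurentSeries k) (P : k[X]) :
    thetaL (aeval x P) = aeval x (derivative P) * thetaL x := by
  induction P using Polynomial.induction_on' with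
  | add p r hp hr => simp only [map_add, hp, hr, add_mul]
  | monomial n c =>
    have hc : thetaL (algebraMap k (LaurentSeries k) c) = 0 := by
      rw [algebraMap_laurentSeries_eq_single, ← HahnSeries.C_apply, thetaL_C]
    have hp := thetaL_eval₂ x (X ^ n : ℤ[X])
    rw [derivative_X_pow, eval₂_X_pow, eval₂_mul, eval₂_C, eval₂_X_pow] at hp
    rw [derivative_monomial, aeval_monomial, aeval_monomial, thetaL_mul, hc, zero_mul, zero_add, hp,
      map_mul, map_natCast]
    simp only [map_natCast]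
    ring

variable {q e U} [Fact q.Prime] [NeZero q] [CharP k q]
  (hΦ : evalZ H.tZ H.D ^ e * ((H.tZ - qExpand ℤ q H.tZ ^ q) * (H.tZ ^ q - qExpand ℤ q H.tZ)) +
    (q : LaurentSeries ℤ) * bieval H.tZ (qExpand ℤ q H.tZ) U = 0)
include hΦ

/-- `(θ t)^(q-1) B(t)² = (A' B - A B' + t^(q-1) B²)(t)`. -/
theorem aeval_thetaNum : aeval (H.tBar k) (H.thetaNum k q e U) =
    thetaL (H.tBar k) ^ (q - 1) * aeval (H.tBar k) (H.denB k q e) ^ 2 := by
  obtain ⟨y, hy⟩ := exists_qExpand_sub_pow q H.tZ
  set T := H.tBar k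
  set h := coeffMap (Int.castRingHom k) y
  have hq0 : (q : LaurentSeries ℤ) ≠ 0 := by
    rw [← map_natCast (HahnSeries.C (Γ := ℤ) : ℤ →+* LaurentSeries ℤ)]
    exact (map_ne_zero_iff _ HahnSeries.C_injective).mpr (Nat.cast_ne_zero.mpr (NeZero.ne q))
  -- `h B = A`
  have hU : bieval H.tZ (qExpand ℤ q H.tZ) U =
      evalZ H.tZ H.D ^ e * ((H.tZ - qExpand ℤ q H.tZ ^ q) * y) := by
    refine mul_left_cancel₀ hq0 ?_
    linear_combination hΦ + evalZ H.tZ H.D ^ e * (H.tZ - qExpand ℤ q H.tZ ^ q) * hy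
  have hAB : h * aeval T (H.denB k q e) = aeval T (numA k q U) := by
    have h1 := congrArg (coeffMap (Int.castRingHom k)) hU
    simp only [map_mul, map_pow, map_sub, map_bieval, map_evalZ, coeffMap_qExpand_eq_pow] at h1
    rw [← AlgHom.coe_toRingHom, numA, map_bieval, denB, map_mul, map_pow, map_evalZ]
    simp only [AlgHom.coe_toRingHom, map_sub, map_pow, aeval_X]
    change _ = bieval T (T ^ q) U
    rw [show T = coeffMap (Int.castRingHom k) H.tZ from rfl, h1, sq q, pow_mul]
    ring
  -- `θ h = (θ t)^q - t^(q-1) θ t`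
  have hθ : thetaL h = thetaL T ^ q - T ^ (q - 1) * thetaL T := by
    have h1 := congrArg thetaL hy
    have hp : thetaL (H.tZ ^ q) = (q : LaurentSeries ℤ) * H.tZ ^ (q - 1) * thetaL H.tZ := by
      have := thetaL_eval₂ H.tZ (X ^ q : ℤ[X])
      rw [derivative_X_pow, eval₂_X_pow, eval₂_mul, eval₂_C, eval₂_X_pow] at this
      simpa using this
    have hc : thetaL ((q : LaurentSeries ℤ)) = 0 := by
      rw [← map_natCast (HahnSeries.C (Γ := ℤ) : ℤ →+* LaurentSeries ℤ), thetaL_C]
    rw [map_sub, thetaL_qExpand, hp, thetaL_mul, hc, zero_mul, zero_add,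
      show ((q : ℤ) • qExpand ℤ q (thetaL H.tZ)) = (q : LaurentSeries ℤ) * qExpand ℤ q (thetaL H.tZ)
        by rw [zsmul_eq_mul]; simp] at h1
    have h2 : qExpand ℤ q (thetaL H.tZ) - H.tZ ^ (q - 1) * thetaL H.tZ = thetaL y :=
      mul_left_cancel₀ hq0 (by linear_combination h1)
    have h3 := congrArg (coeffMap (Int.castRingHom k)) h2
    simp only [map_sub, map_mul, map_pow, coeffMap_qExpand_eq_pow, coeffMap_thetaL] at h3
    exact h3.symm
  refine mul_left_cancel₀ (H.thetaL_tBar_ne_zero k) ?_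
  have h4 := congrArg thetaL hAB
  rw [thetaL_mul, thetaL_aeval, thetaL_aeval, hθ] at h4
  rw [thetaNum, map_add, map_sub, map_mul, map_mul, map_mul, map_pow, map_pow, aeval_X]
  have hq1 : thetaL T ^ q = thetaL T * thetaL T ^ (q - 1) :=
    (mul_pow_sub_one (NeZero.ne q) _).symm
  linear_combination (-(aeval T (H.denB k q e))) * h4 + thetaL T * aeval T (derivative (H.denB k q e)) * hAB
    + (aeval T (H.denB k q e)) ^ 2 * hq1

variable {Bb : Type*} [CommRing Bb] [Algebra k Bb] (φ : Bb →ₐ[k] LaurentSeries k)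
  (hφ : Function.Injective φ) (t d : Bb) (ht : φ t = H.tBar k)
  (hd : φ d * deltaSeries k ^ (q - 1) = 1) (π : Bb →ₐ[k] k)
include hφ ht hd

/-- **`d = Δ^(1-q)` vanishes only at supersingular values of `t`.** -/
theorem isSS_of_vanish (hD : evalZ (π t) H.D ≠ 0) (hπ : π d = 0) :
    (π t) ^ (q ^ 2) = π t ∧ bieval (π t) (π t ^ q) U ≠ 0 := by
  set x := π t
  set T := H.tBar k
  have hq := (Fact.out : q.Prime)
  set A := numA k q U
  set B := H.denB k q e
  have hev : ∀ P : k[X], φ (aeval t P) = aeval T P := fun P => by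
    rw [← ht]; exact (aeval_algHom_apply φ t P).symm
  have hπe : ∀ P : k[X], π (aeval t P) = P.eval x := fun P => by
    rw [← aeval_algHom_apply π t P, coe_aeval_eq_eval]
  -- the identity `Num⁶ D^(q-1) d = G^(6(q-1)) B^12`, divided by a power of `X - x`
  have key : ∀ N₁ b c : k[X], H.thetaNum k q e U = c ^ 2 * N₁ → B = c * b → c ≠ 0 →
      N₁.eval x ^ 6 * evalZ x H.D ^ (q - 1) * π d = evalZ x H.G ^ (6 * (q - 1)) * b.eval x ^ 12 := by
    intro N₁ b c hN hB hc
    have hid : aeval t N₁ ^ 6 * evalZ t H.D ^ (q - 1) * d =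
        evalZ t H.G ^ (6 * (q - 1)) * aeval t b ^ 12 := by
      refine hφ ?_
      simp only [map_mul, map_pow, hev]
      have he : ∀ Q : ℤ[X], φ (evalZ t Q) = evalZ T Q := fun Q => by
        rw [← ht]; exact map_evalZ φ.toRingHom t Q
      rw [he, he]
      have hc0 : aeval T c ≠ 0 := by
        intro h
        apply hc
        by_contra hc'
        have hT : (H.tBar k).coeff (-1) ≠ 0 := by rw [H.coeff_neg_one_tBar]; exact one_ne_zero
        have hord : (H.tBar k).order < 0 :=
          lt_of_le_of_lt (HahnSeries.order_le_of_coeff_ne_zero hT) (by norm_num)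
        exact hc' (aeval_eq_zero_of_pole hord h)
      refine mul_left_cancel₀ (pow_ne_zero 12 hc0) ?_
      have hth := H.aeval_thetaNum k hΦ
      rw [hN, map_mul, map_pow, show H.denB k q e = c * b from hB, map_mul] at hth
      have h6 : thetaL T ^ (6 * (q - 1)) * evalZ T H.D ^ (q - 1) =
          evalZ T H.G ^ (6 * (q - 1)) * deltaSeries k ^ (q - 1) := by
        rw [pow_mul, pow_mul, ← mul_pow, H.thetaL_tBar_pow_six, mul_pow]
      have h12 : (aeval T c ^ 2 * aeval T N₁) ^ 6 =
          (thetaL T ^ (q - 1) * (aeval T c * aeval T b) ^ 2) ^ 6 := by rw [hth]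
      rw [mul_pow (thetaL T ^ (q - 1)), ← pow_mul (thetaL T), mul_comm (q - 1) 6] at h12
      linear_combination (evalZ T H.D ^ (q - 1) * φ d) * h12
        + (aeval T c * aeval T b) ^ 12 * φ d * h6
        + evalZ T H.G ^ (6 * (q - 1)) * (aeval T c * aeval T b) ^ 12 * hd
    have := congrArg π hid
    simp only [map_mul, map_pow, hπe] at this
    have he : ∀ Q : ℤ[X], π (evalZ t Q) = evalZ x Q := fun Q => map_evalZ π.toRingHom t Q
    rwa [he, he] at this
  have hG := H.G_eval_ne_zero k hD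
  have hB0 : B.eval x = 0 := by
    by_contra hne
    have := key (H.thetaNum k q e U) B 1 (by rw [one_pow, one_mul]) (one_mul B).symm one_ne_zero
    rw [hπ, mul_zero] at this
    exact mul_ne_zero (pow_ne_zero _ hG) (pow_ne_zero _ hne) this.symm
  have hx : x ^ (q ^ 2) = x := by
    rw [H.eval_denB] at hB0
    exact (sub_eq_zero.mp ((mul_eq_zero.mp hB0).resolve_left (pow_ne_zero _ hD))).symm
  refine ⟨hx, fun hA => ?_⟩
  obtain ⟨a, ha⟩ : (X - C x) ∣ A := dvd_iff_isRoot.mpr (by rw [IsRoot, eval_numA]; exact hA)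
  obtain ⟨b, hb⟩ : (X - C x) ∣ B := dvd_iff_isRoot.mpr hB0
  have hbx : b.eval x ≠ 0 := by
    have h1 : (derivative B).eval x = b.eval x := by
      rw [hb, derivative_mul, derivative_sub, derivative_X, derivative_C, eval_add, eval_mul,
        eval_mul, eval_sub, eval_sub, eval_X, eval_C, eval_one, eval_zero, sub_self, zero_mul,
        add_zero, sub_zero, one_mul]
    rw [← h1]
    simp only [B, denB, derivative_mul, derivative_sub, derivative_X, derivative_X_pow, Nat.cast_pow,
      CharP.cast_eq_zero, eval_add, eval_mul, eval_sub, eval_pow, eval_X, map_zero,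
      zero_pow two_ne_zero, eval_one, eval_zero, hx, sub_self, mul_zero, zero_add, zero_mul,
      sub_zero, mul_one]
    rw [← coe_evalRingHom, map_evalZ, coe_evalRingHom, eval_X]
    exact pow_ne_zero _ hD
  have := key (derivative a * b - a * derivative b + X ^ (q - 1) * b ^ 2) b (X - C x) (by
    rw [thetaNum, show numA k q U = (X - C x) * a from ha, show H.denB k q e = (X - C x) * b from hb,
      derivative_mul, derivative_mul]
    ring) hb (X_sub_C_ne_zero x)
  rw [hπ, mul_zero] at this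
  exact mul_ne_zero (pow_ne_zero _ hG) (pow_ne_zero _ hbx) this.symm

end Haupt

end Fermat.Agent.Carayol
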