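/-
The separators of the three branches and the middle uniformiser on the finite chart of
`X₀(L₀ q²)`, with their residues.
-/
import Fermat.Agent.Carayol.BranchBase
import Fermat.Agent.Carayol.ChartConcrete
import Fermat.Agent.Carayol.Identity

set_option autoImplicit false
set_option linter.unusedSectionVars false

noncomputable section

open Polynomial ModularCurve
open Fermat.Agent.Igusa Fermat.Agent.RED.Spec Fermat.Agent.HK.Corr Fermat.Agent.CarayolHigh
open Fermat.Agent.MF (thetaL thetaL_coeff)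

namespace Fermat.Agent.Carayol

section Elements

variable {K : Type} [Field K] [Algebra ℚ K] (ι : K →+* ℂ) (L₀ q : ℕ) [NeZero L₀] [NeZero q]

/-- The separators on the finite chart: `c'12`, `c'01 c12`, `c01`. -/
def sepFinElem : Fin 3 → modField K (L₀ * q ^ 2) :=
  ![unitV12 ι L₀ q, unitV01 ι L₀ q * unitU12 ι L₀ q, unitU01 ι L₀ q]

/-- A Hauptmodul as a function of level `L₀`. -/
def hauptFn (K : Type) [Field K] [Algebra ℚ K] {N₀ : ℕ} (H : Haupt N₀) {L₀ : ℕ} [NeZero L₀]
    (h : N₀ ∣ L₀) : modField K L₀ :=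
  ⟨coeffMap (Int.castRingHom K) H.tZ, by
    haveI : NeZero N₀ := ⟨fun h0 => NeZero.ne L₀ (Nat.eq_zero_of_zero_dvd (h0 ▸ h))⟩
    have h1 := coeffEmb_mem_laurentBaseChange K (full_degeneracyC_le (K := ℚ) h H.mem)
    rwa [coeffEmb, coeffMap_coeffMap, RingHom.ext_int ((algebraMap ℚ K).comp _)
      (Int.castRingHom K)] at h1⟩

variable {L₀ q} {N₀ : ℕ} (H : Haupt N₀) (hH : N₀ ∣ L₀)

variable (K) in
/-- `t (q² τ) - t (τ)`. -/
def midFinDiff : modField K (L₀ * q ^ 2) :=
  degenMap K (q ^ 2) (dvd_refl (L₀ * q ^ 2)) (hauptFn K H hH) -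
    degenMap K 1 (mul_dvd_mul_left L₀ (one_dvd (q ^ 2))) (hauptFn K H hH)

variable (L₀ q) in
/-- The uniformiser of the middle branch on the finite chart. -/
def midFinUnif : modField K (L₀ * q ^ 2) :=
  midFinDiff K (q := q) H hH * sepFinElem ι L₀ q 1

end Elements

/-- The residue `Δ^(1-q)`. -/
def dRes (k : Type) [CommRing k] (q : ℕ) : LaurentSeries k :=
  Fermat.Agent.Igusa.deltaInvSeries k ^ (q - 1)

theorem dRes_mul_deltaSeries (k : Type) [CommRing k] (q : ℕ) :
    dRes k q * deltaSeries k ^ (q - 1) = 1 := by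
  rw [dRes, ← mul_pow, mul_comm, show deltaSeries k = Fermat.Agent.Igusa.deltaSeries k from rfl,
    deltaSeries_mul_inv, one_pow]

theorem dRes_ne_zero (k : Type) [CommRing k] [Nontrivial k] (q : ℕ) : dRes k q ≠ 0 :=
  left_ne_zero_of_mul_eq_one (dRes_mul_deltaSeries k q)

/-- The residues of the separators on their branches. -/
def sepFinRes (k : Type) [CommRing k] (q : ℕ) : Fin 3 → LaurentSeries k :=
  ![dRes k q ^ q, dRes k q ^ 2, dRes k q ^ q]

theorem sepFinRes_ne_zero (k : Type) [Field k] (q : ℕ) (i : Fin 3) : sepFinRes k q i ≠ 0 := by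
  fin_cases i <;> exact pow_ne_zero _ (dRes_ne_zero k q)

section Values

variable {K : Type} [Field K] [Algebra ℚ K] {K' : Type} [Field K'] [Algebra ℚ K']
  {O : ValuationSubring K'} {k : Type} [Field k] {π : O →+* k}
  {L₀ q : ℕ} [NeZero L₀] [NeZero q] [Fact q.Prime] [CharP k q] {hq : q.Prime} {hqL : ¬ q ∣ L₀}
  {κ : K →+* K'} {z : K'ˣ} {e0 e02 : modField K (L₀ * q ^ 2) →+* LaurentSeries K'}
  {ez : Fin (q - 1) → modField K (L₀ * q ^ 2) →+* LaurentSeries K'}
  (hB : BranchEmbs hq hqL κ z e0 e02 ez) (ι : K' →+* ℂ) (k₀ : Fin (q - 1))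

include hB

variable (π) in
/-- Off its branch a separator is divisible by `q`. -/
theorem BranchEmbs.isGauss_sepFin_div {i j : Fin 3} (h : j ≠ i) :
    IsGauss π (branchTriple e0 e02 ez k₀ j (sepFinElem (ι.comp κ) L₀ q i) /
      (q : LaurentSeries K')) 0 := by
  obtain ⟨⟨a1, a2, a3, a4⟩, hm, c1, c2, c3, c4⟩ := hB.isGauss_units π ι
  obtain ⟨b1, b2, b3, b4⟩ := hm k₀
  fin_cases i <;> fin_cases j <;> simp [sepFinElem, branchTriple] at h ⊢
  · exact b4
  · exact c4
  · rw [mul_div_assoc]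
    simpa using a2.mul a3
  · rw [mul_comm, mul_div_assoc]
    simpa using c3.mul c2
  · exact a1
  · exact b1

variable (π) in
/-- On its branch a separator has residue `sepFinRes`. -/
theorem BranchEmbs.isGauss_sepFin (i : Fin 3) :
    IsGauss π (branchTriple e0 e02 ez k₀ i (sepFinElem (ι.comp κ) L₀ q i)) (sepFinRes k q i) := by
  obtain ⟨⟨a1, a2, a3, a4⟩, hm, c1, c2, c3, c4⟩ := hB.isGauss_units π ι
  obtain ⟨b1, b2, b3, b4⟩ := hm k₀
  fin_cases i <;> simp [sepFinElem, branchTriple, sepFinRes]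
  · exact a4
  · rw [sq (dRes k q)]
    exact b2.mul b3
  · exact c1

variable (π) in
/-- Off its branch a separator has residue zero. -/
theorem BranchEmbs.isGauss_sepFin_off {i j : Fin 3} (h : j ≠ i) :
    IsGauss π (branchTriple e0 e02 ez k₀ j (sepFinElem (ι.comp κ) L₀ q i)) 0 :=
  haveI : CharZero K' := charZero_of_injective_algebraMap (algebraMap ℚ K').injective
  (hB.isGauss_sepFin_div π ι k₀ h).zero_of_div (NeZero.ne q)

variable {N₀ : ℕ} (H : Haupt N₀) (hH : N₀ ∣ L₀)

omit hB [Fact q.Prime] [CharP k q] in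
theorem baseEmb_hauptFn :
    baseEmb κ L₀ (hauptFn K H hH) = coeffMap (Int.castRingHom K') H.tZ := by
  show coeffMap κ (coeffMap (Int.castRingHom K) H.tZ) = _
  rw [coeffMap_coeffMap, RingHom.ext_int (κ.comp _) (Int.castRingHom K')]

variable (π) in
/-- **The uniformiser of the middle branch**: `p^(q-1) / q` is integral on the three branches,
with residue `0` on the outer ones and `-(θt d²)^(q-1)` on the middle one. -/
theorem BranchEmbs.isGauss_midFinUnif :
    IsGauss π (e0 (midFinUnif (ι.comp κ) L₀ q H hH ^ (q - 1) / (q : modField K (L₀ * q ^ 2)))) 0 ∧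
    IsGauss π (ez k₀ (midFinUnif (ι.comp κ) L₀ q H hH ^ (q - 1) / (q : modField K (L₀ * q ^ 2))))
      (-(thetaL (H.tBar k) * dRes k q ^ 2) ^ (q - 1)) ∧
    IsGauss π (e02 (midFinUnif (ι.comp κ) L₀ q H hH ^ (q - 1) /
      (q : modField K (L₀ * q ^ 2)))) 0 ∧
    IsGauss π (e0 (midFinUnif (ι.comp κ) L₀ q H hH) / (q : LaurentSeries K')) 0 ∧
    IsGauss π (e02 (midFinUnif (ι.comp κ) L₀ q H hH) / (q : LaurentSeries K')) 0 ∧
    IsGauss π (ez k₀ (midFinUnif (ι.comp κ) L₀ q H hH)) 0 := by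
  haveI : CharZero K' := charZero_of_injective_algebraMap (algebraMap ℚ K').injective
  obtain ⟨⟨d1, d2⟩, hd, d5, d6⟩ := hB.degen_values (mul_dvd_mul_left L₀ (one_dvd (q ^ 2)))
    (dvd_refl (L₀ * q ^ 2)) (hauptFn K H hH)
  obtain ⟨d3, d4⟩ := hd k₀
  rw [baseEmb_hauptFn] at d1 d2 d3 d4 d5 d6
  have hT := isGauss_intCast (K' := K') (π := π) H.tZ
  set T := coeffMap (Int.castRingHom K') H.tZ
  have hs : ∀ (j : Fin 3), j ≠ 1 → IsGauss π
      (branchTriple e0 e02 ez k₀ j (sepFinElem (ι.comp κ) L₀ q 1) / (q : LaurentSeries K')) 0 :=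
    fun j hj => hB.isGauss_sepFin_div π ι k₀ hj
  have ho0 : IsGauss π (e0 (midFinUnif (ι.comp κ) L₀ q H hH) / (q : LaurentSeries K')) 0 := by
    have h := ((hT.qExpand (q ^ 2)).sub hT).mul (hs 0 (by decide))
    rw [mul_zero] at h
    rw [midFinUnif, midFinDiff, map_mul, map_sub, d1, d2, mul_div_assoc]
    exact h
  have ho2 : IsGauss π (e02 (midFinUnif (ι.comp κ) L₀ q H hH) / (q : LaurentSeries K')) 0 := by
    have h := (hT.sub (hT.qExpand (q ^ 2))).mul (hs 2 (by decide))
    rw [mul_zero] at h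
    rw [midFinUnif, midFinDiff, map_mul, map_sub, d5, d6, mul_div_assoc]
    exact h
  obtain ⟨r, hr⟩ : ∃ r, q - 1 = r + 1 := ⟨q - 2, by have := hq.two_le; omega⟩
  have hsplit : ∀ e : modField K (L₀ * q ^ 2) →+* LaurentSeries K',
      IsGauss π (e (midFinUnif (ι.comp κ) L₀ q H hH) / (q : LaurentSeries K')) 0 →
      IsGauss π (e (midFinUnif (ι.comp κ) L₀ q H hH ^ (q - 1) /
        (q : modField K (L₀ * q ^ 2)))) 0 := by
    intro e he
    have h := ((he.zero_of_div (NeZero.ne q)).pow r).mul he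
    rw [mul_zero] at h
    rwa [hr, map_div₀, map_pow, map_natCast, pow_succ, mul_div_assoc]
  -- the middle branch
  let u : K'ˣ := z ^ ((k₀ : ℕ) + 1)
  have hu1 : u ≠ 1 := hB.prim.pow_ne_one_of_pos_of_lt (Nat.succ_ne_zero _) (by omega)
  have hup : IsPrimitiveRoot u q := hB.prim.pow_of_coprime _
    (hq.coprime_iff_not_dvd.mpr fun h => by
      have h1 := Nat.le_of_dvd (Nat.succ_pos _) h
      have h2 := k₀.2
      omega).symm
  have hu : u ^ q ^ 1 = 1 := hB.root_pow k₀
  have hc : (HahnSeries.C ((u : K') - 1) : LaurentSeries K') ≠ 0 :=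
    HahnSeries.C_ne_zero (sub_ne_zero.mpr fun h => hu1 (Units.ext h))
  have hY := (isGauss_qScale_sub_div π hu hu1 H.tZ).mul (hB.isGauss_sepFin π ι k₀ 1)
  have hp : ez k₀ (midFinUnif (ι.comp κ) L₀ q H hH) = HahnSeries.C ((u : K') - 1) *
      ((Igusa.qScale u T - T) / HahnSeries.C ((u : K') - 1) *
        branchTriple e0 e02 ez k₀ 1 (sepFinElem (ι.comp κ) L₀ q 1)) := by
    rw [midFinUnif, midFinDiff, map_mul, map_sub, d3, d4, ← mul_assoc, mul_div_cancel₀ _ hc]
    rfl
  refine ⟨hsplit e0 ho0, ?_, hsplit e02 ho2, ho0, ho2, ?_⟩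
  · have h := (isGauss_sub_one_pow_div π hup).mul (hY.pow (q - 1))
    rw [neg_one_mul] at h
    rw [map_div₀, map_pow, map_natCast, hp, mul_pow, mul_div_right_comm]
    exact h
  · have hC : IsGauss π (HahnSeries.C ((u : K') - 1)) 0 := by
      obtain ⟨v, hv, hv1⟩ := exists_unit_res_one (π := π) hu
      have h := isGauss_int (π := π) (HahnSeries.C ((v : O) - 1))
      rw [intSeries, CarayolHigh.coeffMap_C', CarayolHigh.coeffMap_C', map_sub O.subtype,
        map_sub π, map_one, map_one, hv1, sub_self, map_zero,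
        show O.subtype (v : O) = (u : K') from hv] at h
      exact h
    have h := hC.mul hY
    rw [zero_mul] at h
    rw [hp]
    exact h

omit hB [Fact q.Prime] [CharP k q] in
theorem midFinRes_ne_zero :
    -(thetaL (H.tBar k) * dRes k q ^ 2) ^ (q - 1) ≠ 0 :=
  neg_ne_zero.mpr (pow_ne_zero _ (mul_ne_zero (H.thetaL_tBar_ne_zero k)
    (pow_ne_zero _ (dRes_ne_zero k q))))

end Values

section Chart

variable {K : Type} [Field K] [Algebra ℚ K] (ι : K →+* ℂ) {L₀ q : ℕ} [NeZero L₀] [NeZero q]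
  {W : Type} [CommRing W] [Algebra W (modField K (L₀ * q ^ 2))]

/-- The separators lie on the finite chart. -/
theorem sepFinElem_mem_chartRing (i : Fin 3) :
    sepFinElem ι L₀ q i ∈ chartRing W (jTop K L₀ q) := by
  have hd : q ∣ q ^ 2 := dvd_pow_self q two_ne_zero
  have hv1 : unitV01 ι L₀ q ∈ chartRing W (jTop K L₀ q) := mem_chartRing_of_intEval
    (isIntegralElem_pairV (N := q) ι (one_dvd q) dvd_rfl)
  have hu2 : unitU12 ι L₀ q ∈ chartRing W (jTop K L₀ q) := mem_chartRing_of_intEval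
    (isIntegralElem_pairU (N := q ^ 2) ι hd dvd_rfl)
  fin_cases i
  · exact mem_chartRing_of_intEval (isIntegralElem_pairV (N := q ^ 2) ι hd dvd_rfl)
  · exact mul_mem hv1 hu2
  · exact mem_chartRing_of_intEval (isIntegralElem_pairU (N := q) ι (one_dvd q) dvd_rfl)

/-- `t (dτ)` is integral over `ℤ[j (dτ)]`. -/
theorem isIntegralElem_haupt_qExpand {N₀ : ℕ} (H : Haupt N₀) (d : ℕ) [NeZero d] :
    (eval₂RingHom (Int.castRingHom (LaurentSeries K)) (qExpand K d (jqModC K))).IsIntegralElem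
      (qExpand K d (coeffMap (Int.castRingHom K) H.tZ)) := by
  set F : LaurentSeries ℤ →+* LaurentSeries K :=
    (qExpand K d).comp (coeffMap (Int.castRingHom K))
  set φ := eval₂RingHom (Int.castRingHom (LaurentSeries K)) (qExpand K d (jqModC K))
  have hev : ∀ p : ℤ[X], (p.map (Polynomial.C : ℤ →+* ℤ[X])).eval₂ φ (F H.tZ) =
      F (p.eval₂ (Int.castRingHom _) H.tZ) := fun p => by
    rw [eval₂_map, hom_eval₂]
    exact congrArg (fun f => p.eval₂ f _) (RingHom.ext_int _ _)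
  refine ⟨(H.P.map Polynomial.C) ^ 3 - Polynomial.C Polynomial.X * H.D.map Polynomial.C,
    ((H.P_monic.map _).pow 3).sub_of_left ?_, ?_⟩
  · refine degree_lt_degree ((natDegree_C_mul_le _ _).trans_lt (natDegree_map_le.trans_lt ?_))
    rw [(H.P_monic.map _).natDegree_pow, H.P_monic.natDegree_map]
    exact H.degree_lt
  · show eval₂ φ (F H.tZ) _ = 0
    rw [eval₂_sub, eval₂_pow, eval₂_mul, eval₂_C, hev, hev, ← map_pow, ← H.j_eq, map_mul]
    simp only [φ, coe_eval₂RingHom, eval₂_X]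
    rw [show F (jqModC ℤ) = qExpand K d (jqModC K) from
      congrArg (qExpand K d) (ModularCurve.coeffMap_jqModC _)]
    ring

/-- The middle uniformiser lies on the finite chart. -/
theorem midFinUnif_mem_chartRing {N₀ : ℕ} (H : Haupt N₀) (hH : N₀ ∣ L₀) :
    midFinUnif ι L₀ q H hH ∈ chartRing W (jTop K L₀ q) := by
  refine mul_mem (sub_mem (mem_chartRing_of_intEval ?_) (mem_chartRing_of_intEval ?_))
    (sepFinElem_mem_chartRing ι 1)
  · rw [coe_degenMap]
    refine isIntegralElem_intEval_trans ?_ (isIntegralElem_haupt_qExpand H (q ^ 2))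
    refine isIntegralElem_of_conjugable (N := q ^ 2) (conjugable_jdFun (dvd_refl (q ^ 2))) ι ?_
    have h := hasExp_genFun (M := q ^ 2)
      ⟨q ^ 2, Nat.pos_of_ne_zero (NeZero.ne _), dvd_rfl⟩
    rw [coeffMap_qExpand, ModularCurve.coeffMap_jqModC]
    exact h
  · rw [coe_degenMap]
    simpa [qExpand_one_apply] using! isIntegralElem_haupt_qExpand (K := K) H 1

end Chart

end Fermat.Agent.Carayol
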