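/-
The separators of the three branches and the middle uniformiser on the chart at infinity of
`X₀(L₀ q²)`, with their residues.
-/
import Fermat.Agent.Carayol.BranchElements

set_option autoImplicit false
set_option linter.unusedSectionVars false

noncomputable section

open Polynomial ModularCurve
open Fermat.Agent.Igusa Fermat.Agent.RED.Spec Fermat.Agent.HK.Corr Fermat.Agent.CarayolHigh
open Fermat.Agent.MF (thetaL thetaL_coeff)

namespace Fermat.Agent.Carayol

section Elements

variable {K : Type} [Field K] [Algebra ℚ K] (ι : K →+* ℂ) (L₀ q : ℕ) [NeZero L₀] [NeZero q]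

/-- The exponents of `1/j` in the separators at infinity. -/
def sepInfExp : Fin 3 → ℕ := ![q * (q - 1), 2 * (q - 1), q - 1]

/-- The separators on the chart at infinity: `c'12 / j^(q(q-1))`, `c'01 c12 / j^(2(q-1))`,
`c01^q / j^(q-1)`. -/
def sepInfElem (i : Fin 3) : modField K (L₀ * q ^ 2) :=
  sepFinElem ι L₀ q i ^ (if i = 2 then q else 1) * (jTop K L₀ q)⁻¹ ^ sepInfExp q i

variable (K) in
/-- `j (q² τ) / j (τ) - 1`. -/
def midInfDiff : modField K (L₀ * q ^ 2) :=
  degenMap K (q ^ 2) (dvd_refl (L₀ * q ^ 2)) (MF.Coeff.jElem K L₀) * (jTop K L₀ q)⁻¹ - 1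

/-- The uniformiser of the middle branch on the chart at infinity. -/
def midInfUnif : modField K (L₀ * q ^ 2) := midInfDiff K L₀ q * sepInfElem ι L₀ q 1

variable {L₀ q}

theorem coe_jTop_inv : (((jTop K L₀ q)⁻¹ : modField K (L₀ * q ^ 2)) : LaurentSeries K) =
    jInvSeries K := by
  rw [IntermediateField.coe_inv, MF.Coeff.coe_jElem]
  exact inv_eq_of_mul_eq_one_right (jqModC_mul_inv K)

end Elements

/-- The residue `Δ^(1-q) / j^(q-1)`, a unit at the cusps. -/
def wRes (k : Type) [CommRing k] (q : ℕ) : LaurentSeries k :=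
  dRes k q * jInvSeries k ^ (q - 1)

/-- The residues of the separators at infinity on their branches. -/
def sepInfRes (k : Type) [CommRing k] (q : ℕ) : Fin 3 → LaurentSeries k :=
  ![wRes k q ^ q, wRes k q ^ 2, wRes k q ^ (q ^ 2)]

/-- The residue of `(j (q² τ) / j - 1) / (z - 1)` times the separator on the middle branch. -/
def midInfResBase (k : Type) [CommRing k] (q : ℕ) : LaurentSeries k :=
  thetaL (jqModC k) * jInvSeries k * wRes k q ^ 2

theorem hasLead_wRes (k : Type) [CommRing k] (q : ℕ) : HasLead (wRes k q) 0 1 := by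
  rw [wRes, dRes, ← mul_pow]
  simpa using HasLead.pow' (hasLead_deltaInv_mul_jInv (R := k)) (q - 1)

theorem hasLead_midInfResBase (k : Type) [CommRing k] (q : ℕ) :
    HasLead (midInfResBase k q) 0 (-1) := by
  have hθ : HasLead (thetaL (jqModC k)) (-1) (-1) := by
    have hj := hasLead_jqModC k
    obtain ⟨p, hp, hp0⟩ := hj
    refine ⟨PowerSeries.mk fun n => ((n : k) - 1) * PowerSeries.coeff n p, ?_, ?_⟩
    · ext n
      rw [thetaL_coeff, hp, HahnSeries.coeff_single_mul, HahnSeries.coeff_single_mul, one_mul,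
        one_mul]
      rcases lt_or_ge (n - -1) 0 with h | h
      · rw [ofPowerSeries_coeff_of_neg _ h, ofPowerSeries_coeff_of_neg _ h, mul_zero]
      · obtain ⟨m, hm⟩ := Int.eq_ofNat_of_zero_le h
        rw [hm, HahnSeries.ofPowerSeries_apply_coeff, HahnSeries.ofPowerSeries_apply_coeff,
          PowerSeries.coeff_mk]
        congr 1
        rw [show n = (m : ℤ) - 1 by omega]
        push_cast
        ring
    · rw [← PowerSeries.coeff_zero_eq_constantCoeff_apply, PowerSeries.coeff_mk,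
        PowerSeries.coeff_zero_eq_constantCoeff_apply, hp0]
      simp
  have h := (hθ.mul (hasLead_jInvSeries k)).mul (HasLead.pow' (hasLead_wRes k q) 2)
  simpa [midInfResBase] using h

theorem wRes_ne_zero (k : Type) [Field k] (q : ℕ) : wRes k q ≠ 0 := fun h => by
  have := (hasLead_wRes k q).coeff_eq
  simp [h] at this

theorem sepInfRes_ne_zero (k : Type) [Field k] (q : ℕ) (i : Fin 3) : sepInfRes k q i ≠ 0 := by
  fin_cases i <;> exact pow_ne_zero _ (wRes_ne_zero k q)

theorem midInfRes_ne_zero (k : Type) [Field k] (q : ℕ) :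
    -midInfResBase k q ^ (q - 1) ≠ 0 := neg_ne_zero.mpr (pow_ne_zero _ fun h => by
  have := (hasLead_midInfResBase k q).coeff_eq
  simp [h] at this)

section Values

variable {K : Type} [Field K] [Algebra ℚ K] {K' : Type} [Field K'] [Algebra ℚ K']
  {O : ValuationSubring K'} {k : Type} [Field k] {π : O →+* k}
  {L₀ q : ℕ} [NeZero L₀] [NeZero q] [Fact q.Prime] [CharP k q] {hq : q.Prime} {hqL : ¬ q ∣ L₀}
  {κ : K →+* K'} {z : K'ˣ} {e0 e02 : modField K (L₀ * q ^ 2) →+* LaurentSeries K'}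
  {ez : Fin (q - 1) → modField K (L₀ * q ^ 2) →+* LaurentSeries K'}
  (hB : BranchEmbs hq hqL κ z e0 e02 ez) (ι : K' →+* ℂ) (k₀ : Fin (q - 1))

include hB

omit [Fact q.Prime] [CharP k q] in
/-- The values of `1/j`. -/
theorem BranchEmbs.jTop_inv_values :
    e0 (jTop K L₀ q)⁻¹ = jInvSeries K' ∧ ez k₀ (jTop K L₀ q)⁻¹ = jInvSeries K' ∧
      e02 (jTop K L₀ q)⁻¹ = qExpand K' (q ^ 2) (jInvSeries K') := by
  obtain ⟨⟨a, -⟩, hd, c, -⟩ := hB.degen_values (mul_dvd_mul_left L₀ (one_dvd (q ^ 2)))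
    (dvd_refl (L₀ * q ^ 2)) (MF.Coeff.jElem K L₀)
  obtain ⟨b, -⟩ := hd k₀
  have hj : baseEmb κ L₀ (MF.Coeff.jElem K L₀) = jqModC K' := ModularCurve.coeffMap_jqModC κ
  rw [show degenMap K 1 (mul_dvd_mul_left L₀ (one_dvd (q ^ 2))) (MF.Coeff.jElem K L₀) = jTop K L₀ q
    from degenMap_one_jElem (mul_dvd_mul_left L₀ (one_dvd (q ^ 2))), hj] at a b c
  refine ⟨?_, ?_, ?_⟩ <;> rw [map_inv₀]
  · rw [show e0 (jTop K L₀ q) = _ from a, inv_eq_of_mul_eq_one_right (jqModC_mul_inv K')]
  · rw [show ez k₀ (jTop K L₀ q) = _ from b, inv_eq_of_mul_eq_one_right (jqModC_mul_inv K')]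
  · rw [show e02 (jTop K L₀ q) = _ from c, ← map_inv₀,
      inv_eq_of_mul_eq_one_right (jqModC_mul_inv K')]

variable (π) in
/-- The residues of `1/j` on the branches. -/
theorem BranchEmbs.isGauss_jTop_inv (i : Fin 3) :
    IsGauss π (branchTriple e0 e02 ez k₀ i (jTop K L₀ q)⁻¹)
      (jInvSeries k ^ (if i = 2 then q ^ 2 else 1)) := by
  obtain ⟨a, b, c⟩ := hB.jTop_inv_values k₀
  have hJ : IsGauss π (jInvSeries K') (jInvSeries k) := by
    have h := isGauss_int (π := π) (jInvSeries O)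
    rwa [intSeries, Igusa.coeffMap_jInvSeries, Igusa.coeffMap_jInvSeries] at h
  fin_cases i <;> simp only [branchTriple, Fin.reduceFinMk, Matrix.cons_val, Fin.reduceEq,
    if_false, if_true, pow_one]
  · simpa [a] using hJ
  · simpa [b] using hJ
  · rw [c, jInv_pow_char]
    exact hJ.qExpand (q ^ 2)

variable (π) in
/-- Off its branch a separator at infinity is divisible by `q`. -/
theorem BranchEmbs.isGauss_sepInf_div {i j : Fin 3} (h : j ≠ i) :
    IsGauss π (branchTriple e0 e02 ez k₀ j (sepInfElem (ι.comp κ) L₀ q i) /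
      (q : LaurentSeries K')) 0 := by
  obtain ⟨r, hr⟩ : ∃ r, (if i = 2 then q else 1) = r + 1 :=
    ⟨(if i = 2 then q else 1) - 1, by have := hq.pos; split_ifs <;> omega⟩
  have h1 := ((hB.isGauss_sepFin_off π ι k₀ h).pow r).mul (hB.isGauss_sepFin_div π ι k₀ h)
  have h2 := h1.mul ((hB.isGauss_jTop_inv π k₀ j).pow (sepInfExp q i))
  rw [mul_zero, zero_mul] at h2
  rw [sepInfElem, hr, map_mul, map_pow, map_pow, pow_succ, mul_div_right_comm, mul_div_assoc]
  exact h2

variable (π) in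
/-- On its branch a separator at infinity has residue `sepInfRes`. -/
theorem BranchEmbs.isGauss_sepInf (i : Fin 3) :
    IsGauss π (branchTriple e0 e02 ez k₀ i (sepInfElem (ι.comp κ) L₀ q i)) (sepInfRes k q i) := by
  have h := ((hB.isGauss_sepFin π ι k₀ i).pow (if i = 2 then q else 1)).mul
    ((hB.isGauss_jTop_inv π k₀ i).pow (sepInfExp q i))
  rw [sepInfElem, map_mul, map_pow, map_pow]
  convert h using 1
  fin_cases i <;> simp only [sepInfRes, sepFinRes, sepInfExp, wRes, Fin.reduceFinMk,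
    Matrix.cons_val, Fin.reduceEq, if_false, if_true, pow_one, mul_pow, ← pow_mul] <;> ring_nf

variable (π) in
/-- Off its branch a separator at infinity has residue zero. -/
theorem BranchEmbs.isGauss_sepInf_off {i j : Fin 3} (h : j ≠ i) :
    IsGauss π (branchTriple e0 e02 ez k₀ j (sepInfElem (ι.comp κ) L₀ q i)) 0 :=
  haveI : CharZero K' := charZero_of_injective_algebraMap (algebraMap ℚ K').injective
  (hB.isGauss_sepInf_div π ι k₀ h).zero_of_div (NeZero.ne q)

variable (π) in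
/-- **The uniformiser of the middle branch at infinity**: `p^(q-1) / q` is integral on the three
branches, with residue `0` on the outer ones and a unit at the cusps on the middle one. -/
theorem BranchEmbs.isGauss_midInfUnif :
    IsGauss π (e0 (midInfUnif (ι.comp κ) L₀ q ^ (q - 1) / (q : modField K (L₀ * q ^ 2)))) 0 ∧
    IsGauss π (ez k₀ (midInfUnif (ι.comp κ) L₀ q ^ (q - 1) / (q : modField K (L₀ * q ^ 2))))
      (-midInfResBase k q ^ (q - 1)) ∧
    IsGauss π (e02 (midInfUnif (ι.comp κ) L₀ q ^ (q - 1) / (q : modField K (L₀ * q ^ 2)))) 0 ∧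
    IsGauss π (e0 (midInfUnif (ι.comp κ) L₀ q) / (q : LaurentSeries K')) 0 ∧
    IsGauss π (e02 (midInfUnif (ι.comp κ) L₀ q) / (q : LaurentSeries K')) 0 ∧
    IsGauss π (ez k₀ (midInfUnif (ι.comp κ) L₀ q)) 0 := by
  haveI : CharZero K' := charZero_of_injective_algebraMap (algebraMap ℚ K').injective
  obtain ⟨⟨-, d2⟩, hd, -, d6⟩ := hB.degen_values (mul_dvd_mul_left L₀ (one_dvd (q ^ 2)))
    (dvd_refl (L₀ * q ^ 2)) (MF.Coeff.jElem K L₀)
  obtain ⟨-, d4⟩ := hd k₀
  have hj : baseEmb κ L₀ (MF.Coeff.jElem K L₀) = jqModC K' := ModularCurve.coeffMap_jqModC κ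
  rw [hj] at d2 d4 d6
  obtain ⟨a, b, c⟩ := hB.jTop_inv_values k₀
  set J := jqModC K'
  have hJi : IsGauss π (jInvSeries K') (jInvSeries k) := by
    have h := isGauss_int (π := π) (jInvSeries O)
    rwa [intSeries, Igusa.coeffMap_jInvSeries, Igusa.coeffMap_jInvSeries] at h
  have hJ : IsGauss π J (jqModC k) := by
    have h := isGauss_int (π := π) (jqModC O)
    rwa [intSeries, ModularCurve.coeffMap_jqModC, ModularCurve.coeffMap_jqModC] at h
  have ho0 : IsGauss π (e0 (midInfUnif (ι.comp κ) L₀ q) / (q : LaurentSeries K')) 0 := by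
    have h := (((hJ.qExpand (q ^ 2)).mul hJi).sub isGauss_one).mul
      (hB.isGauss_sepInf_div π ι k₀ (i := 1) (j := 0) (by decide))
    rw [mul_zero] at h
    rw [midInfUnif, midInfDiff, map_mul, map_sub, map_one, map_mul, d2, a, mul_div_assoc]
    exact h
  have ho2 : IsGauss π (e02 (midInfUnif (ι.comp κ) L₀ q) / (q : LaurentSeries K')) 0 := by
    have h := ((hJ.mul (hJi.qExpand (q ^ 2))).sub isGauss_one).mul
      (hB.isGauss_sepInf_div π ι k₀ (i := 1) (j := 2) (by decide))
    rw [mul_zero] at h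
    rw [midInfUnif, midInfDiff, map_mul, map_sub, map_one, map_mul, d6, c, mul_div_assoc]
    exact h
  obtain ⟨r, hr⟩ : ∃ r, q - 1 = r + 1 := ⟨q - 2, by have := hq.two_le; omega⟩
  have hsplit : ∀ e : modField K (L₀ * q ^ 2) →+* LaurentSeries K',
      IsGauss π (e (midInfUnif (ι.comp κ) L₀ q) / (q : LaurentSeries K')) 0 →
      IsGauss π (e (midInfUnif (ι.comp κ) L₀ q ^ (q - 1) / (q : modField K (L₀ * q ^ 2)))) 0 := by
    intro e he
    have h := ((he.zero_of_div (NeZero.ne q)).pow r).mul he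
    rw [mul_zero] at h
    rwa [hr, map_div₀, map_pow, map_natCast, pow_succ, mul_div_assoc]
  let u : K'ˣ := z ^ ((k₀ : ℕ) + 1)
  have hu1 : u ≠ 1 := hB.prim.pow_ne_one_of_pos_of_lt (Nat.succ_ne_zero _) (by omega)
  have hup : IsPrimitiveRoot u q := hB.prim.pow_of_coprime _
    (hq.coprime_iff_not_dvd.mpr fun h => by
      have h1 := Nat.le_of_dvd (Nat.succ_pos _) h
      have h2 := k₀.2
      omega).symm
  have hu : u ^ q ^ 1 = 1 := hB.root_pow k₀
  have hc : (HahnSeries.C ((u : K') - 1) : LaurentSeries K') ≠ 0 :=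
    HahnSeries.C_ne_zero (sub_ne_zero.mpr fun h => hu1 (Units.ext h))
  have hD := (isGauss_qScale_sub_div π hu hu1 (jqModC ℤ)).mul hJi
  rw [ModularCurve.coeffMap_jqModC, ModularCurve.coeffMap_jqModC] at hD
  have hY := hD.mul (hB.isGauss_sepInf π ι k₀ 1)
  have hp : ez k₀ (midInfUnif (ι.comp κ) L₀ q) = HahnSeries.C ((u : K') - 1) *
      ((Igusa.qScale u J - J) / HahnSeries.C ((u : K') - 1) * jInvSeries K' *
        branchTriple e0 e02 ez k₀ 1 (sepInfElem (ι.comp κ) L₀ q 1)) := by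
    rw [midInfUnif, midInfDiff, map_mul, map_sub, map_one, map_mul, d4, b, ← mul_assoc, ← mul_assoc,
      mul_div_cancel₀ _ hc, sub_mul _ J (jInvSeries K'), jqModC_mul_inv]
    rfl
  refine ⟨hsplit e0 ho0, ?_, hsplit e02 ho2, ho0, ho2, ?_⟩
  · have h := (isGauss_sub_one_pow_div π hup).mul (hY.pow (q - 1))
    rw [neg_one_mul] at h
    rw [map_div₀, map_pow, map_natCast, hp, mul_pow, mul_div_right_comm]
    exact h
  · have hC : IsGauss π (HahnSeries.C ((u : K') - 1)) 0 := by
      obtain ⟨v, hv, hv1⟩ := exists_unit_res_one (π := π) hu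
      have h := isGauss_int (π := π) (HahnSeries.C ((v : O) - 1))
      rw [intSeries, CarayolHigh.coeffMap_C', CarayolHigh.coeffMap_C', map_sub O.subtype,
        map_sub π, map_one, map_one, hv1, sub_self, map_zero,
        show O.subtype (v : O) = (u : K') from hv] at h
      exact h
    have h := hC.mul hY
    rw [zero_mul] at h
    rw [hp]
    exact h

end Values

section Chart

variable {K : Type} [Field K] [Algebra ℚ K] (ι : K →+* ℂ) {L₀ q : ℕ} [NeZero L₀] [NeZero q]
  {W : Type} [CommRing W] [Algebra W (modField K (L₀ * q ^ 2))]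

/-- The separators at infinity lie on the chart at infinity. -/
theorem sepInfElem_mem_chartRing (hq : q.Prime) (i : Fin 3) :
    sepInfElem ι L₀ q i ∈ chartRing W (jTop K L₀ q)⁻¹ := by
  refine mem_chartRing_of_intEval ?_
  rw [sepInfElem, MulMemClass.coe_mul, SubmonoidClass.coe_pow, SubmonoidClass.coe_pow,
    coe_jTop_inv]
  fin_cases i
  · simpa [sepFinElem, unitV12, sepInfExp] using isIntegralElem_e20_inf ι hq
  · simpa [sepFinElem, unitV01, unitU12, sepInfExp] using isIntegralElem_e11_inf ι hq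
  · simpa [sepFinElem, unitU01, sepInfExp] using isIntegralElem_e02_inf ι hq

include ι in
omit [Algebra ℚ K] in
/-- `j (q² τ) c'01 c12 / j^(2q-1)` is integral over `ℤ[1/j]`. -/
theorem isIntegralElem_jTwo_e11_inf (hq : q.Prime) :
    (eval₂RingHom (Int.castRingHom (LaurentSeries K)) (jInvSeries K)).IsIntegralElem
      (qExpand K (q ^ 2) (jqModC K) * (pairV K 1 q * pairU K q (q ^ 2)) *
        jInvSeries K ^ (2 * (q - 1) + 1)) := by
  have hd : q ∣ q ^ 2 := dvd_pow_self q two_ne_zero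
  have dqq : q ^ 2 ∣ 1 * q ^ 2 := dvd_mul_left _ _
  have hjc := conjugable_jdFun (N := 1 * q ^ 2) dqq
  have hc1 := conjugable_vPair (d₁ := 1) (one_dvd q) (hd.trans dqq)
  have hc2 := conjugable_uPair hd dqq
  refine isIntegralElem_div_j_pow (Conjugable.mul' hjc (Conjugable.mul' hc1 hc2)) ι ?_ _ fun c ↦ ?_
  · rw [map_mul, map_mul, coeffMap_pairV, coeffMap_pairU]
    refine HasExp.mul ?_ ((hasExp_vPair 1 q).mul (hasExp_uPair q (q ^ 2)))
    have h := hasExp_genFun (M := q ^ 2) ⟨q ^ 2, Nat.pos_of_ne_zero (NeZero.ne _), dvd_rfl⟩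
    rw [coeffMap_qExpand, ModularCurve.coeffMap_jqModC]
    exact h
  obtain ⟨x, hx⟩ := exists_hasLead_vPairSer (tri c ((one_dvd q).trans (hd.trans dqq)))
    (tri c (hd.trans dqq))
  obtain ⟨y, hy⟩ := exists_hasLead_uPairSer (tri c (hd.trans dqq)) (tri c dqq)
  refine ⟨_, _, by
    rw [expHom_conj_mul hjc (Conjugable.mul' hc1 hc2), expHom_conj_mul hc1 hc2,
      expHom_conj_vPair (one_dvd q) (hd.trans dqq), expHom_conj_uPair hd dqq,
      expHom_conj_jdFun dqq]
    exact (TriData.hasLead_jSer _ _).mul (hx.mul hy), ?_⟩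
  obtain ⟨h0, h⟩ := r_cases (L := 1) hq c
  have hq1 : (1 : ℤ) ≤ q := by exact_mod_cast hq.pos
  have e0 : ((tri c ((one_dvd q).trans (hd.trans dqq))).r : ℤ) = 1 * q ^ 2 := by exact_mod_cast h0
  rw [e0]
  push_cast [Nat.cast_sub hq.pos]
  rcases h with ⟨h1, h2⟩ | ⟨h1, h2⟩ | ⟨h1, h2⟩ <;> rw [h1, h2] <;> push_cast <;>
    nlinarith [mul_nonneg (sq_nonneg (q : ℤ)) (sub_nonneg.mpr hq1),
      mul_nonneg (Int.natCast_nonneg q) (sub_nonneg.mpr hq1)]

/-- The middle uniformiser lies on the chart at infinity. -/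
theorem midInfUnif_mem_chartRing (hq : q.Prime) :
    midInfUnif ι L₀ q ∈ chartRing W (jTop K L₀ q)⁻¹ := by
  rw [midInfUnif, midInfDiff, sub_mul, one_mul]
  refine sub_mem (mem_chartRing_of_intEval ?_) (sepInfElem_mem_chartRing ι hq 1)
  rw [MulMemClass.coe_mul, MulMemClass.coe_mul, sepInfElem, MulMemClass.coe_mul,
    SubmonoidClass.coe_pow, SubmonoidClass.coe_pow, coe_jTop_inv, coe_degenMap,
    MF.Coeff.coe_jElem]
  convert isIntegralElem_jTwo_e11_inf ι hq using 1
  simp [sepFinElem, unitV01, unitU12, sepInfExp]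
  ring_nf

end Chart

end Fermat.Agent.Carayol
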