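/-
The residues of the separators and of the middle uniformisers as functions on the reduced curve of
level `L₀`: `Δ^(1-q)` is a rational function of `j`, the residues at infinity are units at the
cusps, and on the finite part the residue of the uniformiser is a unit where `Δ^(1-q)` is.
-/
import Fermat.Agent.Carayol.BranchElementsInf
import Fermat.Agent.FF.Basic

set_option autoImplicit false
set_option linter.unusedSectionVars false

noncomputable section

open Polynomial ModularCurve AlgebraicCurve IntermediateField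
open Fermat.Agent.Igusa Fermat.Agent.RED.Spec Fermat.Agent.HK.Corr Fermat.Agent.CarayolHigh
open Fermat.Agent.MF (thetaL thetaL_coeff)

namespace Fermat.Agent.Carayol

/-! ### Rational functions of `1/j` with constant term -/

section Rational

variable {k : Type} [Field k]

/-- A polynomial with constant term at a function with positive order. -/
theorem ord_aeval_eq_zero {C : Type} [Field C] [Algebra k C] (v : Place k C) {x : C}
    (hx : 0 < v.ord x) {p : k[X]} (hp : p.eval 0 ≠ 0) :
    aeval x p ≠ 0 ∧ v.ord (aeval x p) = 0 := by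
  have hx0 : x ≠ 0 := fun h => by simp [h] at hx
  have hxv : x ∈ v.toValuationSubring := (FF.mem_iff_ord_nonneg v).mpr hx.le
  have hq : aeval x p.divX ∈ v.toValuationSubring := by
    rw [aeval_eq_sum_range]
    exact sum_mem fun i _ => by
      rw [Algebra.smul_def]
      exact mul_mem (v.algebraMap_mem' _) (pow_mem hxv i)
  have hc : algebraMap k C (p.coeff 0) ≠ 0 := by
    rw [coeff_zero_eq_eval_zero]
    exact (_root_.map_ne_zero _).mpr hp
  have heq : aeval x p = algebraMap k C (p.coeff 0) + x * aeval x p.divX := by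
    conv_lhs => rw [← p.divX_mul_X_add]
    rw [map_add, map_mul, aeval_X, aeval_C]
    ring
  have h := FF.add_ne_zero_and_ord_eq_of_lt v hc (g := x * aeval x p.divX) (by
    rcases eq_or_ne (aeval x p.divX) 0 with h0 | h0
    · exact Or.inl (by rw [h0, mul_zero])
    · refine Or.inr ?_
      rw [FF.ord_algebraMap, v.ord_mul hx0 h0]
      have := (FF.mem_iff_ord_nonneg v).mp hq
      omega)
  rw [heq]
  exact ⟨h.1, h.2.trans (FF.ord_algebraMap v _)⟩

theorem hasLead_aeval_jInv (p : k[X]) :
    HasLead (aeval (jInvSeries k) p) 0 (p.eval 0) := by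
  obtain ⟨w, hw, -⟩ := hasLead_jInvSeries k
  have hu : jInvSeries k = HahnSeries.ofPowerSeries ℤ k (PowerSeries.X * w) := by
    rw [hw, map_mul, HahnSeries.ofPowerSeries_X]
  refine ⟨p.eval₂ PowerSeries.C (PowerSeries.X * w), ?_, ?_⟩
  · rw [HahnSeries.single_zero_one, one_mul, hu, hom_eval₂, aeval_def]
    congr 1
  · rw [hom_eval₂, map_mul, PowerSeries.constantCoeff_X, zero_mul,
      show (PowerSeries.constantCoeff (R := k)).comp PowerSeries.C = RingHom.id k from
        RingHom.ext fun a => PowerSeries.constantCoeff_C a]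
    rfl

theorem fullC_one_le : modularFunctionFieldFullC k 1 ≤ k⟮jInvSeries k⟯ := by
  rw [modularFunctionFieldFullC, adjoin_le_iff]
  rintro _ ⟨d, hd0, hd, rfl⟩
  obtain rfl : d = 1 := Nat.dvd_one.mp hd
  rw [qExpand_one_apply, show jqModC k = (jInvSeries k)⁻¹ from
    (inv_eq_of_mul_eq_one_left (jqModC_mul_inv k)).symm]
  exact inv_mem (mem_adjoin_simple_self k _)

/-- A function of `j` with constant term at infinity. -/
theorem exists_rational_of_hasLead {s : LaurentSeries k} {c : k}
    (hs : s ∈ modularFunctionFieldFullC k 1) (hl : HasLead s 0 c) (hc : c ≠ 0) :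
    ∃ a b : k[X], a.eval 0 ≠ 0 ∧ b.eval 0 ≠ 0 ∧
      s * aeval (jInvSeries k) b = aeval (jInvSeries k) a := by
  obtain ⟨a, b, hab⟩ := (mem_adjoin_simple_iff _ _).mp (fullC_one_le hs)
  set x := jInvSeries k
  have hs0 : s ≠ 0 := fun h => hc (by rw [← hl.coeff_eq, h, HahnSeries.coeff_zero])
  have hb : aeval x b ≠ 0 := fun h => hs0 (by rw [hab, h, div_zero])
  have ha : aeval x a ≠ 0 := fun h => hs0 (by rw [hab, h, zero_div])
  have hx : HasLead x 1 1 := hasLead_jInvSeries k
  obtain ⟨a', hae, ha'⟩ := exists_eq_pow_rootMultiplicity_mul_and_not_dvd a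
    (fun h => ha (by rw [h, map_zero])) 0
  obtain ⟨b', hbe, hb'⟩ := exists_eq_pow_rootMultiplicity_mul_and_not_dvd b
    (fun h => hb (by rw [h, map_zero])) 0
  rw [map_zero, sub_zero] at hae hbe ha' hb'
  rw [X_dvd_iff, coeff_zero_eq_eval_zero] at ha' hb'
  set m := a.rootMultiplicity 0
  set n := b.rootMultiplicity 0
  have hmul : s * (x ^ n * aeval x b') = x ^ m * aeval x a' := by
    rw [← aeval_X (R := k) x, ← map_pow, ← map_pow, aeval_X, ← map_mul, ← map_mul, ← hae, ← hbe,
      hab, div_mul_cancel₀ _ hb]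
  have h1 := hl.mul ((HasLead.pow' hx n).mul (hasLead_aeval_jInv b'))
  have h2 := (HasLead.pow' hx m).mul (hasLead_aeval_jInv a')
  rw [hmul] at h1
  obtain ⟨hmn, -⟩ := h1.ext h2 (by simpa using mul_ne_zero hc hb') (by simpa using ha')
  have hmn' : m = n := by simp at hmn; omega
  refine ⟨a', b', ha', hb', mul_left_cancel₀ (pow_ne_zero n (?_ : x ≠ 0)) ?_⟩
  · intro h
    have := hx.coeff_eq
    simp [h] at this
  · calc x ^ n * (s * aeval x b') = s * (x ^ n * aeval x b') := by ring
      _ = _ := by rw [hmul, hmn']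

/-- Such a function is a unit at the cusps of every level. -/
theorem ord_eq_zero_of_rational {L : ℕ} [NeZero L] {s : LaurentSeries k} {c : k}
    (hs : s ∈ modularFunctionFieldFullC k 1) (hl : HasLead s 0 c) (hc : c ≠ 0)
    {s' x : modularFunctionFieldFullC k L} (hs' : (s' : LaurentSeries k) = s)
    (hx' : (x : LaurentSeries k) = jInvSeries k) (v : Place k (modularFunctionFieldFullC k L))
    (hv : 0 < v.ord x) : s' ≠ 0 ∧ v.ord s' = 0 := by
  obtain ⟨a, b, ha, hb, hab⟩ := exists_rational_of_hasLead hs hl hc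
  obtain ⟨ha0, ha1⟩ := ord_aeval_eq_zero v hv ha
  obtain ⟨hb0, hb1⟩ := ord_aeval_eq_zero v hv hb
  have hcoe : ∀ p : k[X], ((aeval x p : modularFunctionFieldFullC k L) : LaurentSeries k) =
      aeval (jInvSeries k) p := fun p => by
    rw [← hx']
    exact (aeval_algHom_apply (modularFunctionFieldFullC k L).val x p).symm
  have he : s' * aeval x b = aeval x a := Subtype.ext (by
    rw [MulMemClass.coe_mul, hs', hcoe, hcoe, hab])
  have hs0 : s' ≠ 0 := fun h => ha0 (by rw [← he, h, zero_mul])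
  refine ⟨hs0, ?_⟩
  have h := congrArg v.ord he
  rw [v.ord_mul hs0 hb0, hb1, ha1, add_zero] at h
  exact h

end Rational

/-! ### The residues as functions of `j` -/

section LevelOne

variable {K : Type} [Field K] [Algebra ℚ K] {K' : Type} [Field K'] [Algebra ℚ K']
  {O : ValuationSubring K'} {k : Type} [Field k] {π : O →+* k} {q : ℕ} [NeZero q]
  [Fact q.Prime] [CharP k q] [IsDiscreteValuationRing O] {κ : K →+* K'} (ι : K' →+* ℂ)
  (hπ : ∀ c, π c = 0 ↔ ¬IsUnit c) (A : ValuationSubring K) (hA : ∀ a ∈ A, κ a ∈ O)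
  (hsurj : ∀ y : k, ∃ (a : K) (ha : a ∈ A), π ⟨κ a, hA a ha⟩ = y)
  {η : K'ˣ} (hη : IsPrimitiveRoot η (q ^ 2))

include ι hπ hsurj hη

/-- The residues of the elements at level `q²`. -/
theorem residues_mem_fullC_one :
    dRes k q ^ q ∈ modularFunctionFieldFullC k 1 ∧ dRes k q ^ 2 ∈ modularFunctionFieldFullC k 1 ∧
      -midInfResBase k q ^ (q - 1) ∈ modularFunctionFieldFullC k 1 := by
  have hq : q.Prime := Fact.out
  have hq1 : ¬ q ∣ 1 := fun h => hq.one_lt.ne' (Nat.dvd_one.mp h)
  have hz : IsPrimitiveRoot (η ^ q) q := hη.pow (pow_pos hq.pos 2) (sq q)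
  obtain ⟨e02, ez, hB⟩ := exists_branchEmbs (L₀ := 1) κ ι hq hq1 hz
  have hL : ((1 : ℕ) : k) ≠ 0 := by rw [Nat.cast_one]; exact one_ne_zero
  have k₀ : Fin (q - 1) := ⟨0, Nat.sub_pos_of_lt hq.one_lt⟩
  refine ⟨?_, ?_, ?_⟩
  · have h := hB.residue_diff_zero hπ A hA hsurj hL hη (hB.isGauss_sepFin π ι k₀ 0)
      (fun i => hB.isGauss_sepFin_off π ι i (i := 0) (j := 1) (by decide))
      (hB.isGauss_sepFin_off π ι k₀ (i := 0) (j := 2) (by decide))
    simpa [sepFinRes] using h
  · have h := hB.residue_diff_zero hπ A hA hsurj hL hη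
      (hB.isGauss_sepFin_off π ι k₀ (i := 1) (j := 0) (by decide))
      (fun i => hB.isGauss_sepFin π ι i 1)
      (hB.isGauss_sepFin_off π ι k₀ (i := 1) (j := 2) (by decide))
    simpa [sepFinRes] using neg_mem h
  · have h := hB.residue_diff_zero hπ A hA hsurj hL hη (hB.isGauss_midInfUnif π ι k₀).1
      (fun i => (hB.isGauss_midInfUnif π ι i).2.1) (hB.isGauss_midInfUnif π ι k₀).2.2.1
    simpa using neg_mem h

/-- **`Δ^(1-q)` is a rational function of `j`.** -/
theorem dRes_mem_fullC_one : dRes k q ∈ modularFunctionFieldFullC k 1 := by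
  obtain ⟨h1, h2, -⟩ := residues_mem_fullC_one ι hπ A hA hsurj hη
  have hq : q.Prime := Fact.out
  rcases hq.eq_two_or_odd' with rfl | ⟨r, hr⟩
  · have hE : eisenstein4.map (Int.castRingHom k) = 1 := by
      ext n
      rw [PowerSeries.coeff_map, eisenstein4, PowerSeries.coeff_mk, PowerSeries.coeff_one]
      split_ifs
      · exact map_one _
      · rw [map_mul, map_ofNat, show (240 : k) = ((2 : ℕ) : k) * 120 by norm_num,
          CharP.cast_eq_zero, zero_mul, zero_mul]
    have hj : dRes k 2 = jqModC k := by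
      rw [dRes, Fermat.Agent.Igusa.deltaInvSeries, jqModC, jNum, map_mul, map_pow, hE, one_pow,
        one_mul, pow_one]
    rw [hj]
    exact jqModC_mem_full k 1
  · have hd : dRes k q * dRes k q ^ q = (dRes k q ^ 2) ^ (r + 1) := by
      rw [← pow_succ', ← pow_mul]
      congr 1
      omega
    rw [eq_div_iff_mul_eq (pow_ne_zero q (dRes_ne_zero k q)) |>.mpr hd]
    exact div_mem (pow_mem h2 _) h1

/-- `Δ^(1-q)` in the function field of every level. -/
theorem dRes_mem_fullC (L : ℕ) [NeZero L] : dRes k q ∈ modularFunctionFieldFullC k L :=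
  full_degeneracyC_le k (one_dvd L) (dRes_mem_fullC_one ι hπ A hA hsurj hη)

/-- `Δ^(1-q) / j^(q-1)` is a rational function of `j`. -/
theorem wRes_mem_fullC_one : wRes k q ∈ modularFunctionFieldFullC k 1 := by
  refine mul_mem (dRes_mem_fullC_one ι hπ A hA hsurj hη) (pow_mem ?_ _)
  rw [show jInvSeries k = (jqModC k)⁻¹ from
    (inv_eq_of_mul_eq_one_right (jqModC_mul_inv k)).symm]
  exact inv_mem (jqModC_mem_full k 1)

/-- **The residues at infinity are units at the cusps.** -/
theorem ord_sepInfRes {L : ℕ} [NeZero L] (i : Fin 3) {s x : modularFunctionFieldFullC k L}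
    (hs : (s : LaurentSeries k) = sepInfRes k q i) (hx : (x : LaurentSeries k) = jInvSeries k)
    (v : Place k (modularFunctionFieldFullC k L)) (hv : 0 < v.ord x) :
    s ≠ 0 ∧ v.ord s = 0 := by
  have hw := wRes_mem_fullC_one ι hπ A hA hsurj hη
  refine ord_eq_zero_of_rational (c := 1) ?_ ?_ one_ne_zero hs hx v hv
  · fin_cases i <;> exact pow_mem hw _
  · have h : ∀ m : ℕ, HasLead (wRes k q ^ m) 0 1 := fun m => by
      simpa using HasLead.pow' (hasLead_wRes k q) m
    fin_cases i <;> exact h _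

/-- **The residue of the uniformiser at infinity is a unit at the cusps.** -/
theorem ord_midInfRes {L : ℕ} [NeZero L] {r x : modularFunctionFieldFullC k L}
    (hr : (r : LaurentSeries k) = -midInfResBase k q ^ (q - 1))
    (hx : (x : LaurentSeries k) = jInvSeries k)
    (v : Place k (modularFunctionFieldFullC k L)) (hv : 0 < v.ord x) :
    r ≠ 0 ∧ v.ord r = 0 := by
  obtain ⟨-, -, h3⟩ := residues_mem_fullC_one ι hπ A hA hsurj hη
  have hl : HasLead (-midInfResBase k q ^ (q - 1)) 0 (-(-1 : k) ^ (q - 1)) := by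
    obtain ⟨p, hp, hp0⟩ := HasLead.pow' (hasLead_midInfResBase k q) (q - 1)
    exact ⟨-p, by rw [hp, mul_zero, map_neg, mul_neg], by rw [map_neg, hp0]⟩
  exact ord_eq_zero_of_rational h3 hl
    (neg_ne_zero.mpr (pow_ne_zero _ (neg_ne_zero.mpr one_ne_zero))) hr hx v hv

end LevelOne

/-! ### The finite part -/

/-- The reduced Hauptmodul lies in the function field of level `L`. -/
theorem tBar_mem_fullC {K : Type} [Field K] [Algebra ℚ K] {K' : Type} [Field K'] [Algebra ℚ K']
    {O : ValuationSubring K'} {k : Type} [Field k] {π : O →+* k} {κ : K →+* K'}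
    (A : ValuationSubring K) (hA : ∀ a ∈ A, κ a ∈ O)
    (hsurj : ∀ y : k, ∃ (a : K) (ha : a ∈ A), π ⟨κ a, hA a ha⟩ = y) {L : ℕ} [NeZero L]
    (hL : (L : k) ≠ 0) {N₀ : ℕ} (H : Haupt N₀) (hH : N₀ ∣ L) :
    H.tBar k ∈ modularFunctionFieldFullC k L :=
  isGauss_baseEmb_mem A hA hsurj hL (g := hauptFn K H hH)
    (by rw [baseEmb_hauptFn]; exact isGauss_intCast H.tZ)

section Finite

variable {k : Type} [Field k] {q : ℕ} [CharP k q]

/-- **The residue of the finite middle uniformiser is a unit where `Δ^(1-q)` is.** -/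
theorem ord_midFinRes (hq : q.Prime) {L : ℕ} [NeZero L] {N₀ : ℕ} (H : Haupt N₀) (hH : N₀ ∣ L)
    (hqL : ¬ q ∣ L) {j s r : modularFunctionFieldFullC k L}
    (hj : (j : LaurentSeries k) = jqModC k) (hs : (s : LaurentSeries k) = dRes k q ^ 2)
    (hd : dRes k q ∈ modularFunctionFieldFullC k L)
    (hr : (r : LaurentSeries k) = -(thetaL (H.tBar k) * dRes k q ^ 2) ^ (q - 1))
    (ht : H.tBar k ∈ modularFunctionFieldFullC k L)
    (v : Place k (modularFunctionFieldFullC k L)) (hjv : j ∈ v.toValuationSubring)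
    (hsv : v.ord s = 0) : v.ord r = 0 := by
  set t : (modularFunctionFieldFullC k L) := ⟨_, ht⟩
  set d : (modularFunctionFieldFullC k L) := ⟨_, hd⟩
  have hcoe : ∀ p : ℤ[X], ((evalZ t p : (modularFunctionFieldFullC k L)) : LaurentSeries k) = evalZ (H.tBar k) p := fun p =>
    map_evalZ (modularFunctionFieldFullC k L).val.toRingHom t p
  -- `D (t) j = P (t) ³`
  have hjeq : evalZ t H.D * j = evalZ t H.P ^ 3 := Subtype.ext (by
    have h := congrArg (coeffMap (Int.castRingHom k)) H.j_eq
    rw [map_mul, map_pow, ModularCurve.coeffMap_jqModC] at h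
    rw [MulMemClass.coe_mul, SubmonoidClass.coe_pow, hcoe, hcoe, hj]
    rw [show evalZ (H.tBar k) H.D = coeffMap (Int.castRingHom k) (evalZ H.tZ H.D) from
        (map_evalZ _ _ _).symm,
      show evalZ (H.tBar k) H.P = coeffMap (Int.castRingHom k) (evalZ H.tZ H.P) from
        (map_evalZ _ _ _).symm]
    exact h)
  have htv : t ∈ v.toValuationSubring := by
    refine RED.mem_valuationSubring_of_isIntegralElem (v.toValuationSubring)
      (φ := eval₂RingHom (Int.castRingHom (modularFunctionFieldFullC k L)) j) (fun p => ?_)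
      (f := t) ⟨(H.P.map Polynomial.C) ^ 3 - Polynomial.C Polynomial.X * H.D.map Polynomial.C,
        ((H.P_monic.map _).pow 3).sub_of_left ?_, ?_⟩
    · rw [coe_eval₂RingHom, eval₂_eq_sum_range]
      exact sum_mem fun i _ => mul_mem (by rw [eq_intCast]; exact intCast_mem _ _) (pow_mem hjv i)
    · refine degree_lt_degree ((natDegree_C_mul_le _ _).trans_lt (natDegree_map_le.trans_lt ?_))
      rw [(H.P_monic.map _).natDegree_pow, H.P_monic.natDegree_map]
      exact H.degree_lt
    · have hev : ∀ p : ℤ[X], (p.map (Polynomial.C : ℤ →+* ℤ[X])).eval₂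
          (eval₂RingHom (Int.castRingHom (modularFunctionFieldFullC k L)) j) t = evalZ t p :=
          fun p => by
        rw [eval₂_map, RingHom.ext_int ((eval₂RingHom _ j).comp Polynomial.C)
          (Int.castRingHom (modularFunctionFieldFullC k L))]
        rfl
      rw [eval₂_sub, eval₂_pow, eval₂_mul, eval₂_C, hev, hev, coe_eval₂RingHom, eval₂_X, ← hjeq]
      ring
  have hmem : ∀ p : ℤ[X], evalZ t p ∈ v.toValuationSubring := fun p => by
    rw [evalZ, eval₂_eq_sum_range]
    exact sum_mem fun i _ => mul_mem (by rw [eq_intCast]; exact intCast_mem _ _) (pow_mem htv i)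
  let π' : v.toValuationSubring →+* v.ResidueField := IsLocalRing.residue _
  have : CharP v.ResidueField q := charP_of_injective_algebraMap
    (algebraMap k v.ResidueField).injective q
  have hv' : ∀ p : ℤ[X], ((evalZ (⟨t, htv⟩ : v.toValuationSubring) p :
      v.toValuationSubring) : modularFunctionFieldFullC k L) = evalZ t p := fun p =>
    map_evalZ v.toValuationSubring.subtype _ p
  have hDu : IsUnit (⟨evalZ t H.D, hmem _⟩ : v.toValuationSubring) := by
    by_contra hu
    refine H.D_eval_ne_zero (k := v.ResidueField) π' (t := (⟨t, htv⟩ : v.toValuationSubring))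
      (j := ⟨j, hjv⟩) hq (fun h => hqL (h.trans hH)) ?_ ?_
    · refine Subtype.ext ?_
      rw [MulMemClass.coe_mul, SubmonoidClass.coe_pow, hv' H.D, hv' H.P]
      exact hjeq
    · rw [← map_evalZ π', IsLocalRing.residue_eq_zero_iff, IsLocalRing.mem_maximalIdeal,
        show evalZ (⟨t, htv⟩ : v.toValuationSubring) H.D = ⟨evalZ t H.D, hmem _⟩ from
          Subtype.ext (hv' H.D)]
      exact hu
  have hD0 : evalZ t H.D ≠ 0 ∧ v.ord (evalZ t H.D) = 0 := by
    obtain ⟨u, hu⟩ := hDu
    rw [show evalZ t H.D = ((u : v.toValuationSubring) : (modularFunctionFieldFullC k L)) from (congrArg Subtype.val hu).symm]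
    exact ⟨by simp, v.ord_coe_unit u⟩
  have hG0 : evalZ t H.G ≠ 0 ∧ v.ord (evalZ t H.G) = 0 := by
    obtain ⟨m, W, hW⟩ := H.G_dvd
    have h : evalZ t H.D ^ m = evalZ t H.G * evalZ t W := by
      simp only [evalZ, ← eval₂_pow, hW, eval₂_mul]
    have h0 : evalZ t H.G * evalZ t W ≠ 0 := h ▸ pow_ne_zero m hD0.1
    have h' := congrArg v.ord h
    rw [FF.ord_pow, hD0.2, mul_zero, v.ord_mul (left_ne_zero_of_mul h0)
      (right_ne_zero_of_mul h0)] at h'
    have h1 := (FF.mem_iff_ord_nonneg v).mp (hmem H.G)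
    have h2 := (FF.mem_iff_ord_nonneg v).mp (hmem W)
    exact ⟨left_ne_zero_of_mul h0, by omega⟩
  -- `r ⁶ D (t) ^ (q-1) d = G (t) ^ (6 (q-1)) d ^ (12 (q-1))`
  have hrel : r ^ 6 * evalZ t H.D ^ (q - 1) * d =
      evalZ t H.G ^ (6 * (q - 1)) * d ^ (12 * (q - 1)) := Subtype.ext (by
    push_cast
    rw [hr, hcoe, hcoe]
    show (-(thetaL (H.tBar k) * dRes k q ^ 2) ^ (q - 1)) ^ 6 * _ * dRes k q = _ * dRes k q ^ _
    have h6 := congrArg (· ^ (q - 1)) (H.thetaL_tBar_pow_six k)
    have hu := dRes_mul_deltaSeries k q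
    simp only [mul_pow, ← pow_mul] at h6 ⊢
    rw [Even.neg_pow (by decide), mul_pow, ← pow_mul, ← pow_mul]
    linear_combination (dRes k q ^ (2 * (q - 1) * 6) * dRes k q) * h6 +
      (evalZ (H.tBar k) H.G ^ (6 * (q - 1)) * dRes k q ^ (12 * (q - 1))) * hu)
  have hd0 : d ≠ 0 := fun h => dRes_ne_zero k q (congrArg Subtype.val h)
  have hdv : v.ord d = 0 := by
    have hsd : s = d ^ 2 := Subtype.ext hs
    rw [hsd, FF.ord_pow] at hsv
    omega
  have : NeZero q := ⟨hq.ne_zero⟩
  have hr0 : r ≠ 0 := fun h => by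
    rw [h] at hr
    exact midFinRes_ne_zero H hr.symm
  have h := congrArg v.ord hrel
  rw [v.ord_mul (mul_ne_zero (pow_ne_zero _ hr0) (pow_ne_zero _ hD0.1)) hd0,
    v.ord_mul (pow_ne_zero _ hr0) (pow_ne_zero _ hD0.1),
    v.ord_mul (pow_ne_zero _ hG0.1) (pow_ne_zero _ hd0)] at h
  simp only [FF.ord_pow, hD0.2, hdv, hG0.2] at h
  omega

end Finite

end Fermat.Agent.Carayol
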