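/-
Orders and residues along the branches of a `Model`.
-/
import Fermat.Agent.Carayol.Model

set_option autoImplicit false
set_option linter.unusedSectionVars false

noncomputable section

namespace Fermat.Agent.Carayol.Model

variable {W F k C : Type} [CommRing W] [IsDomain W] [IsDiscreteValuationRing W] [Field F]
  [Algebra W F] [Field k] [Field C] [Algebra k C] (M : Model W F k C)

open Classical in
/-- The residue along a branch, extended by zero. -/
def red (i : Fin 3) (a : F) : C := if h : a ∈ M.Br.V i then M.Br.res i ⟨a, h⟩ else 0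

theorem red_of_mem {i : Fin 3} {a : F} (h : a ∈ M.Br.V i) : M.red i a = M.Br.res i ⟨a, h⟩ :=
  dif_pos h

theorem red_mul {i : Fin 3} {a b : F} (ha : a ∈ M.Br.V i) (hb : b ∈ M.Br.V i) :
    M.red i (a * b) = M.red i a * M.red i b := by
  rw [red_of_mem M ha, red_of_mem M hb, red_of_mem M (mul_mem ha hb), ← map_mul]
  rfl

theorem red_add {i : Fin 3} {a b : F} (ha : a ∈ M.Br.V i) (hb : b ∈ M.Br.V i) :
    M.red i (a + b) = M.red i a + M.red i b := by
  rw [red_of_mem M ha, red_of_mem M hb, red_of_mem M (add_mem ha hb), ← map_add]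
  rfl

theorem red_one (i : Fin 3) : M.red i 1 = 1 := by
  rw [red_of_mem M (one_mem _)]
  exact map_one (M.Br.res i)

theorem red_zero (i : Fin 3) : M.red i 0 = 0 := by
  rw [red_of_mem M (zero_mem _)]
  exact map_zero (M.Br.res i)

theorem red_pow {i : Fin 3} {a : F} (ha : a ∈ M.Br.V i) (n : ℕ) :
    M.red i (a ^ n) = M.red i a ^ n := by
  rw [red_of_mem M ha, red_of_mem M (pow_mem ha n), ← map_pow]
  rfl

theorem mem_of_mem {c : Fin 2} {a : F} (ha : a ∈ M.R c) (i : Fin 3) : a ∈ M.Br.V i :=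
  (M.chart c).mem_V a ha i

theorem const_mem (i : Fin 3) (w : W) : algebraMap W F w ∈ M.Br.V i :=
  M.mem_of_mem (c := 0) ((M.R 0).algebraMap_mem w) i

theorem red_const (i : Fin 3) (w : W) :
    M.red i (algebraMap W F w) = algebraMap k C (M.ρ w) := by
  rw [red_of_mem M (M.const_mem i w), M.res_const]

variable {i : Fin 3} {a b : F}

theorem ord_one (i : Fin 3) : M.ord i 1 = 0 := by
  have := M.ord_mul i 1 1 one_ne_zero one_ne_zero
  rw [mul_one] at this
  omega

theorem ord_inv (ha : a ≠ 0) : M.ord i a⁻¹ = -M.ord i a := by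
  have := M.ord_mul i a a⁻¹ ha (inv_ne_zero ha)
  rw [mul_inv_cancel₀ ha, M.ord_one] at this
  omega

theorem ord_pow (ha : a ≠ 0) (n : ℕ) : M.ord i (a ^ n) = n * M.ord i a := by
  induction n with
  | zero => simp [M.ord_one]
  | succ n ih =>
    rw [pow_succ, M.ord_mul i _ _ (pow_ne_zero _ ha) ha, ih]
    push_cast
    ring

theorem ord_div (ha : a ≠ 0) (hb : b ≠ 0) : M.ord i (a / b) = M.ord i a - M.ord i b := by
  rw [div_eq_mul_inv, M.ord_mul i _ _ ha (inv_ne_zero hb), M.ord_inv hb, sub_eq_add_neg]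

theorem ord_zpow (ha : a ≠ 0) (n : ℤ) : M.ord i (a ^ n) = n * M.ord i a := by
  rcases Int.eq_nat_or_neg n with ⟨N, rfl | rfl⟩
  · rw [zpow_natCast, M.ord_pow ha]
  · rw [zpow_neg, zpow_natCast, M.ord_inv (pow_ne_zero _ ha), M.ord_pow ha]
    ring

theorem mem_of_ord_nonneg (h : 0 ≤ M.ord i a) : a ∈ M.Br.V i := by
  rcases eq_or_ne a 0 with rfl | ha
  · exact zero_mem _
  · exact (M.mem_iff i a ha).mpr h

theorem red_ne_zero_of_ord (ha : a ≠ 0) (h : M.ord i a = 0) : M.red i a ≠ 0 := by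
  have hm := M.mem_of_ord_nonneg (i := i) h.ge
  rw [red_of_mem M hm, Ne, M.res_eq_zero_iff i a hm ha]
  omega

theorem ord_eq_zero_of_red (hm : a ∈ M.Br.V i) (h : M.red i a ≠ 0) :
    a ≠ 0 ∧ M.ord i a = 0 := by
  have ha : a ≠ 0 := fun e => h (by rw [e, M.red_zero])
  rw [red_of_mem M hm, Ne, M.res_eq_zero_iff i a hm ha] at h
  exact ⟨ha, by have := (M.mem_iff i a ha).mp hm; omega⟩

include M in
theorem const_ne_zero {w : W} (hw : w ≠ 0) : algebraMap W F w ≠ 0 := fun h =>
  hw (M.hinj (h.trans (map_zero _).symm))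

theorem q_ne_zero : algebraMap W F (M.q : W) ≠ 0 := M.const_ne_zero M.irreducible_q.ne_zero

theorem ord_const_of_isUnit {w : W} (hw : IsUnit w) (i : Fin 3) :
    M.ord i (algebraMap W F w) = 0 := by
  obtain ⟨v, hv⟩ := hw.exists_right_inv
  have h1 := (M.mem_iff i _ (M.const_ne_zero hw.ne_zero)).mp (M.const_mem i w)
  have hv0 : v ≠ 0 := fun e => by simp [e] at hv
  have h2 := (M.mem_iff i _ (M.const_ne_zero hv0)).mp (M.const_mem i v)
  have h3 := M.ord_mul i _ _ (M.const_ne_zero hw.ne_zero) (M.const_ne_zero hv0)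
  rw [← map_mul, hv, map_one, M.ord_one] at h3
  omega

/-- A constant is a power of `q` times a unit. -/
theorem exists_const_eq {w : W} (hw : w ≠ 0) :
    ∃ (n : ℕ) (u : W), IsUnit u ∧ w = (M.q : W) ^ n * u ∧
      ∀ i, M.ord i (algebraMap W F w) = n * M.ord i (algebraMap W F (M.q : W)) := by
  obtain ⟨n, u, rfl⟩ := IsDiscreteValuationRing.eq_unit_mul_pow_irreducible hw M.irreducible_q
  refine ⟨n, u, u.isUnit, mul_comm _ _, fun i => ?_⟩
  rw [map_mul, map_pow, M.ord_mul i _ _ (M.const_ne_zero u.ne_zero) (pow_ne_zero _ M.q_ne_zero),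
    M.ord_const_of_isUnit u.isUnit, M.ord_pow M.q_ne_zero, zero_add]

/-- A product with a unit of a branch. -/
theorem red_prod_ne_zero (ha : a ∈ M.Br.V i) (hb : b ∈ M.Br.V i) (h : M.red i a ≠ 0)
    (h' : M.red i b ≠ 0) : M.red i (a * b) ≠ 0 := by
  rw [M.red_mul ha hb]
  exact mul_ne_zero h h'

/-- Elements of `R` with prescribed orders. -/
theorem exists_ord_eq (n : Fin 3 → ℕ) : ∃ H : F, H ≠ 0 ∧ ∀ i, M.ord i H = n i := by
  classical
  choose p hpR hp0 hp1 using M.exists_unif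
  choose e heR he0 he1 he2 using M.exists_sep
  set N : ℕ := Finset.univ.sup n + 1 with hN
  let T : Fin 3 → F := fun j => e j ^ N * p j ^ n j
  have hT0 : ∀ j, T j ≠ 0 := fun j => mul_ne_zero (pow_ne_zero _ (he0 j)) (pow_ne_zero _ (hp0 j))
  have hTR : ∀ j, T j ∈ M.R 0 := fun j => mul_mem (pow_mem (heR j) _) (pow_mem (hpR j) _)
  have hTo : ∀ i j, M.ord i (T j) = N * M.ord i (e j) + n j * M.ord i (p j) := fun i j => by
    rw [M.ord_mul i _ _ (pow_ne_zero _ (he0 j)) (pow_ne_zero _ (hp0 j)), M.ord_pow (he0 j),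
      M.ord_pow (hp0 j)]
  have hdiv : ∀ i j, j ≠ i → T j / T i ∈ M.Br.V i ∧ M.red i (T j / T i) = 0 := by
    intro i j hji
    have hlt : 0 < M.ord i (T j / T i) := by
      rw [M.ord_div (hT0 j) (hT0 i), hTo, hTo, he1, hp1]
      have h1 := he2 j i (Ne.symm hji)
      have h2 := (M.mem_iff i _ (hp0 j)).mp (M.mem_of_mem (hpR j) i)
      have h3 : (n i : ℤ) < N := by
        have := Finset.le_sup (f := n) (Finset.mem_univ i)
        omega
      nlinarith
    have hm := M.mem_of_ord_nonneg (i := i) hlt.le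
    exact ⟨hm, by rw [red_of_mem M hm, M.res_eq_zero_iff i _ hm (div_ne_zero (hT0 j) (hT0 i))]
                  exact hlt⟩
  have hHi : ∀ i, (∑ j, T j) ≠ 0 ∧ M.ord i (∑ j, T j) = M.ord i (T i) := by
    intro i
    have hsum : (∑ j, T j) = T i * (1 + ∑ j ∈ Finset.univ.erase i, T j / T i) := by
      rw [mul_add, mul_one, Finset.mul_sum, ← Finset.add_sum_erase _ _ (Finset.mem_univ i)]
      congr 1
      exact Finset.sum_congr rfl fun j _ => by field_simp [hT0 i]
    have hmem : ∀ s : Finset (Fin 3), i ∉ s →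
        (∑ j ∈ s, T j / T i) ∈ M.Br.V i ∧ M.red i (∑ j ∈ s, T j / T i) = 0 := by
      intro s
      induction s using Finset.induction_on with
      | empty => intro; simp [M.red_zero]
      | insert j s hj ih =>
        intro hi
        rw [Finset.mem_insert, not_or] at hi
        obtain ⟨h1, h2⟩ := hdiv i j (Ne.symm hi.1)
        obtain ⟨h3, h4⟩ := ih hi.2
        rw [Finset.sum_insert hj]
        exact ⟨add_mem h1 h3, by rw [M.red_add h1 h3, h2, h4, add_zero]⟩
    obtain ⟨hm, hr⟩ := hmem _ (Finset.notMem_erase i Finset.univ)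
    obtain ⟨h0, h00⟩ := M.ord_eq_zero_of_red (add_mem (one_mem _) hm)
      (by rw [M.red_add (one_mem _) hm, hr, M.red_one, add_zero]; exact one_ne_zero)
    rw [hsum]
    exact ⟨mul_ne_zero (hT0 i) h0, by rw [M.ord_mul i _ _ (hT0 i) h0, h00, add_zero]⟩
  refine ⟨∑ j, T j, (hHi 0).1, fun i => ?_⟩
  rw [(hHi i).2, hTo, he1, hp1]
  ring

/-- Elements with prescribed integral orders. -/
theorem exists_ord_eq_int (n : Fin 3 → ℤ) : ∃ H : F, H ≠ 0 ∧ ∀ i, M.ord i H = n i := by
  obtain ⟨a, ha, ha'⟩ := M.exists_ord_eq fun i => (n i).toNat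
  obtain ⟨b, hb, hb'⟩ := M.exists_ord_eq fun i => (-n i).toNat
  exact ⟨a / b, div_ne_zero ha hb,
    fun i => by rw [M.ord_div ha hb, ha', hb', Int.toNat_sub_toNat_neg]⟩

end Fermat.Agent.Carayol.Model
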