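/-
Every valuation of the residue field of a branch is centred on one of the two charts.
-/
import Fermat.Agent.Carayol.ModelBasic
import Mathlib.RingTheory.Valuation.Integral
import Mathlib.RingTheory.IntegralClosure.IntegrallyClosed

set_option autoImplicit false
set_option linter.unusedSectionVars false
set_option linter.style.haveILetI false

noncomputable section

namespace Fermat.Agent.Carayol.Model

variable {W F k C : Type} [CommRing W] [IsDomain W] [IsDiscreteValuationRing W] [Field F]
  [Algebra W F] [Field k] [Field C] [Algebra k C] (M : Model W F k C)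

/-- Residues of elements integral over `W[z]` lie in a valuation ring containing the constants and
the residue of `z`. -/
theorem red_mem_valuationSubring (i : Fin 3) (O : ValuationSubring C)
    (hk : ∀ t : k, algebraMap k C t ∈ O) {c : Fin 2} {z : F} (hz : z ∈ M.R c)
    (hzO : M.red i z ∈ O) {a : F} (ha : a ∈ M.R c)
    (hint : IsIntegral (Algebra.adjoin W ({z} : Set F)) a) : M.red i a ∈ O := by
  classical
  have hle : Algebra.adjoin W ({z} : Set F) ≤ M.R c :=
    Algebra.adjoin_le (Set.singleton_subset_iff.mpr hz)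
  have hO : ∀ b : Algebra.adjoin W ({z} : Set F), M.red i (b : F) ∈ O := by
    rintro ⟨b, hb⟩
    induction hb using Algebra.adjoin_induction with
    | mem x hx =>
      obtain rfl : x = z := hx
      exact hzO
    | algebraMap w =>
      show M.red i (algebraMap W F w) ∈ _
      rw [M.red_const]
      exact hk _
    | add x x' hx hx' ihx ihx' =>
      show M.red i (x + x') ∈ _
      rw [M.red_add (M.mem_of_mem (hle hx) i) (M.mem_of_mem (hle hx') i)]
      exact add_mem ihx ihx'
    | mul x x' hx hx' ihx ihx' =>
      show M.red i (x * x') ∈ _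
      rw [M.red_mul (M.mem_of_mem (hle hx) i) (M.mem_of_mem (hle hx') i)]
      exact mul_mem ihx ihx'
  let φ : M.R c →+* C := chartRes M.Br (M.chart c) i
  have hφ : ∀ r, φ r = M.red i (r : F) := fun r => (red_of_mem M (M.mem_of_mem r.2 i)).symm
  let ι : Algebra.adjoin W ({z} : Set F) →+* M.R c := (Subalgebra.inclusion hle).toRingHom
  let ψ : Algebra.adjoin W ({z} : Set F) →+* O :=
    (φ.comp ι).codRestrict O fun b => by
      show φ (ι b) ∈ _
      rw [hφ]
      exact hO b
  obtain ⟨p, hp, hp0⟩ := hint
  have hi : IsIntegral O (M.red i a) := by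
    refine ⟨p.map ψ, hp.map ψ, ?_⟩
    rw [Polynomial.eval₂_map]
    have hcomp : (algebraMap O C).comp ψ = φ.comp ι := RingHom.ext fun _ => rfl
    rw [hcomp, ← hφ ⟨a, ha⟩, ← Polynomial.hom_eval₂,
      show Polynomial.eval₂ ι (⟨a, ha⟩ : M.R c) p = 0 from Subtype.ext ?_, map_zero]
    have e := Polynomial.hom_eval₂ p ι ((M.R c).val.toRingHom) (⟨a, ha⟩ : M.R c)
    exact e.trans hp0
  obtain ⟨b, hb⟩ := IsIntegrallyClosed.algebraMap_eq_of_integral hi
  rw [← hb]
  exact b.2

/-- The first chart is integral over `W[x]`. -/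
theorem isIntegral_chart_zero {a : F} (ha : a ∈ M.R 0) :
    IsIntegral (Algebra.adjoin W ({M.x} : Set F)) a := by
  let B : Subalgebra (Algebra.adjoin W ({M.x} : Set F)) F :=
    { (M.R 0).toSubsemiring with
      algebraMap_mem' := fun b =>
        (Algebra.adjoin_le (Set.singleton_subset_iff.mpr M.x_mem)) b.2 }
  obtain ⟨s₀, hs₀, hspan⟩ := M.finite₀
  refine IsIntegral.of_mem_of_fg B ⟨s₀, le_antisymm ?_ fun b hb => hspan b hb⟩ a ha
  exact Submodule.span_le.mpr fun b hb => hs₀ hb

/-- **The charts cover.** A valuation ring of the residue field containing the constants contains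
the residues of one of the charts. -/
theorem exists_chart_red_mem
    (hint : ∀ a ∈ M.R 1, IsIntegral (Algebra.adjoin W ({M.x⁻¹} : Set F)) a) (i : Fin 3)
    (O : ValuationSubring C) (hk : ∀ t : k, algebraMap k C t ∈ O) :
    ∃ c : Fin 2, ∀ a : M.R c, M.red i (a : F) ∈ O := by
  rcases O.mem_or_inv_mem (M.red i M.x) with h | h
  · exact ⟨0, fun a => M.red_mem_valuationSubring i O hk M.x_mem h a.2 (M.isIntegral_chart_zero a.2)⟩
  · refine ⟨1, fun a => M.red_mem_valuationSubring i O hk M.x_inv_mem ?_ a.2 (hint a a.2)⟩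
    have e := M.red_mul (M.mem_of_mem M.x_mem i) (M.mem_of_mem M.x_inv_mem i)
    rw [mul_inv_cancel₀ M.x_ne_zero, M.red_one] at e
    rwa [eq_inv_of_mul_eq_one_right e.symm]

end Fermat.Agent.Carayol.Model
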