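/-
Valuations of the prime elements of a factorial domain, and `m`-th roots up to units.
-/
import Fermat.Agent.Carayol.Regular
import Mathlib.RingTheory.DiscreteValuationRing.Basic
import Mathlib.RingTheory.Valuation.ValuationSubring
import Mathlib.RingTheory.UniqueFactorizationDomain.Multiplicity

set_option autoImplicit false

noncomputable section

namespace Fermat.Agent.Carayol

variable {S K : Type*} [CommRing S] [IsDomain S] [UniqueFactorizationMonoid S] [Field K]
  [Algebra S K] [IsFractionRing S K]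

omit [UniqueFactorizationMonoid S] in
/-- Exponents of a prime are well defined. -/
theorem pow_exp_unique {p x y : S} (hp : Prime p) (hx : ¬ p ∣ x) (hy : ¬ p ∣ y) {a b : ℕ}
    (h : p ^ a * x = p ^ b * y) : a = b := by
  wlog hab : a ≤ b generalizing a b x y
  · exact (this hy hx h.symm (le_of_not_ge hab)).symm
  obtain ⟨c, rfl⟩ := Nat.exists_eq_add_of_le hab
  rw [pow_add, mul_assoc] at h
  have h' := mul_left_cancel₀ (pow_ne_zero a hp.ne_zero) h
  rcases Nat.eq_zero_or_pos c with rfl | hc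
  · rfl
  · exact (hx (h' ▸ dvd_mul_of_dvd_left (dvd_pow_self p hc.ne') y)).elim

variable {p : S} (hp : Prime p)
include hp

/-- Every nonzero element is a power of `p` times a quotient prime to `p`. -/
theorem exists_zpow_prime {a : K} (ha : a ≠ 0) :
    ∃ (n : ℤ) (u v : S), ¬ p ∣ u ∧ ¬ p ∣ v ∧
      a * algebraMap S K v = algebraMap S K p ^ n * algebraMap S K u := by
  obtain ⟨x, y, hy, rfl⟩ := IsFractionRing.div_surjective S a
  have hy0 : y ≠ 0 := nonZeroDivisors.ne_zero hy
  have hx0 : x ≠ 0 := fun h => ha (by simp [h])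
  obtain ⟨i, u, hu, rfl⟩ := WfDvdMonoid.max_power_factor hx0 hp.irreducible
  obtain ⟨j, v, hv, rfl⟩ := WfDvdMonoid.max_power_factor hy0 hp.irreducible
  refine ⟨(i : ℤ) - j, u, v, hu, hv, ?_⟩
  have hP : algebraMap S K p ≠ 0 :=
    (map_ne_zero_iff _ (IsFractionRing.injective S K)).mpr hp.ne_zero
  have hV : algebraMap S K v ≠ 0 :=
    (map_ne_zero_iff _ (IsFractionRing.injective S K)).mpr (right_ne_zero_of_mul hy0)
  rw [map_mul, map_mul, map_pow, map_pow, zpow_sub₀ hP, zpow_natCast, zpow_natCast]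
  field_simp

variable (K) in
/-- The valuation ring of a prime element. -/
def primeValSubring : ValuationSubring K where
  carrier := {a | ∃ u v : S, ¬ p ∣ v ∧ a * algebraMap S K v = algebraMap S K u}
  zero_mem' := ⟨0, 1, hp.not_dvd_one, by simp⟩
  one_mem' := ⟨1, 1, hp.not_dvd_one, by simp⟩
  add_mem' := by
    rintro a b ⟨u, v, hv, h⟩ ⟨u', v', hv', h'⟩
    refine ⟨u * v' + u' * v, v * v', fun hd => (hp.dvd_or_dvd hd).elim hv hv', ?_⟩
    simp only [map_mul, map_add, ← h, ← h']; ring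
  mul_mem' := by
    rintro a b ⟨u, v, hv, h⟩ ⟨u', v', hv', h'⟩
    refine ⟨u * u', v * v', fun hd => (hp.dvd_or_dvd hd).elim hv hv', ?_⟩
    simp only [map_mul, ← h, ← h']; ring
  neg_mem' := by
    rintro a ⟨u, v, hv, h⟩
    exact ⟨-u, v, hv, by simp [← h]⟩
  mem_or_inv_mem' := by
    intro a
    rcases eq_or_ne a 0 with rfl | ha
    · exact Or.inl ⟨0, 1, hp.not_dvd_one, by simp⟩
    obtain ⟨n, u, v, hu, hv, h⟩ := exists_zpow_prime (K := K) hp ha
    have hP : algebraMap S K p ≠ 0 :=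
      (map_ne_zero_iff _ (IsFractionRing.injective S K)).mpr hp.ne_zero
    rcases Int.eq_nat_or_neg n with ⟨N, rfl | rfl⟩
    · exact Or.inl ⟨p ^ N * u, v, hv, by rw [h, zpow_natCast, map_mul, map_pow]⟩
    · refine Or.inr ⟨p ^ N * v, u, hu, ?_⟩
      rw [inv_mul_eq_iff_eq_mul₀ ha, map_mul, map_pow, mul_left_comm, h, zpow_neg, zpow_natCast,
        ← mul_assoc, mul_inv_cancel₀ (pow_ne_zero _ hP), one_mul]

theorem mem_primeValSubring {a : K} :
    a ∈ primeValSubring K hp ↔
      ∃ u v : S, ¬ p ∣ v ∧ a * algebraMap S K v = algebraMap S K u := Iff.rfl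

theorem algebraMap_mem_primeValSubring (x : S) : algebraMap S K x ∈ primeValSubring K hp :=
  ⟨x, 1, hp.not_dvd_one, by simp⟩

theorem inv_mem_primeValSubring {x : S} (hx : ¬ p ∣ x) :
    (algebraMap S K x)⁻¹ ∈ primeValSubring K hp :=
  ⟨1, x, hx, by
    rw [map_one, inv_mul_cancel₀ ((map_ne_zero_iff _ (IsFractionRing.injective S K)).mpr
      (fun h => hx (by rw [h]; exact dvd_zero p)))]⟩

theorem isDVR_primeValSubring : IsDiscreteValuationRing (primeValSubring K hp) := by
  refine IsDiscreteValuationRing.ofHasUnitMulPowIrreducibleFactorization ?_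
  have hP : algebraMap S K p ≠ 0 :=
    (map_ne_zero_iff _ (IsFractionRing.injective S K)).mpr hp.ne_zero
  let P : primeValSubring K hp := ⟨_, algebraMap_mem_primeValSubring hp p⟩
  have key : ∀ x : primeValSubring K hp, x ≠ 0 →
      ∃ (n : ℕ) (w : (primeValSubring K hp)ˣ), x = P ^ n * w := by
    intro x hx
    obtain ⟨u, v, hv, h⟩ := x.2
    have hu0 : u ≠ 0 := by
      rintro rfl
      rw [map_zero, mul_eq_zero] at h
      rcases h with h | h
      · exact hx (Subtype.ext h)
      · exact hv (IsFractionRing.injective S K (h.trans (map_zero _).symm) ▸ dvd_zero p)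
    obtain ⟨n, u', hu', rfl⟩ := WfDvdMonoid.max_power_factor hu0 hp.irreducible
    let w : primeValSubring K hp := ⟨algebraMap S K u' * (algebraMap S K v)⁻¹,
      mul_mem (algebraMap_mem_primeValSubring hp u') (inv_mem_primeValSubring hp hv)⟩
    let w' : primeValSubring K hp := ⟨algebraMap S K v * (algebraMap S K u')⁻¹,
      mul_mem (algebraMap_mem_primeValSubring hp v) (inv_mem_primeValSubring hp hu')⟩
    have hv0 : algebraMap S K v ≠ 0 := (map_ne_zero_iff _ (IsFractionRing.injective S K)).mpr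
      fun e => hv (e ▸ dvd_zero p)
    have hu'0 : algebraMap S K u' ≠ 0 := (map_ne_zero_iff _ (IsFractionRing.injective S K)).mpr
      fun e => hu' (e ▸ dvd_zero p)
    refine ⟨n, Units.mkOfMulEqOne w w' (Subtype.ext (by simp [w, w']; field_simp)), Subtype.ext ?_⟩
    rw [map_mul, map_pow] at h
    show (x : K) = algebraMap S K p ^ n * (algebraMap S K u' * (algebraMap S K v)⁻¹)
    rw [← mul_assoc, ← h, mul_assoc, mul_inv_cancel₀ hv0, mul_one]
  have hnu : ¬ IsUnit P := fun hu => by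
    obtain ⟨⟨b, u, v, hv, h⟩, hb⟩ := hu.exists_right_inv
    have hb' : algebraMap S K p * b = 1 := congrArg Subtype.val hb
    refine hv ⟨u, IsFractionRing.injective S K ?_⟩
    rw [map_mul, ← h, ← mul_assoc, hb', one_mul]
  refine ⟨P, ⟨hnu, fun {a b} hab => ?_⟩, fun {x} hx => ?_⟩
  · have hP0 : P ≠ 0 := fun h => hP (congrArg Subtype.val h)
    obtain ⟨i, wa, rfl⟩ := key a fun h => hP0 (by rw [hab, h, zero_mul])
    obtain ⟨j, wb, rfl⟩ := key b fun h => hP0 (by rw [hab, h, mul_zero])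
    rcases Nat.eq_zero_or_pos i with rfl | hi
    · exact Or.inl (by simp)
    rcases Nat.eq_zero_or_pos j with rfl | hj
    · exact Or.inr (by simp)
    refine absurd (IsUnit.of_mul_eq_one (P ^ (i + j - 2) * (wa * wb :)) ?_) hnu
    refine mul_left_cancel₀ hP0 ?_
    rw [mul_one]
    conv_rhs => rw [hab]
    rw [Units.val_mul, show i = i - 1 + 1 by omega, show j = j - 1 + 1 by omega,
      show i - 1 + 1 + (j - 1 + 1) - 2 = (i - 1) + (j - 1) by omega, pow_succ, pow_succ, pow_add]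
    ring
  · obtain ⟨n, w, rfl⟩ := key x hx
    exact ⟨n, w, rfl⟩

omit p hp in
/-- If at every prime `f` is an `m`-th power times a quotient prime to it, then `a ^ m * f` is
a unit for some `a`. -/
theorem exists_pow_mul_eq_unit {m : ℕ} (hm : m ≠ 0) {f : K} (hf : f ≠ 0)
    (h : ∀ p : S, Prime p → ∃ (a : K) (u v : S), ¬ p ∣ u ∧ ¬ p ∣ v ∧
      f * algebraMap S K v = a ^ m * algebraMap S K u) :
    ∃ (a : K) (u : S), a ≠ 0 ∧ IsUnit u ∧ a ^ m * f = algebraMap S K u := by
  obtain ⟨x, z, hz, rfl⟩ := IsFractionRing.div_surjective S f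
  have hinj := IsFractionRing.injective S K
  have hz0 : z ≠ 0 := nonZeroDivisors.ne_zero hz
  have hzK : algebraMap S K z ≠ 0 := (map_ne_zero_iff _ hinj).mpr hz0
  have hx0 : x ≠ 0 := fun e => hf (by simp [e])
  have hprod : x * z ^ (m - 1) ≠ 0 := mul_ne_zero hx0 (pow_ne_zero _ hz0)
  obtain ⟨w, z', hw, hfree⟩ := exists_pow_mul_powFree hm hprod
  have hw0 : w ≠ 0 := fun e => hprod (by simp [hw, e, hm])
  have hwK : algebraMap S K w ≠ 0 := (map_ne_zero_iff _ hinj).mpr hw0
  have hz'0 : z' ≠ 0 := fun e => hprod (by simp [hw, e])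
  have hfe : algebraMap S K x / algebraMap S K z * algebraMap S K z ^ m =
      algebraMap S K w ^ m * algebraMap S K z' := by
    obtain ⟨k, rfl⟩ := Nat.exists_eq_succ_of_ne_zero hm
    rw [Nat.succ_sub_one] at hw
    rw [← map_pow _ w, ← map_mul, ← hw, map_mul, map_pow, pow_succ]
    field_simp
  have hunit : IsUnit z' := by
    by_contra hnu
    obtain ⟨p, hpi, hpz⟩ := WfDvdMonoid.exists_irreducible_factor hnu hz'0
    have hp : Prime p := hpi.prime
    obtain ⟨a, u, v, hu, hv, hav⟩ := h p hp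
    obtain ⟨e, y, hy, rfl⟩ := WfDvdMonoid.max_power_factor hz'0 hpi
    obtain ⟨i, w1, hw1, rfl⟩ := WfDvdMonoid.max_power_factor hw0 hpi
    obtain ⟨j, z1, hz1, rfl⟩ := WfDvdMonoid.max_power_factor hz0 hpi
    have ha : a ≠ 0 := by
      rintro rfl
      rw [zero_pow hm, zero_mul, mul_eq_zero] at hav
      exact hav.elim hf fun e => hv (hinj (e.trans (map_zero _).symm) ▸ dvd_zero p)
    obtain ⟨n, c, d, hc, hd, hcd⟩ := exists_zpow_prime (K := K) hp ha
    obtain ⟨n1, n2, rfl⟩ : ∃ n1 n2 : ℕ, n = (n1 : ℤ) - n2 :=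
      ⟨n.toNat, (-n).toNat, (Int.toNat_sub_toNat_neg n).symm⟩
    have hP : algebraMap S K p ≠ 0 := (map_ne_zero_iff _ hinj).mpr hp.ne_zero
    rw [zpow_sub₀ hP, zpow_natCast, zpow_natCast] at hcd
    have hcd' : a * algebraMap S K (p ^ n2 * d) = algebraMap S K (p ^ n1 * c) := by
      rw [map_mul, map_mul, map_pow, map_pow, mul_left_comm, hcd]; field_simp
    have key : (p ^ i * w1) ^ m * (p ^ e * y) * v * (p ^ n2 * d) ^ m =
        (p ^ j * z1) ^ m * u * (p ^ n1 * c) ^ m := by
      apply hinj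
      rw [map_mul _ _ ((p ^ n2 * d) ^ m), map_mul _ _ v, map_mul _ _ (p ^ e * y), map_pow,
        ← hfe, map_mul _ _ ((p ^ n1 * c) ^ m), map_mul _ _ u, map_pow, map_pow, map_pow, ← hcd']
      linear_combination (algebraMap S K (p ^ j * z1) ^ m * algebraMap S K (p ^ n2 * d) ^ m) * hav
    have hnd : ∀ r s : S, ¬ p ∣ r → ¬ p ∣ s → ¬ p ∣ r * s := fun r s hr hs hd =>
      (hp.dvd_or_dvd hd).elim hr hs
    have hpw : ∀ r : S, ¬ p ∣ r → ¬ p ∣ r ^ m := fun r hr hd => hr (hp.dvd_of_dvd_pow hd)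
    have := pow_exp_unique hp (a := i * m + e + n2 * m) (b := j * m + n1 * m)
      (x := w1 ^ m * y * v * d ^ m) (y := z1 ^ m * u * c ^ m)
      (hnd _ _ (hnd _ _ (hnd _ _ (hpw _ hw1) hy) hv) (hpw _ hd))
      (hnd _ _ (hnd _ _ (hpw _ hz1) hu) (hpw _ hc))
      (by simp only [mul_pow, ← pow_mul] at key; simp only [pow_add]; linear_combination key)
    have he : 0 < e := Nat.pos_of_ne_zero fun e0 => hy (by simpa [e0] using hpz)
    have hme : m ≤ e := by
      have hdm : m ∣ e := by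
        have h3 : m ∣ i * m + n2 * m + e := ⟨j + n1, by rw [mul_comm m, add_mul]; omega⟩
        exact (Nat.dvd_add_right ⟨i + n2, by rw [mul_comm m, add_mul]⟩).mp h3
      exact Nat.le_of_dvd he hdm
    exact hp.not_isUnit (hfree p (dvd_mul_of_dvd_left (pow_dvd_pow p hme) y))
  refine ⟨algebraMap S K z / algebraMap S K w, z', div_ne_zero hzK hwK, hunit, ?_⟩
  rw [div_pow, div_mul_eq_mul_div, div_eq_iff (pow_ne_zero _ hwK), mul_comm, hfe, mul_comm]

end Fermat.Agent.Carayol
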