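/-
Normalisation of the function of a torsion class and its roots on the three branches.
-/
import Fermat.Agent.Carayol.ModelValue

set_option autoImplicit false
set_option linter.unusedSectionVars false

noncomputable section

namespace Fermat.Agent.Carayol

variable {W F : Type} [CommRing W] [IsDomain W] [IsDiscreteValuationRing W] [Field F]
  [Algebra W F]

theorem HorizDvd.pow {m : ℕ} {f : F} (h : HorizDvd W m f) (n : ℕ) : HorizDvd W m (f ^ n) := by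
  intro O hO hc
  obtain ⟨a, u, hu, hu', rfl⟩ := h O hO hc
  exact ⟨a ^ n, u ^ n, pow_mem hu n, by rw [← inv_pow]; exact pow_mem hu' n, by
    rw [mul_pow, ← pow_mul, ← pow_mul, mul_comm m]⟩

theorem HorizDvd.adjust {m : ℕ} {f : F} (h : HorizDvd W m f) {x z : W} (hx : x ≠ 0) (hz : z ≠ 0)
    (H : F) : HorizDvd W m (f * (algebraMap W F x / algebraMap W F z) * H ^ m) := by
  intro O hO hc
  obtain ⟨a, u, hu, hu', rfl⟩ := h O hO hc
  obtain ⟨hx1, hx2⟩ := hc x hx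
  obtain ⟨hz1, hz2⟩ := hc z hz
  refine ⟨a * H, u * (algebraMap W F x / algebraMap W F z),
    mul_mem hu (by rw [div_eq_mul_inv]; exact mul_mem hx1 hz2), ?_, by rw [mul_pow]; ring⟩
  rw [mul_inv, inv_div, div_eq_mul_inv]
  exact mul_mem hu' (mul_mem hz1 hx2)

namespace Model

variable {k C : Type} [Field k] [Field C] [Algebra k C] (M : Model W F k C)

/-- The exponent killed on the way. -/
def expo : ℕ := M.q ^ 2 - 1

theorem expo_pos : 0 < M.expo :=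
  Nat.sub_pos_of_lt (by have := M.hq.two_le; nlinarith)

theorem succ_dvd_expo : M.q + 1 ∣ M.expo := ⟨M.q - 1, by
  rw [expo, show (1 : ℕ) = 1 ^ 2 by norm_num, Nat.sq_sub_sq]; norm_num⟩

theorem pred_dvd_expo : M.q - 1 ∣ M.expo := ⟨M.q + 1, by
  rw [expo, show (1 : ℕ) = 1 ^ 2 by norm_num, Nat.sq_sub_sq]; ring⟩

theorem NormPow.pow {N : F →* F} {m : ℕ} {f : F} (h : NormPow (W := W) N m f) (n : ℕ) :
    NormPow (W := W) N m (f ^ n) := by
  obtain ⟨a, b, G, ha, hb, hG, h⟩ := h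
  refine ⟨a ^ n, b ^ n, G ^ n, pow_ne_zero _ ha, pow_ne_zero _ hb, pow_ne_zero _ hG, ?_⟩
  rw [map_pow, map_pow, map_pow, ← mul_pow, h, mul_pow, ← pow_mul, ← pow_mul, mul_comm m]

include M in
theorem NormPow.adjust {N : F →* F} {m : ℕ} {f : F} (h : NormPow (W := W) N m f)
    (hN : ∀ w : W, N (algebraMap W F w) = algebraMap W F w ^ M.q)
    (hN0 : ∀ a, a ≠ 0 → N a ≠ 0) {x z : W} (hx : x ≠ 0) (hz : z ≠ 0) {H : F} (hH : H ≠ 0) :
    NormPow (W := W) N m (f * (algebraMap W F x / algebraMap W F z) * H ^ m) := by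
  obtain ⟨a, b, G, ha, hb, hG, h⟩ := h
  have hz' := M.const_ne_zero hz
  have hdiv : N (algebraMap W F x / algebraMap W F z) =
      algebraMap W F x ^ M.q / algebraMap W F z ^ M.q := by
    rw [eq_div_iff (pow_ne_zero _ hz'), ← hN z, ← map_mul, div_mul_cancel₀ _ hz', hN]
  refine ⟨a * x ^ M.q, b * z ^ M.q, G * N H, mul_ne_zero ha (pow_ne_zero _ hx),
    mul_ne_zero hb (pow_ne_zero _ hz), mul_ne_zero hG (hN0 H hH), ?_⟩
  rw [map_mul N, map_mul N, map_pow N, hdiv, map_mul, map_mul, map_pow, map_pow, mul_pow]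
  field_simp
  linear_combination (algebraMap W F x ^ M.q * N H ^ m) * h

theorem natCast_mem_iff_dvd {m : ℕ} (hm : IsUnit (m : W)) : Nat.Coprime M.q m :=
  (M.hq.coprime_iff_not_dvd).mpr fun ⟨d, hd⟩ => M.irreducible_q.not_isUnit
    (isUnit_of_mul_isUnit_left (y := (d : W)) (by rwa [← Nat.cast_mul, ← hd]))

/-- After a bounded power, multiplication by a constant and by an `m`-th power makes `f` a unit on
the three branches. -/
theorem exists_normalized {m : ℕ} {f : F} (hf : f ≠ 0) (hor : HorizDvd W m f)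
    (hα : NormPow (W := W) M.normα m f) (hβ : NormPow (W := W) M.normβ m f) :
    ∃ (a b : W) (H g : F), a ≠ 0 ∧ b ≠ 0 ∧ H ≠ 0 ∧ g ≠ 0 ∧
      algebraMap W F b * f ^ M.expo = algebraMap W F a * H ^ m * g ∧
      (∀ i, M.ord i g = 0) ∧ HorizDvd W m g ∧
      NormPow (W := W) M.normα m g ∧ NormPow (W := W) M.normβ m g := by
  have hq := M.hq.two_le
  obtain ⟨a, b, G, ha, hb, hG, hA⟩ := id hα
  obtain ⟨a', b', G', ha', hb', hG', hB⟩ := id hβ
  obtain ⟨i, u, hu, -, hao⟩ := M.exists_const_eq ha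
  obtain ⟨j, u', hu', -, hbo⟩ := M.exists_const_eq hb
  obtain ⟨i', -, -, -, ha'o⟩ := M.exists_const_eq ha'
  obtain ⟨j', -, -, -, hb'o⟩ := M.exists_const_eq hb'
  have key : ∀ (l : Fin 3) {a b : W} {G N : F}, a ≠ 0 → b ≠ 0 → G ≠ 0 → N ≠ 0 →
      algebraMap W F b * N = algebraMap W F a * G ^ m →
      M.ord l (algebraMap W F b) + M.ord l N = M.ord l (algebraMap W F a) + m * M.ord l G :=
    fun l a b G N ha hb hG hN h => by
      rw [← M.ord_mul l _ _ (M.const_ne_zero hb) hN, h,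
        M.ord_mul l _ _ (M.const_ne_zero ha) (pow_ne_zero _ hG), M.ord_pow hG]
  obtain ⟨hq0, hq1, hq2⟩ := M.ord_q
  have e0 := key 0 ha hb hG (M.normα_ne_zero f hf) hA
  have e2 := key 2 ha hb hG (M.normα_ne_zero f hf) hA
  have e0' := key 0 ha' hb' hG' (M.normβ_ne_zero f hf) hB
  have e2' := key 2 ha' hb' hG' (M.normβ_ne_zero f hf) hB
  rw [hao, hbo, hq0, (M.ord_normα f hf).1] at e0
  rw [hao, hbo, hq2, (M.ord_normα f hf).2] at e2
  rw [ha'o, hb'o, hq0, (M.ord_normβ f hf).2] at e0'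
  rw [ha'o, hb'o, hq2, (M.ord_normβ f hf).1] at e2'
  obtain ⟨t, ht⟩ := M.succ_dvd_expo
  set v0 := M.ord 0 f
  set v1 := M.ord 1 f
  set v2 := M.ord 2 f
  have hd2 : ((M.q : ℤ) + 1) * (v2 - v0) =
      (m : ℤ) * (M.ord 2 G - M.ord 0 G + M.ord 2 G' - M.ord 0 G') := by
    linear_combination e2 - e0 + e2' - e0'
  have hd1 : v1 + v0 - (M.q : ℤ) * v2 = (m : ℤ) * (M.ord 0 G - M.ord 2 G) := by
    linear_combination e0 - e2
  have htz : (M.expo : ℤ) = ((M.q : ℤ) + 1) * t := by exact_mod_cast ht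
  set n : ℤ := (M.expo : ℤ) * v0 with hn
  set k2 : ℤ := t * (M.ord 2 G - M.ord 0 G + M.ord 2 G' - M.ord 0 G') with hk2
  set k1 : ℤ := (M.expo : ℤ) * (M.ord 0 G - M.ord 2 G) + (M.q : ℤ) * k2 with hk1
  have h2 : (M.expo : ℤ) * v2 - n = m * k2 := by
    rw [hn, hk2, htz]; linear_combination (t : ℤ) * hd2
  have h1 : (M.expo : ℤ) * v1 - n * ((M.q : ℤ) - 1) = m * k1 := by
    rw [hk1, hn]; linear_combination (M.expo : ℤ) * hd1 + (M.q : ℤ) * h2 + (M.q : ℤ) * hn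
  obtain ⟨H, hH, hHo⟩ := M.exists_ord_eq_int ![0, -k1, -k2]
  have hqne : (M.q : W) ≠ 0 := M.irreducible_q.ne_zero
  set x : W := (M.q : W) ^ (-n).toNat
  set z : W := (M.q : W) ^ n.toNat
  have hx : x ≠ 0 := pow_ne_zero _ hqne
  have hz : z ≠ 0 := pow_ne_zero _ hqne
  have hquot : algebraMap W F x / algebraMap W F z ≠ 0 :=
    div_ne_zero (M.const_ne_zero hx) (M.const_ne_zero hz)
  set g := f ^ M.expo * (algebraMap W F x / algebraMap W F z) * H ^ m with hg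
  have hg0 : g ≠ 0 := mul_ne_zero (mul_ne_zero (pow_ne_zero _ hf) hquot) (pow_ne_zero _ hH)
  have hgo : ∀ l, M.ord l g =
      (M.expo : ℤ) * M.ord l f - n * M.ord l (algebraMap W F (M.q : W)) + m * M.ord l H := by
    intro l
    have hq0' := M.q_ne_zero
    rw [hg, M.ord_mul l _ _ (mul_ne_zero (pow_ne_zero _ hf) hquot) (pow_ne_zero _ hH),
      M.ord_mul l _ _ (pow_ne_zero _ hf) hquot, M.ord_pow hf, M.ord_pow hH,
      M.ord_div (M.const_ne_zero hx) (M.const_ne_zero hz)]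
    simp only [x, z, map_pow, M.ord_pow hq0']
    have := Int.toNat_sub_toNat_neg n
    linear_combination (-M.ord l (algebraMap W F (M.q : W))) * this
  refine ⟨z, x, H⁻¹, g, hz, hx, inv_ne_zero hH, hg0, ?_, ?_, (hor.pow _).adjust hx hz H,
    NormPow.adjust M (hα.pow _) M.normα_const M.normα_ne_zero hx hz hH,
    NormPow.adjust M (hβ.pow _) M.normβ_const M.normβ_ne_zero hx hz hH⟩
  · have := M.const_ne_zero hz
    rw [hg, inv_pow]
    field_simp
  · intro l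
    rw [hgo, hHo]
    fin_cases l
    · show (M.expo : ℤ) * v0 - n * M.ord 0 (algebraMap W F (M.q : W)) + m * 0 = 0
      rw [hq0, hn]; ring
    · show (M.expo : ℤ) * v1 - n * M.ord 1 (algebraMap W F (M.q : W)) + m * -k1 = 0
      rw [hq1]; linear_combination h1
    · show (M.expo : ℤ) * v2 - n * M.ord 2 (algebraMap W F (M.q : W)) + m * -k2 = 0
      rw [hq2]; linear_combination h2

/-- The norm relation with unit constants and a unit `G`. -/
theorem exists_normPow_unit (N : F →* F) {m : ℕ} {g : F} (h : NormPow (W := W) N m g)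
    (hN : N g ≠ 0) (hN0 : M.ord 0 (N g) = 0) (hN2 : M.ord 2 (N g) = 0) (hm : m ≠ 0) :
    ∃ (a b : W) (G : F), IsUnit a ∧ IsUnit b ∧ G ≠ 0 ∧ M.ord 0 G = 0 ∧ M.ord 2 G = 0 ∧
      algebraMap W F b * N g = algebraMap W F a * G ^ m := by
  obtain ⟨a, b, G, ha, hb, hG, h⟩ := h
  obtain ⟨i, a', ha', rfl, hao⟩ := M.exists_const_eq ha
  obtain ⟨j, b', hb', rfl, hbo⟩ := M.exists_const_eq hb
  have key : ∀ l, M.ord l (N g) = 0 → M.ord l (algebraMap W F (M.q : W)) = 1 →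
      (j : ℤ) = i + m * M.ord l G := by
    intro l hl hql
    have := congrArg (M.ord l) h
    rw [M.ord_mul l _ _ (M.const_ne_zero hb) hN, M.ord_mul l _ _ (M.const_ne_zero ha)
      (pow_ne_zero _ hG), M.ord_pow hG, hao, hbo, hl, hql] at this
    linarith
  have k0 := key 0 hN0 M.ord_q.1
  have k2 := key 2 hN2 M.ord_q.2.2
  have h02 : M.ord 2 G = M.ord 0 G :=
    mul_left_cancel₀ (Nat.cast_ne_zero.mpr hm : (m : ℤ) ≠ 0) (by linarith)
  have hQ := M.q_ne_zero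
  set Q := algebraMap W F (M.q : W)
  refine ⟨a', b', G * Q ^ (-M.ord 0 G), ha', hb', mul_ne_zero hG (zpow_ne_zero _ hQ), ?_, ?_, ?_⟩
  · rw [M.ord_mul 0 _ _ hG (zpow_ne_zero _ hQ), M.ord_zpow hQ, M.ord_q.1]; ring
  · rw [M.ord_mul 2 _ _ hG (zpow_ne_zero _ hQ), M.ord_zpow hQ, M.ord_q.2.2, h02]; ring
  · rw [map_mul, map_mul, map_pow, map_pow] at h
    refine mul_left_cancel₀ (pow_ne_zero j hQ) ?_
    rw [← mul_assoc, h, mul_pow, ← zpow_natCast Q j, ← zpow_natCast Q i,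
      ← zpow_natCast (Q ^ (-M.ord 0 G)) m, ← zpow_mul]
    rw [show (j : ℤ) = i + m * M.ord 0 G from k0, zpow_add₀ hQ,
      show (-M.ord 0 G) * (m : ℤ) = -((m : ℤ) * M.ord 0 G) by ring, zpow_neg]
    field_simp

include M in
/-- An `m`-th root of a constant is a constant. -/
theorem eq_const_of_pow_eq {m : ℕ} (hm : 0 < m) {x : C} {κ : W} (hκ : IsUnit κ)
    (h : x ^ m = algebraMap k C (M.ρ κ)) : ∃ e : W, IsUnit e ∧ x = algebraMap k C (M.ρ e) := by
  classical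
  haveI := M.algClosed
  let P : Polynomial k := Polynomial.X ^ m - Polynomial.C (M.ρ κ)
  have hP : P ≠ 0 := (Polynomial.monic_X_pow_sub_C _ hm.ne').ne_zero
  have hroot : x ∈ (P.map (algebraMap k C)).roots := by
    rw [Polynomial.mem_roots (Polynomial.map_ne_zero hP)]
    simp [P, h]
  rw [Polynomial.Splits.roots_map (IsAlgClosed.splits P), Multiset.mem_map] at hroot
  obtain ⟨r, hr, rfl⟩ := hroot
  obtain ⟨e, rfl⟩ := M.ρ_surjective r
  refine ⟨e, ?_, rfl⟩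
  by_contra he
  have he0 : M.ρ e = 0 := by
    obtain ⟨d, rfl⟩ : (M.q : W) ∣ e := by
      rw [← Ideal.mem_span_singleton, ← M.irreducible_q.maximalIdeal_eq]
      exact he
    have : M.ρ (M.q : W) = 0 := by
      by_contra hne
      have h1 := M.ord_q.1
      have hmem : (algebraMap W F (M.q : W)) ∈ M.Br.V 0 := M.const_mem 0 _
      have := (M.ord_eq_zero_of_red hmem (by
        rw [M.red_const]; exact (map_ne_zero _).mpr hne)).2
      omega
    rw [map_mul, this, zero_mul]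
  rw [he0, map_zero, zero_pow hm.ne'] at h
  exact (hκ.map M.ρ).ne_zero ((algebraMap k C).injective (h.symm.trans (map_zero _).symm))

/-- The roots on the three branches and their relations with the norms. -/
structure Rooted (m : ℕ) (g : F) where
  ord_eq : ∀ i, M.ord i g = 0
  ne_zero : g ≠ 0
  horiz : HorizDvd W m g
  s : Fin 3 → C
  hs : ∀ i, M.red i g * s i ^ m = 1
  aα : W
  bα : W
  Gα : F
  aβ : W
  bβ : W
  Gβ : F
  aα_unit : IsUnit aα
  aβ_unit : IsUnit aβ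
  Gα_ne_zero : Gα ≠ 0
  Gβ_ne_zero : Gβ ≠ 0
  ord_Gα : M.ord 0 Gα = 0 ∧ M.ord 2 Gα = 0
  ord_Gβ : M.ord 0 Gβ = 0 ∧ M.ord 2 Gβ = 0
  hα : algebraMap W F bα * M.normα g = algebraMap W F aα * Gα ^ m
  hβ : algebraMap W F bβ * M.normβ g = algebraMap W F aβ * Gβ ^ m
  e : Fin 4 → Wˣ
  eq0 : s 0 * s 1 ^ (M.q - 1) * M.red 0 Gα = algebraMap k C (M.ρ (e 0 : W))
  eq1 : s 2 ^ M.q * M.red 2 Gα = algebraMap k C (M.ρ (e 1 : W))
  eq2 : s 2 * s 1 ^ (M.q - 1) * M.red 2 Gβ = algebraMap k C (M.ρ (e 2 : W))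
  eq3 : s 0 ^ M.q * M.red 0 Gβ = algebraMap k C (M.ρ (e 3 : W))

theorem exists_root_of_pow {m n : ℕ} (h : Nat.Coprime n m) {x : C} (hx : x ≠ 0)
    (hp : ∃ t : C, t ^ m = x ^ n) : ∃ t : C, t ^ m = x := by
  obtain ⟨t, ht⟩ := hp
  have hb : (1 : ℤ) = n * Nat.gcdA n m + m * Nat.gcdB n m := by
    rw [← Nat.gcd_eq_gcd_ab, h.gcd_eq_one]; rfl
  refine ⟨t ^ Nat.gcdA n m * x ^ Nat.gcdB n m, ?_⟩
  rw [← zpow_natCast _ m, mul_zpow, ← zpow_mul, ← zpow_mul, mul_comm _ (m : ℤ), zpow_mul,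
    zpow_natCast, ht, ← zpow_natCast, ← zpow_mul, ← zpow_add₀ hx, mul_comm _ (m : ℤ), ← hb,
    zpow_one]

/-- After one more bounded power, the residues have roots. -/
theorem exists_rooted {m : ℕ} (hm : IsUnit (m : W)) (hm0 : 0 < m) {g : F} (hg : g ≠ 0)
    (hord : ∀ i, M.ord i g = 0) (hor : HorizDvd W m g)
    (hα : NormPow (W := W) M.normα m g) (hβ : NormPow (W := W) M.normβ m g) :
    Nonempty (M.Rooted m (g ^ M.expo)) := by
  classical
  haveI := M.algClosed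
  have hV : ∀ i, g ∈ M.Br.V i := fun i => M.mem_of_ord_nonneg (hord i).ge
  have hu : ∀ i, M.red i g ≠ 0 := fun i => M.red_ne_zero_of_ord hg (hord i)
  have hordα : M.ord 0 (M.normα g) = 0 ∧ M.ord 2 (M.normα g) = 0 := by
    rw [(M.ord_normα g hg).1, (M.ord_normα g hg).2, hord, hord, hord]; simp
  have hordβ : M.ord 0 (M.normβ g) = 0 ∧ M.ord 2 (M.normβ g) = 0 := by
    rw [(M.ord_normβ g hg).1, (M.ord_normβ g hg).2, hord, hord, hord]; simp
  obtain ⟨a, b, G, ha, hb, hG, hG0, hG2, hA⟩ :=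
    M.exists_normPow_unit M.normα hα (M.normα_ne_zero g hg) hordα.1 hordα.2 hm0.ne'
  obtain ⟨a', b', G', ha', hb', hG', hG0', hG2', hB⟩ :=
    M.exists_normPow_unit M.normβ hβ (M.normβ_ne_zero g hg) hordβ.1 hordβ.2 hm0.ne'
  have hred : ∀ (N : F →* F) (l : Fin 3) {a b : W} {G : F}, M.ord l (N g) = 0 → N g ≠ 0 →
      M.ord l G = 0 → algebraMap W F b * N g = algebraMap W F a * G ^ m →
      algebraMap k C (M.ρ b) * M.red l (N g) = algebraMap k C (M.ρ a) * M.red l G ^ m := by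
    intro N l a b G hl hne hGl h
    have := congrArg (M.red l) h
    rwa [M.red_mul (M.const_mem l b) (M.mem_of_ord_nonneg hl.ge),
      M.red_mul (M.const_mem l a) (pow_mem (M.mem_of_ord_nonneg hGl.ge) m), M.red_const,
      M.red_const, M.red_pow (M.mem_of_ord_nonneg hGl.ge)] at this
  have r0 := hred M.normα 0 hordα.1 (M.normα_ne_zero g hg) hG0 hA
  have r2 := hred M.normα 2 hordα.2 (M.normα_ne_zero g hg) hG2 hA
  have r2' := hred M.normβ 2 hordβ.2 (M.normβ_ne_zero g hg) hG2' hB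
  have r0' := hred M.normβ 0 hordβ.1 (M.normβ_ne_zero g hg) hG0' hB
  have hNV : ∀ {N : F} {l : Fin 3}, M.ord l N = 0 → N ∈ M.Br.V l :=
    fun h => M.mem_of_ord_nonneg h.ge
  rw [red_of_mem M (hNV hordα.1), M.res_normα₀ g (hV 0) (hV 1), ← red_of_mem M (hV 0),
    ← red_of_mem M (hV 1)] at r0
  rw [red_of_mem M (hNV hordα.2), M.res_normα₂ g (hV 2), ← red_of_mem M (hV 2)] at r2
  rw [red_of_mem M (hNV hordβ.2), M.res_normβ₂ g (hV 2) (hV 1), ← red_of_mem M (hV 2),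
    ← red_of_mem M (hV 1)] at r2'
  rw [red_of_mem M (hNV hordβ.1), M.res_normβ₀ g (hV 0), ← red_of_mem M (hV 0)] at r0'
  have hcop := M.natCast_mem_iff_dvd hm
  have hρ : ∀ {w : W}, IsUnit w → algebraMap k C (M.ρ w) ≠ 0 := fun h =>
    (map_ne_zero _).mpr (h.map M.ρ).ne_zero
  obtain ⟨ca, hca⟩ : ∃ t : C, t ^ m = algebraMap k C (M.ρ a) / algebraMap k C (M.ρ b) := by
    obtain ⟨r, hr⟩ := IsAlgClosed.exists_pow_nat_eq (M.ρ a / M.ρ b) hm0
    exact ⟨algebraMap k C r, by rw [← map_pow, hr, map_div₀]⟩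
  obtain ⟨ca', hca'⟩ : ∃ t : C, t ^ m = algebraMap k C (M.ρ a') / algebraMap k C (M.ρ b') := by
    obtain ⟨r, hr⟩ := IsAlgClosed.exists_pow_nat_eq (M.ρ a' / M.ρ b') hm0
    exact ⟨algebraMap k C r, by rw [← map_pow, hr, map_div₀]⟩
  have hbne := hρ hb
  have hbne' := hρ hb'
  obtain ⟨t0, ht0⟩ := exists_root_of_pow hcop (hu 0) ⟨ca' * M.red 0 G', by
    rw [mul_pow, hca', div_mul_eq_mul_div, ← r0', mul_div_cancel_left₀ _ hbne']⟩
  obtain ⟨t2, ht2⟩ := exists_root_of_pow hcop (hu 2) ⟨ca * M.red 2 G, by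
    rw [mul_pow, hca, div_mul_eq_mul_div, ← r2, mul_div_cancel_left₀ _ hbne]⟩
  have ht1 : (ca * M.red 0 G / t0) ^ m = M.red 1 g ^ (M.q - 1) := by
    rw [div_pow, mul_pow, hca, ht0, div_mul_eq_mul_div, ← r0, mul_div_cancel_left₀ _ hbne,
      mul_div_cancel_left₀ _ (hu 0)]
  obtain ⟨d, hd⟩ := M.pred_dvd_expo
  let t : Fin 3 → C := ![t0 ^ M.expo, (ca * M.red 0 G / t0) ^ d, t2 ^ M.expo]
  have ht : ∀ i, t i ^ m = M.red i (g ^ M.expo) := by
    intro i
    rw [M.red_pow (hV i)]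
    fin_cases i
    · show (t0 ^ M.expo) ^ m = M.red 0 g ^ M.expo
      rw [← pow_mul, mul_comm, pow_mul, ht0]
    · show ((ca * M.red 0 G / t0) ^ d) ^ m = M.red 1 g ^ M.expo
      rw [← pow_mul, mul_comm d m, pow_mul, ht1, ← pow_mul, ← hd]
    · show (t2 ^ M.expo) ^ m = M.red 2 g ^ M.expo
      rw [← pow_mul, mul_comm, pow_mul, ht2]
  have hru : ∀ i, M.red i (g ^ M.expo) ≠ 0 := fun i => by
    rw [M.red_pow (hV i)]; exact pow_ne_zero _ (hu i)
  let s : Fin 3 → C := fun i => (t i)⁻¹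
  have hs : ∀ i, M.red i (g ^ M.expo) * s i ^ m = 1 := fun i => by
    rw [inv_pow, ht i, mul_inv_cancel₀ (hru i)]
  have hsm : ∀ i, s i ^ m = (M.red i g ^ M.expo)⁻¹ := fun i => by
    rw [inv_pow, ht i, M.red_pow (hV i)]
  have hconst : ∀ {x : C} {a b : W} (u G : C), IsUnit a → IsUnit b → u ≠ 0 →
      x ^ m = (u ^ M.expo)⁻¹ →
      algebraMap k C (M.ρ b) * u = algebraMap k C (M.ρ a) * G ^ m →
      ∃ e : Wˣ, x * G ^ M.expo = algebraMap k C (M.ρ (e : W)) := by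
    intro x a b u G ha hb hu hx h
    obtain ⟨a1, ha1⟩ := ha.exists_right_inv
    have h1 : (x * G ^ M.expo) ^ m = algebraMap k C (M.ρ ((b * a1) ^ M.expo)) := by
      rw [mul_pow, hx, ← pow_mul, mul_comm M.expo, pow_mul, map_pow, map_pow]
      have hG : G ^ m = algebraMap k C (M.ρ (b * a1)) * u := by
        rw [map_mul, map_mul, mul_right_comm, h, mul_right_comm, ← map_mul, ← map_mul, ha1,
          map_one, map_one, one_mul]
      rw [hG, mul_pow, mul_comm, mul_assoc, mul_inv_cancel₀ (pow_ne_zero _ hu), mul_one]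
    obtain ⟨e, he, hxe⟩ := M.eq_const_of_pow_eq hm0
      ((hb.mul (IsUnit.of_mul_eq_one_right a ha1)).pow _) h1
    exact ⟨he.unit, hxe⟩
  obtain ⟨e0, he0⟩ := hconst (x := s 0 * s 1 ^ (M.q - 1))
    (M.red 0 g * M.red 1 g ^ (M.q - 1)) (M.red 0 G) ha hb
    (mul_ne_zero (hu 0) (pow_ne_zero _ (hu 1))) (by
      rw [mul_pow, ← pow_mul, mul_comm (M.q - 1), pow_mul, hsm, hsm, mul_pow, mul_inv, inv_pow,
        ← pow_mul, ← pow_mul, mul_comm M.expo]) r0
  obtain ⟨e1, he1⟩ := hconst (x := s 2 ^ M.q) (M.red 2 g ^ M.q) (M.red 2 G) ha hb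
    (pow_ne_zero _ (hu 2)) (by
      rw [← pow_mul, mul_comm M.q, pow_mul, hsm, inv_pow, ← pow_mul, ← pow_mul, mul_comm M.expo]) r2
  obtain ⟨e2, he2⟩ := hconst (x := s 2 * s 1 ^ (M.q - 1))
    (M.red 2 g * M.red 1 g ^ (M.q - 1)) (M.red 2 G') ha' hb'
    (mul_ne_zero (hu 2) (pow_ne_zero _ (hu 1))) (by
      rw [mul_pow, ← pow_mul, mul_comm (M.q - 1), pow_mul, hsm, hsm, mul_pow, mul_inv, inv_pow,
        ← pow_mul, ← pow_mul, mul_comm M.expo]) r2'
  obtain ⟨e3, he3⟩ := hconst (x := s 0 ^ M.q) (M.red 0 g ^ M.q) (M.red 0 G') ha' hb'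
    (pow_ne_zero _ (hu 0)) (by
      rw [← pow_mul, mul_comm M.q, pow_mul, hsm, inv_pow, ← pow_mul, ← pow_mul, mul_comm M.expo]) r0'
  have hpowo : ∀ {x : F} (l : Fin 3), x ≠ 0 → M.ord l x = 0 → M.ord l (x ^ M.expo) = 0 :=
    fun l hx h => by rw [M.ord_pow hx, h, mul_zero]
  refine ⟨⟨fun i => hpowo i hg (hord i), pow_ne_zero _ hg, hor.pow _, s, hs, a ^ M.expo,
    b ^ M.expo, G ^ M.expo, a' ^ M.expo, b' ^ M.expo, G' ^ M.expo, ha.pow _, ha'.pow _,
    pow_ne_zero _ hG, pow_ne_zero _ hG', ⟨hpowo 0 hG hG0, hpowo 2 hG hG2⟩,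
    ⟨hpowo 0 hG' hG0', hpowo 2 hG' hG2'⟩, ?_, ?_, ![e0, e1, e2, e3], ?_, ?_, ?_, ?_⟩⟩
  · rw [map_pow, map_pow, map_pow, ← mul_pow, hA, mul_pow, ← pow_mul, ← pow_mul, mul_comm m]
  · rw [map_pow, map_pow, map_pow, ← mul_pow, hB, mul_pow, ← pow_mul, ← pow_mul, mul_comm m]
  · rw [M.red_pow (hNV hG0)]; exact he0
  · rw [M.red_pow (hNV hG2)]; exact he1
  · rw [M.red_pow (hNV hG2')]; exact he2
  · rw [M.red_pow (hNV hG0')]; exact he3

end Model

end Fermat.Agent.Carayol
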