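/-
**Key theorem.** On a `Model`, a function with horizontal divisor divisible by `m` whose two norms to
level `q L` are constants times `m`-th powers becomes a constant times an `m`-th power after raising
it to the power `(q² - 1)³`.
-/
import Fermat.Agent.Carayol.KeyRoots

set_option autoImplicit false
set_option linter.unusedSectionVars false

noncomputable section

namespace Fermat.Agent.Carayol.Model

variable {W F k C : Type} [CommRing W] [IsDomain W] [IsDiscreteValuationRing W] [Field F]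
  [Algebra W F] [Field k] [Field C] [Algebra k C] {M : Model W F k C} {m : ℕ} {g : F}

theorem Rooted.s_ne_zero (h : M.Rooted m g) (hm : m ≠ 0) (i : Fin 3) : h.s i ≠ 0 := fun e => by
  simpa [e, hm] using h.hs i

variable (M) in
theorem eq_of_ρ_eq {c : Fin 2} {y : Ideal (M.R c)} [y.IsMaximal] {a b : W}
    (hq : M.qR c ∈ y)
    (h : Ideal.Quotient.mk y (algebraMap W (M.R c) a) = Ideal.Quotient.mk y (algebraMap W (M.R c) b)) :
    M.ρ a = M.ρ b := by
  rw [Ideal.Quotient.eq, ← map_sub] at h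
  by_contra hne
  have hu : IsUnit (a - b) := by
    by_contra hnu
    obtain ⟨d, hd⟩ : (M.q : W) ∣ a - b := by
      rw [← Ideal.mem_span_singleton, ← M.irreducible_q.maximalIdeal_eq]
      exact hnu
    have hq0 : M.ρ (M.q : W) = 0 := by
      by_contra hq0
      have h1 := (M.ord_eq_zero_of_red (M.const_mem 0 _) (by
        rw [M.red_const]; exact (map_ne_zero _).mpr hq0)).2
      have := M.ord_q.1
      omega
    exact hne (sub_eq_zero.mp (by rw [← map_sub, hd, map_mul, hq0, zero_mul]))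
  exact (Ideal.IsMaximal.ne_top inferInstance : y ≠ ⊤)
    (Ideal.eq_top_of_isUnit_mem _ h (hu.map _))

variable (M) in
/-- Data of a point: a section and the values of the candidate roots. -/
theorem exists_point_data (hm0 : 0 < m) (h : M.Rooted m g) (c : Fin 2) (y : Ideal (M.R c))
    [y.IsMaximal] (hy : M.qR c ∈ y) :
    ∃ (a : F) (u : M.R c), a ≠ 0 ∧ u ∉ y ∧ a ^ m * g = (u : F) ∧ (∀ i, a ∈ M.Br.V i) ∧
      (∀ i, (M.red i a / h.s i) ^ m = M.red i (u : F)) ∧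
      (∀ i, M.OnBranch c y i → M.ord i a = 0) ∧
      ∀ i, M.OnBranch c y i → ∃ v : M.R c ⧸ y, v ^ m = Ideal.Quotient.mk y u ∧
        M.IsVal c y i (M.red i a / h.s i) v := by
  obtain ⟨a, u, ha, hu, hau⟩ :=
    M.exists_local_unit c y hy hm0.ne' h.ne_zero h.ord_eq h.horiz
  have hu0 : (u : F) ≠ 0 := hau ▸ mul_ne_zero (pow_ne_zero _ ha) h.ne_zero
  have hord : ∀ i, M.ord i (u : F) = m * M.ord i a := fun i => by
    rw [← hau, M.ord_mul i _ _ (pow_ne_zero _ ha) h.ne_zero, M.ord_pow ha, h.ord_eq, add_zero]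
  have haV : ∀ i, a ∈ M.Br.V i := fun i => M.mem_of_ord_nonneg (by
    have h1 := (M.mem_iff i _ hu0).mp (M.mem_of_mem u.2 i)
    rw [hord] at h1
    exact (mul_nonneg_iff_of_pos_left (by exact_mod_cast hm0)).mp h1)
  have hpow : ∀ i, (M.red i a / h.s i) ^ m = M.red i (u : F) := fun i => by
    rw [div_pow, ← hau, M.red_mul (pow_mem (haV i) m) (M.mem_of_ord_nonneg (h.ord_eq i).ge),
      M.red_pow (haV i), div_eq_iff (pow_ne_zero _ (h.s_ne_zero hm0.ne' i)), mul_assoc, h.hs i,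
      mul_one]
  refine ⟨a, u, ha, hu, hau, haV, hpow, fun i hi => ?_, fun i hi => ?_⟩
  · have h1 := (M.ord_eq_zero_of_red (M.mem_of_mem u.2 i) (M.red_ne_zero_of_notMem hi hu)).2
    rw [hord] at h1
    exact (mul_eq_zero.mp h1).resolve_left (by exact_mod_cast hm0.ne')
  · obtain ⟨v, hv⟩ := M.exists_isVal hy hi hm0.ne' (hpow i)
    exact ⟨v, M.isVal_unique hi (M.isVal_pow hv m) (hpow i ▸ M.isVal_of_mem (y := y) u), hv⟩

variable (M) in
/-- The value does not depend on the branch at a supersingular point. -/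
theorem isVal_congr {c : Fin 2} {y : Ideal (M.R c)} [y.IsMaximal]
    (hcong : ∀ i j (a r : M.R c), r ∉ y → ∀ (ha : (a : F) ∈ M.Br.V i) (hr : (r : F) ∈ M.Br.V i),
        ∃ a' r' : M.R c, r' ∉ y ∧ a * r' - a' * r ∈ y ∧
          ∀ (ha' : (a' : F) ∈ M.Br.V j) (hr' : (r' : F) ∈ M.Br.V j),
            M.Br.res i ⟨a, ha⟩ * M.Br.res j ⟨r', hr'⟩ = M.Br.res j ⟨a', ha'⟩ * M.Br.res i ⟨r, hr⟩)
    (i j : Fin 3) (hi : M.OnBranch c y i) {z : C} {v : M.R c ⧸ y}
    (h : M.IsVal c y i z v) : M.IsVal c y j z v := by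
  obtain ⟨a, r, hr, hz, hv⟩ := h
  obtain ⟨a', r', hr', hy', hres⟩ := hcong i j a r hr (M.mem_of_mem a.2 i) (M.mem_of_mem r.2 i)
  have h1 := hres (M.mem_of_mem a'.2 j) (M.mem_of_mem r'.2 j)
  rw [← red_of_mem M (M.mem_of_mem a.2 i), ← red_of_mem M (M.mem_of_mem r.2 i),
    ← red_of_mem M (M.mem_of_mem a'.2 j), ← red_of_mem M (M.mem_of_mem r'.2 j), ← hz] at h1
  refine ⟨a', r', hr', mul_right_cancel₀ (M.red_ne_zero_of_notMem hi hr)
    (by linear_combination h1), ?_⟩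
  have h2 := Ideal.Quotient.eq.mpr hy'
  rw [map_mul, map_mul, ← hv] at h2
  refine mul_right_cancel₀ (b := Ideal.Quotient.mk y r) ?_ (by linear_combination h2)
  rwa [Ne, Ideal.Quotient.eq_zero_iff_mem]

/-- The relation given by one of the two norms at a point on the three branches, `o` the branch
meeting the middle one and `p` the other. -/
theorem norm_relation (hm0 : 0 < m) {N : F →* F} (hN0 : ∀ a, a ≠ 0 → N a ≠ 0) (o p : Fin 3)
    {c : Fin 2} {y : Ideal (M.R c)} [y.IsMaximal]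
    (hNmem : ∀ a ∈ M.R c, ∃ r : M.R c, r ∉ y ∧ (r : F) * N a ∈ M.R c)
    (hord : ∀ a, a ≠ 0 → M.ord o (N a) = M.ord o a + M.ord 1 a ∧ M.ord p (N a) = M.q * M.ord p a)
    (hreso : ∀ a (h0 : a ∈ M.Br.V o) (h1 : a ∈ M.Br.V 1) (hN : N a ∈ M.Br.V o),
      M.Br.res o ⟨N a, hN⟩ = M.Br.res o ⟨a, h0⟩ * M.Br.res 1 ⟨a, h1⟩ ^ (M.q - 1))
    (hresp : ∀ a (h2 : a ∈ M.Br.V p) (hN : N a ∈ M.Br.V p),
      M.Br.res p ⟨N a, hN⟩ = M.Br.res p ⟨a, h2⟩ ^ M.q)
    (hon : ∀ i, M.OnBranch c y i)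
    (hcong : ∀ i j (z : C) (v : M.R c ⧸ y), M.IsVal c y i z v → M.IsVal c y j z v)
    {a : F} (ha : a ≠ 0) (haV : ∀ i, a ∈ M.Br.V i) (hao : ∀ i, M.ord i a = 0)
    {u : M.R c} (hau : a ^ m * g = (u : F))
    {aN bN : W} (haN : IsUnit aN) {G : F} (hG : G ≠ 0) (hGo : M.ord o G = 0) (hGp : M.ord p G = 0)
    (hA : algebraMap W F bN * N g = algebraMap W F aN * G ^ m)
    {s : Fin 3 → C} (hs : ∀ i, s i ≠ 0) {eo ep : W}
    (heo : s o * s 1 ^ (M.q - 1) * M.red o G = algebraMap k C (M.ρ eo))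
    (hep : s p ^ M.q * M.red p G = algebraMap k C (M.ρ ep))
    {Vo V1 Vp : M.R c ⧸ y} (hVo : M.IsVal c y o (M.red o a / s o) Vo)
    (hV1 : M.IsVal c y 1 (M.red 1 a / s 1) V1) (hVp : M.IsVal c y p (M.red p a / s p) Vp) :
    Vo * V1 ^ (M.q - 1) * Ideal.Quotient.mk y (algebraMap W (M.R c) eo) =
      Vp ^ M.q * Ideal.Quotient.mk y (algebraMap W (M.R c) ep) := by
  obtain ⟨a1, ha1⟩ := haN.exists_right_inv
  obtain ⟨r, hr, hrN⟩ := hNmem _ u.2
  have hmem : (r : F) * (N a * G) ∈ M.R c := by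
    refine mem_of_pow_mem_chart M.Br (M.chart c) hm0.ne' ?_
    have h1 : (N a * G) ^ m = N (u : F) * algebraMap W F (bN * a1) := by
      have h1' : algebraMap W F aN * algebraMap W F a1 = 1 := by rw [← map_mul, ha1, map_one]
      rw [← hau, map_mul N, map_pow, map_mul, mul_pow]
      linear_combination (-(N a ^ m) * G ^ m) * h1' - (N a ^ m * algebraMap W F a1) * hA
    rw [mul_pow, h1, ← pow_sub_one_mul hm0.ne' (r : F),
      show (r : F) ^ (m - 1) * r * (N (u : F) * algebraMap W F (bN * a1)) =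
        (r : F) ^ (m - 1) * ((r : F) * N (u : F)) * algebraMap W F (bN * a1) by ring]
    exact mul_mem (mul_mem (pow_mem r.2 _) hrN) ((M.R c).algebraMap_mem _)
  have hNV : ∀ l, l = o ∨ l = p → N a ∈ M.Br.V l := by
    rintro l (rfl | rfl) <;> refine M.mem_of_ord_nonneg ?_
    · rw [(hord a ha).1, hao, hao]; simp
    · rw [(hord a ha).2, hao]; simp
  have ho : M.red o (N a * G) =
      (M.red o a / s o) * (M.red 1 a / s 1) ^ (M.q - 1) * algebraMap k C (M.ρ eo) := by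
    rw [M.red_mul (hNV o (Or.inl rfl)) (M.mem_of_ord_nonneg hGo.ge),
      red_of_mem M (hNV o (Or.inl rfl)), hreso a (haV o) (haV 1), ← red_of_mem M (haV o),
      ← red_of_mem M (haV 1), ← heo, div_pow]
    have := hs o
    have := pow_ne_zero (M.q - 1) (hs 1)
    field_simp
  have hp : M.red p (N a * G) = (M.red p a / s p) ^ M.q * algebraMap k C (M.ρ ep) := by
    rw [M.red_mul (hNV p (Or.inr rfl)) (M.mem_of_ord_nonneg hGp.ge),
      red_of_mem M (hNV p (Or.inr rfl)), hresp a (haV p), ← red_of_mem M (haV p), ← hep, div_pow]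
    have := pow_ne_zero M.q (hs p)
    field_simp
  have v1 := M.isVal_mul (M.isVal_mul hVo (M.isVal_pow (hcong 1 o _ _ hV1) (M.q - 1)))
    (M.isVal_const (y := y) (i := o) eo)
  have v2 := M.isVal_mul (M.isVal_pow hVp M.q) (M.isVal_const (y := y) (i := p) ep)
  rw [← ho] at v1
  rw [← hp] at v2
  have w1 := M.isVal_mul (M.isVal_of_mem (y := y) (i := o) r) v1
  have w2 := M.isVal_mul (M.isVal_of_mem (y := y) (i := p) r) v2
  rw [← M.red_mul (M.mem_of_mem r.2 o)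
    (mul_mem (hNV o (Or.inl rfl)) (M.mem_of_ord_nonneg hGo.ge))] at w1
  rw [← M.red_mul (M.mem_of_mem r.2 p)
    (mul_mem (hNV p (Or.inr rfl)) (M.mem_of_ord_nonneg hGp.ge))] at w2
  refine mul_left_cancel₀ (a := Ideal.Quotient.mk y r)
    (by rwa [Ne, Ideal.Quotient.eq_zero_iff_mem]) ?_
  exact (M.isVal_unique (hon o) w1 (M.isVal_of_mem (y := y) ⟨_, hmem⟩)).trans
    (M.isVal_unique (hon p) w2 (M.isVal_of_mem (y := y) ⟨_, hmem⟩)).symm

/-- Two relations `X e₀ = Z^q e₁`, `Z e₂ = X^q e₃` determine `X^(q²-1)`. -/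
theorem pow_expo_eq {κ : Type*} [CommRing κ] [IsDomain κ] {q : ℕ} (hq : 1 ≤ q) {V0 V1 V2 E0 E1 E2 E3 : κ}
    (hV0 : V0 ≠ 0)
    (h1 : V0 * V1 ^ (q - 1) * E0 = V2 ^ q * E1) (h2 : V2 * V1 ^ (q - 1) * E2 = V0 ^ q * E3) :
    V0 ^ (q ^ 2 - 1) * (E1 * E3 ^ q) = V1 ^ (q ^ 2 - 1) * (E0 * E2 ^ q) := by
  have h3 : V2 ^ q * V1 ^ ((q - 1) * q) * E2 ^ q = V0 ^ (q * q) * E3 ^ q := by
    have := congrArg (· ^ q) h2
    simp only [mul_pow, ← pow_mul] at this
    exact this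
  refine mul_left_cancel₀ hV0 ?_
  have h4 : V0 * (V1 ^ ((q - 1) + (q - 1) * q) * (E0 * E2 ^ q)) = V0 ^ (q * q) * (E1 * E3 ^ q) := by
    rw [pow_add]
    linear_combination (V1 ^ ((q - 1) * q) * E2 ^ q) * h1 + E1 * h3
  have hexp : (q - 1) + (q - 1) * q = q ^ 2 - 1 := by
    obtain ⟨d, rfl⟩ : ∃ d, q = d + 1 := ⟨q - 1, by omega⟩
    simp only [add_tsub_cancel_right]
    rw [show (d + 1) ^ 2 = (d + d * (d + 1)) + 1 by ring, add_tsub_cancel_right]
  have hexp2 : q * q = (q ^ 2 - 1) + 1 := by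
    have : 1 ≤ q ^ 2 := Nat.one_le_pow _ _ hq
    rw [← sq]; omega
  rw [hexp, hexp2, pow_succ' V0] at h4
  linear_combination -h4

variable (M) in
/-- The exponent `expo` makes the roots coherent at every point. -/
theorem exists_coherent_roots (hm : IsUnit (m : W)) (hm0 : 0 < m) (h : M.Rooted m g) :
    ∃ s : Fin 3 → C, (∀ i, M.red i (g ^ M.expo) * s i ^ m = 1) ∧
      ∀ c (y : Ideal (M.R c)), y.IsMaximal → M.qR c ∈ y →
        LocalRootAt M.Br (M.R c) m (g ^ M.expo) s y := by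
  classical
  set q := M.q with hq
  let A₀ : Wˣ := h.e 0 * h.e 2 ^ q * (h.e 1 * h.e 3 ^ q)⁻¹
  let B₀ : Wˣ := h.e 2 * h.e 0 ^ q * (h.e 3 * h.e 1 ^ q)⁻¹
  let A : Wˣ := if M.ρ ((A₀ ^ m : Wˣ) : W) = 1 then A₀ else 1
  let B : Wˣ := if M.ρ ((B₀ ^ m : Wˣ) : W) = 1 then B₀ else 1
  have hA : M.ρ ((A : Wˣ) : W) ^ m = 1 := by
    simp only [A]; split_ifs with h' <;> simp_all
  have hB : M.ρ ((B : Wˣ) : W) ^ m = 1 := by
    simp only [B]; split_ifs with h' <;> simp_all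
  let K : Fin 3 → Wˣ := ![A, 1, B]
  have hK : ∀ i, M.ρ ((K i : Wˣ) : W) ^ m = 1 := fun i => by
    fin_cases i
    · exact hA
    · simp [K]
    · exact hB
  let s' : Fin 3 → C := fun i => h.s i ^ M.expo * algebraMap k C (M.ρ (K i : W))
  refine ⟨s', fun i => ?_, fun c y hymax hy => ?_⟩
  · rw [M.red_pow (M.mem_of_ord_nonneg (h.ord_eq i).ge), mul_pow, ← map_pow, hK, map_one, mul_one,
      ← pow_mul, mul_comm M.expo, pow_mul, ← mul_pow, h.hs, one_pow]
  haveI := hymax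
  obtain ⟨a, u, ha, hu, hau, haV, hpow, hao, hval⟩ := exists_point_data M hm0 h c y hy
  have hmy : ((m : ℕ) : M.R c) ∉ y := fun hmem => by
    rw [← map_natCast (algebraMap W (M.R c))] at hmem
    exact (Ideal.IsMaximal.ne_top inferInstance : y ≠ ⊤)
      (Ideal.eq_top_of_isUnit_mem _ hmem (hm.map _))
  have hw : ∀ i, M.red i (a ^ M.expo) / s' i =
      (M.red i a / h.s i) ^ M.expo * algebraMap k C (M.ρ ((K i)⁻¹ : Wˣ)) := fun i => by
    have h1 : algebraMap k C (M.ρ (K i : W)) * algebraMap k C (M.ρ ((K i)⁻¹ : Wˣ)) = 1 := by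
      rw [← map_mul, ← map_mul, Units.mul_inv, map_one, map_one]
    rw [M.red_pow (haV i), div_pow, eq_comm, eq_div_iff (mul_ne_zero
      (pow_ne_zero _ (h.s_ne_zero hm0.ne' i)) (left_ne_zero_of_mul_eq_one h1))]
    have := pow_ne_zero M.expo (h.s_ne_zero hm0.ne' i)
    field_simp
    linear_combination (M.red i a ^ M.expo) * h1
  have hpow' : ∀ i, (M.red i (a ^ M.expo) / s' i) ^ m = M.red i ((u ^ M.expo : M.R c) : F) :=
    fun i => by
      rw [SubmonoidClass.coe_pow, M.red_pow (M.mem_of_mem u.2 i), hw, mul_pow, ← pow_mul,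
        mul_comm M.expo, pow_mul, hpow, ← map_pow, ← map_pow, ← Units.val_pow_eq_pow_val, inv_pow]
      have hinv : M.ρ (((K i) ^ m)⁻¹ : Wˣ) = 1 := by
        have := congrArg M.ρ ((K i) ^ m).mul_inv
        rw [map_mul, Units.val_pow_eq_pow_val, map_pow, hK, one_mul, map_one] at this
        exact this
      rw [hinv, map_one, mul_one]
  have hs' : ∀ i, s' i ≠ 0 := fun i => mul_ne_zero (pow_ne_zero _ (h.s_ne_zero hm0.ne' i))
    ((map_ne_zero _).mpr (((K i).isUnit.map M.ρ).ne_zero))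
  have hau' : (a ^ M.expo) ^ m * g ^ M.expo = ((u ^ M.expo : M.R c) : F) := by
    rw [SubmonoidClass.coe_pow, ← hau, mul_pow, ← pow_mul, ← pow_mul, mul_comm m]
  have hu' : u ^ M.expo ∉ y := fun hh => hu (Ideal.IsPrime.mem_of_pow_mem inferInstance _ hh)
  have haV' : ∀ i, a ^ M.expo ∈ M.Br.V i := fun i => pow_mem (haV i) _
  let emb : W →+* M.R c ⧸ y := (Ideal.Quotient.mk y).comp (algebraMap W (M.R c))
  have hvK : ∀ i v, M.IsVal c y i (M.red i a / h.s i) v →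
      M.IsVal c y i (M.red i (a ^ M.expo) / s' i) (v ^ M.expo * emb ((K i)⁻¹ : Wˣ)) := fun i v hv => by
    rw [hw]
    exact M.isVal_mul (M.isVal_pow hv _) (M.isVal_const _)
  rcases M.dichotomy c y hy with ⟨i, hi⟩ | ⟨hall, hcong⟩
  · -- a point on one branch
    have hon : ∀ j, M.OnBranch c y j → j = i := fun j hj => by
      by_contra hji
      obtain ⟨r, hr, hr0, hry⟩ := hi j hji
      exact hry (hj r hr hr0)
    obtain ⟨j, hj⟩ := M.exists_branch_le c y hy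
    obtain ⟨v, -, hv⟩ := hval j hj
    refine M.localRootAt_of_val hy hmy hu' hau' haV' s' hs' hpow'
      (v ^ M.expo * emb ((K j)⁻¹ : Wˣ)) fun l hl => ?_
    rw [show l = j from (hon l hl).trans (hon j hj).symm]
    exact hvK j v hv
  · -- a supersingular point
    have hon : ∀ i, M.OnBranch c y i := hall
    choose V hVm hV using fun i => hval i (hon i)
    have hcv : ∀ i j (z : C) (v : M.R c ⧸ y), M.IsVal c y i z v → M.IsVal c y j z v :=
      fun i j _ _ hzv => M.isVal_congr hcong i j (hon i) hzv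
    have hVne : ∀ i, V i ≠ 0 := fun i e => hu (Ideal.Quotient.eq_zero_iff_mem.mp (by
      rw [← hVm i, e, zero_pow hm0.ne']))
    have r1 := norm_relation hm0 M.normα_ne_zero 0 2
      (fun a ha => ⟨1, Ideal.one_notMem y, by simpa using M.normα_mem c a ha⟩) M.ord_normα M.res_normα₀
      M.res_normα₂ hon hcv ha haV (fun i => hao i (hon i)) hau h.aα_unit h.Gα_ne_zero h.ord_Gα.1
      h.ord_Gα.2 h.hα (h.s_ne_zero hm0.ne') h.eq0 h.eq1 (hV 0) (hV 1) (hV 2)
    have r2 := norm_relation hm0 M.normβ_ne_zero 2 0 (M.normβ_mem c y hy hall) M.ord_normβ M.res_normβ₂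
      M.res_normβ₀ hon hcv ha haV (fun i => hao i (hon i)) hau h.aβ_unit h.Gβ_ne_zero h.ord_Gβ.2
      h.ord_Gβ.1 h.hβ (h.s_ne_zero hm0.ne') h.eq2 h.eq3 (hV 2) (hV 1) (hV 0)
    have key : ∀ (i : Fin 3) (X Y : Wˣ) (A₁ : Wˣ),
        V i ^ M.expo * emb (Y : W) = V 1 ^ M.expo * emb (X : W) → A₁ = X * Y⁻¹ →
        V i ^ M.expo = V 1 ^ M.expo * emb (A₁ : W) ∧ M.ρ ((A₁ ^ m : Wˣ) : W) = 1 := by
      intro i X Y A₁ hXY hA₁
      have h1 : V i ^ M.expo = V 1 ^ M.expo * emb (A₁ : W) := by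
        have hYne : emb (Y : W) ≠ 0 := (Y.isUnit.map emb).ne_zero
        refine mul_right_cancel₀ hYne ?_
        rw [hXY, mul_assoc, ← map_mul, ← Units.val_mul, hA₁, inv_mul_cancel_right]
      refine ⟨h1, ?_⟩
      have h2 := congrArg (· ^ m) h1
      simp only [mul_pow, ← pow_mul, mul_comm M.expo m] at h2
      rw [pow_mul, pow_mul, hVm, hVm, eq_comm, mul_eq_left₀ (pow_ne_zero _ fun e =>
        hu (Ideal.Quotient.eq_zero_iff_mem.mp e))] at h2
      rw [← map_one M.ρ]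
      refine M.eq_of_ρ_eq hy ?_
      rw [Units.val_pow_eq_pow_val, map_pow, map_pow, map_one, map_one]
      exact h2
    have e0 := pow_expo_eq M.hq.one_lt.le (hVne 0) r1 r2
    have e2 := pow_expo_eq M.hq.one_lt.le (hVne 2) r2 r1
    obtain ⟨hA1, hA2⟩ := key 0 (h.e 0 * h.e 2 ^ q) (h.e 1 * h.e 3 ^ q) A₀
      (by simp only [Units.val_mul, Units.val_pow_eq_pow_val, map_mul, map_pow]; exact e0) rfl
    obtain ⟨hB1, hB2⟩ := key 2 (h.e 2 * h.e 0 ^ q) (h.e 3 * h.e 1 ^ q) B₀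
      (by simp only [Units.val_mul, Units.val_pow_eq_pow_val, map_mul, map_pow]; exact e2) rfl
    have hKA : K 0 = A₀ := if_pos hA2
    have hKB : K 2 = B₀ := if_pos hB2
    refine M.localRootAt_of_val hy hmy hu' hau' haV' s' hs' hpow' (V 1 ^ M.expo) fun i _ => ?_
    convert hvK i (V i) (hV i) using 1
    fin_cases i
    · show V 1 ^ M.expo = V 0 ^ M.expo * emb ((K 0)⁻¹ : Wˣ)
      rw [hKA, hA1, mul_assoc, ← map_mul, Units.mul_inv, map_one, mul_one]
    · show V 1 ^ M.expo = V 1 ^ M.expo * emb ((1 : Wˣ)⁻¹ : Wˣ)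
      simp
    · show V 1 ^ M.expo = V 2 ^ M.expo * emb ((K 2)⁻¹ : Wˣ)
      rw [hKB, hB1, mul_assoc, ← map_mul, Units.mul_inv, map_one, mul_one]

variable (M) in
/-- **Key theorem.** -/
theorem exists_pow_eq_const_mul_pow {f : F} (hm : IsUnit (m : W)) (hm0 : 0 < m) (hf : f ≠ 0)
    (hor : HorizDvd W m f) (hα : NormPow (W := W) M.normα m f)
    (hβ : NormPow (W := W) M.normβ m f) :
    ∃ (a b : W) (h : F), a ≠ 0 ∧ b ≠ 0 ∧ h ≠ 0 ∧
      algebraMap W F b * f ^ M.expo ^ 3 = algebraMap W F a * h ^ m := by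
  obtain ⟨a, b, H, g, ha, hb, hH, hg, heq, hord, hgor, hgα, hgβ⟩ :=
    M.exists_normalized hf hor hα hβ
  obtain ⟨hr⟩ := M.exists_rooted hm hm0 hg hord hgor hgα hgβ
  obtain ⟨s, hs, hloc⟩ := M.exists_coherent_roots hm hm0 hr
  set G := (g ^ M.expo) ^ M.expo with hG
  have hG0 : G ≠ 0 := pow_ne_zero _ (pow_ne_zero _ hg)
  have hfV : ∀ i, ∃ h : G ∈ M.Br.V i, M.Br.res i ⟨G, h⟩ * s i ^ m = 1 := fun i => by
    have hm' : G ∈ M.Br.V i := pow_mem (pow_mem (M.mem_of_ord_nonneg (hord i).ge) _) _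
    exact ⟨hm', by rw [← red_of_mem M hm']; exact hs i⟩
  obtain ⟨h, h0, h1, hres⟩ := exists_global_root M.Br (M.q : W) m G s M.x M.x_ne_zero
    (M.chart 0) (M.chart 1) M.x_mem M.x_inv_mem M.finite₀ (M.frac 0) M.glue₀ M.glue₁ hm hm0 hfV
    (fun y hy hq => hloc 0 y hy hq) (fun y hy hq => hloc 1 y hy hq)
  obtain ⟨w, hw⟩ := M.const _ h0 h1
  have hh0 : h ≠ 0 := by
    intro e
    have h2 := hres 0 (e ▸ zero_mem _)
    obtain ⟨hm', h3⟩ := hfV 0
    have : s 0 = 0 := by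
      rw [← h2, show (⟨h, e ▸ zero_mem _⟩ : M.Br.V 0) = 0 from Subtype.ext e, map_zero]
    rw [this, zero_pow hm0.ne', mul_zero] at h3
    exact zero_ne_one h3
  have hw0 : w ≠ 0 := fun e =>
    mul_ne_zero (pow_ne_zero m hh0) hG0 (by rw [hw, e, map_zero])
  refine ⟨a ^ (M.expo * M.expo) * w, b ^ (M.expo * M.expo), H ^ (M.expo * M.expo) / h,
    mul_ne_zero (pow_ne_zero _ ha) hw0, pow_ne_zero _ hb,
    div_ne_zero (pow_ne_zero _ hH) hh0, ?_⟩
  have hp := congrArg (· ^ (M.expo * M.expo)) heq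
  simp only [mul_pow, ← pow_mul] at hp
  rw [show M.expo * (M.expo * M.expo) = M.expo ^ 3 by ring] at hp
  rw [map_mul, map_pow, map_pow, hp, ← hw, hG, div_pow, ← pow_mul, ← pow_mul]
  have := pow_ne_zero m hh0
  field_simp
  ring

end Fermat.Agent.Carayol.Model
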