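/-
Torsion functions on a `Model` whose branch roots have the same values at the supersingular points.

`PointVals` records the values of the candidate roots at a point; its ratios between branches do not
depend on the auxiliary element and are multiplicative. If they are trivial, the function is a
constant times an `m`-th power: no norm hypothesis and no bounded exponent is needed.
-/
import Fermat.Agent.Carayol.Key

set_option autoImplicit false
set_option linter.unusedSectionVars false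

noncomputable section

namespace Fermat.Agent.Carayol.Model

variable {W F k C : Type} [CommRing W] [IsDomain W] [IsDiscreteValuationRing W] [Field F]
  [Algebra W F] [Field k] [Field C] [Algebra k C] (M : Model W F k C)

/-- `s` are roots of the inverses of the residues of `g`. -/
def IsBranchRoots (m : ℕ) (g : F) (s : Fin 3 → C) : Prop := ∀ i, M.red i g * s i ^ m = 1

/-- Values of the candidate roots at a point, computed with an element making `g` a local unit. -/
def PointVals (c : Fin 2) (y : Ideal (M.R c)) (m : ℕ) (g : F) (s : Fin 3 → C)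
    (V : Fin 3 → M.R c ⧸ y) : Prop :=
  ∃ (a : F) (u : M.R c), u ∉ y ∧ a ^ m * g = (u : F) ∧ (∀ i, a ∈ M.Br.V i) ∧
    ∀ i, M.OnBranch c y i → M.IsVal c y i (M.red i a / s i) (V i)

/-- At every supersingular point the values agree. -/
def Coherent (m : ℕ) (g : F) (s : Fin 3 → C) : Prop :=
  ∀ (c : Fin 2) (y : Ideal (M.R c)), y.IsMaximal → M.qR c ∈ y → (∀ i, M.OnBranch c y i) →
    ∃ V, M.PointVals c y m g s V ∧ ∀ i j, V i = V j

variable {M} {m : ℕ} {g : F} {s : Fin 3 → C}

theorem IsBranchRoots.ne_zero (h : M.IsBranchRoots m g s) (hm : m ≠ 0) (i : Fin 3) : s i ≠ 0 :=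
  fun e => by simpa [e, hm] using h i

theorem IsBranchRoots.pow_div (h : M.IsBranchRoots m g s) (hm : m ≠ 0) {a u : F}
    (hau : a ^ m * g = u) {i : Fin 3} (ha : a ∈ M.Br.V i) (hg : g ∈ M.Br.V i) :
    (M.red i a / s i) ^ m = M.red i u := by
  rw [div_pow, ← hau, M.red_mul (pow_mem ha m) hg, M.red_pow ha,
    div_eq_iff (pow_ne_zero _ (h.ne_zero hm i)), mul_assoc, h i, mul_one]

variable (M) in
theorem mem_of_unit_pow (hm0 : 0 < m) (hg : g ≠ 0) (hord : ∀ i, M.ord i g = 0) {c : Fin 2}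
    {a : F} {u : M.R c} (ha : a ≠ 0) (hau : a ^ m * g = (u : F)) (i : Fin 3) :
    M.ord i (u : F) = m * M.ord i a ∧ a ∈ M.Br.V i := by
  have hu0 : (u : F) ≠ 0 := hau ▸ mul_ne_zero (pow_ne_zero _ ha) hg
  have ho : M.ord i (u : F) = m * M.ord i a := by
    rw [← hau, M.ord_mul i _ _ (pow_ne_zero _ ha) hg, M.ord_pow ha, hord, add_zero]
  refine ⟨ho, M.mem_of_ord_nonneg ?_⟩
  have h1 := (M.mem_iff i _ hu0).mp (M.mem_of_mem u.2 i)
  rw [ho] at h1
  exact (mul_nonneg_iff_of_pos_left (by exact_mod_cast hm0)).mp h1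

variable (M) in
/-- Values exist at every point of the special fibre. -/
theorem exists_pointVals (hm0 : 0 < m) (hg : g ≠ 0) (hord : ∀ i, M.ord i g = 0)
    (hor : HorizDvd W m g) (h : M.IsBranchRoots m g s) (c : Fin 2) (y : Ideal (M.R c))
    [y.IsMaximal] (hy : M.qR c ∈ y) : ∃ V, M.PointVals c y m g s V := by
  classical
  obtain ⟨a, u, ha, hu, hau⟩ := M.exists_local_unit c y hy hm0.ne' hg hord hor
  have haV := fun i => (M.mem_of_unit_pow hm0 hg hord ha hau i).2
  have hex : ∀ i, ∃ v, M.OnBranch c y i → M.IsVal c y i (M.red i a / s i) v := fun i => by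
    by_cases hi : M.OnBranch c y i
    · obtain ⟨v, hv⟩ := M.exists_isVal hy hi hm0.ne' (u := u)
        (h.pow_div hm0.ne' hau (haV i) (M.mem_of_ord_nonneg (hord i).ge))
      exact ⟨v, fun _ => hv⟩
    · exact ⟨0, fun hi' => absurd hi' hi⟩
  choose V hV using hex
  exact ⟨V, a, u, hu, hau, haV, hV⟩

variable (M) in
/-- Values of a product. -/
theorem PointVals.mul {c : Fin 2} {y : Ideal (M.R c)} [y.IsMaximal] {g' : F} {s' : Fin 3 → C}
    {V V' : Fin 3 → M.R c ⧸ y} (h : M.PointVals c y m g s V) (h' : M.PointVals c y m g' s' V') :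
    M.PointVals c y m (g * g') (fun i => s i * s' i) (fun i => V i * V' i) := by
  obtain ⟨a, u, hu, hau, haV, hV⟩ := h
  obtain ⟨a', u', hu', hau', haV', hV'⟩ := h'
  refine ⟨a * a', u * u', fun hm => ((inferInstance : y.IsMaximal).isPrime.mem_or_mem hm).elim
    hu hu', ?_, fun i => mul_mem (haV i) (haV' i), fun i hi => ?_⟩
  · rw [MulMemClass.coe_mul, ← hau, ← hau']; ring
  · rw [M.red_mul (haV i) (haV' i), mul_div_mul_comm]
    exact M.isVal_mul (hV i hi) (hV' i hi)

variable (M) in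
/-- Values of an `m`-th power with its obvious roots: they agree. -/
theorem pointVals_pow {c : Fin 2} {y : Ideal (M.R c)} [y.IsMaximal] {h : F} (hh : h ≠ 0)
    (hord : ∀ i, M.ord i h = 0) : M.PointVals c y m (h ^ m) (fun i => (M.red i h)⁻¹) fun _ => 1 := by
  have hinv : ∀ i, M.ord i h⁻¹ = 0 := fun i => by rw [M.ord_inv hh, hord, neg_zero]
  refine ⟨h⁻¹, 1, fun h1 => (Ideal.IsMaximal.ne_top inferInstance : y ≠ ⊤)
    ((Ideal.eq_top_iff_one _).mpr h1), ?_, fun i => M.mem_of_ord_nonneg (hinv i).ge, fun i _ => ?_⟩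
  · rw [inv_pow, inv_mul_cancel₀ (pow_ne_zero _ hh)]; rfl
  · have h1 := M.red_mul (i := i) (M.mem_of_ord_nonneg (hinv i).ge) (M.mem_of_ord_nonneg (hord i).ge)
    rw [inv_mul_cancel₀ hh, M.red_one] at h1
    rw [div_inv_eq_mul, ← h1]
    have h2 := M.isVal_of_mem (y := y) (i := i) 1
    rwa [map_one, show ((1 : M.R c) : F) = 1 from rfl, M.red_one] at h2

variable (M) in
/-- Gluing of local roots: only the supersingular points need to be given. -/
theorem exists_mul_pow_eq_const_of_local (hm : IsUnit (m : W)) (hm0 : 0 < m) (hg : g ≠ 0)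
    (hord : ∀ i, M.ord i g = 0) (hor : HorizDvd W m g) (hs : M.IsBranchRoots m g s)
    (hss : ∀ c (y : Ideal (M.R c)), y.IsMaximal → M.qR c ∈ y → (∀ i, M.OnBranch c y i) →
      LocalRootAt M.Br (M.R c) m g s y) :
    ∃ (h : F) (w : W), h ≠ 0 ∧ w ≠ 0 ∧ h ^ m * g = algebraMap W F w := by
  have hgV : ∀ i, g ∈ M.Br.V i := fun i => M.mem_of_ord_nonneg (hord i).ge
  have hfV : ∀ i, ∃ h : g ∈ M.Br.V i, M.Br.res i ⟨g, h⟩ * s i ^ m = 1 := fun i =>
    ⟨hgV i, by rw [← red_of_mem M (hgV i)]; exact hs i⟩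
  have hloc : ∀ c (y : Ideal (M.R c)), y.IsMaximal → M.qR c ∈ y →
      LocalRootAt M.Br (M.R c) m g s y := by
    intro c y hymax hy
    have := hymax
    have hmy : ((m : ℕ) : M.R c) ∉ y := fun hmem => by
      rw [← map_natCast (algebraMap W (M.R c))] at hmem
      exact (Ideal.IsMaximal.ne_top inferInstance : y ≠ ⊤)
        (Ideal.eq_top_of_isUnit_mem _ hmem (hm.map _))
    have fin : ∀ V, M.PointVals c y m g s V → ∀ v, (∀ i, M.OnBranch c y i → V i = v) →
        LocalRootAt M.Br (M.R c) m g s y := by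
      rintro V ⟨a, u, hu, hau, haV, hV⟩ v hv
      exact M.localRootAt_of_val hy hmy hu hau haV s (hs.ne_zero hm0.ne')
        (fun i => hs.pow_div hm0.ne' hau (haV i) (hgV i)) v fun i hi => hv i hi ▸ hV i hi
    rcases M.dichotomy c y hy with ⟨i, hi⟩ | ⟨hall, -⟩
    · have hon : ∀ j, M.OnBranch c y j → j = i := fun j hj => by
        by_contra hji
        obtain ⟨r, hr, hr0, hry⟩ := hi j hji
        exact hry (hj r hr hr0)
      obtain ⟨V, hV⟩ := M.exists_pointVals hm0 hg hord hor hs c y hy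
      exact fin V hV (V i) fun j hj => by rw [hon j hj]
    · exact hss c y hymax hy hall
  obtain ⟨h, h0, h1, hres⟩ := exists_global_root M.Br (M.q : W) m g s M.x M.x_ne_zero
    (M.chart 0) (M.chart 1) M.x_mem M.x_inv_mem M.finite₀ (M.frac 0) M.glue₀ M.glue₁ hm hm0 hfV
    (fun y hy hq => hloc 0 y hy hq) (fun y hy hq => hloc 1 y hy hq)
  obtain ⟨w, hw⟩ := M.const _ h0 h1
  have hh0 : h ≠ 0 := by
    intro e
    have h2 := hres 0 (e ▸ zero_mem _)
    refine hs.ne_zero hm0.ne' 0 ?_
    rw [← h2, show (⟨h, e ▸ zero_mem _⟩ : M.Br.V 0) = 0 from Subtype.ext e, map_zero]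
  refine ⟨h, w, hh0, fun e => mul_ne_zero (pow_ne_zero m hh0) hg ?_, hw⟩
  rw [hw, e, map_zero]

variable (M) in
/-- Coherent values give local roots. -/
theorem localRootAt_of_pointVals (hm : IsUnit (m : W)) (hm0 : 0 < m)
    (hord : ∀ i, M.ord i g = 0) (hs : M.IsBranchRoots m g s) {c : Fin 2} {y : Ideal (M.R c)}
    [y.IsMaximal] (hy : M.qR c ∈ y) {V : Fin 3 → M.R c ⧸ y} (hV : M.PointVals c y m g s V)
    (heq : ∀ i j, V i = V j) : LocalRootAt M.Br (M.R c) m g s y := by
  have hmy : ((m : ℕ) : M.R c) ∉ y := fun hmem => by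
    rw [← map_natCast (algebraMap W (M.R c))] at hmem
    exact (Ideal.IsMaximal.ne_top inferInstance : y ≠ ⊤)
      (Ideal.eq_top_of_isUnit_mem _ hmem (hm.map _))
  obtain ⟨a, u, hu, hau, haV, hVv⟩ := hV
  exact M.localRootAt_of_val hy hmy hu hau haV s (hs.ne_zero hm0.ne')
    (fun i => hs.pow_div hm0.ne' hau (haV i) (M.mem_of_ord_nonneg (hord i).ge)) (V 0)
    fun i hi => heq i 0 ▸ hVv i hi

variable (M) in
/-- **Coherent roots.** A unit on the branches with horizontal divisor divisible by `m`, whose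
branch roots agree at every supersingular point, is a constant times an `m`-th power. -/
theorem exists_mul_pow_eq_const (hm : IsUnit (m : W)) (hm0 : 0 < m) (hg : g ≠ 0)
    (hord : ∀ i, M.ord i g = 0) (hor : HorizDvd W m g) (hs : M.IsBranchRoots m g s)
    (hcoh : M.Coherent m g s) :
    ∃ (h : F) (w : W), h ≠ 0 ∧ w ≠ 0 ∧ h ^ m * g = algebraMap W F w :=
  M.exists_mul_pow_eq_const_of_local hm hm0 hg hord hor hs fun c y hymax hy hon => by
    have := hymax
    obtain ⟨V, hV, heq⟩ := hcoh c y hymax hy hon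
    exact M.localRootAt_of_pointVals hm hm0 hord hs hy hV heq

variable (M) in
/-- An element whose `m`-th power is in the chart is in the local ring of every special point. -/
theorem exists_mul_mem_of_pow_mem {c : Fin 2} {y : Ideal (M.R c)} [y.IsMaximal] (hy : M.qR c ∈ y)
    (hm : m ≠ 0) {z : F} (hz : z ^ m ∈ M.R c) : ∃ r : M.R c, r ∉ y ∧ z * (r : F) ∈ M.R c := by
  have hle : y.primeCompl ≤ nonZeroDivisors (M.R c) := y.primeCompl_le_nonZeroDivisors
  let S := Localization.subalgebra.ofField F y.primeCompl hle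
  have : UniqueFactorizationMonoid S :=
    (IsLocalization.algEquiv y.primeCompl (Localization.AtPrime y) S).toMulEquiv
      |>.uniqueFactorizationMonoid (M.ufm c y hy)
  have hint : IsIntegral S z :=
    ⟨Polynomial.X ^ m - Polynomial.C (algebraMap (M.R c) S ⟨_, hz⟩),
      Polynomial.monic_X_pow_sub_C _ hm, by
        simp only [Polynomial.eval₂_sub, Polynomial.eval₂_X_pow, Polynomial.eval₂_C]
        exact sub_self _⟩
  obtain ⟨x, hx⟩ := (IsIntegrallyClosed.algebraMap_eq_of_integral hint : ∃ x : S, algebraMap S F x = z)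
  obtain ⟨⟨a, r⟩, h⟩ := IsLocalization.surj y.primeCompl x
  refine ⟨r, r.2, ?_⟩
  have h1 : (x : F) * ((r : M.R c) : F) = (a : F) := congrArg Subtype.val h
  rw [← hx]
  show (x : F) * _ ∈ _
  rw [h1]
  exact a.2

variable (M) in
/-- The ratios of the values between the branches do not depend on the auxiliary element. -/
theorem PointVals.ratio {c : Fin 2} {y : Ideal (M.R c)} [y.IsMaximal] (hy : M.qR c ∈ y)
    (hon : ∀ i, M.OnBranch c y i) (hm : m ≠ 0) (hg : g ≠ 0) (hs : M.IsBranchRoots m g s)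
    {V V' : Fin 3 → M.R c ⧸ y} (h : M.PointVals c y m g s V) (h' : M.PointVals c y m g s V')
    (i j : Fin 3) : V i * V' j = V j * V' i := by
  obtain ⟨a, u, hu, hau, haV, hV⟩ := h
  obtain ⟨a', u', hu', hau', haV', hV'⟩ := h'
  have hu0 : (u : F) ≠ 0 := fun e => hu (by rw [show u = 0 from Subtype.ext e]; exact zero_mem _)
  have ha0 : a ≠ 0 := fun e => hu0 (by rw [← hau, e, zero_pow hm, zero_mul])
  obtain ⟨r, hr, hrR⟩ := M.exists_mul_mem_of_pow_mem hy hm (z := a' / a * (u : F)) (by
    rw [mul_pow, div_pow, ← pow_sub_one_mul hm (u : F)]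
    rw [show a' ^ m / a ^ m * ((u : F) ^ (m - 1) * (u : F)) = (u' : F) * (u : F) ^ (m - 1) by
      rw [← hau, ← hau']
      field_simp]
    exact mul_mem u'.2 (pow_mem u.2 _))
  have key : ∀ l, V' l * Ideal.Quotient.mk y (u * r) =
      V l * Ideal.Quotient.mk y ⟨_, hrR⟩ := fun l => by
    refine M.isVal_unique (hon l) ?_ (M.isVal_mul (hV l (hon l)) (M.isVal_of_mem (y := y) ⟨_, hrR⟩))
    have h2 := M.isVal_mul (hV' l (hon l)) (M.isVal_of_mem (y := y) (i := l) (u * r))
    convert h2 using 1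
    rw [div_mul_eq_mul_div (M.red l a'), div_mul_eq_mul_div (M.red l a),
      ← M.red_mul (haV l) (M.mem_of_mem hrR l),
      ← M.red_mul (haV' l) (M.mem_of_mem (u * r).2 l)]
    refine congrArg (fun z => M.red l z / s l) ?_
    show a * (a' / a * (u : F) * (r : F)) = a' * (((u * r : M.R c) : F))
    rw [MulMemClass.coe_mul]
    field_simp
  have hur : Ideal.Quotient.mk y (u * r) ≠ 0 := by
    rw [Ne, Ideal.Quotient.eq_zero_iff_mem]
    exact fun hm' => ((inferInstance : y.IsMaximal).isPrime.mem_or_mem hm').elim hu hr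
  refine mul_right_cancel₀ hur ?_
  linear_combination V i * key j - V j * key i

variable (M) in
/-- The orders of the three branches can be cleared once they are congruent to those of a constant. -/
theorem exists_clear_orders {f : F} (hf : f ≠ 0) (hor : HorizDvd W m f) (n : ℤ)
    (h : ∀ i, (m : ℤ) ∣ M.ord i f - n * M.ord i (algebraMap W F (M.q : W))) :
    ∃ (a b : W) (H g : F), a ≠ 0 ∧ b ≠ 0 ∧ H ≠ 0 ∧ g ≠ 0 ∧
      g = f * (algebraMap W F a / algebraMap W F b) * H ^ m ∧
      (∀ i, M.ord i g = 0) ∧ HorizDvd W m g := by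
  choose k hk using h
  obtain ⟨H, hH, hHo⟩ := M.exists_ord_eq_int fun i => -k i
  have hqne : (M.q : W) ≠ 0 := M.irreducible_q.ne_zero
  refine ⟨(M.q : W) ^ (-n).toNat, (M.q : W) ^ n.toNat, H, _, pow_ne_zero _ hqne,
    pow_ne_zero _ hqne, hH, ?_, rfl, fun i => ?_,
    hor.adjust (pow_ne_zero _ hqne) (pow_ne_zero _ hqne) H⟩
  all_goals
    have hx := M.const_ne_zero (pow_ne_zero (-n).toNat hqne)
    have hz := M.const_ne_zero (pow_ne_zero n.toNat hqne)
  · exact mul_ne_zero (mul_ne_zero hf (div_ne_zero hx hz)) (pow_ne_zero _ hH)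
  · rw [M.ord_mul i _ _ (mul_ne_zero hf (div_ne_zero hx hz)) (pow_ne_zero _ hH),
      M.ord_mul i _ _ hf (div_ne_zero hx hz), M.ord_div hx hz, M.ord_pow hH, hHo, map_pow, map_pow,
      M.ord_pow M.q_ne_zero, M.ord_pow M.q_ne_zero]
    have := Int.toNat_sub_toNat_neg n
    linear_combination hk i - M.ord i (algebraMap W F (M.q : W)) * this

end Fermat.Agent.Carayol.Model
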