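/-
Constant field extensions are unramified: every place of `F/K` extends to a place of `F' = F L`
over `L` with the same normalised order.  Consequence: `HorizDvd` from a divisibility of all
orders over `L`.
-/
import Fermat.Agent.Carayol.Model
import Fermat.Prelude.Def_AlgebraicCurve_DivisorClassGroup
import Mathlib.RingTheory.Valuation.LocalSubring
import Mathlib.FieldTheory.PrimitiveElement
import Mathlib.FieldTheory.Perfect
import Mathlib.RingTheory.Polynomial.Basic
import Mathlib.RingTheory.Localization.Integral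

set_option autoImplicit false

noncomputable section

open Polynomial AlgebraicCurve

namespace Fermat.Agent.Carayol

/-- Krull's intersection trick: if every element of the prime `P = Φ⁻¹(nonunits)` is, up to a
factor outside `P`, a multiple of `π`, then every nonzero value of `Φ` is a power of `π` times a
unit. -/
theorem exists_pow_mul_unit_of_prime {R F' : Type*} [CommRing R] [IsNoetherianRing R] [Field F']
    (V : ValuationSubring F') (Φ : R →+* V) (π : R) (hπ : Φ π ≠ 0) (hπm : ¬ IsUnit (Φ π))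
    (hP : ∀ p : R, ¬ IsUnit (Φ p) → ∃ s q : R, IsUnit (Φ s) ∧ Φ s * Φ p = Φ π * Φ q)
    (p : R) (hp : Φ p ≠ 0) : ∃ (n : ℕ) (u : V), IsUnit u ∧ Φ p = Φ π ^ n * u := by
  by_contra! h
  have hseq : ∀ n : ℕ, ∃ a b : R, IsUnit (Φ b) ∧ Φ p * Φ b = Φ π ^ n * Φ a := by
    intro n
    induction n with
    | zero => exact ⟨p, 1, by simp, by simp⟩
    | succ n ih =>
      obtain ⟨a, b, hb, hab⟩ := ih
      have ha : ¬ IsUnit (Φ a) := fun ha =>
        h n (Φ a * ↑(hb.unit⁻¹)) (ha.mul (Units.isUnit _)) (by
          rw [← mul_assoc, ← hab, mul_assoc, hb.mul_val_inv, mul_one])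
      obtain ⟨s, q, hs, hsq⟩ := hP a ha
      refine ⟨q, b * s, by rw [map_mul]; exact hb.mul hs, ?_⟩
      rw [map_mul, ← mul_assoc, hab, mul_assoc, mul_comm (Φ a), hsq, pow_succ, mul_assoc]
  let J : ℕ →o Ideal R :=
    { toFun := fun n =>
        { carrier := {a | ∃ t q : R, IsUnit (Φ t) ∧ Φ π ^ n * (Φ a * Φ t) = Φ p * Φ q}
          zero_mem' := ⟨1, 0, by simp, by simp⟩
          add_mem' := by
            rintro a a' ⟨t, q, ht, he⟩ ⟨t', q', ht', he'⟩
            refine ⟨t * t', q * t' + q' * t, by rw [map_mul]; exact ht.mul ht', ?_⟩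
            simp only [map_add, map_mul]
            linear_combination (Φ t') * he + (Φ t) * he'
          smul_mem' := by
            rintro c a ⟨t, q, ht, he⟩
            refine ⟨t, c * q, ht, ?_⟩
            simp only [smul_eq_mul, map_mul]
            linear_combination (Φ c) * he }
      monotone' := monotone_nat_of_le_succ fun n => by
        rintro a ⟨t, q, ht, he⟩
        refine ⟨t, π * q, ht, ?_⟩
        rw [map_mul, pow_succ]
        linear_combination (Φ π) * he }
  obtain ⟨n, hn⟩ := monotone_stabilizes_iff_noetherian.mpr (inferInstance : IsNoetherianRing R) J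
  obtain ⟨a, b, hb, hab⟩ := hseq (n + 1)
  have ha : a ∈ J (n + 1) := ⟨1, b, by simp, by rw [map_one, mul_one, hab]⟩
  rw [← hn (n + 1) (Nat.le_succ n)] at ha
  obtain ⟨t, q, ht, he⟩ := ha
  apply hπm
  have h1 : Φ π ^ n * Φ a * (Φ t * Φ b) = Φ π ^ n * Φ a * (Φ π * Φ q) := by
    linear_combination (Φ b) * he + (Φ q) * hab
  have hne : Φ π ^ n * Φ a ≠ 0 := by
    refine mul_ne_zero (pow_ne_zero _ hπ) fun ha => ?_
    rw [ha, mul_zero] at hab
    exact (mul_ne_zero hp hb.ne_zero) hab
  exact isUnit_of_dvd_unit (mul_left_cancel₀ hne h1 ▸ dvd_mul_right (Φ π) (Φ q)) (ht.mul hb)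

variable {K L F F' : Type*} [Field K] [CharZero K] [Field L] [Algebra K L]
  [Algebra.IsAlgebraic K L] [Field F] [Algebra K F] [Field F'] [Algebra L F'] [Algebra F F']
  [Algebra K F'] [IsScalarTower K L F'] [IsScalarTower K F F']

/-- A place of `F/K` extends to a place of `F' = F L` over `L` with the same order. -/
theorem exists_place_ord_eq
    (hgen : IntermediateField.adjoin F (Set.range (algebraMap L F')) = ⊤) (v : Place K F) :
    ∃ w : Place L F', ∀ f : F, f ≠ 0 → w.ord (algebraMap F F' f) = v.ord f := by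
  classical
  let O := v.toValuationSubring
  obtain ⟨π, hπirr⟩ := IsDiscreteValuationRing.exists_irreducible O
  let R₀ : Subring F' := O.toSubring.map (algebraMap F F')
  let e : O ≃+* R₀ := O.toSubring.equivMapOfInjective _ (algebraMap F F').injective
  let I : Ideal R₀ := (IsLocalRing.maximalIdeal O).map (e : O →+* R₀)
  have hI : I ≠ ⊤ := by
    intro h
    have h1 := congrArg (Ideal.comap (e : O →+* R₀)) h
    rw [Ideal.comap_map_of_bijective (e : O →+* R₀) e.bijective, Ideal.comap_top] at h1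
    exact (IsLocalRing.maximalIdeal.isMaximal O).ne_top h1
  obtain ⟨V, hle, hnon⟩ := Ideal.image_subset_nonunits_valuationSubring I hI
  have hO : ∀ a : O, algebraMap F F' a ∈ V := fun a => hle ⟨a, a.2, rfl⟩
  have hOm : ∀ a : O, ¬ IsUnit a → ¬ IsUnit (⟨algebraMap F F' a, hO a⟩ : V) := fun a ha hu => by
    have h1 : algebraMap F F' a ∈ V.nonunits :=
      hnon ⟨e a, Ideal.mem_map_of_mem _ ((IsLocalRing.mem_maximalIdeal a).mpr ha), rfl⟩
    exact ValuationSubring.mem_nonunits_iff_exists_mem_maximalIdeal.mp h1 |>.elim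
      fun _ hm => (IsLocalRing.mem_maximalIdeal _).mp hm hu
  let ι : O →+* V :=
    { toFun := fun a => ⟨algebraMap F F' a, hO a⟩
      map_one' := Subtype.ext (map_one _)
      map_mul' := fun a b => Subtype.ext (map_mul _ (a : F) b)
      map_zero' := Subtype.ext (map_zero _)
      map_add' := fun a b => Subtype.ext (map_add _ (a : F) b) }
  -- the constants of `L` lie in `V`
  have hK : ∀ a : K, algebraMap K F' a ∈ V := fun a => by
    rw [IsScalarTower.algebraMap_apply K F F']
    exact hO ⟨_, v.algebraMap_mem' a⟩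
  have hL : ∀ l : L, algebraMap L F' l ∈ V := by
    intro l
    obtain ⟨P, hP, hPl⟩ := Algebra.IsIntegral.isIntegral (R := K) l
    let κ : K →+* V := (algebraMap K F').codRestrict V hK
    have hint : IsIntegral V (algebraMap L F' l) := by
      refine ⟨P.map κ, hP.map _, ?_⟩
      rw [eval₂_map, show (algebraMap V F').comp κ = algebraMap K F' from RingHom.ext fun _ => rfl,
        IsScalarTower.algebraMap_eq K L F', ← Polynomial.hom_eval₂, hPl, map_zero]
    obtain ⟨y, hy⟩ := IsIntegrallyClosed.isIntegral_iff.mp hint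
    exact hy ▸ y.2
  have hπV : ¬ IsUnit (ι π) := hOm π hπirr.not_isUnit
  have hπ0 : ι π ≠ 0 := fun h => hπirr.ne_zero (Subtype.ext ((algebraMap F F').injective (by
    simpa [ι] using congrArg Subtype.val h)))
  -- orders at the level `F(θ)`
  have key : ∀ (θ : L) (p : O[X]), eval₂ ι ⟨_, hL θ⟩ p ≠ 0 →
      ∃ (n : ℕ) (u : V), IsUnit u ∧ eval₂ ι ⟨_, hL θ⟩ p = ι π ^ n * u := by
    intro θ
    have hπC : (eval₂RingHom ι ⟨_, hL θ⟩) (C π) = ι π := eval₂_C _ _
    intro p hp
    have := exists_pow_mul_unit_of_prime V (eval₂RingHom ι ⟨_, hL θ⟩) (C π)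
      (by rwa [hπC]) (by rwa [hπC]) ?_ p hp
    · simpa [hπC] using this
    intro p hp
    simp only [coe_eval₂RingHom, eval₂_C] at hp ⊢
    set Φ := eval₂RingHom ι (⟨_, hL θ⟩ : V)
    let k₀ := O →+* IsLocalRing.ResidueField O
    let res : O →+* IsLocalRing.ResidueField O := IsLocalRing.residue O
    -- the minimal polynomial of `θ` over `K`, inside `O[X]`
    let cK : K →+* O := (algebraMap K F).codRestrict O v.algebraMap_mem'
    let g : O[X] := (minpoly K θ).map cK
    have hgΦ : Φ g = 0 := by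
      apply Subtype.ext
      show V.subtype (eval₂ ι _ g) = 0
      rw [hom_eval₂, eval₂_map]
      have hcomp : (V.subtype.comp ι).comp cK = algebraMap K F' :=
        RingHom.ext fun a => (IsScalarTower.algebraMap_apply K F F' a).symm
      rw [hcomp, IsScalarTower.algebraMap_eq K L F']
      show eval₂ ((algebraMap L F').comp (algebraMap K L)) (algebraMap L F' θ) _ = 0
      rw [← hom_eval₂, ← aeval_def, minpoly.aeval, map_zero]
    have hsep : (g.map res).Separable := by
      rw [Polynomial.map_map]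
      exact ((minpoly.irreducible (Algebra.IsIntegral.isIntegral θ)).separable).map
    let Q : Ideal O[X] := (IsLocalRing.maximalIdeal V).comap Φ
    have hker : ∀ a : O[X], a.map res = 0 → ∃ b : O[X], a = C π * b := fun a ha => by
      have hd : C π ∣ a := by
        rw [C_dvd_iff_dvd_coeff]
        intro i
        rw [← Ideal.mem_span_singleton, ← hπirr.maximalIdeal_eq, ← IsLocalRing.residue_eq_zero_iff]
        have := congrArg (coeff · i) ha
        rwa [coeff_map, coeff_zero] at this
      exact hd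
    have hsurj : Function.Surjective (mapRingHom res) :=
      Polynomial.map_surjective _ IsLocalRing.residue_surjective
    have hkerQ : RingHom.ker (mapRingHom res) ≤ Q := fun a ha => by
      obtain ⟨b, rfl⟩ := hker a ha
      show Φ (C π * b) ∈ IsLocalRing.maximalIdeal V
      rw [map_mul, show Φ (C π) = ι π from eval₂_C _ _]
      exact Ideal.mul_mem_right _ _ ((IsLocalRing.mem_maximalIdeal _).mpr hπV)
    let Qb := Q.map (mapRingHom res)
    have hQb : Qb.IsPrime := Ideal.map_isPrime_of_surjective hsurj hkerQ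
    have hback : ∀ a : O[X], a.map res ∈ Qb → a ∈ Q := fun a ha => by
      obtain ⟨b, hb, hab⟩ := (Ideal.mem_map_iff_of_surjective _ hsurj).mp ha
      have := hkerQ (show a - b ∈ RingHom.ker (mapRingHom res) by
        simp [RingHom.mem_ker, ← show b.map res = a.map res from hab])
      simpa using add_mem this hb
    have hgQ : g.map res ∈ Qb := Ideal.mem_map_of_mem (mapRingHom res)
      (show Φ g ∈ IsLocalRing.maximalIdeal V by rw [hgΦ]; exact zero_mem _)
    let h := Submodule.IsPrincipal.generator Qb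
    obtain ⟨k, hk⟩ := (Submodule.IsPrincipal.mem_iff_generator_dvd Qb).mp hgQ
    have hh : ¬ IsUnit h := fun hu => hQb.ne_top (Ideal.eq_top_of_isUnit_mem _
      (Submodule.IsPrincipal.generator_mem Qb) hu)
    obtain ⟨kk, hkk⟩ := hsurj k
    have hkk' : kk.map res = k := hkk
    obtain ⟨c, hc⟩ := (Submodule.IsPrincipal.mem_iff_generator_dvd Qb).mp
      (Ideal.mem_map_of_mem (mapRingHom res)
        (show p ∈ Q from (IsLocalRing.mem_maximalIdeal _).mpr hp))
    obtain ⟨cc, hcc⟩ := hsurj c
    have hcc' : cc.map res = c := hcc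
    have hk' : IsUnit (Φ kk) := by
      by_contra hu
      have : kk.map res ∈ Qb :=
        Ideal.mem_map_of_mem (mapRingHom res) ((IsLocalRing.mem_maximalIdeal _).mpr hu)
      rw [hkk', Submodule.IsPrincipal.mem_iff_generator_dvd Qb] at this
      exact hh (hsep.squarefree h (by rw [hk]; exact mul_dvd_mul_left h this))
    have h0 : (kk * p - g * cc).map res = 0 := by
      rw [Polynomial.map_sub, Polynomial.map_mul, Polynomial.map_mul, hkk', hcc',
        show p.map res = h * c from hc, hk]
      ring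
    obtain ⟨b, hb⟩ := hker _ h0
    refine ⟨kk, b, hk', ?_⟩
    have h1 := congrArg Φ hb
    simp only [map_sub, map_mul, hgΦ, zero_mul, sub_zero] at h1
    simpa [Φ] using h1
  -- all orders
  have hall : ∀ z : F', z ≠ 0 → ∃ (n : ℤ) (u : V), IsUnit u ∧
      z = (algebraMap F F' (π : F)) ^ n * (u : F') := by
    intro z hz
    have hmem : z ∈ IntermediateField.adjoin F (Set.range (algebraMap L F')) := hgen ▸ trivial
    obtain ⟨T, hT, hzT⟩ :=
      IntermediateField.exists_finset_of_mem_adjoin hmem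
    choose! pre hpre using fun t (ht : t ∈ T) => hT ht
    let M : IntermediateField K L := IntermediateField.adjoin K ((T.image pre : Finset L) : Set L)
    have : FiniteDimensional K M :=
      IntermediateField.finiteDimensional_adjoin fun x _ => Algebra.IsIntegral.isIntegral x
    obtain ⟨⟨θ, hθ⟩, hprim⟩ := Field.exists_primitive_element K M
    have hzθ : z ∈ IntermediateField.adjoin F {algebraMap L F' θ} := by
      refine IntermediateField.adjoin_le_iff.mpr (fun t ht => ?_) hzT
      have h1 : pre t ∈ IntermediateField.adjoin K {θ} := by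
        have h2 : (⟨pre t, IntermediateField.subset_adjoin K _
            (Finset.mem_coe.mpr (Finset.mem_image_of_mem pre ht))⟩ : M) ∈
            IntermediateField.adjoin K {(⟨θ, hθ⟩ : M)} := hprim ▸ IntermediateField.mem_top
        have h3 : pre t ∈ (IntermediateField.adjoin K {(⟨θ, hθ⟩ : M)}).map M.val :=
          ⟨_, h2, rfl⟩
        rwa [IntermediateField.adjoin_map, Set.image_singleton] at h3
      rw [← hpre t ht]
      have h4 : algebraMap L F' (pre t) ∈
          (IntermediateField.adjoin K {θ}).map (IsScalarTower.toAlgHom K L F') := ⟨_, h1, rfl⟩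
      rw [IntermediateField.adjoin_map, Set.image_singleton] at h4
      have hle' : IntermediateField.adjoin K {algebraMap L F' θ} ≤
          (IntermediateField.adjoin F {algebraMap L F' θ}).restrictScalars K :=
        IntermediateField.adjoin_le_iff.mpr (IntermediateField.subset_adjoin F _)
      exact hle' h4
    have hθalg : IsAlgebraic F (algebraMap L F' θ) :=
      (((Algebra.IsIntegral.isIntegral (R := K) θ).map
        (IsScalarTower.toAlgHom K L F')).tower_top).isAlgebraic
    rw [← IntermediateField.mem_toSubalgebra,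
      IntermediateField.adjoin_simple_toSubalgebra_of_isAlgebraic hθalg,
      Algebra.adjoin_singleton_eq_range_aeval] at hzθ
    obtain ⟨P, hP⟩ := hzθ
    have hP : aeval (algebraMap L F' θ) P = z := hP
    obtain ⟨⟨c, hc⟩, hcP⟩ := IsLocalization.integerNormalization_map_to_map (nonZeroDivisors O) P
    set p := IsLocalization.integerNormalization (nonZeroDivisors O) P
    have hcoe : ∀ a : O, algebraMap F F' (algebraMap O F a) = (ι a : F') := fun _ => rfl
    have hval : ((eval₂ ι (⟨_, hL θ⟩ : V) p : V) : F') = (ι c : F') * z := by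
      have h1 := congrArg (aeval (algebraMap L F' θ)) hcP
      rw [Algebra.smul_def, map_mul, hP, Polynomial.algebraMap_apply, aeval_C, hcoe, aeval_def,
        eval₂_map] at h1
      show V.subtype (eval₂ ι ⟨_, hL θ⟩ p) = _
      rw [hom_eval₂, ← h1]
      rfl
    have hc0 : (ι c : F') ≠ 0 := fun h => nonZeroDivisors.ne_zero hc
      (Subtype.ext ((algebraMap F F').injective (by simpa [ι] using h)))
    have hp : eval₂ ι ⟨_, hL θ⟩ p ≠ 0 := fun h => by
      have := congrArg Subtype.val h
      rw [hval] at this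
      exact mul_ne_zero hc0 hz this
    obtain ⟨n, u, hu, hpu⟩ := key θ p hp
    obtain ⟨r, w, hw⟩ := IsDiscreteValuationRing.eq_unit_mul_pow_irreducible
      (nonZeroDivisors.ne_zero hc) hπirr
    refine ⟨(n : ℤ) - r, u * ((w.map (ι : O →* V))⁻¹ : Vˣ), hu.mul (Units.isUnit _), ?_⟩
    have hπF : (algebraMap F F' (π : F)) ≠ 0 := fun h => hπ0 (Subtype.ext h)
    have hcw : (ι c : F') = (ι (w : O) : F') * (algebraMap F F' (π : F)) ^ r := by
      rw [hw, map_mul, map_pow]; rfl
    have h1 : ((eval₂ ι (⟨_, hL θ⟩ : V) p : V) : F') =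
        (algebraMap F F' (π : F)) ^ n * (u : F') := by
      rw [hpu]; rfl
    have hwinv : (ι (w : O) : F') * ((((w.map (ι : O →* V))⁻¹ : Vˣ) : V) : F') = 1 :=
      congrArg Subtype.val (w.map (ι : O →* V)).mul_inv
    rw [zpow_sub₀ hπF, zpow_natCast, zpow_natCast, MulMemClass.coe_mul]
    rw [hval, hcw] at h1
    field_simp
    linear_combination ((((w.map (ι : O →* V))⁻¹ : Vˣ) : V) : F') * h1 -
      z * (algebraMap F F' (π : F)) ^ r * hwinv
  have hπval : ∀ {n : ℤ} {u : V}, IsUnit u →
      (algebraMap F F' (π : F)) ^ n * (u : F') ∈ V → 0 ≤ n := by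
    intro n u hu hmem
    by_contra hn
    obtain ⟨k, hk⟩ : ∃ k : ℕ, n = -((k + 1 : ℕ) : ℤ) := ⟨(-n - 1).toNat, by omega⟩
    subst hk
    apply hπV
    refine isUnit_of_dvd_unit ?_ hu
    refine ⟨ι π ^ k * ⟨_, hmem⟩, Subtype.ext ?_⟩
    show (u : F') = algebraMap F F' (π : F) * ((algebraMap F F' (π : F)) ^ k *
      ((algebraMap F F' (π : F)) ^ (-((k + 1 : ℕ) : ℤ)) * (u : F')))
    rw [← mul_assoc, ← pow_succ', zpow_neg, zpow_natCast, ← mul_assoc,
      mul_inv_cancel₀ (pow_ne_zero (k + 1) (show algebraMap F F' (π : F) ≠ 0 from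
        fun h => hπ0 (Subtype.ext h))), one_mul]
  have hpow : ∀ x : V, x ≠ 0 → ∃ n : ℕ, Associated (ι π ^ n) x := by
    intro x hx
    obtain ⟨n, u, hu, hxu⟩ := hall x fun h => hx (Subtype.ext h)
    obtain ⟨n, rfl⟩ : ∃ k : ℕ, n = k := ⟨n.toNat, by
      have := hπval hu (hxu ▸ x.2); omega⟩
    exact ⟨n, hu.unit, Subtype.ext (by rw [hxu, zpow_natCast]; rfl)⟩
  have hirrV : Irreducible (ι π) := by
    refine ⟨hπV, fun a b hab => ?_⟩
    by_contra! hne
    have hab0 : a * b ≠ 0 := hab ▸ hπ0
    obtain ⟨i, hi⟩ := hpow a (left_ne_zero_of_mul hab0)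
    obtain ⟨j, hj⟩ := hpow b (right_ne_zero_of_mul hab0)
    have hi0 : i ≠ 0 := by rintro rfl; exact hne.1 (hi.isUnit (by simp))
    have hj0 : j ≠ 0 := by rintro rfl; exact hne.2 (hj.isUnit (by simp))
    obtain ⟨u, hu⟩ := hi.mul_mul hj
    rw [← hab, ← pow_add] at hu
    obtain ⟨k, hk⟩ : ∃ k, i + j = k + 2 := ⟨i + j - 2, by omega⟩
    rw [hk] at hu
    apply hπV
    refine IsUnit.of_mul_eq_one (ι π ^ k * u) (mul_left_cancel₀ hπ0 ?_)
    linear_combination hu
  have : IsDiscreteValuationRing V :=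
    IsDiscreteValuationRing.ofHasUnitMulPowIrreducibleFactorization
      ⟨ι π, hirrV, fun {x} hx => hpow x hx⟩
  have hne_top : V ≠ ⊤ := fun h => hπV (by
    have hmem : (algebraMap F F' (π : F))⁻¹ ∈ V := h ▸ ValuationSubring.mem_top _
    exact isUnit_iff_exists_inv.mpr ⟨⟨_, hmem⟩,
      Subtype.ext (mul_inv_cancel₀ fun h' => hπ0 (Subtype.ext h'))⟩)
  let w : Place L F' :=
    { toValuationSubring := V
      algebraMap_mem' := hL
      ne_top' := hne_top
      isPrincipalIdealRing' := inferInstance }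
  refine ⟨w, fun f hf => ?_⟩
  -- both orders are the exponent of the uniformiser
  have hmain : ∀ (n : ℕ) (u : Oˣ), w.ord (algebraMap F F' ((π : F) ^ n * ((u : O) : F))) =
      v.ord ((π : F) ^ n * ((u : O) : F)) := by
    intro n u
    have hπF : (π : F) ≠ 0 := fun h => hπirr.ne_zero (Subtype.ext h)
    have hπF' : algebraMap F F' (π : F) ≠ 0 := (_root_.map_ne_zero _).mpr hπF
    have huF : ((u : O) : F) ≠ 0 := fun h => u.ne_zero (Subtype.ext h)
    have hv : ∀ n : ℕ, v.ord ((π : F) ^ n) = n ∧
        w.ord ((algebraMap F F' (π : F)) ^ n) = n := by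
      intro n
      induction n with
      | zero => simp
      | succ n ih =>
        have h1 : v.ord (π : F) = 1 := v.ord_coe_irreducible hπirr
        have h2 : w.ord (algebraMap F F' (π : F)) = 1 := w.ord_coe_irreducible hirrV
        refine ⟨?_, ?_⟩
        · rw [pow_succ, v.ord_mul (pow_ne_zero _ hπF) hπF, ih.1, h1]; simp
        · rw [pow_succ, w.ord_mul (pow_ne_zero _ hπF') hπF', ih.2, h2]; simp
    have hu : w.ord (algebraMap F F' ((u : O) : F)) = 0 :=
      w.ord_coe_unit (u.map (ι : O →* V))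
    rw [map_mul, map_pow, v.ord_mul (pow_ne_zero _ hπF) huF, v.ord_coe_unit u, (hv n).1,
      w.ord_mul (pow_ne_zero _ hπF')
        ((_root_.map_ne_zero _).mpr huF), (hv n).2, hu]
  rcases O.mem_or_inv_mem f with h | h
  · obtain ⟨n, u, hu⟩ := IsDiscreteValuationRing.eq_unit_mul_pow_irreducible
      (show (⟨f, h⟩ : O) ≠ 0 from fun h0 => hf (congrArg Subtype.val h0)) hπirr
    have hf' : f = (π : F) ^ n * ((u : O) : F) := by
      simpa [mul_comm] using congrArg Subtype.val hu
    rw [hf', hmain]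
  · obtain ⟨n, u, hu⟩ := IsDiscreteValuationRing.eq_unit_mul_pow_irreducible
      (show (⟨f⁻¹, h⟩ : O) ≠ 0 from fun h0 => inv_ne_zero hf (congrArg Subtype.val h0)) hπirr
    have hf' : f = ((π : F) ^ n * ((u : O) : F))⁻¹ := by
      rw [← inv_inv f]
      simpa [mul_comm] using congrArg (fun x : O => (x : F)⁻¹) hu
    rw [hf', map_inv₀, w.ord_inv, v.ord_inv, hmain]

section Horiz

/-- `HorizDvd` when every order of `f` over the algebraic closure of the constants is divisible
by `m`. -/
theorem horizDvd_of_ord_dvd {W K L F F' : Type} [CommRing W] [IsDomain W]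
    [IsDiscreteValuationRing W] [Field K] [CharZero K] [Algebra W K] [IsFractionRing W K]
    [Field L] [Algebra K L] [Algebra.IsAlgebraic K L] [Field F] [Algebra W F] [Algebra K F]
    [IsScalarTower W K F] [Field F'] [Algebra L F'] [Algebra F F'] [Algebra K F']
    [IsScalarTower K L F'] [IsScalarTower K F F']
    (hgen : IntermediateField.adjoin F (Set.range (algebraMap L F')) = ⊤) (m : ℕ) {f : F}
    (hf : f ≠ 0) (h : ∀ w : Place L F', (m : ℤ) ∣ w.ord (algebraMap F F' f)) :
    HorizDvd W m f := by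
  intro O hO hW
  have hK : ∀ a : K, algebraMap K F a ∈ O := by
    intro a
    obtain ⟨x, y, hy, rfl⟩ := IsFractionRing.div_surjective W a
    rw [map_div₀, ← IsScalarTower.algebraMap_apply, ← IsScalarTower.algebraMap_apply,
      div_eq_mul_inv]
    rcases eq_or_ne x 0 with rfl | hx
    · simp
    · exact O.mul_mem _ _ (hW x hx).1 (hW y (nonZeroDivisors.ne_zero hy)).2
  have hne : O ≠ ⊤ := by
    intro htop
    have hall' : ∀ z : F, z ∈ O := fun z => by rw [htop]; exact ValuationSubring.mem_top z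
    obtain ⟨ϖ, hϖ⟩ := IsDiscreteValuationRing.exists_irreducible O
    apply hϖ.not_isUnit
    refine isUnit_iff_exists_inv.mpr ⟨⟨(ϖ : F)⁻¹, hall' _⟩,
      Subtype.ext (mul_inv_cancel₀ fun h0 => hϖ.ne_zero (Subtype.ext h0))⟩
  let v : Place K F :=
    { toValuationSubring := O
      algebraMap_mem' := hK
      ne_top' := hne
      isPrincipalIdealRing' := inferInstance }
  obtain ⟨w, hw⟩ := exists_place_ord_eq hgen v
  obtain ⟨k, hk⟩ := h w
  rw [hw f hf] at hk
  obtain ⟨ϖ, hϖ⟩ := IsDiscreteValuationRing.exists_irreducible O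
  have hϖ0 : (ϖ : F) ≠ 0 := fun h0 => hϖ.ne_zero (Subtype.ext h0)
  have hpow : ∀ n : ℤ, v.ord ((ϖ : F) ^ n) = n := by
    have hnat : ∀ n : ℕ, v.ord ((ϖ : F) ^ n) = n := by
      intro n
      induction n with
      | zero => simp
      | succ n ih =>
        rw [pow_succ, v.ord_mul (pow_ne_zero _ hϖ0) hϖ0, ih,
          show v.ord (ϖ : F) = 1 from v.ord_coe_irreducible hϖ]
        simp
    intro n
    obtain ⟨j, rfl | rfl⟩ := n.eq_nat_or_neg
    · rw [zpow_natCast, hnat]
    · rw [zpow_neg, zpow_natCast, v.ord_inv, hnat]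
  have hunit : ∀ u : F, u ≠ 0 → v.ord u = 0 → u ∈ O := by
    intro u hu0 hu
    rcases O.mem_or_inv_mem u with h1 | h1
    · exact h1
    obtain ⟨n, e, he⟩ := IsDiscreteValuationRing.eq_unit_mul_pow_irreducible
      (show (⟨u⁻¹, h1⟩ : O) ≠ 0 from fun h0 => inv_ne_zero hu0 (congrArg Subtype.val h0)) hϖ
    have he' : u⁻¹ = ((e : O) : F) * (ϖ : F) ^ n := congrArg Subtype.val he
    have hord : v.ord u⁻¹ = 0 := by rw [v.ord_inv, hu, neg_zero]
    rw [he', v.ord_mul (fun h0 => e.ne_zero (Subtype.ext h0)) (pow_ne_zero _ hϖ0),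
      v.ord_coe_unit e, zero_add, ← zpow_natCast, hpow] at hord
    obtain rfl : n = 0 := by exact_mod_cast hord
    rw [← inv_inv u, he', pow_zero, mul_one]
    have h2 : ((e : O) : F)⁻¹ = ((↑e⁻¹ : O) : F) :=
      inv_eq_of_mul_eq_one_right (congrArg Subtype.val e.mul_inv)
    rw [h2]
    exact SetLike.coe_mem _
  have hord0 : v.ord (f * (ϖ : F) ^ (-(m * k : ℤ))) = 0 := by
    rw [v.ord_mul hf (zpow_ne_zero _ hϖ0), hpow, hk]; ring
  refine ⟨(ϖ : F) ^ k, f * (ϖ : F) ^ (-(m * k : ℤ)),
    hunit _ (mul_ne_zero hf (zpow_ne_zero _ hϖ0)) hord0, ?_, ?_⟩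
  · refine hunit _ (inv_ne_zero (mul_ne_zero hf (zpow_ne_zero _ hϖ0))) ?_
    rw [v.ord_inv, hord0, neg_zero]
  · rw [← zpow_natCast, ← zpow_mul, mul_left_comm, ← zpow_add₀ hϖ0,
      show (k * (m : ℕ) + -((m : ℤ) * k) : ℤ) = 0 by ring, zpow_zero, mul_one]

end Horiz

end Fermat.Agent.Carayol
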