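/-
The constants: the fixed field of inertia at a place over `q`, and the extension by a primitive
`q²`-th root of unity.
-/
import Fermat.Agent.Carayol.Setting
import Fermat.Agent.CarayolHigh.Base

set_option autoImplicit false

noncomputable section

open ModularCurve IsLocalRing
open Fermat.Agent.CarayolHigh

namespace Fermat.Agent.Carayol

local notation "Qb" => AlgebraicClosure ℚ

/-- The residue characteristic facts and the constants exist. -/
theorem exists_consts {q : ℕ} (hq : q.Prime) {A₀ : ValuationSubring Qb}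
    (hA : A₀.LiesOverPrime q) :
    ∃ (K : Type) (_ : Field K) (_ : Algebra ℚ K) (_ : Algebra K Qb) (K' : Type) (_ : Field K')
      (_ : Algebra ℚ K') (κ : K →+* K') (ι : K' →+* Qb) (η : K'ˣ),
      Consts A₀ q (residue A₀) κ ι η := by
  have : NeZero (q ^ 2) := ⟨pow_ne_zero _ hq.ne_zero⟩
  have : NeZero ((q ^ 2 : ℕ) : Qb) := ⟨Nat.cast_ne_zero.mpr (pow_ne_zero _ hq.ne_zero)⟩
  obtain ⟨η₀, hη₀⟩ := HasEnoughRootsOfUnity.exists_primitiveRoot Qb (q ^ 2)
  let K := inertiaField A₀
  let E : IntermediateField K Qb := IntermediateField.adjoin K {η₀}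
  have : FiniteDimensional K E :=
    IntermediateField.adjoin.finiteDimensional (Algebra.IsIntegral.isIntegral η₀)
  have hηE : η₀ ∈ E := IntermediateField.mem_adjoin_simple_self K η₀
  have hη' : IsPrimitiveRoot (⟨η₀, hηE⟩ : E) (q ^ 2) :=
    IsPrimitiveRoot.of_map_of_injective (f := E.val) (by exact hη₀) E.val.injective
  refine ⟨K, inferInstance, inferInstance, inferInstance, E, inferInstance, inferInstance,
    algebraMap K E, E.val.toRingHom, (hη'.isUnit (NeZero.ne _)).unit,
    { hq := hq
      liesOver := hA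
      comp := RingHom.ext fun _ => rfl
      fixed := fun x => ⟨fun ⟨y, hy⟩ σ hσ => hy ▸ mem_inertiaField_iff.mp y.2 σ hσ,
        fun h => ⟨⟨x, mem_inertiaField_iff.mpr h⟩, rfl⟩⟩
      galois := IsGalois.tower_top_of_isGalois ℚ K Qb
      dvr := isDiscreteValuationRing_baseRing_of_finite hA hq E
      dvrA := isDiscreteValuationRing_baseRing hA hq
      irreducible_q := irreducible_natCast_baseRing hA hq
      π₀_surj := residue_surjective
      π₀_eq_zero_iff := fun a => by rw [residue_eq_zero_iff, mem_maximalIdeal, mem_nonunits_iff]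
      normal := fun N _ hN hqN => Etale.normal_residue hq hqN hA
      normalInv := fun N _ hN hqN => RED.normal_x0ParamInv hq hqN hA
      surj := baseRed_surjective hA hq
      algClosed := Galois.place_residueField_isAlgClosed A₀
      charP := Galois.place_charP_residueField hA hq
      hη := IsPrimitiveRoot.coe_units_iff.mp (by rw [IsUnit.unit_spec]; exact hη')
      sigma := fun u hu => ?_ }⟩
  obtain ⟨σ, hση, hσK, hσA, hσπ⟩ := exists_inertia_rootOfUnity hA hq hη₀ hu
  let σK : Qb →ₐ[K] Qb := { (σ : Qb →ₐ[ℚ] Qb).toRingHom with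
    commutes' := fun x => hσK x x.2 }
  have hle : E.map σK ≤ E := by
    rw [IntermediateField.adjoin_map, Set.image_singleton, IntermediateField.adjoin_simple_le_iff]
    show σ η₀ ∈ E
    rw [hση]
    exact pow_mem hηE u
  let σE : E →+* E := (σK.toRingHom.comp E.val.toRingHom).codRestrict E.toSubfield
    fun x => hle ⟨x, x.2, rfl⟩
  refine ⟨σE, fun c hc => (hσA (c : Qb)).mpr hc, RingHom.ext fun c => Subtype.ext (hσK c c.2),
    Subtype.ext ?_, fun c => ?_⟩
  · show σ η₀ = _
    rw [hση]
    rfl
  · rw [← sub_eq_zero, constRes, RingHom.comp_apply, RingHom.comp_apply, ← map_sub,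
      residue_eq_zero_iff, mem_maximalIdeal, mem_nonunits_iff]
    intro hu'
    have h1 := hσπ _ c.2
    rw [← SetLike.mem_coe, ← A₀.image_maximalIdeal] at h1
    obtain ⟨y, hy, hy'⟩ := h1
    apply (mem_nonunits_iff.mp ((mem_maximalIdeal y).mp hy))
    convert hu' using 1
    exact Subtype.ext hy'

end Fermat.Agent.Carayol
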