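/-
The degeneracy maps between Jacobians of modular curves: pullback and pushforward, their Galois
equivariance, and `push ∘ pull = deg`.
-/
import Fermat.Agent.HK.HeckeFinal

set_option autoImplicit false

noncomputable section

open AlgebraicCurve ModularCurve
open Fermat.Agent.HK.Corr

namespace Fermat.Agent.Carayol

local notation "Qb" => AlgebraicClosure ℚ

variable {M N : ℕ} [NeZero M] [NeZero N] (d : ℕ) [NeZero d] (h : M * d ∣ N)

/-- The pushforward on divisors of degree zero along the degeneracy map. -/
def pushJDeg : Divisor.degZero (K := Qb) (F := modularFunctionFieldBar N) →+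
    Divisor.degZero (K := Qb) (F := modularFunctionFieldBar M) :=
  ((Divisor.pushforwardAlong (degenMap Qb d h)
    (isIntegral_degenMap (degreeInput Qb) d h)).domRestrict _).codRestrict _
    fun D => Divisor.pushforwardAlong_mem_degZero (degenMap Qb d h)
      (isIntegral_degenMap (degreeInput Qb) d h) D.2

/-- The pushforward along the degeneracy map. -/
def pushJ : JZero N →+ JZero M :=
  QuotientAddGroup.map _ _ (pushJDeg d h) (by
    rintro ⟨D, hD0⟩ hD
    simp only [AddSubgroup.mem_addSubgroupOf] at hD ⊢
    show (Divisor.pushforwardAlong (degenMap Qb d h)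
      (isIntegral_degenMap (degreeInput Qb) d h) D).IsPrincipal
    exact Divisor.isPrincipal_pushforwardAlong _ _ (finiteAlong_degenMap (degreeInput Qb) d h)
      (FF.normFormulaAlong _ _ (separableAlong_degenMap (degreeInput Qb) d h)) hD)

theorem pushJ_mk (D : Divisor.degZero (K := Qb) (F := modularFunctionFieldBar N)) :
    pushJ d h (Pic0.mk D) = Pic0.mk (pushJDeg d h D) := rfl

theorem coe_pushJDeg (D : Divisor.degZero (K := Qb) (F := modularFunctionFieldBar N)) :
    (pushJDeg d h D : Divisor Qb (modularFunctionFieldBar M)) =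
      Divisor.pushforwardAlong (degenMap Qb d h) (isIntegral_degenMap (degreeInput Qb) d h)
        (D : Divisor Qb (modularFunctionFieldBar N)) := rfl

/-- The pullback on divisors of degree zero along the degeneracy map. -/
def pullJDeg : Divisor.degZero (K := Qb) (F := modularFunctionFieldBar M) →+
    Divisor.degZero (K := Qb) (F := modularFunctionFieldBar N) :=
  haveI := hasPrincipalDivisors_level Qb N
  ((Divisor.pullbackAlong (degenMap Qb d h)
    (isIntegral_degenMap (degreeInput Qb) d h)).domRestrict _).codRestrict _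
    fun D => Divisor.pullbackAlong_mem_degZero (degenMap Qb d h)
      (isIntegral_degenMap (degreeInput Qb) d h)
      (FF.fundamentalIdentityAlong _ _ (finiteAlong_degenMap (degreeInput Qb) d h)
        (separableAlong_degenMap (degreeInput Qb) d h)) D.2

/-- The pullback along the degeneracy map. -/
def pullJ : JZero M →+ JZero N :=
  QuotientAddGroup.map _ _ (pullJDeg d h) (by
    haveI := hasPrincipalDivisors_level Qb N
    rintro ⟨D, hD0⟩ hD
    simp only [AddSubgroup.mem_addSubgroupOf] at hD ⊢
    show (Divisor.pullbackAlong (degenMap Qb d h)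
      (isIntegral_degenMap (degreeInput Qb) d h) D).IsPrincipal
    exact Divisor.isPrincipal_pullbackAlong _ _ hD)

theorem pullJ_mk (D : Divisor.degZero (K := Qb) (F := modularFunctionFieldBar M)) :
    pullJ d h (Pic0.mk D) = Pic0.mk (pullJDeg d h D) := rfl

/-- `push ∘ pull` is the degree. -/
theorem pushJ_pullJ (x : JZero M) :
    pushJ d h (pullJ d h x) = finrankAlong Qb (degenMap Qb d h) • x := by
  haveI := hasPrincipalDivisors_level Qb N
  obtain ⟨D, rfl⟩ := Pic0.mk_surjective x
  rw [pullJ_mk, pushJ_mk]
  refine Eq.trans ?_ (map_nsmul (QuotientAddGroup.mk' _) _ D)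
  refine congrArg Pic0.mk (Subtype.ext ?_)
  rw [coe_pushJDeg]
  refine (FF.pushforwardAlong_pullbackAlong _ _ (finiteAlong_degenMap (degreeInput Qb) d h)
    (separableAlong_degenMap (degreeInput Qb) d h) _).trans ?_
  rw [natCast_zsmul]
  rfl

theorem finrankAlong_degen_ne_zero : finrankAlong Qb (degenMap Qb d h) ≠ 0 := by
  letI := algebraAlong (degenMap Qb d h)
  haveI : Module.Finite (modField Qb M) (modField Qb N) :=
    finiteAlong_degenMap (degreeInput Qb) d h
  exact Module.finrank_pos.ne'

omit [NeZero M] [NeZero N] in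
theorem intertwines_degenMap (σ : Qb ≃ₐ[ℚ] Qb) :
    SemilinearAut.IntertwinesAlong (degenMap Qb d h).toRingHom
      (arithmeticGalois (modularFunctionFieldFull M) σ)
      (arithmeticGalois (modularFunctionFieldFull N) σ) :=
  intertwines_of_coe σ (degenMap Qb d h) (qExpand Qb d)
    (fun x => ModularCurve.coeffMap_qExpand (σ : Qb →+* Qb) d x)
    (fun x => coe_degenMap d h x)

theorem pushJ_smul (σ : Qb ≃ₐ[ℚ] Qb) (x : JZero N) : pushJ d h (σ • x) = σ • pushJ d h x := by
  obtain ⟨D, rfl⟩ := Pic0.mk_surjective x
  rw [galois_smul_pic0_def, galois_smul_pic0_def, SemilinearAut.pic0_smul_mk, pushJ_mk, pushJ_mk,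
    SemilinearAut.pic0_smul_mk]
  refine congrArg Pic0.mk (Subtype.ext ?_)
  rw [coe_pushJDeg, SemilinearAut.coe_degZeroSMulHom, SemilinearAut.coe_degZeroSMulHom,
    coe_pushJDeg]
  exact pushforwardAlong_smul (degenMap Qb d h) _ (intertwines_degenMap d h σ) _

theorem pullJ_smul (σ : Qb ≃ₐ[ℚ] Qb) (x : JZero M) : pullJ d h (σ • x) = σ • pullJ d h x := by
  haveI := hasPrincipalDivisors_level Qb N
  obtain ⟨D, rfl⟩ := Pic0.mk_surjective x
  rw [galois_smul_pic0_def, galois_smul_pic0_def, SemilinearAut.pic0_smul_mk, pullJ_mk, pullJ_mk,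
    SemilinearAut.pic0_smul_mk]
  refine congrArg Pic0.mk (Subtype.ext ?_)
  exact pullbackAlong_smul (degenMap Qb d h) (isIntegral_degenMap (degreeInput Qb) d h)
    (intertwines_degenMap d h σ) _

end Fermat.Agent.Carayol
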