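/-
The middle branches of `X₀(q² L)` at `q`: `d, d q ↦ J_d, J_{dq}` and `d q² ↦ J_d (z Q)` for a `q`-th
root of unity `z ≠ 1`, and the resulting family of embeddings over the constants.
-/
import Fermat.Agent.Carayol.Relative
import Mathlib.RingTheory.RootsOfUnity.Complex

set_option autoImplicit false

noncomputable section

open UpperHalfPlane HahnSeries ModularCurve IntermediateField
open Fermat.Agent.Igusa Fermat.Agent.RED.Spec Fermat.Agent.HK.Corr
open scoped MatrixGroups Real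

namespace Fermat.Agent.Carayol

local notation "𝕢" => Function.Periodic.qParam

/-- The expansion of `j (d (τ + b))`. -/
theorem hasExp_genFun_vadd {M : ℕ} (d : DivIdx M) (b : ℝ) (u : ℂˣ)
    (hu : (u : ℂ) = Complex.exp (2 * π * Complex.I * b)) :
    HasExp 1 (fun τ => genFun d (b +ᵥ τ)) (qScale u (genSer ℂ d)) := by
  have h := (hasExp_genFun d).comp (h' := 1) (fun τ => b +ᵥ τ) u 1 fun τ => by
    rw [hu, pow_one, Function.Periodic.qParam, Function.Periodic.qParam, ← Complex.exp_add,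
      UpperHalfPlane.coe_vadd]
    congr 1
    push_cast
    ring
  rwa [qExpand_one_apply] at h

variable {L₀ q : ℕ} [NeZero L₀] [NeZero q]

omit [NeZero L₀] [NeZero q] in
/-- The substitution realising a middle branch. -/
theorem exists_genFun_mid (hq : q.Prime) (hqL : ¬ q ∣ L₀) {b : ℕ} (hb : b.Coprime q) :
    ∃ W : ℍ → ℍ, Function.Surjective W ∧
      (∀ (d : DivIdx (L₀ * q ^ 2)) (τ : ℍ), qExp hq d ≠ 2 → genFun d (W τ) = genFun d τ) ∧
      ∀ (d : DivIdx (L₀ * q ^ 2)) (τ : ℍ), qExp hq d = 2 →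
        genFun d (W τ) = genFun (freeIdx hq hqL d) (((b : ℝ) / q) +ᵥ τ) := by
  obtain ⟨s, t, hst⟩ : IsCoprime ((L₀ : ℤ) * b) (q : ℤ) := Int.isCoprime_iff_gcd_eq_one.mpr (by
    exact_mod_cast Nat.Coprime.mul_left (hq.coprime_iff_not_dvd.mpr hqL).symm hb)
  let γ : SL(2, ℤ) := slMk 1 0 ((L₀ : ℤ) * q * s) 1 (by ring)
  refine ⟨fun τ => γ • τ, fun τ => ⟨γ⁻¹ • τ, by simp⟩, fun d τ hd2 => ?_, fun d τ hd2 => ?_⟩
  · obtain ⟨hd, hi, hc, he⟩ := qFree_spec hq hqL d
    obtain ⟨m, hm⟩ : d.1 ∣ L₀ * q := by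
      rw [hd]
      exact mul_dvd_mul hc (dvd_trans (pow_dvd_pow q (show qExp hq d ≤ 1 by omega))
        (by rw [pow_one]))
    have hdZ : (L₀ : ℤ) * q * s = (d.1 : ℤ) * ((m : ℤ) * s) := by
      rw [← mul_assoc]
      congr 1
      exact_mod_cast hm
    show MF.kleinJ (ModularForm.heckeDiagMatrix d.1 • γ • τ) = _
    have h2 := jFun_scale_smul d.1 d.2.1.ne' 1 0 ((m : ℤ) * s) 1 (by ring) τ
    rw [show γ = slMk 1 0 ((d.1 : ℤ) * ((m : ℤ) * s)) 1 (by ring) from
      Subtype.ext (by simp [γ, slMk, hdZ])]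
    exact h2
  · obtain ⟨hd, -, ⟨c, hc⟩, he⟩ := qFree_spec hq hqL d
    rw [hd2] at hd
    set e := qFree hq d
    have hcC : (L₀ : ℂ) = e * c := by exact_mod_cast hc
    have hcZ : (L₀ : ℤ) = e * c := by exact_mod_cast hc
    have hq0 : (q : ℂ) ≠ 0 := Nat.cast_ne_zero.mpr hq.ne_zero
    have hstC : (s : ℂ) * ((L₀ : ℂ) * b) + t * q = 1 := by exact_mod_cast hst
    show MF.kleinJ (ModularForm.heckeDiagMatrix d.1 • γ • τ) =
      MF.kleinJ (ModularForm.heckeDiagMatrix e • (((b : ℝ) / q) +ᵥ τ))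
    rw [← MF.kleinJ_smul (slMk (q : ℤ) (-((e : ℤ) * b)) ((c : ℤ) * s) t (by
        linear_combination hst - (s : ℤ) * b * hcZ))
      (ModularForm.heckeDiagMatrix e • (((b : ℝ) / q) +ᵥ τ))]
    congr 1
    refine UpperHalfPlane.ext ?_
    rw [ModularForm.coe_heckeDiagMatrix_smul d.2.1.ne', coe_slMk_smul, coe_slMk_smul,
      ModularForm.coe_heckeDiagMatrix_smul he.ne', UpperHalfPlane.coe_vadd, hd]
    push_cast
    rw [mul_div_assoc']
    have hden : (c : ℂ) * s * ((e : ℂ) * ((b : ℂ) / q + τ)) + t =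
        ((L₀ : ℂ) * q * s * τ + 1) / q := by
      rw [eq_div_iff hq0]
      linear_combination hstC + ((-(s : ℂ) * b - (s : ℂ) * q * τ)) * hcC +
        (c : ℂ) * s * e * (div_mul_cancel₀ (b : ℂ) hq0)
    have hnum : (q : ℂ) * ((e : ℂ) * ((b : ℂ) / q + τ)) + -((e : ℂ) * b) =
        ((e : ℂ) * (q : ℂ) ^ 2 * (1 * τ + 0)) / q := by
      rw [eq_div_iff hq0]
      linear_combination (q : ℂ) * e * (div_mul_cancel₀ (b : ℂ) hq0)
    rw [hden, hnum, div_div_div_cancel_right₀ hq0]

variable {K K' : Type*} [Field K] [Field K']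

/-- The middle branch. -/
theorem exists_embedding_mid [Algebra ℚ K] (ι : K →+* ℂ) (hq : q.Prime) (hqL : ¬ q ∣ L₀) {z : Kˣ}
    (hz : IsPrimitiveRoot z q) :
    ∃ φ : modField K (L₀ * q ^ 2) →ₐ[K] LaurentSeries K,
      ∀ d, φ ⟨genSer K d, genSer_mem d⟩ = midVal hq hqL z d := by
  have hz' : IsPrimitiveRoot (ι z) q :=
    ((IsPrimitiveRoot.coe_units_iff.mpr hz).map_of_injective ι.injective)
  obtain ⟨b, -, hbq, hb⟩ := (Complex.isPrimitiveRoot_iff _ q hq.ne_zero).mp hz'
  obtain ⟨W, hW, hW1, hW2⟩ := exists_genFun_mid (L₀ := L₀) hq hqL hbq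
  refine exists_substEmbedding ι Nat.one_pos W hW _ fun d => ?_
  by_cases hd : qExp hq d = 2
  · rw [show genFun d ∘ W = fun τ => genFun (freeIdx hq hqL d) (((b : ℝ) / q) +ᵥ τ) from
      funext fun τ => hW2 d τ hd]
    have hs : coeffMap ι (midVal hq hqL z d) =
        qScale (Units.map ι.toMonoidHom z) (genSer ℂ (freeIdx hq hqL d)) := by
      rw [midVal, if_pos hd, coeffMap_qScale, coeffMap_genSer]
    rw [hs]
    refine hasExp_genFun_vadd _ _ _ ?_
    show ι z = _
    rw [← hb]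
    push_cast
    ring_nf
  · rw [show genFun d ∘ W = genFun d from funext fun τ => hW1 d τ hd, midVal, if_neg hd,
      coeffMap_genSer]
    exact hasExp_genFun d

omit [NeZero q] [NeZero L₀] in
/-- Coefficient extension maps the function fields into each other. -/
theorem coeffMap_mem_modField [Algebra ℚ K] [Algebra ℚ K'] (κ : K →+* K') (M : ℕ) [NeZero M]
    {x : LaurentSeries K} (hx : x ∈ modField K M) : coeffMap κ x ∈ modField K' M := by
  rw [modField_eq_adjoin_genSer] at hx ⊢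
  induction hx using adjoin_induction with
  | mem y hy =>
    obtain ⟨d, rfl⟩ := hy
    rw [coeffMap_genSer]
    exact subset_adjoin K' _ ⟨d, rfl⟩
  | algebraMap c =>
    rw [algebraMap_laurentSeries_eq_single, coeffMap_single, ← algebraMap_laurentSeries_eq_single]
    exact IntermediateField.algebraMap_mem _ _
  | add a b _ _ iha ihb => rw [map_add]; exact add_mem iha ihb
  | inv a _ iha => rw [map_inv₀]; exact inv_mem iha
  | mul a b _ _ iha ihb => rw [map_mul]; exact mul_mem iha ihb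

/-- Extension of constants. -/
def fieldExt [Algebra ℚ K] [Algebra ℚ K'] (κ : K →+* K') (M : ℕ) [NeZero M] :
    modField K M →+* modField K' M :=
  ((coeffMap κ).comp (modField K M).val.toRingHom).codRestrict (modField K' M).toSubfield
    fun x => coeffMap_mem_modField κ M x.2

theorem isSubst_comp_fieldExt [Algebra ℚ K] [Algebra ℚ K'] (κ : K →+* K') {M : ℕ} [NeZero M]
    (φ : modField K' M →ₐ[K'] LaurentSeries K') {s : DivIdx M → LaurentSeries K'}
    (hφ : ∀ d, φ ⟨genSer K' d, genSer_mem d⟩ = s d) :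
    IsSubst κ (φ.toRingHom.comp (fieldExt κ M)) s :=
  ⟨fun d hd => by
    rw [← hφ d]
    exact congrArg φ (Subtype.ext (coeffMap_genSer κ d)),
    fun c => by
      show φ (fieldExt κ M (algebraMap K _ c)) = _
      rw [show fieldExt κ M (algebraMap K _ c) = algebraMap K' _ (κ c) from Subtype.ext (by
          show coeffMap κ (algebraMap K (LaurentSeries K) c) = algebraMap K' (LaurentSeries K') (κ c)
          rw [algebraMap_laurentSeries_eq_single, algebraMap_laurentSeries_eq_single,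
            coeffMap_single]),
        AlgHom.commutes, algebraMap_laurentSeries_eq_single]⟩

/-- **The branches.** -/
theorem exists_branchEmbs [Algebra ℚ K] [Algebra ℚ K'] (κ : K →+* K') (ι : K' →+* ℂ) (hq : q.Prime)
    (hqL : ¬ q ∣ L₀) {z : K'ˣ} (hz : IsPrimitiveRoot z q) :
    ∃ e02 ez, BranchEmbs hq hqL κ z (baseEmb κ (L₀ * q ^ 2)) e02 ez := by
  obtain ⟨φ2, hφ2⟩ := exists_embedding_swapTwo (L₀ := L₀) ι hq hqL
  have hk : ∀ k : Fin (q - 1), IsPrimitiveRoot (z ^ ((k : ℕ) + 1)) q := fun k =>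
    hz.pow_of_coprime _ (hq.coprime_iff_not_dvd.mpr fun h => by
      have h1 := Nat.le_of_dvd (by omega) h
      have h2 := k.2
      omega).symm
  choose φ hφ using fun k => exists_embedding_mid (L₀ := L₀) ι hq hqL (hk k)
  exact ⟨_, _, hz, isSubst_baseEmb κ _, isSubst_comp_fieldExt κ φ2 hφ2,
    fun k => isSubst_comp_fieldExt κ (φ k) (hφ k)⟩

end Fermat.Agent.Carayol
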