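/-
Lemmas for the descent of torsion classes: normalised series, orbits under the arithmetic Galois
action, twisting by a cocycle, descent of fixed functions and compatibility of norms with the
extension of constants.
-/
import Fermat.Agent.Carayol.MidBranch
import Fermat.Agent.MF.Coeff.BaseChange
import Fermat.Prelude.Def_ModularCurve_ArithmeticGalois
import Mathlib.RingTheory.RootsOfUnity.AlgebraicallyClosed
import Mathlib.LinearAlgebra.LinearIndependent.Defs
import Mathlib.FieldTheory.Minpoly.Basic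

set_option autoImplicit false
set_option linter.style.haveILetI false

noncomputable section

open HahnSeries ModularCurve AlgebraicCurve IntermediateField
open Fermat.Agent.Igusa Fermat.Agent.RED.Spec Fermat.Agent.HK.Corr

namespace Fermat.Agent.Carayol

/-! ### Leading coefficients -/

theorem leadingCoeff_coeffMap {R S : Type*} [Field R] [Field S] (φ : R →+* S)
    (x : LaurentSeries R) : (coeffMap φ x).leadingCoeff = φ x.leadingCoeff := by
  rcases eq_or_ne x 0 with rfl | hx
  · simp
  have h0 : φ (x.coeff x.order) ≠ 0 := (map_ne_zero φ).mpr (coeff_order_eq_zero.not.mpr hx)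
  have hne : (coeffMap φ x).coeff x.order ≠ 0 := by rwa [coeffMap_coeff]
  have hx' : coeffMap φ x ≠ 0 := ne_zero_of_coeff_ne_zero hne
  have hord : (coeffMap φ x).order = x.order := by
    refine le_antisymm (order_le_of_coeff_ne_zero hne) (order_le_of_coeff_ne_zero ?_)
    have := coeff_order_eq_zero.not.mpr hx'
    rw [coeffMap_coeff] at this
    exact fun h => this (by rw [h, map_zero])
  rw [leadingCoeff_eq, leadingCoeff_eq, hord, coeffMap_coeff]

theorem leadingCoeff_pow' {R : Type*} [Field R] (x : LaurentSeries R) (n : ℕ) :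
    (x ^ n).leadingCoeff = x.leadingCoeff ^ n := by
  induction n with
  | zero => simp
  | succ n ih => rw [pow_succ, leadingCoeff_mul, ih, pow_succ]

theorem leadingCoeff_algebraMap {R : Type*} [Field R] (c : R) :
    (algebraMap R (LaurentSeries R) c).leadingCoeff = c := by
  rw [algebraMap_laurentSeries_eq_single, leadingCoeff_of_single]

/-- Normalised `m`-th roots are unique. -/
theorem eq_of_pow_eq_of_leadingCoeff {L : Type*} [Field L] [IsAlgClosed L] {m : ℕ} (hm : m ≠ 0)
    {x y : LaurentSeries L} (hx : x.leadingCoeff = 1) (hy : y.leadingCoeff = 1)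
    (h : x ^ m = y ^ m) : x = y := by
  have hy0 : y ≠ 0 := leadingCoeff_ne_zero.mp (by rw [hy]; exact one_ne_zero)
  obtain ⟨c, hc⟩ : ∃ c : L, x / y = algebraMap L (LaurentSeries L) c := by
    have hr : (x / y) ^ m = 1 := by rw [div_pow, h, div_self (pow_ne_zero _ hy0)]
    have hint : IsIntegral L (x / y) :=
      IsIntegral.of_pow (Nat.pos_of_ne_zero hm) (hr ▸ isIntegral_one)
    exact ⟨-(minpoly L (x / y)).coeff 0, by
      have hdeg := IsAlgClosed.degree_eq_one_of_irreducible L (minpoly.irreducible hint)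
      have h1 := minpoly.aeval L (x / y)
      rw [(minpoly.monic hint).eq_X_add_C (Polynomial.natDegree_eq_of_degree_eq_some hdeg)] at h1
      simp only [map_add, Polynomial.aeval_X, Polynomial.aeval_C] at h1
      rw [map_neg]
      exact eq_neg_of_add_eq_zero_left h1⟩
  rw [div_eq_iff hy0] at hc
  have h1 := congrArg HahnSeries.leadingCoeff hc
  rw [leadingCoeff_mul, leadingCoeff_algebraMap, hx, hy, mul_one] at h1
  rw [hc, ← h1, map_one, one_mul]

/-! ### Twisting by a cocycle -/

/-- A cocycle depending only on the translates of an element with finite orbit is a coboundary. -/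
theorem exists_twist {Γ F : Type*} [Group Γ] [Field F] (T : Γ → F →+* F)
    (hmul : ∀ σ τ x, T (σ * τ) x = T σ (T τ x)) (f : F) (hfin : (Set.range fun σ => T σ f).Finite)
    (g : Γ → F) (hg0 : ∀ σ, g σ ≠ 0) (hdep : ∀ σ τ, T σ f = T τ f → g σ = g τ)
    (hcoc : ∀ σ τ, g (σ * τ) = g σ * T σ (g τ)) :
    ∃ h : F, h ≠ 0 ∧ ∀ σ, g σ * T σ h = h := by
  classical
  let O := Set.range fun σ => T σ f
  haveI : Fintype O := hfin.fintype
  choose sel hsel using fun o : O => o.2
  let h : ℕ → F := fun n => ∑ o : O, g (sel o) * (o : F) ^ n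
  have hne : ∃ n, h n ≠ 0 := by
    by_contra! hall
    let χ : O → (Multiplicative ℕ →* F) := fun o => powersHom F (o : F)
    have hχ : Function.Injective χ := fun o o' e => by
      have := DFunLike.congr_fun e (Multiplicative.ofAdd 1)
      simpa [χ, Subtype.ext_iff] using this
    have hli := (linearIndependent_monoidHom (Multiplicative ℕ) F).comp χ hχ
    have h0 := Fintype.linearIndependent_iff.mp hli (fun o => g (sel o)) (funext fun n => by
      simpa [χ, Finset.sum_apply] using hall n.toAdd) ⟨T 1 f, ⟨1, rfl⟩⟩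
    exact hg0 _ h0
  obtain ⟨n, hn⟩ := hne
  refine ⟨h n, hn, fun σ => ?_⟩
  let p : O → O := fun o => ⟨T σ o, σ * sel o, by
    show T (σ * sel o) f = T σ o
    rw [hmul, show T (sel o) f = (o : F) from hsel o]⟩
  have hp : Function.Bijective p :=
    (Finite.injective_iff_bijective).mp fun o o' e =>
      Subtype.ext ((T σ).injective (congrArg Subtype.val e))
  calc g σ * T σ (h n) = ∑ o : O, g σ * T σ (g (sel o)) * T σ (o : F) ^ n := by
        simp only [h, map_sum, map_mul, map_pow, Finset.mul_sum, mul_assoc]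
    _ = ∑ o : O, g (sel (p o)) * (p o : F) ^ n := by
        refine Finset.sum_congr rfl fun o _ => ?_
        rw [← hcoc, hdep (σ * sel o) (sel (p o))]
        rw [show T (sel (p o)) f = (p o : F) from hsel (p o), hmul,
          show T (sel o) f = (o : F) from hsel o]
    _ = h n := Fintype.sum_bijective p hp _ _ fun _ => rfl

/-! ### Functions fixed by a Galois group -/

section Fixed

local notation "Qb" => AlgebraicClosure ℚ

/-- Algebraic numbers are integral over `ℚ`. -/
theorem isIntegral_rat (c : Qb) : IsIntegral ℚ c :=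
  ((AlgebraicClosure.isAlgebraic ℚ).isAlgebraic c).isIntegral

/-- A function has finitely many conjugates. -/
theorem finite_conjugates {M : ℕ} [NeZero M] {x : LaurentSeries Qb} (hx : x ∈ modField Qb M) :
    (Set.range fun σ : Qb ≃ₐ[ℚ] Qb => coeffMap (σ : Qb →+* Qb) x).Finite := by
  rw [modField_eq_adjoin_genSer] at hx
  induction hx using adjoin_induction with
  | mem y hy =>
    obtain ⟨d, rfl⟩ := hy
    refine (Set.finite_singleton (genSer Qb d)).subset ?_
    rintro _ ⟨σ, rfl⟩
    exact coeffMap_genSer _ d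
  | algebraMap c =>
    refine (((minpoly ℚ c).rootSet_finite Qb).image (algebraMap Qb (LaurentSeries Qb))).subset ?_
    rintro _ ⟨σ, rfl⟩
    refine ⟨σ c, ?_, ?_⟩
    · rw [Polynomial.mem_rootSet]
      refine ⟨minpoly.ne_zero (isIntegral_rat c), ?_⟩
      show Polynomial.aeval (σ c) (minpoly ℚ c) = 0
      rw [Polynomial.aeval_algHom_apply σ c, minpoly.aeval, map_zero]
    · exact (MF.Coeff.coeffMap_algebraMap' (σ : Qb →+* Qb) c).symm
  | add a b _ _ iha ihb =>
    refine (iha.image2 (· + ·) ihb).subset ?_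
    rintro _ ⟨σ, rfl⟩
    exact ⟨_, ⟨σ, rfl⟩, _, ⟨σ, rfl⟩, (map_add _ a b).symm⟩
  | inv a _ iha =>
    refine (iha.image (·⁻¹)).subset ?_
    rintro _ ⟨σ, rfl⟩
    exact ⟨_, ⟨σ, rfl⟩, (map_inv₀ _ a).symm⟩
  | mul a b _ _ iha ihb =>
    refine (iha.image2 (· * ·) ihb).subset ?_
    rintro _ ⟨σ, rfl⟩
    exact ⟨_, ⟨σ, rfl⟩, _, ⟨σ, rfl⟩, (map_mul _ a b).symm⟩

variable {K : Type} [Field K] [Algebra ℚ K] (κ : K →+* Qb)

theorem coe_fieldExt (M : ℕ) [NeZero M] (x : modField K M) :
    (fieldExt κ M x : LaurentSeries Qb) = coeffMap κ (x : LaurentSeries K) := rfl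

theorem fieldExt_algebraMap (M : ℕ) [NeZero M] (c : K) :
    fieldExt κ M (algebraMap K (modField K M) c) = algebraMap Qb (modField Qb M) (κ c) :=
  Subtype.ext (MF.Coeff.coeffMap_algebraMap' κ c)

/-- A function fixed by `G` is defined over the fixed field. -/
theorem exists_fieldExt_eq {G : Subgroup (Qb ≃ₐ[ℚ] Qb)}
    (hK : ∀ x : Qb, x ∈ κ.range ↔ ∀ σ ∈ G, σ x = x) {M : ℕ} [NeZero M] (x : modField Qb M)
    (hx : ∀ σ ∈ G, coeffMap ((σ : Qb ≃ₐ[ℚ] Qb) : Qb →+* Qb) (x : LaurentSeries Qb) = x) :
    ∃ y : modField K M, fieldExt κ M y = x := by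
  have h : ∀ n, ∃ c : K, κ c = (x : LaurentSeries Qb).coeff n := fun n =>
    RingHom.mem_range.mp ((hK _).mpr fun σ hσ => by
      simpa [coeffMap_coeff] using congrArg (fun z : LaurentSeries Qb => z.coeff n) (hx σ hσ))
  choose c hc using h
  let y : LaurentSeries K :=
    ⟨c, (x : LaurentSeries Qb).isPWO_support.mono fun n hn h0 => hn (by
      rw [← hc n, map_eq_zero] at h0; exact h0)⟩
  have hy : coeffMap κ y = x := by
    ext n
    rw [coeffMap_coeff]
    exact hc n
  have hbc : modField Qb M = MF.Coeff.bc κ (modField K M) := by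
    show laurentBaseChange Qb _ = MF.Coeff.bc κ (laurentBaseChange K _)
    rw [MF.Coeff.laurentBaseChange_eq_bc, MF.Coeff.laurentBaseChange_eq_bc, MF.Coeff.bc_bc]
    exact congrArg (MF.Coeff.bc · _) (Subsingleton.elim _ _)
  exact ⟨⟨y, MF.Coeff.coeffMap_mem_bc_iff.mp (hbc ▸ hy ▸ x.2)⟩, Subtype.ext hy⟩

/-- The extended field is generated by the constants over the old one. -/
theorem adjoin_constants_eq_top (M : ℕ) [NeZero M] :
    letI := (fieldExt κ M).toAlgebra
    IntermediateField.adjoin (modField K M) (Set.range (algebraMap Qb (modField Qb M))) = ⊤ := by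
  letI := (fieldExt κ M).toAlgebra
  refine eq_top_iff.mpr fun x h => ?_
  clear h
  obtain ⟨x, hx⟩ := x
  set S := IntermediateField.adjoin (modField K M) (Set.range (algebraMap Qb (modField Qb M)))
  have hM := fun {a : LaurentSeries Qb} (ha : a ∈ adjoin Qb (Set.range (genSer Qb (M := M)))) =>
    (modField_eq_adjoin_genSer (L := Qb) M).symm ▸ ha
  have hx' : x ∈ adjoin Qb (Set.range (genSer Qb (M := M))) :=
    modField_eq_adjoin_genSer (L := Qb) M ▸ hx
  revert hx
  induction hx' using adjoin_induction with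
  | mem y hy =>
    obtain ⟨d, rfl⟩ := hy
    intro hx
    have : (⟨genSer Qb d, hx⟩ : modField Qb M) =
        algebraMap (modField K M) (modField Qb M) ⟨genSer K d, genSer_mem d⟩ :=
      Subtype.ext (coeffMap_genSer κ d).symm
    rw [this]
    exact IntermediateField.algebraMap_mem S _
  | algebraMap c => exact fun hx => subset_adjoin _ _ ⟨c, Subtype.ext rfl⟩
  | add a b ha hb iha ihb =>
    intro hx
    rw [show (⟨a + b, hx⟩ : modField Qb M) = ⟨a, hM ha⟩ + ⟨b, hM hb⟩ from rfl]
    exact S.add_mem (iha _) (ihb _)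
  | inv a ha iha =>
    intro hx
    rw [show (⟨a⁻¹, hx⟩ : modField Qb M) = ⟨a, hM ha⟩⁻¹ from rfl]
    exact S.inv_mem (iha _)
  | mul a b ha hb iha ihb =>
    intro hx
    rw [show (⟨a * b, hx⟩ : modField Qb M) = ⟨a, hM ha⟩ * ⟨b, hM hb⟩ from rfl]
    exact S.mul_mem (iha _) (ihb _)

end Fixed

/-! ### Norms -/

/-- Norms commute with maps matching complete families of embeddings. -/
theorem norm_map_of_completeEmb {F' F F₂' F₂ Ω ι : Type*} [Field F'] [Field F] [Field F₂']
    [Field F₂] [Field Ω] [Fintype ι] [Algebra F' F] [Algebra F₂' F₂] [CharZero F'] [CharZero F₂']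
    {ψ : F' →+* Ω} {φ : ι → F →+* Ω} {ψ₂ : F₂' →+* Ω} {φ₂ : ι → F₂ →+* Ω}
    (h : CompleteEmb ψ φ) (h₂ : CompleteEmb ψ₂ φ₂) (r' : F' →+* F₂') (r : F →+* F₂)
    (hψ : ∀ x, ψ₂ (r' x) = ψ x) (hφ : ∀ i a, φ₂ i (r a) = φ i a) (a : F) :
    Algebra.norm F₂' (r a) = r' (Algebra.norm F' a) := by
  apply ψ₂.injective
  rw [h₂.map_norm, hψ, h.map_norm]
  exact Finset.prod_congr rfl fun i _ => hφ i a

section Norm

variable {K K' : Type*} [Field K] [Algebra ℚ K] [Field K'] [Algebra ℚ K']

theorem IsSubst.comp_fieldExt {K'' : Type*} [Field K''] [Algebra ℚ K''] {κ' : K' →+* K''}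
    (κ : K →+* K') {M : ℕ} [NeZero M] {φ : modField K' M →+* LaurentSeries K''}
    {s : DivIdx M → LaurentSeries K''} (h : IsSubst κ' φ s) :
    IsSubst (κ'.comp κ) (φ.comp (fieldExt κ M)) s :=
  ⟨fun d hd => by
    rw [← h.gen d (genSer_mem d)]
    exact congrArg φ (Subtype.ext (coeffMap_genSer κ d)),
    fun c => by
      rw [RingHom.comp_apply, show fieldExt κ M (algebraMap K _ c) = algebraMap K' _ (κ c) from
        Subtype.ext (MF.Coeff.coeffMap_algebraMap' κ c), h.const]
      rfl⟩

theorem baseEmb_fieldExt (κ : K →+* K') (M : ℕ) [NeZero M] (x : modField K M) :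
    baseEmb (RingHom.id K') M (fieldExt κ M x) = baseEmb κ M x :=
  coeffMap_id _

theorem baseEmb_degen_fieldExt (κ : K →+* K') {M N : ℕ} [NeZero M] [NeZero N] (d : ℕ) [NeZero d]
    (h : M * d ∣ N) (x : modField K M) :
    baseEmb (RingHom.id K') N (degenMap K' d h (fieldExt κ M x)) =
      baseEmb κ N (degenMap K d h x) := by
  show coeffMap (RingHom.id K') (qExpand K' d (coeffMap κ (x : LaurentSeries K))) =
    coeffMap κ (qExpand K d (x : LaurentSeries K))
  rw [coeffMap_id, ModularCurve.coeffMap_qExpand]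

variable {L₀ q : ℕ} [NeZero L₀] [NeZero q]

/-- The norm along `τ ↦ τ` commutes with the extension of constants. -/
theorem norm_fieldExt_alpha (hq : q.Prime) (hqL : ¬ q ∣ L₀) (κ : K →+* K') (ι : K' →+* ℂ)
    {z : K'ˣ} (hz : IsPrimitiveRoot z q) (h : L₀ * q * 1 ∣ L₀ * q ^ 2)
    (x : modField K (L₀ * q ^ 2)) :
    (letI := algebraAlong (degenMap K' 1 h);
      Algebra.norm (modField K' (L₀ * q)) (fieldExt κ (L₀ * q ^ 2) x)) =
      fieldExt κ (L₀ * q) (letI := algebraAlong (degenMap K 1 h);
        Algebra.norm (modField K (L₀ * q)) x) := by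
  obtain ⟨e02, ez, hB⟩ := exists_branchEmbs κ ι hq hqL hz
  obtain ⟨e02', ez', hB'⟩ := exists_branchEmbs (RingHom.id K') ι hq hqL hz
  letI := algebraAlong (degenMap K' 1 h)
  letI := algebraAlong (degenMap K 1 h)
  haveI : CharZero (modField K (L₀ * q)) :=
    haveI : CharZero K := charZero_of_injective_algebraMap (algebraMap ℚ K).injective
    charZero_of_injective_algebraMap (algebraMap K (modField K (L₀ * q))).injective
  haveI : CharZero (modField K' (L₀ * q)) :=
    haveI : CharZero K' := charZero_of_injective_algebraMap (algebraMap ℚ K').injective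
    charZero_of_injective_algebraMap (algebraMap K' (modField K' (L₀ * q))).injective
  refine norm_map_of_completeEmb (hB.complete_alpha_zero h)
    (hB'.complete_alpha_zero h) (fieldExt κ _) (fieldExt κ _)
    (baseEmb_degen_fieldExt κ 1 h) (fun i a => ?_) x
  rcases i with u | k
  · exact baseEmb_fieldExt κ _ a
  · exact DFunLike.congr_fun (((hB'.hz k).comp_fieldExt κ).ext (hB.hz k) fun _ => rfl) a

/-- The norm along `τ ↦ q τ` commutes with the extension of constants. -/
theorem norm_fieldExt_beta (hq : q.Prime) (hqL : ¬ q ∣ L₀) (κ : K →+* K') (ι : K' →+* ℂ)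
    {z : K'ˣ} (hz : IsPrimitiveRoot z q) (h : L₀ * q * q ∣ L₀ * q ^ 2)
    (x : modField K (L₀ * q ^ 2)) :
    (letI := algebraAlong (degenMap K' q h);
      Algebra.norm (modField K' (L₀ * q)) (fieldExt κ (L₀ * q ^ 2) x)) =
      fieldExt κ (L₀ * q) (letI := algebraAlong (degenMap K q h);
        Algebra.norm (modField K (L₀ * q)) x) := by
  obtain ⟨e02, ez, hB⟩ := exists_branchEmbs κ ι hq hqL hz
  obtain ⟨e02', ez', hB'⟩ := exists_branchEmbs (RingHom.id K') ι hq hqL hz
  letI := algebraAlong (degenMap K' q h)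
  letI := algebraAlong (degenMap K q h)
  haveI : CharZero (modField K (L₀ * q)) :=
    haveI : CharZero K := charZero_of_injective_algebraMap (algebraMap ℚ K).injective
    charZero_of_injective_algebraMap (algebraMap K (modField K (L₀ * q))).injective
  haveI : CharZero (modField K' (L₀ * q)) :=
    haveI : CharZero K' := charZero_of_injective_algebraMap (algebraMap ℚ K').injective
    charZero_of_injective_algebraMap (algebraMap K' (modField K' (L₀ * q))).injective
  refine norm_map_of_completeEmb (hB.complete_beta_zero h)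
    (hB'.complete_beta_zero h) (fieldExt κ _) (fieldExt κ _)
    (baseEmb_degen_fieldExt κ q h) (fun i a => ?_) x
  exact congrArg (qScale (z ^ (i : ℕ))) (baseEmb_fieldExt κ _ a)

end Norm

end Fermat.Agent.Carayol
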