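/-
From a key statement about functions over a fixed field `K ≅ Qb^G` to torsion classes of `J₀(L q²)`
fixed by `G` with trivial pushforwards to level `L q`.

A class fixed by `G` and killed by `m` has a representative `D` with `m D = div f`, `f` fixed by
`G`: the cocycle of normalised `m`-th roots of `σ f / f` depends only on `σ f`, so is a coboundary.
-/
import Fermat.Agent.Carayol.Model
import Fermat.Agent.Carayol.MidBranch
import Fermat.Agent.Carayol.ConstUnramified
import Fermat.Agent.Carayol.Degen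
import Fermat.Agent.Carayol.DescentAux
import Fermat.Agent.HK.Kummer.Map

set_option autoImplicit false
set_option linter.unusedSectionVars false
set_option linter.style.haveILetI false

noncomputable section

open AlgebraicCurve ModularCurve
open Fermat.Agent.HK.Corr

namespace Fermat.Agent.Carayol

local notation "Qb" => AlgebraicClosure ℚ

/-- The norm along a degeneracy map, pulled back. -/
def degenNorm {K : Type} [Field K] [Algebra ℚ K] {M N : ℕ} (d : ℕ) [NeZero d]
    (h : M * d ∣ N) : modField K N →* modField K N :=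
  letI := algebraAlong (degenMap K d h)
  (degenMap K d h).toRingHom.toMonoidHom.comp (Algebra.norm (modField K M))

/-- The norm formula, pointwise. -/
theorem pushforwardAlong_eq_ord_norm {K F F' : Type*} [Field K] [Field F] [Field F']
    [Algebra K F] [Algebra K F'] (φ : F →ₐ[K] F') (hφ : φ.toRingHom.IsIntegral)
    (hfin : FiniteAlong K φ) (hN : NormFormulaAlong K φ hfin) {f : F'} (hf : f ≠ 0)
    {D : Divisor K F'} (hD : ∀ w, D w = w.ord f) (v : Place K F) :
    Divisor.pushforwardAlong φ hφ D v =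
      v.ord (letI := algebraAlong φ; Algebra.norm F f) :=
  hN f hf D hD v

theorem norm_along_ne_zero {K F F' : Type*} [Field K] [Field F] [Field F'] [Algebra K F]
    [Algebra K F'] (φ : F →ₐ[K] F') (hfin : FiniteAlong K φ) {f : F'} (hf : f ≠ 0) :
    (letI := algebraAlong φ; Algebra.norm F f) ≠ 0 :=
  letI := algebraAlong φ
  haveI : Module.Finite F F' := hfin
  Algebra.norm_ne_zero_iff.mpr hf

/-- An embedding of the algebraic numbers into `ℂ`. -/
theorem exists_qbToC : Nonempty (Qb →+* ℂ) :=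
  haveI : Algebra.IsAlgebraic ℚ Qb := AlgebraicClosure.isAlgebraic ℚ
  ⟨(IsAlgClosed.lift : Qb →ₐ[ℚ] ℂ).toRingHom⟩

section Normalize

variable {N : ℕ} [NeZero N]

/-- Functions with the same divisor differ by a constant. -/
theorem exists_const_mul_of_ord_eq {f g : modField Qb N} (hf : f ≠ 0) (hg : g ≠ 0)
    (h : ∀ v : Place Qb (modField Qb N), v.ord f = v.ord g) :
    ∃ c : Qb, c ≠ 0 ∧ f = algebraMap Qb _ c * g := by
  obtain ⟨c, hc⟩ := HK.hasConstantUnits_modular N
    exists_qbToC.some (f / g) (div_ne_zero hf hg) fun v => by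
      rw [FF.ord_div v hf hg, h, sub_self]
  rw [div_eq_iff hg] at hc
  exact ⟨c, fun e => hf (by rw [hc, e, map_zero, zero_mul]), hc⟩

/-- Every function is a constant times one with leading coefficient `1` and the same divisor. -/
theorem exists_normalized_function {f : modField Qb N} (hf : f ≠ 0) :
    ∃ g : modField Qb N, g ≠ 0 ∧ (g : LaurentSeries Qb).leadingCoeff = 1 ∧
      f = algebraMap Qb _ (f : LaurentSeries Qb).leadingCoeff * g ∧
      ∀ v : Place Qb (modField Qb N), v.ord g = v.ord f := by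
  set c := (f : LaurentSeries Qb).leadingCoeff
  have hc : c ≠ 0 := HahnSeries.leadingCoeff_ne_zero.mpr fun e => hf (Subtype.ext e)
  have hc' : algebraMap Qb (modField Qb N) c⁻¹ ≠ 0 := (map_ne_zero _).mpr (inv_ne_zero hc)
  refine ⟨algebraMap Qb _ c⁻¹ * f, mul_ne_zero hc' hf, ?_, ?_, fun v => ?_⟩
  · show (algebraMap Qb (LaurentSeries Qb) c⁻¹ * (f : LaurentSeries Qb)).leadingCoeff = 1
    rw [HahnSeries.leadingCoeff_mul, leadingCoeff_algebraMap]
    exact inv_mul_cancel₀ hc
  · rw [← mul_assoc, ← map_mul, mul_inv_cancel₀ hc, map_one, one_mul]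
  · rw [v.ord_mul hc' hf, FF.ord_algebraMap, zero_add]

/-- Normalised roots of powers are unique. -/
theorem eq_of_pow_eq_function {m : ℕ} (hm : m ≠ 0) {x y : modField Qb N}
    (hx : (x : LaurentSeries Qb).leadingCoeff = 1) (hy : (y : LaurentSeries Qb).leadingCoeff = 1)
    (h : x ^ m = y ^ m) : x = y :=
  Subtype.ext (eq_of_pow_eq_of_leadingCoeff hm hx hy (by
    simpa using congrArg (Subtype.val : modField Qb N → LaurentSeries Qb) h))

/-- The Galois action on functions, as ring homomorphisms. -/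
def galFun (σ : Qb ≃ₐ[ℚ] Qb) : modField Qb N →+* modField Qb N :=
  (arithmeticRingAut (modularFunctionFieldFull N) σ).toRingHom

theorem coe_galFun (σ : Qb ≃ₐ[ℚ] Qb) (x : modField Qb N) :
    (galFun σ x : LaurentSeries Qb) = coeffMap (σ : Qb →+* Qb) (x : LaurentSeries Qb) := rfl

theorem galFun_mul (σ τ : Qb ≃ₐ[ℚ] Qb) (x : modField Qb N) :
    galFun (σ * τ) x = galFun σ (galFun τ x) := by
  refine Subtype.ext ?_
  rw [coe_galFun, coe_galFun, coe_galFun, coeffMap_coeffMap]
  exact coeffMap_congr (RingHom.ext fun _ => rfl) _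

/-- A torsion class fixed by `G` comes from a function fixed by `G`. -/
theorem exists_fixed_function (G : Subgroup (Qb ≃ₐ[ℚ] Qb)) {m : ℕ} (hm : m ≠ 0) (P : JZero N)
    (hmP : m • P = 0) (hfix : ∀ σ ∈ G, σ • P = P) :
    ∃ (D : Divisor.degZero (K := Qb) (F := modularFunctionFieldBar N)) (f : modField Qb N),
      Pic0.mk D = P ∧ f ≠ 0 ∧
      (∀ v, (m : ℤ) * (D : Divisor Qb (modularFunctionFieldBar N)) v = v.ord f) ∧
      ∀ σ ∈ G, galFun σ f = f := by
  classical
  obtain ⟨D, rfl⟩ := Pic0.mk_surjective P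
  have h0 : Pic0.mk (m • D) = 0 := (map_nsmul (QuotientAddGroup.mk' _) m D).trans hmP
  rw [Pic0.mk, QuotientAddGroup.eq_zero_iff, AddSubgroup.mem_addSubgroupOf,
    AddSubgroup.coe_nsmul, Divisor.mem_principal] at h0
  obtain ⟨f₀, hf₀, hf₀D⟩ := h0
  obtain ⟨f, hf, hflc, -, hford⟩ := exists_normalized_function hf₀
  have hfD : ∀ v, (m : ℤ) * (D : Divisor Qb (modularFunctionFieldBar N)) v = v.ord f := fun v => by
    rw [hford, ← hf₀D v, Finsupp.smul_apply, nsmul_eq_mul]
  -- the cocycle of normalised roots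
  have hroot : ∀ σ : G, ∃ g : modField Qb N, g ≠ 0 ∧ (g : LaurentSeries Qb).leadingCoeff = 1 ∧
      galFun (σ : Qb ≃ₐ[ℚ] Qb) f = f * g ^ m := fun σ => by
    set A := arithmeticGalois (modularFunctionFieldFull N) (σ : Qb ≃ₐ[ℚ] Qb)
    have h1 : Pic0.mk (SemilinearAut.degZeroSMulHom A D) = Pic0.mk D := by
      rw [← SemilinearAut.pic0_smul_mk, ← galois_smul_pic0_def]
      exact hfix _ σ.2
    have h2 : Pic0.mk (SemilinearAut.degZeroSMulHom A D - D) = 0 :=
      (map_sub (QuotientAddGroup.mk' _) _ D).trans (sub_eq_zero.mpr h1)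
    rw [Pic0.mk, QuotientAddGroup.eq_zero_iff, AddSubgroup.mem_addSubgroupOf,
      AddSubgroup.coe_sub, Divisor.mem_principal] at h2
    obtain ⟨g₀, hg₀, hg₀D⟩ := h2
    obtain ⟨g, hg, hglc, -, hgord⟩ := exists_normalized_function hg₀
    have hσf : galFun (σ : Qb ≃ₐ[ℚ] Qb) f ≠ 0 := (map_ne_zero _).mpr hf
    obtain ⟨c, -, hc⟩ := exists_const_mul_of_ord_eq hσf (mul_ne_zero hf (pow_ne_zero m hg))
      fun v => by
        have e1 : v.ord (galFun (σ : Qb ≃ₐ[ℚ] Qb) f) = (A⁻¹ • v).ord f := by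
          have := SemilinearAut.ord_smul A (A⁻¹ • v) f
          rw [smul_inv_smul] at this
          exact this
        rw [e1, v.ord_mul hf (pow_ne_zero m hg), FF.ord_pow, hgord, ← hg₀D v, ← hfD, ← hfD,
          Finsupp.sub_apply, SemilinearAut.coe_degZeroSMulHom,
          SemilinearAut.divisor_smul_apply]
        ring
    have hlc := congrArg (fun x : modField Qb N => (x : LaurentSeries Qb).leadingCoeff) hc
    simp only [coe_galFun, IntermediateField.coe_mul, SubmonoidClass.coe_pow,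
      HahnSeries.leadingCoeff_mul, leadingCoeff_pow', leadingCoeff_coeffMap, hflc, hglc,
      map_one, one_pow, mul_one] at hlc
    rw [show ((algebraMap Qb (modField Qb N) c : modField Qb N) : LaurentSeries Qb) =
      algebraMap Qb (LaurentSeries Qb) c from rfl, leadingCoeff_algebraMap] at hlc
    exact ⟨g, hg, hglc, by rw [hc, ← hlc, map_one, one_mul]⟩
  choose g hg hglc hgf using hroot
  have huniq : ∀ (σ : G) (x : modField Qb N), (x : LaurentSeries Qb).leadingCoeff = 1 →
      galFun (σ : Qb ≃ₐ[ℚ] Qb) f = f * x ^ m → g σ = x := fun σ x hx h =>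
    eq_of_pow_eq_function hm (hglc σ) hx (mul_left_cancel₀ hf ((hgf σ).symm.trans h))
  obtain ⟨h, hh, hgh⟩ := exists_twist (fun σ : G => galFun (σ : Qb ≃ₐ[ℚ] Qb))
    (fun σ τ x => galFun_mul _ _ x) f
    (((finite_conjugates f.2).preimage Subtype.val_injective.injOn).subset (by
      rintro _ ⟨σ, rfl⟩
      exact ⟨(σ : Qb ≃ₐ[ℚ] Qb), rfl⟩)) g hg
    (fun σ τ hστ => huniq σ (g τ) (hglc τ) (hστ.trans (hgf τ)))
    (fun σ τ => huniq (σ * τ) _ (by
      rw [IntermediateField.coe_mul, HahnSeries.leadingCoeff_mul, hglc, one_mul, coe_galFun,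
        leadingCoeff_coeffMap, hglc, map_one]) (by
      rw [Subgroup.coe_mul, galFun_mul, hgf τ, map_mul, hgf σ, map_pow, mul_pow, mul_assoc]))
  haveI := hasPrincipalDivisors_level Qb N
  obtain ⟨E, hE, hE0⟩ := HasPrincipalDivisors.exists_divisor (K := Qb) h hh
  refine ⟨D + ⟨E, Divisor.mem_degZero.mpr hE0⟩, f * h ^ m, ?_,
    mul_ne_zero hf (pow_ne_zero m hh), fun v => ?_, fun σ hσ => ?_⟩
  · have hE' : Pic0.mk (⟨E, Divisor.mem_degZero.mpr hE0⟩ :
        Divisor.degZero (K := Qb) (F := modularFunctionFieldBar N)) = 0 := by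
      rw [Pic0.mk, QuotientAddGroup.eq_zero_iff, AddSubgroup.mem_addSubgroupOf]
      exact Divisor.mem_principal.mpr ⟨h, hh, hE⟩
    rw [Pic0.mk_add, hE', add_zero]
  · rw [v.ord_mul hf (pow_ne_zero m hh), FF.ord_pow, ← hfD, ← hE]
    show (m : ℤ) * (((D : Divisor Qb (modularFunctionFieldBar N)) + E) v) = _
    rw [Finsupp.add_apply, mul_add]
  · rw [map_mul, map_pow, hgf ⟨σ, hσ⟩, mul_assoc, ← mul_pow, hgh ⟨σ, hσ⟩]

end Normalize

section Horiz

/-- Horizontality of a function over `K` whose divisor over `Qb` is divisible by `m`. -/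
theorem horizDvd_of_fieldExt {K : Type} [Field K] [Algebra ℚ K] (κ : K →+* Qb) {W : Type}
    [CommRing W] [IsDomain W] [IsDiscreteValuationRing W] [Algebra W K] [IsFractionRing W K]
    {N : ℕ} [NeZero N] [Algebra W (modField K N)] [IsScalarTower W K (modField K N)] (m : ℕ)
    {f : modField K N} (hf : f ≠ 0)
    (h : ∀ v : Place Qb (modField Qb N), (m : ℤ) ∣ v.ord (fieldExt κ N f)) :
    HorizDvd W m f := by
  haveI : CharZero K := charZero_of_injective_algebraMap (algebraMap ℚ K).injective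
  letI : Algebra K Qb := κ.toAlgebra
  letI : Algebra (modField K N) (modField Qb N) := (fieldExt κ N).toAlgebra
  letI : Algebra K (modField Qb N) := ((algebraMap Qb (modField Qb N)).comp κ).toAlgebra
  haveI : IsScalarTower K Qb (modField Qb N) := IsScalarTower.of_algebraMap_eq fun _ => rfl
  haveI : IsScalarTower K (modField K N) (modField Qb N) :=
    IsScalarTower.of_algebraMap_eq fun c => (fieldExt_algebraMap κ N c).symm
  haveI : Algebra.IsAlgebraic K Qb := ⟨fun x =>
    ((isIntegral_rat x).isAlgebraic).ringHom_of_comp_eq (algebraMap ℚ K) (RingHom.id Qb)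
      (algebraMap ℚ K).injective (Subsingleton.elim _ _)⟩
  exact horizDvd_of_ord_dvd (K := K) (L := Qb) (F' := modField Qb N)
    (adjoin_constants_eq_top κ N) m hf h

end Horiz

section Norm

variable {K : Type} [Field K] [Algebra ℚ K] (κ : K →+* Qb) {W : Type} [CommRing W] [IsDomain W]
  [IsDiscreteValuationRing W] [Algebra W K] [IsFractionRing W K]

/-- If the pushforward of the class is trivial, the norm is a constant times an `m`-th power. -/
theorem normPow_of_pushJ {G : Subgroup (Qb ≃ₐ[ℚ] Qb)}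
    (hK : ∀ x : Qb, x ∈ κ.range ↔ ∀ σ ∈ G, σ x = x) {M N : ℕ} [NeZero M] [NeZero N] (d : ℕ)
    [NeZero d] (h : M * d ∣ N) [Algebra W (modField K N)] [IsScalarTower W K (modField K N)]
    (hnorm : ∀ x : modField K N,
      (letI := algebraAlong (degenMap Qb d h); Algebra.norm (modField Qb M) (fieldExt κ N x)) =
        fieldExt κ M (letI := algebraAlong (degenMap K d h); Algebra.norm (modField K M) x))
    {m : ℕ} (hm : m ≠ 0) {f : modField K N} (hf : f ≠ 0)
    {D : Divisor.degZero (K := Qb) (F := modularFunctionFieldBar N)}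
    (hfD : ∀ v, (m : ℤ) * (D : Divisor Qb (modularFunctionFieldBar N)) v =
      v.ord (fieldExt κ N f))
    (hpush : pushJ d h (Pic0.mk D) = 0) :
    Model.NormPow (W := W) (degenNorm d h) m f := by
  rw [pushJ_mk, Pic0.mk, QuotientAddGroup.eq_zero_iff, AddSubgroup.mem_addSubgroupOf,
    Divisor.mem_principal] at hpush
  obtain ⟨t₀, ht₀, htD⟩ := hpush
  obtain ⟨t, ht, htlc, -, htord⟩ := exists_normalized_function ht₀
  set Nf : modField K M := letI := algebraAlong (degenMap K d h); Algebra.norm (modField K M) f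
  have hf' : fieldExt κ N f ≠ 0 := (map_ne_zero _).mpr hf
  have hfin := finiteAlong_degenMap (degreeInput Qb) d h
  have hne : fieldExt κ M Nf ≠ 0 := hnorm f ▸ norm_along_ne_zero (degenMap Qb d h) hfin hf'
  obtain ⟨c, hc0, hc⟩ := exists_const_mul_of_ord_eq hne (pow_ne_zero m ht) fun v => by
    rw [← hnorm f, ← pushforwardAlong_eq_ord_norm (degenMap Qb d h)
      (isIntegral_degenMap (degreeInput Qb) d h) hfin
      (FF.normFormulaAlong _ _ (separableAlong_degenMap (degreeInput Qb) d h)) hf'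
      (D := m • (D : Divisor Qb (modularFunctionFieldBar N)))
      (fun w => by rw [Finsupp.smul_apply, nsmul_eq_mul, hfD]),
      FF.ord_pow, htord, ← htD, map_nsmul, Finsupp.smul_apply, nsmul_eq_mul]
    rfl
  have hlc : c = κ (Nf : LaurentSeries K).leadingCoeff := by
    have h1 := congrArg (fun x : modField Qb M => (x : LaurentSeries Qb).leadingCoeff) hc
    simp only [coe_fieldExt, IntermediateField.coe_mul, SubmonoidClass.coe_pow,
      HahnSeries.leadingCoeff_mul, leadingCoeff_pow', leadingCoeff_coeffMap, htlc, one_pow,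
      mul_one] at h1
    rw [h1]
    exact (leadingCoeff_algebraMap c).symm
  set c₀ : K := (Nf : LaurentSeries K).leadingCoeff
  have htfix : ∀ σ ∈ G, coeffMap ((σ : Qb ≃ₐ[ℚ] Qb) : Qb →+* Qb) (t : LaurentSeries Qb) = t := by
    intro σ hσ
    have hfixκ : ∀ a : K, σ (κ a) = κ a := fun a => (hK (κ a)).mp ⟨a, rfl⟩ σ hσ
    have h1 : galFun σ t = t := by
      refine eq_of_pow_eq_function hm (by rw [coe_galFun, leadingCoeff_coeffMap, htlc, map_one])
        htlc (mul_left_cancel₀ ((map_ne_zero (algebraMap Qb (modField Qb M))).mpr hc0) ?_)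
      rw [← hc]
      have h2 : galFun σ (fieldExt κ M Nf) = fieldExt κ M Nf := Subtype.ext (by
        rw [coe_galFun, coe_fieldExt, coeffMap_coeffMap]
        exact coeffMap_congr (RingHom.ext hfixκ) _)
      conv_rhs => rw [← h2, hc, map_mul, map_pow]
      congr 1
      refine Subtype.ext ?_
      show algebraMap Qb (LaurentSeries Qb) c =
        coeffMap (σ : Qb →+* Qb) (algebraMap Qb (LaurentSeries Qb) c)
      rw [MF.Coeff.coeffMap_algebraMap', hlc]
      exact congrArg _ (hfixκ c₀).symm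
    exact congrArg (Subtype.val : modField Qb M → LaurentSeries Qb) h1
  obtain ⟨G₁, hG₁⟩ := exists_fieldExt_eq κ hK t htfix
  have hG0 : G₁ ≠ 0 := fun e => ht (by rw [← hG₁, e, map_zero])
  have hNf : Nf = algebraMap K _ c₀ * G₁ ^ m := by
    refine (fieldExt κ M).injective ?_
    rw [map_mul, map_pow, fieldExt_algebraMap, hG₁, ← hlc, hc]
  obtain ⟨a, b, hb, hab⟩ := IsFractionRing.div_surjective W c₀
  have hb0 : algebraMap W K b ≠ 0 :=
    IsFractionRing.to_map_ne_zero_of_mem_nonZeroDivisors hb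
  have ha0 : a ≠ 0 := by
    rintro rfl
    rw [map_zero, zero_div] at hab
    exact hc0 (by rw [hlc, ← hab, map_zero])
  refine ⟨a, b, degenMap K d h G₁, ha0, nonZeroDivisors.ne_zero hb,
    (map_ne_zero (degenMap K d h)).mpr hG0, ?_⟩
  show algebraMap W (modField K N) b * degenMap K d h Nf = _
  rw [hNf, map_mul, map_pow, AlgHom.commutes, IsScalarTower.algebraMap_apply W K (modField K N),
    IsScalarTower.algebraMap_apply W K (modField K N) a, ← mul_assoc, ← map_mul, ← hab,
    mul_div_cancel₀ _ hb0]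

end Norm

variable {L₀ q : ℕ} [NeZero L₀] [NeZero q] [NeZero (L₀ * q ^ 2)] [NeZero (L₀ * q)]

/-- **Descent.** -/
theorem smul_eq_zero_of_fixed (hq : q.Prime) (hqL : ¬ q ∣ L₀) (G : Subgroup (Qb ≃ₐ[ℚ] Qb))
    {K : Type} [Field K] [Algebra ℚ K] (κ : K →+* Qb)
    (hK : ∀ x : Qb, x ∈ κ.range ↔ ∀ σ ∈ G, σ x = x) {W : Type} [CommRing W] [IsDomain W] [IsDiscreteValuationRing W]
    [Algebra W K] [IsFractionRing W K] [Algebra W (modField K (L₀ * q ^ 2))]
    [IsScalarTower W K (modField K (L₀ * q ^ 2))]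
    (m e : ℕ) (hm0 : m ≠ 0) (h1 : L₀ * q * 1 ∣ L₀ * q ^ 2) (h2 : L₀ * q * q ∣ L₀ * q ^ 2)
    (hkey : ∀ f : modField K (L₀ * q ^ 2), f ≠ 0 → HorizDvd W m f →
      Model.NormPow (W := W) (degenNorm 1 h1) m f →
      Model.NormPow (W := W) (degenNorm q h2) m f →
      ∃ (a b : W) (h : modField K (L₀ * q ^ 2)),
        a ≠ 0 ∧ b ≠ 0 ∧ h ≠ 0 ∧ algebraMap W _ b * f ^ e = algebraMap W _ a * h ^ m)
    (P : JZero (L₀ * q ^ 2)) (hmP : m • P = 0) (hfix : ∀ σ ∈ G, σ • P = P)
    (hα : pushJ 1 h1 P = 0) (hβ : pushJ q h2 P = 0) : e • P = 0 := by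
  obtain ⟨D, f, rfl, hf, hfD, hffix⟩ := exists_fixed_function G hm0 P hmP hfix
  obtain ⟨f₀, rfl⟩ := exists_fieldExt_eq κ hK f fun σ hσ =>
    congrArg Subtype.val (hffix σ hσ)
  have hf₀ : f₀ ≠ 0 := fun e => hf (by rw [e, map_zero])
  let ι : Qb →+* ℂ := exists_qbToC.some
  obtain ⟨ζ, hζ⟩ := HasEnoughRootsOfUnity.exists_primitiveRoot Qb q
  have hz : IsPrimitiveRoot (hζ.isUnit hq.ne_zero).unit q := hζ.isUnit_unit hq.ne_zero
  obtain ⟨a, b, h₀, ha, hb, hh₀, heq⟩ := hkey f₀ hf₀
    (horizDvd_of_fieldExt κ m hf₀ fun v => ⟨_, (hfD v).symm⟩)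
    (normPow_of_pushJ κ hK 1 h1 (norm_fieldExt_alpha hq hqL κ ι hz h1) hm0 hf₀ hfD hα)
    (normPow_of_pushJ κ hK q h2 (norm_fieldExt_beta hq hqL κ ι hz h2) hm0 hf₀ hfD hβ)
  have hh : fieldExt κ (L₀ * q ^ 2) h₀ ≠ 0 := (map_ne_zero _).mpr hh₀
  show QuotientAddGroup.mk (e • D) = (0 : JZero (L₀ * q ^ 2))
  rw [QuotientAddGroup.eq_zero_iff, AddSubgroup.mem_addSubgroupOf, AddSubgroup.coe_nsmul,
    Divisor.mem_principal]
  refine ⟨_, hh, fun v => ?_⟩
  have key := congrArg (fun x => v.ord (fieldExt κ (L₀ * q ^ 2) x)) heq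
  simp only [map_mul, map_pow, IsScalarTower.algebraMap_apply W K (modField K (L₀ * q ^ 2)),
    fieldExt_algebraMap] at key
  rw [v.ord_mul ((map_ne_zero _).mpr ((map_ne_zero _).mpr ((map_ne_zero_iff _
      (IsFractionRing.injective W K)).mpr hb))) (pow_ne_zero e ((map_ne_zero _).mpr hf₀)),
    v.ord_mul ((map_ne_zero _).mpr ((map_ne_zero _).mpr ((map_ne_zero_iff _
      (IsFractionRing.injective W K)).mpr ha))) (pow_ne_zero m hh),
    FF.ord_algebraMap, FF.ord_algebraMap, zero_add, zero_add, FF.ord_pow, FF.ord_pow, ← hfD]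
    at key
  rw [Finsupp.smul_apply, nsmul_eq_mul]
  exact mul_left_cancel₀ (Nat.cast_ne_zero.mpr hm0 : (m : ℤ) ≠ 0) (by linear_combination key)

end Fermat.Agent.Carayol
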