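import Fermat.Agent.RED.Normal.Tame

/-!
# Unramified reduction of an unramified parameter

If a parameter `X` of a constant reduction has ramification index one at every integral point
reducing to `x₀`, then its reduction `x` has ramification index one at every place over `x₀`: the
trace dual of a lifted basis reduces to a dual basis integral over `x₀`.
-/

set_option autoImplicit false
set_option linter.style.haveILetI false

noncomputable section

open Polynomial IntermediateField AlgebraicCurve

namespace Fermat.Agent.Carayol.Etale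

open Fermat.Agent.RED Fermat.Agent.FF

variable {L k : Type*} [Field L] [Field k] {A : ValuationSubring L} {π : A →+* k}
variable {F Fb : Type*} [Field F] [Field Fb] [Algebra L F] [Algebra k Fb]
variable {R : ConstRed A π F Fb} {X : R.W}

/-- The reduced parameter is unramified over `x₀` when the parameter is unramified over every
integral point reducing to `x₀`. -/
theorem ord_red_sub_eq_one [CharZero L] [IsAlgClosed L] [IsAlgClosed k] (hX : R.Param X)
    (hsep : Algebra.IsSeparable k⟮R.red X⟯ Fb) {x₀ : k}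
    (hne : ∀ (P : Place L F) (a' : A), π a' = x₀ →
      P.ord ((X : F) - algebraMap L F (a' : L)) ≤ 1)
    (v : Place k Fb) (hv : R.red X ∈ v.toValuationSubring) (hva : pval v (R.red X) = x₀) :
    v.ord (R.red X - algebraMap k Fb x₀) = 1 := by
  classical
  haveI := hX.finite
  haveI := hX.finite_red
  have hx := hX.transcendental
  have hxL := R.transcendental_of_red hx
  haveI : IsFunctionField L F := ⟨(X : F), hxL, hX.finite⟩
  haveI : IsFunctionField k Fb := ⟨R.red X, hx, hX.finite_red⟩
  obtain ⟨n, d, hfull⟩ := R.exists_full_dualPair hX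
  have hDred : R.red (R.evW X d.D) ≠ 0 := R.red_evW_ne_zero hx d.D_ne
  have hD0 : (R.evW X d.D : F) ≠ 0 := R.ne_zero_of_red_ne_zero hDred
  let y : Fin n → R.W := fun i => d.u i * ⟨_, R.inv_mem_of_red_ne_zero hDred⟩
  have hyF : ∀ i, (y i : F) = (d.u i : F) / (R.evW X d.D : F) := fun i =>
    (div_eq_mul_inv _ _).symm
  let Good : L → Prop := fun b => ∃ a' : A, (a' : L) = b ∧ π a' = x₀
  have hregular : ∀ (i : Fin n) (w : Place L F), (X : F) ∈ w.toValuationSubring →
      Good (pval w (X : F)) → (y i : F) ∈ w.toValuationSubring := by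
    intro i w hw ⟨a', ha', hπa'⟩
    have h1 := d.mem_ordGE_one hX hfull w hw a' ha'.symm i
    have ht0 : (X : F) - algebraMap L F (a' : L) ≠ 0 := fun h =>
      hxL (by rw [sub_eq_zero.mp h]; exact isAlgebraic_algebraMap _)
    rw [mul_div_assoc, ← hyF, FF.mul_mem_ordGE_iff w ht0] at h1
    refine (FF.mem_ordGE_zero w).mp (FF.ordGE_antitone w ?_ h1)
    have := hne w a' hπa'
    omega
  choose s hs0 hsr hs using fun i =>
    Normal.exists_clearing hxL (y i : F) Good fun w hw hG => hregular i w hw hG
  have hsroot : ∀ b, (∏ i, s i).IsRoot b → ¬ Good b := by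
    intro b hb
    rw [IsRoot.def, eval_prod, Finset.prod_eq_zero_iff] at hb
    obtain ⟨i, -, hb⟩ := hb
    exact hsr i b hb
  obtain ⟨c, P, -, hP, hPev⟩ := Normal.exists_map_eq_C_mul R.surjective_π x₀
    (Finset.prod_ne_zero_iff.mpr fun i _ => hs0 i) hsroot
  have hY : ∀ i, R.evW X P * y i ∈ R.chartRing X := by
    intro i
    rw [ConstRed.mem_chartRing, MulMemClass.coe_mul, R.coe_evW, hP, map_mul, aeval_C,
      ← Finset.mul_prod_erase _ _ (Finset.mem_univ i), map_mul]
    rw [show ∀ c' S T Y : F, c' * (S * T) * Y = c' * T * (S * Y) from fun _ _ _ _ => by ring]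
    exact mul_mem (mul_mem ((coordRing L (X : F)).algebraMap_mem c)
      (aeval_mem_coordRing L _ _)) (hs i)
  -- a function with a simple zero at `v`, vanishing at the other places over `x₀`
  let S : Finset (Place k Fb) :=
    (finite_ord_pos (K := k) (R.red X - algebraMap k Fb x₀)).toFinset
  have hxne : R.red X - algebraMap k Fb x₀ ≠ 0 := fun h =>
    hx (by rw [sub_eq_zero.mp h]; exact isAlgebraic_algebraMap _)
  have hmemS : ∀ w : Place k Fb, R.red X ∈ w.toValuationSubring → pval w (R.red X) = x₀ →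
      w ∈ S := by
    intro w hw hwa
    refine (finite_ord_pos (K := k) _).mem_toFinset.mpr ?_
    have := (pval_sub_algebraMap (Normal.deg_eq_one' w) hw).resolve_left (by rwa [hwa])
    rwa [hwa] at this
  obtain ⟨ϖ, hϖ0, hϖ⟩ := exists_ord_eq_one v
  obtain ⟨g₀, hg₀⟩ := exists_sub_mem_ordGE S (fun w => if w = v then ϖ else 0) (fun _ => 2)
  have hg₀v : g₀ ≠ 0 ∧ v.ord g₀ = 1 := by
    have h2 := hg₀ v (hmemS v hv hva)
    rw [if_pos rfl, mem_ordGE] at h2
    have := add_ne_zero_and_ord_eq_of_lt (v := v) hϖ0 (g := g₀ - ϖ)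
      (h2.imp_right fun h => by omega)
    rw [add_sub_cancel] at this
    exact ⟨this.1, this.2.trans hϖ⟩
  have hg₀w : ∀ w : Place k Fb, R.red X ∈ w.toValuationSubring → pval w (R.red X) = x₀ →
      g₀ ∈ ordGE w 1 := by
    intro w hw hwa
    by_cases hwv : w = v
    · subst hwv
      exact mem_ordGE_of_le w hg₀v.2.ge
    · have h2 := hg₀ w (hmemS w hw hwa)
      rw [if_neg hwv, sub_zero] at h2
      exact ordGE_antitone w (by norm_num) h2
  obtain ⟨s', -, hs'r, hs'⟩ := Normal.exists_clearing hx g₀ (fun b => b = x₀) fun w hw hwa =>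
    (mem_ordGE_zero w).mp (ordGE_antitone w zero_le_one (hg₀w w hw hwa))
  set g : Fb := aeval (R.red X) s' * g₀ with hg
  have hunit : ∀ p : k[X], p.eval x₀ ≠ 0 →
      aeval (R.red X) p ≠ 0 ∧ v.ord (aeval (R.red X) p) = 0 := by
    intro p hp
    have h0 : aeval (R.red X) p ≠ 0 := fun h =>
      hp (by rw [transcendental_iff.mp hx _ h, eval_zero])
    refine ⟨h0, ?_⟩
    have hdeg := Normal.deg_eq_one' v
    have h1 := Normal.aeval_sub_mem_ordGE_one v hv hdeg p
    rw [hva] at h1
    have h2 := add_ne_zero_and_ord_eq_of_lt (v := v)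
      (f := algebraMap k Fb (p.eval x₀)) ((_root_.map_ne_zero _).mpr hp)
      (g := aeval (R.red X) p - algebraMap k Fb (p.eval x₀))
      (((mem_ordGE v).mp h1).imp_right fun h => by rw [ord_algebraMap]; omega)
    rw [add_sub_cancel] at h2
    rw [h2.2, ord_algebraMap]
  have hgw : ∀ w : Place k Fb, R.red X ∈ w.toValuationSubring → pval w (R.red X) = x₀ →
      g ∈ ordGE w 1 := fun w hw hwa => by
    simpa using mul_mem_ordGE w (aeval_mem_ordGE_zero w ((mem_ordGE_zero w).mpr hw) s')
      (hg₀w w hw hwa)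
  have hgv : g ≠ 0 ∧ v.ord g = 1 := by
    obtain ⟨h0, h1⟩ := hunit s' (fun h => hs'r x₀ h rfl)
    exact ⟨mul_ne_zero h0 hg₀v.1, by rw [hg, v.ord_mul h0 hg₀v.1, h1, hg₀v.2, zero_add]⟩
  -- the trace of `g` against the dual family vanishes over `x₀`
  have hq : ∀ i, ∃ q : k[X],
      ((Algebra.trace k⟮R.red X⟯ Fb (R.red (R.evW X P * y i) * g) : k⟮R.red X⟯) : Fb) =
        (R.red X - algebraMap k Fb x₀) * aeval (R.red X) q := by
    intro i
    have hYb := R.red_mem_coordRing_of_mem_chartRing hX (hY i)
    have hf : R.red (R.evW X P * y i) * g ∈ coordRing k (R.red X) := mul_mem hYb hs'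
    obtain ⟨p, hp⟩ := Normal.exists_poly_trace hx hf
    have hp0 : p.eval x₀ = 0 := by
      refine Normal.trace_eval_eq_zero hx hf x₀ (fun w hw hwa => ?_) hp
      refine Normal.pval_eq_zero_of_mem_ordGE w (Normal.deg_eq_one' w) ?_
      simpa using mul_mem_ordGE w
        ((mem_ordGE_zero w).mpr (mem_place_of_mem_coordRing k (R.red X) w hw hYb)) (hgw w hw hwa)
    obtain ⟨q, rfl⟩ := dvd_iff_isRoot.mpr hp0
    exact ⟨q, by rw [hp, map_mul, map_sub, aeval_X, aeval_C]⟩
  choose q hq using hq
  set σ : Fb := ∑ i, aeval (R.red X) (q i) * R.red (d.b i)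
  have hPD : ∀ i, R.red (R.evW X d.D) * R.red (R.evW X P * y i) =
      R.red (R.evW X P) * R.red (d.u i) := fun i => by
    rw [← map_mul, ← map_mul]
    refine congrArg R.red (Subtype.ext ?_)
    simp only [MulMemClass.coe_mul, hyF]
    field_simp
  have key : aeval (R.red X) (P.map π) * g = (R.red X - algebraMap k Fb x₀) * σ := by
    apply mul_left_cancel₀ hDred
    rw [mul_left_comm, R.red_evW X d.D, d.expand_red g, ← R.red_evW X d.D, Finset.mul_sum,
      Finset.mul_sum, Finset.mul_sum]
    refine Finset.sum_congr rfl fun i _ => ?_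
    have h1 : Normal.genEval k (R.red X) (d.D.map π) • (R.red (R.evW X P * y i) * g) =
        Normal.genEval k (R.red X) (P.map π) • (R.red (d.u i) * g) := by
      rw [IntermediateField.smul_def, IntermediateField.smul_def, R.coe_genEval_map,
        R.coe_genEval_map, smul_eq_mul, smul_eq_mul, ← mul_assoc, hPD, mul_assoc]
    have htr := congrArg
      (fun z : Fb => ((Algebra.trace k⟮R.red X⟯ Fb z : k⟮R.red X⟯) : Fb)) h1
    simp only [map_smul, smul_eq_mul, MulMemClass.coe_mul, R.coe_genEval_map, hq] at htr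
    rw [← R.red_evW]
    linear_combination (-R.red (d.b i)) * htr
  have hσ : σ ∈ v.toValuationSubring := sum_mem fun i _ => mul_mem
    (mem_place_of_mem_coordRing k (R.red X) v hv (aeval_mem_coordRing k _ _))
    (mem_place_of_mem_coordRing k (R.red X) v hv
      (R.red_mem_coordRing_of_mem_chartRing hX (d.b_mem i)))
  obtain ⟨hP0, hPv⟩ := hunit _ hPev
  have hσ0 : σ ≠ 0 := fun h => mul_ne_zero hP0 hgv.1 (by rw [key, h, mul_zero])
  have hord := congrArg v.ord key
  rw [v.ord_mul hP0 hgv.1, hPv, hgv.2, v.ord_mul hxne hσ0] at hord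
  have h1 := (FF.mem_iff_ord_nonneg v).mp hσ
  have h2 := (pval_sub_algebraMap (Normal.deg_eq_one' v) hv).resolve_left (by rwa [hva])
  rw [hva] at h2
  omega

end Fermat.Agent.Carayol.Etale
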