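import Fermat.Agent.Carayol.EtaleLevel
import Fermat.Agent.RED.Hauptmodul.Level4
import Fermat.Agent.RED.Hauptmodul.Level9

/-!
# The level `L` chart is locally `(q, t - x)` away from the cusps, `t = t₄` or `t₉`
-/

set_option autoImplicit false
set_option linter.style.haveILetI false

noncomputable section

open Polynomial IntermediateField AlgebraicCurve ModularCurve

namespace Fermat.Agent.Carayol.Etale

open Fermat.Agent.RED Fermat.Agent.FF Fermat.Agent.RED.Hauptmodul

local notation "Qbar" => AlgebraicClosure ℚ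

variable {N : ℕ} [NeZero N] {A : ValuationSubring Qbar} {k : Type} [Field k] [IsAlgClosed k]

/-- `t₄ - x₀` has simple zeros in characteristic `p`, for `x₀` not a cusp. -/
theorem ord_t4_sub_eq_one (π : A →+* k) (hπ : Function.Surjective π) (hN : (N : k) ≠ 0)
    (h4 : 4 ∣ N) (tb : modularFunctionFieldFullC k N)
    (htb : (tb : LaurentSeries k) = coeffMap (Int.castRingHom k) t4Z)
    {x₀ : k} (h0 : x₀ ≠ 0) (h16 : x₀ + 16 ≠ 0) (v : Place k (modularFunctionFieldFullC k N))
    (hv : 0 < v.ord (tb - algebraMap k _ x₀)) : v.ord (tb - algebraMap k _ x₀) = 1 := by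
  refine ord_sub_eq_one_of_rel π hπ hN (tZ := t4Z) ?_
    (haveI : NeZero 4 := ⟨by norm_num⟩; full_degeneracy_le h4 t4_mem) (den := Polynomial.X ^ 4 * (Polynomial.X + 16))
    (num := Polynomial.X ^ 2 + 256 * Polynomial.X + 4096)
    (sq := (Polynomial.X + 32) * (Polynomial.X ^ 2 - 512 * Polynomial.X - 8192)) ?_ ?_ tb htb
    ?_ v hv
  · have h := coeff_t4_neg_one
    rw [t4, coeffMap_coeff] at h
    simpa using h
  · simpa [t4] using t4_mul_jq
  · simpa [t4] using t4_mul_jq_sub
  · simpa using And.intro h0 h16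

/-- `t₉ - x₀` has simple zeros in characteristic `p`, for `x₀` not a cusp. -/
theorem ord_t9_sub_eq_one (π : A →+* k) (hπ : Function.Surjective π) (hN : (N : k) ≠ 0)
    (h9 : 9 ∣ N) (tb : modularFunctionFieldFullC k N)
    (htb : (tb : LaurentSeries k) = coeffMap (Int.castRingHom k) t9Z)
    {x₀ : k} (h0 : x₀ ≠ 0) (h27 : x₀ ^ 2 + 9 * x₀ + 27 ≠ 0)
    (v : Place k (modularFunctionFieldFullC k N))
    (hv : 0 < v.ord (tb - algebraMap k _ x₀)) : v.ord (tb - algebraMap k _ x₀) = 1 := by
  refine ord_sub_eq_one_of_rel π hπ hN (tZ := t9Z) ?_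
    (haveI : NeZero 9 := ⟨by norm_num⟩; full_degeneracy_le h9 t9_mem)
    (den := Polynomial.X ^ 9 * (Polynomial.X ^ 2 + 9 * Polynomial.X + 27))
    (num := (Polynomial.X + 9) *
      (Polynomial.X ^ 3 + 243 * Polynomial.X ^ 2 + 2187 * Polynomial.X + 6561))
    (sq := Polynomial.X ^ 6 - 486 * Polynomial.X ^ 5 - 24057 * Polynomial.X ^ 4
      - 367416 * Polynomial.X ^ 3 - 2657205 * Polynomial.X ^ 2 - 9565938 * Polynomial.X
      - 14348907) ?_ ?_ tb htb ?_ v hv
  · have h := coeff_t9_neg_one
    rw [t9, coeffMap_coeff] at h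
    simpa using h
  · simpa [t9, mul_pow] using t9_mul_jq
  · simpa [t9] using t9_mul_jq_sub
  · simpa using And.intro h0 h27

/-- A maximal ideal of a chart over `(ϖ, T)`, `T` with simple zeros, is locally `(ϖ, T)`. -/
theorem maximalIdeal_eq_of_simple {B : Type*} [CommRing B] (hN : (N : k) ≠ 0)
    (red : B →+* modularFunctionFieldFullC k N) {ϖ T : B}
    (hker : ∀ b, red b = 0 → ϖ ∣ b) (hmem : ∀ b, red b ∈ coordRing k (jSpecial (k := k) N))
    (hsurj : ∀ g ∈ coordRing k (jSpecial (k := k) N), ∃ b, red b = g)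
    (hsimple : ∀ v : Place k (modularFunctionFieldFullC k N), 0 < v.ord (red T) →
      v.ord (red T) = 1)
    (hT0 : red T ≠ 0) (P : Ideal B) [P.IsMaximal] (hϖ : ϖ ∈ P) (hT : T ∈ P) :
    IsLocalRing.maximalIdeal (Localization.AtPrime P) =
      Ideal.span {algebraMap B (Localization.AtPrime P) ϖ,
        algebraMap B (Localization.AtPrime P) T} := by
  haveI := isFunctionField_special (k := k) N hN
  haveI := FF.finiteDimensional_adjoin (transcendental_jSpecial (k := k) N)
  exact maximalIdeal_eq_span_pair red (transcendental_jSpecial N) hker hmem hsurj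
    (fun v _ hv => hsimple v (by have := le_ord_of_mem_ordGE v hv hT0; omega)) hT0 P hϖ hT

end Fermat.Agent.Carayol.Etale
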