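import Fermat.Agent.RED.Normal.Tame
import Mathlib.RingTheory.Localization.AtPrime.Basic

/-!
# The maximal ideals of a chart over a point where a reduced function has a simple zero

If a ring `B` maps onto the chart `coordRing k y` with kernel inside `(ϖ)` and the image of `T` has
only simple zeros on the chart, every maximal ideal containing `ϖ` and `T` is locally `(ϖ, T)`.
-/

set_option autoImplicit false
set_option linter.style.haveILetI false

noncomputable section

open Polynomial IntermediateField AlgebraicCurve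

namespace Fermat.Agent.Carayol.Etale

open Fermat.Agent.RED Fermat.Agent.FF

variable {k E : Type*} [Field k] [IsAlgClosed k] [Field E] [Algebra k E] {y : E}
variable {B : Type*} [CommRing B] (red : B →+* E) {ϖ T : B}

/-- A function regular at a place of the chart is a quotient of chart functions, the denominator
not vanishing there. -/
theorem exists_mul_mem_coordRing (hy : Transcendental k y) [FiniteDimensional k⟮y⟯ E]
    (v : Place k E) (hv : y ∈ v.toValuationSubring) {z : E} (hz : z ∈ v.toValuationSubring) :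
    ∃ r ∈ coordRing k y, r ∉ ordGE v 1 ∧ r * z ∈ coordRing k y := by
  classical
  haveI : IsFunctionField k E := ⟨y, hy, inferInstance⟩
  set a := pval v y with ha
  have hya : y - algebraMap k E a ≠ 0 := fun h =>
    hy (by rw [sub_eq_zero.mp h]; exact isAlgebraic_algebraMap _)
  set S : Finset (Place k E) :=
    ((finite_ord_pos (K := k) (y - algebraMap k E a)).toFinset).erase v
  set N : ℕ := 1 + ∑ w ∈ S, (w.ord z).natAbs with hN
  obtain ⟨e, he, heS⟩ := exists_one_at_zero_elsewhere v S (Finset.notMem_erase v _) N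
  have hev : e ∈ ordGE v 0 ∧ e ∉ ordGE v 1 := by
    have h1 := ordGE_antitone v (m := 1) (by omega) he
    refine ⟨?_, fun h => ?_⟩
    · have := add_mem (ordGE_antitone v zero_le_one h1) ((mem_ordGE_zero v).mpr (one_mem _))
      rwa [sub_add_cancel] at this
    · have h2 := sub_mem h h1
      rw [sub_sub_cancel] at h2
      have := le_ord_of_mem_ordGE v h2 one_ne_zero
      rw [v.ord_one] at this
      omega
  have hreg : ∀ w : Place k E, y ∈ w.toValuationSubring → pval w y = a →
      e ∈ w.toValuationSubring ∧ e * z ∈ w.toValuationSubring := by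
    intro w hw hwa
    by_cases hwv : w = v
    · subst hwv
      exact ⟨(mem_ordGE_zero w).mp hev.1, mul_mem ((mem_ordGE_zero w).mp hev.1) hz⟩
    have hwS : w ∈ S := by
      refine Finset.mem_erase.mpr ⟨hwv, (finite_ord_pos (K := k) _).mem_toFinset.mpr ?_⟩
      have := (pval_sub_algebraMap (Normal.deg_eq_one' w) hw).resolve_left (by rwa [hwa])
      rwa [hwa] at this
    refine ⟨(mem_ordGE_zero w).mp (ordGE_antitone w (by omega) (heS w hwS)), ?_⟩
    rcases eq_or_ne z 0 with rfl | hz0
    · rw [mul_zero]; exact zero_mem _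
    have h1 : z ∈ ordGE w (w.ord z) := mem_ordGE_of_le w le_rfl
    refine (mem_ordGE_zero w).mp (ordGE_antitone w ?_ (mul_mem_ordGE w (heS w hwS) h1))
    have h2 := Finset.single_le_sum (f := fun w => (w.ord z).natAbs) (fun _ _ => Nat.zero_le _) hwS
    omega
  obtain ⟨s₁, -, hs₁r, hs₁⟩ :=
    Normal.exists_clearing hy e (fun b => b = a) fun w hw hwa => (hreg w hw hwa).1
  obtain ⟨s₂, -, hs₂r, hs₂⟩ :=
    Normal.exists_clearing hy (e * z) (fun b => b = a) fun w hw hwa => (hreg w hw hwa).2
  have hs : (s₁ * s₂).eval a ≠ 0 := by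
    rw [eval_mul]
    exact mul_ne_zero (fun h => hs₁r a h rfl) (fun h => hs₂r a h rfl)
  refine ⟨aeval y (s₁ * s₂) * e, ?_, fun h => ?_, ?_⟩
  · rw [map_mul, mul_comm (aeval y s₁), mul_assoc]
    exact mul_mem (aeval_mem_coordRing k y _) hs₁
  · have h1 := Normal.aeval_sub_mem_ordGE_one v hv (Normal.deg_eq_one' v) (s₁ * s₂)
    rw [← ha] at h1
    have h2 := sub_mem h (by simpa using mul_mem_ordGE v h1 hev.1 :
      (aeval y (s₁ * s₂) - algebraMap k E ((s₁ * s₂).eval a)) * e ∈ ordGE v 1)
    rw [← sub_mul, sub_sub_cancel, ← Algebra.smul_def] at h2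
    exact hev.2 ((Submodule.smul_mem_iff _ hs).mp h2)
  · rw [map_mul, mul_assoc, mul_assoc]
    exact mul_mem (aeval_mem_coordRing k y _) hs₂

/-- A maximal ideal over `(ϖ, T)` is locally generated by `ϖ` and `T`. -/
theorem exists_mul_mem_span (hy : Transcendental k y) [FiniteDimensional k⟮y⟯ E]
    (hker : ∀ b, red b = 0 → ϖ ∣ b) (hmem : ∀ b, red b ∈ coordRing k y)
    (hsurj : ∀ g ∈ coordRing k y, ∃ b, red b = g)
    (hsimple : ∀ v : Place k E, y ∈ v.toValuationSubring →
      red T ∈ ordGE v 1 → v.ord (red T) = 1)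
    (hT0 : red T ≠ 0) (P : Ideal B) [P.IsMaximal] (hϖ : ϖ ∈ P) (hT : T ∈ P) {f : B} (hf : f ∈ P) :
    ∃ s, s ∉ P ∧ s * f ∈ Ideal.span ({ϖ, T} : Set B) := by
  haveI : IsFunctionField k E := ⟨y, hy, inferInstance⟩
  let φ : B →+* (coordRing k y).toSubring := red.codRestrict _ hmem
  have hφ : Function.Surjective φ := fun g => by
    obtain ⟨b, hb⟩ := hsurj g g.2
    exact ⟨b, Subtype.ext hb⟩
  have hkerP : RingHom.ker φ ≤ P := fun b hb => by
    obtain ⟨c, rfl⟩ := hker b (congrArg Subtype.val hb)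
    exact P.mul_mem_right _ hϖ
  have hcomap : (P.map φ).comap φ = P := by
    rw [Ideal.comap_map_of_surjective φ hφ]
    exact sup_of_le_left (le_trans (fun b hb => hb) hkerP)
  have htop : P.map φ ≠ ⊤ := fun h =>
    Ideal.IsMaximal.ne_top (I := P) inferInstance (by rw [← hcomap, h, Ideal.comap_top])
  obtain ⟨v, hv, hP1⟩ := exists_place_of_ideal (K := k) (A := (coordRing k y).toSubring)
    (fun a => (coordRing k y).algebraMap_mem a) (P.map φ) htop
    (Ideal.mem_map_of_mem φ hT) (fun h => hT0 (congrArg Subtype.val h))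
  have hyv : y ∈ v.toValuationSubring :=
    (FF.mem_iff_ord_nonneg v).mpr (hv y (self_mem_coordRing k y))
  have hTv : red T ∈ ordGE v 1 := hP1 (φ T) (Ideal.mem_map_of_mem φ hT)
  have hT1 := hsimple v hyv hTv
  have hz : red f / red T ∈ v.toValuationSubring := by
    rcases eq_or_ne (red f) 0 with h0 | h0
    · rw [h0, zero_div]; exact zero_mem _
    refine (FF.mem_iff_ord_nonneg v).mpr ?_
    have hfv : red f ∈ ordGE v 1 := hP1 (φ f) (Ideal.mem_map_of_mem φ hf)
    have := le_ord_of_mem_ordGE v hfv h0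
    rw [FF.ord_div v h0 hT0, hT1]
    omega
  obtain ⟨r, hr, hrv, hrz⟩ := exists_mul_mem_coordRing hy v hyv hz
  obtain ⟨s, rfl⟩ := hsurj r hr
  obtain ⟨h, hh⟩ := hsurj _ hrz
  refine ⟨s, fun hs => hrv (hP1 (φ s) (Ideal.mem_map_of_mem φ hs)), ?_⟩
  obtain ⟨c, hc⟩ := hker (s * f - T * h) (by
    rw [map_sub, map_mul, map_mul, hh]; field_simp; ring)
  exact Ideal.mem_span_pair.mpr ⟨c, h, by linear_combination -hc⟩

/-- The maximal ideal of the local ring at a point over `(ϖ, T)` is `(ϖ, T)`. -/
theorem maximalIdeal_eq_span_pair (hy : Transcendental k y) [FiniteDimensional k⟮y⟯ E]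
    (hker : ∀ b, red b = 0 → ϖ ∣ b) (hmem : ∀ b, red b ∈ coordRing k y)
    (hsurj : ∀ g ∈ coordRing k y, ∃ b, red b = g)
    (hsimple : ∀ v : Place k E, y ∈ v.toValuationSubring →
      red T ∈ ordGE v 1 → v.ord (red T) = 1)
    (hT0 : red T ≠ 0) (P : Ideal B) [P.IsMaximal] (hϖ : ϖ ∈ P) (hT : T ∈ P) :
    IsLocalRing.maximalIdeal (Localization.AtPrime P) =
      Ideal.span {algebraMap B (Localization.AtPrime P) ϖ,
        algebraMap B (Localization.AtPrime P) T} := by
  rw [← Set.image_pair, ← Ideal.map_span, ← Localization.AtPrime.map_eq_maximalIdeal]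
  refine le_antisymm (Ideal.map_le_iff_le_comap.mpr fun f hf => ?_) (Ideal.map_mono ?_)
  · obtain ⟨s, hs, hsf⟩ := exists_mul_mem_span red hy hker hmem hsurj hsimple hT0 P hϖ hT hf
    exact (IsLocalization.algebraMap_mem_map_algebraMap_iff P.primeCompl _ _ f).mpr ⟨s, hs, hsf⟩
  · exact Ideal.span_le.mpr (Set.insert_subset hϖ (Set.singleton_subset_iff.mpr hT))

end Fermat.Agent.Carayol.Etale
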