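import Fermat.Agent.Carayol.Etale
import Fermat.Agent.Carayol.EtaleLocal
import Fermat.Agent.RED.Normal.AuxParam
import Fermat.Agent.RED.X0Red
import Fermat.Agent.RED.X0Separable

/-!
# A Hauptmodul has simple zeros on the special fibre away from the cusps

If `den(t) j = num(t)³` and `den(t) (j - 1728) = sq(t)²`, then `t` is unramified over every value
`a` with `den(a) ≠ 0` in characteristic zero, hence also at a good prime.
-/

set_option autoImplicit false
set_option linter.style.haveILetI false

noncomputable section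

open Polynomial IntermediateField AlgebraicCurve ModularCurve

namespace Fermat.Agent.Carayol.Etale

open Fermat.Agent.RED Fermat.Agent.FF

local notation "Qbar" => AlgebraicClosure ℚ

section Order

variable {K E : Type*} [Field K] [Field E] [Algebra K E] {t : E} {a : K} (v : Place K E)

theorem aeval_sub_mem_ordGE {n : ℤ} (hn : 0 ≤ n) (ht : t - algebraMap K E a ∈ ordGE v n)
    (p : K[X]) : aeval t p - algebraMap K E (p.eval a) ∈ ordGE v n := by
  obtain ⟨q, hq⟩ := X_sub_C_dvd_sub_C_eval (p := p) (a := a)
  have h : aeval t p - algebraMap K E (p.eval a) = (t - algebraMap K E a) * aeval t q := by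
    simpa using congrArg (aeval t) hq
  have ht0 : t ∈ ordGE v 0 := by
    have := add_mem (ordGE_antitone v hn ht) (algebraMap_mem_ordGE_zero v a)
    rwa [sub_add_cancel] at this
  rw [h]
  simpa using mul_mem_ordGE v ht (aeval_mem_ordGE_zero v ht0 q)

theorem ord_aeval_eq_zero (ht : t - algebraMap K E a ∈ ordGE v 1) {p : K[X]}
    (hp : p.eval a ≠ 0) : aeval t p ≠ 0 ∧ v.ord (aeval t p) = 0 := by
  have h := add_ne_zero_and_ord_eq_of_lt (v := v)
    (f := algebraMap K E (p.eval a)) ((_root_.map_ne_zero _).mpr hp)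
    (g := aeval t p - algebraMap K E (p.eval a))
    (((mem_ordGE v).mp (aeval_sub_mem_ordGE v zero_le_one ht p)).imp_right fun h => by
      rw [ord_algebraMap]; omega)
  rw [add_sub_cancel] at h
  exact ⟨h.1, h.2.trans (ord_algebraMap v _)⟩

end Order

/-- A parameter with `den(t) j = num(t)³`, `den(t) (j - 1728) = sq(t)²` is unramified over every
value `a` with `den(a) ≠ 0`. -/
theorem ord_sub_le_one {N : ℕ} [NeZero N] (P : Place Qbar (modularFunctionFieldBar N))
    {t : modularFunctionFieldBar N} {den num sq : Qbar[X]}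
    (hrel : aeval t den * RamBound.jPlace N = aeval t num ^ 3)
    (hsub : aeval t den * (RamBound.jPlace N - 1728) = aeval t sq ^ 2)
    {a : Qbar} (ha : den.eval a ≠ 0) :
    P.ord (t - algebraMap Qbar (modularFunctionFieldBar N) a) ≤ 1 := by
  by_contra hcon
  push Not at hcon
  set e := P.ord (t - algebraMap Qbar (modularFunctionFieldBar N) a) with he
  have hte : t - algebraMap Qbar (modularFunctionFieldBar N) a ∈ ordGE P e :=
    mem_ordGE_of_le P le_rfl
  have ht1 := ordGE_antitone P (show (1 : ℤ) ≤ e by omega) hte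
  obtain ⟨hd0, hd⟩ := ord_aeval_eq_zero P ht1 ha
  set b : Qbar := num.eval a ^ 3 / den.eval a with hb
  set jv : modularFunctionFieldBar N := RamBound.jPlace N with hjv
  have hjb : jv - algebraMap Qbar (modularFunctionFieldBar N) b ≠ 0 := fun h => by
    have htr : Transcendental Qbar jv := fun halg =>
      MF.Coeff.transcendental_jqModC Qbar (by
        have := halg.algHom (modularFunctionFieldBar N).val
        rwa [hjv, jPlace_eq_jElem] at this)
    exact htr (by rw [sub_eq_zero.mp h]; exact isAlgebraic_algebraMap _)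
  have hG : aeval t den * (jv - algebraMap Qbar (modularFunctionFieldBar N) b) =
      aeval t (num ^ 3 - Polynomial.C b * den) := by
    rw [map_sub, map_pow, map_mul, aeval_C, mul_sub, hrel]; ring
  have hG0 : (num ^ 3 - Polynomial.C b * den).eval a = 0 := by
    rw [eval_sub, eval_pow, eval_mul, eval_C, hb, div_mul_cancel₀ _ ha, sub_self]
  have hge : e ≤ P.ord (jv - algebraMap Qbar (modularFunctionFieldBar N) b) := by
    have h := aeval_sub_mem_ordGE P (show (0 : ℤ) ≤ e by omega) hte (num ^ 3 - Polynomial.C b * den)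
    rw [hG0, map_zero, sub_zero, ← hG] at h
    have h1 := le_ord_of_mem_ordGE P h (mul_ne_zero hd0 hjb)
    rwa [P.ord_mul hd0 hjb, hd, zero_add] at h1
  have hle := RamBound.ord_jPlace_sub_le N P b
  rw [← hjv] at hle
  have hkey : ∀ (m : ℕ) (s : Qbar[X]), aeval t den *
      (jv - algebraMap Qbar (modularFunctionFieldBar N) b) = aeval t s ^ m →
      (m : ℤ) * e ≤ P.ord (jv - algebraMap Qbar (modularFunctionFieldBar N) b) := by
    intro m s hm
    have hs : s.eval a = 0 := by
      by_contra hs
      obtain ⟨-, hs1⟩ := ord_aeval_eq_zero P ht1 hs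
      have := congrArg P.ord hm
      rw [P.ord_mul hd0 hjb, hd, ord_pow, hs1] at this
      omega
    have h := aeval_sub_mem_ordGE P (show (0 : ℤ) ≤ e by omega) hte s
    rw [hs, map_zero, sub_zero] at h
    rcases eq_or_ne (aeval t s) 0 with h0 | h0
    · rcases m.eq_zero_or_pos with rfl | hm0
      · simp only [Nat.cast_zero, zero_mul]; omega
      · rw [h0, zero_pow hm0.ne'] at hm
        exact absurd hm (mul_ne_zero hd0 hjb)
    have h1 := le_ord_of_mem_ordGE P h h0
    have := congrArg P.ord hm
    rw [P.ord_mul hd0 hjb, hd, ord_pow, zero_add] at this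
    rw [this]
    exact mul_le_mul_of_nonneg_left h1 (by positivity)
  rcases eq_or_ne b 0 with hb0 | hb0
  · have := hkey 3 num (by rw [hb0, map_zero, sub_zero, hrel])
    rw [hb0, RamBound.ellRam_zero] at hle
    rw [hb0] at this
    push_cast at this hle
    omega
  rcases eq_or_ne b 1728 with hb1 | hb1
  · have := hkey 2 sq (by rw [hb1, map_ofNat, hsub])
    rw [hb1, RamBound.ellRam_1728] at hle
    rw [hb1] at this
    push_cast at this hle
    omega
  rw [RamBound.ellRam_of_ne hb0 hb1] at hle
  push_cast at hle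
  omega

section Series

variable {R S : Type*} [CommRing R] [CommRing S]

theorem coeffMap_eval₂ (f : R →+* S) (p : ℤ[X]) (x : LaurentSeries R) :
    coeffMap f (p.eval₂ (Int.castRingHom _) x) = p.eval₂ (Int.castRingHom _) (coeffMap f x) := by
  rw [hom_eval₂, RingHom.ext_int ((coeffMap f).comp _) (Int.castRingHom _)]

/-- Relations of a series with integral coefficients to `j` hold over every ring. -/
theorem rel_of_rat {tZ : LaurentSeries ℤ} {den num : ℤ[X]} {n c : ℕ}
    (h : den.eval₂ (Int.castRingHom _) (coeffMap (Int.castRingHom ℚ) tZ) * (jq - c) =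
      num.eval₂ (Int.castRingHom _) (coeffMap (Int.castRingHom ℚ) tZ) ^ n) (R : Type*) [CommRing R] :
    den.eval₂ (Int.castRingHom _) (coeffMap (Int.castRingHom R) tZ) * (jqModC R - c) =
      num.eval₂ (Int.castRingHom _) (coeffMap (Int.castRingHom R) tZ) ^ n := by
  have hZ : den.eval₂ (Int.castRingHom _) tZ * (jqModC ℤ - c) =
      num.eval₂ (Int.castRingHom _) tZ ^ n := by
    apply Igusa.coeffMap_injective (φ := Int.castRingHom ℚ) Int.cast_injective
    rwa [map_mul, map_sub, map_natCast, map_pow, coeffMap_jqModC, coeffMap_eval₂, coeffMap_eval₂,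
      jqModC_rat]
  have := congrArg (coeffMap (Int.castRingHom R)) hZ
  rwa [map_mul, map_sub, map_natCast, map_pow, coeffMap_jqModC, coeffMap_eval₂,
    coeffMap_eval₂] at this

end Series

/-- The value in a field of series of a polynomial with integral coefficients. -/
theorem coe_aeval_map {K : Type*} [Field K] {E : IntermediateField K (LaurentSeries K)}
    (t : E) (p : ℤ[X]) :
    ((aeval t (p.map (Int.castRingHom K)) : E) : LaurentSeries K) =
      p.eval₂ (Int.castRingHom _) (t : LaurentSeries K) := by
  rw [← IntermediateField.coe_val, ← aeval_algHom_apply, aeval_def, eval₂_map,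
    RingHom.ext_int ((algebraMap K _).comp _) (Int.castRingHom _), IntermediateField.coe_val]

variable {N : ℕ} [NeZero N] {A : ValuationSubring Qbar} {k : Type} [Field k] [IsAlgClosed k]

/-- The Hauptmodul as a parameter of the reduction of `X₀(N)`. -/
theorem exists_hauptmodulParam (π : A →+* k) (hπ : Function.Surjective π) (hN : (N : k) ≠ 0)
    {tZ : LaurentSeries ℤ} (hcoeff : tZ.coeff (-1) = 1)
    (hmem : coeffMap (Int.castRingHom ℚ) tZ ∈ modularFunctionFieldFull N)
    {den num sq : ℤ[X]}
    (hrel : den.eval₂ (Int.castRingHom _) (coeffMap (Int.castRingHom ℚ) tZ) * jq =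
      num.eval₂ (Int.castRingHom _) (coeffMap (Int.castRingHom ℚ) tZ) ^ 3)
    (hsub : den.eval₂ (Int.castRingHom _) (coeffMap (Int.castRingHom ℚ) tZ) * (jq - 1728) =
      sq.eval₂ (Int.castRingHom _) (coeffMap (Int.castRingHom ℚ) tZ) ^ 2)
    (hden : den.map (Int.castRingHom k) ≠ 0)
    (tb : modularFunctionFieldFullC k N)
    (htb : (tb : LaurentSeries k) = coeffMap (Int.castRingHom k) tZ) :
    ∃ T : (good_x0 A π N hπ hN).constRed.W,
      (good_x0 A π N hπ hN).constRed.red T = tb ∧ (good_x0 A π N hπ hN).constRed.Param T ∧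
      Algebra.IsSeparable k⟮(good_x0 A π N hπ hN).constRed.red T⟯ (modularFunctionFieldFullC k N) ∧
      aeval (T : modularFunctionFieldBar N) (den.map (Int.castRingHom Qbar)) * RamBound.jPlace N =
        aeval (T : modularFunctionFieldBar N) (num.map (Int.castRingHom Qbar)) ^ 3 ∧
      aeval (T : modularFunctionFieldBar N) (den.map (Int.castRingHom Qbar)) *
          (RamBound.jPlace N - 1728) =
        aeval (T : modularFunctionFieldBar N) (sq.map (Int.castRingHom Qbar)) ^ 2 := by
  have hrel' := fun (R : Type) [CommRing R] =>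
    rel_of_rat (c := 0) (n := 3) (tZ := tZ) (den := den) (num := num) (by simpa using hrel) R
  have hsub' := fun (R : Type) [CommRing R] =>
    rel_of_rat (c := 1728) (n := 2) (tZ := tZ) (den := den) (num := sq) (by simpa using hsub) R
  simp only [Nat.cast_zero, sub_zero] at hrel'
  let hG := good_x0 A π N hπ hN
  let Rd : ConstRed A π (modularFunctionFieldBar N) (modularFunctionFieldFullC k N) := hG.constRed
  have hXcoe : ((hG.paramX : Rd.W) : modularFunctionFieldBar N) = RamBound.jPlace N :=
    (toE_jPair A π N).trans jPlace_eq_jElem.symm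
  have hXred : Rd.red hG.paramX = jSpecial N := hG.red_paramX.trans (toEb_jPair A π N)
  -- the parameter
  have hy : coeffMap A.subtype (coeffMap (Int.castRingHom A) tZ) ∈ modularFunctionFieldBar N := by
    have h := coeffEmb_mem_laurentBaseChange Qbar hmem
    rw [coeffEmb, coeffMap_coeffMap] at h
    rw [coeffMap_coeffMap]
    rwa [RingHom.ext_int (A.subtype.comp (Int.castRingHom A))
      ((algebraMap ℚ Qbar).comp (Int.castRingHom ℚ))]
  obtain ⟨hTW, hTred⟩ := LaurentPair.exists_mem_of_coeffMap_mem (hG) hy
  let T : Rd.W := ⟨_, hTW⟩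
  have hTcoe : ((T : modularFunctionFieldBar N) : LaurentSeries Qbar) =
      coeffMap (Int.castRingHom Qbar) tZ := by
    show coeffMap A.subtype (coeffMap (Int.castRingHom A) tZ) = _
    rw [coeffMap_coeffMap, RingHom.ext_int (A.subtype.comp _) (Int.castRingHom _)]
  have hTtb : Rd.red T = tb := Subtype.ext <| by
    rw [htb]
    refine hTred.trans ?_
    rw [coeffMap_coeffMap, RingHom.ext_int (π.comp _) (Int.castRingHom _)]
  have hj : ((RamBound.jPlace N : modularFunctionFieldBar N) : LaurentSeries Qbar) =
      jqModC Qbar := by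
    rw [jPlace_eq_jElem]; rfl
  have hrelL : aeval (T : modularFunctionFieldBar N) (den.map (Int.castRingHom Qbar)) *
      RamBound.jPlace N =
        aeval (T : modularFunctionFieldBar N) (num.map (Int.castRingHom Qbar)) ^ 3 := by
    apply Subtype.ext
    rw [MulMemClass.coe_mul, SubmonoidClass.coe_pow, coe_aeval_map, coe_aeval_map, hTcoe, hj]
    exact hrel' Qbar
  have hsubL : aeval (T : modularFunctionFieldBar N) (den.map (Int.castRingHom Qbar)) *
      (RamBound.jPlace N - 1728) =
        aeval (T : modularFunctionFieldBar N) (sq.map (Int.castRingHom Qbar)) ^ 2 := by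
    apply Subtype.ext
    rw [MulMemClass.coe_mul, SubmonoidClass.coe_pow, coe_aeval_map, coe_aeval_map, hTcoe,
      AddSubgroupClass.coe_sub, hj]
    exact hsub' Qbar
  have hrelk : aeval tb (den.map (Int.castRingHom k)) * jSpecial N =
      aeval tb (num.map (Int.castRingHom k)) ^ 3 := by
    apply Subtype.ext
    rw [MulMemClass.coe_mul, SubmonoidClass.coe_pow, coe_aeval_map, coe_aeval_map, htb,
      coe_jSpecial]
    exact hrel' _
  have htrb : Transcendental k tb := by
    intro halg
    obtain ⟨c, hc⟩ := minpoly.mem_range_of_degree_eq_one k tb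
      (IsAlgClosed.degree_eq_one_of_irreducible k (minpoly.irreducible halg.isIntegral))
    have := congrArg (fun z : modularFunctionFieldFullC k N =>
      (z : LaurentSeries k).coeff (-1)) hc
    simp [htb, algebraMap_laurentSeries_eq_single, hcoeff] at this
  have hden0 : den.map (Int.castRingHom k) ≠ 0 := hden
  have hxmem : Rd.red hG.paramX ∈
      k⟮Rd.red T⟯ := by
    rw [hXred, hTtb, mem_adjoin_simple_iff]
    exact ⟨num.map (Int.castRingHom k) ^ 3, den.map (Int.castRingHom k), by
      rw [map_pow, eq_div_iff (fun h => hden0 (transcendental_iff.mp htrb _ h)), mul_comm, hrelk]⟩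
  have hTtr : Transcendental Qbar (T : modularFunctionFieldBar N) :=
    Rd.transcendental_of_red (hTtb ▸ htrb)
  have hden1 : den.map (Int.castRingHom Qbar) ≠ 0 := fun h => hden0 (by
    rw [(Polynomial.map_eq_zero_iff (Int.cast_injective (α := Qbar))).mp h, Polynomial.map_zero])
  have hXmem : ((hG.paramX : Rd.W) : modularFunctionFieldBar N) ∈
      Qbar⟮(T : modularFunctionFieldBar N)⟯ := by
    rw [hXcoe, mem_adjoin_simple_iff]
    exact ⟨num.map (Int.castRingHom Qbar) ^ 3, den.map (Int.castRingHom Qbar), by
      rw [map_pow, eq_div_iff (fun h => hden1 (transcendental_iff.mp hTtr _ h)), mul_comm, hrelL]⟩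
  have hTP := ConstRed.Param.of_mem (hG.param) hXmem hxmem
  have hsep := ConstRed.isSeparable_of_mem (X := hG.paramX) (T := T) (by
    rw [hXred]; exact isSeparable_special N (hN)) hxmem
  exact ⟨T, hTtb, hTP, hsep, hrelL, hsubL⟩

/-- A Hauptmodul of a level dividing `N` has simple zeros on the special fibre at a good prime,
away from the zeros of the denominator. -/
theorem ord_sub_eq_one_of_rel (π : A →+* k) (hπ : Function.Surjective π) (hN : (N : k) ≠ 0)
    {tZ : LaurentSeries ℤ} (hcoeff : tZ.coeff (-1) = 1)
    (hmem : coeffMap (Int.castRingHom ℚ) tZ ∈ modularFunctionFieldFull N)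
    {den num sq : ℤ[X]}
    (hrel : den.eval₂ (Int.castRingHom _) (coeffMap (Int.castRingHom ℚ) tZ) * jq =
      num.eval₂ (Int.castRingHom _) (coeffMap (Int.castRingHom ℚ) tZ) ^ 3)
    (hsub : den.eval₂ (Int.castRingHom _) (coeffMap (Int.castRingHom ℚ) tZ) * (jq - 1728) =
      sq.eval₂ (Int.castRingHom _) (coeffMap (Int.castRingHom ℚ) tZ) ^ 2)
    (tb : modularFunctionFieldFullC k N)
    (htb : (tb : LaurentSeries k) = coeffMap (Int.castRingHom k) tZ)
    {x₀ : k} (hx₀ : den.eval₂ (Int.castRingHom k) x₀ ≠ 0)
    (v : Place k (modularFunctionFieldFullC k N))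
    (hv : 0 < v.ord (tb - algebraMap k _ x₀)) :
    v.ord (tb - algebraMap k _ x₀) = 1 := by
  obtain ⟨T, hTtb, hTP, hsep, hrelL, hsubL⟩ := exists_hauptmodulParam π hπ hN hcoeff hmem hrel hsub
    (fun h => hx₀ (by rw [← eval_map, h, eval_zero])) tb htb
  haveI : IsFunctionField k
      (modularFunctionFieldFullC k N) :=
    isFunctionField_special N (hN)
  haveI : FiniteDimensional k⟮tb⟯ (modularFunctionFieldFullC k N) := hTtb ▸ hTP.finite_red
  have hne0 : tb - algebraMap k _ x₀ ≠ 0 := fun h => by
    rw [h, v.ord_zero] at hv; omega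
  have hmem1 : tb - algebraMap k _ x₀ ∈ ordGE v 1 :=
    mem_ordGE_of_le v (by omega)
  have htv : tb ∈ v.toValuationSubring := by
    have := add_mem (ordGE_antitone v zero_le_one hmem1) (algebraMap_mem_ordGE_zero v x₀)
    rwa [sub_add_cancel, mem_ordGE_zero] at this
  have hval : pval v tb = x₀ := by
    have hdeg : v.deg = 1 := Normal.deg_eq_one' v
    have h0 := Normal.pval_eq_zero_of_mem_ordGE v hdeg hmem1
    rwa [pval_sub hdeg htv (v.algebraMap_mem' _), pval_algebraMap hdeg, sub_eq_zero] at h0
  rw [← hTtb] at htv hval ⊢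
  refine ord_red_sub_eq_one hTP hsep (fun P a' ha' => ?_) v htv hval
  refine ord_sub_le_one P hrelL hsubL fun h => hx₀ ?_
  rw [eval_map, RingHom.ext_int (Int.castRingHom Qbar) (A.subtype.comp (Int.castRingHom A)),
    show (a' : Qbar) = A.subtype a' from rfl, ← hom_eval₂] at h
  have h1 := congrArg π (show den.eval₂ (Int.castRingHom A) a' = 0 from
    Subtype.ext h)
  rw [hom_eval₂, map_zero, ha', RingHom.ext_int (π.comp _)
    (Int.castRingHom _)] at h1
  exact h1

end Fermat.Agent.Carayol.Etale
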