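import Fermat.Agent.Carayol.Identity
import Fermat.Agent.RED.Specialization.SwapField
import Fermat.Agent.MF.Coeff.Data
import Fermat.Agent.HK.PsiPrime
import Fermat.Agent.HK.DegenDegree
import Fermat.Agent.HK.HeckeFinal

/-!
# The modular equation of a Hauptmodul at a prime `q`

`t (qτ)` is integral over `ℤ[t, 1/D(t)]` of degree at most `q + 1`; clearing denominators gives
`Φ (t, t (qτ)) = 0`, also `Φ (t (qτ), t) = 0` by the exchange of `τ ↦ τ` and `τ ↦ qτ`, and these
two zeros modulo `q` force `Φ ≡ D^e (X - Y^q) (X^q - Y)`.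
-/

set_option autoImplicit false

noncomputable section

namespace Fermat.Agent.Carayol

open Polynomial ModularCurve

/-- Elements integral over a ring mapping into integral elements are integral. -/
theorem isIntegral_of_isIntegralElem {A R E : Type*} [CommRing A] [CommRing R] [CommRing E]
    [Algebra A E] {φ : R →+* E} (hφ : ∀ r, φ r ∈ integralClosure A E) {y : E}
    (hy : φ.IsIntegralElem y) : IsIntegral A y := by
  obtain ⟨p, hp, h0⟩ := hy
  refine isIntegral_trans (R := A) (A := integralClosure A E) y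
    ⟨p.map (φ.codRestrict _ hφ), hp.map _, ?_⟩
  rw [eval₂_map]
  exact h0

/-- `(X - Y^q) (X^q - Y)`. -/
def kronPoly (R : Type*) [CommRing R] (q : ℕ) : R[X][X] :=
  (C X - X ^ q) * (C (X ^ q) - X)

section Kron

variable {R : Type*} [CommRing R] (q : ℕ)

theorem bieval_kronPoly {A : Type*} [CommRing A] (a b : A) :
    bieval a b (kronPoly ℤ q) = (a - b ^ q) * (a ^ q - b) := by
  simp only [bieval, kronPoly, eval₂_mul, eval₂_sub, eval₂_C, eval₂_X_pow, eval₂_X, coe_eval₂RingHom,
    eval₂_X_pow]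

theorem map_kronPoly {S : Type*} [CommRing S] (f : R →+* S) :
    (kronPoly R q).map (mapRingHom f) = kronPoly S q := by
  simp [kronPoly]

theorem kronPoly_eq :
    kronPoly R q = X ^ (q + 1) + C (-X ^ q) * X ^ q + C (-X) * X + C (X ^ (q + 1)) := by
  simp only [kronPoly, map_pow, map_neg]
  ring

variable {q}

theorem natDegree_kronPoly_le (hq : 1 ≤ q) : (kronPoly R q).natDegree ≤ q + 1 := by
  rw [kronPoly_eq]
  refine natDegree_add_le_of_degree_le (natDegree_add_le_of_degree_le
    (natDegree_add_le_of_degree_le (natDegree_X_pow_le _) ?_) ?_) ?_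
  · exact (natDegree_C_mul_X_pow_le _ _).trans (by omega)
  · exact ((natDegree_C_mul_le _ _).trans natDegree_X_le).trans (by omega)
  · exact (natDegree_C _).le.trans (by omega)

theorem coeff_kronPoly (hq : 1 ≤ q) : (kronPoly R q).coeff (q + 1) = 1 := by
  rw [kronPoly_eq, coeff_add, coeff_add, coeff_add, coeff_X_pow, if_pos rfl, coeff_C_mul_X_pow,
    if_neg (by omega), coeff_C_mul_X, if_neg (by omega), coeff_C, if_neg (by omega)]
  simp

/-- A polynomial of degree `< q` in `Y` with `P (X^q, X) = 0` vanishes. -/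
theorem eq_zero_of_eval₂_expand {k : Type*} [CommRing k] {q : ℕ} (hq : 0 < q) {P : k[X][X]}
    (hdeg : P.natDegree < q) (h : P.eval₂ (expand k q : k[X] →ₐ[k] k[X]).toRingHom X = 0) :
    P = 0 := by
  ext j i
  rw [coeff_zero, coeff_zero]
  rcases lt_or_ge j q with hj | hj
  swap
  · rw [coeff_eq_zero_of_natDegree_lt (lt_of_lt_of_le hdeg hj), coeff_zero]
  rw [eval₂_eq_sum_range' _ hdeg] at h
  have h' := congrArg (fun p : k[X] => p.coeff (q * i + j)) h
  simp only [finsetSum_coeff, coeff_mul_X_pow', coeff_zero] at h'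
  rw [Finset.sum_eq_single j ?_ (fun hn => absurd (Finset.mem_range.mpr hj) hn), if_pos (by omega),
    Nat.add_sub_cancel, AlgHom.toRingHom_eq_coe, RingHom.coe_coe, coeff_expand hq,
    if_pos (dvd_mul_right q i), Nat.mul_div_cancel_left _ hq] at h'
  · exact h'
  intro l hl hlj
  split_ifs with hle
  · rw [AlgHom.toRingHom_eq_coe, RingHom.coe_coe, coeff_expand hq, if_neg]
    rintro ⟨c, hc⟩
    have hl' := Finset.mem_range.mp hl
    have hmul : q * i + j = q * c + l := by omega
    have h1 := congrArg (· % q) hmul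
    simp only [Nat.mul_add_mod, Nat.mod_eq_of_lt hj, Nat.mod_eq_of_lt hl'] at h1
    exact hlj h1.symm
  · rfl

end Kron

/-- **Kronecker congruence** from the two zeros. -/
theorem exists_eq_kronPoly_add {q : ℕ} [Fact q.Prime] [NeZero q] {Φ : ℤ[X][X]} {Dp : ℤ[X]}
    (hdeg : Φ.natDegree ≤ q + 1) (hcoeff : Φ.coeff (q + 1) = Dp) {x : LaurentSeries ℤ}
    (hx : x.coeff (-1) = 1) (h1 : bieval x (qExpand ℤ q x) Φ = 0)
    (h2 : bieval (qExpand ℤ q x) x Φ = 0) :
    ∃ U : ℤ[X][X], Φ = C Dp * kronPoly ℤ q + C (C (q : ℤ)) * U := by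
  classical
  have hq := (Fact.out : q.Prime)
  have hq1 : 1 ≤ q := hq.one_le
  set f : ℤ →+* ZMod q := Int.castRingHom (ZMod q)
  set t : LaurentSeries (ZMod q) := coeffMap f x
  set R : (ZMod q)[X][X] := (Φ - C Dp * kronPoly ℤ q).map (mapRingHom f) with hR
  have hord : t.order < 0 :=
    lt_of_le_of_lt (HahnSeries.order_le_of_coeff_ne_zero (g := -1) (by
      rw [show t.coeff (-1) = f (x.coeff (-1)) from coeffMap_coeff _ _ _, hx, map_one]
      exact one_ne_zero)) (by norm_num)
  have hinj : ∀ P : (ZMod q)[X], aeval t P = 0 → P = 0 := fun P => aeval_eq_zero_of_pole hord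
  have hev : ∀ a b : LaurentSeries (ZMod q), R.eval₂ (aeval (R := ZMod q) a).toRingHom b =
      bieval a b Φ - bieval a b (C Dp) * ((a - b ^ q) * (a ^ q - b)) := by
    intro a b
    rw [hR, eval₂_map, show (aeval (R := ZMod q) a).toRingHom.comp (mapRingHom f) =
      eval₂RingHom (Int.castRingHom _) a from
        Polynomial.ringHom_ext' (RingHom.ext_int _ _) (by simp), eval₂_sub, eval₂_mul,
      ← bieval_kronPoly]
    rfl
  have hfrob : coeffMap f (qExpand ℤ q x) = t ^ q := coeffMap_qExpand_eq_pow q x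
  have r1 : R.eval (X ^ q) = 0 := by
    refine hinj _ ?_
    have h := hev t (t ^ q)
    rw [show bieval t (t ^ q) Φ = 0 by rw [← hfrob, ← map_bieval, h1, map_zero], sub_self, mul_zero,
      mul_zero, sub_zero] at h
    rw [← h, show t ^ q = (aeval (R := ZMod q) t).toRingHom (X ^ q) by simp, eval₂_at_apply]
    rfl
  have r2 : R.eval₂ (expand (ZMod q) q : (ZMod q)[X] →ₐ[ZMod q] (ZMod q)[X]).toRingHom X = 0 := by
    refine hinj _ ?_
    have h := hev (t ^ q) t
    rw [show bieval (t ^ q) t Φ = 0 by rw [← hfrob, ← map_bieval, h2, map_zero], sub_self, zero_mul,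
      mul_zero, sub_zero] at h
    show (aeval (R := ZMod q) t).toRingHom _ = 0
    rw [Polynomial.hom_eval₂,
      show ((aeval (R := ZMod q) t).toRingHom.comp
        (expand (ZMod q) q : (ZMod q)[X] →ₐ[ZMod q] (ZMod q)[X]).toRingHom) =
        (aeval (R := ZMod q) (t ^ q)).toRingHom from RingHom.ext fun P => expand_aeval q P t,
      show (aeval (R := ZMod q) t).toRingHom X = t from aeval_X t]
    exact h
  have hdegR : R.natDegree ≤ q := by
    refine natDegree_le_iff_coeff_eq_zero.mpr fun n hn => ?_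
    rw [hR, coeff_map, coeff_sub, coeff_C_mul]
    rcases (Nat.succ_le_of_lt hn).eq_or_lt' with hn' | hn'
    · rw [hn', hcoeff, coeff_kronPoly hq1, mul_one, sub_self, map_zero]
    · rw [coeff_eq_zero_of_natDegree_lt (by omega), coeff_eq_zero_of_natDegree_lt (p := kronPoly ℤ q)
        (lt_of_le_of_lt (natDegree_kronPoly_le hq1) (by omega)), mul_zero, sub_zero, map_zero]
  obtain ⟨R', hR'⟩ := dvd_iff_isRoot.mpr (r1 : R.IsRoot (X ^ q))
  have hR0 : R = 0 := by
    by_contra hne
    have hR'0 : R' ≠ 0 := fun h => hne (by rw [hR', h, mul_zero])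
    rw [hR', natDegree_mul (X_sub_C_ne_zero _) hR'0, natDegree_X_sub_C] at hdegR
    refine hR'0 (eq_zero_of_eval₂_expand hq.pos (by omega) ?_)
    rw [hR', eval₂_mul, eval₂_sub, eval₂_X, eval₂_C] at r2
    refine (mul_eq_zero.mp r2).resolve_left ?_
    rw [AlgHom.toRingHom_eq_coe, RingHom.coe_coe, map_pow, expand_X, ← pow_mul]
    refine fun h => absurd (congrArg (fun p : (ZMod q)[X] => p.coeff 1) h) ?_
    have : 1 ≠ q * q := fun h => hq.one_lt.ne (Nat.eq_one_of_mul_eq_one_right h.symm).symm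
    simp [coeff_X_pow, this]
  have hdvd : C (C (q : ℤ)) ∣ Φ - C Dp * kronPoly ℤ q := by
    refine C_dvd_iff_dvd_coeff _ _ |>.mpr fun i => C_dvd_iff_dvd_coeff _ _ |>.mpr fun j =>
      (ZMod.intCast_zmod_eq_zero_iff_dvd _ q).mp ?_
    have h := congrArg (fun P : (ZMod q)[X][X] => (P.coeff i).coeff j) hR0
    simp only [hR, coeff_map, coe_mapRingHom, coeff_zero] at h
    exact h
  obtain ⟨U, hU⟩ := hdvd
  exact ⟨U, by rw [← hU]; ring⟩

namespace Haupt

open Fermat.Agent.HK.Corr Fermat.Agent.MF IntermediateField AlgebraicCurve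

variable {N₀ : ℕ} [NeZero N₀] (H : Haupt N₀)

/-- `t` in the function field of level `N₀` over `ℚ`. -/
theorem ratSeries_tZ_mem : ratSeries H.tZ ∈ modField ℚ N₀ := by
  have h := coeffEmb_mem_laurentBaseChange ℚ H.mem
  rwa [coeffEmb, coeffMap_coeffMap, RingHom.ext_int ((algebraMap ℚ ℚ).comp _) (Int.castRingHom ℚ)]
    at h

/-- The field of level `N₀` consists of fractions of integral polynomials in `t`. -/
theorem exists_div_eq {w : LaurentSeries ℚ} (hw : w ∈ modField ℚ N₀) :
    ∃ a b : ℤ[X], b ≠ 0 ∧ w = evalZ (ratSeries H.tZ) a / evalZ (ratSeries H.tZ) b := by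
  have hne : ∀ y : ℤ[X], y ≠ 0 → evalZ (ratSeries H.tZ) y ≠ 0 := fun y hy =>
    eval₂_ratSeries_ne_zero H.coeff_neg_one H.coeff_of_lt hy
  suffices key : ∀ u ∈ ℚ⟮ratSeries H.tZ⟯, ∃ a b : ℤ[X], b ≠ 0 ∧
      u = evalZ (ratSeries H.tZ) a / evalZ (ratSeries H.tZ) b by
    refine key w (modField_le_iff.mpr (fun d hd hne' => ?_) hw)
    rw [show jSer ℚ = jq from HahnSeries.ext rfl]
    exact H.gen (jqd_mem_full N₀ hd)
  intro u hu
  induction hu using IntermediateField.adjoin_induction with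
  | mem u hu =>
    rw [Set.mem_singleton_iff] at hu
    exact ⟨X, 1, one_ne_zero, by simp [hu, evalZ]⟩
  | algebraMap c =>
    refine ⟨C c.num, C (c.den : ℤ), by simp, ?_⟩
    simp only [evalZ, eval₂_C]
    rw [eq_intCast, eq_intCast, Int.cast_natCast, ← map_natCast (algebraMap ℚ (LaurentSeries ℚ)),
      ← map_intCast (algebraMap ℚ (LaurentSeries ℚ)), ← map_div₀, Rat.num_div_den]
  | add u v _ _ iu iv =>
    obtain ⟨a, b, hb, rfl⟩ := iu
    obtain ⟨c, d, hd, rfl⟩ := iv
    exact ⟨a * d + b * c, b * d, mul_ne_zero hb hd, by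
      rw [div_add_div _ _ (hne b hb) (hne d hd)]; simp [evalZ]⟩
  | inv u _ iu =>
    obtain ⟨a, b, hb, rfl⟩ := iu
    rcases eq_or_ne a 0 with rfl | ha
    · exact ⟨0, 1, one_ne_zero, by simp [evalZ]⟩
    · exact ⟨b, a, ha, inv_div _ _⟩
  | mul u v _ _ iu iv =>
    obtain ⟨a, b, hb, rfl⟩ := iu
    obtain ⟨c, d, hd, rfl⟩ := iv
    exact ⟨a * c, b * d, mul_ne_zero hb hd, by rw [div_mul_div_comm]; simp [evalZ]⟩

variable (q : ℕ) [Fact q.Prime] [NeZero q]

-- over `ℚ` the constants of an intermediate field act by its own algebra structure only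
attribute [-instance] DivisionRing.toRatAlgebra

/-- `t (qτ)` is a root of a monic polynomial of degree `q + 1` over `ℤ[t, 1/D(t)]`, denominators
cleared. -/
theorem exists_modular_relation (hqN : ¬ q ∣ N₀) :
    ∃ (e : ℕ) (Φ : ℤ[X][X]), Φ.natDegree ≤ q + 1 ∧ Φ.coeff (q + 1) = H.D ^ e ∧
      bieval H.tZ (qExpand ℤ q H.tZ) Φ = 0 ∧ bieval (qExpand ℤ q H.tZ) H.tZ Φ = 0 := by
  classical
  have hq := (Fact.out : q.Prime)
  set T := ratSeries H.tZ with hT
  let F₀ := modField ℚ N₀
  let F₁ := modField ℚ (N₀ * q)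
  let t : F₀ := ⟨T, H.ratSeries_tZ_mem⟩
  have h1 : N₀ * 1 ∣ N₀ * q := mul_dvd_mul_left N₀ (one_dvd q)
  let tq : F₁ := degenMap ℚ q (dvd_refl (N₀ * q)) t
  have hne : ∀ y : ℤ[X], y ≠ 0 → evalZ T y ≠ 0 := fun y hy =>
    eval₂_ratSeries_ne_zero H.coeff_neg_one H.coeff_of_lt hy
  let φ₀ : ℤ[X] →+* F₀ := eval₂RingHom (Int.castRingHom F₀) t
  have hφ₀ : ∀ p, ((φ₀ p : F₀) : LaurentSeries ℚ) = evalZ T p := fun p =>
    map_evalZ F₀.val.toRingHom t p
  have hD : φ₀ H.D ≠ 0 := fun h => hne H.D H.D_monic.ne_zero (by rw [← hφ₀, h]; rfl)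
  let S := Localization.Away H.D
  have hle : Submonoid.powers H.D ≤ nonZeroDivisors ℤ[X] :=
    powers_le_nonZeroDivisors_of_noZeroDivisors H.D_monic.ne_zero
  haveI : IsDomain S := IsLocalization.isDomain_of_le_nonZeroDivisors S hle
  haveI : IsIntegrallyClosed S := isIntegrallyClosed_of_isLocalization S (Submonoid.powers H.D) hle
  let ψ : S →+* F₀ := IsLocalization.Away.lift H.D (g := φ₀) (isUnit_iff_ne_zero.mpr hD)
  have hψ : ∀ p, ψ (algebraMap ℤ[X] S p) = φ₀ p := fun p =>
    IsLocalization.Away.lift_eq H.D _ p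
  have hψinj : Function.Injective ψ := by
    rw [injective_iff_map_eq_zero]
    intro z hz
    obtain ⟨p, ⟨s, hs⟩, rfl⟩ := IsLocalization.exists_mk'_eq (Submonoid.powers H.D) z
    have hp := congrArg ψ (IsLocalization.mk'_spec S p (⟨s, hs⟩ : Submonoid.powers H.D))
    rw [map_mul, hz, zero_mul, hψ] at hp
    have : p = 0 := by
      by_contra hp0
      exact hne p hp0 (by rw [← hφ₀, ← hp]; rfl)
    rw [this, IsLocalization.mk'_zero]
  letI : Algebra S F₀ := ψ.toAlgebra
  haveI : FaithfulSMul S F₀ := (faithfulSMul_iff_algebraMap_injective S F₀).mpr hψinj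
  haveI : IsFractionRing S F₀ := IsFractionRing.of_field S F₀ fun w => by
    obtain ⟨a, b, hb, hw⟩ := H.exists_div_eq w.2
    refine ⟨algebraMap _ S a, algebraMap _ S b, Subtype.ext ?_⟩
    show (w : LaurentSeries ℚ) = ((ψ _ / ψ _ : F₀) : LaurentSeries ℚ)
    rw [hψ, hψ, IntermediateField.coe_div, hφ₀, hφ₀, hw]
  -- integrality of `t (qτ)`
  let ψL : S →+* LaurentSeries ℚ := F₀.val.toRingHom.comp ψ
  have hint : ψL.IsIntegralElem (qExpand ℚ q T) := by
    letI := ψL.toAlgebra
    let Cl := integralClosure S (LaurentSeries ℚ)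
    have hpoly : ∀ {x : LaurentSeries ℚ}, x ∈ Cl → ∀ p : ℤ[X], evalZ x p ∈ Cl := fun {x} hx p => by
      induction p using Polynomial.induction_on with
      | C c => rw [evalZ, eval₂_C, eq_intCast]; exact intCast_mem Cl c
      | add p r hp hr => rw [evalZ, eval₂_add]; exact add_mem hp hr
      | monomial n c _ =>
        rw [evalZ, eval₂_mul, eval₂_C, eval₂_X_pow, eq_intCast]
        exact mul_mem (intCast_mem Cl c) (pow_mem hx _)
    have hrng : ∀ s, ψL s ∈ Cl := fun s => Cl.algebraMap_mem s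
    have hjmem : jq ∈ Cl := by
      have hD' : evalZ T H.D ≠ 0 := hne _ H.D_monic.ne_zero
      have hrel : evalZ T H.D * jq = evalZ T H.P ^ 3 := by
        have := congrArg ratSeries H.j_eq
        rwa [map_mul, map_pow, ratSeries_eval₂, ratSeries_eval₂,
          show ratSeries (jqModC ℤ) = jq from map_jqModC _] at this
      have hinv : ψL (IsLocalization.Away.invSelf H.D) = (evalZ T H.D)⁻¹ := by
        refine eq_inv_of_mul_eq_one_right ?_
        have := congrArg ψL (IsLocalization.Away.mul_invSelf (S := S) H.D)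
        rw [map_mul, map_one] at this
        rw [← this]
        congr 1
        show evalZ T H.D = ((ψ (algebraMap ℤ[X] S H.D) : F₀) : LaurentSeries ℚ)
        rw [hψ, hφ₀]
      have : ψL (algebraMap ℤ[X] S (H.P ^ 3) * IsLocalization.Away.invSelf H.D) = jq := by
        rw [map_mul, hinv, show ψL (algebraMap ℤ[X] S (H.P ^ 3)) = evalZ T (H.P ^ 3) by
          show ((ψ (algebraMap ℤ[X] S _) : F₀) : LaurentSeries ℚ) = _
          rw [hψ, hφ₀],
          show evalZ T (H.P ^ 3) = evalZ T H.P ^ 3 from eval₂_pow _ _ _, ← hrel]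
        field_simp
      rw [← this]
      exact hrng _
    have hjq : jqN q ∈ Cl := isIntegral_of_isIntegralElem (φ := evalAtJ)
      (fun p => by
        rw [show evalAtJ p = evalZ jq p from (aeval_def jq p).trans (by rw [evalZ, RingHom.ext_int (algebraMap ℤ (LaurentSeries ℚ)) (Int.castRingHom _)])]
        exact hpoly hjmem p) (MF.Coeff.isIntegralElem_jqN_all q)
    refine isIntegral_of_isIntegralElem (φ := eval₂RingHom (Int.castRingHom _) (jqN q))
      (fun p => hpoly hjq p) ?_
    set g : ℤ →+* ℤ[X] := Int.castRingHom ℤ[X]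
    refine ⟨(H.P.map g) ^ 3 - C X * H.D.map g, ((H.P_monic.map g).pow 3).sub_of_left ?_, ?_⟩
    · refine degree_lt_degree ((natDegree_C_mul_le _ _).trans_lt (natDegree_map_le.trans_lt ?_))
      rw [(H.P_monic.map g).natDegree_pow, H.P_monic.natDegree_map]
      exact H.degree_lt
    · have hc : ∀ p : ℤ[X], (p.map g).eval₂ (eval₂RingHom (Int.castRingHom _) (jqN q))
          (qExpand ℚ q T) = qExpand ℚ q (evalZ T p) := fun p => by
        rw [eval₂_map, map_evalZ, RingHom.ext_int ((eval₂RingHom _ _).comp g) (Int.castRingHom _)]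
        rfl
      rw [eval₂_sub, eval₂_pow, eval₂_mul, eval₂_C, hc, hc, coe_eval₂RingHom, eval₂_X, jqN,
        ← map_pow, ← map_mul, ← map_sub]
      have := congrArg ratSeries H.j_eq
      rw [map_mul, map_pow, ratSeries_eval₂, ratSeries_eval₂,
        show ratSeries (jqModC ℤ) = jq from map_jqModC _] at this
      rw [show evalZ T H.P ^ 3 - jq * evalZ T H.D = 0 by rw [evalZ, evalZ, ← this]; ring, map_zero]
  -- the minimal polynomial
  letI := algebraAlong (degenMap ℚ 1 h1)
  have hval1 : ∀ x : F₀, ((algebraMap F₀ F₁ x : F₁) : LaurentSeries ℚ) = (x : LaurentSeries ℚ) :=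
    fun x => (coe_degenMap 1 h1 x).trans (qExpand_one_apply _)
  letI : Algebra S F₁ := ((algebraMap F₀ F₁).comp ψ).toAlgebra
  haveI : IsScalarTower S F₀ F₁ := IsScalarTower.of_algebraMap_eq fun _ => rfl
  have hintq : IsIntegral S tq := by
    obtain ⟨p, hp, h0⟩ := hint
    refine ⟨p, hp, F₁.val.toRingHom.injective ?_⟩
    rw [Polynomial.hom_eval₂, map_zero, ← h0,
      show F₁.val.toRingHom.comp (algebraMap S F₁) = ψL from RingHom.ext fun s => hval1 (ψ s)]
    rfl
  have hfr : Module.finrank F₀ F₁ = q + 1 := by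
    have h := finrankAlong_degenMap (degreeInput ℚ) 1 h1 (MF.Coeff.functionFieldGeneration 1)
    rw [psi_mul_prime_of_not_dvd hq hqN] at h
    exact Nat.eq_of_mul_eq_mul_left (psi_pos N₀) (h.trans (mul_comm _ _))
  haveI : Module.Finite F₀ F₁ := Module.finite_of_finrank_pos (by omega)
  set μ := minpoly S tq
  have hμ : μ.natDegree ≤ q + 1 := by
    have h := minpoly.natDegree_le tq (A := F₀)
    rw [minpoly.isIntegrallyClosed_eq_field_fractions' F₀ hintq,
      (minpoly.monic hintq).natDegree_map, hfr] at h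
    exact h
  set μ' := μ * X ^ (q + 1 - μ.natDegree) with hμ'
  have hμ'm : μ'.Monic := (minpoly.monic hintq).mul (monic_X_pow _)
  have hμ'd : μ'.natDegree = q + 1 := by
    rw [hμ', (minpoly.monic hintq).natDegree_mul (monic_X_pow _), natDegree_X_pow]
    change μ.natDegree + (q + 1 - μ.natDegree) = q + 1
    omega
  obtain ⟨b, hb⟩ := IsLocalization.integerNormalization_map_to_map (Submonoid.powers H.D) μ'
  obtain ⟨e, he⟩ := b.2
  set Φ := IsLocalization.integerNormalization (Submonoid.powers H.D) μ'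
  have hΦmap : Φ.map (algebraMap ℤ[X] S) = C (algebraMap ℤ[X] S (H.D ^ e)) * μ' := by
    rw [hb, Algebra.smul_def, Polynomial.algebraMap_apply]
    exact congrArg (fun z => C (algebraMap ℤ[X] S z) * μ') he.symm
  have hinjS : Function.Injective (algebraMap ℤ[X] S) := IsLocalization.injective S hle
  have hΦd : Φ.natDegree ≤ q + 1 := by
    rw [← natDegree_map_eq_of_injective hinjS, hΦmap]
    exact (natDegree_C_mul_le _ _).trans hμ'd.le
  have hΦc : Φ.coeff (q + 1) = H.D ^ e := hinjS (by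
    rw [← coeff_map, hΦmap, coeff_C_mul, ← hμ'd, coeff_natDegree, hμ'm.leadingCoeff, mul_one])
  have rel1 : bieval T (qExpand ℚ q T) Φ = 0 := by
    have h := congrArg (fun P : S[X] => P.eval₂ (algebraMap S F₁) tq) hΦmap
    simp only [eval₂_map, eval₂_mul, hμ'] at h
    rw [show μ.eval₂ (algebraMap S F₁) tq = 0 from minpoly.aeval S tq, zero_mul, mul_zero] at h
    have h' := congrArg F₁.val.toRingHom h
    rw [Polynomial.hom_eval₂, map_zero,
      show F₁.val.toRingHom.comp ((algebraMap S F₁).comp (algebraMap ℤ[X] S)) =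
        eval₂RingHom (Int.castRingHom _) T from RingHom.ext fun p => by
          show ((algebraMap F₀ F₁ (ψ (algebraMap ℤ[X] S p)) : F₁) : LaurentSeries ℚ) = _
          rw [hval1, hψ, hφ₀]
          rfl] at h'
    exact h'
  have rel2 : bieval (qExpand ℚ q T) T Φ = 0 := by
    obtain ⟨φ, hα, hβ⟩ := RED.Spec.exists_swap_embedding (L := ℚ) (N := N₀) (Rat.castHom ℂ) hq hqN
    have h : bieval (heckeAlphaBar ℚ N₀ q t) (heckeBetaBar ℚ N₀ q t) Φ = 0 := by
      apply (laurentBaseChange ℚ (modularFunctionFieldFull (N₀ * q))).val.toRingHom.injective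
      rw [map_bieval, map_zero, ← rel1]
      congr 1
    have h' := congrArg φ.toRingHom h
    rw [map_bieval, map_zero] at h'
    rw [show φ.toRingHom (heckeAlphaBar ℚ N₀ q t) = qExpand ℚ q T from hα t,
      show φ.toRingHom (heckeBetaBar ℚ N₀ q t) = T from hβ t] at h'
    exact h'
  refine ⟨e, Φ, hΦd, hΦc, ?_, ?_⟩
  all_goals refine ratSeries_injective ?_
  · rw [map_bieval, coeffMap_qExpand, map_zero]
    exact rel1
  · rw [map_bieval, coeffMap_qExpand, map_zero]
    exact rel2

/-- **The modular equation** `D(t)^e (t - t_q^q) (t^q - t_q) + q U (t, t_q) = 0`. -/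
theorem exists_rel (hqN : ¬ q ∣ N₀) : ∃ (e : ℕ) (U : Polynomial ℤ[X]),
    evalZ H.tZ H.D ^ e * ((H.tZ - qExpand ℤ q H.tZ ^ q) * (H.tZ ^ q - qExpand ℤ q H.tZ)) +
      (q : LaurentSeries ℤ) * bieval H.tZ (qExpand ℤ q H.tZ) U = 0 := by
  obtain ⟨e, Φ, hd, hc, h1, h2⟩ := H.exists_modular_relation q hqN
  obtain ⟨U, hU⟩ := exists_eq_kronPoly_add hd hc H.coeff_neg_one h1 h2
  refine ⟨e, U, ?_⟩
  rw [← h1, hU, ← bieval_kronPoly]
  simp only [bieval, evalZ, eval₂_add, eval₂_mul, eval₂_C, eval₂_pow, coe_eval₂RingHom, map_natCast,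
    eval₂_natCast]

end Haupt

end Fermat.Agent.Carayol
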