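/-
Galois equivariant maps between Jacobians commute with the Hecke operators on torsion, and a
newform's system of eigenvalues is annihilated by a Hecke polynomial at every level it does not
divide.
-/
import Fermat.Agent.Newforms.StrongMultOne
import Fermat.Agent.Eigen.Points
import Fermat.Agent.MF.IntStruct.Main
import Fermat.Agent.GAL.FromSpecialization
import Fermat.Agent.Galois.Decomposition
import Fermat.Agent.HK.TateFinal

set_option autoImplicit false

noncomputable section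

open ModularCurve CongruenceSubgroup

namespace Fermat.Agent.Carayol

local notation "Γℚ" => (AlgebraicClosure ℚ ≃ₐ[ℚ] AlgebraicClosure ℚ)

/-- A Galois equivariant map commutes with `T_ℓ` on torsion, by the quadratic relation. -/
theorem map_heckeOperatorBar_of_equivariant {M N p : ℕ} [NeZero M] [NeZero N]
    (hM : GAL.TorsionQuadratic M p)
    (hN : GAL.TorsionQuadratic N p) (f : JZero M →+ JZero N)
    (hf : ∀ (σ : Γℚ) (x : JZero M), f (σ • x) = σ • f x) (ℓ : Nat.Primes)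
    (hℓM : ¬ (ℓ : ℕ) ∣ M * p) (hℓN : ¬ (ℓ : ℕ) ∣ N * p) (x : JZero M)
    (hx : ∃ n : ℕ, p ^ n • x = 0) :
    f (heckeOperatorBar M ℓ x) = heckeOperatorBar N ℓ (f x) := by
  obtain ⟨A, σ, hA, hσ⟩ := Fermat.Agent.Galois.exists_place_isFrobeniusAt ℓ.2
  obtain ⟨n, hn⟩ := hx
  have hy : p ^ n • σ⁻¹ • x = 0 := by
    refine (map_nsmul (DistribSMul.toAddMonoidHom (JZero M) σ⁻¹) _ x).symm.trans ?_
    rw [hn]
    exact smul_zero (A := JZero M) _
  have h1 := congrArg f (hM (ℓ : ℕ) ℓ.2 hℓM A hA σ hσ (σ⁻¹ • x) ⟨n, hy⟩)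
  rw [map_add, map_sub, map_nsmul, map_zero, hf, hf, smul_inv_smul σ x] at h1
  have h2 := hN (ℓ : ℕ) ℓ.2 hℓN A hA σ hσ (f (σ⁻¹ • x)) ⟨n, by rw [← map_nsmul, hy, map_zero]⟩
  have h3 : σ • f (σ⁻¹ • x) = f x := by rw [← hf, smul_inv_smul σ x]
  rw [h3] at h2 h1
  have h4 := h1.trans h2.symm
  rw [add_left_inj, sub_right_inj] at h4
  exact h4

/-- The same for polynomials in the `T_ℓ` away from `S`. -/
theorem map_heckeEvalBar_of_equivariant {M N p : ℕ} [NeZero M] [NeZero N] [Fact p.Prime]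
    (hM : GAL.TorsionQuadratic M p) (hN : GAL.TorsionQuadratic N p) (f : JZero M →+ JZero N)
    (hf : ∀ (σ : Γℚ) (x : JZero M), f (σ • x) = σ • f x) (hcM : HeckeOperatorsCommuteBar M)
    (hcN : HeckeOperatorsCommuteBar N) (S : Finset ℕ)
    (hS : ∀ ℓ : ℕ, ℓ.Prime → ℓ ∣ M * N * p → ℓ ∈ S) (P : TraceFn.AwayHecke S) (x : JZero M)
    (hx : ∃ n : ℕ, p ^ n • x = 0) :
    f (heckeEvalBar hcM (TraceFn.awayIncl S P) x) =
      heckeEvalBar hcN (TraceFn.awayIncl S P) (f x) := by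
  induction P using MvPolynomial.induction_on generalizing x with
  | C a =>
    rw [show TraceFn.awayIncl S (MvPolynomial.C a) = MvPolynomial.C a from
      MvPolynomial.rename_C _ _, HK.heckeEvalBar_C_apply, HK.heckeEvalBar_C_apply, map_zsmul]
  | add s t hs ht =>
    rw [map_add, HK.heckeEvalBar_add_apply, HK.heckeEvalBar_add_apply, map_add, hs x hx, ht x hx]
  | mul_X s i hs =>
    rw [map_mul, show TraceFn.awayIncl S (MvPolynomial.X i) = heckeGen i.1 from
      MvPolynomial.rename_X _ _, HK.heckeEvalBar_mul_X_apply, HK.heckeEvalBar_mul_X_apply,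
      hs _ (by
        obtain ⟨n, hn⟩ := hx
        exact ⟨n, by rw [← map_nsmul, hn, map_zero]⟩),
      map_heckeOperatorBar_of_equivariant hM hN f hf i.1
        (fun h => i.2 (hS _ i.1.2 (by
          rw [mul_assoc, mul_left_comm]
          exact h.mul_left N)))
        (fun h => i.2 (hS _ i.1.2 (by rw [mul_assoc]; exact h.mul_left M))) x hx]

theorem awayEval_surjective {N : ℕ} [NeZero N] (S : Finset ℕ)
    (hNS : ∀ q : ℕ, q.Prime → q ∣ N → q ∈ S) :
    Function.Surjective (TraceFn.awayEval N S hNS) := by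
  intro t
  suffices h : ∀ x ∈ CuspForm.heckeAlgebra N 2 (↑S : Set ℕ),
      x ∈ (((CuspForm.heckeAlgebra N 2 (↑S : Set ℕ)).val.toRingHom).comp
        (TraceFn.awayEval N S hNS)).range by
    obtain ⟨P, hP⟩ := h t t.2
    exact ⟨P, Subtype.ext hP⟩
  intro x hx
  induction hx using Algebra.adjoin_induction with
  | mem y hy =>
    rcases hy with ⟨ℓ, hℓ, hℓN, hℓS, rfl⟩ | ⟨q, hqN, hq, hqS, rfl⟩
    · exact ⟨TraceFn.awayGen S ℓ, congrArg Subtype.val (TraceFn.awayEval_awayGen N S hNS hℓ hℓN hℓS)⟩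
    · exact absurd (Finset.mem_coe.mpr (hNS q hq hqN)) hqS
  | algebraMap r => exact ⟨(r : TraceFn.AwayHecke S), by simp⟩
  | add a b _ _ ha hb => exact add_mem ha hb
  | mul a b _ _ ha hb => exact mul_mem ha hb

/-- **Annihilation.** The system of a newform is killed by a Hecke polynomial at a level it does
not divide. -/
theorem exists_kills_of_not_dvd {M N : ℕ} [NeZero M] [NeZero N] {g : CuspForm (Gamma0 M) 2}
    (hg : g.IsNewform) (hMN : ¬ M ∣ N) (S : Finset ℕ) (hNS : ∀ q : ℕ, q.Prime → q ∣ N → q ∈ S)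
    (ψ : TraceFn.AwayHecke S →+* ℂ)
    (hψ : ∀ ℓ : ℕ, ℓ.Prime → ℓ ∉ S → ψ (TraceFn.awayGen S ℓ) = ModularFormClass.qCoeff g ℓ) :
    ∃ P : TraceFn.AwayHecke S,
      CuspForm.heckeEvalForms N 2 (TraceFn.awayIncl S P) = 0 ∧ ψ P ≠ 0 := by
  by_contra hcon
  push Not at hcon
  have hker : RingHom.ker (TraceFn.awayEval N S hNS) ≤ RingHom.ker ψ := fun P hP => by
    refine hcon P ?_
    rw [← HK.awayToFull_awayEval hNS, RingHom.mem_ker.mp hP, map_zero]
  have hsurj := awayEval_surjective S hNS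
  let χ := RingHom.liftOfSurjective (TraceFn.awayEval N S hNS) hsurj ⟨ψ, hker⟩
  obtain ⟨h, hh, hheig⟩ := Eigen.exists_eigenvector (MF.IntStruct.hasIntegralStructure N 2) χ
  refine hh (Newforms.eq_zero_of_not_dvd hg hMN S h fun ℓ hℓ hℓN hℓS => ?_)
  have hℓS' : ℓ ∉ (↑S : Set ℕ) := fun h => hℓS (Finset.mem_coe.mp h)
  rw [← CuspForm.heckeAlgebra.coe_T hℓ hℓN hℓS', hheig, ← hψ ℓ hℓ hℓS,
    ← TraceFn.awayEval_awayGen N S hNS hℓ hℓN hℓS']
  exact congrArg (· • h) (RingHom.liftOfRightInverse_comp_apply _ _ _ _ _)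

end Fermat.Agent.Carayol
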