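/-
`T_l` on functions of level `L q²` multiplies the orders along the three branches by `l + 1`, so a
class in the image of `T_l - l - 1` has a function of order zero on every branch (helper50).

The extensions of a branch embedding `e` to level `M l` are `qExpand l ∘ φ` and the twists
`qScale (ωᵇ) ∘ φ' ∘ w`, with `φ`, `φ'` branches of level `M l` and `w` the swap at `l`; composed
with `τ ↦ l τ` they give branches of the same index.
-/
import Fermat.Agent.Carayol.Norms
import Fermat.Agent.Carayol.Descent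
import Fermat.Agent.HK.HeckeKummer
import Fermat.Agent.HK.HeckeFinal

set_option autoImplicit false
set_option linter.style.haveILetI false
set_option synthInstance.maxHeartbeats 100000

noncomputable section

open ModularCurve AlgebraicCurve IntermediateField
open Fermat.Agent.Igusa Fermat.Agent.RED.Spec Fermat.Agent.HK.Corr Fermat.Agent.CarayolHigh

namespace Fermat.Agent.Carayol

/-! ### The operator on functions -/

section Fn

variable (K : Type) [Field K] [Algebra ℚ K] (M l : ℕ) [NeZero M] [NeZero l]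

omit [NeZero M] [NeZero l] in
theorem heckeDvdOne : M * 1 ∣ M * l := mul_dvd_mul_left M (one_dvd l)

/-- `T_l` on functions: the norm along `τ ↦ τ` of the pullback along `τ ↦ l τ`. -/
def heckeFn : modField K M →* modField K M :=
  letI := algebraAlong (degenMap K (M' := M * l) 1 (heckeDvdOne M l))
  (Algebra.norm (modField K M)).comp
    ((degenMap K l (dvd_refl (M * l)) : modField K M →+* modField K (M * l)) :
      modField K M →* modField K (M * l))

variable {K M l}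

omit [NeZero M] in
theorem heckeFn_apply (a : modField K M) :
    heckeFn K M l a = (letI := algebraAlong (degenMap K (M' := M * l) 1 (heckeDvdOne M l));
      Algebra.norm (modField K M) (degenMap K l (dvd_refl (M * l)) a)) := rfl

theorem heckeFn_ne_zero {a : modField K M} (ha : a ≠ 0) : heckeFn K M l a ≠ 0 := by
  letI := algebraAlong (degenMap K (M' := M * l) 1 (heckeDvdOne M l))
  haveI : Module.Finite (modField K M) (modField K (M * l)) :=
    finiteAlong_degenMap (degreeInput K) 1 (heckeDvdOne M l)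
  show Algebra.norm (modField K M) _ ≠ 0
  exact Algebra.norm_ne_zero_iff.mpr
    ((map_ne_zero_iff _ (degenMap K l (dvd_refl (M * l))).injective).mpr ha)

/-- `T_l - l - 1` on functions. -/
def eisFn (K : Type) [Field K] [Algebra ℚ K] (M l : ℕ) [NeZero M] [NeZero l] (a : modField K M) :
    modField K M :=
  heckeFn K M l a * (a ^ (l + 1))⁻¹

theorem eisFn_ne_zero {a : modField K M} (ha : a ≠ 0) : eisFn K M l a ≠ 0 :=
  mul_ne_zero (heckeFn_ne_zero ha) (inv_ne_zero (pow_ne_zero _ ha))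

/-- The swap at `l`. -/
theorem exists_swap_degen (ι : K →+* ℂ) (hl : l.Prime) (hlM : ¬ l ∣ M) :
    ∃ w : modField K (M * l) →+* modField K (M * l),
      (∀ x, w (degenMap K 1 (heckeDvdOne M l) x) = degenMap K l (dvd_refl (M * l)) x) ∧
        ∀ x, w (degenMap K l (dvd_refl (M * l)) x) = degenMap K 1 (heckeDvdOne M l) x := by
  obtain ⟨φ, hα, hβ⟩ := exists_swap_embedding (L := K) (N := M) (ℓ := l) ι hl hlM
  have hone : ∀ x : modField K M,
      degenMap K 1 (heckeDvdOne M l) x = heckeAlphaBar K M l x :=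
    fun x => Subtype.ext ((qExpand_one_apply _).trans (coe_heckeAlphaBar M l x).symm)
  have hl' : ∀ x : modField K M,
      degenMap K l (dvd_refl (M * l)) x = heckeBetaBar K M l x :=
    fun x => Subtype.ext (coe_heckeBetaBar (L := K) M l x).symm
  let S : IntermediateField K (modField K (M * l)) :=
    ((modField K (M * l)).toSubfield.comap φ.toRingHom).toIntermediateField fun c => by
      show φ (algebraMap K _ c) ∈ modField K (M * l)
      rw [AlgHom.commutes]
      exact IntermediateField.algebraMap_mem _ c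
  have hrange : ∀ x, φ x ∈ modField K (M * l) := by
    have hle : modField K (M * l) ≤ IntermediateField.lift S := by
      refine (modField_eq_adjoin_genSer (L := K) (M * l)).le.trans ?_
      rw [IntermediateField.adjoin_le_iff]
      rintro _ ⟨d, rfl⟩
      refine (IntermediateField.mem_lift (⟨_, genSer_mem d⟩ : modField K (M * l))).mpr ?_
      show φ ⟨genSer K d, genSer_mem d⟩ ∈ modField K (M * l)
      by_cases h : d.1 ∣ M
      · let d₀ : DivIdx M := ⟨d.1, d.2.1, h⟩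
        have he : (⟨genSer K d, genSer_mem d⟩ : modField K (M * l)) =
            heckeAlphaBar K M l ⟨genSer K d₀, genSer_mem d₀⟩ :=
          Subtype.ext ((genSer_congr K (d := d) (d' := d₀) rfl).trans
            (coe_heckeAlphaBar (L := K) M l ⟨genSer K d₀, genSer_mem d₀⟩).symm)
        rw [he, hα]
        exact (degenMap K l (dvd_refl (M * l)) ⟨genSer K d₀, genSer_mem d₀⟩).2
      · obtain ⟨e, he, heM, he0⟩ := exists_eq_mul_of_not_dvd hl h
        let d₀ : DivIdx M := ⟨e, he0, heM⟩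
        have he' : (⟨genSer K d, genSer_mem d⟩ : modField K (M * l)) =
            heckeBetaBar K M l ⟨genSer K d₀, genSer_mem d₀⟩ :=
          Subtype.ext ((qExpand_genSer K (d := d₀) (d' := d) he).symm.trans
            (coe_heckeBetaBar (L := K) M l ⟨genSer K d₀, genSer_mem d₀⟩).symm)
        rw [he', hβ]
        show genSer K d₀ ∈ modField K (M * l)
        rw [genSer_congr K (d := d₀)
          (d' := (⟨e, he0, heM.trans (dvd_mul_right M l)⟩ : DivIdx (M * l))) rfl]
        exact genSer_mem _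
    exact fun x => (IntermediateField.mem_lift x).mp (hle x.2)
  refine ⟨φ.toRingHom.codRestrict (modField K (M * l)).toSubfield hrange, fun x => ?_, fun x => ?_⟩
  · rw [hone]
    exact Subtype.ext (hα x)
  · rw [hl']
    refine Subtype.ext ((hβ x).trans ?_)
    exact (qExpand_one_apply _).symm

end Fn

/-! ### The extensions to level `M l` -/

section Complete

variable {K K' : Type} [Field K] [Algebra ℚ K] [Field K'] [Algebra ℚ K'] {M l : ℕ} [NeZero M]
  [NeZero l]

/-- Branches of level `M l` over the embedding `e` of level `M`. -/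
structure HeckeBranches (e et er : modField K M →+* LaurentSeries K')
    (φ φ' : modField K (M * l) →+* LaurentSeries K') : Prop where
  one : ∀ x, φ (degenMap K 1 (heckeDvdOne M l) x) = e x
  mul : ∀ x, φ (degenMap K l (dvd_refl (M * l)) x) = qExpand K' l (et x)
  one' : ∀ x, φ' (degenMap K 1 (heckeDvdOne M l) x) = er x
  mul' : ∀ x, φ' (degenMap K l (dvd_refl (M * l)) x) = qExpand K' l (e x)
  lead : ∃ (x : modField K M) (D : ℕ), ¬ l ∣ D ∧ HasLead (et x) (-(D : ℤ)) 1 ∧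
    HasLead (er x) (-(D : ℤ)) 1

variable {e et er : modField K M →+* LaurentSeries K'}
  {φ φ' : modField K (M * l) →+* LaurentSeries K'}

/-- The extensions of `qExpand l ∘ e`. -/
def heckeList (φ φ' : modField K (M * l) →+* LaurentSeries K')
    (w : modField K (M * l) →+* modField K (M * l)) (ω : K'ˣ) :
    Unit ⊕ Fin l → modField K (M * l) →+* LaurentSeries K' :=
  Sum.elim (fun _ => (qExpand K' l).comp φ) fun b => ((qScale (ω ^ (b : ℕ))).comp φ').comp w

theorem HeckeBranches.complete (h : HeckeBranches (l := l) e et er φ φ') (hl : l.Prime)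
    (hlM : ¬ l ∣ M) {w : modField K (M * l) →+* modField K (M * l)}
    (hw1 : ∀ x, w (degenMap K 1 (heckeDvdOne M l) x) = degenMap K l (dvd_refl (M * l)) x)
    (hwl : ∀ x, w (degenMap K l (dvd_refl (M * l)) x) = degenMap K 1 (heckeDvdOne M l) x)
    {ω : K'ˣ} (hω : IsPrimitiveRoot ω l) :
    letI := algebraAlong (degenMap K (M' := M * l) 1 (heckeDvdOne M l))
    CompleteEmb ((qExpand K' l).comp e) (heckeList φ φ' w ω) := by
  letI := algebraAlong (degenMap K (M' := M * l) 1 (heckeDvdOne M l))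
  refine ⟨fun i x => ?_, ?_, ?_, ⟨.inl ()⟩⟩
  · show heckeList φ φ' w ω i (degenMap K 1 (heckeDvdOne M l) x) = qExpand K' l (e x)
    rcases i with u | b
    · show qExpand K' l (φ _) = _
      rw [h.one]
    · show qScale (ω ^ (b : ℕ)) (φ' (w _)) = _
      rw [hw1, h.mul', qScale_qExpand, unit_pow_pow_eq_one hω _ dvd_rfl, qScale_one,
        RingHom.id_apply]
  · obtain ⟨x, D, hD, hlt, hlr⟩ := h.lead
    refine injective_of_hasLead (heckeList φ φ' w ω) (degenMap K l (dvd_refl (M * l)) x)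
      (Sum.elim (fun _ => ((l * l : ℕ) : ℤ) * -(D : ℤ)) fun _ => -(D : ℤ))
      (Sum.elim (fun _ => (1 : K')) fun b : Fin l =>
        (((ω ^ (b : ℕ)) ^ (-(D : ℤ)) : K'ˣ) : K')) ?_ ?_ ?_
    · rintro (u | b)
      · show HasLead (qExpand K' l (φ _)) _ _
        rw [h.mul, qExpand_qExpand]
        exact hlt.qExpand _
      · show HasLead (qScale (ω ^ (b : ℕ)) (φ' (w _))) _ _
        rw [hwl, h.one']
        simpa using hlr.qScale (ω ^ (b : ℕ))
    · rintro (u | b) <;> simp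
    · have hD0 : D ≠ 0 := fun e => hD (e ▸ dvd_zero l)
      refine sum_lead_inj (fun _ _ _ _ => rfl) (fun a b _ he => ?_) fun _ _ he => ?_
      · have h1 := Units.ext he
        rw [zpow_neg, zpow_neg, inv_inj, zpow_natCast, zpow_natCast, ← pow_mul, ← pow_mul] at h1
        have h2 : Function.Injective fun n : Fin l => ω ^ ((n : ℕ) * D) := by
          have hωD := hω.pow_of_coprime D ((hl.coprime_iff_not_dvd.mpr hD).symm)
          intro m n hmn
          refine Fin.ext (hωD.pow_inj m.2 n.2 ?_)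
          rw [← pow_mul, ← pow_mul, mul_comm D, mul_comm D]
          exact hmn
        exact h2 h1
      · have h2 : (1 : ℤ) < ((l * l : ℕ) : ℤ) := by
          exact_mod_cast Nat.one_lt_mul_iff.mpr ⟨hl.pos, hl.pos, Or.inl hl.one_lt⟩
        have h3 : (0 : ℤ) < (D : ℤ) := by exact_mod_cast Nat.pos_of_ne_zero hD0
        nlinarith
  · have h1 := finrankAlong_degenMap (degreeInput K) 1 (heckeDvdOne M l)
      (MF.Coeff.functionFieldGeneration 1)
    rw [HK.Corr.psi_mul_prime_of_not_dvd hl hlM, mul_comm (l + 1)] at h1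
    rw [Fintype.card_sum, Fintype.card_unit, Fintype.card_fin, Nat.add_comm]
    exact (Nat.eq_of_mul_eq_mul_left (psi_pos M) h1).symm

/-- **`T_l` along a branch.** -/
theorem HeckeBranches.map_heckeFn (h : HeckeBranches (l := l) e et er φ φ') (ι : K →+* ℂ)
    (hl : l.Prime) (hlM : ¬ l ∣ M) {ω : K'ˣ} (hω : IsPrimitiveRoot ω l) (a : modField K M) :
    qExpand K' l (e (heckeFn K M l a)) =
      qExpand K' l (qExpand K' l (et a)) * ∏ b : Fin l, qScale (ω ^ (b : ℕ)) (er a) := by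
  obtain ⟨w, hw1, hwl⟩ := exists_swap_degen ι hl hlM
  letI := algebraAlong (degenMap K (M' := M * l) 1 (heckeDvdOne M l))
  haveI : CharZero (modField K M) :=
    haveI : CharZero K := charZero_of_injective_algebraMap (algebraMap ℚ K).injective
    charZero_of_injective_algebraMap (algebraMap K (modField K M)).injective
  have hn := (h.complete hl hlM hw1 hwl hω).map_norm (degenMap K l (dvd_refl (M * l)) a)
  rw [Fintype.prod_sum_type, Fintype.prod_unique] at hn
  rw [heckeFn_apply]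
  refine hn.trans ?_
  congr 1
  · show qExpand K' l (φ _) = _
    rw [h.mul]
  · refine Finset.prod_congr rfl fun b _ => ?_
    show qScale (ω ^ (b : ℕ)) (φ' (w _)) = _
    rw [hwl, h.one']

end Complete

/-! ### Gauss orders -/

section Ord

variable {K' : Type} [Field K'] {O : ValuationSubring K'} {k : Type} [Field k] {π : O →+* k}
  {ϖ : K'} {z : LaurentSeries K'} {n : ℤ}

theorem IsGauss.inv' {r : LaurentSeries k} (h : IsGauss π z r) (hr : r ≠ 0) :
    IsGauss π z⁻¹ r⁻¹ := by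
  obtain ⟨a, b, hb, he, rfl⟩ := h
  have hz : z ≠ 0 := fun hz => hr (by
    rw [hz, zero_mul] at he
    rw [intSeries_injective O (he.symm.trans (map_zero _).symm), map_zero, zero_div])
  exact ⟨b, a, (div_ne_zero_iff.mp hr).1, by rw [← he, inv_mul_cancel_left₀ hz], inv_div _ _⟩

theorem HasGaussOrd.inv' (h : HasGaussOrd π ϖ z n) : HasGaussOrd π ϖ z⁻¹ (-n) := by
  obtain ⟨r, hr, hg⟩ := h
  refine ⟨r⁻¹, inv_ne_zero hr, ?_⟩
  have := hg.inv' hr
  rwa [mul_inv, ← map_inv₀, ← zpow_neg] at this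

theorem HasGaussOrd.pow' (hϖ : ϖ ≠ 0) (h : HasGaussOrd π ϖ z n) (m : ℕ) :
    HasGaussOrd π ϖ (z ^ m) (m * n) := by
  simpa using HasGaussOrd.prod hϖ Finset.univ (fun (_ : Fin m) _ => h)

theorem HasGaussOrd.qExpand' (h : HasGaussOrd π ϖ z n) (m : ℕ) [NeZero m] :
    HasGaussOrd π ϖ (qExpand K' m z) n := by
  obtain ⟨r, hr, hg⟩ := h
  refine ⟨qExpand k m r, (map_ne_zero_iff _ (qExpand_injective (R := k) (N := m))).mpr hr, ?_⟩
  have := hg.qExpand m
  rwa [map_mul, qExpand_C] at this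

theorem root_mem {u : K'ˣ} {m : ℕ} (hm : m ≠ 0) (hu : u ^ m = 1) :
    (u : K') ∈ O ∧ ((u⁻¹ : K'ˣ) : K') ∈ O := by
  have key : ∀ x : K'ˣ, x ^ m = 1 → (x : K') ∈ O := fun x hx => by
    rcases O.mem_or_inv_mem (x : K') with h | h
    · exact h
    · obtain ⟨j, rfl⟩ := Nat.exists_eq_succ_of_ne_zero hm
      have h1 : (x : K') = ((x : K')⁻¹) ^ j := by
        rw [inv_pow]
        refine eq_inv_of_mul_eq_one_right ?_
        rw [← pow_succ, ← Units.val_pow_eq_pow_val, hx, Units.val_one]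
      rw [h1]
      exact pow_mem h _
  exact ⟨key u hu, key u⁻¹ (by rw [inv_pow, hu, inv_one])⟩

/-- Substituting `u Q` for a root of unity keeps orders. -/
theorem HasGaussOrd.qScale_unit (h : HasGaussOrd π ϖ z n) {u : K'ˣ} {m : ℕ} (hm : m ≠ 0)
    (hu : u ^ m = 1) : HasGaussOrd π ϖ (Igusa.qScale u z) n := by
  obtain ⟨r, hr, a, b, hb, he, rfl⟩ := h
  obtain ⟨hu1, hu2⟩ := root_mem (O := O) hm hu
  let v : Oˣ := ⟨⟨(u : K'), hu1⟩, ⟨((u⁻¹ : K'ˣ) : K'), hu2⟩,
    Subtype.ext (Units.mul_inv u), Subtype.ext (Units.inv_mul u)⟩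
  have h2 : ∀ c, intSeries O (Igusa.qScale v c) = Igusa.qScale u (intSeries O c) := fun c => by
    rw [intSeries, coeffMap_qScale,
      show Units.map O.subtype.toMonoidHom v = u from Units.ext rfl]
  have hne : ∀ {c : LaurentSeries O}, coeffMap π c ≠ 0 → coeffMap π (Igusa.qScale v c) ≠ 0 :=
    fun hc => by
      rw [coeffMap_qScale]
      exact (_root_.map_ne_zero _).mpr hc
  refine ⟨_, div_ne_zero (hne (div_ne_zero_iff.mp hr).1) (hne hb),
    Igusa.qScale v a, Igusa.qScale v b, hne hb, ?_, rfl⟩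
  rw [h2, h2, ← he, map_mul, map_mul, HahnSeries.C_apply, qScale_single, zpow_zero, Units.val_one,
    one_mul]

end Ord

/-! ### The three branches -/

section Branches

variable {K : Type} [Field K] [Algebra ℚ K] {K' : Type} [Field K'] [Algebra ℚ K']
  {L₀ q l : ℕ} [NeZero L₀] [NeZero q] [NeZero l] {hq : q.Prime} {hqL : ¬ q ∣ L₀} {κ : K →+* K'}
  {z : K'ˣ} {e0 e02 : modField K (L₀ * q ^ 2) →+* LaurentSeries K'}
  {ez : Fin (q - 1) → modField K (L₀ * q ^ 2) →+* LaurentSeries K'}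
  (hB : BranchEmbs hq hqL κ z e0 e02 ez) (ι : K' →+* ℂ) (hl : l.Prime)
  (hlN : ¬ l ∣ L₀ * q ^ 2)

include hB hl hlN

omit hl hlN in
theorem BranchEmbs.heckeBranches_zero (hl : l.Prime) :
    ∃ φ : modField K (L₀ * q ^ 2 * l) →+* LaurentSeries K',
      HeckeBranches e0 e0 e0 φ φ := by
  have he : ∀ x, e0 x = coeffMap κ (x : LaurentSeries K) := fun x =>
    DFunLike.congr_fun (hB.h0.ext (isSubst_baseEmb κ _) fun _ => rfl) x
  have h1 : ∀ x, baseEmb κ (L₀ * q ^ 2 * l) (degenMap K 1 (heckeDvdOne _ l) x) = e0 x := fun x => by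
    rw [he]
    exact congrArg (coeffMap κ) (qExpand_one_apply _)
  have h2 : ∀ x, baseEmb κ (L₀ * q ^ 2 * l) (degenMap K l (dvd_refl _) x) =
      qExpand K' l (e0 x) := fun x => by
    rw [he, ← coeffMap_qExpand]
    rfl
  refine ⟨_, h1, h2, h1, h2, ⟨⟨genSer K (oneIdx _), genSer_mem _⟩, 1, hl.not_dvd_one, ?_, ?_⟩⟩ <;>
  · rw [hB.h0.gen]
    exact hasLead_genSer _

include ι

omit hlN in
theorem BranchEmbs.heckeBranches_two (hlq : ¬ l ∣ q) (hqLl : ¬ q ∣ L₀ * l) :
    ∃ φ : modField K (L₀ * q ^ 2 * l) →+* LaurentSeries K',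
      HeckeBranches e02 e02 e02 φ φ := by
  obtain ⟨f02, fz, hB'⟩ := exists_branchEmbs (L₀ := L₀ * l) κ ι hq hqLl hB.prim
  have hdvd : L₀ * q ^ 2 * l * 1 ∣ L₀ * l * q ^ 2 := ⟨1, by ring⟩
  have key : ∀ (e : ℕ) [NeZero e] (h : L₀ * q ^ 2 * e ∣ L₀ * q ^ 2 * l) (x),
      (f02.comp (degenMap K 1 hdvd : _ →+* modField K (L₀ * l * q ^ 2))) (degenMap K e h x) =
        qExpand K' e (e02 x) := by
    intro e _ h x
    refine DFunLike.congr_fun (((hB'.h02.comp_degen 1 hdvd).comp_degen e h).ext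
      (hB.h02.qExpand_comp e) fun d => ?_) x
    obtain ⟨hd, hi, he, he0⟩ := qFree_spec hq hqL d
    have heL : e ∣ l := by
      refine Nat.dvd_of_mul_dvd_mul_left (Nat.pos_of_ne_zero ?_) h
      exact mul_ne_zero (NeZero.ne L₀) (pow_ne_zero 2 hq.ne_zero)
    refine (qExpand_genSer K' ?_).symm
    rw [coe_swapTwo_of_eq hq hqL hd he, coe_swapTwo_of_eq hq hqLl (e := e * qFree hq d)
      (i := qExp hq d) (by rw [coe_mulIdx, coe_mulIdx, one_mul, mul_assoc, ← hd])
      ((mul_comm L₀ l) ▸ mul_dvd_mul heL he), mul_assoc]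
  refine ⟨f02.comp (degenMap K 1 hdvd : _ →+* modField K (L₀ * l * q ^ 2)),
    fun x => (key 1 _ x).trans (qExpand_one_apply _), key l _,
    fun x => (key 1 _ x).trans (qExpand_one_apply _), key l _,
    ⟨⟨genSer K (oneIdx _), genSer_mem _⟩, q ^ 2, fun h => hlq (hl.dvd_of_dvd_pow h), ?_, ?_⟩⟩ <;>
  · rw [hB.h02.gen]
    have h1 : (swapTwo hq hqL (oneIdx (L₀ * q ^ 2))).1 = q ^ 2 := by
      rw [coe_swapTwo_of_eq hq hqL (e := 1) (i := 0) (by simp [oneIdx]) (one_dvd _)]
      simp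
    simpa [h1] using hasLead_genSer (R := K') (swapTwo hq hqL (oneIdx (L₀ * q ^ 2)))

omit hlN in
theorem BranchEmbs.heckeBranches_mid (hlq : ¬ l ∣ q) (hqLl : ¬ q ∣ L₀ * l) (i : Fin (q - 1)) :
    ∃ (it ir : Fin (q - 1)) (φ φ' : modField K (L₀ * q ^ 2 * l) →+* LaurentSeries K'),
      HeckeBranches (ez i) (ez it) (ez ir) φ φ' := by
  obtain ⟨f02, fz, hB'⟩ := exists_branchEmbs (L₀ := L₀ * l) κ ι hq hqLl hB.prim
  have hdvd : L₀ * q ^ 2 * l * 1 ∣ L₀ * l * q ^ 2 := ⟨1, by ring⟩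
  have hlq' : Nat.Coprime l q := hl.coprime_iff_not_dvd.mpr hlq
  -- exponents with `z^(j+1) l = z^(i+1)`, and the image of `i`
  have hpow : ∀ (m : ℕ), ¬ q ∣ m → ∃ j : Fin (q - 1), z ^ ((j : ℕ) + 1) = z ^ m := by
    intro m hm
    have h0 : m % q ≠ 0 := fun h => hm (Nat.dvd_of_mod_eq_zero h)
    have h1 := Nat.mod_lt m hq.pos
    refine ⟨⟨m % q - 1, by omega⟩, ?_⟩
    show z ^ (m % q - 1 + 1) = z ^ m
    rw [Nat.sub_add_cancel (Nat.one_le_iff_ne_zero.mpr h0), ← pow_eq_pow_mod m hB.prim.pow_eq_one]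
  have hi : ¬ q ∣ (i : ℕ) + 1 := fun h => by
    have := Nat.le_of_dvd (Nat.succ_pos _) h
    omega
  obtain ⟨it, hit⟩ := hpow (((i : ℕ) + 1) * l) fun h => (hq.dvd_mul.mp h).elim hi
    fun h' => hlq ((Nat.prime_dvd_prime_iff_eq hq hl).mp h' ▸ dvd_rfl)
  obtain ⟨s, -, hs⟩ := Nat.exists_mul_mod_eq_one_of_coprime hlq' hq.one_lt
  obtain ⟨ir, hir⟩ := hpow (((i : ℕ) + 1) * s) fun h => (hq.dvd_mul.mp h).elim hi
    fun h' => by
      obtain ⟨c, rfl⟩ := h'
      rw [mul_left_comm, Nat.mul_mod_right] at hs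
      exact zero_ne_one hs
  have hir' : (z ^ ((ir : ℕ) + 1)) ^ l = z ^ ((i : ℕ) + 1) := by
    rw [hir, ← pow_mul, mul_assoc, mul_comm s l, pow_eq_pow_mod _ hB.prim.pow_eq_one, Nat.mul_mod,
      hs, mul_one, Nat.mod_mod, ← pow_eq_pow_mod _ hB.prim.pow_eq_one]
  have key : ∀ (a b : Fin (q - 1)) (e : ℕ) [NeZero e] (h : L₀ * q ^ 2 * e ∣ L₀ * q ^ 2 * l),
      (z ^ ((a : ℕ) + 1)) ^ e = z ^ ((b : ℕ) + 1) → ∀ x,
      ((fz a).comp (degenMap K 1 hdvd : _ →+* modField K (L₀ * l * q ^ 2))) (degenMap K e h x) =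
        qExpand K' e (ez b x) := by
    intro a b e _ h hab x
    refine DFunLike.congr_fun ((((hB'.hz a).comp_degen 1 hdvd).comp_degen e h).ext
      ((hB.hz b).qExpand_comp e) fun d => ?_) x
    obtain ⟨hd, hi', he, he0⟩ := qFree_spec hq hqL d
    have heL : e * qFree hq d ∣ L₀ * l := by
      refine (mul_comm L₀ l) ▸ mul_dvd_mul (Nat.dvd_of_mul_dvd_mul_left (Nat.pos_of_ne_zero ?_) h) he
      exact mul_ne_zero (NeZero.ne L₀) (pow_ne_zero 2 hq.ne_zero)
    have hd' : (mulIdx 1 hdvd (mulIdx e h d)).1 = e * qFree hq d * q ^ qExp hq d := by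
      rw [coe_mulIdx, coe_mulIdx, one_mul, mul_assoc, ← hd]
    rcases eq_or_lt_of_le hi' with h2 | h2
    · rw [h2] at hd hd'
      rw [midVal_of_eq_two hq hqL _ (freeIdx hq hqL d) hd,
        midVal_of_eq_two hq hqLl _
          ⟨e * qFree hq d, Nat.mul_pos (Nat.pos_of_ne_zero (NeZero.ne e)) he0, heL⟩ hd',
        ← hab, ← qExpand_genSer K' (e := e) (d := freeIdx hq hqL d) (d' := (⟨e * qFree hq d,
          Nat.mul_pos (Nat.pos_of_ne_zero (NeZero.ne e)) he0, heL⟩ : DivIdx (L₀ * l))) rfl,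
        qScale_qExpand]
    · rw [midVal_of_eq hq hqL _ hd he (by omega), midVal_of_eq hq hqLl _ hd' heL (by omega)]
      exact (qExpand_genSer K' (by rw [coe_mulIdx, coe_mulIdx, one_mul])).symm
  refine ⟨it, ir, (fz i).comp (degenMap K 1 hdvd : _ →+* modField K (L₀ * l * q ^ 2)),
    (fz ir).comp (degenMap K 1 hdvd : _ →+* modField K (L₀ * l * q ^ 2)),
    fun x => (key i i 1 _ (pow_one _) x).trans (qExpand_one_apply _),
    key i it l _ (by rw [← pow_mul, hit]),
    fun x => (key ir ir 1 _ (pow_one _) x).trans (qExpand_one_apply _),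
    key ir i l _ hir',
    ⟨⟨genSer K (oneIdx _), genSer_mem _⟩, 1, hl.not_dvd_one, ?_, ?_⟩⟩ <;>
  · rw [(hB.hz _).gen, midVal_of_eq hq hqL _ (e := 1) (i := 0) (by simp [oneIdx]) (one_dvd _)
      (by omega)]
    exact hasLead_genSer _

variable {O : ValuationSubring K'} {k : Type} [Field k] {π : O →+* k} {ϖ : K'}
  (hπ : ∀ c, π c = 0 ↔ ¬ IsUnit c) [IsDiscreteValuationRing O] [Fact q.Prime] [CharP k q]

include hπ

/-- **`T_l` multiplies the orders along the branches by `l + 1`.** -/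
theorem BranchEmbs.hasGaussOrd_heckeFn (hϖ : ϖ ≠ 0) {ω : K'ˣ} (hω : IsPrimitiveRoot ω l)
    (hmid : ∀ i i' a n, HasGaussOrd π ϖ (ez i a) n → HasGaussOrd π ϖ (ez i' a) n)
    (a : modField K (L₀ * q ^ 2)) (n : ℤ) :
    (HasGaussOrd π ϖ (e0 a) n →
        HasGaussOrd π ϖ (e0 (heckeFn K _ l a)) ((l + 1 : ℕ) * n)) ∧
    (HasGaussOrd π ϖ (e02 a) n →
        HasGaussOrd π ϖ (e02 (heckeFn K _ l a)) ((l + 1 : ℕ) * n)) ∧
    ∀ i, HasGaussOrd π ϖ (ez i a) n →
        HasGaussOrd π ϖ (ez i (heckeFn K _ l a)) ((l + 1 : ℕ) * n) := by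
  have hlq : ¬ l ∣ q := fun h => hlN (dvd_mul_of_dvd_right (h.trans (dvd_pow_self q two_ne_zero)) _)
  have hqLl : ¬ q ∣ L₀ * l := fun h => (hq.dvd_mul.mp h).elim hqL
    fun h' => hlq ((Nat.prime_dvd_prime_iff_eq hq hl).mp h' ▸ dvd_rfl)
  have key : ∀ (e et er : modField K (L₀ * q ^ 2) →+* LaurentSeries K')
      (φ φ' : modField K (L₀ * q ^ 2 * l) →+* LaurentSeries K'),
      HeckeBranches e et er φ φ' → (∀ x, e x ∈ fracSeries O) →
      HasGaussOrd π ϖ (et a) n → HasGaussOrd π ϖ (er a) n →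
      HasGaussOrd π ϖ (e (heckeFn K _ l a)) ((l + 1 : ℕ) * n) := by
    intro e et er φ φ' h he ht hr
    have h1 := ((ht.qExpand' l).qExpand' l).mul hϖ
      (HasGaussOrd.prod hϖ Finset.univ fun (b : Fin l) _ =>
        hr.qScale_unit hl.ne_zero (u := ω ^ (b : ℕ)) (unit_pow_pow_eq_one hω _ dvd_rfl))
    rw [← h.map_heckeFn (ι.comp κ) hl hlN hω, Finset.sum_const, Finset.card_univ, Fintype.card_fin,
      nsmul_eq_mul, show n + (l : ℤ) * n = ((l + 1 : ℕ) : ℤ) * n by push_cast; ring] at h1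
    obtain ⟨R, hR, hg⟩ := h1
    rw [← qExpand_C l, ← map_mul] at hg
    obtain ⟨r, hr', rfl⟩ := exists_isGauss_of_qExpand hπ
      (mul_mem (C_mem_fracSeries O _) (he _)) hg
    exact ⟨r, fun h0 => hR (by rw [h0, map_zero]), hr'⟩
  have hF := fun x => hB.mem_fracSeries π x
  refine ⟨fun h => ?_, fun h => ?_, fun i h => ?_⟩
  · obtain ⟨φ, hφ⟩ := hB.heckeBranches_zero (l := l) hl
    exact key _ _ _ φ φ hφ (fun x => (hF x).1) h h
  · obtain ⟨φ, hφ⟩ := hB.heckeBranches_two ι hl hlq hqLl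
    exact key _ _ _ φ φ hφ (fun x => (hF x).2.1) h h
  · obtain ⟨it, ir, φ, φ', hφ⟩ := hB.heckeBranches_mid ι hl hlq hqLl i
    exact key _ _ _ φ φ' hφ (fun x => (hF x).2.2 i) (hmid i it a n h) (hmid i ir a n h)

/-- **Functions in the image of `T_l - l - 1` have order zero on the three branches.** -/
theorem BranchEmbs.hasGaussOrd_eisFn (hϖ : ϖ ≠ 0) {ω : K'ˣ} (hω : IsPrimitiveRoot ω l)
    (hmid : ∀ i i' a n, HasGaussOrd π ϖ (ez i a) n → HasGaussOrd π ϖ (ez i' a) n)
    (a : modField K (L₀ * q ^ 2)) (n : ℤ) :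
    (HasGaussOrd π ϖ (e0 a) n → HasGaussOrd π ϖ (e0 (eisFn K _ l a)) 0) ∧
    (HasGaussOrd π ϖ (e02 a) n → HasGaussOrd π ϖ (e02 (eisFn K _ l a)) 0) ∧
    ∀ i, HasGaussOrd π ϖ (ez i a) n → HasGaussOrd π ϖ (ez i (eisFn K _ l a)) 0 := by
  obtain ⟨h0, h2, h1⟩ := hB.hasGaussOrd_heckeFn ι hl hlN hπ hϖ hω hmid a n
  have key : ∀ e : modField K (L₀ * q ^ 2) →+* LaurentSeries K',
      HasGaussOrd π ϖ (e a) n → HasGaussOrd π ϖ (e (heckeFn K _ l a)) ((l + 1 : ℕ) * n) →
      HasGaussOrd π ϖ (e (eisFn K _ l a)) 0 := fun e ha hT => by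
    rw [eisFn, map_mul, map_inv₀, map_pow]
    simpa using hT.mul hϖ (ha.pow' hϖ (l + 1)).inv'
  exact ⟨fun h => key e0 h (h0 h), fun h => key e02 h (h2 h), fun i h => key _ h (h1 i h)⟩

omit ι hl hlN [IsDiscreteValuationRing O] [Fact q.Prime] [CharP k q] in
/-- The middle orders agree: from the automorphisms of the constants permuting the embeddings. -/
theorem BranchEmbs.hasGaussOrd_mid (hϖ : ϖ ≠ 0)
    (hsig : ∀ i i' : Fin (q - 1), ∃ (σ : K' →+* K') (hσ : ∀ c ∈ O, σ c ∈ O) (v : Oˣ),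
      σ.comp κ = κ ∧ σ ((z ^ ((i : ℕ) + 1) : K'ˣ) : K') = ((z ^ ((i' : ℕ) + 1) : K'ˣ) : K') ∧
      (∀ c : O, π ⟨σ c, hσ c c.2⟩ = π c) ∧ σ ϖ = ((v : O) : K') * ϖ)
    (i i' : Fin (q - 1)) {a : modField K (L₀ * q ^ 2)} {n : ℤ}
    (h : HasGaussOrd π ϖ (ez i a) n) : HasGaussOrd π ϖ (ez i' a) n := by
  obtain ⟨σ, hσ, v, hσκ, hσz, hσπ, hv⟩ := hsig i i'
  have he : (ModularCurve.coeffMap σ).comp (ez i) = ez i' :=
    ((hB.hz i).coeffMap_comp σ hσκ).ext (hB.hz i') fun d => by
      rw [midVal, midVal]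
      split_ifs
      · rw [coeffMap_qScale, coeffMap_genSer,
          show Units.map σ.toMonoidHom (z ^ ((i : ℕ) + 1)) = z ^ ((i' : ℕ) + 1) from Units.ext hσz]
      · rw [coeffMap_genSer]
  rw [← he]
  exact h.coeffMap_sigma hπ hϖ σ hσ hσπ hv

end Branches

/-! ### Classes -/

section Classes

local notation "Qb" => AlgebraicClosure ℚ

variable {K : Type} [Field K] [Algebra ℚ K] (κ : K →+* Qb) {M l : ℕ} [NeZero M] [NeZero l]

theorem heckeBranches_base {K' : Type} [Field K'] [Algebra ℚ K'] (κ' : K →+* K') (hl : l.Prime) :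
    HeckeBranches (baseEmb κ' M) (baseEmb κ' M) (baseEmb κ' M)
      (baseEmb κ' (M * l)) (baseEmb κ' (M * l)) := by
  have h1 : ∀ x, baseEmb κ' (M * l) (degenMap K 1 (heckeDvdOne M l) x) = baseEmb κ' M x :=
    fun x => congrArg (coeffMap κ') (qExpand_one_apply _)
  have h2 : ∀ x, baseEmb κ' (M * l) (degenMap K l (dvd_refl _) x) =
      qExpand K' l (baseEmb κ' M x) := fun x => coeffMap_qExpand κ' l _
  refine ⟨h1, h2, h1, h2, ⟨⟨genSer K (oneIdx M), genSer_mem _⟩, 1, hl.not_dvd_one, ?_, ?_⟩⟩ <;>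
  · rw [(isSubst_baseEmb κ' M).gen]
    exact hasLead_genSer _

/-- `T_l` on functions commutes with the extension of constants. -/
theorem heckeFn_fieldExt (hl : l.Prime) (hlM : ¬ l ∣ M) (a : modField K M) :
    heckeFn Qb M l (fieldExt κ M a) = fieldExt κ M (heckeFn K M l a) := by
  obtain ⟨ω, hω⟩ := HasEnoughRootsOfUnity.exists_primitiveRoot Qb l
  have hω' : IsPrimitiveRoot (hω.isUnit hl.ne_zero).unit l := hω.isUnit_unit hl.ne_zero
  let ι : Qb →+* ℂ := exists_qbToC.some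
  refine (baseEmb (RingHom.id Qb) M).injective ((qExpand Qb l).injective ?_)
  rw [(heckeBranches_base (RingHom.id Qb) hl).map_heckeFn ι hl hlM hω', baseEmb_fieldExt,
    baseEmb_fieldExt, (heckeBranches_base κ hl).map_heckeFn (ι.comp κ) hl hlM hω']

/-- **The class `(T_l - l - 1) P` comes from the function `eisFn`.** -/
theorem exists_eisFn_class (hl : l.Prime) (hlM : ¬ l ∣ M) (lp : Nat.Primes) (hlp : (lp : ℕ) = l)
    {m : ℕ} (D : Divisor.degZero (K := Qb) (F := modularFunctionFieldBar M)) {f₀ : modField K M}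
    (hf₀ : f₀ ≠ 0)
    (hD : ∀ v, (m : ℤ) * (D : Divisor Qb (modularFunctionFieldBar M)) v =
      v.ord (fieldExt κ M f₀)) :
    ∃ D' : Divisor.degZero (K := Qb) (F := modularFunctionFieldBar M),
      Pic0.mk D' = heckeOperatorBar M lp (Pic0.mk D) - (l + 1) • Pic0.mk D ∧
      ∀ v, (m : ℤ) * (D' : Divisor Qb (modularFunctionFieldBar M)) v =
        v.ord (fieldExt κ M (eisFn K M l f₀)) := by
  subst hlp
  have hf : fieldExt κ M f₀ ≠ 0 := (_root_.map_ne_zero _).mpr hf₀
  obtain ⟨hα, hβ, hP, hfin, hFI, hN⟩ :=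
    heckeInputsAlong_all (L := Qb) M (lp : ℕ)
  haveI := hP
  obtain ⟨D₁, h1, h2⟩ := HK.pic0_correspondence_kummerData (heckeBetaBar Qb M (lp : ℕ))
    (heckeAlphaBar Qb M (lp : ℕ)) hβ hα hFI hfin hN rfl hf (n := m) (D := D) fun v => by
      rw [Finsupp.smul_apply, nsmul_eq_mul, hD]
  refine ⟨D₁ - ((lp : ℕ) + 1) • D, ?_, fun v => ?_⟩
  · rw [heckeOperatorBar_apply, heckeOperatorAlong_eq hα hβ hFI hfin hN]
    show Pic0.mk _ = heckePic0Bar hα hβ hFI hfin hN (Pic0.mk D) - _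
    rw [← show Pic0.mk D₁ = heckePic0Bar hα hβ hFI hfin hN (Pic0.mk D) from h1]
    rfl
  · have hT : heckeFn Qb M (lp : ℕ) (fieldExt κ M f₀) ≠ 0 := heckeFn_ne_zero hf
    have heq : (letI := algebraAlong (heckeAlphaBar Qb M (lp : ℕ));
        Algebra.norm (modularFunctionFieldBar M) (heckeBetaBar Qb M (lp : ℕ) (fieldExt κ M f₀)) :
          modularFunctionFieldBar M) = heckeFn Qb M (lp : ℕ) (fieldExt κ M f₀) := by
      have ha : heckeAlphaBar Qb M (lp : ℕ) = degenMap Qb 1 (heckeDvdOne M (lp : ℕ)) :=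
        AlgHom.ext fun x => Subtype.ext
          ((coe_heckeAlphaBar M _ x).trans (qExpand_one_apply _).symm)
      have hb : heckeBetaBar Qb M (lp : ℕ) (fieldExt κ M f₀) =
          degenMap Qb (lp : ℕ) (dvd_refl _) (fieldExt κ M f₀) :=
        Subtype.ext (coe_heckeBetaBar (L := Qb) M _ _)
      rw [ha, hb]
      rfl
    have h3 := h2 v
    rw [Finsupp.smul_apply, nsmul_eq_mul, heq] at h3
    rw [eisFn, map_mul, map_inv₀, map_pow, ← heckeFn_fieldExt κ hl hlM,
      v.ord_mul hT (inv_ne_zero (pow_ne_zero _ hf)), v.ord_inv, FF.ord_pow,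
      AddSubgroup.coe_sub, AddSubgroup.coe_nsmul, Finsupp.sub_apply, Finsupp.smul_apply,
      nsmul_eq_mul, mul_sub, h3, mul_left_comm, hD]
    ring

end Classes

end Fermat.Agent.Carayol
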