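/-
Abstract local algebra at the points of the special fibre.

* `exists_mul_eq_of_key`: the kernel of a branch is locally generated by the uniformiser `p`;
* `branch_image`, `ufm_of_branch`: a branch whose local image contains a DVR `O` of the residue
  field has image exactly `O`, and then the local ring is regular of dimension two, so factorial;
* `locRing`: local rings inside the function field, with transfer from a subring with factorial
  (normal) local ring, and between the two charts.
-/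
import Fermat.Agent.Carayol.TwoDimUFD
import Mathlib.RingTheory.Valuation.ValuationSubring
import Mathlib.RingTheory.DiscreteValuationRing.Basic
import Mathlib.RingTheory.Localization.AtPrime.Basic
import Mathlib.RingTheory.Polynomial.RationalRoot
import Mathlib.RingTheory.IntegralClosure.IntegrallyClosed
import Mathlib.RingTheory.Jacobson.Ring
import Mathlib.RingTheory.Adjoin.Polynomial.Basic

set_option autoImplicit false

noncomputable section

namespace Fermat.Agent.Carayol

/-- If `a e^N p^(E-1)` is a multiple of `q` on the kernel and `e^N p^E = q u`, `u` not vanishing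
at `y`, the kernel is generated by `p` at `y`. -/
theorem exists_mul_eq_of_key {R : Type*} [CommRing R] [IsDomain R] {y K : Ideal R} {p q e u : R}
    {N E : ℕ} (hq : q ≠ 0) (hE : E ≠ 0)
    (hkey : ∀ a ∈ K, q ∣ a * e ^ N * p ^ (E - 1)) (hu : u ∉ y) (hpu : e ^ N * p ^ E = q * u) :
    ∀ a ∈ K, ∃ b r : R, r ∉ y ∧ r * a = p * b := by
  intro a ha
  obtain ⟨c, hc⟩ := hkey a ha
  refine ⟨c, u, hu, mul_left_cancel₀ hq ?_⟩
  obtain ⟨k, rfl⟩ : ∃ k, E = k + 1 := ⟨E - 1, by omega⟩
  rw [add_tsub_cancel_right] at hc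
  linear_combination (-a) * hpu + p * hc

section Branch

variable {R C : Type*} [CommRing R] [Field C] (ψ : R →+* C) {y : Ideal R} [y.IsPrime]
  (O : ValuationSubring C) [IsDiscreteValuationRing O]

/-- Every quotient `ψ a / ψ r`, `r ∉ y`, lies in `O`. -/
theorem branch_div_mem (hker : RingHom.ker ψ ≤ y)
    (hsub : ∀ z ∈ O, ∃ a r : R, r ∉ y ∧ z * ψ r = ψ a) (hne : ∃ a ∈ y, ψ a ≠ 0)
    {a r : R} (hr : r ∉ y) : ψ a / ψ r ∈ O := by
  by_contra hz
  obtain ⟨b, hby, hb⟩ := hne
  set z := ψ a / ψ r with hzdef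
  have hr0 : ψ r ≠ 0 := fun h => hr (hker h)
  -- the inverse of `ψ b` is such a quotient
  obtain ⟨ϖ, hϖ⟩ := IsDiscreteValuationRing.exists_irreducible O
  have hz0 : z ≠ 0 := fun h => hz (h ▸ O.zero_mem)
  have hinv : z⁻¹ ∈ O := (O.mem_or_inv_mem z).resolve_left hz
  obtain ⟨k, w, hw⟩ := IsDiscreteValuationRing.eq_unit_mul_pow_irreducible
    (show (⟨z⁻¹, hinv⟩ : O) ≠ 0 from fun h => inv_ne_zero hz0 (congrArg Subtype.val h)) hϖ
  have hw' : z⁻¹ = ((w : O) : C) * (ϖ : C) ^ k := congrArg Subtype.val hw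
  have hk : k ≠ 0 := by
    rintro rfl
    apply hz
    rw [pow_zero, mul_one] at hw'
    have : z = ((↑w⁻¹ : O) : C) := by
      rw [← inv_inv z, hw']
      exact inv_eq_of_mul_eq_one_right (congrArg Subtype.val w.mul_inv)
    rw [this]
    exact SetLike.coe_mem _
  obtain ⟨k, rfl⟩ := Nat.exists_eq_succ_of_ne_zero hk
  -- so every power of `1/ϖ` is such a quotient
  have hall : ∀ n : ℕ, ∀ o ∈ O, ∃ c s : R, s ∉ y ∧ o * z ^ n * ψ s = ψ c := by
    intro n o ho
    obtain ⟨c, s, hs, hcs⟩ := hsub o ho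
    refine ⟨c * a ^ n, s * r ^ n, ?_, ?_⟩
    · exact fun h => ((inferInstance : y.IsPrime).mem_or_mem h).elim hs
        (fun h => hr ((inferInstance : y.IsPrime).mem_of_pow_mem n h))
    · rw [map_mul, map_mul, map_pow, map_pow, hzdef, div_pow, ← hcs]
      field_simp
  obtain ⟨n, v, hv⟩ : ∃ (n : ℕ) (v : C), v ∈ O ∧ v * z ^ n = (ψ b)⁻¹ := by
    rcases O.mem_or_inv_mem (ψ b)⁻¹ with h | h
    · exact ⟨0, _, h, by simp⟩
    · rw [inv_inv] at h
      obtain ⟨n, e, he⟩ := IsDiscreteValuationRing.eq_unit_mul_pow_irreducible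
        (show (⟨ψ b, h⟩ : O) ≠ 0 from fun h0 => hb (congrArg Subtype.val h0)) hϖ
      have he' : ψ b = ((e : O) : C) * (ϖ : C) ^ n := congrArg Subtype.val he
      refine ⟨n, (((e⁻¹ * w ^ n : Oˣ) : O) * ϖ ^ (k * n) : O), SetLike.coe_mem _, ?_⟩
      have hei : ((e : O) : C) * ((↑e⁻¹ : O) : C) = 1 := congrArg Subtype.val e.mul_inv
      have h1 : (((w : O) : C) * (ϖ : C) ^ (k + 1)) ^ n * z ^ n = 1 := by
        rw [← mul_pow, ← hw', inv_mul_cancel₀ hz0, one_pow]
      refine eq_inv_of_mul_eq_one_left ?_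
      simp only [Units.val_mul, Units.val_pow_eq_pow_val, MulMemClass.coe_mul,
        SubmonoidClass.coe_pow]
      rw [mul_pow, ← pow_mul, show (k + 1) * n = k * n + n by ring, pow_add] at h1
      rw [he']
      linear_combination (((e : O) : C) * ((↑e⁻¹ : O) : C)) * h1 + hei
  obtain ⟨hvO, hv⟩ := hv
  obtain ⟨c, s, hs, hcs⟩ := hall n v hvO
  rw [hv] at hcs
  apply hs
  have h0 : s - b * c ∈ y := hker (by
    rw [RingHom.mem_ker, map_sub, map_mul, ← hcs, mul_inv_cancel_left₀ hb, sub_self])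
  simpa using add_mem h0 (y.mul_mem_right c hby)

/-- The image of the local ring on the branch is `O`, and `y` is its centre. -/
theorem branch_image (hker : RingHom.ker ψ ≤ y)
    (hsub : ∀ z ∈ O, ∃ a r : R, r ∉ y ∧ z * ψ r = ψ a) (hne : ∃ a ∈ y, ψ a ≠ 0) :
    (∀ a, ψ a ∈ O) ∧ ∀ a, a ∈ y ↔ ψ a ∈ O.nonunits := by
  have hone : (1 : R) ∉ y := fun h =>
    (inferInstance : y.IsPrime).ne_top ((Ideal.eq_top_iff_one _).mpr h)
  have hmem : ∀ a, ψ a ∈ O := fun a => by
    simpa using branch_div_mem ψ O hker hsub hne (a := a) hone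
  refine ⟨hmem, fun a => ?_⟩
  rw [ValuationSubring.mem_nonunits_iff_exists_mem_maximalIdeal]
  constructor
  · intro ha
    refine ⟨hmem a, (IsLocalRing.mem_maximalIdeal _).mpr fun hu => ?_⟩
    obtain ⟨u, hu⟩ := hu
    obtain ⟨c, r, hr, hcr⟩ := hsub _ (SetLike.coe_mem (↑u⁻¹ : O))
    apply hr
    have h1 : ψ a * ((↑u⁻¹ : O) : C) = 1 := by
      have := congrArg Subtype.val u.mul_inv
      rw [hu] at this; exact this
    have h0 : r - a * c ∈ y := hker (by
      rw [RingHom.mem_ker, map_sub, map_mul, ← hcr, ← mul_assoc, h1, one_mul, sub_self])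
    simpa using add_mem h0 (y.mul_mem_right c ha)
  · rintro ⟨h, hm⟩
    by_contra ha
    have h0 : ψ a ≠ 0 := fun h => ha (hker h)
    have hinv : (ψ a)⁻¹ ∈ O := by simpa using branch_div_mem ψ O hker hsub hne (a := 1) ha
    exact (IsLocalRing.mem_maximalIdeal _).mp hm
      (isUnit_iff_exists_inv.mpr ⟨⟨_, hinv⟩, Subtype.ext (mul_inv_cancel₀ h0)⟩)

end Branch

/-- A point on one branch, with kernel locally generated by `p`, has a factorial local ring. -/
theorem ufm_of_branch {R C : Type*} [CommRing R] [IsDomain R] [IsNoetherianRing R] [Field C]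
    (ψ : R →+* C) (y : Ideal R) [y.IsMaximal] (O : ValuationSubring C)
    [IsDiscreteValuationRing O] (hker : RingHom.ker ψ ≤ y)
    (hsub : ∀ z ∈ O, ∃ a r : R, r ∉ y ∧ z * ψ r = ψ a) (hne : ∃ a ∈ y, ψ a ≠ 0)
    {p : R} (hp : ψ p = 0) (hp0 : p ≠ 0)
    (hgen : ∀ a ∈ RingHom.ker ψ, ∃ b r : R, r ∉ y ∧ r * a = p * b) :
    UniqueFactorizationMonoid (Localization.AtPrime y) := by
  obtain ⟨hmem, hy⟩ := branch_image ψ O hker hsub hne
  obtain ⟨ϖ, hϖ⟩ := IsDiscreteValuationRing.exists_irreducible O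
  obtain ⟨c, r, hr, hcr⟩ := hsub _ ϖ.2
  let L := Localization.AtPrime y
  have hinj : Function.Injective (algebraMap R L) :=
    IsLocalization.injective L (Ideal.primeCompl_le_nonZeroDivisors y)
  have hunit : ∀ s : R, s ∉ y → IsUnit (algebraMap R L s) := fun s hs =>
    IsLocalization.map_units L (⟨s, hs⟩ : y.primeCompl)
  have hψr : ψ r ≠ 0 := fun h => hr (hker h)
  have hc : c ∈ y := by
    rw [hy, ← hcr, ValuationSubring.mem_nonunits_iff_exists_mem_maximalIdeal]
    refine ⟨O.mul_mem _ _ ϖ.2 (hmem r), ?_⟩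
    exact Ideal.mul_mem_right (⟨ψ r, hmem r⟩ : O) _
      ((IsLocalRing.mem_maximalIdeal ϖ).mpr hϖ.not_isUnit)
  have hψc : ψ c ≠ 0 := hcr ▸ mul_ne_zero (fun h => hϖ.ne_zero (Subtype.ext h)) hψr
  have hmax : IsLocalRing.maximalIdeal L = Ideal.span {algebraMap R L p, algebraMap R L c} := by
    apply le_antisymm
    · intro x hx
      obtain ⟨a, s, rfl⟩ := IsLocalization.exists_mk'_eq y.primeCompl x
      rw [IsLocalization.AtPrime.mk'_mem_maximal_iff L y] at hx
      obtain ⟨ha, hm⟩ :=
        ValuationSubring.mem_nonunits_iff_exists_mem_maximalIdeal.mp ((hy a).mp hx)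
      rw [hϖ.maximalIdeal_eq, Ideal.mem_span_singleton'] at hm
      obtain ⟨o, ho⟩ := hm
      obtain ⟨d, t, ht, hdt⟩ := hsub _ o.2
      obtain ⟨b, t', ht', hb⟩ := hgen (r * t * a - c * d) (by
        have h1 : (o : C) * (ϖ : C) = ψ a := congrArg Subtype.val ho
        rw [RingHom.mem_ker, map_sub, map_mul, map_mul, map_mul, ← hcr, ← hdt, ← h1]
        ring)
      have h2 : algebraMap R L (t' * r * t) * algebraMap R L a ∈
          Ideal.span {algebraMap R L p, algebraMap R L c} := by
        rw [← map_mul, show t' * r * t * a = p * b + c * (t' * d) by linear_combination hb,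
          map_add, map_mul, map_mul]
        exact add_mem (Ideal.mul_mem_right _ _ (Ideal.subset_span (by simp)))
          (Ideal.mul_mem_right _ _ (Ideal.subset_span (by simp)))
      have hu : IsUnit (algebraMap R L (t' * r * t)) := by
        rw [map_mul, map_mul]
        exact ((hunit t' ht').mul (hunit r hr)).mul (hunit t ht)
      rw [Ideal.unit_mul_mem_iff_mem _ hu] at h2
      rw [IsLocalization.mk'_eq_mul_mk'_one]
      exact Ideal.mul_mem_right _ _ h2
    · rw [Ideal.span_le, Set.insert_subset_iff, Set.singleton_subset_iff]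
      exact ⟨(IsLocalization.AtPrime.to_map_mem_maximal_iff L y p).mpr (hker hp),
        (IsLocalization.AtPrime.to_map_mem_maximal_iff L y c).mpr hc⟩
  have hP : (RingHom.ker ψ).IsPrime := RingHom.ker_isPrime ψ
  have hdisj : Disjoint (y.primeCompl : Set R) (RingHom.ker ψ : Set R) :=
    Set.disjoint_left.mpr fun s hs hs' => hs (hker hs')
  have hPp : ((RingHom.ker ψ).map (algebraMap R L)).IsPrime :=
    IsLocalization.isPrime_of_isPrime_disjoint y.primeCompl L _ hP hdisj
  refine ufm_of_two_gen hmax (fun h => hp0 (hinj (h.trans (map_zero _).symm)))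
    (P := (RingHom.ker ψ).map (algebraMap R L)) (fun h => hp0 (hinj ?_)) (fun h => hψc ?_)
  · rw [map_zero, ← Ideal.mem_bot, ← h]
    exact Ideal.mem_map_of_mem _ hp
  · have h1 : algebraMap R L c ∈ (RingHom.ker ψ).map (algebraMap R L) := by
      rw [h]; exact (IsLocalization.AtPrime.to_map_mem_maximal_iff L y c).mpr hc
    obtain ⟨⟨⟨i, hi⟩, s⟩, h2⟩ := (IsLocalization.mem_map_algebraMap_iff y.primeCompl L).mp h1
    rw [← map_mul] at h2
    have h3 : ψ (c * s) = 0 := by rw [hinj h2]; exact hi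
    rw [map_mul] at h3
    exact (mul_eq_zero.mp h3).resolve_right fun hs => s.2 (hker hs)

/-! ### Local rings inside the function field -/

section LocRing

variable {W F : Type*} [CommRing W] [Field F] [Algebra W F]

/-- The local ring of the prime `y` of the subalgebra `R`, inside `F`. -/
def locRing (R : Subalgebra W F) (y : Ideal R) [hy : y.IsPrime] : Subalgebra W F where
  carrier := {z | ∃ a r : R, r ∉ y ∧ z * (r : F) = a}
  mul_mem' := by
    rintro z w ⟨a, r, hr, hz⟩ ⟨b, s, hs, hw⟩
    refine ⟨a * b, r * s, fun h => (hy.mem_or_mem h).elim hr hs, ?_⟩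
    push_cast
    linear_combination (w * (s : F)) * hz + (a : F) * hw
  add_mem' := by
    rintro z w ⟨a, r, hr, hz⟩ ⟨b, s, hs, hw⟩
    refine ⟨a * s + b * r, r * s, fun h => (hy.mem_or_mem h).elim hr hs, ?_⟩
    push_cast
    linear_combination (s : F) * hz + (r : F) * hw
  algebraMap_mem' w :=
    ⟨algebraMap W R w, 1, fun h => hy.ne_top ((Ideal.eq_top_iff_one _).mpr h), by simp⟩

variable {R : Subalgebra W F} {y : Ideal R} [y.IsPrime]

theorem mem_locRing_iff {z : F} :
    z ∈ locRing R y ↔ ∃ a r : R, r ∉ y ∧ z * (r : F) = a := Iff.rfl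

omit [y.IsPrime] in
theorem coe_ne_zero_of_notMem {r : R} (hr : r ∉ y) : (r : F) ≠ 0 := fun h => hr (by
  rw [show r = 0 from Subtype.ext h]; exact y.zero_mem)

theorem le_locRing : R ≤ locRing R y := fun a ha =>
  ⟨⟨a, ha⟩, 1, fun h => (inferInstance : y.IsPrime).ne_top ((Ideal.eq_top_iff_one _).mpr h),
    by simp⟩

theorem inv_mem_locRing {r : R} (hr : r ∉ y) : (r : F)⁻¹ ∈ locRing R y :=
  ⟨1, r, hr, by simp [coe_ne_zero_of_notMem hr]⟩

/-- The inclusion into the local ring. -/
def toLocRing (R : Subalgebra W F) (y : Ideal R) [y.IsPrime] : R →+* locRing R y :=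
  (Subalgebra.inclusion le_locRing).toRingHom

theorem isUnit_toLocRing (r : y.primeCompl) : IsUnit (toLocRing R y r) :=
  isUnit_iff_exists_inv.mpr ⟨⟨_, inv_mem_locRing r.2⟩,
    Subtype.ext (mul_inv_cancel₀ (coe_ne_zero_of_notMem (y := y) (r := (r : R)) r.2))⟩

variable (R y) in
theorem locRingLift_bijective :
    Function.Bijective (IsLocalization.lift (M := y.primeCompl) (S := Localization.AtPrime y)
      (isUnit_toLocRing (R := R) (y := y))) := by
  refine ⟨(IsLocalization.lift_injective_iff _).mpr fun a b => ?_, fun z => ?_⟩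
  · refine ⟨fun h => ?_, fun h => ?_⟩
    · rw [(IsLocalization.injective (Localization.AtPrime y)
        (Ideal.primeCompl_le_nonZeroDivisors y)) h]
    · rw [show a = b from Subtype.ext (congrArg (fun t : locRing R y => (t : F)) h)]
  · obtain ⟨a, r, hr, hz⟩ := z.2
    refine ⟨IsLocalization.mk' _ a (⟨r, hr⟩ : y.primeCompl), ?_⟩
    rw [IsLocalization.lift_mk'_spec]
    exact Subtype.ext (by rw [MulMemClass.coe_mul, mul_comm]; exact hz.symm)

variable (R y) in
/-- The localization is the local ring inside `F`. -/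
def locRingEquiv : Localization.AtPrime y ≃+* locRing R y :=
  RingEquiv.ofBijective _ (locRingLift_bijective R y)

theorem locRingEquiv_algebraMap (a : R) :
    locRingEquiv R y (algebraMap R _ a) = toLocRing R y a :=
  IsLocalization.lift_eq _ _

variable {R' : Subalgebra W F} {y' : Ideal R'} [y'.IsPrime]

/-- Equal local rings, equal centres. -/
theorem mem_iff_of_locRing_eq (h : locRing R y = locRing R' y') (a : R) (a' : R')
    (ha : (a : F) = a') : a ∈ y ↔ a' ∈ y' := by
  suffices H : ∀ {R R' : Subalgebra W F} {y : Ideal R} {y' : Ideal R'} [y.IsPrime] [y'.IsPrime],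
      locRing R y = locRing R' y' → ∀ (a : R) (a' : R'), (a : F) = a' → a ∉ y → a' ∉ y' by
    exact ⟨fun h1 => by_contra fun h2 => H h.symm a' a ha.symm h2 h1,
      fun h1 => by_contra fun h2 => H h a a' ha h2 h1⟩
  intro R R' y y' _ _ h a a' ha hay hay'
  obtain ⟨b, s, hs, hb⟩ := (h ▸ inv_mem_locRing hay : ((a : F))⁻¹ ∈ locRing R' y')
  apply hs
  have : s = a' * b := Subtype.ext (by
    rw [MulMemClass.coe_mul, ← ha, ← hb, ← mul_assoc,
      mul_inv_cancel₀ (coe_ne_zero_of_notMem hay), one_mul])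
  rw [this]
  exact y'.mul_mem_right _ hay'

/-- Equal local rings: factoriality transfers. -/
theorem ufm_congr (h : locRing R y = locRing R' y')
    [UniqueFactorizationMonoid (Localization.AtPrime y)] :
    UniqueFactorizationMonoid (Localization.AtPrime y') :=
  ((locRingEquiv R y).trans ((Subalgebra.equivOfEq _ _ h).toRingEquiv.trans
    (locRingEquiv R' y').symm)).toMulEquiv.uniqueFactorizationMonoid inferInstance

end LocRing

section Subring

variable {W F : Type*} [CommRing W] [Field F] [Algebra W F] {S R : Subalgebra W F}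

/-- If the local ring of `S` at the contraction of `y` is normal, it is the local ring of `R`. -/
theorem locRing_eq_of_isIntegrallyClosed (hSR : S ≤ R) (y : Ideal R) [y.IsPrime]
    (hint : ∀ a ∈ R, IsIntegral S a)
    (hfrac : ∀ z : F, ∃ b c : F, b ∈ S ∧ c ∈ S ∧ c ≠ 0 ∧ z = b / c)
    [IsIntegrallyClosed (Localization.AtPrime (y.comap (Subalgebra.inclusion hSR)))] :
    locRing R y = locRing S (y.comap (Subalgebra.inclusion hSR)) := by
  set y₀ := y.comap (Subalgebra.inclusion hSR)
  have hic : IsIntegrallyClosed (locRing S y₀) := IsIntegrallyClosed.of_equiv (locRingEquiv S y₀)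
  have hfr : IsFractionRing (locRing S y₀) F := IsFractionRing.of_field _ _ fun z => by
    obtain ⟨b, c, hb, hc, -, hz⟩ := hfrac z
    exact ⟨⟨b, le_locRing hb⟩, ⟨c, le_locRing hc⟩, hz⟩
  have hR : ∀ a ∈ R, a ∈ locRing S y₀ := fun a ha => by
    have h1 : IsIntegral (locRing S y₀) a := by
      obtain ⟨P, hP, hPa⟩ := hint a ha
      refine ⟨P.map (toLocRing S y₀), hP.map _, ?_⟩
      rw [Polynomial.eval₂_map]
      exact hPa
    obtain ⟨b, hb⟩ := IsIntegrallyClosed.isIntegral_iff.mp h1
    exact hb ▸ b.2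
  apply le_antisymm
  · rintro z ⟨a, r, hr, hz⟩
    obtain ⟨b, s, hs, hb⟩ := hR r r.2
    have hb0 : b ∉ y₀ := fun h => by
      have e : r * Subalgebra.inclusion hSR s = Subalgebra.inclusion hSR b := Subtype.ext hb
      have h' : r * Subalgebra.inclusion hSR s ∈ y := by rw [e]; exact h
      exact ((inferInstance : y.IsPrime).mem_or_mem h').elim hr hs
    have : z = (a : F) * (((s : S) : F) * ((b : S) : F)⁻¹) := by
      have hb0' := coe_ne_zero_of_notMem hb0
      field_simp
      rw [← hb, ← hz]; ring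
    rw [this]
    exact mul_mem (hR a a.2) (mul_mem (le_locRing s.2) (inv_mem_locRing hb0))
  · rintro z ⟨a, r, hr, hz⟩
    exact ⟨Subalgebra.inclusion hSR a, Subalgebra.inclusion hSR r, hr, hz⟩

/-- A prime of `R` over a point of `S` with normal local ring is unique. -/
theorem eq_of_comap_eq (hSR : S ≤ R) (y y' : Ideal R) [y.IsPrime] [y'.IsPrime]
    (hint : ∀ a ∈ R, IsIntegral S a)
    (hfrac : ∀ z : F, ∃ b c : F, b ∈ S ∧ c ∈ S ∧ c ≠ 0 ∧ z = b / c)
    [IsIntegrallyClosed (Localization.AtPrime (y.comap (Subalgebra.inclusion hSR)))]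
    (h : y.comap (Subalgebra.inclusion hSR) = y'.comap (Subalgebra.inclusion hSR)) : y = y' := by
  have h1 := locRing_eq_of_isIntegrallyClosed hSR y hint hfrac
  have : IsIntegrallyClosed (Localization.AtPrime (y'.comap (Subalgebra.inclusion hSR))) :=
    IsIntegrallyClosed.of_equiv (RingEquiv.trans (locRingEquiv S (y.comap _))
      (RingEquiv.trans (Subalgebra.equivOfEq _ _ (by congr 1)).toRingEquiv
        (locRingEquiv S (y'.comap (Subalgebra.inclusion hSR))).symm))
  have h2 := locRing_eq_of_isIntegrallyClosed hSR y' hint hfrac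
  have h3 : locRing R y = locRing R y' := by rw [h1, h2]; congr 1
  ext a
  exact mem_iff_of_locRing_eq h3 a a rfl

/-- Factoriality passes from `S` to `R`. -/
theorem ufm_of_subalgebra (hSR : S ≤ R) (y : Ideal R) [y.IsPrime]
    (hint : ∀ a ∈ R, IsIntegral S a)
    (hfrac : ∀ z : F, ∃ b c : F, b ∈ S ∧ c ∈ S ∧ c ≠ 0 ∧ z = b / c)
    [UniqueFactorizationMonoid (Localization.AtPrime (y.comap (Subalgebra.inclusion hSR)))] :
    UniqueFactorizationMonoid (Localization.AtPrime y) :=
  ufm_congr (locRing_eq_of_isIntegrallyClosed hSR y hint hfrac).symm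

end Subring

section Charts

variable {W F : Type*} [CommRing W] [Field F] [Algebra W F] {R R' : Subalgebra W F}

/-- In a field generated integrally by one element over a field, everything is integral. -/
theorem isIntegral_of_forall_isIntegral_adjoin {k L : Type*} [Field k] [Field L] [Algebra k L]
    (s : L) (h : ∀ t : L, IsIntegral (Algebra.adjoin k {s}) t) (t : L) : IsIntegral k t := by
  have : Algebra.IsIntegral (Algebra.adjoin k {s}) L := ⟨h⟩
  have hfield : IsField (Algebra.adjoin k {s}) :=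
    isField_of_isIntegral_of_isField Subtype.val_injective (Field.toIsField L)
  have hs : IsIntegral k s := by
    by_contra hns
    have hinj : Function.Injective (Polynomial.aeval (R := k) s) :=
      transcendental_iff_injective.mp fun ha => hns ha.isIntegral
    have e : Polynomial k ≃ₐ[k] Algebra.adjoin k {s} :=
      (AlgEquiv.ofInjective _ hinj).trans
        (Subalgebra.equivOfEq _ _ (Algebra.adjoin_singleton_eq_range_aeval k s).symm)
    exact Polynomial.not_isField k (e.toMulEquiv.isField hfield)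
  have : Algebra.IsIntegral k (Algebra.adjoin k {s}) :=
    Algebra.IsIntegral.adjoin fun x hx => (Set.mem_singleton_iff.mp hx) ▸ hs
  exact isIntegral_trans (R := k) t (h t)

/-- A point of the chart `R'` where `x⁻¹` does not vanish is a point of the chart `R`. -/
theorem exists_chart_point (x : F) (hx : x ∈ R) (hx' : x⁻¹ ∈ R')
    (hglue₀ : ∀ a ∈ R, ∃ N : ℕ, a * x⁻¹ ^ N ∈ R') (hglue₁ : ∀ a ∈ R', ∃ N : ℕ, a * x ^ N ∈ R)
    (hint : ∀ a ∈ R', IsIntegral (Algebra.adjoin W {x⁻¹}) a)
    (y : Ideal R') [y.IsMaximal] (hxy : (⟨x⁻¹, hx'⟩ : R') ∉ y)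
    (hW : (y.comap (algebraMap W R')).IsMaximal) :
    ∃ y' : Ideal R, ∃ _ : y'.IsMaximal, locRing R y' = locRing R' y ∧
      ∀ w : W, algebraMap W R' w ∈ y → algebraMap W R w ∈ y' := by
  let : Field (R' ⧸ y) := Ideal.Quotient.field y
  have hx0 : x ≠ 0 := fun h => hxy (by
    rw [show (⟨x⁻¹, hx'⟩ : R') = 0 from Subtype.ext (by simp [h])]; exact y.zero_mem)
  have hxloc : x ∈ locRing R' y := by simpa using inv_mem_locRing hxy
  have hRloc : R ≤ locRing R' y := fun a ha => by
    obtain ⟨N, hN⟩ := hglue₀ a ha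
    have := mul_mem (le_locRing (y := y) hN) (pow_mem hxloc N)
    rwa [mul_assoc, ← mul_pow, inv_mul_cancel₀ hx0, one_pow, mul_one] at this
  have hlift : ∀ r : y.primeCompl, IsUnit (Ideal.Quotient.mk y (r : R')) := fun r =>
    isUnit_iff_ne_zero.mpr fun h => r.2 (Ideal.Quotient.eq_zero_iff_mem.mp h)
  let res : locRing R' y →+* R' ⧸ y :=
    (IsLocalization.lift (M := y.primeCompl) (S := Localization.AtPrime y) hlift).comp
      (locRingEquiv R' y).symm.toRingHom
  have hres : ∀ a : R', res (toLocRing R' y a) = Ideal.Quotient.mk y a := fun a => by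
    show IsLocalization.lift hlift ((locRingEquiv R' y).symm (toLocRing R' y a)) = _
    rw [← locRingEquiv_algebraMap, RingEquiv.symm_apply_apply, IsLocalization.lift_eq]
  let incl : R →+* locRing R' y := (Subalgebra.inclusion hRloc).toRingHom
  let Φ : R →+* R' ⧸ y := res.comp incl
  have hΦW : ∀ w : W, Φ (algebraMap W R w) = Ideal.Quotient.mk y (algebraMap W R' w) := fun w => by
    rw [← hres]; exact congrArg res (Subtype.ext rfl)
  -- the residue field is integral over the residue field of `W`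
  let P := y.comap (algebraMap W R')
  let : Field (W ⧸ P) := Ideal.Quotient.field P
  let : Algebra (W ⧸ P) (R' ⧸ y) :=
    (Ideal.quotientMap y (algebraMap W R') le_rfl).toAlgebra
  have halg : ∀ t : R' ⧸ y, IsIntegral (W ⧸ P) t := by
    refine isIntegral_of_forall_isIntegral_adjoin (Ideal.Quotient.mk y ⟨x⁻¹, hx'⟩) fun t => ?_
    obtain ⟨a, rfl⟩ := Ideal.Quotient.mk_surjective t
    obtain ⟨p, hp, hpa⟩ := hint a a.2
    have hle : Algebra.adjoin W {x⁻¹} ≤ R' :=
      Algebra.adjoin_le (Set.singleton_subset_iff.mpr hx')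
    let g : Algebra.adjoin W {x⁻¹} →+* R' ⧸ y :=
      (Ideal.Quotient.mk y).comp (Subalgebra.inclusion hle).toRingHom
    have hg : ∀ b, g b ∈ Algebra.adjoin (W ⧸ P) {Ideal.Quotient.mk y ⟨x⁻¹, hx'⟩} := by
      rintro ⟨b, hb⟩
      induction hb using Algebra.adjoin_induction with
      | mem b hb =>
        refine Algebra.subset_adjoin (Set.mem_singleton_iff.mpr ?_)
        show Ideal.Quotient.mk y _ = _
        congr 1; exact Subtype.ext (Set.mem_singleton_iff.mp hb)
      | algebraMap w => exact Subalgebra.algebraMap_mem _ (Ideal.Quotient.mk P w)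
      | add b c hb hc hb' hc' =>
        exact (map_add g ⟨b, hb⟩ ⟨c, hc⟩) ▸ add_mem hb' hc'
      | mul b c hb hc hb' hc' =>
        exact (map_mul g ⟨b, hb⟩ ⟨c, hc⟩) ▸ mul_mem hb' hc'
    refine ⟨p.map (g.codRestrict (Algebra.adjoin (W ⧸ P) _).toSubring hg), hp.map _, ?_⟩
    rw [Polynomial.eval₂_map]
    have h2 : p.eval₂ (Subalgebra.inclusion hle).toRingHom a = 0 := by
      apply Subtype.val_injective
      show R'.val.toRingHom _ = R'.val.toRingHom 0
      rw [Polynomial.hom_eval₂, map_zero]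
      exact hpa
    show p.eval₂ g _ = 0
    rw [← Polynomial.hom_eval₂, h2, map_zero]
  refine ⟨RingHom.ker Φ, ?_, ?_, fun w hw => ?_⟩
  · refine Ideal.isMaximal_iff.mpr ⟨fun h => one_ne_zero ((map_one Φ).symm.trans h),
      fun J b hJ hb hbJ => ?_⟩
    have hle : ∀ t ∈ Algebra.adjoin (W ⧸ P) {Φ b}, t ∈ Φ.range := by
      intro t ht
      induction ht using Algebra.adjoin_induction with
      | mem t ht => exact ⟨b, (Set.mem_singleton_iff.mp ht).symm⟩
      | algebraMap c =>
        obtain ⟨w, rfl⟩ := Ideal.Quotient.mk_surjective c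
        exact ⟨algebraMap W R w, hΦW w⟩
      | add _ _ _ _ h1 h2 => exact add_mem h1 h2
      | mul _ _ _ _ h1 h2 => exact mul_mem h1 h2
    have hinv : (Φ b)⁻¹ ∈ Algebra.adjoin (W ⧸ P) {Φ b} := (halg (Φ b)).inv_mem_adjoin
    obtain ⟨c, hc⟩ := hle _ hinv
    have h1 : (1 - b * c) ∈ RingHom.ker Φ := by
      rw [RingHom.mem_ker, map_sub, map_one, map_mul, hc,
        mul_inv_cancel₀ (show Φ b ≠ 0 from hb), sub_self]
    simpa using add_mem (hJ h1) (J.mul_mem_right c hbJ)
  · have hp : (RingHom.ker Φ).IsPrime := RingHom.ker_isPrime Φ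
    -- elements of `R` outside `ker Φ` are units in the local ring of `y`
    have hunit : ∀ r : R, r ∉ RingHom.ker Φ → (r : F)⁻¹ ∈ locRing R' y := by
      intro r hr
      obtain ⟨a, s, hs, ha⟩ := hRloc r.2
      have ha' : a ∉ y := fun h => hr (by
        have h2 : incl r * toLocRing R' y s = toLocRing R' y a := Subtype.ext ha
        have h3 := congrArg res h2
        rw [map_mul, hres, hres, Ideal.Quotient.eq_zero_iff_mem.mpr h] at h3
        exact (mul_eq_zero.mp h3).resolve_right
          fun h4 => hs (Ideal.Quotient.eq_zero_iff_mem.mp h4))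
      have : (r : F)⁻¹ = (s : F) * (a : F)⁻¹ := by
        rw [← ha, mul_inv, mul_left_comm, mul_inv_cancel₀ (coe_ne_zero_of_notMem hs), mul_one]
      rw [this]
      exact mul_mem (le_locRing s.2) (inv_mem_locRing ha')
    apply le_antisymm
    · rintro z ⟨a, r, hr, hz⟩
      rw [eq_div_of_mul_eq (coe_ne_zero_of_notMem hr) hz, div_eq_mul_inv]
      exact mul_mem (hRloc a.2) (hunit r hr)
    · rintro z ⟨a, r, hr, hz⟩
      obtain ⟨N, hN⟩ := hglue₁ a a.2
      obtain ⟨N', hN'⟩ := hglue₁ r r.2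
      have hr' : (r : F) * x ^ (N + N') ∈ R := by
        rw [add_comm, pow_add, ← mul_assoc]; exact mul_mem hN' (pow_mem hx N)
      refine ⟨⟨(a : F) * x ^ (N + N'), by
          rw [pow_add, ← mul_assoc]; exact mul_mem hN (pow_mem hx N')⟩, ⟨_, hr'⟩, fun h => ?_, ?_⟩
      · have h2 : incl ⟨_, hr'⟩ * toLocRing R' y (⟨x⁻¹, hx'⟩ ^ (N + N')) = toLocRing R' y r := by
          apply Subtype.ext
          show (r : F) * x ^ (N + N') * x⁻¹ ^ (N + N') = (r : F)
          rw [mul_assoc, ← mul_pow, mul_inv_cancel₀ hx0, one_pow, mul_one]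
        have h3 := congrArg res h2
        rw [map_mul, show res (incl ⟨_, hr'⟩) = 0 from h, zero_mul, hres] at h3
        exact hr (Ideal.Quotient.eq_zero_iff_mem.mp h3.symm)
      · show z * ((r : F) * x ^ (N + N')) = _
        rw [← mul_assoc, hz]
  · rw [RingHom.mem_ker, hΦW, Ideal.Quotient.eq_zero_iff_mem.mpr hw]

end Charts

end Fermat.Agent.Carayol
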