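/-
The points of the special fibre of one chart: factoriality, branch rings and the dichotomy, from
separators, local uniformisers and DVRs inside the localised images, and from the supersingular
input; transfer to the points of the other chart where the coordinate is invertible.
-/
import Fermat.Agent.Carayol.Model
import Fermat.Agent.Carayol.LocalLemmas

set_option autoImplicit false

noncomputable section

namespace Fermat.Agent.Carayol

variable {W F C : Type} [CommRing W] [IsDomain W] [IsDiscreteValuationRing W] [Field F]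
  [Algebra W F] [Field C] {ι : Type} (Br : Branches F ι (fun _ => C))

/-- The point `y` lies on the branch `i`. -/
def LiesOnBranch (R : Subalgebra W F) (y : Ideal R) (i : ι) : Prop :=
  ∀ (a : R) (h : (a : F) ∈ Br.V i), Br.res i ⟨a, h⟩ = 0 → a ∈ y

/-- `O` is the image of the local ring at `y` on the branch `i`. -/
def IsBranchRing (R : Subalgebra W F) (y : Ideal R) (i : ι) (O : ValuationSubring C) : Prop :=
  (∀ a r : R, r ∉ y → ∀ (ha : (a : F) ∈ Br.V i) (hr : (r : F) ∈ Br.V i),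
      Br.res i ⟨a, ha⟩ / Br.res i ⟨r, hr⟩ ∈ O) ∧
    ∀ z ∈ O, ∃ a r : R, r ∉ y ∧ ∀ (ha : (a : F) ∈ Br.V i) (hr : (r : F) ∈ Br.V i),
      z * Br.res i ⟨r, hr⟩ = Br.res i ⟨a, ha⟩

/-- The values of a function on the branches through a supersingular point agree. -/
def ValueCongr (R : Subalgebra W F) (y : Ideal R) : Prop :=
  ∀ i j (a r : R), r ∉ y → ∀ (ha : (a : F) ∈ Br.V i) (hr : (r : F) ∈ Br.V i),
    ∃ a' r' : R, r' ∉ y ∧ a * r' - a' * r ∈ y ∧
      ∀ (ha' : (a' : F) ∈ Br.V j) (hr' : (r' : F) ∈ Br.V j),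
        Br.res i ⟨a, ha⟩ * Br.res j ⟨r', hr'⟩ = Br.res j ⟨a', ha'⟩ * Br.res i ⟨r, hr⟩

/-- All that is claimed about one point of the special fibre. -/
structure PointProps (R : Subalgebra W F) (y : Ideal R) [y.IsPrime] : Prop where
  ufm : UniqueFactorizationMonoid (Localization.AtPrime y)
  branchRing : ∀ i, LiesOnBranch Br R y i → ∃ O, IsBranchRing Br R y i O
  dichotomy : (∃ i, ∀ j, j ≠ i → ∃ (a : R) (h : (a : F) ∈ Br.V j),
      Br.res j ⟨a, h⟩ = 0 ∧ a ∉ y) ∨
    ((∀ i, LiesOnBranch Br R y i) ∧ ValueCongr Br R y)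

variable {Br}

/-- The field `branchValue` of `Model` at this point. -/
theorem PointProps.branchValue {R : Subalgebra W F} {y : Ideal R} [y.IsPrime]
    (h : PointProps Br R y) (i : ι)
    (hi : ∀ (a : R) (h : (a : F) ∈ Br.V i), Br.res i ⟨a, h⟩ = 0 → a ∈ y) :
    ∃ O : ValuationSubring C,
      (∀ (a : R) (h : (a : F) ∈ Br.V i), Br.res i ⟨a, h⟩ ∈ O) ∧
      ∀ z ∈ O, ∃ a r : R, r ∉ y ∧ ∀ (ha : (a : F) ∈ Br.V i) (hr : (r : F) ∈ Br.V i),
        z * Br.res i ⟨r, hr⟩ = Br.res i ⟨a, ha⟩ := by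
  obtain ⟨O, h1, h2⟩ := h.branchRing i hi
  refine ⟨O, fun a ha => ?_, h2⟩
  have h3 := h1 a 1 (fun h => (inferInstance : y.IsPrime).ne_top ((Ideal.eq_top_iff_one _).mpr h))
    ha (one_mem _)
  rwa [show Br.res i ⟨((1 : R) : F), one_mem _⟩ = 1 from map_one (Br.res i), div_one] at h3

variable {π : W} {R : Subalgebra W F}

/-- A point where the separator of `i` does not vanish lies on the branch `i`. -/
theorem liesOnBranch_of_sep (hR : IsChart Br π R) {y : Ideal R} [y.IsPrime]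
    (hπy : (⟨algebraMap W F π, R.algebraMap_mem π⟩ : R) ∈ y) {i : ι} {e : R}
    (he : ∀ j, j ≠ i → chartRes Br hR j e = 0) (hey : e ∉ y) : LiesOnBranch Br R y i := by
  intro a h ha
  obtain ⟨N, b, hb, hN⟩ := hR.radical _ (a * e).2 (fun j hj => by
    show chartRes Br hR j (a * e) = 0
    rw [map_mul]
    by_cases hji : j = i
    · subst hji
      rw [show chartRes Br hR j a = 0 from ha, zero_mul]
    · rw [he j hji, mul_zero])
  have h1 : (a * e) ^ N ∈ y := by
    have : (a * e) ^ N = (⟨algebraMap W F π, R.algebraMap_mem π⟩ : R) * ⟨b, hb⟩ := Subtype.ext hN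
    rw [this]
    exact y.mul_mem_right _ hπy
  exact ((inferInstance : y.IsPrime).mem_or_mem
    ((inferInstance : y.IsPrime).mem_of_pow_mem N h1)).resolve_right hey

/-- A DVR inside the localised image is the branch ring. -/
theorem exists_isBranchRing (hR : IsChart Br π R) {y : Ideal R} [y.IsPrime] {i : ι}
    (hi : LiesOnBranch Br R y i)
    (hO : ∃ O : ValuationSubring C, IsDiscreteValuationRing O ∧
      (∀ z ∈ O, ∃ a r : R, r ∉ y ∧ z * chartRes Br hR i r = chartRes Br hR i a) ∧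
      ∃ a ∈ y, chartRes Br hR i a ≠ 0) :
    ∃ O, IsBranchRing Br R y i O := by
  obtain ⟨O, hdvr, hsub, hne⟩ := hO
  refine ⟨O, fun a r hr ha hr' => branch_div_mem (chartRes Br hR i) O
    (fun b hb => hi b _ hb) hsub hne hr, fun z hz => ?_⟩
  obtain ⟨a, r, hr, h⟩ := hsub z hz
  exact ⟨a, r, hr, fun _ _ => h⟩

/-- The kernel of a branch is generated by `p` at a point where `u` does not vanish. -/
theorem exists_mul_eq_of_chart_key (hR : IsChart Br π R) (hπ : algebraMap W F π ≠ 0)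
    {y : Ideal R} {i : ι} {p e u : R} {N E : ℕ} (hE : E ≠ 0) (hu : u ∉ y)
    (hkey : ∀ a : R, chartRes Br hR i a = 0 →
      ∃ b : R, (a : F) * (e : F) ^ N * (p : F) ^ (E - 1) = algebraMap W F π * b)
    (hpu : (e : F) ^ N * (p : F) ^ E = algebraMap W F π * u) :
    ∀ a : R, chartRes Br hR i a = 0 → ∃ b r : R, r ∉ y ∧ r * a = p * b := by
  intro a ha
  have hq : (⟨algebraMap W F π, R.algebraMap_mem π⟩ : R) ≠ 0 := fun h =>
    hπ (congrArg Subtype.val h)
  exact exists_mul_eq_of_key (K := RingHom.ker (chartRes Br hR i)) hq hE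
    (fun c hc => by
      obtain ⟨b, hb⟩ := hkey c hc
      exact ⟨b, Subtype.ext (by push_cast; exact hb)⟩)
    hu (Subtype.ext (by push_cast; exact hpu)) a (RingHom.mem_ker.mpr ha)

/-- An ordinary point: the separator of `i` does not vanish. -/
theorem pointProps_of_ordinary (hR : IsChart Br π R) {y : Ideal R} [y.IsMaximal]
    (hπy : (⟨algebraMap W F π, R.algebraMap_mem π⟩ : R) ∈ y) {i : ι} {e : R}
    (he : ∀ j, j ≠ i → chartRes Br hR j e = 0) (hey : e ∉ y)
    (hp : ∃ p : R, p ≠ 0 ∧ chartRes Br hR i p = 0 ∧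
      ∀ a : R, chartRes Br hR i a = 0 → ∃ b r : R, r ∉ y ∧ r * a = p * b)
    (hO : ∃ O : ValuationSubring C, IsDiscreteValuationRing O ∧
      (∀ z ∈ O, ∃ a r : R, r ∉ y ∧ z * chartRes Br hR i r = chartRes Br hR i a) ∧
      ∃ a ∈ y, chartRes Br hR i a ≠ 0) :
    PointProps Br R y := by
  have hi := liesOnBranch_of_sep hR hπy he hey
  refine ⟨?_, fun j hj => ?_, Or.inl ⟨i, fun j hj => ⟨e, hR.mem_V e e.2 j, he j hj, hey⟩⟩⟩
  · obtain ⟨p, hp0, hp, hgen⟩ := hp
    obtain ⟨O, hdvr, hsub, hne⟩ := hO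
    have := hR.noetherian
    exact ufm_of_branch (chartRes Br hR i) y O (fun a ha => hi a _ ha) hsub hne hp hp0
      fun a ha => hgen a (RingHom.mem_ker.mp ha)
  · by_cases hji : j = i
    · subst hji
      exact exists_isBranchRing hR hj hO
    · exact absurd (hj e (hR.mem_V e e.2 j) (he j hji)) hey

/-- A supersingular point. -/
theorem pointProps_of_supersingular (hR : IsChart Br π R) {y : Ideal R} [y.IsPrime]
    (hufm : UniqueFactorizationMonoid (Localization.AtPrime y))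
    (hon : ∀ i, LiesOnBranch Br R y i)
    (hO : ∀ i, ∃ O : ValuationSubring C, IsDiscreteValuationRing O ∧
      (∀ z ∈ O, ∃ a r : R, r ∉ y ∧ z * chartRes Br hR i r = chartRes Br hR i a) ∧
      ∃ a ∈ y, chartRes Br hR i a ≠ 0)
    (hcongr : ValueCongr Br R y) : PointProps Br R y :=
  ⟨hufm, fun i hi => exists_isBranchRing hR hi (hO i), Or.inr ⟨hon, hcongr⟩⟩

/-- **All points of a chart**: separators, uniformisers and DVRs at the points where a separator
does not vanish, and the supersingular input where all vanish. -/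
theorem pointProps_of_chart (hR : IsChart Br π R) (e : ι → R)
    (he : ∀ i j, j ≠ i → chartRes Br hR j (e i) = 0)
    (hp : ∀ (y : Ideal R), y.IsMaximal →
      (⟨algebraMap W F π, R.algebraMap_mem π⟩ : R) ∈ y → ∀ i, e i ∉ y →
      ∃ p : R, p ≠ 0 ∧ chartRes Br hR i p = 0 ∧
        ∀ a : R, chartRes Br hR i a = 0 → ∃ b r : R, r ∉ y ∧ r * a = p * b)
    (hO : ∀ (y : Ideal R), y.IsMaximal →
      (⟨algebraMap W F π, R.algebraMap_mem π⟩ : R) ∈ y → ∀ i, e i ∉ y →
      ∃ O : ValuationSubring C, IsDiscreteValuationRing O ∧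
        (∀ z ∈ O, ∃ a r : R, r ∉ y ∧ z * chartRes Br hR i r = chartRes Br hR i a) ∧
        ∃ a ∈ y, chartRes Br hR i a ≠ 0)
    (hss : ∀ (y : Ideal R) [y.IsMaximal],
      (⟨algebraMap W F π, R.algebraMap_mem π⟩ : R) ∈ y → (∀ i, e i ∈ y) → PointProps Br R y)
    (y : Ideal R) [y.IsMaximal]
    (hπy : (⟨algebraMap W F π, R.algebraMap_mem π⟩ : R) ∈ y) : PointProps Br R y := by
  by_cases h : ∀ i, e i ∈ y
  · exact hss y hπy h
  · push Not at h
    obtain ⟨i, hi⟩ := h
    exact pointProps_of_ordinary hR hπy (he i) hi (hp y inferInstance hπy i hi)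
      (hO y inferInstance hπy i hi)

/-! ### Transfer along an equality of local rings -/

section Transfer

variable {R' : Subalgebra W F} {y : Ideal R} [y.IsPrime] {y' : Ideal R'} [y'.IsPrime]

omit [IsDomain W] [IsDiscreteValuationRing W] in
theorem exists_cross_of_locRing_eq (h : locRing R y = locRing R' y') (a r : R) (hr : r ∉ y) :
    ∃ a' r' : R', r' ∉ y' ∧ (a : F) * r' = a' * r := by
  have h1 : (a : F) * (r : F)⁻¹ ∈ locRing R' y' :=
    h ▸ mul_mem (le_locRing (y := y) a.2) (inv_mem_locRing hr)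
  obtain ⟨a', r', hr', h2⟩ := h1
  refine ⟨a', r', hr', ?_⟩
  rw [← h2]
  field_simp [coe_ne_zero_of_notMem hr]

omit [IsDomain W] [IsDiscreteValuationRing W] in
theorem mem_iff_of_mul_eq (h : locRing R y = locRing R' y') {a : R} {a' r' : R'} (hr' : r' ∉ y')
    (he : (a : F) * r' = a') : a ∈ y ↔ a' ∈ y' := by
  constructor
  · intro ha
    by_contra ha'
    have h0 : (a : F) ≠ 0 := fun h0 => coe_ne_zero_of_notMem ha' (by rw [← he, h0, zero_mul])
    have h1 : (a : F)⁻¹ ∈ locRing R y := by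
      rw [h, show (a : F)⁻¹ = (r' : F) * (a' : F)⁻¹ by
        rw [← he, mul_inv, mul_left_comm, mul_inv_cancel₀ (coe_ne_zero_of_notMem hr'), mul_one]]
      exact mul_mem (le_locRing r'.2) (inv_mem_locRing ha')
    obtain ⟨c, r, hr, hc⟩ := h1
    apply hr
    rw [show r = a * c from Subtype.ext (by
      rw [MulMemClass.coe_mul, ← hc, ← mul_assoc, mul_inv_cancel₀ h0, one_mul])]
    exact y.mul_mem_right _ ha
  · intro ha'
    by_contra ha
    obtain ⟨c, s, hs, hc⟩ := (h ▸ inv_mem_locRing ha : ((a : F))⁻¹ ∈ locRing R' y')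
    have h1 : r' * s ∈ y' := by
      rw [show r' * s = a' * c from Subtype.ext (by
        rw [MulMemClass.coe_mul, MulMemClass.coe_mul, ← he, ← hc]
        field_simp [coe_ne_zero_of_notMem ha])]
      exact y'.mul_mem_right _ ha'
    exact ((inferInstance : y'.IsPrime).mem_or_mem h1).elim hr' hs

omit [IsDomain W] [IsDiscreteValuationRing W] in
theorem res_mul_eq {i : ι} {a b c d : F} (ha : a ∈ Br.V i) (hb : b ∈ Br.V i) (hc : c ∈ Br.V i)
    (hd : d ∈ Br.V i) (he : a * b = c * d) :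
    Br.res i ⟨a, ha⟩ * Br.res i ⟨b, hb⟩ = Br.res i ⟨c, hc⟩ * Br.res i ⟨d, hd⟩ := by
  rw [← map_mul, ← map_mul]
  exact congrArg (Br.res i) (Subtype.ext he)

theorem one_notMem_of_isPrime {y : Ideal R} [y.IsPrime] : (1 : R) ∉ y := fun h =>
  (inferInstance : y.IsPrime).ne_top ((Ideal.eq_top_iff_one _).mpr h)

theorem liesOnBranch_congr (hR : IsChart Br π R) (h : locRing R y = locRing R' y')
    (hR' : IsChart Br π R') {i : ι} (hi : LiesOnBranch Br R y i) : LiesOnBranch Br R' y' i := by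
  intro a' ha' hres
  obtain ⟨a, r, hr, he⟩ := exists_cross_of_locRing_eq h.symm a' 1 one_notMem_of_isPrime
  rw [OneMemClass.coe_one, mul_one] at he
  have h0 : Br.res i ⟨a, hR.mem_V a a.2 i⟩ = 0 := by
    have h1 := res_mul_eq (Br := Br) ha' (hR.mem_V r r.2 i) (hR.mem_V a a.2 i) (one_mem _)
      (by rw [mul_one]; exact he)
    rw [hres, zero_mul, show Br.res i ⟨(1 : F), one_mem _⟩ = 1 from map_one (Br.res i),
      mul_one] at h1
    exact h1.symm
  exact (mem_iff_of_mul_eq h.symm hr he).mpr (hi a _ h0)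

theorem res_ne_zero_of_notMem {i : ι} (hi : LiesOnBranch Br R y i) {r : R} (hr : r ∉ y)
    (h : (r : F) ∈ Br.V i) : Br.res i ⟨r, h⟩ ≠ 0 := fun h0 => hr (hi r h h0)

/-- The properties of a point depend only on its local ring. -/
theorem PointProps.congr (hR : IsChart Br π R) (hR' : IsChart Br π R')
    (h : locRing R y = locRing R' y') (hy : PointProps Br R y) : PointProps Br R' y' := by
  have := hy.ufm
  refine ⟨ufm_congr h, fun i hi => ?_, ?_⟩
  · have hi0 : LiesOnBranch Br R y i := liesOnBranch_congr hR' h.symm hR hi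
    obtain ⟨O, h1, h2⟩ := hy.branchRing i hi0
    refine ⟨O, fun a' r' hr' ha hr => ?_, fun z hz => ?_⟩
    · obtain ⟨a, r, hr0, he⟩ := exists_cross_of_locRing_eq h.symm a' r' hr'
      have h3 := res_mul_eq (Br := Br) ha (hR.mem_V r r.2 i) (hR.mem_V a a.2 i) hr he
      rw [(div_eq_div_iff (res_ne_zero_of_notMem hi hr' hr)
        (res_ne_zero_of_notMem hi0 hr0 (hR.mem_V r r.2 i))).mpr h3]
      exact h1 a r hr0 _ _
    · obtain ⟨a, r, hr, hz⟩ := h2 z hz
      obtain ⟨a', r', hr', he⟩ := exists_cross_of_locRing_eq h a r hr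
      refine ⟨a', r', hr', fun ha' hr'' => ?_⟩
      have hne : Br.res i ⟨r, hR.mem_V r r.2 i⟩ ≠ 0 := res_ne_zero_of_notMem hi0 hr _
      refine mul_right_cancel₀ hne ?_
      rw [mul_right_comm, hz (hR.mem_V a a.2 i) (hR.mem_V r r.2 i)]
      exact res_mul_eq _ _ _ _ he
  · rcases hy.dichotomy with ⟨i, hi⟩ | ⟨hon, hcongr⟩
    · refine Or.inl ⟨i, fun j hj => ?_⟩
      obtain ⟨a, ha, hres, hay⟩ := hi j hj
      obtain ⟨a', r', hr', he⟩ := exists_cross_of_locRing_eq h a 1 one_notMem_of_isPrime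
      rw [OneMemClass.coe_one, mul_one] at he
      refine ⟨a', hR'.mem_V a' a'.2 j, ?_, fun h' => hay ((mem_iff_of_mul_eq h hr' he).mpr h')⟩
      have h1 := res_mul_eq (Br := Br) ha (hR'.mem_V r' r'.2 j) (hR'.mem_V a' a'.2 j) (one_mem _)
        (by rw [mul_one]; exact he)
      rw [hres, zero_mul, show Br.res j ⟨(1 : F), one_mem _⟩ = 1 from map_one (Br.res j),
        mul_one] at h1
      exact h1.symm
    · have hon' : ∀ i, LiesOnBranch Br R' y' i := fun i => liesOnBranch_congr hR h hR' (hon i)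
      refine Or.inr ⟨hon', fun i j a r hr ha hr'' => ?_⟩
      obtain ⟨a₀, r₀, hr₀, he⟩ := exists_cross_of_locRing_eq h.symm a r hr
      obtain ⟨b₀, s₀, hs₀, hd, hres⟩ := hcongr i j a₀ r₀ hr₀ (hR.mem_V a₀ a₀.2 i)
        (hR.mem_V r₀ r₀.2 i)
      obtain ⟨b, s, hs, he'⟩ := exists_cross_of_locRing_eq h b₀ s₀ hs₀
      refine ⟨b, s, hs, ?_, fun hb hs' => ?_⟩
      · have hu : r₀ * s₀ ∉ y := fun h' =>
          ((inferInstance : y.IsPrime).mem_or_mem h').elim hr₀ hs₀
        obtain ⟨u, t, ht, heu⟩ := exists_cross_of_locRing_eq h (r₀ * s₀) 1 one_notMem_of_isPrime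
        obtain ⟨v, t', ht', hev⟩ :=
          exists_cross_of_locRing_eq h (a₀ * s₀ - b₀ * r₀) 1 one_notMem_of_isPrime
        rw [OneMemClass.coe_one, mul_one] at heu hev
        have hu' : u ∉ y' := fun h' => hu ((mem_iff_of_mul_eq h ht heu).mpr h')
        have hv' : v ∈ y' := (mem_iff_of_mul_eq h ht' hev).mp hd
        have key : (a * s - b * r) * (u * t') = r * s * (v * t) := by
          apply Subtype.ext
          push_cast at heu hev ⊢
          rw [← heu, ← hev]
          linear_combination ((s : F) * s₀ * t * t') * he + ((r : F) * r₀ * t * t') * he'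
        have h1 : (a * s - b * r) * (u * t') ∈ y' := by
          rw [key]
          exact y'.mul_mem_left _ (y'.mul_mem_right _ hv')
        exact ((inferInstance : y'.IsPrime).mem_or_mem h1).resolve_right fun h2 =>
          ((inferInstance : y'.IsPrime).mem_or_mem h2).elim hu' ht'
      · have h1 := res_mul_eq (Br := Br) ha (hR.mem_V r₀ r₀.2 i) (hR.mem_V a₀ a₀.2 i) hr'' he
        have h2 := res_mul_eq (Br := Br) (hR.mem_V b₀ b₀.2 j) hs' hb (hR.mem_V s₀ s₀.2 j) he'
        have h3 := hres (hR.mem_V b₀ b₀.2 j) (hR.mem_V s₀ s₀.2 j)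
        have hne : Br.res i ⟨r₀, hR.mem_V r₀ r₀.2 i⟩ * Br.res j ⟨s₀, hR.mem_V s₀ s₀.2 j⟩ ≠ 0 :=
          mul_ne_zero (res_ne_zero_of_notMem (hon i) hr₀ _)
            (res_ne_zero_of_notMem (hon j) hs₀ _)
        refine mul_right_cancel₀ hne ?_
        linear_combination (Br.res j ⟨s, hs'⟩ * Br.res j ⟨s₀, hR.mem_V s₀ s₀.2 j⟩) * h1
          + (Br.res j ⟨s, hs'⟩ * Br.res i ⟨r, hr''⟩) * h3
          + (Br.res i ⟨r, hr''⟩ * Br.res i ⟨r₀, hR.mem_V r₀ r₀.2 i⟩) * h2

end Transfer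

/-- The points of the chart `R'` where `x⁻¹` does not vanish inherit their properties from `R`. -/
theorem pointProps_of_other_chart {R' : Subalgebra W F} (hπ : Irreducible π)
    (hR : IsChart Br π R) (hR' : IsChart Br π R') (x : F) (hx : x ∈ R) (hx' : x⁻¹ ∈ R')
    (hglue₀ : ∀ a ∈ R, ∃ N : ℕ, a * x⁻¹ ^ N ∈ R') (hglue₁ : ∀ a ∈ R', ∃ N : ℕ, a * x ^ N ∈ R)
    (hint : ∀ a ∈ R', IsIntegral (Algebra.adjoin W {x⁻¹}) a)
    (hprops : ∀ (y : Ideal R) [y.IsMaximal],
      (⟨algebraMap W F π, R.algebraMap_mem π⟩ : R) ∈ y → PointProps Br R y)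
    (y : Ideal R') [y.IsMaximal]
    (hπy : (⟨algebraMap W F π, R'.algebraMap_mem π⟩ : R') ∈ y)
    (hxy : (⟨x⁻¹, hx'⟩ : R') ∉ y) : PointProps Br R' y := by
  have hW : (y.comap (algebraMap W R')).IsMaximal := by
    have hp : (y.comap (algebraMap W R')).IsPrime := Ideal.IsPrime.comap _
    refine hp.isMaximal fun h0 => hπ.ne_zero ?_
    rw [← Ideal.mem_bot, ← h0]
    exact hπy
  obtain ⟨y₀, hy₀, hloc, hπ₀⟩ := exists_chart_point x hx hx' hglue₀ hglue₁ hint y hxy hW
  exact (hprops y₀ (hπ₀ π hπy)).congr hR hR' hloc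

end Fermat.Agent.Carayol
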