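/-
Assembly of the `Model` of `X₀(q² L)` at a place over `q` from the constants, the branches, the
separators and the properties of the points.
-/
import Fermat.Agent.Carayol.Setting
import Fermat.Agent.Carayol.Points
import Fermat.Agent.Carayol.Model

set_option autoImplicit false

noncomputable section

open ModularCurve IsLocalRing
open Fermat.Agent.HK.Corr

namespace Fermat.Agent.Carayol

/-- A norm preserving one chart keeps the other chart near a common point of one branch where it is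
the `q`-th power. -/
theorem exists_mul_map_mem {W F C : Type} [CommRing W] [IsDomain W] [IsDiscreteValuationRing W]
    [Field F] [Algebra W F] [Field C] {ι : Type} {Br : Branches F ι (fun _ => C)} {π : W}
    {R R' : Subalgebra W F} (hR : IsChart Br π R) {y : Ideal R} [y.IsPrime] {y' : Ideal R'}
    [y'.IsPrime] (h : locRing R y = locRing R' y') {o : ι} (ho : LiesOnBranch Br R y o)
    (N : F →* F) (hN : ∀ a ∈ R, N a ∈ R) (n : ℕ)
    (hres : ∀ a (ha : a ∈ Br.V o) (hNa : N a ∈ Br.V o),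
      Br.res o ⟨N a, hNa⟩ = Br.res o ⟨a, ha⟩ ^ n)
    {a : F} (ha : a ∈ R') : ∃ r : R', r ∉ y' ∧ (r : F) * N a ∈ R' := by
  obtain ⟨a₀, r₀, hr₀, he⟩ :=
    exists_cross_of_locRing_eq h.symm (⟨a, ha⟩ : R') 1 one_notMem_of_isPrime
  rw [OneMemClass.coe_one, mul_one] at he
  set Nr : R := ⟨N r₀, hN _ r₀.2⟩
  have hNr : Nr ∉ y := fun hmem => by
    have h0 : chartRes Br hR o (Nr - r₀ ^ n) = 0 := by
      rw [map_sub, map_pow, sub_eq_zero]
      exact hres _ (hR.mem_V _ r₀.2 o) _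
    have h1 : r₀ ^ n ∈ y := by simpa using sub_mem hmem (ho _ _ h0)
    exact hr₀ ((inferInstance : y.IsPrime).mem_of_pow_mem n h1)
  obtain ⟨c, r, hr, hc⟩ := exists_cross_of_locRing_eq h (⟨N a₀, hN _ a₀.2⟩ : R) Nr hNr
  refine ⟨r, hr, ?_⟩
  have h2 : (r : F) * N a = (c : F) := by
    refine mul_right_cancel₀ (b := (Nr : F)) (coe_ne_zero_of_notMem hNr) ?_
    rw [← hc]
    show (r : F) * N a * N r₀ = N a₀ * (r : F)
    rw [mul_assoc, ← map_mul, show a * (r₀ : F) = a₀ from he, mul_comm]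
  rw [h2]
  exact c.2

section Assembly

local notation "Qb" => AlgebraicClosure ℚ

variable {A₀ : ValuationSubring Qb} {K K' k : Type} [Field K] [Algebra ℚ K] [Algebra K Qb]
  [Field K'] [Algebra ℚ K'] [Field k] {q L₀ : ℕ} [NeZero q] [NeZero L₀]
  {π₀ : A₀ →+* k} {κ : K →+* K'} {ι : K' →+* Qb} {η : K'ˣ} {hq : q.Prime} {hqL : ¬ q ∣ L₀}
  {e0 e02 : modField K (L₀ * q ^ 2) →+* LaurentSeries K'}
  {ez : Fin (q - 1) → modField K (L₀ * q ^ 2) →+* LaurentSeries K'} {k₀ : Fin (q - 1)}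
  {Br : Branches (modField K (L₀ * q ^ 2)) (Fin 3) (fun _ => modularFunctionFieldFullC k L₀)}
  {ord : Fin 3 → modField K (L₀ * q ^ 2) → ℤ}

/-- The two charts. -/
def chartOf (A₀ : ValuationSubring Qb) (K : Type) [Field K] [Algebra ℚ K] [Algebra K Qb]
    (L₀ q : ℕ) [NeZero L₀] [NeZero q] :
    Fin 2 → Subalgebra (constA A₀ K) (modField K (L₀ * q ^ 2))
  | 0 => chartRing (constA A₀ K) (jTop K L₀ q)
  | 1 => chartRing (constA A₀ K) (jTop K L₀ q)⁻¹

theorem Consts.natCast_ne_zero (hC : Consts A₀ q π₀ κ ι η) :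
    algebraMap (constA A₀ K) (modField K (L₀ * q ^ 2)) (q : constA A₀ K) ≠ 0 := by
  haveI : CharZero K := charZero_of_injective_algebraMap (algebraMap ℚ K).injective
  rw [map_natCast, ← map_natCast (algebraMap K (modField K (L₀ * q ^ 2)))]
  exact (map_ne_zero _).mpr (Nat.cast_ne_zero.mpr hC.hq.ne_zero)

theorem BranchData.isChart (hC : Consts A₀ q π₀ κ ι η)
    (B : BranchData A₀ hq hqL π₀ κ ι η e0 e02 ez k₀ Br ord) (c : Fin 2) :
    IsChart Br (q : constA A₀ K) (chartOf A₀ K L₀ q c) :=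
  match c with
  | 0 => (B.chartData.chart false hC.irreducible_q).1
  | 1 => (B.chartData.chart true hC.irreducible_q).1

/-- `q` at a point of a chart. -/
abbrev qAt (A₀ : ValuationSubring Qb) {K : Type} [Field K] [Algebra ℚ K] [Algebra K Qb]
    {L₀ q : ℕ} [NeZero L₀] [NeZero q] (c : Fin 2) : chartOf A₀ K L₀ q c :=
  ⟨algebraMap (constA A₀ K) (modField K (L₀ * q ^ 2)) (q : constA A₀ K),
    (chartOf A₀ K L₀ q c).algebraMap_mem _⟩

/-- Near a point on all branches the second norm keeps the charts. -/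
theorem BranchData.normBeta_mem [IsDiscreteValuationRing (constA A₀ K)]
    (hC : Consts A₀ q π₀ κ ι η) (B : BranchData A₀ hq hqL π₀ κ ι η e0 e02 ez k₀ Br ord)
    (hfin : ∀ (y : Ideal (chartOf A₀ K L₀ q 1)) [y.IsMaximal], qAt A₀ 1 ∈ y →
      (∀ i, LiesOnBranch Br _ y i) →
      (⟨(jTop K L₀ q)⁻¹, self_mem_chartRing _⟩ : chartOf A₀ K L₀ q 1) ∉ y)
    (c : Fin 2) (y : Ideal (chartOf A₀ K L₀ q c)) [y.IsMaximal] (hy : qAt A₀ c ∈ y)
    (hon : ∀ i, LiesOnBranch Br _ y i) {a : modField K (L₀ * q ^ 2)}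
    (ha : a ∈ chartOf A₀ K L₀ q c) :
    ∃ r : chartOf A₀ K L₀ q c, r ∉ y ∧
      (r : modField K (L₀ * q ^ 2)) * normBeta K L₀ q a ∈ chartOf A₀ K L₀ q c := by
  have hN : ∀ b ∈ chartOf A₀ K L₀ q 0, normBeta K L₀ q b ∈ chartOf A₀ K L₀ q 0 := fun b hb => by
    haveI := isScalarTower_valuationSubring (E := modField K (L₀ * q ^ 2)) (constA A₀ K)
    haveI := isScalarTower_valuationSubring (E := modField K (L₀ * q)) (constA A₀ K)
    have hj : jField (L₀ * q ^ 2) = jTop K L₀ q := Subtype.ext (MF.Coeff.coeffEmb_jq_eq K)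
    have h := normBeta_mem_chartRing (W := constA A₀ K) (K := K) (L₀ := L₀) (q := q)
      (((IsAlgClosed.lift : Qb →ₐ[ℚ] ℂ) : Qb →+* ℂ).comp (algebraMap K Qb)) hq (a := b)
    rw [hj] at h
    exact h hb
  rcases Fin.exists_fin_two.mp ⟨c, rfl⟩ with rfl | rfl
  · exact ⟨1, one_notMem_of_isPrime, by simpa using hN a ha⟩
  · obtain ⟨-, -, -, hg₀, hg₁, -⟩ := B.chartData.chart_facts
    have hW : (y.comap (algebraMap (constA A₀ K) (chartOf A₀ K L₀ q 1))).IsMaximal := by
      have hp : (y.comap (algebraMap (constA A₀ K) (chartOf A₀ K L₀ q 1))).IsPrime :=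
        Ideal.IsPrime.comap _
      refine hp.isMaximal fun h0 => hC.irreducible_q.ne_zero ?_
      rw [← Ideal.mem_bot, ← h0]
      exact hy
    obtain ⟨y₀, hy₀, hloc, -⟩ := exists_chart_point (R := chartOf A₀ K L₀ q 0)
      (R' := chartOf A₀ K L₀ q 1) (jTop K L₀ q) (self_mem_chartRing _) (self_mem_chartRing _)
      hg₀ hg₁ (fun b hb => hb) y (hfin y hy hon) hW
    exact exists_mul_map_mem (B.isChart hC 0) hloc (o := 0)
      (liesOnBranch_congr (B.isChart hC 1) hloc.symm (B.isChart hC 0) (hon 0)) _ hN q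
      B.res_normβ₀ ha

/-- The first norm keeps both charts. -/
theorem normAlpha_mem_chartOf (c : Fin 2) {a : modField K (L₀ * q ^ 2)}
    (ha : a ∈ chartOf A₀ K L₀ q c) : normAlpha K L₀ q a ∈ chartOf A₀ K L₀ q c := by
  haveI := isScalarTower_valuationSubring (E := modField K (L₀ * q ^ 2)) (constA A₀ K)
  haveI := isScalarTower_valuationSubring (E := modField K (L₀ * q)) (constA A₀ K)
  have hj : jField (L₀ * q ^ 2) = jTop K L₀ q := Subtype.ext (MF.Coeff.coeffEmb_jq_eq K)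
  have h := normAlpha_mem_chartRing (W := constA A₀ K) (K := K) (L₀ := L₀) (q := q) (a := a)
  rw [hj] at h
  rcases Fin.exists_fin_two.mp ⟨c, rfl⟩ with rfl | rfl
  · exact h.1 ha
  · exact h.2 ha

variable [IsDiscreteValuationRing (constA A₀ K)]

/-- The model. -/
def modelOf (hC : Consts A₀ q π₀ κ ι η) (B : BranchData A₀ hq hqL π₀ κ ι η e0 e02 ez k₀ Br ord)
    (hunif : ∀ i, ∃ p ∈ chartOf A₀ K L₀ q 0, p ≠ 0 ∧ ord i p = 1)
    (hsep : ∀ i, ∃ e ∈ chartOf A₀ K L₀ q 0, e ≠ 0 ∧ ord i e = 0 ∧ ∀ j, j ≠ i → 0 < ord j e)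
    (hpts : ∀ c (y : Ideal (chartOf A₀ K L₀ q c)) [y.IsMaximal], qAt A₀ c ∈ y →
      PointProps Br (chartOf A₀ K L₀ q c) y)
    (hfin : ∀ (y : Ideal (chartOf A₀ K L₀ q 1)) [y.IsMaximal], qAt A₀ 1 ∈ y →
      (∀ i, LiesOnBranch Br _ y i) →
      (⟨(jTop K L₀ q)⁻¹, self_mem_chartRing _⟩ : chartOf A₀ K L₀ q 1) ∉ y) :
    Model (constA A₀ K) (modField K (L₀ * q ^ 2)) k (modularFunctionFieldFullC k L₀) where
  q := q
  hq := hq
  hinj := by
    intro a b h
    exact Subtype.ext ((algebraMap K (modField K (L₀ * q ^ 2))).injective h)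
  irreducible_q := hC.irreducible_q
  ρ := constRes π₀ (algebraMap K Qb)
  ρ_surjective := fun z => hC.surj z
  algClosed := hC.algClosed
  Br := Br
  res_const := B.res_const
  ord := ord
  ord_mul := B.ord_mul
  mem_iff := B.mem_iff
  res_eq_zero_iff := B.res_eq_zero_iff
  ord_q := by simpa only [map_natCast] using B.ord_q
  x := jTop K L₀ q
  x_ne_zero := fun h => MF.Coeff.transcendental_jElem K (L₀ * q ^ 2) (by
    rw [show MF.Coeff.jElem K (L₀ * q ^ 2) = 0 from h]; exact isAlgebraic_zero)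
  R := chartOf A₀ K L₀ q
  chart := B.isChart hC
  x_mem := self_mem_chartRing _
  x_inv_mem := self_mem_chartRing _
  finite₀ := B.chartData.chart_facts.1
  frac := Fin.forall_fin_two.mpr ⟨B.chartData.chart_facts.2.1, B.chartData.chart_facts.2.2.1⟩
  glue₀ := B.chartData.chart_facts.2.2.2.1
  glue₁ := B.chartData.chart_facts.2.2.2.2.1
  const := B.chartData.chart_facts.2.2.2.2.2
  exists_unif := hunif
  exists_sep := hsep
  ufm := fun c y _ hy => (hpts c y hy).ufm
  branchValue := fun c y _ hy i hi => (hpts c y hy).branchValue i hi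
  dichotomy := fun c y _ hy => (hpts c y hy).dichotomy
  normα := normAlpha K L₀ q
  normβ := normBeta K L₀ q
  normα_ne_zero := fun _ => normAlpha_ne_zero
  normβ_ne_zero := fun _ => normBeta_ne_zero
  normα_mem := fun c _ ha => normAlpha_mem_chartOf c ha
  normβ_mem := fun c y _ hy hon _ ha => B.normBeta_mem hC hfin c y hy hon ha
  ord_normα := B.ord_normα
  ord_normβ := B.ord_normβ
  normα_const := fun w => normAlpha_const (hq := hq) (hqL := hqL) (w : K)
  normβ_const := fun w => normBeta_const (hq := hq) (hqL := hqL) (w : K)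
  res_normα₀ := B.res_normα₀
  res_normα₂ := B.res_normα₂
  res_normβ₂ := B.res_normβ₂
  res_normβ₀ := B.res_normβ₀

end Assembly

end Fermat.Agent.Carayol
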