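/-
Abstract tools for the ordinary points of a chart: the residue field of a point, the place of the
reduced curve attached to a point on a branch, and the denominator at a cusp of a function
integral over `W[1/T]`.
-/
import Fermat.Agent.Carayol.LocalLemmas
import Fermat.Agent.Carayol.Chart
import Fermat.Agent.Carayol.EtaleLocal
import Mathlib.RingTheory.Valuation.LocalSubring
import Mathlib.FieldTheory.IsAlgClosed.Basic
import Mathlib.RingTheory.Polynomial.ContentIdeal

set_option autoImplicit false
set_option linter.style.haveILetI false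

noncomputable section

open Polynomial IntermediateField AlgebraicCurve

namespace Fermat.Agent.Carayol

open Fermat.Agent.RED Fermat.Agent.FF

section ResidueField

variable {W F k : Type} [CommRing W] [Field F] [Algebra W F] [Field k] [IsAlgClosed k]

/-- The residue field of a point over the closed point of `W` is the residue field of `W`. -/
theorem exists_algebraMap_sub_mem (ρ : W →+* k) (hρ : Function.Surjective ρ) {x : F}
    (y : Ideal (chartRing W x)) [y.IsMaximal]
    (hker : ∀ w, ρ w = 0 → algebraMap W (chartRing W x) w ∈ y) (a : chartRing W x) :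
    ∃ w : W, a - algebraMap W (chartRing W x) w ∈ y := by
  let : Field (chartRing W x ⧸ y) := Ideal.Quotient.field y
  let f : W →+* chartRing W x ⧸ y := (Ideal.Quotient.mk y).comp (algebraMap W (chartRing W x))
  have hle : RingHom.ker ρ ≤ RingHom.ker f := fun w hw =>
    RingHom.mem_ker.mpr (Ideal.Quotient.eq_zero_iff_mem.mpr (hker w hw))
  let κ : k →+* chartRing W x ⧸ y := RingHom.liftOfSurjective ρ hρ ⟨f, hle⟩
  have hκ : ∀ w, κ (ρ w) = f w := fun w =>
    RingHom.liftOfRightInverse_comp_apply _ _ (Function.rightInverse_surjInv hρ) _ w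
  let : Algebra k (chartRing W x ⧸ y) := κ.toAlgebra
  let xbar := Ideal.Quotient.mk y (⟨x, self_mem_chartRing x⟩ : chartRing W x)
  have hint : ∀ t : chartRing W x ⧸ y, IsIntegral (Algebra.adjoin k {xbar}) t := by
    intro t
    obtain ⟨b, rfl⟩ := Ideal.Quotient.mk_surjective t
    obtain ⟨G, hG, hGb⟩ := mem_chartRing_iff_isIntegralElem.mp b.2
    let φ : W[X] →+* Algebra.adjoin k {xbar} :=
      ((aeval xbar).toRingHom.comp (mapRingHom ρ)).codRestrict (Algebra.adjoin k {xbar}).toSubring
        fun p => by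
          show aeval xbar (p.map ρ) ∈ Algebra.adjoin k {xbar}
          rw [Algebra.adjoin_singleton_eq_range_aeval]
          exact ⟨_, rfl⟩
    refine ⟨G.map φ, hG.map _, ?_⟩
    rw [eval₂_map]
    let ψ : W[X] →+* chartRing W x :=
      (aeval (⟨x, self_mem_chartRing x⟩ : chartRing W x)).toRingHom
    have h1 : (Algebra.algebraMap (R := Algebra.adjoin k {xbar})
        (A := chartRing W x ⧸ y)).comp φ = (Ideal.Quotient.mk y).comp ψ := by
      refine ringHom_ext (fun w => ?_) ?_
      · show aeval xbar ((C w).map ρ) = Ideal.Quotient.mk y (aeval _ (C w))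
        rw [map_C, aeval_C, aeval_C]
        exact hκ w
      · show aeval xbar ((X : W[X]).map ρ) = Ideal.Quotient.mk y (aeval _ X)
        rw [map_X, aeval_X, aeval_X]
    rw [h1, ← hom_eval₂]
    have h2 : G.eval₂ ψ b = 0 := by
      apply Subtype.val_injective
      show (chartRing W x).val.toRingHom _ = (chartRing W x).val.toRingHom 0
      rw [hom_eval₂, map_zero,
        show (chartRing W x).val.toRingHom.comp ψ = (aeval x).toRingHom from
          ringHom_ext (fun w => by simp [ψ]) (by simp [ψ])]
      exact hGb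
    rw [h2, map_zero]
  have : Algebra.IsIntegral k (chartRing W x ⧸ y) :=
    ⟨isIntegral_of_forall_isIntegral_adjoin xbar hint⟩
  obtain ⟨c, hc⟩ := (IsAlgClosed.algebraMap_bijective_of_isIntegral (k := k)
    (K := chartRing W x ⧸ y)).2 (Ideal.Quotient.mk y a)
  obtain ⟨w, rfl⟩ := hρ c
  exact ⟨w, Ideal.Quotient.eq.mp (hc.symm.trans (hκ w))⟩

end ResidueField

section Place

variable {k E : Type} [Field k] [IsAlgClosed k] [Field E] [Algebra k E] {xb : E}
variable {R : Type} [CommRing R] (ψ : R →+* E) (y : Ideal R) [y.IsPrime]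

/-- **The place of a point on a branch**: if the chart ring `coordRing k xb` of the reduced curve
maps into the localised image and every element is congruent to a constant, some place of the
reduced curve has its valuation ring inside the localised image. -/
theorem exists_branch_place (hxb : Transcendental k xb) [FiniteDimensional k⟮xb⟯ E]
    (hker : RingHom.ker ψ ≤ y)
    (hconst : ∀ c : k, ∃ w : R, ψ w = algebraMap k E c)
    (hmod : ∀ a : R, ∃ c : k, ∃ w : R, ψ w = algebraMap k E c ∧ a - w ∈ y)
    (hsub : ∀ g ∈ coordRing k xb, ∃ a r : R, r ∉ y ∧ g * ψ r = ψ a) :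
    ∃ v : Place k E, xb ∈ v.toValuationSubring ∧
      (∀ z ∈ v.toValuationSubring, ∃ a r : R, r ∉ y ∧ z * ψ r = ψ a) ∧
      ∃ a ∈ y, ψ a ≠ 0 := by
  have : IsFunctionField k E := ⟨xb, hxb, inferInstance⟩
  -- the functions vanishing at the point
  let P : Ideal (coordRing k xb).toSubring :=
    { carrier := {g | ∃ a r : R, r ∉ y ∧ a ∈ y ∧ (g : E) * ψ r = ψ a}
      zero_mem' := ⟨0, 1, fun h => (inferInstance : y.IsPrime).ne_top
        ((Ideal.eq_top_iff_one _).mpr h), y.zero_mem, by simp⟩
      add_mem' := by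
        rintro g g' ⟨a, r, hr, ha, hg⟩ ⟨a', r', hr', ha', hg'⟩
        refine ⟨a * r' + a' * r, r * r', fun h =>
          ((inferInstance : y.IsPrime).mem_or_mem h).elim hr hr',
          add_mem (y.mul_mem_right _ ha) (y.mul_mem_right _ ha'), ?_⟩
        push_cast
        simp only [map_add, map_mul]
        linear_combination ψ r' * hg + ψ r * hg'
      smul_mem' := by
        rintro c g ⟨a, r, hr, ha, hg⟩
        obtain ⟨b, s, hs, hc⟩ := hsub _ c.2
        refine ⟨b * a, s * r, fun h => ((inferInstance : y.IsPrime).mem_or_mem h).elim hs hr,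
          y.mul_mem_left _ ha, ?_⟩
        simp only [smul_eq_mul, MulMemClass.coe_mul, map_mul]
        rw [← hc, ← hg]
        ring }
  have hmemP : ∀ g : (coordRing k xb).toSubring,
      g ∈ P ↔ ∃ a r : R, r ∉ y ∧ a ∈ y ∧ (g : E) * ψ r = ψ a := fun g => Iff.rfl
  -- every function is congruent to a constant
  have hcong : ∀ g : (coordRing k xb).toSubring, ∃ c : k,
      g - ⟨algebraMap k E c, (coordRing k xb).algebraMap_mem c⟩ ∈ P := by
    intro g
    obtain ⟨a, r, hr, hg⟩ := hsub _ g.2
    obtain ⟨ca, wa, hwa, ha⟩ := hmod a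
    obtain ⟨cr, wr, hwr, hrw⟩ := hmod r
    have hwr' : wr ∉ y := fun h => hr (by simpa using add_mem hrw h)
    have hcr : cr ≠ 0 := fun h => hwr' (hker (by rw [RingHom.mem_ker, hwr, h, map_zero]))
    obtain ⟨w, hw⟩ := hconst (ca / cr)
    refine ⟨ca / cr, (hmemP _).mpr ⟨a - w * r, r, hr, ?_, ?_⟩⟩
    · have h1 : wa - w * wr ∈ y := hker (by
        rw [RingHom.mem_ker, map_sub, map_mul, hwa, hw, hwr, ← map_mul, div_mul_cancel₀ _ hcr,
          sub_self])
      have h2 := add_mem (sub_mem ha (y.mul_mem_left w hrw)) h1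
      convert h2 using 1
      ring
    · simp only [AddSubgroupClass.coe_sub, map_sub, map_mul, hw, ← hg]
      ring
  have htop : P ≠ ⊤ := fun h => by
    obtain ⟨a, r, hr, ha, h1⟩ := (hmemP 1).mp (h ▸ Submodule.mem_top)
    refine hr ?_
    have h2 : r - a ∈ y := hker (by
      rw [RingHom.mem_ker, map_sub, ← h1, OneMemClass.coe_one, one_mul, sub_self])
    simpa using add_mem h2 ha
  -- a nonzero function vanishing at the point
  obtain ⟨c₀, hc₀⟩ := hcong ⟨xb, self_mem_coordRing k xb⟩
  have hg₀ : xb - algebraMap k E c₀ ≠ 0 := fun h =>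
    hxb (by rw [sub_eq_zero.mp h]; exact isAlgebraic_algebraMap _)
  obtain ⟨v, hv, hPv⟩ := exists_place_of_ideal (K := k) (A := (coordRing k xb).toSubring)
    (fun a => (coordRing k xb).algebraMap_mem a) P htop hc₀
    (fun h => hg₀ (congrArg Subtype.val h))
  have hxv : xb ∈ v.toValuationSubring :=
    (FF.mem_iff_ord_nonneg v).mpr (hv _ (self_mem_coordRing k xb))
  have hnot : ∀ g : (coordRing k xb).toSubring, (g : E) ∉ ordGE v 1 → g ∉ P :=
    fun g hg h => hg (hPv g h)
  refine ⟨v, hxv, fun z hz => ?_, ?_⟩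
  · obtain ⟨g, hg, hgv, hgz⟩ := Etale.exists_mul_mem_coordRing hxb v hxv hz
    obtain ⟨a, r, hr, h1⟩ := hsub g hg
    obtain ⟨b, s, hs, h2⟩ := hsub _ hgz
    have hay : a ∉ y := fun h => hnot ⟨g, hg⟩ hgv ((hmemP _).mpr ⟨a, r, hr, h, h1⟩)
    refine ⟨b * r, a * s, fun h => ((inferInstance : y.IsPrime).mem_or_mem h).elim hay hs, ?_⟩
    rw [map_mul, map_mul, ← h1, ← h2]
    ring
  · obtain ⟨a, r, hr, ha, h1⟩ := (hmemP _).mp hc₀
    refine ⟨a, ha, fun h => hr (hker ?_)⟩
    rw [h] at h1
    exact RingHom.mem_ker.mpr ((mul_eq_zero.mp h1).resolve_left hg₀)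

end Place

section Cusp

variable {W F : Type} [CommRing W] [Field F] [Algebra W F]

/-- An element of every valuation ring containing `W` and `x` is in the chart. -/
theorem mem_chartRing_of_forall_valuation {x a : F}
    (h : ∀ V : ValuationSubring F, (∀ w : W, algebraMap W F w ∈ V) → x ∈ V → a ∈ V) :
    a ∈ chartRing W x := by
  have : IsIntegrallyClosedIn (chartRing W x).toSubring F :=
    Subring.isIntegrallyClosedIn_iff.mpr fun {r} hr => chartRing_closed x r hr
  by_contra ha
  obtain ⟨V, hV, haV⟩ :=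
    Subring.exists_le_valuationSubring_of_isIntegrallyClosedIn
      (R := (chartRing W x).toSubring) (x := a) ha
  exact haV (h V (fun w => hV ((chartRing W x).algebraMap_mem w)) (hV (self_mem_chartRing x)))

/-- **Denominators at a cusp.** If `1/x` is integral over `W[1/t]`, every function integral over
`W[t]` is, near a point where `x` vanishes, integral over `W[x]`. -/
theorem exists_cusp_denominator [IsDomain W] {x t : F} (hx : x ≠ 0) (ht : t ≠ 0)
    (hint : x⁻¹ ∈ chartRing W t⁻¹) (y : Ideal (chartRing W x)) [y.IsPrime]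
    (hxy : (⟨x, self_mem_chartRing x⟩ : chartRing W x) ∈ y) {a : F} (ha : a ∈ chartRing W t) :
    ∃ b r : chartRing W x, r ∉ y ∧ a * (r : F) = b := by
  obtain ⟨G, hG, hGj⟩ := mem_chartRing_iff_isIntegralElem.mp hint
  let g : W[X] := G.map (evalRingHom 0)
  have hg : g.Monic := hG.map _
  let s : chartRing W x := aeval (⟨x, self_mem_chartRing x⟩ : chartRing W x) g.reverse
  have hs : (s : F) = aeval x g.reverse :=
    (aeval_algHom_apply (chartRing W x).val _ _).symm
  have hsy : s ∉ y := fun h => (inferInstance : y.IsPrime).ne_top ((Ideal.eq_top_iff_one _).mpr (by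
    have h1 : g.reverse = X * g.reverse.divX + 1 := by
      conv_lhs => rw [← X_mul_divX_add g.reverse]
      rw [coeff_zero_reverse, hg, map_one]
    have h2 : s = ⟨x, self_mem_chartRing x⟩ *
        aeval (⟨x, self_mem_chartRing x⟩ : chartRing W x) g.reverse.divX + 1 := by
      show aeval _ g.reverse = _
      conv_lhs => rw [h1]
      simp
    rw [h2] at h
    simpa using sub_mem h (y.mul_mem_right
      (aeval (⟨x, self_mem_chartRing x⟩ : chartRing W x) g.reverse.divX) hxy)))
  -- `t * s` is bounded at every valuation ring where `x` is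
  have hts : ∀ V : ValuationSubring F, (∀ w : W, algebraMap W F w ∈ V) → x ∈ V →
      (t * (s : F) ∈ V ∧ (t ∉ V → t⁻¹ ∈ V)) := by
    intro V hW hxV
    refine ⟨?_, fun h => (V.mem_or_inv_mem t).resolve_left h⟩
    have hsV : (s : F) ∈ V := chartRing_mem_valuationSubring hW hxV s.2
    rcases V.mem_or_inv_mem t with h | h
    · exact mul_mem h hsV
    have hjV : x⁻¹ ∈ V := chartRing_mem_valuationSubring hW h hint
    have hsj : (s : F) = x ^ g.natDegree * aeval x⁻¹ g := by
      let : Invertible x⁻¹ := invertibleOfNonzero (inv_ne_zero hx)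
      have h1 := eval₂_reverse_mul_pow (algebraMap W F) x⁻¹ g
      rw [invOf_eq_inv, inv_inv] at h1
      rw [hs, aeval_def, aeval_def, ← h1, mul_left_comm, ← mul_pow, mul_inv_cancel₀ hx, one_pow,
        mul_one]
    obtain ⟨H, hH⟩ : C (X : W[X]) ∣ G - g.map C := by
      rw [C_dvd_iff_dvd_coeff]
      intro i
      rw [X_dvd_iff, coeff_sub, coeff_map, coeff_map]
      simp [coe_evalRingHom, coeff_zero_eq_eval_zero]
    have h0 : aeval x⁻¹ g = -(t⁻¹ * H.eval₂ (aeval (R := W) t⁻¹).toRingHom x⁻¹) := by
      have h1 := congrArg (eval₂ (aeval (R := W) t⁻¹).toRingHom x⁻¹) hH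
      rw [eval₂_sub, hGj, eval₂_mul, eval₂_C, eval₂_map,
        show (aeval (R := W) t⁻¹).toRingHom.comp (C : W →+* W[X]) = algebraMap W F from
          RingHom.ext fun w => aeval_C _ w] at h1
      simp only [AlgHom.toRingHom_eq_coe, RingHom.coe_coe, aeval_X] at h1
      rw [aeval_def, AlgHom.toRingHom_eq_coe]
      linear_combination -h1
    have hHV : H.eval₂ (aeval (R := W) t⁻¹).toRingHom x⁻¹ ∈ V := by
      rw [eval₂_eq_sum_range]
      refine sum_mem fun i _ => mul_mem ?_ (pow_mem hjV i)
      show aeval t⁻¹ (H.coeff i) ∈ V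
      rw [aeval_eq_sum_range]
      exact sum_mem fun l _ => by rw [Algebra.smul_def]; exact mul_mem (hW _) (pow_mem h l)
    rw [hsj, h0, show t * (x ^ g.natDegree *
        -(t⁻¹ * H.eval₂ (aeval (R := W) t⁻¹).toRingHom x⁻¹)) =
      -(x ^ g.natDegree * H.eval₂ (aeval (R := W) t⁻¹).toRingHom x⁻¹) by
        field_simp]
    exact neg_mem (mul_mem (pow_mem hxV _) hHV)
  obtain ⟨N, hN⟩ := exists_mul_inv_pow_mem_chartRing ht ha
  have hmem : a * (s : F) ^ N ∈ chartRing W x := by
    refine mem_chartRing_of_forall_valuation fun V hW hxV => ?_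
    obtain ⟨hm, hinv⟩ := hts V hW hxV
    by_cases htV : t ∈ V
    · exact mul_mem (chartRing_mem_valuationSubring hW htV ha)
        (pow_mem (chartRing_mem_valuationSubring hW hxV s.2) N)
    · have h1 := mul_mem (chartRing_mem_valuationSubring hW (hinv htV) hN) (pow_mem hm N)
      rwa [mul_pow, mul_assoc, ← mul_assoc (t⁻¹ ^ N), ← mul_pow, inv_mul_cancel₀ ht, one_pow,
        one_mul] at h1
  exact ⟨⟨_, hmem⟩, s ^ N, fun h => hsy ((inferInstance : y.IsPrime).mem_of_pow_mem N h),
    by push_cast; rfl⟩

end Cusp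

end Fermat.Agent.Carayol
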