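/-
The place of the reduced curve of level `L₀` at a point on a branch of the special fibre of the
model of `X₀(q² L₀)`: the functions of level `L₀` reduce onto the reduced chart, and near the point
they lie in the chart (at a cusp after a denominator).
-/
import Fermat.Agent.Carayol.Setting
import Fermat.Agent.Carayol.Points
import Fermat.Agent.Carayol.OrdinaryAux

set_option autoImplicit false
set_option linter.unusedSectionVars false
set_option linter.style.haveILetI false
set_option maxHeartbeats 400000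

noncomputable section

open Polynomial IntermediateField ModularCurve AlgebraicCurve
open Fermat.Agent.Igusa Fermat.Agent.RED.Spec Fermat.Agent.HK.Corr

namespace Fermat.Agent.Carayol

open Fermat.Agent.RED

local notation "Qb" => AlgebraicClosure ℚ

/-! ### Places -/

section Place

variable {k E : Type*} [Field k] [Field E] [Algebra k E] (v : Place k E)

theorem place_ord_pos_of_mem_nonunits {z : E} (hz : z ≠ 0)
    (h : z ∈ v.toValuationSubring.nonunits) : 0 < v.ord z := by
  obtain ⟨hzv, hm⟩ := ValuationSubring.mem_nonunits_iff_exists_mem_maximalIdeal.mp h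
  refine lt_of_le_of_ne (RED.ord_nonneg_of_mem v hzv) fun h0 => ?_
  have hinv : z⁻¹ ∈ v.toValuationSubring :=
    RED.mem_of_ord_nonneg v (by rw [v.ord_inv, ← h0]; simp)
  exact (IsLocalRing.mem_maximalIdeal _).mp hm
    (isUnit_iff_exists_inv.mpr ⟨⟨_, hinv⟩, Subtype.ext (mul_inv_cancel₀ hz)⟩)

theorem notMem_nonunits_of_ord_eq_zero {z : E} (hz : z ≠ 0) (h : v.ord z = 0) :
    z ∉ v.toValuationSubring.nonunits := fun hn =>
  (place_ord_pos_of_mem_nonunits v hz hn).ne' h

theorem ord_eq_zero_of_notMem_nonunits {z : E} (hzv : z ∈ v.toValuationSubring)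
    (h : z ∉ v.toValuationSubring.nonunits) : v.ord z = 0 := by
  by_contra h0
  refine h (ValuationSubring.mem_nonunits_iff_exists_mem_maximalIdeal.mpr
    ⟨hzv, (IsLocalRing.mem_maximalIdeal _).mpr fun hu => h0 ?_⟩)
  obtain ⟨u, hu⟩ := hu
  rw [show z = (((u : v.toValuationSubring)) : E) from (congrArg Subtype.val hu).symm,
    v.ord_coe_unit]

end Place

/-- The chart ring is functorial. -/
theorem map_mem_chartRing {W E F : Type} [CommRing W] [Field E] [Field F] [Algebra W E]
    [Algebra W F] (φ : E →+* F) (hφ : ∀ w, φ (algebraMap W E w) = algebraMap W F w) {x a : E}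
    (ha : a ∈ chartRing W x) : φ a ∈ chartRing W (φ x) := by
  obtain ⟨G, hG, hGa⟩ := mem_chartRing_iff_isIntegralElem.mp ha
  refine mem_chartRing_iff_isIntegralElem.mpr ⟨G, hG, ?_⟩
  have := congrArg φ hGa
  rw [map_zero, hom_eval₂, show φ.comp (aeval (R := W) x).toRingHom =
    (aeval (R := W) (φ x)).toRingHom from ringHom_ext (fun w => by simp [hφ]) (by simp)] at this
  exact this

/-- A point over the closed point lies on some branch. -/
theorem exists_liesOnBranch {W F C ι : Type} [CommRing W] [IsDomain W]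
    [IsDiscreteValuationRing W] [Field F] [Algebra W F] [Field C] [Fintype ι]
    {Br : Branches F ι (fun _ => C)} {π : W} {R : Subalgebra W F} (hR : IsChart Br π R)
    {y : Ideal R} [y.IsPrime] (hπy : (⟨algebraMap W F π, R.algebraMap_mem π⟩ : R) ∈ y) :
    ∃ i, LiesOnBranch Br R y i := by
  classical
  by_contra! hno
  have hex : ∀ i, ∃ a : R, chartRes Br hR i a = 0 ∧ a ∉ y := fun i => by
    have h := hno i
    simp only [LiesOnBranch, not_forall] at h
    obtain ⟨a, h, ha, hay⟩ := h
    exact ⟨a, ha, hay⟩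
  choose a ha hay using hex
  obtain ⟨N, b, hb, hN⟩ := hR.radical _ (∏ i, a i).2 (fun i h => by
    show chartRes Br hR i (∏ l, a l) = 0
    rw [map_prod]
    exact Finset.prod_eq_zero (Finset.mem_univ i) (ha i))
  have h1 : (∏ i, a i) ^ N ∈ y := by
    rw [show (∏ i, a i) ^ N = (⟨algebraMap W F π, R.algebraMap_mem π⟩ : R) * ⟨b, hb⟩ from
      Subtype.ext hN]
    exact y.mul_mem_right _ hπy
  obtain ⟨i, -, hi⟩ :=
    ((inferInstance : y.IsPrime).prod_mem_iff).mp
      ((inferInstance : y.IsPrime).mem_of_pow_mem N h1)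
  exact hay i hi

section Setting

variable {A₀ : ValuationSubring Qb} {K K' k : Type} [Field K] [Algebra ℚ K] [Algebra K Qb]
  [Field K'] [Algebra ℚ K'] [Field k] {q L₀ : ℕ} [NeZero q] [NeZero L₀]
variable {hq : q.Prime} {hqL : ¬ q ∣ L₀} {π₀ : A₀ →+* k} {κ : K →+* K'} {ι : K' →+* Qb}
  {η : K'ˣ} {e0 e02 : modField K (L₀ * q ^ 2) →+* LaurentSeries K'}
  {ez : Fin (q - 1) → modField K (L₀ * q ^ 2) →+* LaurentSeries K'} {k₀ : Fin (q - 1)}
  {Br : Branches (modField K (L₀ * q ^ 2)) (Fin 3) (fun _ => modularFunctionFieldFullC k L₀)}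
  {ord : Fin 3 → modField K (L₀ * q ^ 2) → ℤ}

namespace BranchData

/-- The exponent of the degeneracy map read on each branch. -/
def branchDeg (q : ℕ) : Fin 3 → ℕ := ![1, 1, q ^ 2]

instance branchDeg_neZero (q : ℕ) [NeZero q] (i : Fin 3) : NeZero (branchDeg q i) :=
  ⟨by fin_cases i <;> simp [branchDeg, NeZero.ne q]⟩

theorem branchDeg_dvd (L₀ q : ℕ) (i : Fin 3) : L₀ * branchDeg q i ∣ L₀ * q ^ 2 := by
  fin_cases i <;> simp [branchDeg]

variable (hC : Consts A₀ q π₀ κ ι η) (hD : BranchData A₀ hq hqL π₀ κ ι η e0 e02 ez k₀ Br ord)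

include hD in
/-- Each branch restricts to the expansion at infinity on level `L₀`. -/
theorem branchTriple_degen (i : Fin 3) (b : modField K L₀) :
    branchTriple e0 e02 ez k₀ i (degenMap K (branchDeg q i) (branchDeg_dvd L₀ q i) b) =
      baseEmb κ L₀ b := by
  have hB := hD.chartData.branches
  fin_cases i
  · exact DFunLike.congr_fun ((hB.h0.comp_degen 1 (mul_dvd_mul_left L₀ (one_dvd (q ^ 2)))).ext
      (isSubst_baseEmb κ L₀) fun d => genSer_congr K' (one_mul _)) b
  · refine DFunLike.congr_fun (((hB.hz k₀).comp_degen 1 (mul_dvd_mul_left L₀ (one_dvd (q ^ 2)))).ext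
      (isSubst_baseEmb κ L₀) fun d => ?_) b
    have hone : (mulIdx 1 (mul_dvd_mul_left L₀ (one_dvd (q ^ 2))) d).1 = d.1 * q ^ 0 := by
      rw [coe_mulIdx, one_mul, pow_zero, mul_one]
    rw [midVal_of_eq hq hqL _ hone d.2.2 zero_le_one]
    exact genSer_congr K' (one_mul _)
  · refine DFunLike.congr_fun ((hB.h02.comp_degen (q ^ 2) (dvd_refl (L₀ * q ^ 2))).ext
      (isSubst_baseEmb κ L₀) fun d => genSer_congr K' ?_) b
    rw [coe_swapTwo_of_eq hq hqL (show (mulIdx (q ^ 2) (dvd_refl (L₀ * q ^ 2)) d).1 = d.1 * q ^ 2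
      from mul_comm _ _) d.2.2, Nat.sub_self, pow_zero, mul_one]

include hC hD in
/-- On each branch the functions of level `L₀` have their reductions as residues. -/
theorem res_degen (i : Fin 3) (w : (LiftBase.baseConstRed L₀ (constRes π₀ (algebraMap K Qb) :
      constA A₀ K →+* k) hC.surj hD.chartData.hL).W) :
    ∃ h : degenMap K (branchDeg q i) (branchDeg_dvd L₀ q i) (w : modField K L₀) ∈ Br.V i,
      Br.res i ⟨_, h⟩ = (LiftBase.baseConstRed L₀ (constRes π₀ (algebraMap K Qb) :
        constA A₀ K →+* k) hC.surj hD.chartData.hL).red w := by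
  haveI := hD.chartData.dvr
  obtain ⟨a, b, hb, hab, hr⟩ := exists_levelFrac (constO A₀ ι) (constRes π₀ ι) κ
    hD.chartData.hA (fun a => congrArg π₀ (Subtype.ext (RingHom.congr_fun hC.comp (a : K))))
    L₀ 1 hC.surj hD.chartData.hL w
  have hg : IsGauss (constRes π₀ ι)
      (branchTriple e0 e02 ez k₀ i (degenMap K (branchDeg q i) (branchDeg_dvd L₀ q i)
        (w : modField K L₀)))
      (((LiftBase.baseConstRed L₀ (constRes π₀ (algebraMap K Qb) :
        constA A₀ K →+* k) hC.surj hD.chartData.hL).red w : modularFunctionFieldFullC k L₀) :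
        LaurentSeries k) := by
    rw [hD.branchTriple_degen i]
    refine ⟨a, b, hb, ?_, ?_⟩
    · refine Eq.trans ?_ hab
      show coeffMap κ _ * _ = qExpand K' 1 (coeffMap κ _) * _
      rw [qExpand_one_apply]
    · rw [hr, qExpand_one_apply]
      rfl
  obtain ⟨h, hres⟩ := (hD.chartData.isGauss_iff i _ _).mp hg
  exact ⟨h, Subtype.ext hres⟩

/-! ### The place of a point on a branch -/

variable (A₀) in
/-- The chart of the coordinate `x` over `W = A₀ ∩ K`. -/
abbrev chartR (x : modField K (L₀ * q ^ 2)) :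
    Subalgebra (constA A₀ K) (modField K (L₀ * q ^ 2)) :=
  chartRing (constA A₀ K) x

/-- A place of the reduced curve inside the localised image of a point on a branch. -/
def HasPlace {x : modField K (L₀ * q ^ 2)}
    (hR : IsChart Br (q : constA A₀ K) (chartR A₀ x)) (y : Ideal (chartR A₀ x)) (i : Fin 3)
    (v : Place k (modularFunctionFieldFullC k L₀)) : Prop :=
  (∀ z ∈ v.toValuationSubring, ∃ a r : chartR A₀ x, r ∉ y ∧
      z * chartRes Br hR i r = chartRes Br hR i a) ∧
    ∃ a ∈ y, chartRes Br hR i a ≠ 0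

include hC hD in
/-- The place, from lifts of the reduced chart ring. -/
theorem exists_place {x : modField K (L₀ * q ^ 2)}
    (hR : IsChart Br (q : constA A₀ K) (chartR A₀ x)) {xb : modularFunctionFieldFullC k L₀}
    (hxb : Transcendental k xb) [FiniteDimensional k⟮xb⟯ (modularFunctionFieldFullC k L₀)]
    (y : Ideal (chartR A₀ x)) [y.IsMaximal]
    (hqy : (⟨algebraMap (constA A₀ K) _ (q : constA A₀ K), (chartR A₀ x).algebraMap_mem _⟩ :
      chartR A₀ x) ∈ y)
    {i : Fin 3} (hi : LiesOnBranch Br (chartR A₀ x) y i)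
    (hlift : ∀ g ∈ coordRing k xb, ∃ (w : (LiftBase.baseConstRed L₀
        (constRes π₀ (algebraMap K Qb) : constA A₀ K →+* k) hC.surj hD.chartData.hL).W)
        (a r : chartR A₀ x), r ∉ y ∧
      degenMap K (branchDeg q i) (branchDeg_dvd L₀ q i) (w : modField K L₀) * r = a ∧
      (LiftBase.baseConstRed L₀ (constRes π₀ (algebraMap K Qb) : constA A₀ K →+* k)
        hC.surj hD.chartData.hL).red w = g) :
    ∃ v : Place k (modularFunctionFieldFullC k L₀),
      xb ∈ v.toValuationSubring ∧ HasPlace hR y i v := by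
  haveI := hC.algClosed
  haveI := hC.dvrA
  have hker : RingHom.ker (chartRes Br hR i) ≤ y := fun a ha => hi a _ (RingHom.mem_ker.mp ha)
  have hπ : ∀ w : constA A₀ K, (constRes π₀ (algebraMap K Qb) : constA A₀ K →+* k) w = 0 →
      algebraMap (constA A₀ K) (chartR A₀ x) w ∈ y := by
    intro w hw
    have hnu : ¬ IsUnit w := fun hu => (hu.map (constRes π₀ (algebraMap K Qb))).ne_zero hw
    obtain ⟨c, rfl⟩ : (q : constA A₀ K) ∣ w := by
      rw [← Ideal.mem_span_singleton, ← hC.irreducible_q.maximalIdeal_eq]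
      exact hnu
    rw [map_mul]
    exact y.mul_mem_right _ hqy
  have hresW : ∀ w : constA A₀ K,
      chartRes Br hR i (algebraMap (constA A₀ K) (chartR A₀ x) w) =
        algebraMap k _ (constRes π₀ (algebraMap K Qb) w) := fun w => hD.res_const i w _
  refine exists_branch_place (chartRes Br hR i) y hxb hker (fun c => ?_) (fun a => ?_)
    (fun g hg => ?_)
  · obtain ⟨w, rfl⟩ := hC.surj c
    exact ⟨_, hresW w⟩
  · obtain ⟨w, hw⟩ := exists_algebraMap_sub_mem _ hC.surj y hπ a
    exact ⟨_, _, hresW w, hw⟩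
  · obtain ⟨w, a, r, hr, ha, rfl⟩ := hlift g hg
    obtain ⟨h, hres⟩ := hD.res_degen hC i w
    refine ⟨a, r, hr, ?_⟩
    rw [← hres]
    show Br.res i ⟨_, h⟩ * Br.res i ⟨(r : modField K (L₀ * q ^ 2)), hR.mem_V r r.2 i⟩ =
      Br.res i ⟨(a : modField K (L₀ * q ^ 2)), hR.mem_V a a.2 i⟩
    rw [← map_mul]
    exact congrArg (Br.res i) (Subtype.ext ha)

include hC in
theorem algebraMap_degen {n : ℕ} [NeZero n] (h : L₀ * n ∣ L₀ * q ^ 2) (w : constA A₀ K) :
    (degenMap K n h : modField K L₀ →+* modField K (L₀ * q ^ 2))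
      (algebraMap (constA A₀ K) (modField K L₀) w) =
      algebraMap (constA A₀ K) (modField K (L₀ * q ^ 2)) w :=
  (degenMap K n h).commutes (w : K)

/-- An integral relation between series puts an element in a chart. -/
theorem mem_chartR_of_series {T S : modField K (L₀ * q ^ 2)}
    (h : (eval₂RingHom (Int.castRingHom (LaurentSeries K))
      (T : LaurentSeries K)).IsIntegralElem (S : LaurentSeries K)) :
    S ∈ chartR A₀ T := by
  obtain ⟨Q, hQ, hQ0⟩ := h
  refine mem_chartRing_of_isIntegralElem ⟨Q, hQ, ?_⟩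
  refine (modField K (L₀ * q ^ 2)).val.toRingHom.injective ?_
  rw [map_zero, hom_eval₂,
    show (modField K (L₀ * q ^ 2)).val.toRingHom.comp
        (eval₂RingHom (Int.castRingHom (modField K (L₀ * q ^ 2))) T) =
      eval₂RingHom (Int.castRingHom (LaurentSeries K)) (T : LaurentSeries K) from
      ringHom_ext (fun c => by simp) (by simp)]
  exact hQ0

theorem degen_sq_jElem_mem :
    degenMap K (q ^ 2) (dvd_refl (L₀ * q ^ 2)) (MF.Coeff.jElem K L₀) ∈
      chartR A₀ (jTop K L₀ q) := by
  refine mem_chartR_of_series ?_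
  rw [coe_degenMap, MF.Coeff.coe_jElem, MF.Coeff.coe_jElem, ← RED.Spec.jSer_eq_jqModC]
  exact isIntegralElem_qExpand_jSer _

include hq in
theorem jTop_mem_degen_sq (c : K →+* ℂ) :
    jTop K L₀ q ∈ chartR A₀
      (degenMap K (q ^ 2) (dvd_refl (L₀ * q ^ 2)) (MF.Coeff.jElem K L₀)) := by
  let T1 : modField K (L₀ * q ^ 2) :=
    ⟨qExpand K q (jSer K), qExpand_jSer_mem (dvd_mul_of_dvd_right (dvd_pow_self q two_ne_zero) L₀)⟩
  obtain ⟨Q, hQ, hQ0⟩ := isIntegralElem_jSer_qExpand (K := K) c q hq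
  have h1 : jTop K L₀ q ∈ chartR A₀ T1 := by
    refine mem_chartR_of_series ?_
    rw [MF.Coeff.coe_jElem, ← RED.Spec.jSer_eq_jqModC]
    exact ⟨Q, hQ, hQ0⟩
  refine chartRing_le_of_mem ?_ h1
  refine mem_chartR_of_series ?_
  rw [coe_degenMap, MF.Coeff.coe_jElem, ← RED.Spec.jSer_eq_jqModC]
  refine ⟨Q, hQ, ?_⟩
  have := congrArg (qExpand K q) hQ0
  rw [map_zero, hom_eval₂, show (qExpand K q).comp
      (eval₂RingHom (Int.castRingHom (LaurentSeries K)) (qExpand K q (jSer K))) =
    eval₂RingHom (Int.castRingHom (LaurentSeries K)) (qExpand K (q ^ 2) (jSer K)) from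
    ringHom_ext (fun c => by simp) (by
      simp only [RingHom.comp_apply, coe_eval₂RingHom, eval₂_X, qExpand_qExpand]
      exact qExpand_congr (pow_two q).symm _)] at this
  exact this

theorem degen_one_jElem (i : Fin 3) (hi : i ≠ 2) :
    degenMap K (branchDeg q i) (branchDeg_dvd L₀ q i) (MF.Coeff.jElem K L₀) = jTop K L₀ q := by
  fin_cases i
  · exact Subtype.ext (qExpand_one_apply _)
  · exact Subtype.ext (qExpand_one_apply _)
  · exact absurd rfl hi

theorem jTop_ne_zero : jTop K L₀ q ≠ 0 := fun h =>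
  MF.Coeff.transcendental_jElem K (L₀ * q ^ 2) (by
    rw [show MF.Coeff.jElem K (L₀ * q ^ 2) = 0 from h]; exact isAlgebraic_zero)

include hC hD in
/-- **The branch image at a point of the finite chart.** -/
theorem exists_place_finite
    (hR : IsChart Br (q : constA A₀ K) (chartR A₀ (jTop K L₀ q)))
    (y : Ideal (chartR A₀ (jTop K L₀ q))) [y.IsMaximal]
    (hqy : (⟨algebraMap (constA A₀ K) _ (q : constA A₀ K),
      (chartR A₀ (jTop K L₀ q)).algebraMap_mem _⟩ : chartR A₀ (jTop K L₀ q)) ∈ y)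
    {i : Fin 3} (hi : LiesOnBranch Br (chartR A₀ (jTop K L₀ q)) y i) :
    ∃ v : Place k (modularFunctionFieldFullC k L₀),
      jSpecial L₀ ∈ v.toValuationSubring ∧ HasPlace hR y i v := by
  haveI := hC.galois
  haveI := hC.dvrA
  haveI := isFunctionField_special (k := k) L₀ hD.chartData.hL
  haveI := FF.finiteDimensional_adjoin (transcendental_jSpecial (k := k) L₀)
  refine hD.exists_place hC hR (transcendental_jSpecial L₀) y hqy hi fun g hg => ?_
  obtain ⟨a, ha⟩ := LiftBase.exists_chartRed_eq_jParam π₀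
    (constRes π₀ (algebraMap K Qb) : constA A₀ K →+* k) hC.π₀_surj hC.surj hD.chartData.hL
    (fun w => w.2) (fun _ => rfl) (hC.normal L₀ hD.chartData.hL hqL) hg
  have hb : (a : modField K L₀) ∈ chartRing (constA A₀ K) (MF.Coeff.jElem K L₀) :=
    LiftBase.coe_baseParam (constRes π₀ (algebraMap K Qb) : constA A₀ K →+* k) hC.surj
      hD.chartData.hL ▸ a.2
  have hmap := map_mem_chartRing
    (degenMap K (branchDeg q i) (branchDeg_dvd L₀ q i) :
      modField K L₀ →+* modField K (L₀ * q ^ 2))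
    (fun w => algebraMap_degen hC (branchDeg_dvd L₀ q i) w) hb
  have hle : chartRing (constA A₀ K) (degenMap K (branchDeg q i) (branchDeg_dvd L₀ q i)
      (MF.Coeff.jElem K L₀)) ≤ chartR A₀ (jTop K L₀ q) := by
    refine chartRing_le_of_mem ?_
    by_cases hi2 : i = 2
    · subst hi2
      exact degen_sq_jElem_mem
    · rw [degen_one_jElem i hi2]
      exact self_mem_chartRing _
  exact ⟨⟨_, LiftBase.chartRing_mem_W _ _ a.2⟩, ⟨_, hle hmap⟩, 1, one_notMem_of_isPrime,
    mul_one _, ha⟩

include hC hD in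
/-- **The branch image at a cusp point of the chart of `1/j`.** -/
theorem exists_place_inv
    (c : K →+* ℂ)
    (hR : IsChart Br (q : constA A₀ K) (chartR A₀ (jTop K L₀ q)⁻¹))
    (y : Ideal (chartR A₀ (jTop K L₀ q)⁻¹)) [y.IsMaximal]
    (hqy : (⟨algebraMap (constA A₀ K) _ (q : constA A₀ K),
      (chartR A₀ (jTop K L₀ q)⁻¹).algebraMap_mem _⟩ : chartR A₀ (jTop K L₀ q)⁻¹) ∈ y)
    (hxy : (⟨(jTop K L₀ q)⁻¹, self_mem_chartRing _⟩ : chartR A₀ (jTop K L₀ q)⁻¹) ∈ y)
    {i : Fin 3} (hi : LiesOnBranch Br (chartR A₀ (jTop K L₀ q)⁻¹) y i) :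
    ∃ v : Place k (modularFunctionFieldFullC k L₀),
      0 < v.ord (jSpecial L₀)⁻¹ ∧ HasPlace hR y i v := by
  haveI := hC.galois
  haveI := hC.dvrA
  haveI := isFunctionField_special (k := k) L₀ hD.chartData.hL
  set xb : modularFunctionFieldFullC k L₀ := (jSpecial L₀)⁻¹ with hxb_def
  have hxb : Transcendental k xb := fun h => transcendental_jSpecial L₀ (by
    simpa [hxb_def] using h.inv)
  haveI := FF.finiteDimensional_adjoin hxb
  let x : chartR A₀ (jTop K L₀ q)⁻¹ := ⟨(jTop K L₀ q)⁻¹, self_mem_chartRing _⟩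
  let T := degenMap K (branchDeg q i) (branchDeg_dvd L₀ q i) (MF.Coeff.jElem K L₀)
  have hT : T ≠ 0 := (_root_.map_ne_zero _).mpr fun h => MF.Coeff.transcendental_jElem K L₀ (by
    rw [h]; exact isAlgebraic_zero)
  have hjT : jTop K L₀ q ∈ chartR A₀ T := by
    show _ ∈ chartR A₀ (degenMap K (branchDeg q i) _ _)
    by_cases hi2 : i = 2
    · subst hi2
      exact jTop_mem_degen_sq (hq := hq) c
    · rw [degen_one_jElem i hi2]
      exact self_mem_chartRing _
  have hden : ∀ b ∈ chartRing (constA A₀ K) (MF.Coeff.jElem K L₀)⁻¹,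
      ∃ a r : chartR A₀ (jTop K L₀ q)⁻¹, r ∉ y ∧
      degenMap K (branchDeg q i) (branchDeg_dvd L₀ q i) b * r = a := by
    intro b hb
    have h1 : (degenMap K (branchDeg q i) (branchDeg_dvd L₀ q i) :
        modField K L₀ →+* modField K (L₀ * q ^ 2)) b ∈ chartRing (constA A₀ K) T⁻¹ := by
      have := map_mem_chartRing
        (degenMap K (branchDeg q i) (branchDeg_dvd L₀ q i) :
          modField K L₀ →+* modField K (L₀ * q ^ 2))
        (fun w => algebraMap_degen hC (branchDeg_dvd L₀ q i) w) hb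
      rwa [map_inv₀] at this
    refine exists_cusp_denominator (inv_ne_zero jTop_ne_zero) (inv_ne_zero hT) ?_ y hxy h1
    rw [inv_inv, inv_inv]
    exact hjT
  have hred : (LiftBase.baseConstRed L₀ (constRes π₀ (algebraMap K Qb) : constA A₀ K →+* k)
      hC.surj hD.chartData.hL).red (LiftBase.baseParamInv _ hC.surj hD.chartData.hL) = xb :=
    ((LiftBase.baseConstRed L₀ _ hC.surj hD.chartData.hL).red_invParam _).trans
      (congrArg (·⁻¹) (LiftBase.red_baseParam _ hC.surj hD.chartData.hL))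
  have hcoe : ((LiftBase.baseParamInv (constRes π₀ (algebraMap K Qb) : constA A₀ K →+* k) hC.surj
      hD.chartData.hL : (LiftBase.baseConstRed L₀ _ hC.surj hD.chartData.hL).W) :
        modField K L₀) = (MF.Coeff.jElem K L₀)⁻¹ :=
    congrArg (·⁻¹) (LiftBase.coe_baseParam _ hC.surj hD.chartData.hL)
  obtain ⟨v, hxv, hv⟩ := hD.exists_place hC hR hxb y hqy hi fun g hg => by
    obtain ⟨a, ha⟩ := LiftBase.exists_chartRed_eq_jParamInv π₀
      (constRes π₀ (algebraMap K Qb) : constA A₀ K →+* k) hC.π₀_surj hC.surj hD.chartData.hL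
      (fun w => w.2) (fun _ => rfl) (hC.normalInv L₀ hD.chartData.hL hqL) hg
    obtain ⟨b, r, hr, hb⟩ := hden (a : modField K L₀) ((congrArg
      (fun z : modField K L₀ => (a : modField K L₀) ∈ chartRing (constA A₀ K) z) hcoe).mp a.2)
    exact ⟨⟨_, LiftBase.chartRing_mem_W _ _ a.2⟩, b, r, hr, hb, ha⟩
  refine ⟨v, ?_, hv⟩
  -- the coordinate vanishes at the place
  obtain ⟨a, r, hr, har⟩ := hden (MF.Coeff.jElem K L₀)⁻¹ (self_mem_chartRing _)
  have hay : a ∈ y := by
    by_contra hay
    obtain ⟨N, hN⟩ := exists_mul_inv_pow_mem_chartRing hT hjT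
    have hc : (a : modField K (L₀ * q ^ 2)) ^ N * jTop K L₀ q ∈ chartR A₀ (jTop K L₀ q)⁻¹ := by
      refine mem_chartRing_of_forall_valuation fun V hW hxV => ?_
      rcases V.mem_or_inv_mem T with h | h
      · exact mul_mem (pow_mem (chartRing_mem_valuationSubring hW hxV a.2) N)
          (chartRing_mem_valuationSubring hW h hjT)
      · have e1 : (a : modField K (L₀ * q ^ 2)) ^ N * jTop K L₀ q =
            jTop K L₀ q * T⁻¹ ^ N * (r : modField K (L₀ * q ^ 2)) ^ N := by
          rw [← har, map_inv₀, mul_pow]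
          ring
        rw [e1]
        exact mul_mem (chartRing_mem_valuationSubring hW h hN)
          (pow_mem (chartRing_mem_valuationSubring hW hxV r.2) N)
    refine hay ((inferInstance : y.IsPrime).mem_of_pow_mem N ?_)
    rw [show a ^ N = ⟨_, hc⟩ * x from Subtype.ext (by
      show (a : modField K (L₀ * q ^ 2)) ^ N =
        (a : modField K (L₀ * q ^ 2)) ^ N * jTop K L₀ q * (jTop K L₀ q)⁻¹
      rw [mul_inv_cancel_right₀ jTop_ne_zero])]
    exact y.mul_mem_left _ hxy
  obtain ⟨h, hres⟩ := hD.res_degen hC i (LiftBase.baseParamInv _ hC.surj hD.chartData.hL)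
  rw [hred] at hres
  have e2 : xb * chartRes Br hR i r = chartRes Br hR i a := by
    rw [← hres]
    show Br.res i ⟨_, h⟩ * Br.res i ⟨(r : modField K (L₀ * q ^ 2)), hR.mem_V r r.2 i⟩ =
      Br.res i ⟨(a : modField K (L₀ * q ^ 2)), hR.mem_V a a.2 i⟩
    rw [← map_mul]
    exact congrArg (Br.res i) (Subtype.ext (by
      refine Eq.trans ?_ har
      rw [← hcoe]
      rfl))
  obtain ⟨hmem, hiff⟩ := branch_image (chartRes Br hR i) v.toValuationSubring
    (fun b hb => hi b _ (RingHom.mem_ker.mp hb)) hv.1 hv.2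
  refine place_ord_pos_of_mem_nonunits v
    (fun h0 => hxb (by rw [h0]; exact isAlgebraic_zero)) ?_
  by_contra hnu
  have hr' : chartRes Br hR i r ∉ v.toValuationSubring.nonunits := fun h' => hr ((hiff r).mpr h')
  have hane : chartRes Br hR i a ≠ 0 := by
    rw [← e2]
    exact mul_ne_zero (fun h0 => hxb (by rw [h0]; exact isAlgebraic_zero))
      fun h0 => hr (hi r _ h0)
  refine (notMem_nonunits_of_ord_eq_zero v hane ?_) ((hiff a).mp hay)
  rw [← e2, v.ord_mul (fun h0 => hxb (by rw [h0]; exact isAlgebraic_zero))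
    (fun h0 : chartRes Br hR i r = 0 => hr (hi r _ h0)),
    ord_eq_zero_of_notMem_nonunits v hxv hnu,
    ord_eq_zero_of_notMem_nonunits v (hmem r) hr', add_zero]

end BranchData

end Setting

end Fermat.Agent.Carayol
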