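/-
The kernel of a branch at a point of a chart where its separator does not vanish: it is generated
by `q` on the outer branches and by the uniformiser on the middle one, by the order criterion of
the chart.
-/
import Fermat.Agent.Carayol.OrdinaryPlace

set_option autoImplicit false
set_option linter.unusedSectionVars false
set_option linter.style.haveILetI false
set_option maxHeartbeats 400000

noncomputable section

open Polynomial IntermediateField ModularCurve AlgebraicCurve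
open Fermat.Agent.Igusa Fermat.Agent.RED.Spec Fermat.Agent.HK.Corr

namespace Fermat.Agent.Carayol

open Fermat.Agent.RED

local notation "Qb" => AlgebraicClosure ℚ

section Setting

variable {A₀ : ValuationSubring Qb} {K K' k : Type} [Field K] [Algebra ℚ K] [Algebra K Qb]
  [Field K'] [Algebra ℚ K'] [Field k] {q L₀ : ℕ} [NeZero q] [NeZero L₀]
variable {hq : q.Prime} {hqL : ¬ q ∣ L₀} {π₀ : A₀ →+* k} {κ : K →+* K'} {ι : K' →+* Qb}
  {η : K'ˣ} {e0 e02 : modField K (L₀ * q ^ 2) →+* LaurentSeries K'}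
  {ez : Fin (q - 1) → modField K (L₀ * q ^ 2) →+* LaurentSeries K'} {k₀ : Fin (q - 1)}
  {Br : Branches (modField K (L₀ * q ^ 2)) (Fin 3) (fun _ => modularFunctionFieldFullC k L₀)}
  {ord : Fin 3 → modField K (L₀ * q ^ 2) → ℤ}

namespace BranchData

variable (hC : Consts A₀ q π₀ κ ι η) (hD : BranchData A₀ hq hqL π₀ κ ι η e0 e02 ez k₀ Br ord)

include hD in
theorem ord_one (i : Fin 3) : ord i 1 = 0 := by
  have := hD.ord_mul i 1 1 one_ne_zero one_ne_zero
  rw [one_mul] at this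
  omega

include hD in
theorem ord_pow {a : modField K (L₀ * q ^ 2)} (ha : a ≠ 0) (i : Fin 3) (n : ℕ) :
    ord i (a ^ n) = n * ord i a := by
  induction n with
  | zero => simpa using hD.ord_one i
  | succ n ih =>
    rw [pow_succ, hD.ord_mul i _ _ (pow_ne_zero n ha) ha, ih]
    push_cast
    ring

include hD in
theorem ord_div {a b : modField K (L₀ * q ^ 2)} (ha : a ≠ 0) (hb : b ≠ 0) (i : Fin 3) :
    ord i (a / b) = ord i a - ord i b := by
  have := hD.ord_mul i (a / b) b (div_ne_zero ha hb) hb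
  rw [div_mul_cancel₀ a hb] at this
  omega

include hD in
theorem ord_q_bounds (i : Fin 3) :
    ord i (q : modField K (L₀ * q ^ 2)) ≤ q ∧
      (i ≠ 1 → ord i (q : modField K (L₀ * q ^ 2)) = 1) := by
  have h2 : (2 : ℤ) ≤ q := by exact_mod_cast hq.two_le
  obtain ⟨h0, h1, h3⟩ := hD.ord_q
  fin_cases i
  · refine ⟨?_, fun _ => h0⟩
    show ord 0 _ ≤ _
    omega
  · refine ⟨?_, fun h => absurd rfl h⟩
    show ord 1 _ ≤ _
    omega
  · refine ⟨?_, fun _ => h3⟩
    show ord 2 _ ≤ _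
    omega

theorem natCast_ne_zero_top : ((q : ℕ) : modField K (L₀ * q ^ 2)) ≠ 0 := by
  haveI : CharZero K := charZero_of_injective_algebraMap (algebraMap ℚ K).injective
  haveI : CharZero (modField K (L₀ * q ^ 2)) :=
    charZero_of_injective_algebraMap (algebraMap K (modField K (L₀ * q ^ 2))).injective
  exact Nat.cast_ne_zero.mpr (NeZero.ne q)

variable {x : modField K (L₀ * q ^ 2)} (hR : IsChart Br (q : constA A₀ K) (chartR A₀ x))
  (hcrit : ∀ a, a ∈ chartR A₀ x ↔ a ∈ coordRing K x ∧ ∀ i, a ∈ Br.V i)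

include hD hR in
theorem ord_chart_nonneg {a : chartR A₀ x} (ha : (a : modField K (L₀ * q ^ 2)) ≠ 0) (i : Fin 3) :
    0 ≤ ord i (a : modField K (L₀ * q ^ 2)) :=
  (hD.mem_iff i _ ha).mp (hR.mem_V a a.2 i)

include hD in
theorem ord_chart_pos {a : chartR A₀ x} (ha : (a : modField K (L₀ * q ^ 2)) ≠ 0) {i : Fin 3}
    (h : chartRes Br hR i a = 0) : 0 < ord i (a : modField K (L₀ * q ^ 2)) :=
  (hD.res_eq_zero_iff i _ (hR.mem_V a a.2 i) ha).mp h

include hD hR hcrit in
/-- Division by `q` inside the chart. -/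
theorem exists_mul_q_eq {a : chartR A₀ x}
    (h : (a : modField K (L₀ * q ^ 2)) ≠ 0 → ∀ i,
      ord i (q : modField K (L₀ * q ^ 2)) ≤ ord i (a : modField K (L₀ * q ^ 2))) :
    ∃ b : chartR A₀ x, (a : modField K (L₀ * q ^ 2)) =
      algebraMap (constA A₀ K) (modField K (L₀ * q ^ 2)) (q : constA A₀ K) *
        (b : modField K (L₀ * q ^ 2)) := by
  rw [map_natCast]
  rcases eq_or_ne (a : modField K (L₀ * q ^ 2)) 0 with ha | ha
  · exact ⟨0, by rw [ha, ZeroMemClass.coe_zero, mul_zero]⟩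
  have hq0 := natCast_ne_zero_top (K := K) (L₀ := L₀) (q := q)
  refine ⟨⟨(a : modField K (L₀ * q ^ 2)) / q, (hcrit _).mpr ⟨?_, fun i => ?_⟩⟩,
    (mul_div_cancel₀ _ hq0).symm⟩
  · rw [div_eq_mul_inv, ← map_natCast (algebraMap K (modField K (L₀ * q ^ 2))) q, ← map_inv₀]
    exact mul_mem ((hcrit _).mp a.2).1 ((coordRing K x).algebraMap_mem _)
  · rw [hD.mem_iff i _ (div_ne_zero ha hq0), hD.ord_div ha hq0]
    have := h ha i
    omega

include hD hR hcrit in
/-- The kernel of a branch is generated by `p` where `u = e^q p^E / q` does not vanish. -/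
theorem exists_kernel_gen [IsDiscreteValuationRing (constA A₀ K)] {y : Ideal (chartR A₀ x)}
    {i : Fin 3} {e p : chartR A₀ x}
    (he : ∀ j, j ≠ i → chartRes Br hR j e = 0) (hey : e ∉ y) (hp0 : p ≠ 0)
    (hp : chartRes Br hR i p = 0) {E : ℕ} (hE : E ≠ 0)
    (hqE : ord i (q : modField K (L₀ * q ^ 2)) ≤ E)
    (hu : ∀ u : chartR A₀ x, (e : modField K (L₀ * q ^ 2)) ^ q * (p : modField K (L₀ * q ^ 2)) ^ E =
      (q : modField K (L₀ * q ^ 2)) * u → u ∉ y) :
    ∃ p : chartR A₀ x, p ≠ 0 ∧ chartRes Br hR i p = 0 ∧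
      ∀ a, chartRes Br hR i a = 0 → ∃ b r : chartR A₀ x, r ∉ y ∧ r * a = p * b := by
  have he0 : (e : modField K (L₀ * q ^ 2)) ≠ 0 := coe_ne_zero_of_notMem hey
  have hp0' : (p : modField K (L₀ * q ^ 2)) ≠ 0 := fun h => hp0 (Subtype.ext h)
  have hpi := hD.ord_chart_pos hR hp0' hp
  have hoff : ∀ j, j ≠ i → ord j (q : modField K (L₀ * q ^ 2)) ≤
      q * ord j (e : modField K (L₀ * q ^ 2)) := fun j hj => by
    have h1 := hD.ord_chart_pos hR he0 (he j hj)
    nlinarith [(hD.ord_q_bounds j).1]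
  obtain ⟨u, hu'⟩ := hD.exists_mul_q_eq hR hcrit (a := e ^ q * p ^ E) fun _ j => by
    push_cast
    rw [hD.ord_mul j _ _ (pow_ne_zero _ he0) (pow_ne_zero _ hp0'), hD.ord_pow he0,
      hD.ord_pow hp0']
    have h1 := hD.ord_chart_nonneg hR he0 j
    have h2 := hD.ord_chart_nonneg hR hp0' j
    by_cases hj : j = i
    · subst hj
      nlinarith
    · nlinarith [hoff j hj]
  push_cast at hu'
  refine ⟨p, hp0, hp, exists_mul_eq_of_chart_key (N := q) (e := e) (u := u) hR
    (by rw [map_natCast]; exact natCast_ne_zero_top (K := K) (L₀ := L₀)) hE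
    (hu u (by simpa using hu'))
    (fun a ha => ?_) (by simpa using hu')⟩
  obtain ⟨b, hb⟩ := hD.exists_mul_q_eq hR hcrit (a := a * e ^ q * p ^ (E - 1)) fun h0 j => by
    push_cast at h0 ⊢
    have ha0 : (a : modField K (L₀ * q ^ 2)) ≠ 0 := left_ne_zero_of_mul (left_ne_zero_of_mul h0)
    rw [hD.ord_mul j _ _ (mul_ne_zero ha0 (pow_ne_zero _ he0)) (pow_ne_zero _ hp0'),
      hD.ord_mul j _ _ ha0 (pow_ne_zero _ he0), hD.ord_pow he0, hD.ord_pow hp0']
    have h1 := hD.ord_chart_nonneg hR he0 j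
    have h2 := hD.ord_chart_nonneg hR hp0' j
    have h3 := hD.ord_chart_nonneg hR ha0 j
    have hcast : ((E - 1 : ℕ) : ℤ) = (E : ℤ) - 1 := by omega
    by_cases hj : j = i
    · subst hj
      have h4 := hD.ord_chart_pos hR ha0 ha
      rw [hcast]
      nlinarith
    · nlinarith [hoff j hj]
  exact ⟨b, by simpa only [Subalgebra.coe_mul, Subalgebra.coe_pow] using hb⟩

include hD hR hcrit in
/-- The kernel on an outer branch is generated by `q`. -/
theorem exists_kernel_gen_outer [IsDiscreteValuationRing (constA A₀ K)]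
    {y : Ideal (chartR A₀ x)} [y.IsPrime] {i : Fin 3} (hi : i ≠ 1)
    {e : chartR A₀ x} (he : ∀ j, j ≠ i → chartRes Br hR j e = 0) (hey : e ∉ y) :
    ∃ p : chartR A₀ x, p ≠ 0 ∧ chartRes Br hR i p = 0 ∧
      ∀ a, chartRes Br hR i a = 0 → ∃ b r : chartR A₀ x, r ∉ y ∧ r * a = p * b := by
  have hqF : algebraMap (constA A₀ K) (modField K (L₀ * q ^ 2)) (q : constA A₀ K) =
      (q : modField K (L₀ * q ^ 2)) := map_natCast _ q
  refine hD.exists_kernel_gen hR hcrit he hey
    (p := ⟨_, (chartR A₀ x).algebraMap_mem (q : constA A₀ K)⟩)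
    (fun h => natCast_ne_zero_top (K := K) (L₀ := L₀) (hqF.symm.trans (congrArg Subtype.val h)))
    (hR.res_π i _) (E := 1) one_ne_zero (by rw [(hD.ord_q_bounds i).2 hi]; simp) fun u hu huy => ?_
  refine hey ((inferInstance : y.IsPrime).mem_of_pow_mem q ?_)
  rw [pow_one] at hu
  rw [show e ^ q = u from Subtype.ext (mul_right_cancel₀ natCast_ne_zero_top (by
    push_cast
    rw [mul_comm (u : modField K (L₀ * q ^ 2)), ← hu]
    show _ = _ * algebraMap (constA A₀ K) (modField K (L₀ * q ^ 2)) (q : constA A₀ K)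
    rw [hqF]))]
  exact huy

include hD hR hcrit in
/-- The kernel on the middle branch is generated by a uniformiser whose `(q-1)`-st power over `q`
does not vanish at the point. -/
theorem exists_kernel_gen_mid [IsDiscreteValuationRing (constA A₀ K)] {y : Ideal (chartR A₀ x)}
    [y.IsPrime]
    {e p : chartR A₀ x} (he : ∀ j, j ≠ 1 → chartRes Br hR j e = 0) (hey : e ∉ y) (hp0 : p ≠ 0)
    (hp : chartRes Br hR 1 p = 0) {r : modularFunctionFieldFullC k L₀} (hr0 : r ≠ 0)
    (hr : ∃ h : (p : modField K (L₀ * q ^ 2)) ^ (q - 1) / (q : modField K (L₀ * q ^ 2)) ∈ Br.V 1,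
      Br.res 1 ⟨_, h⟩ = r)
    (hi : LiesOnBranch Br (chartR A₀ x) y 1) {v : Place k (modularFunctionFieldFullC k L₀)}
    (hv : HasPlace hR y 1 v) (hru : v.ord (chartRes Br hR 1 e) = 0 → v.ord r = 0) :
    ∃ p : chartR A₀ x, p ≠ 0 ∧ chartRes Br hR 1 p = 0 ∧
      ∀ a, chartRes Br hR 1 a = 0 → ∃ b r : chartR A₀ x, r ∉ y ∧ r * a = p * b := by
  obtain ⟨hmem, hiff⟩ := branch_image (chartRes Br hR 1) v.toValuationSubring
    (fun b hb => hi b _ (RingHom.mem_ker.mp hb)) hv.1 hv.2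
  have h2 := hq.two_le
  refine hD.exists_kernel_gen hR hcrit he hey hp0 hp (E := q - 1) (by omega)
    (by rw [hD.ord_q.2.1]; omega) fun u hu huy => ?_
  obtain ⟨hf, hres⟩ := hr
  have hs0 : chartRes Br hR 1 e ≠ 0 := fun h => hey (hi e _ h)
  have hs : v.ord (chartRes Br hR 1 e) = 0 :=
    ord_eq_zero_of_notMem_nonunits v (hmem e) fun h => hey ((hiff e).mpr h)
  have hψu : chartRes Br hR 1 u = chartRes Br hR 1 e ^ q * r := by
    rw [← hres, ← map_pow]
    show Br.res 1 ⟨(u : modField K (L₀ * q ^ 2)), hR.mem_V u u.2 1⟩ =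
      Br.res 1 ⟨((e ^ q : chartR A₀ x) : modField K (L₀ * q ^ 2)), hR.mem_V _ (e ^ q).2 1⟩ *
        Br.res 1 ⟨_, hf⟩
    rw [← map_mul]
    refine congrArg (Br.res 1) (Subtype.ext ?_)
    show (u : modField K (L₀ * q ^ 2)) = ((e ^ q : chartR A₀ x) : modField K (L₀ * q ^ 2)) *
      ((p : modField K (L₀ * q ^ 2)) ^ (q - 1) / q)
    rw [SubmonoidClass.coe_pow, ← mul_div_assoc, hu, mul_div_cancel_left₀ _ natCast_ne_zero_top]
  refine notMem_nonunits_of_ord_eq_zero v (z := chartRes Br hR 1 u) ?_ ?_ ((hiff u).mp huy)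
  · rw [hψu]; exact mul_ne_zero (pow_ne_zero _ hs0) hr0
  · rw [hψu, v.ord_mul (pow_ne_zero _ hs0) hr0, FF.ord_pow, hs, hru hs]
    simp

end BranchData

end Setting

end Fermat.Agent.Carayol
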