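/-
The ordinary points of the special fibre of the model of `X₀(q² L₀)`: on each chart, at a point
where a separator does not vanish, the branch has for image the local ring of the reduced normal
curve of level `L₀` and its kernel is generated by a uniformiser.

Separators and the uniformiser of the middle branch are hypotheses; only the residues are used.
-/
import Fermat.Agent.Carayol.OrdinaryKernel

set_option autoImplicit false
set_option linter.unusedSectionVars false
set_option linter.style.haveILetI false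
set_option maxHeartbeats 400000

noncomputable section

open Polynomial IntermediateField ModularCurve AlgebraicCurve
open Fermat.Agent.Igusa Fermat.Agent.RED.Spec Fermat.Agent.HK.Corr

namespace Fermat.Agent.Carayol

open Fermat.Agent.RED

local notation "Qb" => AlgebraicClosure ℚ

section Setting

variable {A₀ : ValuationSubring Qb} {K K' k : Type} [Field K] [Algebra ℚ K] [Algebra K Qb]
  [Field K'] [Algebra ℚ K'] [Field k] {q L₀ : ℕ} [NeZero q] [NeZero L₀]
variable {hq : q.Prime} {hqL : ¬ q ∣ L₀} {π₀ : A₀ →+* k} {κ : K →+* K'} {ι : K' →+* Qb}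
  {η : K'ˣ} {e0 e02 : modField K (L₀ * q ^ 2) →+* LaurentSeries K'}
  {ez : Fin (q - 1) → modField K (L₀ * q ^ 2) →+* LaurentSeries K'} {k₀ : Fin (q - 1)}
  {Br : Branches (modField K (L₀ * q ^ 2)) (Fin 3) (fun _ => modularFunctionFieldFullC k L₀)}
  {ord : Fin 3 → modField K (L₀ * q ^ 2) → ℤ}

open BranchData

variable (hC : Consts A₀ q π₀ κ ι η) (hD : BranchData A₀ hq hqL π₀ κ ι η e0 e02 ez k₀ Br ord)

include hC hD in
/-- The branch ring at every point of the finite chart on a branch. -/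
theorem BranchData.exists_dvr_finite (hR : IsChart Br (q : constA A₀ K) (chartR A₀ (jTop K L₀ q)))
    (y : Ideal (chartR A₀ (jTop K L₀ q))) [y.IsMaximal]
    (hqy : (⟨algebraMap (constA A₀ K) _ (q : constA A₀ K),
      (chartR A₀ (jTop K L₀ q)).algebraMap_mem _⟩ : chartR A₀ (jTop K L₀ q)) ∈ y)
    (i : Fin 3) (hi : LiesOnBranch Br (chartR A₀ (jTop K L₀ q)) y i) :
    ∃ O : ValuationSubring (modularFunctionFieldFullC k L₀), IsDiscreteValuationRing O ∧
      (∀ z ∈ O, ∃ a r : chartR A₀ (jTop K L₀ q), r ∉ y ∧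
        z * chartRes Br hR i r = chartRes Br hR i a) ∧
      ∃ a ∈ y, chartRes Br hR i a ≠ 0 := by
  obtain ⟨v, -, hv⟩ := hD.exists_place_finite hC hR y hqy hi
  exact ⟨v.toValuationSubring, inferInstance, hv.1, hv.2⟩

include hC hD in
/-- **Points of the finite chart**, given separators, the uniformiser of the middle branch and the
supersingular points. -/
theorem BranchData.pointProps_finite
    (hR : IsChart Br (q : constA A₀ K) (chartR A₀ (jTop K L₀ q)))
    (e : Fin 3 → chartR A₀ (jTop K L₀ q))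
    (he : ∀ i j, j ≠ i → chartRes Br hR j (e i) = 0)
    (p : chartR A₀ (jTop K L₀ q)) (hp0 : p ≠ 0) (hp : chartRes Br hR 1 p = 0)
    (r : modularFunctionFieldFullC k L₀) (hr0 : r ≠ 0)
    (hr : ∃ h : (p : modField K (L₀ * q ^ 2)) ^ (q - 1) / (q : modField K (L₀ * q ^ 2)) ∈ Br.V 1,
      Br.res 1 ⟨_, h⟩ = r)
    (hru : ∀ v : Place k (modularFunctionFieldFullC k L₀), jSpecial L₀ ∈ v.toValuationSubring →
      v.ord (chartRes Br hR 1 (e 1)) = 0 → v.ord r = 0)
    (hss : ∀ (y : Ideal (chartR A₀ (jTop K L₀ q))) [y.IsMaximal],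
      (⟨algebraMap (constA A₀ K) _ (q : constA A₀ K),
        (chartR A₀ (jTop K L₀ q)).algebraMap_mem _⟩ : chartR A₀ (jTop K L₀ q)) ∈ y →
      (∀ i, e i ∈ y) → PointProps Br (chartR A₀ (jTop K L₀ q)) y)
    (y : Ideal (chartR A₀ (jTop K L₀ q))) [y.IsMaximal]
    (hqy : (⟨algebraMap (constA A₀ K) _ (q : constA A₀ K),
      (chartR A₀ (jTop K L₀ q)).algebraMap_mem _⟩ : chartR A₀ (jTop K L₀ q)) ∈ y) :
    PointProps Br (chartR A₀ (jTop K L₀ q)) y := by
  haveI := hC.dvrA
  have hcrit := (hD.chartData.chart false hC.irreducible_q).2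
  by_cases h : ∀ i, e i ∈ y
  · exact hss y hqy h
  push Not at h
  obtain ⟨i, hi⟩ := h
  have hon := liesOnBranch_of_sep hR hqy (he i) hi
  refine pointProps_of_ordinary hR hqy (he i) hi ?_ (hD.exists_dvr_finite hC hR y hqy i hon)
  by_cases hi1 : i = 1
  · subst hi1
    obtain ⟨v, hxv, hv⟩ := hD.exists_place_finite hC hR y hqy hon
    exact hD.exists_kernel_gen_mid hR hcrit (he 1) hi hp0 hp hr0 hr hon hv (hru v hxv)
  · exact hD.exists_kernel_gen_outer hR hcrit hi1 (he i) hi

include hC hD in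
/-- **Points of the chart of `1/j`**, given the finite chart and, at the cusps, nonvanishing of the
separators and of the residue of the middle uniformiser. -/
theorem BranchData.pointProps_inv
    (c : K →+* ℂ)
    (hR₀ : IsChart Br (q : constA A₀ K) (chartR A₀ (jTop K L₀ q)))
    (hfinite : ∀ (y : Ideal (chartR A₀ (jTop K L₀ q))) [y.IsMaximal],
      (⟨algebraMap (constA A₀ K) _ (q : constA A₀ K),
        (chartR A₀ (jTop K L₀ q)).algebraMap_mem _⟩ : chartR A₀ (jTop K L₀ q)) ∈ y →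
      PointProps Br (chartR A₀ (jTop K L₀ q)) y)
    (hR : IsChart Br (q : constA A₀ K) (chartR A₀ (jTop K L₀ q)⁻¹))
    (e : Fin 3 → chartR A₀ (jTop K L₀ q)⁻¹)
    (he : ∀ i j, j ≠ i → chartRes Br hR j (e i) = 0)
    (p : chartR A₀ (jTop K L₀ q)⁻¹) (hp0 : p ≠ 0) (hp : chartRes Br hR 1 p = 0)
    (r : modularFunctionFieldFullC k L₀) (hr0 : r ≠ 0)
    (hr : ∃ h : (p : modField K (L₀ * q ^ 2)) ^ (q - 1) / (q : modField K (L₀ * q ^ 2)) ∈ Br.V 1,
      Br.res 1 ⟨_, h⟩ = r)
    (hcusp : ∀ v : Place k (modularFunctionFieldFullC k L₀), 0 < v.ord (jSpecial L₀)⁻¹ →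
      (∀ i, chartRes Br hR i (e i) ≠ 0 ∧ v.ord (chartRes Br hR i (e i)) = 0) ∧ v.ord r = 0)
    (y : Ideal (chartR A₀ (jTop K L₀ q)⁻¹)) [y.IsMaximal]
    (hqy : (⟨algebraMap (constA A₀ K) _ (q : constA A₀ K),
      (chartR A₀ (jTop K L₀ q)⁻¹).algebraMap_mem _⟩ : chartR A₀ (jTop K L₀ q)⁻¹) ∈ y) :
    PointProps Br (chartR A₀ (jTop K L₀ q)⁻¹) y := by
  haveI := hC.dvrA
  by_cases hxy : (⟨(jTop K L₀ q)⁻¹, self_mem_chartRing _⟩ : chartR A₀ (jTop K L₀ q)⁻¹) ∈ y
  swap
  · obtain ⟨-, -, -, hg0, hg1, -⟩ := hD.chartData.chart_facts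
    exact pointProps_of_other_chart hC.irreducible_q hR₀ hR (jTop K L₀ q) (self_mem_chartRing _)
      (self_mem_chartRing _) hg0 hg1 (fun a ha => ha) hfinite y hqy hxy
  have hcrit := (hD.chartData.chart true hC.irreducible_q).2
  obtain ⟨i, hon⟩ := exists_liesOnBranch hR hqy
  obtain ⟨v, hxv, hv⟩ := hD.exists_place_inv hC c hR y hqy hxy hon
  obtain ⟨hse, hsr⟩ := hcusp v hxv
  obtain ⟨-, hiff⟩ := branch_image (chartRes Br hR i) v.toValuationSubring
    (fun b hb => hon b _ (RingHom.mem_ker.mp hb)) hv.1 hv.2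
  have hi : e i ∉ y := fun h =>
    notMem_nonunits_of_ord_eq_zero v (hse i).1 (hse i).2 ((hiff _).mp h)
  refine pointProps_of_ordinary hR hqy (he i) hi ?_
    ⟨v.toValuationSubring, inferInstance, hv.1, hv.2⟩
  by_cases hi1 : i = 1
  · subst hi1
    exact hD.exists_kernel_gen_mid hR hcrit (he 1) hi hp0 hp hr0 hr hon hv fun _ => hsr
  · exact hD.exists_kernel_gen_outer hR hcrit hi1 (he i) hi

end Setting

end Fermat.Agent.Carayol
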