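import Fermat.Agent.Carayol.SSPoints
import Fermat.Agent.Carayol.BranchUnits

/-!
The supersingular points of the finite chart, with the separators `c'12`, `c'01 c12`, `c01`: the
input `hss` of `pointProps_of_chart`.
-/

set_option autoImplicit false
set_option linter.unusedSectionVars false
set_option maxHeartbeats 800000
set_option synthInstance.maxHeartbeats 400000

noncomputable section

open ModularCurve
open Fermat.Agent.Igusa Fermat.Agent.RED.Spec Fermat.Agent.HK.Corr Fermat.Agent.CarayolHigh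

namespace Fermat.Agent.Carayol.SS

local notation "Qb" => AlgebraicClosure ℚ

variable {A₀ : ValuationSubring Qb} {K K' k : Type} [Field K] [Algebra ℚ K] [Algebra K Qb]
  [Field K'] [Algebra ℚ K'] [Field k] {q L₀ : ℕ} [NeZero q] [NeZero L₀]
  {hq : q.Prime} {hqL : ¬ q ∣ L₀} {π₀ : A₀ →+* k} {κ : K →+* K'} {ι : K' →+* Qb} {η : K'ˣ}
  {e0 e02 : modField K (L₀ * q ^ 2) →+* LaurentSeries K'}
  {ez : Fin (q - 1) → modField K (L₀ * q ^ 2) →+* LaurentSeries K'} {k₀ : Fin (q - 1)}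
  {Br : Branches (modField K (L₀ * q ^ 2)) (Fin 3) (fun _ => modularFunctionFieldFullC k L₀)}
  {ord : Fin 3 → modField K (L₀ * q ^ 2) → ℤ}

/-- The separator of the branch `i` in the finite chart. -/
def sepFin (A : ValuationSubring K) (ιc : K →+* ℂ) (i : Fin 3) : topChart A L₀ q :=
  ⟨sepFinElem ιc L₀ q i, sepFinElem_mem_chartRing ιc i⟩

/-- The residue of the separator of `i` on its branch is a power of `Δ^(1-q)`. -/
theorem exists_dRes_pow (hC : Consts A₀ q π₀ κ ι η)
    (B : BranchData A₀ hq hqL π₀ κ ι η e0 e02 ez k₀ Br ord) (ιc : K' →+* ℂ) :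
    ∃ dC : modularFunctionFieldFullC k L₀, (dC : LaurentSeries k) = dRes k q ∧
      ∀ i, ∃ h : sepFinElem (ιc.comp κ) L₀ q i ∈ Br.V i,
        Br.res i ⟨_, h⟩ = dC ^ (![q, 2, q] : Fin 3 → ℕ) i := by
  haveI := Fact.mk hq
  haveI := hC.charP
  haveI := hC.dvr
  have D := B.chartData
  refine ⟨⟨dRes k q, dRes_mem_fullC ιc D.hπ (constA A₀ K) D.hA D.hsurj D.hη L₀⟩, rfl, fun i => ?_⟩
  obtain ⟨h, hres⟩ := (D.isGauss_iff i _ _).mp (D.branches.isGauss_sepFin _ ιc k₀ i)
  refine ⟨h, Subtype.ext (hres.trans ?_)⟩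
  fin_cases i <;> rfl

/-- **The supersingular points of the finite chart**: where the three separators vanish. -/
theorem pointProps_ss_sepFin (hC : Consts A₀ q π₀ κ ι η)
    (B : BranchData A₀ hq hqL π₀ κ ι η e0 e02 ez k₀ Br ord) (hL : 4 ∣ L₀ ∨ 9 ∣ L₀)
    (ιc : K' →+* ℂ) (y : Ideal (topChart (constA A₀ K) L₀ q)) [y.IsMaximal]
    (hqy : (⟨algebraMap (constA A₀ K) (modField K (L₀ * q ^ 2)) (q : constA A₀ K),
      (topChart (constA A₀ K) L₀ q).algebraMap_mem _⟩ : topChart (constA A₀ K) L₀ q) ∈ y)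
    (hsy : ∀ i, sepFin (constA A₀ K) (ιc.comp κ) i ∈ y) :
    PointProps Br (topChart (constA A₀ K) L₀ q) y := by
  obtain ⟨dC, hdC, hres⟩ := exists_dRes_pow hC B ιc
  refine pointProps_ss hC B hL dC (by rw [hdC]; exact dRes_mul_deltaSeries k q) _
    (![q, 2, q] : Fin 3 → ℕ) (fun i => ?_) hres y hqy hsy
  have := hq.pos
  fin_cases i <;> simp [this]

end Fermat.Agent.Carayol.SS
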