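/-
The data of the `Model` of `X₀(q² L₀)` exists at every place over `q`.
-/
import Fermat.Agent.Carayol.ModelInst
import Fermat.Agent.Carayol.ConstsExist
import Fermat.Agent.Carayol.BranchData
import Fermat.Agent.Carayol.BranchUnits
import Fermat.Agent.Carayol.OrdinaryPoints
import Fermat.Agent.Carayol.SSPointsSep

set_option autoImplicit false
set_option linter.style.haveILetI false
set_option linter.unusedSectionVars false
set_option maxHeartbeats 400000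

noncomputable section

open ModularCurve IsLocalRing AlgebraicCurve Fermat.Agent.RED
open Fermat.Agent.HK.Corr Fermat.Agent.Igusa Fermat.Agent.RED.Spec Fermat.Agent.CarayolHigh

namespace Fermat.Agent.Carayol

local notation "Qb" => AlgebraicClosure ℚ

section Data

variable (A₀ : ValuationSubring Qb) {K K' k : Type} [Field K] [Algebra ℚ K] [Algebra K Qb]
  [Field K'] [Algebra ℚ K'] [Field k] {q L₀ : ℕ} [NeZero q] [NeZero L₀]

/-- Everything `modelOf` takes. -/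
structure ModelData [IsDiscreteValuationRing (constA A₀ K)] (hq : q.Prime) (hqL : ¬ q ∣ L₀)
    (π₀ : A₀ →+* k) (κ : K →+* K') (ι : K' →+* Qb) (η : K'ˣ)
    (e0 e02 : modField K (L₀ * q ^ 2) →+* LaurentSeries K')
    (ez : Fin (q - 1) → modField K (L₀ * q ^ 2) →+* LaurentSeries K') (k₀ : Fin (q - 1))
    (Br : Branches (modField K (L₀ * q ^ 2)) (Fin 3) (fun _ => modularFunctionFieldFullC k L₀))
    (ord : Fin 3 → modField K (L₀ * q ^ 2) → ℤ) : Prop where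
  consts : Consts A₀ q π₀ κ ι η
  branchData : BranchData A₀ hq hqL π₀ κ ι η e0 e02 ez k₀ Br ord
  exists_unif : ∀ i, ∃ p ∈ chartOf A₀ K L₀ q 0, p ≠ 0 ∧ ord i p = 1
  exists_sep : ∀ i, ∃ e ∈ chartOf A₀ K L₀ q 0, e ≠ 0 ∧ ord i e = 0 ∧ ∀ j, j ≠ i → 0 < ord j e
  points : ∀ c (y : Ideal (chartOf A₀ K L₀ q c)) [y.IsMaximal], qAt A₀ c ∈ y →
    PointProps Br (chartOf A₀ K L₀ q c) y
  finite : ∀ (y : Ideal (chartOf A₀ K L₀ q 1)) [y.IsMaximal], qAt A₀ 1 ∈ y →
    (∀ i, LiesOnBranch Br _ y i) →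
    (⟨(jTop K L₀ q)⁻¹, self_mem_chartRing _⟩ : chartOf A₀ K L₀ q 1) ∉ y

variable {A₀} [IsDiscreteValuationRing (constA A₀ K)] {hq : q.Prime} {hqL : ¬ q ∣ L₀}
  {π₀ : A₀ →+* k} {κ : K →+* K'} {ι : K' →+* Qb} {η : K'ˣ}
  {e0 e02 : modField K (L₀ * q ^ 2) →+* LaurentSeries K'}
  {ez : Fin (q - 1) → modField K (L₀ * q ^ 2) →+* LaurentSeries K'} {k₀ : Fin (q - 1)}
  {Br : Branches (modField K (L₀ * q ^ 2)) (Fin 3) (fun _ => modularFunctionFieldFullC k L₀)}
  {ord : Fin 3 → modField K (L₀ * q ^ 2) → ℤ}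

/-- The model given by the data. -/
def ModelData.model (D : ModelData A₀ hq hqL π₀ κ ι η e0 e02 ez k₀ Br ord) :
    Model (constA A₀ K) (modField K (L₀ * q ^ 2)) k (modularFunctionFieldFullC k L₀) :=
  modelOf D.consts D.branchData D.exists_unif D.exists_sep D.points D.finite

end Data

/-- `1/j` in the special fibre. -/
theorem coe_jSpecial_inv {k : Type} [Field k] (L : ℕ) [NeZero L] :
    ((((jSpecial L : modularFunctionFieldFullC k L))⁻¹ : modularFunctionFieldFullC k L) :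
      LaurentSeries k) = jInvSeries k :=
  inv_eq_of_mul_eq_one_right (jqModC_mul_inv k)

section Orders

variable {A₀ : ValuationSubring Qb} {K K' k : Type} [Field K] [Algebra ℚ K] [Algebra K Qb]
  [Field K'] [Algebra ℚ K'] [Field k] {q L₀ : ℕ} [NeZero q] [NeZero L₀]
  {π₀ : A₀ →+* k} {κ : K →+* K'} {ι : K' →+* Qb} {η : K'ˣ} {hq : q.Prime} {hqL : ¬ q ∣ L₀}
  {e0 e02 : modField K (L₀ * q ^ 2) →+* LaurentSeries K'}
  {ez : Fin (q - 1) → modField K (L₀ * q ^ 2) →+* LaurentSeries K'} {k₀ : Fin (q - 1)}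
  {Br : Branches (modField K (L₀ * q ^ 2)) (Fin 3) (fun _ => modularFunctionFieldFullC k L₀)}
  {ord : Fin 3 → modField K (L₀ * q ^ 2) → ℤ}
  (B : BranchData A₀ hq hqL π₀ κ ι η e0 e02 ez k₀ Br ord)
  {i : Fin 3} {a : modField K (L₀ * q ^ 2)} {r : LaurentSeries k}

include B

/-- A function with a nonzero residue has order zero. -/
theorem BranchData.ord_eq_zero_of_isGauss
    (h : IsGauss (constRes π₀ ι) (branchTriple e0 e02 ez k₀ i a) r) (hr : r ≠ 0) :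
    a ≠ 0 ∧ ord i a = 0 := by
  obtain ⟨hm, he⟩ := (B.chartData.isGauss_iff i a r).mp h
  have h0 : Br.res i ⟨a, hm⟩ ≠ 0 := fun h0 => hr (by rw [← he, h0, map_zero])
  have ha : a ≠ 0 := by
    rintro rfl
    exact h0 (map_zero (Br.res i))
  refine ⟨ha, le_antisymm (not_lt.mp fun hp => h0 ((B.res_eq_zero_iff i a hm ha).mpr hp)) ?_⟩
  exact (B.mem_iff i a ha).mp hm

/-- A function with residue zero has positive order. -/
theorem BranchData.ord_pos_of_isGauss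
    (h : IsGauss (constRes π₀ ι) (branchTriple e0 e02 ez k₀ i a) 0) (ha : a ≠ 0) :
    0 < ord i a := by
  obtain ⟨hm, he⟩ := (B.chartData.isGauss_iff i a 0).mp h
  exact (B.res_eq_zero_iff i a hm ha).mp ((map_eq_zero _).mp he)

omit B in
theorem Consts.hsurjA (hC : Consts A₀ q π₀ κ ι η) (y : k) :
    ∃ (x : K) (hx : x ∈ constA A₀ K),
      constRes π₀ ι ⟨κ x, (hC.κ_mem_iff x).mpr hx⟩ = y := by
  obtain ⟨x, hx⟩ := hC.surj y
  exact ⟨x, x.2, (hC.constRes_κ x _).trans hx⟩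

/-- The uniformisers. -/
theorem BranchData.exists_unif (hC : Consts A₀ q π₀ κ ι η) {N₀ : ℕ} (H : Haupt N₀)
    (hH : N₀ ∣ L₀) (i : Fin 3) : ∃ p ∈ chartOf A₀ K L₀ q 0, p ≠ 0 ∧ ord i p = 1 := by
  haveI := hC.charP
  haveI := Fact.mk hq
  haveI : CharZero K := charZero_of_injective_algebraMap (algebraMap ℚ K).injective
  haveI : CharZero (modField K (L₀ * q ^ 2)) := charZero_of_injective_algebraMap
    (algebraMap K (modField K (L₀ * q ^ 2))).injective
  have hq0 : (q : modField K (L₀ * q ^ 2)) ≠ 0 := Nat.cast_ne_zero.mpr hq.ne_zero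
  have hqmem : (q : modField K (L₀ * q ^ 2)) ∈ chartOf A₀ K L₀ q 0 :=
    natCast_mem _ q
  fin_cases i
  · exact ⟨_, hqmem, hq0, B.ord_q.1⟩
  · let ιC : K' →+* ℂ := (IsAlgClosed.lift : Qb →ₐ[ℚ] ℂ).toRingHom.comp ι
    have h := (B.chartData.branches.isGauss_midFinUnif (constRes π₀ ι) ιC k₀ H hH).2.1
    obtain ⟨ha, ho⟩ := B.ord_eq_zero_of_isGauss (i := 1) h (midFinRes_ne_zero (q := q) H)
    set p := midFinUnif (ιC.comp κ) L₀ q H hH
    have hq1 : q - 1 ≠ 0 := by have := hq.two_le; omega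
    have hp : p ≠ 0 := fun h0 => ha (by rw [h0, zero_pow hq1, zero_div])
    refine ⟨p, midFinUnif_mem_chartRing _ H hH, hp, ?_⟩
    have h1 := B.ord_mul 1 _ _ ha hq0
    rw [div_mul_cancel₀ _ hq0, B.ord_pow hp 1, ho, B.ord_q.2.1, Nat.cast_sub hq.pos] at h1
    have h2 : ((q : ℤ) - 1) * ord 1 p = ((q : ℤ) - 1) * 1 := by
      push_cast at h1
      linarith
    have := hq.two_le
    exact mul_left_cancel₀ (by omega) h2
  · exact ⟨_, hqmem, hq0, B.ord_q.2.2⟩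

/-- The separators. -/
theorem BranchData.exists_sep (hC : Consts A₀ q π₀ κ ι η) (i : Fin 3) :
    ∃ e ∈ chartOf A₀ K L₀ q 0, e ≠ 0 ∧ ord i e = 0 ∧ ∀ j, j ≠ i → 0 < ord j e := by
  haveI := hC.charP
  haveI := Fact.mk hq
  let ιC : K' →+* ℂ := (IsAlgClosed.lift : Qb →ₐ[ℚ] ℂ).toRingHom.comp ι
  obtain ⟨hne, ho⟩ := B.ord_eq_zero_of_isGauss
    (B.chartData.branches.isGauss_sepFin (constRes π₀ ι) ιC k₀ i) (sepFinRes_ne_zero k q i)
  exact ⟨_, sepFinElem_mem_chartRing _ i, hne, ho, fun j hj => B.ord_pos_of_isGauss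
    (B.chartData.branches.isGauss_sepFin_off (constRes π₀ ι) ιC k₀ hj) hne⟩

/-- The residue on a chart of a function with a Gauss residue. -/
theorem BranchData.chartRes_eq {R : Subalgebra (constA A₀ K) (modField K (L₀ * q ^ 2))}
    [IsDiscreteValuationRing (constA A₀ K)] {ϖ : constA A₀ K} (hR : IsChart Br ϖ R) {x : R}
    (h : IsGauss (constRes π₀ ι) (branchTriple e0 e02 ez k₀ i (x : modField K (L₀ * q ^ 2))) r) :
    (chartRes Br hR i x : LaurentSeries k) = r :=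
  ((B.chartData.isGauss_iff i _ r).mp h).2

/-- At a point over the cusps the separator of some branch does not vanish. -/
theorem BranchData.exists_sepInf_notMem [IsDiscreteValuationRing (constA A₀ K)]
    (hC : Consts A₀ q π₀ κ ι η) (ιC : K' →+* ℂ)
    {y : Ideal (chartR A₀ (jTop K L₀ q)⁻¹)} [y.IsMaximal]
    (hy : (⟨algebraMap (constA A₀ K) _ (q : constA A₀ K),
      (chartR A₀ (jTop K L₀ q)⁻¹).algebraMap_mem _⟩ : chartR A₀ (jTop K L₀ q)⁻¹) ∈ y)
    (hx : (⟨(jTop K L₀ q)⁻¹, self_mem_chartRing _⟩ : chartR A₀ (jTop K L₀ q)⁻¹) ∈ y) :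
    ∃ i, (⟨sepInfElem (ιC.comp κ) L₀ q i, sepInfElem_mem_chartRing _ hq i⟩ :
      chartR A₀ (jTop K L₀ q)⁻¹) ∉ y := by
  haveI := hC.charP
  haveI := hC.dvr
  haveI := Fact.mk hq
  have hR : IsChart Br (q : constA A₀ K) (chartR A₀ (jTop K L₀ q)⁻¹) := B.isChart hC 1
  obtain ⟨i, hi⟩ := exists_liesOnBranch hR hy
  obtain ⟨v, hv, hP⟩ := B.exists_place_inv hC (ιC.comp κ) hR y hy hx hi
  obtain ⟨-, hiff⟩ := branch_image (chartRes Br hR i) v.toValuationSubring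
    (fun b hb => hi b _ (RingHom.mem_ker.mp hb)) hP.1 hP.2
  obtain ⟨hs0, hs⟩ := ord_sepInfRes ιC B.chartData.hπ (constA A₀ K) B.chartData.hA
    B.chartData.hsurj B.chartData.hη i (s := chartRes Br hR i
      ⟨sepInfElem (ιC.comp κ) L₀ q i, sepInfElem_mem_chartRing _ hq i⟩) (x := (jSpecial L₀)⁻¹)
    (B.chartRes_eq hR (B.chartData.branches.isGauss_sepInf (constRes π₀ ι) ιC k₀ i))
    (coe_jSpecial_inv L₀) v hv
  exact ⟨i, fun h => notMem_nonunits_of_ord_eq_zero v hs0 hs ((hiff _).mp h)⟩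

/-- A point of the chart at infinity on all branches is no cusp. -/
theorem BranchData.finite [IsDiscreteValuationRing (constA A₀ K)] (hC : Consts A₀ q π₀ κ ι η)
    (y : Ideal (chartR A₀ (jTop K L₀ q)⁻¹)) [y.IsMaximal]
    (hy : (⟨algebraMap (constA A₀ K) _ (q : constA A₀ K),
      (chartR A₀ (jTop K L₀ q)⁻¹).algebraMap_mem _⟩ : chartR A₀ (jTop K L₀ q)⁻¹) ∈ y)
    (hon : ∀ i, LiesOnBranch Br _ y i) :
    (⟨(jTop K L₀ q)⁻¹, self_mem_chartRing _⟩ : chartR A₀ (jTop K L₀ q)⁻¹) ∉ y := by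
  haveI := hC.charP
  haveI := Fact.mk hq
  intro hx
  let ιC : K' →+* ℂ := (IsAlgClosed.lift : Qb →ₐ[ℚ] ℂ).toRingHom.comp ι
  have hR : IsChart Br (q : constA A₀ K) (chartR A₀ (jTop K L₀ q)⁻¹) := B.isChart hC 1
  obtain ⟨i, hi⟩ := B.exists_sepInf_notMem hC ιC hy hx
  obtain ⟨j, hj⟩ : ∃ j : Fin 3, j ≠ i := exists_ne i
  exact hi (hon j _ (hR.mem_V _ (sepInfElem_mem_chartRing _ hq i) j) (Subtype.ext
    (B.chartRes_eq hR (B.chartData.branches.isGauss_sepInf_off (constRes π₀ ι) ιC k₀ hj))))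

/-- The properties of the points of both charts from the supersingular ones. -/
theorem BranchData.pointProps [IsDiscreteValuationRing (constA A₀ K)]
    (hC : Consts A₀ q π₀ κ ι η) (ιC : K' →+* ℂ) {N₀ : ℕ} (H : Haupt N₀) (hH : N₀ ∣ L₀)
    (hss : ∀ (y : Ideal (chartOf A₀ K L₀ q 0)) [y.IsMaximal], qAt A₀ 0 ∈ y →
      (∀ i, (⟨sepFinElem (ιC.comp κ) L₀ q i, sepFinElem_mem_chartRing _ i⟩ :
        chartOf A₀ K L₀ q 0) ∈ y) → PointProps Br (chartOf A₀ K L₀ q 0) y)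
    (c : Fin 2) (y : Ideal (chartOf A₀ K L₀ q c)) [y.IsMaximal] (hy : qAt A₀ c ∈ y) :
    PointProps Br (chartOf A₀ K L₀ q c) y := by
  haveI := hC.charP
  haveI := hC.dvr
  haveI := Fact.mk hq
  have hB := B.chartData.branches
  have hR₀ : IsChart Br (q : constA A₀ K) (chartR A₀ (jTop K L₀ q)) := B.isChart hC 0
  have hR₁ : IsChart Br (q : constA A₀ K) (chartR A₀ (jTop K L₀ q)⁻¹) := B.isChart hC 1
  have hq1 : q - 1 ≠ 0 := by have := hq.two_le; omega
  revert c y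
  have hfin : ∀ (y : Ideal (chartR A₀ (jTop K L₀ q))) [y.IsMaximal],
      (⟨algebraMap (constA A₀ K) _ (q : constA A₀ K),
        (chartR A₀ (jTop K L₀ q)).algebraMap_mem _⟩ : chartR A₀ (jTop K L₀ q)) ∈ y →
      PointProps Br (chartR A₀ (jTop K L₀ q)) y := by
    intro y _ hy
    obtain ⟨-, hm, -, -, -, hp⟩ := hB.isGauss_midFinUnif (constRes π₀ ι) ιC k₀ H hH
    obtain ⟨hmem, hmr⟩ := (B.chartData.isGauss_iff 1 _ _).mp hm
    obtain ⟨ha, -⟩ := B.ord_eq_zero_of_isGauss (i := 1) hm (midFinRes_ne_zero (q := q) H)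
    refine B.pointProps_finite hC hR₀
      (fun i => ⟨sepFinElem (ιC.comp κ) L₀ q i, sepFinElem_mem_chartRing _ i⟩)
      (fun i j hj => Subtype.ext
        (B.chartRes_eq _ (hB.isGauss_sepFin_off (constRes π₀ ι) ιC k₀ hj)))
      ⟨midFinUnif (ιC.comp κ) L₀ q H hH, midFinUnif_mem_chartRing _ H hH⟩
      (fun h => ha (by
        rw [show midFinUnif (ιC.comp κ) L₀ q H hH = 0 from congrArg Subtype.val h, zero_pow hq1,
          zero_div]))
      (Subtype.ext (B.chartRes_eq _ hp)) (Br.res 1 ⟨_, hmem⟩)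
      (fun h => midFinRes_ne_zero (k := k) (q := q) H (by rw [← hmr, h, map_zero])) ⟨hmem, rfl⟩
      (fun v hjv hsv => ?_) (fun y hy' hy he => @hss y hy' hy he) y hy
    exact ord_midFinRes hq H hH hqL (j := jSpecial L₀) (s := chartRes Br hR₀ 1
        ⟨sepFinElem (ιC.comp κ) L₀ q 1, sepFinElem_mem_chartRing _ 1⟩) rfl
      ((B.chartRes_eq hR₀ (x := ⟨sepFinElem (ιC.comp κ) L₀ q 1, sepFinElem_mem_chartRing _ 1⟩)
        (hB.isGauss_sepFin (constRes π₀ ι) ιC k₀ 1)).trans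
          (by simp only [sepFinRes, Matrix.cons_val_one, Matrix.cons_val_zero]))
      (dRes_mem_fullC ιC B.chartData.hπ (constA A₀ K) B.chartData.hA B.chartData.hsurj
        B.chartData.hη L₀) hmr
      (tBar_mem_fullC (constA A₀ K) B.chartData.hA B.chartData.hsurj B.chartData.hL H hH)
      v hjv hsv
  refine Fin.forall_fin_two.mpr ⟨hfin, ?_⟩
  suffices h : ∀ (y : Ideal (chartR A₀ (jTop K L₀ q)⁻¹)) [y.IsMaximal],
      (⟨algebraMap (constA A₀ K) _ (q : constA A₀ K),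
        (chartR A₀ (jTop K L₀ q)⁻¹).algebraMap_mem _⟩ : chartR A₀ (jTop K L₀ q)⁻¹) ∈ y →
      PointProps Br (chartR A₀ (jTop K L₀ q)⁻¹) y from h
  intro y _ hy
  obtain ⟨-, hm, -, -, -, hp⟩ := hB.isGauss_midInfUnif (constRes π₀ ι) ιC k₀
  obtain ⟨hmem, hmr⟩ := (B.chartData.isGauss_iff 1 _ _).mp hm
  obtain ⟨ha, -⟩ := B.ord_eq_zero_of_isGauss (i := 1) hm (midInfRes_ne_zero k q)
  refine B.pointProps_inv hC (ιC.comp κ) hR₀ hfin hR₁
    (fun i => ⟨sepInfElem (ιC.comp κ) L₀ q i, sepInfElem_mem_chartRing _ hq i⟩)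
    (fun i j hj => Subtype.ext
      (B.chartRes_eq _ (hB.isGauss_sepInf_off (constRes π₀ ι) ιC k₀ hj)))
    ⟨midInfUnif (ιC.comp κ) L₀ q, midInfUnif_mem_chartRing _ hq⟩
    (fun h => ha (by
      rw [show midInfUnif (ιC.comp κ) L₀ q = 0 from congrArg Subtype.val h, zero_pow hq1, zero_div]))
    (Subtype.ext (B.chartRes_eq _ hp)) (Br.res 1 ⟨_, hmem⟩)
    (fun h => midInfRes_ne_zero k q (by rw [← hmr, h, map_zero])) ⟨hmem, rfl⟩
    (fun v hv => ⟨fun i => ?_, ?_⟩) y hy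
  · exact ord_sepInfRes ιC B.chartData.hπ (constA A₀ K) B.chartData.hA B.chartData.hsurj
      B.chartData.hη i (B.chartRes_eq hR₁ (x := ⟨sepInfElem (ιC.comp κ) L₀ q i,
        sepInfElem_mem_chartRing _ hq i⟩) (hB.isGauss_sepInf (constRes π₀ ι) ιC k₀ i))
      (coe_jSpecial_inv L₀) v hv
  · exact (ord_midInfRes ιC B.chartData.hπ (constA A₀ K) B.chartData.hA B.chartData.hsurj
      B.chartData.hη hmr (coe_jSpecial_inv L₀) v hv).2

end Orders

/-- The data exists. -/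
theorem exists_modelData {L₀ q : ℕ} [NeZero L₀] [NeZero q] (hq : q.Prime) (hqL : ¬ q ∣ L₀)
    (h49 : (q ≠ 2 ∧ 4 ∣ L₀) ∨ (q = 2 ∧ 9 ∣ L₀)) {A₀ : ValuationSubring Qb}
    (hA : A₀.LiesOverPrime q) :
    ∃ (K : Type) (_ : Field K) (_ : Algebra ℚ K) (_ : Algebra K Qb)
      (_ : IsDiscreteValuationRing (constA A₀ K)) (K' : Type) (_ : Field K') (_ : Algebra ℚ K')
      (κ : K →+* K') (ι : K' →+* Qb) (η : K'ˣ)
      (e0 e02 : modField K (L₀ * q ^ 2) →+* LaurentSeries K')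
      (ez : Fin (q - 1) → modField K (L₀ * q ^ 2) →+* LaurentSeries K') (k₀ : Fin (q - 1))
      (Br : Branches (modField K (L₀ * q ^ 2)) (Fin 3)
        (fun _ => modularFunctionFieldFullC (ResidueField A₀) L₀))
      (ord : Fin 3 → modField K (L₀ * q ^ 2) → ℤ),
      ModelData A₀ hq hqL (residue A₀) κ ι η e0 e02 ez k₀ Br ord := by
  obtain ⟨K, _, _, _, K', _, _, κ, ι, η, hC⟩ := exists_consts hq hA
  haveI := hC.dvrA
  haveI := hC.charP
  let ιC : K' →+* ℂ := (IsAlgClosed.lift : Qb →ₐ[ℚ] ℂ).toRingHom.comp ι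
  have hη : IsPrimitiveRoot (η ^ q) q := hC.hη.pow (pow_pos hq.pos 2) (sq q)
  obtain ⟨e02, ez, hB⟩ := exists_branchEmbs (L₀ := L₀) κ ιC hq hqL hη
  let k₀ : Fin (q - 1) := ⟨0, Nat.sub_pos_of_lt hq.one_lt⟩
  obtain ⟨Br, ord, B⟩ := exists_branchData hC hB k₀
  obtain ⟨N₀, ⟨H⟩, hH⟩ : ∃ N₀, Nonempty (Haupt N₀) ∧ N₀ ∣ L₀ := by
    rcases h49 with ⟨-, h⟩ | ⟨-, h⟩
    exacts [⟨4, ⟨haupt4⟩, h⟩, ⟨9, ⟨haupt9⟩, h⟩]
  exact ⟨K, inferInstance, inferInstance, inferInstance, inferInstance, K', inferInstance,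
    inferInstance, κ, ι, η, _, e02, ez, k₀, Br, ord,
    { consts := hC
      branchData := B
      exists_unif := B.exists_unif hC H hH
      exists_sep := B.exists_sep hC
      points := B.pointProps hC ιC H hH fun y hym hy hs => by
        let y' : Ideal (SS.topChart (constA A₀ K) L₀ q) := y
        haveI : y'.IsMaximal := hym
        exact SS.pointProps_ss_sepFin hC B (h49.imp And.right And.right) ιC y' hy hs
      finite := B.finite hC }⟩

end Fermat.Agent.Carayol
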