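/-
A group of unipotent `2 × 2` matrices has a common fixed vector, and over an Artinian ring such a
vector lifts to a nonzero fixed matrix killed by the kernel of the point.
-/
import Mathlib.LinearAlgebra.Matrix.Charpoly.Coeff
import Mathlib.RingTheory.Artinian.Ring
import Mathlib.RingTheory.Ideal.AssociatedPrime.Localization

set_option autoImplicit false

open Polynomial Matrix

namespace Fermat.Agent.Carayol

theorem trace_det_of_charpoly_eq {k : Type*} [CommRing k] [Nontrivial k]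
    {M : Matrix (Fin 2) (Fin 2) k} (h : M.charpoly = (X - 1) ^ 2) : M.trace = 2 ∧ M.det = 1 := by
  have hk : M.charpoly = X ^ 2 - C M.trace * X + C M.det := Matrix.charpoly_fin_two M
  rw [hk, show ((X : k[X]) - 1) ^ 2 = X ^ 2 - C 2 * X + C 1 by rw [map_ofNat, map_one]; ring] at h
  refine ⟨?_, ?_⟩
  · simpa [coeff_X, coeff_C, coeff_X_pow, coeff_one] using congrArg (fun P : k[X] => P.coeff 1) h
  · simpa [coeff_X, coeff_C, coeff_X_pow, coeff_one] using congrArg (fun P : k[X] => P.coeff 0) h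

/-- **Kolchin.** A group of unipotent `2 × 2` matrices fixes a nonzero vector. -/
theorem exists_fixed_vec {k : Type*} [Field k] {G : Type*} [Group G]
    (ρ : G →* Matrix (Fin 2) (Fin 2) k) (h : ∀ g, (ρ g).charpoly = (X - 1) ^ 2) :
    ∃ v : Fin 2 → k, v ≠ 0 ∧ ∀ g, ρ g *ᵥ v = v := by
  by_cases htriv : ∀ g, ρ g = 1
  · exact ⟨![1, 0], by simp, fun g => by rw [htriv, one_mulVec]⟩
  push Not at htriv
  obtain ⟨g₀, hg₀⟩ := htriv
  have hd : ∀ g, ρ g 1 1 = 2 - ρ g 0 0 := fun g => by
    have := (trace_det_of_charpoly_eq (h g)).1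
    rw [Matrix.trace_fin_two] at this
    linear_combination this
  have hbc : ∀ g, ρ g 0 1 * ρ g 1 0 + (ρ g 0 0 - 1) ^ 2 = 0 := fun g => by
    have := (trace_det_of_charpoly_eq (h g)).2
    rw [Matrix.det_fin_two, hd] at this
    linear_combination -this
  have htr : ∀ g, 2 * (ρ g₀ 0 0 - 1) * (ρ g 0 0 - 1) + ρ g₀ 0 1 * ρ g 1 0
      + ρ g₀ 1 0 * ρ g 0 1 = 0 := fun g => by
    have := (trace_det_of_charpoly_eq (h (g₀ * g))).1
    rw [map_mul, Matrix.trace_fin_two, Matrix.mul_apply, Matrix.mul_apply, Fin.sum_univ_two,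
      Fin.sum_univ_two, hd, hd] at this
    linear_combination this
  by_cases hb : ρ g₀ 0 1 = 0
  · have hx : ρ g₀ 0 0 = 1 := by
      have := hbc g₀
      rw [hb, zero_mul, zero_add] at this
      exact sub_eq_zero.mp (pow_eq_zero_iff two_ne_zero |>.mp this)
    have hc : ρ g₀ 1 0 ≠ 0 := fun hc => hg₀ (by
      ext i j
      fin_cases i <;> fin_cases j <;> simp [hb, hc, hx, hd g₀]
      norm_num)
    refine ⟨![0, 1], by simp, fun g => ?_⟩
    have hb' : ρ g 0 1 = 0 := by
      have := htr g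
      rw [hb, hx] at this
      simpa [hc] using this
    have hx' : ρ g 0 0 = 1 := by
      have := hbc g
      rw [hb', zero_mul, zero_add] at this
      exact sub_eq_zero.mp (pow_eq_zero_iff two_ne_zero |>.mp this)
    ext i
    fin_cases i <;> simp [Matrix.mulVec, dotProduct, Fin.sum_univ_two, hb', hd g, hx'] <;> norm_num
  · refine ⟨![ρ g₀ 0 1, -(ρ g₀ 0 0 - 1)], fun e => hb (by simpa using congrFun e 0), fun g => ?_⟩
    have h1 : (ρ g 0 0 - 1) * ρ g₀ 0 1 - ρ g 0 1 * (ρ g₀ 0 0 - 1) = 0 := by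
      refine pow_eq_zero_iff two_ne_zero |>.mp ?_
      linear_combination (ρ g₀ 0 1) ^ 2 * hbc g - ρ g 0 1 * ρ g₀ 0 1 * htr g +
        ρ g 0 1 ^ 2 * hbc g₀
    have h2 : ρ g 1 0 * ρ g₀ 0 1 + (ρ g 0 0 - 1) * (ρ g₀ 0 0 - 1) = 0 := by
      refine pow_eq_zero_iff two_ne_zero |>.mp ?_
      linear_combination ρ g 1 0 * ρ g₀ 0 1 * htr g - ρ g 0 1 * ρ g 1 0 * hbc g₀ +
        (ρ g₀ 0 0 - 1) ^ 2 * hbc g
    ext i
    fin_cases i <;>
      simp [Matrix.mulVec, dotProduct, Fin.sum_univ_two, hd g]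
    · linear_combination h1
    · linear_combination h2

/-- A maximal ideal of an Artinian ring is the annihilator of an element. -/
theorem exists_annihilated {R : Type*} [CommRing R] [IsArtinianRing R] (P : Ideal R) [P.IsMaximal] :
    ∃ u : R, ∀ r : R, r * u = 0 ↔ r ∈ P := by
  classical
  have hne : ∃ a : R, a ∉ P ∧ ∀ x ∈ P, IsNilpotent (a * x) := by
    have hfin : {I : Ideal R | I.IsPrime}.Finite := by
      simpa [Set.ext_iff, IsArtinianRing.isPrime_iff_isMaximal] using
        IsArtinianRing.setOf_isMaximal_finite R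
    set s := hfin.toFinset.filter (· ≠ P)
    have hex : ∀ I ∈ s, ∃ a ∈ I, a ∉ P := fun I hI => by
      simp only [s, Finset.mem_filter, Set.Finite.mem_toFinset, Set.mem_setOf_eq] at hI
      by_contra hcon
      push Not at hcon
      haveI := hI.1
      exact hI.2 ((IsArtinianRing.isPrime_iff_isMaximal I).mp hI.1 |>.eq_of_le
        (Ideal.IsMaximal.ne_top ‹_›) hcon)
    choose! a ha ha' using hex
    refine ⟨∏ I ∈ s, a I, fun h => ?_, fun x hx => ?_⟩
    · obtain ⟨I, hI, h'⟩ := (‹P.IsMaximal›.isPrime.prod_mem_iff).mp h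
      exact ha' I hI h'
    · rw [← mem_nilradical, nilradical_eq_sInf, Ideal.mem_sInf]
      intro I hI
      by_cases hIP : I = P
      · exact I.mul_mem_left _ (hIP ▸ hx)
      · have hIs : I ∈ s := Finset.mem_filter.mpr ⟨hfin.mem_toFinset.mpr hI, hIP⟩
        exact I.mul_mem_right _ (I.mem_of_dvd (Finset.dvd_prod_of_mem a hIs) (ha I hIs))
  obtain ⟨a, haP, hnil⟩ := hne
  -- `a P` is a nilpotent ideal
  obtain ⟨n, hn⟩ : IsNilpotent (Ideal.span {a} * P) := by
    obtain ⟨n, hn⟩ := IsArtinianRing.isNilpotent_nilradical (R := R)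
    refine ⟨n, le_bot_iff.mp ?_⟩
    calc (Ideal.span {a} * P) ^ n ≤ nilradical R ^ n := Ideal.pow_right_mono
          (Ideal.span_singleton_mul_le_iff.mpr fun x hx => mem_nilradical.mpr (hnil x hx)) n
      _ = ⊥ := hn
  set J : ℕ → Ideal R := fun k => Ideal.span {a ^ n} * P ^ k
  have hJ : J n = ⊥ := by
    simp only [J]
    rw [← Ideal.span_singleton_pow, ← mul_pow, hn, Ideal.zero_eq_bot]
  have hJ0 : J 0 ≠ ⊥ := fun h => by
    simp only [J, pow_zero, Ideal.one_eq_top, Ideal.mul_top, Ideal.span_singleton_eq_bot] at h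
    exact haP (‹P.IsMaximal›.isPrime.mem_of_pow_mem n (h ▸ P.zero_mem))
  have hJex : ∃ k, J k = ⊥ := ⟨n, hJ⟩
  set k := Nat.find hJex
  have hk : J k = ⊥ := Nat.find_spec hJex
  obtain ⟨k', hk'⟩ : ∃ k', k = k' + 1 := Nat.exists_eq_succ_of_ne_zero fun h => hJ0 (h ▸ hk)
  obtain ⟨u, huJ, hu⟩ := Submodule.exists_mem_ne_zero_of_ne_bot
    (Nat.find_min hJex (show k' < k by omega))
  refine ⟨u, fun r => ⟨fun h => ?_, fun hr => ?_⟩⟩
  · by_contra hr
    obtain ⟨s, t, ht, hst⟩ := ‹P.IsMaximal›.exists_inv hr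
    have h2 : t * u = 0 := by
      have : t * u ∈ J k := by
        simp only [J]
        rw [hk', pow_succ, ← mul_assoc, mul_comm t u]
        exact Ideal.mul_mem_mul huJ ht
      rwa [hk, Ideal.mem_bot] at this
    exact hu (calc u = (s * r + t) * u := by rw [hst, one_mul]
      _ = 0 := by rw [add_mul, mul_assoc, h, mul_zero, h2, add_zero])
  · have : u * r ∈ J k := by
      simp only [J]
      rw [hk', pow_succ, ← mul_assoc]
      exact Ideal.mul_mem_mul huJ hr
    rwa [hk, Ideal.mem_bot, mul_comm] at this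

/-- **Fixed matrix.** If the specialisation at `χ` is unipotent on every element, some nonzero
matrix killed by `ker χ` is fixed by left multiplication. -/
theorem exists_fixed_matrix {R E : Type*} [CommRing R] [IsArtinianRing R] [Field E] (χ : R →+* E)
    {G : Type*} [Group G] (ρ : G →* Matrix (Fin 2) (Fin 2) R)
    (h : ∀ g, (χ.mapMatrix (ρ g)).charpoly = (X - 1) ^ 2) :
    ∃ A : Matrix (Fin 2) (Fin 2) R, A ≠ 0 ∧ (∀ g, ρ g * A = A) ∧
      ∀ r, χ r = 0 → r • A = 0 := by
  haveI hP : (RingHom.ker χ).IsMaximal :=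
    (IsArtinianRing.isPrime_iff_isMaximal _).mp (RingHom.ker_isPrime χ)
  obtain ⟨u, hu⟩ := exists_annihilated (RingHom.ker χ)
  let _ := Ideal.Quotient.field (RingHom.ker χ)
  let π := Ideal.Quotient.mk (RingHom.ker χ)
  let χ' : R ⧸ RingHom.ker χ →+* E := Ideal.Quotient.lift _ χ fun a ha => ha
  obtain ⟨v, hv0, hv⟩ := exists_fixed_vec ((π.mapMatrix.toMonoidHom).comp ρ) fun g => by
    refine Polynomial.map_injective χ' χ'.injective ?_
    rw [← Matrix.charpoly_map, Polynomial.map_pow, Polynomial.map_sub, Polynomial.map_X,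
      Polynomial.map_one]
    exact h g
  choose w hw using fun i => Ideal.Quotient.mk_surjective (v i)
  refine ⟨Matrix.of fun i _ => u * w i, fun hA => hv0 (funext fun i => ?_), fun g => ?_,
    fun r hr => ?_⟩
  · rw [← hw i, Pi.zero_apply, Ideal.Quotient.eq_zero_iff_mem, ← hu, mul_comm]
    exact congrFun (congrFun hA i) 0
  · ext i j
    simp only [Matrix.mul_apply, Matrix.of_apply]
    have hdiff : (∑ k, ρ g i k * w k) - w i ∈ RingHom.ker χ := by
      rw [← Ideal.Quotient.eq_zero_iff_mem, map_sub, map_sum, hw, sub_eq_zero]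
      refine Eq.trans ?_ (congrFun (hv g) i)
      simp only [Matrix.mulVec, dotProduct, map_mul, hw]
      rfl
    have := (hu _).mpr hdiff
    rw [sub_mul, sub_eq_zero, Finset.sum_mul] at this
    calc ∑ k, ρ g i k * (u * w k) = ∑ k, ρ g i k * w k * u :=
          Finset.sum_congr rfl fun k _ => by ring
      _ = u * w i := by rw [this]; ring
  · ext i j
    rw [Matrix.smul_apply, Matrix.of_apply, Matrix.zero_apply, smul_eq_mul, ← mul_assoc,
      (hu r).mpr hr, zero_mul]

end Fermat.Agent.Carayol
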