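/-
From a point of the Hecke algebra at which a group of Galois automorphisms acts unipotently on the
Tate module to a compatible system of torsion points of unbounded order fixed by the group and
killed by the Hecke polynomials vanishing at the point.
-/
import Fermat.Agent.HK.TateFinal
import Fermat.Agent.Carayol.Unipotent
import Fermat.Agent.MF.IntStruct.Hecke

set_option autoImplicit false

noncomputable section

open CongruenceSubgroup ModularCurve Polynomial
open scoped Matrix TensorProduct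

namespace Fermat.Agent.Carayol

variable {N : ℕ} [NeZero N] {p : ℕ} [Fact p.Prime]

local notation "MR" => Fin (MF.ParHom.parRank N)
local notation "Γℚ" => (AlgebraicClosure ℚ ≃ₐ[ℚ] AlgebraicClosure ℚ)

theorem isArtinianRing_ratHecke : IsArtinianRing (GAL.RatHecke N p) :=
  haveI : Module.Finite ℤ (GAL.HeckeT N) := MF.IntStruct.moduleFinite_heckeAlgebra N 2 ∅
  haveI : Module.Finite ℚ_[p] (GAL.RatHecke N p) := inferInstance
  IsArtinianRing.of_finite ℚ_[p] _

/-- Clearing the denominators of a vector over `ℚ_p`. -/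
theorem exists_integral_multiple {ι : Type*} [Fintype ι] (c : ι → ℚ_[p]) :
    ∃ (s : ℚ_[p]) (w : ι → ℤ_[p]), s ≠ 0 ∧ ∀ i, (w i : ℚ_[p]) = s * c i := by
  classical
  have h : ∀ i, ∃ n : ℕ, ‖(p : ℚ_[p]) ^ n * c i‖ ≤ 1 := fun i => by
    obtain ⟨n, hn⟩ := pow_unbounded_of_one_lt ‖c i‖
      (show (1 : ℝ) < p by exact_mod_cast (Fact.out (p := p.Prime)).one_lt)
    refine ⟨n, ?_⟩
    rw [norm_mul, norm_pow, Padic.norm_p, inv_pow, inv_mul_le_iff₀ (pow_pos (Nat.cast_pos.mpr (Fact.out (p := p.Prime)).pos) n), mul_one]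
    exact hn.le
  choose n hn using h
  let m := Finset.univ.sup n
  have hm : ∀ i, ‖(p : ℚ_[p]) ^ m * c i‖ ≤ 1 := fun i => by
    rw [show m = (m - n i) + n i from (Nat.sub_add_cancel (Finset.le_sup (Finset.mem_univ i))).symm,
      pow_add, mul_assoc, norm_mul]
    refine mul_le_one₀ ?_ (norm_nonneg _) (hn i)
    rw [norm_pow]
    refine pow_le_one₀ (norm_nonneg _) ?_
    rw [Padic.norm_p]
    exact inv_le_one_of_one_le₀ (by exact_mod_cast (Fact.out (p := p.Prime)).one_le)
  exact ⟨(p : ℚ_[p]) ^ m, fun i => ⟨_, hm i⟩,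
    pow_ne_zero _ (Nat.cast_ne_zero.mpr (Fact.out (p := p.Prime)).ne_zero), fun i => rfl⟩

set_option synthInstance.maxHeartbeats 400000 in
open HK in
/-- A nonzero integral vector of the Tate module fixed by `G` and killed at the point. -/
theorem exists_fixed_tate_vec (D : TorsionCoords N p) {E : Type} [Field E]
    (χ : GAL.RatHecke N p →+* E) (G : Subgroup Γℚ)
    (hG : ∀ σ ∈ G, (χ.mapMatrix (D.tateRho σ)).charpoly = (X - 1) ^ 2) :
    ∃ w : MR → ℤ_[p], w ≠ 0 ∧ (∀ σ ∈ G, D.tateMat σ *ᵥ w = w) ∧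
      ∀ t : TFull N, χ (GAL.toRatHecke N p t) = 0 →
        (heckeRep N t).map (Int.castRingHom ℤ_[p]) *ᵥ w = 0 := by
  haveI := isArtinianRing_ratHecke (N := N) (p := p)
  obtain ⟨A, hA0, hAfix, hAkill⟩ := exists_fixed_matrix χ (D.tateRho.comp G.subtype)
    fun g => hG g g.2
  set e := (isDualBasis_hDual N ℚ_[p]).matrixEquiv.trans
    (Matrix.reindexAlgEquiv (GAL.RatHecke N p) (GAL.RatHecke N p) (Equiv.swap (0 : Fin 2) 1))
  set a := e.symm A
  have ha : ∀ σ ∈ G, D.galRep σ * a = a := fun σ hσ => e.injective <| by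
    rw [map_mul]
    show D.tateRho σ * e (e.symm A) = e (e.symm A)
    rw [AlgEquiv.apply_symm_apply]
    exact hAfix ⟨σ, hσ⟩
  obtain ⟨y, hy⟩ : ∃ y, a y ≠ 0 := by
    by_contra hcon
    push Not at hcon
    exact hA0 (by simpa [a] using congrArg e (LinearMap.ext hcon : a = 0))
  set x := a y
  obtain ⟨s, w, hs, hw⟩ := exists_integral_multiple (hCoord N ℚ_[p] x)
  have hinj : Function.Injective fun v : MR → ℤ_[p] => PadicInt.Coe.ringHom ∘ v := fun u v h =>
    funext fun i => Subtype.ext (congrFun h i)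
  have hwx : PadicInt.Coe.ringHom ∘ w = s • hCoord N ℚ_[p] x := funext fun i => hw i
  have hmul : ∀ (M : Matrix MR MR ℤ_[p]), PadicInt.Coe.ringHom ∘ (M *ᵥ w) =
      s • (M.map (PadicInt.Coe.ringHom (p := p)) *ᵥ hCoord N ℚ_[p] x) := fun M => by
    rw [← Matrix.mulVec_smul, ← hwx]
    exact funext fun i => RingHom.map_mulVec _ _ _ i
  refine ⟨w, fun h0 => hy ?_, fun σ hσ => hinj ?_, fun t ht => hinj ?_⟩
  · have : s • hCoord N ℚ_[p] x = 0 := by
      rw [← hwx, h0]
      exact funext fun i => map_zero _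
    exact (hCoord N ℚ_[p]).map_eq_zero_iff.mp ((smul_eq_zero_iff_right hs).mp this)
  · show PadicInt.Coe.ringHom ∘ (D.tateMat σ *ᵥ w) = _
    rw [hmul]
    refine Eq.trans ?_ hwx.symm
    congr 1
    show toQMat (D.tateMat σ) *ᵥ _ = _
    rw [← D.hCoord_galEndQ]
    exact congrArg (hCoord N ℚ_[p]) (LinearMap.congr_fun (ha σ hσ) y)
  · have h0 : GAL.toRatHecke N p t • x = 0 := by
      have : GAL.toRatHecke N p t • a = 0 := by
        rw [← map_smul, hAkill _ ht, map_zero]
      exact LinearMap.congr_fun this y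
    have h1 : heckeAct N ℚ_[p] t x = 0 := by
      rw [← h0]
      exact ((HSpace.tmul_smul N ℚ_[p] (1 : ℚ_[p]) t x).trans (one_smul _ _)).symm
    show PadicInt.Coe.ringHom ∘ _ = PadicInt.Coe.ringHom ∘ (0 : MR → ℤ_[p])
    rw [hmul, Matrix.map_map]
    have h2 := congrArg (hCoord N ℚ_[p]) h1
    rw [hCoord_apply_end, hMatrix_heckeAct, map_zero] at h2
    rw [show (⇑(PadicInt.Coe.ringHom (p := p)) ∘ ⇑(Int.castRingHom ℤ_[p]) : ℤ → ℚ_[p]) =
        ⇑(Int.castRingHom ℚ_[p]) from funext fun n => map_intCast _ n, h2, smul_zero]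
    exact funext fun i => (map_zero _).symm

/-- **The torsion points.** -/
theorem exists_fixed_points (h : HeckeOperatorsCommuteBar N) {E : Type} [Field E]
    (χ : GAL.RatHecke N p →+* E) (G : Subgroup Γℚ)
    (hG : ∀ σ ∈ G, (χ.mapMatrix ((HK.tateCoords N p).tateRho σ)).charpoly = (X - 1) ^ 2) :
    ∃ P : ℕ → JZero N, (∀ k, p ^ k • P k = 0) ∧ (∀ k, ∀ σ ∈ G, σ • P k = P k) ∧
      (∀ t : HeckeAlg, χ (GAL.toRatHecke N p (CuspForm.heckeEvalForms N 2 t)) = 0 →
        ∀ k, heckeEvalBar h t (P k) = 0) ∧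
      ∀ C : ℕ, C ≠ 0 → ∃ k, C • P k ≠ 0 := by
  set D := HK.tateCoords N p
  obtain ⟨w, hw0, hfix, hkill⟩ := exists_fixed_tate_vec D χ G hG
  let v : ∀ k, MR → ZMod (p ^ k) := fun k => PadicInt.toZModPow k ∘ w
  let z : ∀ k, HK.jTor N p k := fun k => (D.e k).symm (v k)
  have hez : ∀ k, D.e k (z k) = v k := fun k => (D.e k).apply_symm_apply _
  refine ⟨fun k => (z k : JZero N), fun k => (z k).2, fun k σ hσ => ?_, fun t ht k => ?_,
    fun C hC => ?_⟩
  · refine congrArg Subtype.val (a₁ := (⟨σ • (z k : JZero N),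
      HK.TorsionCoords.smul_mem_jTor σ (z k).2⟩ : HK.jTor N p k)) ((D.e k).injective ?_)
    rw [← D.galMat_mulVec, hez, ← D.tateMat_mod]
    exact (funext fun i => (RingHom.map_mulVec (PadicInt.toZModPow k) _ w i).symm).trans
      (congrArg (PadicInt.toZModPow k ∘ ·) (hfix σ hσ))
  · refine congrArg Subtype.val (a₁ := (⟨heckeEvalBar h t (z k : JZero N),
      HK.heckeEvalBar_mem_jTor h t (z k).2⟩ : HK.jTor N p k)) (a₂ := 0) ((D.e k).injective ?_)
    rw [D.e_heckeEvalBar, hez, map_zero]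
    refine Eq.trans ?_ ((funext fun i => (RingHom.map_mulVec (PadicInt.toZModPow k) _ w i).symm
      ).trans ((congrArg (PadicInt.toZModPow k ∘ ·) (hkill _ ht)).trans
        (funext fun i => map_zero _)))
    rw [Matrix.map_map]
    congr 1
    exact congrArg _ (funext fun n => (map_intCast _ n).symm)
  · by_contra hcon
    push Not at hcon
    refine hw0 (funext fun i => ?_)
    have hz : ∀ k, PadicInt.toZModPow k ((C : ℤ_[p]) * w i) = 0 := fun k => by
      have h1 : (C : ℕ) • z k = 0 := Subtype.ext (hcon k)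
      have h2 := congrArg (D.e k) h1
      rw [map_nsmul, hez, map_zero] at h2
      have h3 := congrFun h2 i
      rw [map_mul, map_natCast, ← nsmul_eq_mul]
      exact h3
    have hC0 : (C : ℤ_[p]) * w i = 0 := PadicInt.ext_of_toZModPow.mp fun k => by
      rw [hz k, map_zero]
    exact (mul_eq_zero.mp hC0).resolve_left (Nat.cast_ne_zero.mpr hC)

end Fermat.Agent.Carayol
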