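/-
S36 from the bound on torsion classes fixed by inertia with trivial pushforwards to level `L q`, and
the quadratic relation of Frobenius on torsion.
-/
import Fermat.Agent.Carayol.TateVector
import Fermat.Agent.Carayol.Hecke
import Fermat.Agent.Carayol.Degen
import Fermat.Agent.GAL.PointRep
import Mathlib.FieldTheory.Minpoly.IsIntegrallyClosed

set_option autoImplicit false

noncomputable section

open Polynomial ModularCurve CongruenceSubgroup

namespace Fermat.Agent.Carayol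

local notation "Qb" => AlgebraicClosure ℚ

/-- Classes of order prime to `q` of level `L q²` fixed by inertia at `q` with trivial pushforwards
to level `L q` have bounded order. -/
def InertiaTorsionBound : Prop :=
  ∀ (L₀ q : ℕ) [NeZero L₀] [NeZero q] [NeZero (L₀ * q)] [NeZero (L₀ * q ^ 2)],
    q.Prime → ¬ q ∣ L₀ → ((q ≠ 2 ∧ 4 ∣ L₀) ∨ (q = 2 ∧ 9 ∣ L₀)) →
    ∀ A : ValuationSubring Qb, A.LiesOverPrime q →
    ∀ (h1 : L₀ * q * 1 ∣ L₀ * q ^ 2) (h2 : L₀ * q * q ∣ L₀ * q ^ 2),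
      ∃ e : ℕ, e ≠ 0 ∧ ∀ m : ℕ, m ≠ 0 → m.Coprime q → ∀ P : JZero (L₀ * q ^ 2), m • P = 0 →
        (∀ σ ∈ A.inertiaSubgroupIn ℚ, σ • P = P) → pushJ 1 h1 P = 0 → pushJ q h2 P = 0 → e • P = 0

section Rep

open GAL IsLocalRing

variable {N : ℕ} [NeZero N] {p : ℕ} [Fact p.Prime]

/-- The representation at a point, with its characteristic polynomials everywhere. -/
theorem exists_galoisRep_charpoly {O : Type} [CommRing O] [IsDomain O] [IsDiscreteValuationRing O]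
    [IsAdicComplete (maximalIdeal O) O] [Finite (ResidueField O)] [CharZero O]
    (hp : (p : O) ∈ maximalIdeal O) (hquad : TorsionQuadratic N p) (f : HeckeT N →+* O)
    (ζ : ℤ_[p] →+* O) :
    ∃ r : GaloisRepAdic O,
      (∀ g, (r.ρ g).charpoly.map (algebraMap O (FractionRing O)) =
        ((specialise (E := FractionRing O) ζ f).mapMatrix
          ((HK.tateCoords N p).tateRho g)).charpoly) ∧
      ∀ (ℓ : ℕ) (hℓ : ℓ.Prime) (hℓN : ¬ ℓ ∣ N), ℓ ≠ p →
        ∀ A : ValuationSubring Qb, A.LiesOverPrime ℓ →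
          ∀ σ : Qb ≃ₐ[ℚ] Qb, A.IsFrobeniusAt σ ℓ →
            LinearMap.charpoly (r.ρ σ) =
              X ^ 2 - C (f (CuspForm.heckeAlgebra.T hℓ hℓN (Set.notMem_empty ℓ))) * X
                + C (ℓ : O) := by
  classical
  let D := HK.tateRepOfCoords (HK.tateCoords N p)
  have hlev := HK.torsionFiniteLevel N p
  let E := FractionRing O
  let χ : RatHecke N p →+* E := specialise ζ f
  let ρ : (Qb ≃ₐ[ℚ] Qb) →* Matrix (Fin 2) (Fin 2) E := χ.mapMatrix.toMonoidHom.comp D.rho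
  have hb : ∀ g, Bdd O (p : O) D.denom (ρ g) := by
    intro g i j
    obtain ⟨a, ha⟩ := specialise_intHecke (E := E) ζ f (D.bounded g i j)
    refine ⟨a, ?_⟩
    rw [← ha, map_mul, map_pow, map_natCast, map_pow, map_natCast]
    rfl
  have hcont : ∀ n, ∃ L : IntermediateField ℚ Qb, FiniteDimensional ℚ L ∧
      ∀ σ : Qb ≃ₐ[ℚ] Qb, (∀ x ∈ L, σ x = x) → Near O (p : O) n (ρ σ - 1) := by
    intro n
    obtain ⟨k, hk⟩ := rep_near_one (E := E) (D := D) ζ f n
    obtain ⟨L, hL, hfix⟩ := hlev k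
    exact ⟨L, hL, fun σ hσ => hk σ (hfix σ hσ)⟩
  have hinj := IsFractionRing.injective O E
  haveI : CharZero E := charZero_of_injective_algebraMap hinj
  have hns : ∀ P : Ideal E, P.IsMaximal → ∃ g, ¬ ScalarMod P (ρ g) := by
    obtain ⟨g, hg⟩ := D.exists_diag
    refine fun P hP => ⟨g, ?_⟩
    rw [show ρ g = Matrix.diagonal ![(1 : E), -1] by
      show χ.mapMatrix (D.rho g) = _
      rw [hg]
      ext i j
      fin_cases i <;> fin_cases j <;> simp]
    exact not_scalarMod_diag (isUnit_iff_ne_zero.mpr two_ne_zero) hP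
  let S : Finset ℕ := (N * p).divisors
  have hNp : N * p ≠ 0 := mul_ne_zero (NeZero.ne N) (Fact.out (p := p.Prime)).ne_zero
  have hS : ∀ ℓ, ℓ ∈ S ↔ ℓ ∣ N * p := fun ℓ => by simp [S, hNp]
  have hFrob : ∀ ℓ : ℕ, (hℓ : ℓ.Prime) → (hℓNp : ¬ ℓ ∣ N * p) → ∀ A : ValuationSubring Qb,
      A.LiesOverPrime ℓ → ∀ σ : Qb ≃ₐ[ℚ] Qb, A.IsFrobeniusAt σ ℓ →
        ρ σ * ρ σ - algebraMap O E (f (CuspForm.heckeAlgebra.T hℓ
          (fun h => hℓNp (h.mul_right p)) (Set.notMem_empty ℓ))) • ρ σ + (ℓ : E) • 1 = 0 := by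
    intro ℓ hℓ hℓNp A hA σ hσ
    have h := D.quad σ ℓ hℓ (fun h => hℓNp (h.mul_right p)) (hquad ℓ hℓ hℓNp A hA σ hσ)
    rw [← specialise_toRatHecke (E := E) ζ f]
    ext i j
    have hij := congrArg χ (congrFun (congrFun h i) j)
    simp only [Matrix.add_apply, Matrix.sub_apply, Matrix.smul_apply, Matrix.zero_apply,
      Matrix.mul_apply, Fin.sum_univ_two, Matrix.one_apply, smul_eq_mul, map_add, map_sub,
      map_mul, map_natCast, map_zero, apply_ite χ, map_one] at hij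
    simp only [Matrix.add_apply, Matrix.sub_apply, Matrix.smul_apply, Matrix.zero_apply,
      Matrix.mul_apply, Fin.sum_univ_two, Matrix.one_apply, smul_eq_mul]
    exact hij
  have hquad' : ∀ g, QuadRel (ρ g) (detChar ζ E g) :=
    quadRel_of_frobenius ρ ζ (separated_of_mem_maximalIdeal hp hinj) hb hcont S
      ((hS p).mpr (dvd_mul_left p N))
      fun ℓ hℓ hℓS A hA σ hσ => ⟨_, hFrob ℓ hℓ (fun h => hℓS ((hS ℓ).mpr h)) A hA σ hσ⟩
  obtain ⟨r, hr, -⟩ := exists_galoisRepAdic ρ hp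
    (Nat.cast_ne_zero.mpr (Fact.out (p := p.Prime)).ne_zero) hb hcont
  refine ⟨r, fun g => hr g, fun ℓ hℓ hℓN hℓp A hA σ hσ => ?_⟩
  have hℓNp : ¬ ℓ ∣ N * p := fun h => by
    rcases hℓ.dvd_mul.mp h with h' | h'
    · exact hℓN h'
    · exact hℓp ((Nat.prime_dvd_prime_iff_eq hℓ (Fact.out (p := p.Prime))).mp h')
  have hdσ : detChar ζ E σ = (ℓ : E) := by
    rw [detChar_apply, cycQ_frobenius p hA hℓ hσ hℓp, map_natCast, map_natCast]
  apply Polynomial.map_injective (algebraMap O E) hinj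
  rw [hr σ, charpoly_eq_of_quadRel ρ (detChar ζ E) hquad' hns
    (g := σ) (c := algebraMap O E (f (CuspForm.heckeAlgebra.T hℓ hℓN (Set.notMem_empty ℓ))))
    (by rw [hdσ]; exact hFrob ℓ hℓ hℓNp A hA σ hσ), hdσ]
  simp [Polynomial.map_natCast, Polynomial.C_eq_natCast]

end Rep

/-- A Hecke polynomial vanishing on forms kills torsion. -/
theorem heckeEvalBar_eq_zero_of_forms {N : ℕ} [NeZero N] {p : ℕ} [Fact p.Prime]
    (h : HeckeOperatorsCommuteBar N) {t : HeckeAlg} (ht : CuspForm.heckeEvalForms N 2 t = 0)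
    {k : ℕ} {x : JZero N} (hx : p ^ k • x = 0) : heckeEvalBar h t x = 0 := by
  refine congrArg Subtype.val (a₁ := (⟨heckeEvalBar h t x, HK.heckeEvalBar_mem_jTor h t hx⟩ :
    HK.jTor N p k)) (a₂ := 0) (((HK.tateCoords N p).e k).injective ?_)
  rw [(HK.tateCoords N p).e_heckeEvalBar h t k ⟨x, hx⟩, ht, map_zero, map_zero,
    Matrix.map_zero _ (map_zero _), Matrix.zero_mulVec]

/-- A torsion point killed by `P(Θ)` has image killed by `P(0)` when `Θ` vanishes at the target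
level. -/
theorem coeff_zero_smul_map_eq_zero {M N p : ℕ} [NeZero M] [NeZero N] [Fact p.Prime]
    (hM : GAL.TorsionQuadratic M p) (hN : GAL.TorsionQuadratic N p) (f : JZero M →+ JZero N)
    (hf : ∀ (σ : Qb ≃ₐ[ℚ] Qb) (x : JZero M), f (σ • x) = σ • f x)
    (hcM : HeckeOperatorsCommuteBar M) (hcN : HeckeOperatorsCommuteBar N) (S : Finset ℕ)
    (hS : ∀ ℓ : ℕ, ℓ.Prime → ℓ ∣ M * N * p → ℓ ∈ S) (Θ : TraceFn.AwayHecke S)
    (hΘ : CuspForm.heckeEvalForms N 2 (TraceFn.awayIncl S Θ) = 0) (P : ℤ[X]) {k : ℕ}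
    {x : JZero M} (hxp : p ^ k • x = 0)
    (hx : heckeEvalBar hcM (TraceFn.awayIncl S (aeval Θ P)) x = 0) :
    P.coeff 0 • f x = 0 := by
  have hfx : p ^ k • f x = 0 := by rw [← map_nsmul, hxp, map_zero]
  have heq := map_heckeEvalBar_of_equivariant hM hN f hf hcM hcN S hS (aeval Θ P) x ⟨k, hxp⟩
  rw [hx, map_zero] at heq
  have hsplit : TraceFn.awayIncl S (aeval Θ P) = MvPolynomial.C (P.coeff 0) +
      TraceFn.awayIncl S (aeval Θ P.divX) * TraceFn.awayIncl S Θ := by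
    conv_lhs => rw [← divX_mul_X_add P]
    rw [map_add, map_mul, aeval_X, aeval_C, map_add, map_mul, add_comm]
    congr 1
    simp
  rw [hsplit, HK.heckeEvalBar_add_apply, HK.heckeEvalBar_C_apply, map_mul,
    Module.End.mul_apply, heckeEvalBar_eq_zero_of_forms hcN hΘ hfx, map_zero, add_zero] at heq
  exact heq.symm

theorem natAbs_smul_eq_zero {G : Type*} [AddCommGroup G] {c : ℤ} {x : G} (hx : c • x = 0) :
    c.natAbs • x = 0 := by
  rcases Int.natAbs_eq c with h | h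
  · rw [h, natCast_zsmul] at hx; exact hx
  · rw [h, neg_zsmul, natCast_zsmul, neg_eq_zero] at hx; exact hx

theorem pullJ_smul_fixed {M N : ℕ} [NeZero M] [NeZero N] {d : ℕ} [NeZero d] (h : M * d ∣ N)
    (n : ℕ) {σ : Qb ≃ₐ[ℚ] Qb} {x : JZero M} (hx : σ • x = x) :
    σ • (n • pullJ d h x) = n • pullJ d h x := by
  refine (map_nsmul (DistribSMul.toAddMonoidHom (JZero N) σ) _ _).trans ?_
  refine congrArg (n • ·) ?_
  show σ • pullJ d h x = _
  rw [← pullJ_smul, hx]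

/-- A class of level `M` with pullback in the bounded part has bounded order. -/
theorem smul_eq_zero_of_pullJ {M N N' m e : ℕ} [NeZero M] [NeZero N] [NeZero N'] {q : ℕ} [NeZero q]
    (h0 : M * 1 ∣ N) (h1 : N' * 1 ∣ N) (h2 : N' * q ∣ N) (G : Subgroup (Qb ≃ₐ[ℚ] Qb))
    (hbd : ∀ P : JZero N, m • P = 0 → (∀ σ ∈ G, σ • P = P) → pushJ 1 h1 P = 0 →
      pushJ q h2 P = 0 → e • P = 0)
    {c : ℤ} {x : JZero M} (hx : m • x = 0) (hfix : ∀ σ ∈ G, σ • x = x)
    (hQ1 : c • pushJ 1 h1 (pullJ 1 h0 x) = 0) (hQ2 : c • pushJ q h2 (pullJ 1 h0 x) = 0) :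
    (AlgebraicCurve.finrankAlong Qb (HK.Corr.degenMap Qb 1 h0) * (e * c.natAbs)) • x = 0 := by
  have hP := hbd (c.natAbs • pullJ 1 h0 x)
    (by rw [nsmul_left_comm, ← map_nsmul (pullJ 1 h0), hx, map_zero, smul_zero])
    (fun σ hσ => pullJ_smul_fixed h0 _ (hfix σ hσ))
    (by rw [map_nsmul]; exact natAbs_smul_eq_zero hQ1)
    (by rw [map_nsmul]; exact natAbs_smul_eq_zero hQ2)
  have h3 := congrArg (pushJ 1 h0) hP
  rw [map_nsmul, map_nsmul, map_zero, pushJ_pullJ, ← mul_nsmul', ← mul_nsmul'] at h3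
  rw [mul_comm]
  exact h3

/-- The same for pushforwards of pullbacks. -/
theorem coeff_zero_smul_push_pull {M N N' p : ℕ} [NeZero M] [NeZero N] [NeZero N'] [Fact p.Prime]
    (hM : GAL.TorsionQuadratic M p) (hN : GAL.TorsionQuadratic N' p) {d d' : ℕ} [NeZero d]
    [NeZero d'] (hd : N' * d ∣ N) (hd' : M * d' ∣ N)
    (hcM : HeckeOperatorsCommuteBar M) (hcN : HeckeOperatorsCommuteBar N') (S : Finset ℕ)
    (hS : ∀ ℓ : ℕ, ℓ.Prime → ℓ ∣ M * N' * p → ℓ ∈ S) (Θ : TraceFn.AwayHecke S)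
    (hΘ : CuspForm.heckeEvalForms N' 2 (TraceFn.awayIncl S Θ) = 0) (P : ℤ[X]) {k : ℕ}
    {x : JZero M} (hxp : p ^ k • x = 0)
    (hx : heckeEvalBar hcM (TraceFn.awayIncl S (aeval Θ P)) x = 0) :
    P.coeff 0 • pushJ d hd (pullJ d' hd' x) = 0 :=
  coeff_zero_smul_map_eq_zero hM hN ((pushJ d hd).comp (pullJ d' hd'))
    (fun σ y => (congrArg (pushJ d hd) (pullJ_smul d' hd' σ y)).trans
      (pushJ_smul d hd σ (pullJ d' hd' y))) hcM hcN S hS Θ hΘ P hxp hx

section Level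

variable {M q : ℕ}

theorem exists_level (hM : M ≠ 0) (hq : q.Prime) (hMq : M.factorization q = 2) :
    ∃ L₀ : ℕ, L₀ ≠ 0 ∧ ¬ q ∣ L₀ ∧ ((q ≠ 2 ∧ 4 ∣ L₀) ∨ (q = 2 ∧ 9 ∣ L₀)) ∧
      M ∣ L₀ * q ^ 2 ∧ ¬ M ∣ L₀ * q := by
  have hd : q ^ 2 ∣ M := (hq.pow_dvd_iff_le_factorization hM).mpr hMq.ge
  obtain ⟨M', rfl⟩ := hd
  have hqM' : ¬ q ∣ M' := fun h => by
    have h3 : q ^ 3 ∣ q ^ 2 * M' := by
      rw [pow_succ]
      exact mul_dvd_mul_left _ h
    have := (hq.pow_dvd_iff_le_factorization hM).mp h3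
    omega
  set c := if q = 2 then 9 else 4 with hc
  have hqc : ¬ q ∣ c := by
    rw [hc]
    split_ifs with h
    · subst h; decide
    · intro h'
      exact h ((Nat.prime_dvd_prime_iff_eq hq Nat.prime_two).mp
        (hq.dvd_of_dvd_pow (show q ∣ 2 ^ 2 from h')))
  have hqL : ¬ q ∣ Nat.lcm M' c := fun h =>
    (hq.dvd_mul.mp (h.trans (Nat.lcm_dvd_mul M' c))).elim hqM' hqc
  refine ⟨Nat.lcm M' c, Nat.lcm_ne_zero (right_ne_zero_of_mul hM) (by rw [hc]; split_ifs <;> simp),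
    hqL, ?_, ?_, ?_⟩
  · have h := Nat.dvd_lcm_right M' c
    by_cases h2 : q = 2
    · exact .inr ⟨h2, by simpa [hc, h2] using h⟩
    · exact .inl ⟨h2, by simpa [hc, h2] using h⟩
  · rw [mul_comm]
    exact mul_dvd_mul (Nat.dvd_lcm_left _ _) dvd_rfl
  · intro h
    have h2 : q ^ 2 ∣ Nat.lcm M' c * q := (dvd_mul_right _ _).trans h
    rw [pow_two] at h2
    exact hqL (Nat.dvd_of_mul_dvd_mul_right hq.pos h2)

end Level

/-- The representation is not unipotent on inertia at `q`. -/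
theorem not_unipotent (hbound : InertiaTorsionBound)
    {M : ℕ} [NeZero M] {g : CuspForm (Gamma0 M) 2} (hg : g.IsNewform)
    (lam : ℕ) [Fact lam.Prime]
    (hquad : ∀ (N : ℕ) [NeZero N], GAL.TorsionQuadratic N lam)
    (S : Finset ℕ) {O' : Type} [CommRing O'] [IsDomain O']
    (chig : CuspForm.heckeAlgebra M 2 (↑S : Set ℕ) →+* ℂ)
    (hchig : ∀ (ℓ : ℕ) (hℓ : ℓ.Prime) (hℓM : ¬ ℓ ∣ M) (hℓS : ℓ ∉ (↑S : Set ℕ)),
      chig (CuspForm.heckeAlgebra.T hℓ hℓM hℓS) = ModularFormClass.qCoeff g ℓ)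
    (iota : chig.range →+* O') {O'' : Type} [CommRing O''] [IsDomain O'']
    [IsDiscreteValuationRing O''] [IsAdicComplete (IsLocalRing.maximalIdeal O'') O'']
    [Finite (IsLocalRing.ResidueField O'')] [CharZero O''] [Algebra O' O'']
    (f : GAL.HeckeT M →+* O'')
    (hf : ∀ a, f ((Subalgebra.inclusion (CuspForm.heckeAlgebra_mono (N := M) (k := 2)
      (Set.empty_subset (↑S : Set ℕ)))).toRingHom a) =
        algebraMap O' O'' ((iota.comp chig.rangeRestrict) a))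
    (ζ : ℤ_[lam] →+* O'')
    (r : GaloisRepAdic O'')
    (hrE : ∀ g, (r.ρ g).charpoly.map (algebraMap O'' (FractionRing O'')) =
        ((GAL.specialise (E := FractionRing O'') ζ f).mapMatrix
          ((HK.tateCoords M lam).tateRho g)).charpoly)
    {q : ℕ} (hq : q.Prime) (hql : q ≠ lam) (hMq : M.factorization q = 2)
    (hun : r.IsUnipotentOnInertiaAt q) : False := by
  classical
  haveI := MF.IntStruct.moduleFinite_heckeAlgebra M 2 (↑S : Set ℕ)
  -- the prime `q`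
  have : Fact q.Prime := ⟨hq⟩
  obtain ⟨A, hA⟩ := Fermat.Agent.Galois.exists_liesOverPrime (L := Qb) hq
  set χ := GAL.specialise (E := FractionRing O'') ζ f with hχ
  have hG : ∀ σ ∈ A.inertiaSubgroupIn ℚ,
      (χ.mapMatrix ((HK.tateCoords M lam).tateRho σ)).charpoly = (X - 1) ^ 2 := fun σ hσ => by
    rw [← hrE σ, hun A hA σ hσ]
    simp only [Polynomial.map_pow, Polynomial.map_sub, Polynomial.map_X, Polynomial.map_one]
  have hcM := HK.Corr.heckeOperatorsCommuteBar M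
  obtain ⟨P, hPtor, hPfix, hPkill, hPunb⟩ :=
    exists_fixed_points hcM χ (A.inertiaSubgroupIn ℚ) hG
  -- the levels
  obtain ⟨L₀, hL0, hqL, hcase, hMN, hMN'⟩ := exists_level (NeZero.ne M) hq hMq
  have : NeZero L₀ := ⟨hL0⟩
  have : NeZero (L₀ * q) := ⟨mul_ne_zero hL0 hq.ne_zero⟩
  have : NeZero (L₀ * q ^ 2) := ⟨mul_ne_zero hL0 (pow_ne_zero 2 hq.ne_zero)⟩
  have h1 : L₀ * q * 1 ∣ L₀ * q ^ 2 := ⟨q, by ring⟩
  have h2 : L₀ * q * q ∣ L₀ * q ^ 2 := ⟨1, by ring⟩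
  have h0 : M * 1 ∣ L₀ * q ^ 2 := by rwa [mul_one]
  have hcN := HK.Corr.heckeOperatorsCommuteBar (L₀ * q)
  obtain ⟨e, he, hbd⟩ := hbound L₀ q hq hqL hcase A hA h1 h2
  -- the annihilating polynomial
  set S' : Finset ℕ := S ∪ (M * (L₀ * q) * lam).primeFactors with hS'
  have hMS' : ∀ ℓ : ℕ, ℓ.Prime → ℓ ∣ M * (L₀ * q) * lam → ℓ ∈ S' := fun ℓ hℓ h =>
    Finset.mem_union_right _ (Nat.mem_primeFactors.mpr ⟨hℓ, h, mul_ne_zero
      (mul_ne_zero (NeZero.ne M) (NeZero.ne _)) (Fact.out (p := lam.Prime)).ne_zero⟩)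
  let φ : TraceFn.AwayHecke S' →+* chig.range :=
    MvPolynomial.eval₂Hom (Int.castRingHom _) fun i => chig.rangeRestrict
      (CuspForm.heckeAlgebra.T (S := (↑S : Set ℕ)) i.1.2
        (fun h => i.2 (hMS' _ i.1.2 ((h.mul_right _).mul_right _)))
        (fun h => i.2 (Finset.mem_union_left _ (Finset.mem_coe.mp h))))
  obtain ⟨Θ, hΘN, hΘ⟩ := exists_kills_of_not_dvd hg hMN' S'
    (fun ℓ hℓ h => hMS' ℓ hℓ ((h.mul_left M).mul_right lam)) (chig.range.subtype.comp φ)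
    fun ℓ hℓ hℓS' => by
      rw [RingHom.comp_apply, TraceFn.awayGen, dif_pos ⟨hℓ, hℓS'⟩, MvPolynomial.eval₂Hom_X']
      exact hchig ℓ hℓ _ _
  have hΘ0 : φ Θ ≠ 0 := fun h => hΘ (by rw [RingHom.comp_apply, h, map_zero])
  have hint : IsIntegral ℤ (φ Θ) := by
    obtain ⟨t, ht⟩ := chig.rangeRestrict_surjective (φ Θ)
    rw [← ht]
    exact map_isIntegral_int chig.rangeRestrict (Algebra.IsIntegral.isIntegral t)
  set hpol := minpoly ℤ (φ Θ)
  set c := hpol.coeff 0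
  have hc : c ≠ 0 := fun h => hΘ0 (by
    have hass : Associated (X : ℤ[X]) hpol := irreducible_X.associated_of_dvd
      (minpoly.irreducible hint) (X_dvd_iff.mpr h)
    have := minpoly.aeval ℤ (φ Θ)
    rw [← eq_of_monic_of_associated monic_X (minpoly.monic hint) hass, aeval_X] at this
    exact this)
  set Ψ := aeval Θ hpol
  have hφΨ : φ Ψ = 0 := by
    rw [show φ Ψ = aeval (φ Θ) hpol from (aeval_algHom_apply φ.toIntAlgHom Θ hpol).symm]
    exact minpoly.aeval _ _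
  have hfac : f.comp ((CuspForm.heckeEvalForms M 2).comp (TraceFn.awayIncl S')) =
      (algebraMap O' O'').comp (iota.comp φ) :=
    MvPolynomial.ringHom_ext (fun a => by simp) fun i => by
      simp only [RingHom.comp_apply]
      rw [show TraceFn.awayIncl S' (MvPolynomial.X i) = heckeGen i.1 from MvPolynomial.rename_X _ _,
        CuspForm.heckeEvalForms_heckeGen_of_not_dvd
          (fun h => i.2 (hMS' _ i.1.2 ((h.mul_right _).mul_right _))),
        MvPolynomial.eval₂Hom_X']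
      exact hf (CuspForm.heckeAlgebra.T _ _ _)
  have hΨP : ∀ k, heckeEvalBar hcM (TraceFn.awayIncl S' Ψ) (P k) = 0 := hPkill _ (by
    rw [hχ, GAL.specialise_toRatHecke,
      show f (CuspForm.heckeEvalForms M 2 (TraceFn.awayIncl S' Ψ)) =
        algebraMap O' O'' (iota (φ Ψ)) from RingHom.congr_fun hfac Ψ, hφΨ, map_zero, map_zero,
      map_zero])
  -- the pushforwards of the pullbacks
  have hQ : ∀ (d : ℕ) [NeZero d] (hd : L₀ * q * d ∣ L₀ * q ^ 2) (k : ℕ),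
      c • pushJ d hd (pullJ 1 h0 (P k)) = 0 := by
    intro d _ hd k
    exact coeff_zero_smul_push_pull (hquad M) (hquad (L₀ * q)) hd h0 hcM hcN S' hMS' Θ hΘN hpol
      (hPtor k) (hΨP k)
  -- conclusion
  obtain ⟨k, hk⟩ := hPunb (AlgebraicCurve.finrankAlong Qb (HK.Corr.degenMap Qb 1 h0) * (e * c.natAbs))
    (mul_ne_zero (finrankAlong_degen_ne_zero 1 h0) (mul_ne_zero he (Int.natAbs_ne_zero.mpr hc)))
  exact hk (smul_eq_zero_of_pullJ h0 h1 h2 (A.inertiaSubgroupIn ℚ)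
    (hbd (lam ^ k) (pow_ne_zero k (Fact.out (p := lam.Prime)).ne_zero)
      (Nat.Coprime.pow_left k
        ((Nat.coprime_primes (Fact.out (p := lam.Prime)) hq).mpr (Ne.symm hql))))
    (hPtor k) (hPfix k) (hQ 1 h1 k) (hQ q h2 k))

/-- **S36, from the inputs.** -/
theorem exists_not_unipotent (hbound : InertiaTorsionBound)
    {M : ℕ} [NeZero M] {g : CuspForm (Gamma0 M) 2} (hg : g.IsNewform)
    (lam : ℕ) [Fact lam.Prime]
    (hquad : ∀ (N : ℕ) [NeZero N], GAL.TorsionQuadratic N lam)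
    (S : Finset ℕ) (O' : Type) [CommRing O'] [IsDomain O'] [IsDiscreteValuationRing O']
    [IsAdicComplete (IsLocalRing.maximalIdeal O') O'] [Finite (IsLocalRing.ResidueField O')]
    [CharZero O'] (hlamO' : (lam : O') ∈ IsLocalRing.maximalIdeal O')
    (chig : CuspForm.heckeAlgebra M 2 (↑S : Set ℕ) →+* ℂ)
    (hchig : ∀ (ℓ : ℕ) (hℓ : ℓ.Prime) (hℓM : ¬ ℓ ∣ M) (hℓS : ℓ ∉ (↑S : Set ℕ)),
      chig (CuspForm.heckeAlgebra.T hℓ hℓM hℓS) = ModularFormClass.qCoeff g ℓ)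
    (iota : chig.range →+* O') (hlamS : lam ∈ S) :
    ∃ (O'' : Type) (_ : CommRing O'') (_ : IsDomain O'') (_ : IsDiscreteValuationRing O'')
      (_ : IsAdicComplete (IsLocalRing.maximalIdeal O'') O'')
      (_ : Finite (IsLocalRing.ResidueField O''))
      (_ : CharZero O'') (_ : Algebra O' O'') (_ : Module.Finite O' O'')
      (_ : IsLocalHom (algebraMap O' O'')),
      Function.Injective (algebraMap O' O'') ∧
      ∃ ρ : GaloisRepAdic O'',
        (∀ (ℓ : ℕ) (hℓ : ℓ.Prime) (hℓM : ¬ ℓ ∣ M) (hℓS : ℓ ∉ (↑S : Set ℕ)),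
          ∀ A : ValuationSubring Qb, A.LiesOverPrime ℓ →
            ∀ σ : Qb ≃ₐ[ℚ] Qb, A.IsFrobeniusAt σ ℓ →
              LinearMap.charpoly (ρ.ρ σ) =
                X ^ 2 - C (algebraMap O' O'' ((iota.comp chig.rangeRestrict)
                  (CuspForm.heckeAlgebra.T hℓ hℓM hℓS))) * X + C ((ℓ : O''))) ∧
        (∀ q : ℕ, q.Prime → q ≠ lam → M.factorization q = 2 →
          ¬ ρ.IsUnipotentOnInertiaAt q) := by
  classical
  have hle : CuspForm.heckeAlgebra M 2 (↑S : Set ℕ) ≤ CuspForm.heckeAlgebra M 2 (∅ : Set ℕ) :=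
    CuspForm.heckeAlgebra_mono (Set.empty_subset _)
  haveI := MF.IntStruct.moduleFinite_heckeAlgebra M 2 (∅ : Set ℕ)
  haveI := MF.IntStruct.moduleFinite_heckeAlgebra M 2 (↑S : Set ℕ)
  obtain ⟨O'', _, _, _, _, _, _, _, _, _, f, hinj, hf⟩ :=
    GAL.exists_extension O' (B := GAL.HeckeT M) (Subalgebra.inclusion hle).toRingHom
      (Subalgebra.inclusion_injective hle) (iota.comp chig.rangeRestrict)
  have hp : (lam : O'') ∈ IsLocalRing.maximalIdeal O'' := by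
    rw [← map_natCast (algebraMap O' O'')]
    exact map_nonunit (algebraMap O' O'') _ hlamO'
  obtain ⟨ζ⟩ := GAL.exists_padicInt_hom (p := lam) hp
  obtain ⟨r, hrE, hrF⟩ := exists_galoisRep_charpoly hp (hquad M) f ζ
  refine ⟨O'', ‹_›, ‹_›, ‹_›, ‹_›, ‹_›, ‹_›, ‹_›, ‹_›, ‹_›, hinj, r,
    fun ℓ hℓ hℓM hℓS A hA σ hσ => ?_, fun q hq hql hMq hun => ?_⟩
  · rw [hrF ℓ hℓ hℓM (fun e => hℓS (e ▸ hlamS)) A hA σ hσ, ← hf]
    rfl
  exact not_unipotent hbound hg lam hquad S chig hchig iota f hf ζ r hrE hq hql hMq hun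

end Fermat.Agent.Carayol
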