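/-
Classes of order prime to `q` of level `L q²` fixed by inertia at `q` with trivial pushforwards to
level `L q` are killed by `(q² - 1)³`.
-/
import Fermat.Agent.Carayol.ModelExists
import Fermat.Agent.Carayol.Key
import Fermat.Agent.Carayol.Descent
import Fermat.Agent.Carayol.Wiring

set_option autoImplicit false

noncomputable section

open ModularCurve IsLocalRing
open Fermat.Agent.HK.Corr

namespace Fermat.Agent.Carayol

local notation "Qb" => AlgebraicClosure ℚ

theorem inertiaTorsionBound : InertiaTorsionBound := by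
  intro L₀ q _ _ _ _ hq hqL h49 A hA h1 h2
  obtain ⟨K, _, _, _, _, K', _, _, κ, ι, η, e0, e02, ez, k₀, Br, ord, D⟩ :=
    exists_modelData hq hqL h49 hA
  refine ⟨(q ^ 2 - 1) ^ 3,
    pow_ne_zero _ (Nat.sub_pos_of_lt (Nat.one_lt_pow two_ne_zero hq.one_lt)).ne',
    fun m hm hmq P hmP hfix hα hβ => ?_⟩
  haveI := isScalarTower_valuationSubring (E := modField K (L₀ * q ^ 2)) (constA A K)
  have hC := D.consts
  have hmu : IsUnit ((m : ℕ) : constA A K) := by
    by_contra hnu
    obtain ⟨d, hd⟩ : (q : constA A K) ∣ (m : constA A K) := by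
      rw [← Ideal.mem_span_singleton, ← hC.irreducible_q.maximalIdeal_eq]
      exact hnu
    haveI := hC.charP
    have h := congrArg (constRes (residue A) (algebraMap K Qb)) hd
    rw [map_mul, map_natCast, map_natCast, CharP.cast_eq_zero (ResidueField A) q, zero_mul,
      CharP.cast_eq_zero_iff (ResidueField A) q] at h
    exact hq.coprime_iff_not_dvd.mp hmq.symm h
  refine smul_eq_zero_of_fixed hq hqL (A.inertiaSubgroupIn ℚ) (algebraMap K Qb) hC.fixed
    (W := constA A K) m _ hm h1 h2 (fun f hf hor hnα hnβ => ?_) P hmP hfix hα hβ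
  exact D.model.exists_pow_eq_const_mul_pow hmu (Nat.pos_of_ne_zero hm) hf hor hnα hnβ

end Fermat.Agent.Carayol
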