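import Fermat.Agent.MF.Coeff.BaseChange
import Fermat.Agent.RED.Normal.AuxParam
import Mathlib.FieldTheory.Galois.Infinite

/-!
# Functions integral over `Ω[x]` are combinations of functions integral over `K[x]`

`Ω / K` is Galois, `F` a field of series over `K` and `w` in `Ω(F)`: the coefficients of `w` over
`F` are combinations of the conjugates of `w`, so inherit its integrality.
-/

set_option autoImplicit false
set_option linter.style.haveILetI false

noncomputable section

open Polynomial IntermediateField HahnSeries ModularCurve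

namespace Fermat.Agent.Carayol.LiftBase

open Fermat.Agent.MF.Coeff Fermat.Agent.RED

variable {K Ω : Type*} [Field K] [Field Ω] [Algebra K Ω] [IsGalois K Ω]

/-- Artin's lemma: the conjugates of independent elements are independent. -/
theorem eq_zero_of_forall_sum_conj {n : ℕ} {b : Fin n → Ω} (hb : LinearIndependent K b)
    (μ : Fin n → Ω) (h : ∀ σ : Ω ≃ₐ[K] Ω, ∑ l, μ l * σ (b l) = 0) : μ = 0 := by
  classical
  induction hN : (Finset.univ.filter fun l => μ l ≠ 0).card using Nat.strong_induction_on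
    generalizing μ with
  | _ N ih =>
    by_contra hne
    obtain ⟨i, hi⟩ := Function.ne_iff.mp hne
    set ν : Fin n → Ω := fun l => μ l / μ i
    have hν : ∀ σ : Ω ≃ₐ[K] Ω, ∑ l, ν l * σ (b l) = 0 := fun σ => by
      simp only [ν, div_mul_eq_mul_div, ← Finset.sum_div, h σ, zero_div]
    have hfix : ∀ (τ : Ω ≃ₐ[K] Ω) (l : Fin n), τ (ν l) = ν l := by
      intro τ
      have hlt : (Finset.univ.filter fun l => τ (ν l) - ν l ≠ 0).card < N := by
        rw [← hN]
        refine Finset.card_lt_card (Finset.ssubset_iff_of_subset ?_ |>.mpr ⟨i, ?_, ?_⟩)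
        · intro l hl
          simp only [Finset.mem_filter, Finset.mem_univ, true_and] at hl ⊢
          intro h0
          exact hl (by simp [ν, h0])
        · simpa using hi
        · simp [show ν i = 1 from div_self hi]
      have h0 := ih _ hlt (fun l => τ (ν l) - ν l) (fun σ => by
        simp only [sub_mul, Finset.sum_sub_distrib, hν σ, sub_zero]
        have := congrArg τ (hν (τ⁻¹ * σ))
        simpa [map_sum] using this) rfl
      exact fun l => sub_eq_zero.mp (congrFun h0 l)
    have hmem : ∀ l, ∃ r : K, algebraMap K Ω r = ν l := fun l =>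
      (InfiniteGalois.mem_range_algebraMap_iff_fixed _).mpr fun τ => hfix τ l
    choose r hr using hmem
    have h1 := Fintype.linearIndependent_iff.mp hb r (by
      simp only [Algebra.smul_def, hr]; simpa using hν 1) i
    have h2 := hr i
    rw [h1, map_zero] at h2
    simp [ν, div_self (show μ i ≠ 0 from hi)] at h2

variable {F : IntermediateField K (LaurentSeries K)}

/-- Elements of `Ω(F)` are combinations of elements of `F`, independent over `K`, whose values
are combinations of the conjugates. -/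
theorem exists_galois_combination {w : LaurentSeries Ω}
    (hw : w ∈ bc (algebraMap K Ω) F) :
    ∃ (n : ℕ) (c : Fin n → Ω) (a : Fin n → LaurentSeries K), (∀ l, a l ∈ F) ∧
      w = ∑ l, algebraMap Ω (LaurentSeries Ω) (c l) * coeffMap (algebraMap K Ω) (a l) ∧
      ∀ l, coeffMap (algebraMap K Ω) (a l) ∈ Submodule.span Ω
        (Set.range fun σ : Ω ≃ₐ[K] Ω => coeffMap (σ : Ω →+* Ω) w) := by
  classical
  set f := algebraMap K Ω
  -- `w` lies in the `Ω`-span of `F`
  have hspan : w ∈ Submodule.span Ω (coeffMap f '' (F : Set (LaurentSeries K))) := by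
    let ψ : F →+* LaurentSeries Ω := (coeffMap f).comp F.val.toRingHom
    letI : Algebra F (LaurentSeries Ω) := ψ.toAlgebra
    have halg : ∀ z ∈ Set.range (algebraMap Ω (LaurentSeries Ω)), IsAlgebraic F z := by
      rintro _ ⟨c, rfl⟩
      exact (Algebra.IsAlgebraic.isAlgebraic (R := K) c).ringHom_of_comp_eq (algebraMap K F)
        (algebraMap Ω (LaurentSeries Ω)) (RingHom.injective _) (RingHom.ext fun d =>
          show coeffMap f (algebraMap K (LaurentSeries K) d) = _ from coeffMap_algebraMap' f d)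
    let E := IntermediateField.adjoin F (Set.range (algebraMap Ω (LaurentSeries Ω)))
    have hle : ∀ z ∈ bc f F, z ∈ E := by
      intro z hz
      induction hz using IntermediateField.adjoin_induction with
      | mem z hz =>
        obtain ⟨a, ha, rfl⟩ := hz
        exact E.algebraMap_mem ⟨a, ha⟩
      | algebraMap c => exact subset_adjoin _ _ ⟨c, rfl⟩
      | add _ _ _ _ h1 h2 => exact add_mem h1 h2
      | inv _ _ h1 => exact inv_mem h1
      | mul _ _ _ _ h1 h2 => exact mul_mem h1 h2
    have hwE : w ∈ E.toSubalgebra := hle w hw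
    rw [adjoin_toSubalgebra_of_isAlgebraic halg] at hwE
    have hwA : w ∈ Algebra.adjoin Ω (coeffMap f '' (F : Set (LaurentSeries K))) := by
      clear hle hw
      induction hwE using Algebra.adjoin_induction with
      | mem z hz =>
        obtain ⟨c, rfl⟩ := hz
        exact Subalgebra.algebraMap_mem _ c
      | algebraMap a => exact Algebra.subset_adjoin ⟨a, a.2, rfl⟩
      | add _ _ _ _ h1 h2 => exact add_mem h1 h2
      | mul _ _ _ _ h1 h2 => exact mul_mem h1 h2
    have h := mem_closure_of_mem_algAdjoin f hwA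
    clear hwE hwA hle hw
    induction h using AddSubmonoid.closure_induction with
    | mem z hz =>
      obtain ⟨c, a, ha, rfl⟩ := hz
      rw [← smul_eq_algebraMap_mul]
      exact Submodule.smul_mem _ _ (Submodule.subset_span ⟨a, ha, rfl⟩)
    | zero => exact zero_mem _
    | add _ _ _ _ h1 h2 => exact add_mem h1 h2
  obtain ⟨m, c₀, g, hg⟩ := Submodule.mem_span_set'.mp hspan
  choose a₀ ha₀ hga₀ using fun i => (g i).2
  -- make the constants independent
  let V : Submodule K Ω := Submodule.span K (Set.range c₀)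
  haveI : Module.Finite K V := Module.Finite.span_of_finite K (Set.finite_range c₀)
  let bV := Module.finBasis K V
  set c : Fin (Module.finrank K V) → Ω := fun l => (bV l : Ω)
  have hc : LinearIndependent K c :=
    bV.linearIndependent.map' V.subtype (Submodule.ker_subtype V)
  let a : Fin (Module.finrank K V) → LaurentSeries K := fun l =>
    ∑ i, algebraMap K (LaurentSeries K)
      (bV.repr ⟨c₀ i, Submodule.subset_span ⟨i, rfl⟩⟩ l) * a₀ i
  have ha : ∀ l, a l ∈ F := fun l =>
    sum_mem fun i _ => mul_mem (F.algebraMap_mem _) (ha₀ i)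
  have hc₀ : ∀ i, c₀ i = ∑ l, f (bV.repr ⟨c₀ i, Submodule.subset_span ⟨i, rfl⟩⟩ l) * c l := by
    intro i
    have := congrArg Subtype.val (bV.sum_repr ⟨c₀ i, Submodule.subset_span ⟨i, rfl⟩⟩)
    simp only [Submodule.coe_sum, Submodule.coe_smul, Algebra.smul_def] at this
    exact this.symm
  have hw' : w = ∑ l, algebraMap Ω (LaurentSeries Ω) (c l) * coeffMap f (a l) := by
    rw [← hg]
    simp only [a, map_sum, Finset.mul_sum]
    rw [Finset.sum_comm]
    refine Finset.sum_congr rfl fun i _ => ?_
    rw [smul_eq_algebraMap_mul]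
    conv_lhs => rw [hc₀ i, map_sum, Finset.sum_mul]
    refine Finset.sum_congr rfl fun l _ => ?_
    rw [map_mul (coeffMap f), coeffMap_algebraMap' f, hga₀, map_mul]
    ring
  refine ⟨_, c, a, ha, hw', fun i => ?_⟩
  -- the conjugates
  have hσ : ∀ σ : Ω ≃ₐ[K] Ω, coeffMap (σ : Ω →+* Ω) w =
      ∑ l, σ (c l) • coeffMap f (a l) := fun σ => by
    rw [hw', map_sum]
    refine Finset.sum_congr rfl fun l _ => ?_
    rw [map_mul, coeffMap_algebraMap', coeffMap_coeffMap, smul_eq_algebraMap_mul]
    rw [show (σ : Ω →+* Ω).comp f = f from RingHom.ext fun d => σ.commutes d]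
    rfl
  have htop : Submodule.span Ω
      (Set.range fun σ : Ω ≃ₐ[K] Ω => fun l => σ (c l)) = ⊤ := by
    by_contra hne
    obtain ⟨φ, hφ, hφ'⟩ := Submodule.exists_dual_map_eq_bot_of_lt_top (lt_top_iff_ne_top.mpr hne)
      inferInstance
    apply hφ
    refine LinearMap.pi_ext' fun l => LinearMap.ext_ring ?_
    have hall := eq_zero_of_forall_sum_conj hc (fun l => φ (Pi.single l 1)) fun σ => by
      have h0 : φ (fun l => σ (c l)) = 0 :=
        (Submodule.mem_bot Ω).mp (hφ' ▸ Submodule.mem_map_of_mem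
          (Submodule.subset_span ⟨σ, rfl⟩))
      rw [← h0]
      conv_rhs => rw [pi_eq_sum_univ' (fun l => σ (c l)), map_sum]
      exact Finset.sum_congr rfl fun l _ => by
        rw [map_smul, smul_eq_mul, mul_comm]
    simpa using congrFun hall l
  have hi : (Pi.single i 1 : Fin _ → Ω) ∈ Submodule.span Ω
      (Set.range fun σ : Ω ≃ₐ[K] Ω => fun l => σ (c l)) := htop ▸ Submodule.mem_top
  let T : (Fin (Module.finrank K V) → Ω) →ₗ[Ω] LaurentSeries Ω :=
    Fintype.linearCombination Ω fun l => coeffMap f (a l)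
  have h2 := Submodule.mem_map_of_mem (f := T) hi
  rw [Submodule.map_span, ← Set.range_comp] at h2
  simp only [T, Fintype.linearCombination_apply_single, one_smul] at h2
  convert h2 using 3
  funext σ
  exact (hσ σ).trans (Fintype.linearCombination_apply Ω _ _).symm

/-- The inclusion `F → Ω(F)`. -/
def bcIncl (F : IntermediateField K (LaurentSeries K)) : F →+* bc (algebraMap K Ω) F :=
  ((coeffMap (algebraMap K Ω)).comp F.val.toRingHom).codRestrict _ fun a => coeffMap_mem_bc a.2

omit [IsGalois K Ω] in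
@[simp] theorem coe_bcIncl (a : F) :
    (bcIncl (Ω := Ω) F a : LaurentSeries Ω) = coeffMap (algebraMap K Ω) a := rfl

omit [IsGalois K Ω] in
theorem bcIncl_algebraMap (c : K) :
    bcIncl F (algebraMap K F c) = algebraMap Ω (bc (algebraMap K Ω) F) (algebraMap K Ω c) :=
  Subtype.ext (coeffMap_algebraMap' _ c)

omit [IsGalois K Ω] in
/-- Integrality over `Ω[x]` descends to `K[x]`. -/
theorem mem_coordRing_of_bcIncl [Algebra.IsAlgebraic K Ω] {x a : F}
    (ha : bcIncl (Ω := Ω) F a ∈ coordRing Ω (bcIncl F x)) : a ∈ coordRing K x := by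
  set f := algebraMap K Ω
  have hcomp : (coordEval Ω (bcIncl (Ω := Ω) F x)).comp (mapRingHom f) =
      (bcIncl (Ω := Ω) F).comp (coordEval K x) := by
    refine Polynomial.ringHom_ext (fun d => ?_) ?_
    · simp [coordEval, bcIncl_algebraMap, f]
    · simp [coordEval]
  have hmap : (mapRingHom f).IsIntegral := by
    intro p
    induction p using Polynomial.induction_on' with
    | add p q hp hq => exact RingHom.IsIntegralElem.add _ hp hq
    | monomial n d =>
      rw [← C_mul_X_pow_eq_monomial]
      refine RingHom.IsIntegralElem.mul _ ?_ ?_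
      · obtain ⟨r, hr, hr0⟩ := (Algebra.IsAlgebraic.isAlgebraic (R := K) d).isIntegral
        refine ⟨r.map Polynomial.C, hr.map _, ?_⟩
        rw [eval₂_map, show (mapRingHom f).comp Polynomial.C = Polynomial.C.comp f from
          RingHom.ext fun e => by simp, ← hom_eval₂, hr0, map_zero]
      · simpa using RingHom.isIntegralElem_map (f := mapRingHom f) (x := (Polynomial.X : K[X]) ^ n)
  obtain ⟨p, hp, hp0⟩ : ((bcIncl (Ω := Ω) F).comp (coordEval K x)).IsIntegralElem
      (bcIncl (Ω := Ω) F a) := by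
    rw [← hcomp]
    letI : Algebra K[X] (Polynomial Ω) := (mapRingHom f).toAlgebra
    letI : Algebra (Polynomial Ω) (bc f F) := (coordEval Ω (bcIncl F x)).toAlgebra
    letI : Algebra K[X] (bc f F) :=
      ((coordEval Ω (bcIncl F x)).comp (mapRingHom f)).toAlgebra
    haveI : IsScalarTower K[X] (Polynomial Ω) (bc f F) := IsScalarTower.of_algebraMap_eq fun _ => rfl
    haveI : Algebra.IsIntegral K[X] (Polynomial Ω) := ⟨hmap⟩
    exact isIntegral_trans (R := K[X]) (A := (Polynomial Ω)) _ ha
  refine ⟨p, hp, (bcIncl (Ω := Ω) F).injective ?_⟩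
  rwa [hom_eval₂, map_zero]

omit [IsGalois K Ω] in
/-- Conjugation preserves `Ω(F)`. -/
theorem coeffMap_mem_bc_of_fixed (σ : Ω ≃ₐ[K] Ω) (u : bc (algebraMap K Ω) F) :
    coeffMap (σ : Ω →+* Ω) (u : LaurentSeries Ω) ∈ bc (algebraMap K Ω) F := by
  have := coeffMap_mem_bc_comp (f := algebraMap K Ω) (σ : Ω →+* Ω) u.2
  rwa [show (σ : Ω →+* Ω).comp (algebraMap K Ω) = algebraMap K Ω from
    RingHom.ext fun d => σ.commutes d] at this

/-- Conjugation of `Ω(F)`. -/
def conjBc (σ : Ω ≃ₐ[K] Ω) (F : IntermediateField K (LaurentSeries K)) :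
    bc (algebraMap K Ω) F →+* bc (algebraMap K Ω) F :=
  ((coeffMap (σ : Ω →+* Ω)).comp (bc (algebraMap K Ω) F).val.toRingHom).codRestrict _
    (coeffMap_mem_bc_of_fixed σ)

omit [IsGalois K Ω] in
theorem coe_conjBc (σ : Ω ≃ₐ[K] Ω) (u : bc (algebraMap K Ω) F) :
    (conjBc σ F u : LaurentSeries Ω) = coeffMap (σ : Ω →+* Ω) u := rfl

omit [IsGalois K Ω] in
/-- Conjugation preserves integrality over `Ω[x]`, `x ∈ F`. -/
theorem conjBc_mem_coordRing (σ : Ω ≃ₐ[K] Ω) (x : F) {w : bc (algebraMap K Ω) F}
    (hw : w ∈ coordRing Ω (bcIncl F x)) : conjBc σ F w ∈ coordRing Ω (bcIncl F x) := by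
  obtain ⟨p, hp, hp0⟩ := hw
  refine ⟨p.map (mapRingHom (σ : Ω →+* Ω)), hp.map _, ?_⟩
  have hx : conjBc σ F (bcIncl F x) = bcIncl F x := Subtype.ext (by
    rw [coe_conjBc, coe_bcIncl, coeffMap_coeffMap,
      show (σ : Ω →+* Ω).comp (algebraMap K Ω) = algebraMap K Ω from
        RingHom.ext fun d => σ.commutes d])
  have hC : ∀ d : Ω, conjBc σ F (algebraMap Ω _ d) = algebraMap Ω _ (σ d) := fun d =>
    Subtype.ext (coeffMap_algebraMap' _ d)
  have hcomm : (coordEval Ω (bcIncl F x)).comp (mapRingHom (σ : Ω →+* Ω)) =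
      (conjBc σ F).comp (coordEval Ω (bcIncl F x)) := by
    refine Polynomial.ringHom_ext (fun d => ?_) ?_
    · show aeval _ ((Polynomial.C d).map _) = conjBc σ F (aeval _ (Polynomial.C d))
      rw [Polynomial.map_C, aeval_C, aeval_C, hC]
      rfl
    · show aeval _ ((Polynomial.X).map _) = conjBc σ F (aeval _ Polynomial.X)
      rw [Polynomial.map_X, aeval_X, hx]
  rw [eval₂_map, hcomm, ← hom_eval₂, hp0, map_zero]

/-- A function of `Ω(F)` integral over `Ω[x]` is a combination of functions of `F` integral over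
`K[x]`. -/
theorem exists_integral_combination (x : F) {w : bc (algebraMap K Ω) F}
    (hw : w ∈ coordRing Ω (bcIncl F x)) :
    ∃ (n : ℕ) (c : Fin n → Ω) (a : Fin n → F), (∀ l, a l ∈ coordRing K x) ∧
      w = ∑ l, algebraMap Ω _ (c l) * bcIncl F (a l) := by
  obtain ⟨n, c, a, ha, hwa, hspan⟩ := exists_galois_combination w.2
  refine ⟨n, c, fun l => ⟨a l, ha l⟩, fun l => mem_coordRing_of_bcIncl (Ω := Ω) ?_, Subtype.ext ?_⟩
  · have hS : ∀ z ∈ Submodule.span Ω
        (Set.range fun σ : Ω ≃ₐ[K] Ω => coeffMap (σ : Ω →+* Ω) (w : LaurentSeries Ω)),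
        ∃ z' : bc (algebraMap K Ω) F, (z' : LaurentSeries Ω) = z ∧
          z' ∈ coordRing Ω (bcIncl F x) := by
      intro z hz
      induction hz using Submodule.span_induction with
      | mem z hz =>
        obtain ⟨σ, rfl⟩ := hz
        exact ⟨conjBc σ F w, coe_conjBc σ w, conjBc_mem_coordRing σ x hw⟩
      | zero => exact ⟨0, rfl, zero_mem _⟩
      | add _ _ _ _ h1 h2 =>
        obtain ⟨u, rfl, hu⟩ := h1
        obtain ⟨v, rfl, hv⟩ := h2
        exact ⟨u + v, rfl, add_mem hu hv⟩
      | smul d _ _ h1 =>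
        obtain ⟨u, rfl, hu⟩ := h1
        exact ⟨d • u, by rw [Algebra.smul_def, MulMemClass.coe_mul, smul_eq_algebraMap_mul]; rfl,
          Subalgebra.smul_mem _ hu d⟩
    obtain ⟨z', hz', hz''⟩ := hS _ (hspan l)
    rwa [show bcIncl F ⟨a l, ha l⟩ = z' from Subtype.ext hz'.symm]
  · rw [hwa, AddSubmonoidClass.coe_finsetSum]
    exact Finset.sum_congr rfl fun l _ => rfl

end Fermat.Agent.Carayol.LiftBase
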