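import Fermat.Agent.RED.Normal.Defs
import Fermat.Agent.RED.Normal.TraceRed
import Fermat.Agent.RED.Normal.CoordTrace
import Fermat.Agent.RED.ConstRedDatum
import Mathlib.LinearAlgebra.FreeModule.PID

/-!
# Reductions of the finite dimensional spaces of functions do not grow with the constants

Over a discretely valued constant field every finite dimensional space of functions has a basis
with independent reductions; hence the reduction of a combination with bigger constants is the
reduction of a function of the space.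
-/

set_option autoImplicit false
set_option linter.style.haveILetI false

noncomputable section

open Polynomial IntermediateField

namespace Fermat.Agent.Carayol.LiftBase

open Fermat.Agent.RED

variable {K k : Type*} [Field K] [Field k] {W : ValuationSubring K} {π : W →+* k}
variable {F Fb : Type*} [Field F] [Field Fb] [Algebra K F] [Algebra k Fb]
variable {R : ConstRed W π F Fb}

/-- A finite dimensional space has a spanning family of integral elements with independent
reductions. -/
theorem exists_orthogonal_family [IsPrincipalIdealRing W] {X : R.W} (hX : R.Param X) {n : ℕ}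
    (a : Fin n → F) :
    ∃ (m : ℕ) (e : Fin m → R.W), (∀ j, (e j : F) ∈ Submodule.span K (Set.range a)) ∧
      LinearIndependent k (fun j => R.red (e j)) ∧
      ∀ i, a i ∈ Submodule.span K (Set.range fun j => (e j : F)) := by
  classical
  obtain ⟨r, b, bb, e₀, hb, hbb⟩ := ConstRed.Param.exists_bases R hX
  have hx := hX.transcendental
  have hxL := R.transcendental_of_red hx
  choose q hq p hp using fun l => polySpan_of_span hxL b b.span_eq.ge (a l)
  obtain ⟨c₀, S', -, hS', u, hSu⟩ := exists_primitive_polynomials π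
    (fun _ : Unit => ∏ l, q l) ⟨(), Finset.prod_ne_zero_iff.mpr fun l _ => hq l⟩
  set S := S' u
  have hSred : R.red (R.evW X S) ≠ 0 := R.red_evW_ne_zero hx hSu
  have hS0 : (R.evW X S : F) ≠ 0 := R.ne_zero_of_red_ne_zero hSred
  -- polynomial coordinates of bounded degree
  have hPl : ∀ l, ∃ P : Fin r → K[X], (R.evW X S : F) * a l = ∑ i, aeval (X : F) (P i) * b i := by
    intro l
    rcases eq_or_ne c₀ 0 with h0 | h0
    · exact absurd (hS' u) (by simp [h0, Finset.prod_eq_zero_iff, hq])
    refine ⟨fun i => Polynomial.C c₀⁻¹ * (∏ l' ∈ Finset.univ.erase l, q l') * p l i, ?_⟩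
    have hsu : ∏ l, q l = Polynomial.C c₀ * S.map W.subtype := hS' u
    have h1 : (R.evW X S : F) = algebraMap K F c₀⁻¹ * aeval (X : F) (∏ l, q l) := by
      rw [hsu, map_mul, aeval_C, ← R.coe_evW, ← mul_assoc, ← map_mul, inv_mul_cancel₀ h0,
        map_one, one_mul]
    rw [h1, ← Finset.mul_prod_erase _ _ (Finset.mem_univ l), map_mul,
      show ∀ c A B a' : F, c * (A * B) * a' = c * B * (A * a') from fun _ _ _ _ => by ring, hp,
      Finset.mul_sum]
    refine Finset.sum_congr rfl fun i _ => ?_
    simp only [map_mul, aeval_C]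
    ring
  choose P hP using hPl
  set D : ℕ := (Finset.univ.sup fun li : Fin n × Fin r => (P li.1 li.2).natDegree) + 1 with hD
  let cst : Fin r × Fin D → F := fun id => (X : F) ^ (id.2 : ℕ) * b id.1 / (R.evW X S : F)
  let θ : (Fin r × Fin D → W) → F := fun v => ∑ id, algebraMap K F (v id : K) * cst id
  have hθW : ∀ v, θ v ∈ R.W := fun v => sum_mem fun id _ => by
    refine mul_mem (R.algebraMap_mem _) ?_
    rw [show cst id = (X : F) ^ (id.2 : ℕ) * b id.1 * (R.evW X S : F)⁻¹ from div_eq_mul_inv _ _, hb]
    exact mul_mem (mul_mem (pow_mem X.2 _) (e₀ id.1).2) (R.inv_mem_of_red_ne_zero hSred)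
  have hθadd : ∀ v v', θ (v + v') = θ v + θ v' := fun v v' => by
    simp only [θ, Pi.add_apply, AddMemClass.coe_add, map_add, add_mul, Finset.sum_add_distrib]
  have hθsmul : ∀ (c : W) v, θ (c • v) = algebraMap K F (c : K) * θ v := fun c v => by
    simp only [θ, Pi.smul_apply, smul_eq_mul, MulMemClass.coe_mul, map_mul, Finset.mul_sum,
      mul_assoc]
  have hθ0 : θ 0 = 0 := by simp [θ]
  have hθeq : ∀ v, (R.evW X S : F) * θ v =
      ∑ i, aeval (X : F) (∑ d, Polynomial.C (v (i, d) : K) * Polynomial.X ^ (d : ℕ)) * b i := by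
    intro v
    simp only [θ, Finset.mul_sum, Fintype.sum_prod_type, map_sum, map_mul, map_pow, aeval_C,
      aeval_X, Finset.sum_mul, cst]
    refine Finset.sum_congr rfl fun i _ => Finset.sum_congr rfl fun d _ => ?_
    field_simp
  have hθinj : ∀ v, θ v = 0 → v = 0 := by
    intro v hv
    have h := hθeq v
    rw [hv, mul_zero] at h
    funext ⟨i, d⟩
    have h1 := Fintype.linearIndependent_iff.mp b.linearIndependent
      (fun i => Normal.genEval K (X : F) (∑ d, Polynomial.C (v (i, d) : K) * Polynomial.X ^ (d : ℕ)))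
      (by
        simp only [IntermediateField.smul_def, Normal.coe_genEval, smul_eq_mul]
        exact h.symm) i
    have h2 := congrArg (fun q : K[X] => q.coeff d) (Normal.genEval_injective hxL
      (h1.trans (map_zero _).symm))
    simp only [finsetSum_coeff, coeff_C_mul_X_pow, coeff_zero] at h2
    rw [Finset.sum_eq_single d (fun d' _ hd => if_neg fun h => hd (Fin.ext h.symm))
      (by simp), if_pos rfl] at h2
    exact Subtype.ext h2
  -- integral elements of the span are in the image
  have himage : ∀ v : F, v ∈ Submodule.span K (Set.range a) → v ∈ R.W → ∃ w, θ w = v := by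
    intro v hv hvW
    have hQ : ∃ Q : Fin r → K[X], (∀ i, (Q i).natDegree < D) ∧
        (R.evW X S : F) * v = ∑ i, aeval (X : F) (Q i) * b i := by
      clear hvW
      induction hv using Submodule.span_induction with
      | mem z hz =>
        obtain ⟨l, rfl⟩ := hz
        exact ⟨P l, fun i => Nat.lt_succ_of_le (Finset.le_sup
          (f := fun li : Fin n × Fin r => (P li.1 li.2).natDegree) (Finset.mem_univ (l, i))), hP l⟩
      | zero => exact ⟨0, fun i => by simp [hD], by simp⟩
      | add _ _ _ _ h1 h2 =>
        obtain ⟨Q, hQ, hQe⟩ := h1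
        obtain ⟨Q', hQ', hQe'⟩ := h2
        exact ⟨Q + Q', fun i => (natDegree_add_le _ _).trans_lt (max_lt (hQ i) (hQ' i)), by
          simp [mul_add, hQe, hQe', add_mul, Finset.sum_add_distrib]⟩
      | smul c _ _ h1 =>
        obtain ⟨Q, hQ, hQe⟩ := h1
        exact ⟨c • Q, fun i => (natDegree_smul_le _ _).trans_lt (hQ i), by
          simp only [mul_smul_comm, hQe, Finset.smul_sum, Pi.smul_apply, map_smul, smul_mul_assoc]⟩
    obtain ⟨Q, hQd, hQe⟩ := hQ
    have hrep : ∀ i, b.repr ((R.evW X S : F) * v) i = Normal.genEval K (X : F) (Q i) := by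
      intro i
      rw [hQe, show ∑ i, aeval (X : F) (Q i) * b i = ∑ i, Normal.genEval K (X : F) (Q i) • b i from
        Finset.sum_congr rfl fun i _ => by
          rw [IntermediateField.smul_def, Normal.coe_genEval, smul_eq_mul], b.repr_sum_self]
    have hint : ∀ i, ∃ Q' : W[X], Q'.map W.subtype = Q i := fun i => by
      refine R.exists_map_eq_of_aeval_mem hx ?_
      have h := R.repr_mem hx b bb e₀ hb hbb (R.evW X S * ⟨v, hvW⟩) i
      rw [MulMemClass.coe_mul, hrep, ConstRed.mem_baseRing, Normal.coe_genEval] at h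
      exact h
    choose Q' hQ' using hint
    refine ⟨fun id => (Q' id.1).coeff id.2, mul_left_cancel₀ hS0 ?_⟩
    rw [hθeq, hQe]
    refine Finset.sum_congr rfl fun i _ => congrArg (fun z => aeval (X : F) z * b i) ?_
    rw [(Q i).as_sum_range_C_mul_X_pow' (hQd i), Finset.sum_range]
    refine Finset.sum_congr rfl fun d _ => ?_
    rw [← hQ', coeff_map]
    rfl
  let Λ : Submodule W (Fin r × Fin D → W) :=
    { carrier := {v | θ v ∈ Submodule.span K (Set.range a)}
      zero_mem' := by simp [hθ0]
      add_mem' := fun {v v'} h h' => by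
        show θ (v + v') ∈ Submodule.span K (Set.range a)
        rw [hθadd]; exact add_mem h h'
      smul_mem' := fun c {v} h => by
        show θ (c • v) ∈ Submodule.span K (Set.range a)
        rw [hθsmul, ← Algebra.smul_def]
        exact Submodule.smul_mem _ _ h }
  obtain ⟨m, bs⟩ := Submodule.basisOfPid (Pi.basisFun W (Fin r × Fin D)) Λ
  let e : Fin m → R.W := fun j => ⟨θ (bs j : Fin r × Fin D → W), hθW _⟩
  have hsum : ∀ κ : Fin m → W,
      θ ((∑ j, κ j • bs j : Λ) : Fin r × Fin D → W) = ∑ j, algebraMap K F (κ j : K) * (e j : F) := by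
    intro κ
    have key : ∀ s : Finset (Fin m), θ ((∑ j ∈ s, κ j • bs j : Λ) : Fin r × Fin D → W) =
        ∑ j ∈ s, algebraMap K F (κ j : K) * (e j : F) := fun s => by
      induction s using Finset.induction with
      | empty => simp [hθ0]
      | insert j s hj ih =>
        rw [Finset.sum_insert hj, Finset.sum_insert hj, Submodule.coe_add, hθadd,
          Submodule.coe_smul, hθsmul, ih]
    exact key _
  have hspan : ∀ v : F, v ∈ Submodule.span K (Set.range a) → v ∈ R.W →
      ∃ κ : Fin m → W, v = ∑ j, algebraMap K F (κ j : K) * (e j : F) := by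
    intro v hv hvW
    obtain ⟨w, rfl⟩ := himage v hv hvW
    refine ⟨fun j => bs.repr ⟨w, hv⟩ j, ?_⟩
    rw [← hsum, bs.sum_repr]
  refine ⟨m, e, fun j => (bs j).2, ?_, fun i => ?_⟩
  · rw [Fintype.linearIndependent_iff]
    intro κ hκ j
    choose c hc using fun j => R.surjective_π (κ j)
    have hz : R.red (∑ j, R.const (c j) * e j) = 0 := by
      rw [map_sum, ← hκ]
      exact Finset.sum_congr rfl fun j _ => by
        rw [map_mul, R.red_const, hc, Algebra.smul_def]
    obtain ⟨a', z', ha', hzz⟩ := R.exists_const_mul_of_red_eq_zero hz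
    have hzF : ∑ j, algebraMap K F (c j : K) * (e j : F) =
        algebraMap K F (a' : K) * (z' : F) := by
      have := congrArg (fun w : R.W => (w : F)) hzz
      push_cast at this
      exact this
    obtain ⟨κ', hκ'⟩ : ∃ κ' : Fin m → W, algebraMap K F (a' : K) * (z' : F) =
        ∑ j, algebraMap K F (a' * κ' j : W) * (e j : F) := by
      rcases eq_or_ne (a' : K) 0 with h0 | h0
      · exact ⟨0, by simp [h0]⟩
      have hmem : (z' : F) ∈ Submodule.span K (Set.range a) := by
        have : (z' : F) = (a' : K)⁻¹ • ∑ j, algebraMap K F (c j : K) * (e j : F) := by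
          rw [hzF, Algebra.smul_def, ← mul_assoc, ← map_mul, inv_mul_cancel₀ h0, map_one, one_mul]
        rw [this]
        refine Submodule.smul_mem _ _ (sum_mem fun j _ => ?_)
        rw [← Algebra.smul_def]
        exact Submodule.smul_mem _ _ (bs j).2
      obtain ⟨κ', hκ'⟩ := hspan _ hmem z'.2
      refine ⟨κ', ?_⟩
      rw [hκ', Finset.mul_sum]
      simp only [MulMemClass.coe_mul, map_mul, mul_assoc]
    have heq : (∑ j, (c j - a' * κ' j) • bs j : Λ) = 0 := Subtype.ext <| hθinj _ <| by
      rw [hsum]
      simp only [AddSubgroupClass.coe_sub, map_sub, sub_mul, Finset.sum_sub_distrib]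
      rw [hzF, hκ', sub_self]
    have h1 := Fintype.linearIndependent_iff.mp bs.linearIndependent _ heq j
    rw [← hc, sub_eq_zero.mp h1, map_mul, ha', zero_mul]
  · rcases eq_or_ne (a i) 0 with h0 | h0
    · rw [h0]; exact zero_mem _
    obtain ⟨c, w, hc, -, hcw⟩ := R.exists_scale h0
    have hwmem : (w : F) ∈ Submodule.span K (Set.range a) := by
      have : (w : F) = c⁻¹ • a i := by
        rw [hcw, Algebra.smul_def, ← mul_assoc, ← map_mul, inv_mul_cancel₀ hc, map_one, one_mul]
      rw [this]
      exact Submodule.smul_mem _ _ (Submodule.subset_span ⟨i, rfl⟩)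
    obtain ⟨κ, hκ⟩ := hspan _ hwmem w.2
    rw [hcw, hκ, Finset.mul_sum]
    refine sum_mem fun j _ => ?_
    rw [← mul_assoc, ← map_mul, ← Algebra.smul_def]
    exact Submodule.smul_mem _ _ (Submodule.subset_span ⟨j, rfl⟩)

variable {Ω : Type*} [Field Ω] {A : ValuationSubring Ω} {π' : A →+* k}
variable {F' : Type*} [Field F'] [Algebra Ω F'] {R' : ConstRed A π' F' Fb}

/-- The reduction of a combination with bigger constants is the reduction of an integral element of
the span. -/
theorem exists_red_eq_of_combination [IsPrincipalIdealRing W] {X : R.W} (hX : R.Param X)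
    (f : K →+* Ω) (ι : F →+* F') (hι : ∀ c, ι (algebraMap K F c) = algebraMap Ω F' (f c))
    (hmem : ∀ w : R.W, ι (w : F) ∈ R'.W)
    (hred : ∀ w : R.W, R'.red ⟨ι (w : F), hmem w⟩ = R.red w)
    {n : ℕ} (c : Fin n → Ω) (a : Fin n → F) (w : R'.W)
    (hw : (w : F') = ∑ i, algebraMap Ω F' (c i) * ι (a i)) :
    ∃ e : R.W, (e : F) ∈ Submodule.span K (Set.range a) ∧ R.red e = R'.red w := by
  classical
  obtain ⟨m, e, hespan, heind, hae⟩ := exists_orthogonal_family hX a
  choose g hg using fun i => (Submodule.mem_span_range_iff_exists_fun K).mp (hae i)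
  set d : Fin m → Ω := fun j => ∑ i, c i * f (g i j)
  have hwd : (w : F') = ∑ j, algebraMap Ω F' (d j) * ι (e j : F) := by
    rw [hw]
    simp only [d, map_sum, Finset.sum_mul]
    rw [Finset.sum_comm]
    refine Finset.sum_congr rfl fun i _ => ?_
    rw [← hg i, map_sum, Finset.mul_sum]
    refine Finset.sum_congr rfl fun j _ => ?_
    rw [Algebra.smul_def, map_mul, hι, map_mul, mul_assoc]
  by_cases hd : ∀ j, d j = 0
  · refine ⟨0, zero_mem _, ?_⟩
    rw [map_zero, show w = 0 from Subtype.ext (by simp [hwd, hd]), map_zero]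
  push Not at hd
  obtain ⟨γ, v, hγ, hv, j₀, hj₀⟩ := exists_primitive_scale A d hd
  let z : R'.W := ∑ j, R'.const (v j) * ⟨ι (e j : F), hmem (e j)⟩
  have hzred : R'.red z ≠ 0 := fun h => by
    simp only [z, map_sum, map_mul, R'.red_const, hred, ← Algebra.smul_def] at h
    have := Fintype.linearIndependent_iff.mp heind _ h j₀
    rw [hj₀, map_one] at this
    exact one_ne_zero this
  have hwz : (w : F') = algebraMap Ω F' γ * (z : F') := by
    rw [hwd]
    simp only [z, AddSubmonoidClass.coe_finsetSum, MulMemClass.coe_mul, Finset.mul_sum]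
    refine Finset.sum_congr rfl fun j _ => ?_
    rw [ConstRed.coe_const, ← mul_assoc, ← map_mul, ← hv j]
  have hγA : γ ∈ A := by
    rw [← R'.algebraMap_mem_iff]
    have : algebraMap Ω F' γ = (w : F') * (z : F')⁻¹ := by
      rw [hwz, mul_assoc, mul_inv_cancel₀ (R'.ne_zero_of_red_ne_zero hzred), mul_one]
    rw [this]
    exact mul_mem w.2 (R'.inv_mem_of_red_ne_zero hzred)
  choose κ hκ using fun j => R.surjective_π (π' (⟨γ, hγA⟩ * v j))
  refine ⟨∑ j, R.const (κ j) * e j, ?_, ?_⟩
  · simp only [AddSubmonoidClass.coe_finsetSum, MulMemClass.coe_mul, ConstRed.coe_const,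
      ← Algebra.smul_def]
    exact sum_mem fun j _ => Submodule.smul_mem _ _ (hespan j)
  · rw [show w = R'.const ⟨γ, hγA⟩ * z from Subtype.ext hwz]
    simp only [z, map_sum, map_mul, R'.red_const, hred, Finset.mul_sum]
    refine Finset.sum_congr rfl fun j _ => ?_
    rw [R.red_const, hκ, map_mul, map_mul, mul_assoc]

end Fermat.Agent.Carayol.LiftBase
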