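import Fermat.Agent.Carayol.Chart
import Fermat.Agent.Carayol.LiftDescent
import Fermat.Agent.Carayol.LiftLattice
import Fermat.Agent.RED.Normal.DualBasis

/-!
# The reduction of the chart `integral closure of W[x]`

Facts on `chartRing W x` for a constant reduction over the valuation ring `W`: it is the part of
`coordRing K x` inside the valuation ring, its reductions lie in `coordRing k x̄`, the kernel is
generated by a generator of the maximal ideal of `W`, and it maps onto `coordRing k x̄` as soon as
this holds over a bigger constant field.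
-/

set_option autoImplicit false
set_option linter.style.haveILetI false

noncomputable section

open Polynomial IntermediateField

namespace Fermat.Agent.Carayol.LiftBase

open Fermat.Agent.RED

variable {K k : Type} [Field K] [Field k] {W : ValuationSubring K} {π : W →+* k}
variable {F Fb : Type} [Field F] [Field Fb] [Algebra K F] [Algebra k Fb]
variable (R : ConstRed W π F Fb) (X : R.W)

theorem algebraMap_W_eq (w : W) : algebraMap W F w = algebraMap K F (w : K) := rfl

theorem isScalarTower_W : IsScalarTower W K F :=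
  IsScalarTower.of_algebraMap_eq fun _ => rfl

/-- The chart lies in the valuation ring. -/
theorem chartRing_mem_W {a : F} (ha : a ∈ Carayol.chartRing W (X : F)) : a ∈ R.W :=
  chartRing_mem_valuationSubring (fun w => by rw [algebraMap_W_eq]; exact R.algebraMap_mem w)
    X.2 ha

/-- The chart lies in `coordRing K x`. -/
theorem chartRing_mem_coordRing {a : F} (ha : a ∈ Carayol.chartRing W (X : F)) :
    a ∈ coordRing K (X : F) := by
  haveI := isScalarTower_W (W := W) (F := F)
  obtain ⟨g, hg, hga⟩ := mem_chartRing_iff_isIntegralElem.mp ha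
  refine ⟨g.map (mapRingHom (algebraMap W K)), hg.map _, ?_⟩
  rw [eval₂_map, coordEval_comp_map]
  exact hga

/-- Integral functions in `coordRing K x` are in the chart. -/
theorem mem_chartRing_of_mem (hX : R.Param X) {a : F} (ha : a ∈ coordRing K (X : F))
    (haW : a ∈ R.W) : a ∈ Carayol.chartRing W (X : F) := by
  refine mem_chartRing_iff_isIntegralElem.mpr ?_
  have h := R.mem_intRing hX ha haW
  have heq : intEval W (X : F) = (aeval (R := W) (X : F)).toRingHom :=
    Polynomial.ringHom_ext (fun w => by simp [intEval, algebraMap_W_eq]) (by simp [intEval])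
  rw [← heq]
  exact h

/-- The reduction on the chart. -/
def chartRed : Carayol.chartRing W (X : F) →+* Fb :=
  R.red.comp ((Carayol.chartRing W (X : F)).val.toRingHom.codRestrict R.W.toSubring
    fun a => chartRing_mem_W R X a.2)

theorem chartRed_apply (a : Carayol.chartRing W (X : F)) :
    chartRed R X a = R.red ⟨(a : F), chartRing_mem_W R X a.2⟩ := rfl

theorem chartRed_mem_coordRing (hX : R.Param X) (a : Carayol.chartRing W (X : F)) :
    chartRed R X a ∈ coordRing k (R.red X) :=
  R.red_mem_coordRing_of_mem_chartRing hX (w := ⟨(a : F), chartRing_mem_W R X a.2⟩)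
    (ConstRed.mem_chartRing R |>.mpr (chartRing_mem_coordRing R X a.2))

/-- The kernel of the reduction on the chart. -/
theorem dvd_of_chartRed_eq_zero (hX : R.Param X) {ϖ : W} (hϖ : ∀ w, π w = 0 → ϖ ∣ w)
    {a : Carayol.chartRing W (X : F)} (ha : chartRed R X a = 0) :
    algebraMap W (Carayol.chartRing W (X : F)) ϖ ∣ a := by
  obtain ⟨w, z, hw, hwz⟩ := R.exists_const_mul_of_red_eq_zero ha
  obtain ⟨w', rfl⟩ := hϖ w hw
  have heq : (a : F) = algebraMap W F ϖ * ((R.const w' * z : R.W) : F) := by
    have := congrArg (fun u : R.W => (u : F)) hwz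
    simp only [MulMemClass.coe_mul, ConstRed.coe_const, map_mul] at this ⊢
    refine Eq.trans this ?_
    rw [algebraMap_W_eq]
    ring
  rcases eq_or_ne (ϖ : K) 0 with h0 | h0
  · refine ⟨0, Subtype.ext ?_⟩
    rw [heq, algebraMap_W_eq, h0, map_zero, zero_mul, mul_zero]
    rfl
  have hmem : ((R.const w' * z : R.W) : F) ∈ Carayol.chartRing W (X : F) := by
    refine mem_chartRing_of_mem R X hX ?_ (SetLike.coe_mem _)
    have h1 : ((R.const w' * z : R.W) : F) = algebraMap K F (ϖ : K)⁻¹ * (a : F) := by
      rw [heq, algebraMap_W_eq, ← mul_assoc, ← map_mul, inv_mul_cancel₀ h0, map_one, one_mul]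
    rw [h1]
    exact mul_mem ((coordRing K (X : F)).algebraMap_mem _) (chartRing_mem_coordRing R X a.2)
  exact ⟨⟨_, hmem⟩, Subtype.ext heq⟩

variable {Ω : Type} [Field Ω] {A : ValuationSubring Ω} {π' : A →+* k}
variable {F' : Type} [Field F'] [Algebra Ω F'] {R' : ConstRed A π' F' Fb}

/-- Normality descends along a change of constants. -/
theorem exists_chartRed_eq [IsPrincipalIdealRing W] (hX : R.Param X) (f : K →+* Ω) (ι : F →+* F')
    (hι : ∀ c, ι (algebraMap K F c) = algebraMap Ω F' (f c))
    (hmem : ∀ w : R.W, ι (w : F) ∈ R'.W)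
    (hred : ∀ w : R.W, R'.red ⟨ι (w : F), hmem w⟩ = R.red w)
    (hdesc : ∀ w : F', w ∈ coordRing Ω (ι (X : F)) →
      ∃ (n : ℕ) (c : Fin n → Ω) (a : Fin n → F), (∀ l, a l ∈ coordRing K (X : F)) ∧
        w = ∑ l, algebraMap Ω F' (c l) * ι (a l))
    (hlift : ∀ g ∈ coordRing k (R.red X),
      ∃ w : R'.W, (w : F') ∈ coordRing Ω (ι (X : F)) ∧ R'.red w = g)
    {g : Fb} (hg : g ∈ coordRing k (R.red X)) :
    ∃ a : Carayol.chartRing W (X : F), chartRed R X a = g := by
  obtain ⟨w, hw, rfl⟩ := hlift g hg
  obtain ⟨n, c, a, ha, hwa⟩ := hdesc _ hw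
  obtain ⟨e, he, hered⟩ := exists_red_eq_of_combination hX f ι hι hmem hred c a w hwa
  have hle : Submodule.span K (Set.range a) ≤ Subalgebra.toSubmodule (coordRing K (X : F)) :=
    Submodule.span_le.mpr (by rintro _ ⟨l, rfl⟩; exact ha l)
  exact ⟨⟨e, mem_chartRing_of_mem R X hX (hle he) e.2⟩, hered⟩

end Fermat.Agent.Carayol.LiftBase
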