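/-
Functions coming from level `q L` by a degeneracy map, seen on a `Model`: the middle branch and the
branch `o` see the same function, with the same values at the supersingular points.

Only one fact about the subfield is used: the norm is the `q`-th power on it.
-/
import Fermat.Agent.Carayol.Coherent
import Mathlib.RingTheory.Polynomial.Basic

set_option autoImplicit false
set_option linter.unusedSectionVars false

noncomputable section

namespace Fermat.Agent.Carayol.Model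

variable {W F k C : Type} [CommRing W] [IsDomain W] [IsDiscreteValuationRing W] [Field F]
  [Algebra W F] [Field k] [Field C] [Algebra k C] (M : Model W F k C)

/-- The subfield of one degeneracy map with its norm; `o` is the branch meeting the middle one. -/
structure OldSide (o : Fin 3) where
  E : Subfield F
  N : F →* F
  N_mem : ∀ a, N a ∈ E
  N_pow : ∀ a ∈ E, N a = a ^ M.q
  N_chart : ∀ c (y : Ideal (M.R c)) [y.IsMaximal], M.qR c ∈ y → (∀ i, M.OnBranch c y i) →
    ∀ a ∈ M.R c, ∃ r : M.R c, r ∉ y ∧ (r : F) * N a ∈ M.R c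
  ord_N : ∀ a, a ≠ 0 → M.ord o (N a) = M.ord o a + M.ord 1 a
  res_N : ∀ a (h0 : a ∈ M.Br.V o) (h1 : a ∈ M.Br.V 1) (hN : N a ∈ M.Br.V o),
    M.Br.res o ⟨N a, hN⟩ = M.Br.res o ⟨a, h0⟩ * M.Br.res 1 ⟨a, h1⟩ ^ (M.q - 1)

/-- The side of `normα`. -/
def oldSideα (E : Subfield F) (hmem : ∀ a, M.normα a ∈ E)
    (hpow : ∀ a ∈ E, M.normα a = a ^ M.q) : M.OldSide 0 :=
  ⟨E, M.normα, hmem, hpow, fun c y _ _ _ a ha => ⟨1, Ideal.one_notMem y,
    by simpa using M.normα_mem c a ha⟩, fun a ha => (M.ord_normα a ha).1, M.res_normα₀⟩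

/-- The side of `normβ`. -/
def oldSideβ (E : Subfield F) (hmem : ∀ a, M.normβ a ∈ E)
    (hpow : ∀ a ∈ E, M.normβ a = a ^ M.q) : M.OldSide 2 :=
  ⟨E, M.normβ, hmem, hpow, fun c y _ hy hon => M.normβ_mem c y hy hon, fun a ha => (M.ord_normβ a ha).1, M.res_normβ₂⟩

/-- The residue field has characteristic `q`. -/
theorem natCast_q_eq_zero : ((M.q : ℕ) : C) = 0 := by
  by_contra h
  rw [← map_natCast (algebraMap k C), ← map_natCast M.ρ] at h
  have hmem : algebraMap W F (M.q : W) ∈ M.Br.V 0 := M.const_mem 0 _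
  have h1 := (M.ord_eq_zero_of_red hmem (by rwa [M.red_const])).2
  rw [M.ord_q.1] at h1
  exact one_ne_zero h1

/-- Two elements whose translates by the prime field have equal `(q - 1)`-th powers are equal. -/
theorem eq_of_forall_pow_eq {z w : C}
    (h : ∀ n : ℕ, (z + n) ^ (M.q - 1) = (w + n) ^ (M.q - 1)) : z = w := by
  have : CharP C M.q := by
    exact (CharP.charP_iff_prime_eq_zero M.hq).mpr M.natCast_q_eq_zero
  have hq := M.hq.two_le
  obtain ⟨e, he⟩ : ∃ e, M.q = e + 2 := ⟨M.q - 2, by omega⟩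
  rw [show M.q - 1 = e + 1 by omega] at h
  set P : Polynomial C := (Polynomial.X + Polynomial.C z) ^ (e + 1) -
    (Polynomial.X + Polynomial.C w) ^ (e + 1) with hP
  have hdeg : P.natDegree ≤ e + 1 := (Polynomial.natDegree_sub_le _ _).trans (max_le
    (by rw [Polynomial.natDegree_pow, Polynomial.natDegree_X_add_C, mul_one])
    (by rw [Polynomial.natDegree_pow, Polynomial.natDegree_X_add_C, mul_one]))
  have hP0 : P = 0 := by
    refine Polynomial.eq_zero_of_natDegree_lt_card_of_eval_eq_zero P (ι := Fin M.q)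
      (f := fun n => ((n : ℕ) : C)) (fun a b hab => Fin.ext ?_) (fun n => ?_) ?_
    · exact (CharP.natCast_eq_natCast C M.q).mp hab |>.eq_of_lt_of_lt a.2 b.2
    · simp only [hP, Polynomial.eval_sub, Polynomial.eval_pow, Polynomial.eval_add,
        Polynomial.eval_X, Polynomial.eval_C]
      rw [add_comm _ z, add_comm _ w, h n, sub_self]
    · rw [Fintype.card_fin]; omega
  have hc := congrArg (fun Q : Polynomial C => Q.coeff e) hP0
  simp only [hP, Polynomial.coeff_sub, Polynomial.coeff_X_add_C_pow, Polynomial.coeff_zero,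
    Nat.add_sub_cancel_left, pow_one, Nat.choose_succ_self_right] at hc
  have hne : ((e + 1 : ℕ) : C) ≠ 0 := fun h0 => by
    have h1 := Nat.le_of_dvd (by omega) ((CharP.cast_eq_zero_iff C M.q (e + 1)).mp h0)
    omega
  rw [← sub_mul, mul_eq_zero] at hc
  exact sub_eq_zero.mp (hc.resolve_right hne)

variable {M} {o : Fin 3} (S : M.OldSide o) {m : ℕ} {g : F} {s : Fin 3 → C}

theorem OldSide.ord_one_eq {a : F} (ha : a ∈ S.E) (ha0 : a ≠ 0) :
    M.ord 1 a = ((M.q : ℤ) - 1) * M.ord o a := by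
  have h := S.ord_N a ha0
  rw [S.N_pow a ha, M.ord_pow ha0] at h
  linear_combination -h

theorem OldSide.mem_one {a : F} (ha : a ∈ S.E) (h : a ∈ M.Br.V o) : a ∈ M.Br.V 1 := by
  rcases eq_or_ne a 0 with rfl | ha0
  · exact zero_mem _
  refine M.mem_of_ord_nonneg ?_
  rw [S.ord_one_eq ha ha0]
  exact mul_nonneg (by have := M.hq.one_lt; omega) ((M.mem_iff o a ha0).mp h)

theorem OldSide.pow_pred_red {a : F} (ha : a ∈ S.E) (h : a ∈ M.Br.V o) :
    M.red 1 a ^ (M.q - 1) = M.red o a ^ (M.q - 1) := by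
  have h1 := S.mem_one ha h
  rcases eq_or_ne (M.red o a) 0 with h0 | h0
  · rcases eq_or_ne a 0 with rfl | ha0
    · rw [M.red_zero, M.red_zero]
    have hpos : 0 < M.ord o a := by
      rw [red_of_mem M h, M.res_eq_zero_iff o a h ha0] at h0
      exact h0
    have : M.red 1 a = 0 := by
      rw [red_of_mem M h1, M.res_eq_zero_iff 1 a h1 ha0, S.ord_one_eq ha ha0]
      exact mul_pos (by have := M.hq.one_lt; omega) hpos
    rw [this, h0]
  have hN : S.N a ∈ M.Br.V o := by rw [S.N_pow a ha]; exact pow_mem h _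
  have e := S.res_N a h h1 hN
  rw [← red_of_mem M hN, ← red_of_mem M h, ← red_of_mem M h1, S.N_pow a ha, M.red_pow h] at e
  refine mul_left_cancel₀ h0 ?_
  rw [← pow_succ', Nat.sub_add_cancel M.hq.one_le, e]

/-- On the subfield the two branches have the same residues. -/
theorem OldSide.red_eq {a : F} (ha : a ∈ S.E) (h : a ∈ M.Br.V o) : M.red 1 a = M.red o a := by
  refine M.eq_of_forall_pow_eq fun n => ?_
  have hn : (n : F) ∈ S.E := natCast_mem _ n
  have hcast : ∀ i, (n : F) ∈ M.Br.V i ∧ M.red i (n : F) = n := fun i => by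
    refine ⟨by simpa using M.const_mem i (n : W), ?_⟩
    rw [← map_natCast (algebraMap W F), M.red_const, map_natCast, map_natCast]
  have e := S.pow_pred_red (add_mem ha hn) (add_mem h (hcast o).1)
  rwa [M.red_add (S.mem_one ha h) (hcast 1).1, M.red_add h (hcast o).1, (hcast 1).2,
    (hcast o).2] at e

/-- Roots agreeing on the two branches have the same values at the supersingular points. -/
theorem OldSide.vals_eq (hm : IsUnit (m : W)) (hm0 : 0 < m) (hgE : g ∈ S.E) (hg : g ≠ 0)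
    (hord : ∀ i, M.ord i g = 0) (hs : M.IsBranchRoots m g s) (hso : s 1 = s o) {c : Fin 2}
    {y : Ideal (M.R c)} [y.IsMaximal] (hy : M.qR c ∈ y) (hon : ∀ i, M.OnBranch c y i)
    {V : Fin 3 → M.R c ⧸ y} (hV : M.PointVals c y m g s V) : V o = V 1 := by
  classical
  have hcv : ∀ i j (z : C) (v : M.R c ⧸ y), M.IsVal c y i z v → M.IsVal c y j z v := by
    rcases M.dichotomy c y hy with ⟨i, hi⟩ | ⟨-, hcong⟩
    · obtain ⟨j, hj⟩ : ∃ j : Fin 3, j ≠ i := ⟨i + 1, by simp⟩
      obtain ⟨r, hr, hr0, hry⟩ := hi j hj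
      exact absurd (hon j r hr hr0) hry
    · exact fun i j z v hzv => M.isVal_congr hcong i j (hon i) hzv
  obtain ⟨a, u, hu, hau, haV, hVv⟩ := id hV
  have ha0 : a ≠ 0 := fun e => hu (by
    have : (u : F) = 0 := by rw [← hau, e, zero_pow hm0.ne', zero_mul]
    rw [show u = 0 from Subtype.ext this]; exact zero_mem _)
  -- a multiple of the norm of the local unit is a local unit
  obtain ⟨r, hr, hrN⟩ := S.N_chart c y hy hon _ u.2
  set u' : M.R c := r ^ (m - 1) * ⟨(r : F) * S.N u, hrN⟩ with hu'def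
  have hcoe : (u' : F) = (r : F) ^ m * S.N u := by
    rw [hu'def, MulMemClass.coe_mul, SubmonoidClass.coe_pow, ← pow_sub_one_mul hm0.ne' (r : F)]
    exact (mul_assoc _ _ _).symm
  have hrelu : ((r : F) * S.N a) ^ m * g ^ M.q = (u' : F) := by
    rw [hcoe, mul_pow, mul_assoc, ← S.N_pow g hgE, ← map_pow, ← map_mul, hau]
  have hu0 : (u : F) ≠ 0 := fun e => hu (by
    rw [show u = 0 from Subtype.ext e]; exact zero_mem _)
  have hNu : S.N (u : F) ∈ M.Br.V o := M.mem_of_ord_nonneg (by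
    rw [S.ord_N _ hu0, (M.ord_eq_zero_of_red (M.mem_of_mem u.2 o)
      (M.red_ne_zero_of_notMem (hon o) hu)).2, (M.ord_eq_zero_of_red (M.mem_of_mem u.2 1)
      (M.red_ne_zero_of_notMem (hon 1) hu)).2, add_zero])
  have hred' : M.red o (u' : F) =
      M.red o (r : F) ^ m * (M.red o (u : F) * M.red 1 (u : F) ^ (M.q - 1)) := by
    rw [hcoe, M.red_mul (pow_mem (M.mem_of_mem r.2 o) m) hNu, M.red_pow (M.mem_of_mem r.2 o),
      red_of_mem M hNu, red_of_mem M (M.mem_of_mem u.2 o), red_of_mem M (M.mem_of_mem u.2 1),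
      S.res_N _ (M.mem_of_mem u.2 o) (M.mem_of_mem u.2 1) hNu]
  have hu'v : Ideal.Quotient.mk y u' =
      Ideal.Quotient.mk y r ^ m * Ideal.Quotient.mk y u ^ M.q := by
    refine M.isVal_unique (hon o) (M.isVal_of_mem (y := y) u') ?_
    rw [hred', ← pow_sub_one_mul M.hq.ne_zero (Ideal.Quotient.mk y u), mul_comm _ (Ideal.Quotient.mk y u)]
    exact M.isVal_mul (M.isVal_pow (M.isVal_of_mem (y := y) r) _)
      (M.isVal_mul (M.isVal_of_mem (y := y) u)
        (M.isVal_pow (hcv 1 o _ _ (M.isVal_of_mem (y := y) (i := 1) u)) _))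
  have hr' : Ideal.Quotient.mk y r ≠ 0 := by rwa [Ne, Ideal.Quotient.eq_zero_iff_mem]
  have hu' : u' ∉ y := by
    rw [← Ideal.Quotient.eq_zero_iff_mem, hu'v, ← Ne]
    exact mul_ne_zero (pow_ne_zero _ hr') (pow_ne_zero _ fun e => hu (Ideal.Quotient.eq_zero_iff_mem.mp e))
  have hgq : ∀ i, M.ord i (g ^ M.q) = 0 := fun i => by rw [M.ord_pow hg, hord, mul_zero]
  have hra0 : (r : F) * S.N a ≠ 0 := fun e => hu' (by
    have : (u' : F) = 0 := by rw [← hrelu, e, zero_pow hm0.ne', zero_mul]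
    rw [show u' = 0 from Subtype.ext this]; exact zero_mem _)
  have haV' := fun i => (M.mem_of_unit_pow hm0 (pow_ne_zero _ hg) hgq hra0 hrelu i).2
  have hgV : ∀ i, g ∈ M.Br.V i := fun i => M.mem_of_ord_nonneg (hord i).ge
  have hsq : M.IsBranchRoots m (g ^ M.q) fun i => s i ^ M.q := fun i => by
    rw [M.red_pow (hgV i), ← pow_mul, mul_comm M.q, pow_mul, ← mul_pow, hs i, one_pow]
  have hV1 : ∀ i, ∃ v', M.IsVal c y i (M.red i ((r : F) * S.N a) / s i ^ M.q) v' := fun i =>
    M.exists_isVal hy (hon i) hm0.ne' (u := u')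
      (hsq.pow_div hm0.ne' hrelu (haV' i) (M.mem_of_ord_nonneg (hgq i).ge))
  choose V' hV' using hV1
  have ha0' : ∀ i, M.ord i a = 0 := fun i => by
    have h0 := (M.ord_eq_zero_of_red (M.mem_of_mem u.2 i) (M.red_ne_zero_of_notMem (hon i) hu)).2
    rw [← hau, M.ord_mul i _ _ (pow_ne_zero _ ha0) hg, M.ord_pow ha0, hord, add_zero] at h0
    exact (mul_eq_zero.mp h0).resolve_left (by exact_mod_cast hm0.ne')
  have hNao : S.N a ∈ M.Br.V o :=
    M.mem_of_ord_nonneg (by rw [S.ord_N a ha0, ha0', ha0', add_zero])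
  set Z := M.red o (S.N a) / s o ^ M.q with hZ
  have hz : ∀ i, i = 1 ∨ i = o →
      M.red i ((r : F) * S.N a) / s i ^ M.q = M.red i (r : F) * Z := by
    intro i hi
    rcases hi with rfl | rfl
    · rw [M.red_mul (M.mem_of_mem r.2 1) (S.mem_one (S.N_mem a) hNao), S.red_eq (S.N_mem a) hNao,
        hZ, hso, mul_div_assoc]
    · rw [M.red_mul (M.mem_of_mem r.2 _) hNao, hZ, mul_div_assoc]
  have hVo : V' o = V' 1 := by
    obtain ⟨a₁, r₁, hr₁, h₁, h₁'⟩ := hz o (Or.inr rfl) ▸ hV' o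
    let := Ideal.Quotient.field y
    have hZv : M.IsVal c y o Z (V' o / Ideal.Quotient.mk y r) :=
      ⟨a₁, r * r₁, fun h => ((inferInstance : y.IsMaximal).isPrime.mem_or_mem h).elim hr hr₁, by
        rw [MulMemClass.coe_mul, M.red_mul (M.mem_of_mem r.2 o) (M.mem_of_mem r₁.2 o), ← h₁]
        ring, by rw [map_mul, ← mul_assoc, div_mul_cancel₀ _ hr', h₁']⟩
    have := M.isVal_mul (M.isVal_of_mem (y := y) (i := 1) r) (hcv o 1 _ _ hZv)
    rw [← hz 1 (Or.inl rfl), mul_div_cancel₀ _ hr'] at this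
    exact M.isVal_unique (hon 1) this (hV' 1)
  have hpowV : M.PointVals c y m (g ^ M.q) (fun i => s i ^ M.q) fun i => V i ^ M.q :=
    ⟨a ^ M.q, u ^ M.q, fun h => hu ((inferInstance : y.IsMaximal).isPrime.mem_of_pow_mem _ h),
      by rw [SubmonoidClass.coe_pow, ← hau, mul_pow, ← pow_mul, ← pow_mul, mul_comm m],
      fun i => pow_mem (haV i) _, fun i hi => by
        rw [M.red_pow (haV i), ← div_pow]; exact M.isVal_pow (hVv i hi) _⟩
  have hr := PointVals.ratio M hy hon hm0.ne' (pow_ne_zero _ hg) hsq hpowV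
    ⟨(r : F) * S.N a, u', hu', hrelu, haV', fun i _ => hV' i⟩ o 1
  have hV'ne : V' 1 ≠ 0 := fun e => by
    have h1 := M.isVal_unique (hon 1) (M.isVal_pow (hV' 1) m)
      (hsq.pow_div hm0.ne' hrelu (haV' 1) (M.mem_of_ord_nonneg (hgq 1).ge) ▸
        M.isVal_of_mem (y := y) u')
    rw [e, zero_pow hm0.ne'] at h1
    exact hu' (Ideal.Quotient.eq_zero_iff_mem.mp h1.symm)
  rw [hVo] at hr
  have hq' : V o ^ M.q = V 1 ^ M.q := mul_right_cancel₀ hV'ne hr
  have hm' : ∀ i, V i ^ m = Ideal.Quotient.mk y u := fun i =>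
    M.isVal_unique (hon i) (M.isVal_pow (hVv i (hon i)) m)
      (hs.pow_div hm0.ne' hau (haV i) (hgV i) ▸ M.isVal_of_mem (y := y) u)
  have hV1ne : V 1 ≠ 0 := fun e => hu (Ideal.Quotient.eq_zero_iff_mem.mp (by
    rw [← hm' 1, e, zero_pow hm0.ne']))
  let := Ideal.Quotient.field y
  refine (div_eq_one_iff_eq hV1ne).mp ?_
  have h1 : (V o / V 1) ^ M.q = 1 := by rw [div_pow, hq', div_self (pow_ne_zero _ hV1ne)]
  have h2 : (V o / V 1) ^ m = 1 := by
    rw [div_pow, hm', hm', div_self fun e => hu (Ideal.Quotient.eq_zero_iff_mem.mp e)]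
  rw [← pow_one (V o / V 1), ← (M.natCast_mem_iff_dvd hm).gcd_eq_one]
  exact pow_gcd_eq_one.mpr ⟨h1, h2⟩

end Fermat.Agent.Carayol.Model
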