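/-
Old classes fill all the data of a `Model`.

The data of a unit with divisor divisible by `m` are the classes of its residues on the three
branches and, when these vanish, the ratios of the root values at the supersingular points. Units
coming from level `q L` by one degeneracy map inject into their share of the data; if there are as
many classes of them as data, every unit is a product of two of them and a trivial one.
-/
import Fermat.Agent.Carayol.OldSide
import Mathlib.GroupTheory.Index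
import Mathlib.RingTheory.RootsOfUnity.AlgebraicallyClosed

set_option autoImplicit false
set_option linter.unusedSectionVars false
set_option synthInstance.maxHeartbeats 400000

noncomputable section

namespace Fermat.Agent.Carayol

section ResClass

variable (k C : Type) [Field k] [Field C] [Algebra k C] (m : ℕ)

/-- Every order of `r` is divisible by `m`. -/
def IsResDiv (r : C) : Prop :=
  ∀ O : ValuationSubring C, (∀ z : k, algebraMap k C z ∈ O) →
    ∃ a : C, a ^ m * r ∈ O ∧ (a ^ m * r)⁻¹ ∈ O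

/-- The nonzero functions whose orders are divisible by `m`. -/
def resDivGroup : Subgroup Cˣ where
  carrier := {r | IsResDiv k C m (r : C)}
  one_mem' O _ := ⟨1, by simp, by simp⟩
  mul_mem' {r r'} hr hr' O hO := by
    obtain ⟨a, ha, ha'⟩ := hr O hO
    obtain ⟨b, hb, hb'⟩ := hr' O hO
    refine ⟨a * b, ?_, ?_⟩
    · convert mul_mem ha hb using 1; rw [Units.val_mul]; ring
    · convert mul_mem ha' hb' using 1; rw [Units.val_mul]; ring
  inv_mem' {r} hr O hO := by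
    obtain ⟨a, ha, ha'⟩ := hr O hO
    refine ⟨a⁻¹, ?_, ?_⟩
    · convert ha' using 1; rw [Units.val_inv_eq_inv_val]; ring
    · convert ha using 1; rw [Units.val_inv_eq_inv_val, inv_pow]; simp [mul_comm]

/-- Constants times `m`-th powers. -/
def resTriv : Subgroup Cˣ :=
  (Units.map (algebraMap k C).toMonoidHom).range ⊔ (powMonoidHom m : Cˣ →* Cˣ).range

/-- The `m`-torsion of the Jacobian of the branch, as classes of functions. -/
abbrev ResClass : Type := resDivGroup k C m ⧸ (resTriv k C m).subgroupOf (resDivGroup k C m)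

variable {k C m}

theorem exists_root_of_mem_resTriv [IsAlgClosed k] (hm : 0 < m) {r : Cˣ}
    (h : r ∈ resTriv k C m) : ∃ t : Cˣ, t ^ m = r := by
  obtain ⟨_, ⟨c, rfl⟩, _, ⟨t, rfl⟩, rfl⟩ := Subgroup.mem_sup.mp h
  obtain ⟨d, hd⟩ := IsAlgClosed.exists_pow_nat_eq (c : k) hm
  have hd0 : d ≠ 0 := fun e => c.ne_zero (by rw [← hd, e, zero_pow hm.ne'])
  refine ⟨Units.map (algebraMap k C).toMonoidHom (Units.mk0 d hd0) * t, Units.ext ?_⟩
  simp only [Units.val_mul, Units.val_pow_eq_pow_val, Units.coe_map, powMonoidHom_apply, mul_pow]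
  congr 1
  show algebraMap k C d ^ m = algebraMap k C c
  rw [← map_pow, hd]

theorem mem_resTriv_of_eq {r : Cˣ} {c : k} (hc : c ≠ 0) {t : C} (h : (r : C) = algebraMap k C c * t ^ m) :
    r ∈ resTriv k C m := by
  rcases eq_or_ne m 0 with rfl | hm
  · exact Subgroup.mem_sup_left ⟨Units.mk0 c hc, Units.ext (by simp [h])⟩
  have ht : t ≠ 0 := fun e => r.ne_zero (by rw [h, e, zero_pow hm, mul_zero])
  exact Subgroup.mem_sup.mpr ⟨_, ⟨Units.mk0 c hc, rfl⟩, _, ⟨Units.mk0 t ht, rfl⟩,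
    Units.ext (by simp [h])⟩

end ResClass

namespace Model

variable {W F k C : Type} [CommRing W] [IsDomain W] [IsDiscreteValuationRing W] [Field F]
  [Algebra W F] [Field k] [Field C] [Algebra k C] (M : Model W F k C) (m : ℕ)

/-- Units on the three branches with horizontal divisor divisible by `m`. -/
def unitFns : Subgroup Fˣ where
  carrier := {g | (∀ i, M.ord i (g : F) = 0) ∧ HorizDvd W m (g : F)}
  one_mem' := ⟨fun i => M.ord_one i, fun O _ _ => ⟨1, 1, one_mem _, by simp, by simp⟩⟩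
  mul_mem' {g g'} hg hg' := ⟨fun i => by
      rw [Units.val_mul, M.ord_mul i _ _ g.ne_zero g'.ne_zero, hg.1, hg'.1, add_zero],
    fun O hO hc => by
      obtain ⟨a, u, hu, hu', h⟩ := hg.2 O hO hc
      obtain ⟨b, v, hv, hv', h'⟩ := hg'.2 O hO hc
      exact ⟨a * b, u * v, mul_mem hu hv, by rw [mul_inv]; exact mul_mem hu' hv', by
        rw [Units.val_mul, h, h']; ring⟩⟩
  inv_mem' {g} hg := ⟨fun i => by
      rw [Units.val_inv_eq_inv_val, M.ord_inv g.ne_zero, hg.1, neg_zero],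
    fun O hO hc => by
      obtain ⟨a, u, hu, hu', h⟩ := hg.2 O hO hc
      exact ⟨a⁻¹, u⁻¹, hu', by rwa [inv_inv], by
        rw [Units.val_inv_eq_inv_val, h, mul_inv, inv_pow]⟩⟩

/-- Constants times `m`-th powers: the functions of trivial classes. -/
def trivFns (_M : Model W F k C) (m : ℕ) : Subgroup Fˣ where
  carrier := {g | ∃ (a b : W) (h : F), a ≠ 0 ∧ b ≠ 0 ∧ h ≠ 0 ∧
    algebraMap W F b * (g : F) = algebraMap W F a * h ^ m}
  one_mem' := ⟨1, 1, 1, one_ne_zero, one_ne_zero, one_ne_zero, by simp⟩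
  mul_mem' := by
    rintro g g' ⟨a, b, h, ha, hb, hh, e⟩ ⟨a', b', h', ha', hb', hh', e'⟩
    refine ⟨a * a', b * b', h * h', mul_ne_zero ha ha', mul_ne_zero hb hb', mul_ne_zero hh hh', ?_⟩
    rw [map_mul, map_mul, Units.val_mul, mul_pow]
    linear_combination (algebraMap W F b' * (g' : F)) * e + (algebraMap W F a * h ^ m) * e'
  inv_mem' := by
    rintro g ⟨a, b, h, ha, hb, hh, e⟩
    refine ⟨b, a, h⁻¹, hb, ha, inv_ne_zero hh, ?_⟩
    have := g.ne_zero
    rw [Units.val_inv_eq_inv_val, inv_pow]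
    field_simp
    linear_combination -e

variable {M m}

/-- A trivial unit on the branches is a unit constant times a power of a unit on the branches. -/
theorem exists_unit_root (hm : 0 < m) {g : Fˣ} (hg : g ∈ M.unitFns m) (ht : g ∈ M.trivFns m) :
    ∃ (c d : W) (h : F), IsUnit c ∧ IsUnit d ∧ h ≠ 0 ∧ (∀ i, M.ord i h = 0) ∧
      algebraMap W F d * (g : F) = algebraMap W F c * h ^ m := by
  obtain ⟨a, b, h, ha, hb, hh, e⟩ := ht
  obtain ⟨na, ua, hua, rfl, hao⟩ := M.exists_const_eq ha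
  obtain ⟨nb, ub, hub, rfl, hbo⟩ := M.exists_const_eq hb
  have hQ := M.q_ne_zero
  have key : ∀ i, (nb : ℤ) * M.ord i (algebraMap W F (M.q : W)) =
      na * M.ord i (algebraMap W F (M.q : W)) + m * M.ord i h := fun i => by
    have := congrArg (M.ord i) e
    rw [M.ord_mul i _ _ (M.const_ne_zero hb) g.ne_zero,
      M.ord_mul i _ _ (M.const_ne_zero ha) (pow_ne_zero _ hh), M.ord_pow hh, hao, hbo,
      hg.1 i] at this
    linarith
  have k0 := key 0
  rw [M.ord_q.1] at k0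
  set t := M.ord 0 h
  refine ⟨ua, ub, h * algebraMap W F (M.q : W) ^ (-t), hua, hub,
    mul_ne_zero hh (zpow_ne_zero _ hQ), fun i => ?_, ?_⟩
  · rw [M.ord_mul i _ _ hh (zpow_ne_zero _ hQ), M.ord_zpow hQ]
    have h1 : (m : ℤ) * (M.ord i h + -t * M.ord i (algebraMap W F (M.q : W))) = 0 := by
      linear_combination M.ord i (algebraMap W F (M.q : W)) * k0 - key i
    exact (mul_eq_zero.mp h1).resolve_left (by exact_mod_cast hm.ne')
  · rw [map_mul, map_mul, map_pow, map_pow] at e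
    refine mul_left_cancel₀ (pow_ne_zero nb hQ) ?_
    rw [← mul_assoc, e, mul_pow, ← zpow_natCast (algebraMap W F (M.q : W)) na,
      ← zpow_natCast (algebraMap W F (M.q : W)) nb, ← zpow_natCast (_ ^ (-t)) m, ← zpow_mul,
      show (nb : ℤ) = na + t * m by linear_combination k0, zpow_add₀ hQ, neg_mul, zpow_neg]
    field_simp

variable (M m) in
/-- Every place of `C` over the constants is seen by a chart on every branch. -/
def ChartsCover : Prop :=
  ∀ (i : Fin 3) (O : ValuationSubring C), (∀ z : k, algebraMap k C z ∈ O) →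
    ∃ c, ∀ a ∈ M.R c, M.red i a ∈ O

/-- The residues have orders divisible by `m`. -/
theorem isResDiv_red (hcov : M.ChartsCover) (hm : 0 < m) {g : Fˣ} (hg : g ∈ M.unitFns m)
    (i : Fin 3) : IsResDiv k C m (M.red i (g : F)) := by
  intro O hO
  obtain ⟨c, hc⟩ := hcov i O hO
  let φ : M.R c →+* O :=
    { toFun := fun a => ⟨M.red i (a : F), hc a a.2⟩
      map_one' := Subtype.ext (M.red_one i)
      map_zero' := Subtype.ext (M.red_zero i)
      map_mul' := fun a b => Subtype.ext (M.red_mul (M.mem_of_mem a.2 i) (M.mem_of_mem b.2 i))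
      map_add' := fun a b => Subtype.ext (M.red_add (M.mem_of_mem a.2 i) (M.mem_of_mem b.2 i)) }
  let P : Ideal (M.R c) := (IsLocalRing.maximalIdeal O).comap φ
  have hP : P ≠ ⊤ := Ideal.IsPrime.ne_top inferInstance
  obtain ⟨y, hymax, hPy⟩ := Ideal.exists_le_maximal P hP
  have := hymax
  have hy : M.qR c ∈ y := hPy (by
    show φ (M.qR c) ∈ IsLocalRing.maximalIdeal O
    rw [show φ (M.qR c) = 0 from Subtype.ext (show M.red i (M.qR c : F) = 0 by
      rw [show ((M.qR c : M.R c) : F) = algebraMap W F (M.q : W) from rfl, M.red_const,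
        map_natCast, map_natCast, M.natCast_q_eq_zero])]
    exact zero_mem _)
  have hon : M.OnBranch c y i := fun r h hr => hPy (by
    show φ r ∈ IsLocalRing.maximalIdeal O
    rw [show φ r = 0 from Subtype.ext (by
      show M.red i (r : F) = 0
      rw [red_of_mem M h, hr])]
    exact zero_mem _)
  obtain ⟨a, u, ha, hu, hau⟩ := M.exists_local_unit c y hy hm.ne' g.ne_zero hg.1 hg.2
  obtain ⟨-, haV⟩ := M.mem_of_unit_pow hm g.ne_zero hg.1 ha hau i
  have hu1 : IsUnit (φ u) := by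
    by_contra hnu
    exact hu (hPy hnu)
  refine ⟨M.red i a, ?_⟩
  rw [← M.red_pow haV, ← M.red_mul (pow_mem haV m) (M.mem_of_ord_nonneg (hg.1 i).ge), hau]
  refine ⟨hc _ u.2, ?_⟩
  -- the inverse of a unit of the valuation ring
  obtain ⟨v, hv⟩ := hu1.exists_right_inv
  rw [inv_eq_of_mul_eq_one_right (b := (v : C)) (show M.red i (u : F) * (v : C) = 1 from congrArg Subtype.val hv)]
  exact v.2

/-- The residue on a branch, as a unit. -/
def redUnit (i : Fin 3) : M.unitFns m →* Cˣ where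
  toFun g := Units.mk0 (M.red i ((g : Fˣ) : F))
    (M.red_ne_zero_of_ord (g : Fˣ).ne_zero (g.2.1 i))
  map_one' := Units.ext (by simp [M.red_one])
  map_mul' g g' := Units.ext (by
    simp only [Units.val_mk0, Units.val_mul, Subgroup.coe_mul]
    exact M.red_mul (M.mem_of_ord_nonneg (g.2.1 i).ge) (M.mem_of_ord_nonneg (g'.2.1 i).ge))

/-- The class of the residue on a branch. -/
def resMap (hcov : M.ChartsCover) (hm : 0 < m) (i : Fin 3) : M.unitFns m →* ResClass k C m :=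
  (QuotientGroup.mk' _).comp
    ((redUnit (M := M) (m := m) i).codRestrict (resDivGroup k C m)
      fun g => isResDiv_red hcov hm g.2 i)

theorem resMap_eq_one_iff (hcov : M.ChartsCover) (hm : 0 < m) (i : Fin 3) (g : M.unitFns m) :
    resMap hcov hm i g = 1 ↔ redUnit (M := M) (m := m) i g ∈ resTriv k C m := by
  simp only [resMap, MonoidHom.comp_apply, QuotientGroup.mk'_apply, QuotientGroup.eq_one_iff,
    Subgroup.mem_subgroupOf]
  rfl

theorem resMap_triv (hcov : M.ChartsCover) (hm : 0 < m) (i : Fin 3) {g : M.unitFns m}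
    (hg : (g : Fˣ) ∈ M.trivFns m) : resMap hcov hm i g = 1 := by
  obtain ⟨c, d, h, hc, hd, hh, hho, e⟩ := exists_unit_root hm g.2 hg
  rw [resMap_eq_one_iff]
  have he := congrArg (M.red i) e
  rw [M.red_mul (M.const_mem i d) (M.mem_of_ord_nonneg (g.2.1 i).ge),
    M.red_mul (M.const_mem i c) (pow_mem (M.mem_of_ord_nonneg (hho i).ge) m), M.red_const,
    M.red_const, M.red_pow (M.mem_of_ord_nonneg (hho i).ge)] at he
  have hd0 := (hd.map M.ρ).ne_zero
  refine mem_resTriv_of_eq (c := M.ρ c / M.ρ d) (div_ne_zero (hc.map M.ρ).ne_zero hd0)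
    (t := M.red i h) ?_
  show M.red i ((g : Fˣ) : F) = _
  rw [map_div₀, div_mul_eq_mul_div, ← he, mul_div_cancel_left₀ _ ((map_ne_zero _).mpr hd0)]

/-! ### The values at the supersingular points -/

variable (M) in
/-- The residue field at a special point receives the residue field of the constants. -/
def ptMap {c : Fin 2} {y : Ideal (M.R c)} (hy : M.qR c ∈ y) : k →+* M.R c ⧸ y :=
  RingHom.liftOfSurjective M.ρ M.ρ_surjective
    ⟨(Ideal.Quotient.mk y).comp (algebraMap W (M.R c)), fun w hw => by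
      rw [RingHom.mem_ker] at hw ⊢
      obtain ⟨d, hd⟩ : (M.q : W) ∣ w := by
        rw [← Ideal.mem_span_singleton, ← M.irreducible_q.maximalIdeal_eq]
        exact fun hu => (hu.map M.ρ).ne_zero hw
      rw [RingHom.comp_apply, hd, map_mul, map_mul,
        show Ideal.Quotient.mk y (algebraMap W (M.R c) (M.q : W)) = 0 from
          Ideal.Quotient.eq_zero_iff_mem.mpr hy, zero_mul]⟩

theorem ptMap_ρ {c : Fin 2} {y : Ideal (M.R c)} (hy : M.qR c ∈ y) (w : W) :
    M.ptMap hy (M.ρ w) = Ideal.Quotient.mk y (algebraMap W (M.R c) w) :=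
  RingHom.liftOfRightInverse_comp_apply _ _ _ _ w

variable (M) in
/-- The supersingular points of the finite chart. -/
structure SSPts (ι : Type) where
  y : ι → Ideal (M.R 0)
  maximal : ∀ σ, (y σ).IsMaximal
  q_mem : ∀ σ, M.qR 0 ∈ y σ
  on : ∀ σ i, M.OnBranch 0 (y σ) i
  cover : ∀ y', y'.IsMaximal → M.qR 0 ∈ y' → (∀ i, M.OnBranch 0 y' i) → ∃ σ, y σ = y'
  inv_notMem : ∀ y' : Ideal (M.R 1), y'.IsMaximal → M.qR 1 ∈ y' → (∀ i, M.OnBranch 1 y' i) →
    (⟨M.x⁻¹, M.x_inv_mem⟩ : M.R 1) ∉ y'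

variable {ι : Type} (P : M.SSPts ι)

/-- Agreement of the values at the supersingular points of the finite chart is enough. -/
theorem SSPts.exists_root (hm : IsUnit (m : W)) (hm0 : 0 < m) {g : F} (hg : g ≠ 0)
    (hord : ∀ i, M.ord i g = 0) (hor : HorizDvd W m g) {s : Fin 3 → C}
    (hs : M.IsBranchRoots m g s)
    (h : ∀ σ, ∃ V, M.PointVals 0 (P.y σ) m g s V ∧ ∀ i j, V i = V j) :
    ∃ (h : F) (w : W), h ≠ 0 ∧ w ≠ 0 ∧ h ^ m * g = algebraMap W F w := by
  have h0 : ∀ y : Ideal (M.R 0), y.IsMaximal → M.qR 0 ∈ y → (∀ i, M.OnBranch 0 y i) →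
      LocalRootAt M.Br (M.R 0) m g s y := fun y hymax hy hon => by
    obtain ⟨σ, rfl⟩ := P.cover y hymax hy hon
    have := hymax
    obtain ⟨V, hV, heq⟩ := h σ
    exact M.localRootAt_of_pointVals hm hm0 hord hs hy hV heq
  refine M.exists_mul_pow_eq_const_of_local hm hm0 hg hord hor hs fun c y hymax hy hon => ?_
  match c with
  | 0 => exact h0 y hymax hy hon
  | 1 =>
    set X : M.R 1 := ⟨M.x⁻¹, M.x_inv_mem⟩ with hXdef
    have hX : X ∉ y := P.inv_notMem y hymax hy hon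
    have hpow : ∀ n : ℕ, X ^ n ∉ y := fun n hn => hX (hymax.isPrime.mem_of_pow_mem n hn)
    have hglue : ∀ a : M.R 0, ∃ (n : ℕ) (b : M.R 1), (b : F) = (a : F) * M.x⁻¹ ^ n := fun a =>
      (M.glue₀ a a.2).elim fun n hn => ⟨n, ⟨_, hn⟩, rfl⟩
    have hmove : ∀ {a : M.R 0} {n n' : ℕ} {b b' : M.R 1}, (b : F) = (a : F) * M.x⁻¹ ^ n →
        (b' : F) = (a : F) * M.x⁻¹ ^ n' → b ∈ y → b' ∈ y := fun {a n n' b b'} hb hb' hmem => by
      refine (hymax.isPrime.mem_or_mem (x := b') (y := X ^ n) ?_).resolve_right (hpow n)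
      rw [show b' * X ^ n = b * X ^ n' from Subtype.ext (by
        push_cast [hXdef]; rw [hb, hb']; ring)]
      exact y.mul_mem_right _ hmem
    -- the elements of the finite chart vanishing at the point
    let Q : Ideal (M.R 0) :=
      { carrier := {a | ∀ (n : ℕ) (b : M.R 1), (b : F) = (a : F) * M.x⁻¹ ^ n → b ∈ y}
        zero_mem' := fun n b hb => by
          rw [show b = 0 from Subtype.ext (by rw [hb]; simp)]; exact zero_mem _
        add_mem' := fun {a a'} ha ha' n b hb => by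
          obtain ⟨n₁, b₁, hb₁⟩ := hglue a
          obtain ⟨n₂, b₂, hb₂⟩ := hglue a'
          refine hmove (n := n₁ + n₂) (b := b₁ * X ^ n₂ + b₂ * X ^ n₁) ?_ hb
            (add_mem (y.mul_mem_right _ (ha n₁ b₁ hb₁)) (y.mul_mem_right _ (ha' n₂ b₂ hb₂)))
          push_cast [hXdef]; rw [hb₁, hb₂]; ring
        smul_mem' := fun r {a} ha n b hb => by
          obtain ⟨n₁, b₁, hb₁⟩ := hglue r
          obtain ⟨n₂, b₂, hb₂⟩ := hglue a
          refine hmove (n := n₁ + n₂) (b := b₁ * b₂) ?_ hb (y.mul_mem_left _ (ha n₂ b₂ hb₂))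
          rw [smul_eq_mul]; push_cast; rw [hb₁, hb₂]; ring }
    have hQ : Q ≠ ⊤ := fun e => hymax.ne_top ((Ideal.eq_top_iff_one _).mpr
      (((Ideal.eq_top_iff_one _).mp e : (1 : M.R 0) ∈ Q) 0 1 (by simp)))
    obtain ⟨y0, hy0max, hQy⟩ := Ideal.exists_le_maximal Q hQ
    have hy0 : M.qR 0 ∈ y0 := hQy fun n b hb => by
      rw [show b = M.qR 1 * X ^ n from Subtype.ext (by
        rw [hb]; push_cast [hXdef]; rfl)]
      exact y.mul_mem_right _ hy
    have hon0 : ∀ i, M.OnBranch 0 y0 i := fun i a ha hr => hQy fun n b hb => by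
      refine hon i b (M.mem_of_mem b.2 i) ?_
      rw [← red_of_mem M (M.mem_of_mem b.2 i), hb,
        M.red_mul ha (pow_mem (M.mem_of_mem M.x_inv_mem i) n), red_of_mem M ha, hr, zero_mul]
    obtain ⟨a, ha, r, hr, hres⟩ := h0 y0 hy0max hy0 hon0
    obtain ⟨n₁, b₁, hb₁⟩ := hglue ⟨_, ha⟩
    obtain ⟨n₂, b₂, hb₂⟩ := hglue r
    set n := n₁ + n₂
    have hb₂y : b₂ ∉ y := fun hmem => hr (hQy fun n' b' hb' => hmove hb₂ hb' hmem)
    refine ⟨a * M.x⁻¹ ^ n, ?_, b₂ * X ^ n₁, fun hmem => (hymax.isPrime.mem_or_mem hmem).elim hb₂y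
      (hpow n₁), fun i haV hrV => ?_⟩
    · show (a * M.x⁻¹ ^ n) ^ m * g ∈ M.R 1
      rw [show (a * M.x⁻¹ ^ n) ^ m * g = (b₁ : F) * M.x⁻¹ ^ (n * m - n₁) by
        rw [hb₁, mul_pow, ← pow_mul, mul_assoc (a ^ m * g), ← pow_add, Nat.add_sub_cancel'
          ((Nat.le_add_right n₁ n₂).trans (Nat.le_mul_of_pos_right _ hm0))]
        ring]
      exact mul_mem b₁.2 (pow_mem M.x_inv_mem _)
    · have haV0 : a ∈ M.Br.V i := rootSet_mem_V M.Br (M.chart 0) hm0.ne'
        (fun j => ⟨M.mem_of_ord_nonneg (hord j).ge, by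
          rw [← red_of_mem M (M.mem_of_ord_nonneg (i := j) (hord j).ge)]; exact hs j⟩) ha i
      have hxV := pow_mem (M.mem_of_mem M.x_inv_mem i) n
      have e := hres i haV0 (M.mem_of_mem r.2 i)
      rw [← red_of_mem M haV0, ← red_of_mem M (M.mem_of_mem r.2 i)] at e
      have hr' : ((b₂ * X ^ n₁ : M.R 1) : F) = (r : F) * M.x⁻¹ ^ n := by
        push_cast [hXdef]; rw [hb₂, pow_add]; ring
      rw [← red_of_mem M haV, ← red_of_mem M hrV, M.red_mul haV0 hxV, e, hr',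
        M.red_mul (M.mem_of_mem r.2 i) hxV]
      ring

/-! ### The discrepancy of the roots -/

variable (M m) in
/-- Units with a choice of roots of their residues. -/
def rootedFns : Subgroup (Fˣ × (Fin 3 → Cˣ)) where
  carrier := {p | p.1 ∈ M.unitFns m ∧ M.IsBranchRoots m (p.1 : F) fun i => (p.2 i : C)}
  one_mem' := ⟨one_mem _, fun i => by simp [M.red_one]⟩
  mul_mem' {p p'} hp hp' := ⟨mul_mem hp.1 hp'.1, fun i => by
    show M.red i (((p.1 * p'.1 : Fˣ) : F)) * ((p.2 i * p'.2 i : Cˣ) : C) ^ m = 1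
    rw [Units.val_mul, M.red_mul (M.mem_of_ord_nonneg (hp.1.1 i).ge)
      (M.mem_of_ord_nonneg (hp'.1.1 i).ge), Units.val_mul, mul_pow,
      mul_mul_mul_comm, hp.2 i, hp'.2 i, one_mul]⟩
  inv_mem' {p} hp := ⟨inv_mem hp.1, fun i => by
    have h1 := M.red_mul (i := i) (M.mem_of_ord_nonneg (hp.1.1 i).ge)
      (M.mem_of_ord_nonneg ((inv_mem hp.1 : _ ∈ M.unitFns m).1 i).ge)
    rw [Units.mul_inv, M.red_one] at h1
    show M.red i ((p.1⁻¹ : Fˣ) : F) * (((p.2 i)⁻¹ : Cˣ) : C) ^ m = 1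
    rw [Units.val_inv_eq_inv_val (p.2 i),
      show M.red i ((p.1⁻¹ : Fˣ) : F) = (M.red i (p.1 : F))⁻¹ from
        (inv_eq_of_mul_eq_one_right h1.symm).symm, inv_pow, ← mul_inv, hp.2 i, inv_one]⟩

theorem PointVals.pow_eq (hm : 0 < m) {g₀ : Fˣ} (hord : ∀ i, M.ord i (g₀ : F) = 0) {s : Fin 3 → C}
    (hs : M.IsBranchRoots m (g₀ : F) s) {c : Fin 2} {y : Ideal (M.R c)} [y.IsMaximal]
    (hon : ∀ i, M.OnBranch c y i) {V : Fin 3 → M.R c ⧸ y} (hV : M.PointVals c y m (g₀ : F) s V) :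
    ∀ i, V i ≠ 0 ∧ V i ^ m = V 1 ^ m := by
  obtain ⟨a, u, hu, hau, haV, hVv⟩ := hV
  have h : ∀ i, V i ^ m = Ideal.Quotient.mk y u := fun i =>
    M.isVal_unique (hon i) (M.isVal_pow (hVv i (hon i)) m)
      (hs.pow_div hm.ne' hau (haV i) (M.mem_of_ord_nonneg (hord i).ge) ▸ M.isVal_of_mem (y := y) u)
  exact fun i => ⟨fun e => hu (Ideal.Quotient.eq_zero_iff_mem.mp (by
    rw [← h i, e, zero_pow hm.ne'])), by rw [h, h]⟩

include M in
theorem natCast_ne_zero_of_isUnit (hm : IsUnit (m : W)) : (m : k) ≠ 0 := by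
  rw [← map_natCast M.ρ]; exact (hm.map M.ρ).ne_zero

/-- `r` is the ratio of the values on the branch `i` and on the middle one. -/
def SSPts.IsRatio (σ : ι) (p : Fˣ × (Fin 3 → Cˣ)) (i : Fin 3) (r : k) : Prop :=
  ∃ V, M.PointVals 0 (P.y σ) m (p.1 : F) (fun j => (p.2 j : C)) V ∧
    V i = M.ptMap (P.q_mem σ) r * V 1

theorem SSPts.exists_ratio (hm : IsUnit (m : W)) (hm0 : 0 < m) (σ : ι) (p : M.rootedFns m)
    (i : Fin 3) : ∃ r : rootsOfUnity m k, P.IsRatio (m := m) σ p i ((r : kˣ) : k) := by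
  have := P.maximal σ
  have := M.algClosed
  haveI : NeZero m := ⟨hm0.ne'⟩
  haveI : NeZero (m : k) := ⟨natCast_ne_zero_of_isUnit (M := M) hm⟩
  obtain ⟨V, hV⟩ := M.exists_pointVals hm0 (p : Fˣ × (Fin 3 → Cˣ)).1.ne_zero p.2.1.1 p.2.1.2 p.2.2 0
    (P.y σ) (P.q_mem σ)
  have hpow := hV.pow_eq hm0 p.2.1.1 p.2.2 (P.on σ)
  let := Ideal.Quotient.field (P.y σ)
  have h1 : (V i / V 1) ^ m = 1 := by
    rw [div_pow, (hpow i).2, div_self (pow_ne_zero _ (hpow 1).1)]
  obtain ⟨ζ, hζ⟩ := HasEnoughRootsOfUnity.exists_primitiveRoot k m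
  obtain ⟨n, -, hn⟩ := (hζ.map_of_injective (f := M.ptMap (P.q_mem σ))
    (RingHom.injective _)).eq_pow_of_pow_eq_one h1
  refine ⟨⟨(hζ.isUnit hm0.ne').unit ^ n, ?_⟩, V, hV, ?_⟩
  · rw [mem_rootsOfUnity]
    ext
    rw [Units.val_pow_eq_pow_val, Units.val_pow_eq_pow_val, Units.val_one, IsUnit.unit_spec,
      pow_right_comm, hζ.pow_eq_one, one_pow]
  · show V i = M.ptMap _ (((hζ.isUnit hm0.ne').unit ^ n : kˣ) : k) * V 1
    rw [Units.val_pow_eq_pow_val, IsUnit.unit_spec, map_pow, hn, div_mul_cancel₀ _ (hpow 1).1]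

theorem SSPts.ratio_unique (hm0 : 0 < m) (σ : ι) (p : M.rootedFns m) (i : Fin 3) {r r' : k}
    (h : P.IsRatio (m := m) σ p i r) (h' : P.IsRatio (m := m) σ p i r') : r = r' := by
  have := P.maximal σ
  obtain ⟨V, hV, hr⟩ := h
  obtain ⟨V', hV', hr'⟩ := h'
  have e := PointVals.ratio M (P.q_mem σ) (P.on σ) hm0.ne' (p : Fˣ × (Fin 3 → Cˣ)).1.ne_zero p.2.2
    hV hV' i 1
  rw [hr, hr'] at e
  refine (M.ptMap (P.q_mem σ)).injective ?_
  refine mul_right_cancel₀ (mul_ne_zero (hV.pow_eq hm0 p.2.1.1 p.2.2 (P.on σ) 1).1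
    (hV'.pow_eq hm0 p.2.1.1 p.2.2 (P.on σ) 1).1) ?_
  linear_combination e

/-- The discrepancy on the branch `i`. -/
def SSPts.delta (hm : IsUnit (m : W)) (hm0 : 0 < m) (i : Fin 3) :
    M.rootedFns m →* (ι → rootsOfUnity m k) :=
  MonoidHom.mk' (fun p σ => (P.exists_ratio hm hm0 σ p i).choose) fun p p' => funext fun σ => by
    have := P.maximal σ
    obtain ⟨V, hV, hr⟩ := (P.exists_ratio hm hm0 σ p i).choose_spec
    obtain ⟨V', hV', hr'⟩ := (P.exists_ratio hm hm0 σ p' i).choose_spec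
    refine Subtype.ext (Units.ext (P.ratio_unique hm0 σ (p * p') i
      (P.exists_ratio hm hm0 σ (p * p') i).choose_spec ?_))
    refine ⟨fun j => V j * V' j, ?_, ?_⟩
    · have := PointVals.mul M hV hV'
      simpa [Pi.mul_apply] using this
    · show V i * V' i = M.ptMap _ _ * (V 1 * V' 1)
      rw [hr, hr', Pi.mul_apply, Subgroup.coe_mul, Units.val_mul, map_mul]
      ring

theorem SSPts.delta_spec (hm : IsUnit (m : W)) (hm0 : 0 < m) (i : Fin 3) (p : M.rootedFns m)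
    (σ : ι) : P.IsRatio (m := m) σ p i ((P.delta hm hm0 i p σ : kˣ) : k) :=
  (P.exists_ratio hm hm0 σ p i).choose_spec

theorem SSPts.delta_eq (hm : IsUnit (m : W)) (hm0 : 0 < m) (i : Fin 3) (p : M.rootedFns m)
    (σ : ι) {r : rootsOfUnity m k} (h : P.IsRatio (m := m) σ p i ((r : kˣ) : k)) :
    P.delta hm hm0 i p σ = r :=
  Subtype.ext (Units.ext (P.ratio_unique hm0 σ p i (P.delta_spec hm hm0 i p σ) h))

variable (k ι m) in
/-- The constant discrepancies. -/
def diag : rootsOfUnity m k →* (ι → rootsOfUnity m k) := MonoidHom.pi fun _ => MonoidHom.id _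

theorem diag_apply (r : rootsOfUnity m k) (σ : ι) : diag k m ι r σ = r := rfl

variable (M) in
/-- Changing the roots by constants. -/
def twist (κ : Fin 3 → rootsOfUnity m k) : M.rootedFns m :=
  ⟨(1, fun i => Units.map (algebraMap k C).toMonoidHom (κ i : kˣ)), one_mem _, fun i => by
    show M.red i ((1 : Fˣ) : F) * (algebraMap k C ((κ i : kˣ) : k)) ^ m = 1
    rw [Units.val_one, M.red_one, one_mul, ← map_pow]
    have h := (mem_rootsOfUnity m _).mp (κ i).2
    rw [← Units.val_pow_eq_pow_val, h, Units.val_one, map_one]⟩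

theorem SSPts.delta_twist (hm : IsUnit (m : W)) (hm0 : 0 < m) (κ : Fin 3 → rootsOfUnity m k)
    (i : Fin 3) : P.delta hm hm0 i (M.twist κ) = diag k m ι (κ 1 * (κ i)⁻¹) := by
  funext σ
  have := P.maximal σ
  refine P.delta_eq hm hm0 i _ σ ?_
  rw [diag_apply]
  let V : Fin 3 → M.R 0 ⧸ P.y σ := fun j => M.ptMap (P.q_mem σ) (((κ j)⁻¹ : kˣ) : k)
  refine ⟨V, ⟨1, 1, fun h => (P.maximal σ).ne_top ((Ideal.eq_top_iff_one _).mpr h),
    by simp [twist], fun _ => one_mem _, fun j _ => ?_⟩, ?_⟩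
  · obtain ⟨w, hw⟩ := M.ρ_surjective (((κ j)⁻¹ : kˣ) : k)
    show M.IsVal 0 (P.y σ) j (M.red j 1 / algebraMap k C ((κ j : kˣ) : k)) (V j)
    rw [M.red_one, one_div, ← map_inv₀, ← Units.val_inv_eq_inv_val]
    show M.IsVal 0 (P.y σ) j _ (M.ptMap _ (((κ j)⁻¹ : kˣ) : k))
    rw [← hw, M.ptMap_ρ]
    exact M.isVal_const w
  · show M.ptMap _ _ = M.ptMap _ _ * M.ptMap _ _
    rw [← map_mul]
    congr 1
    push_cast
    rw [mul_comm ((κ 1 : kˣ) : k), mul_assoc, mul_inv_cancel₀ (Units.ne_zero _), mul_one]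

/-- Constant discrepancies: the class is trivial. -/
theorem SSPts.mem_trivFns (hm : IsUnit (m : W)) (hm0 : 0 < m) (p : M.rootedFns m)
    (h : ∀ i, P.delta hm hm0 i p ∈ (diag k m ι).range) :
    (p : Fˣ × (Fin 3 → Cˣ)).1 ∈ M.trivFns m := by
  choose κ hκ using h
  let p' : M.rootedFns m := p * M.twist fun i => if i = 1 then 1 else κ i
  have hd : ∀ σ i, P.delta hm hm0 i p' σ = 1 := fun σ i => by
    rw [map_mul, Pi.mul_apply, P.delta_twist, diag_apply, if_pos rfl, one_mul]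
    by_cases hi : i = 1
    · subst hi
      rw [if_pos rfl, inv_one, mul_one]
      have := P.maximal σ
      obtain ⟨V, hV, -⟩ := P.delta_spec hm hm0 1 p σ
      exact P.delta_eq hm hm0 1 p σ ⟨V, hV, by simp⟩
    · rw [if_neg hi, ← hκ i, diag_apply, mul_inv_cancel]
  obtain ⟨h', w, hh, hw, e⟩ := P.exists_root hm hm0 (p' : Fˣ × (Fin 3 → Cˣ)).1.ne_zero p'.2.1.1
    p'.2.1.2 p'.2.2 fun σ => by
      have := P.maximal σ
      choose V hV hr using fun i => P.delta_spec hm hm0 i p' σ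
      refine ⟨V 1, hV 1, fun i j => ?_⟩
      have e : ∀ l, V 1 l = V 1 1 := fun l => by
        have e1 := PointVals.ratio M (P.q_mem σ) (P.on σ) hm0.ne'
          (p' : Fˣ × (Fin 3 → Cˣ)).1.ne_zero p'.2.2 (hV 1) (hV l) l 1
        have e2 := hr l
        rw [hd, Subgroup.coe_one, Units.val_one, map_one, one_mul] at e2
        rw [e2] at e1
        exact mul_right_cancel₀ ((hV l).pow_eq hm0 p'.2.1.1 p'.2.2 (P.on σ) 1).1 e1
      rw [e i, e j]
  refine ⟨w, 1, h'⁻¹, hw, one_ne_zero, inv_ne_zero hh, ?_⟩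
  have hp' : (p' : Fˣ × (Fin 3 → Cˣ)).1 = (p : Fˣ × (Fin 3 → Cˣ)).1 := mul_one _
  rw [map_one, one_mul, ← e, hp', inv_pow]
  field_simp

/-! ### Counting -/

theorem exists_rooted_of_resMap (hcov : M.ChartsCover) (hm0 : 0 < m) (g : M.unitFns m)
    (h : ∀ i, resMap hcov hm0 i g = 1) : ∃ p : M.rootedFns m, (p : Fˣ × (Fin 3 → Cˣ)).1 = g := by
  have := M.algClosed
  choose t ht using fun i => exists_root_of_mem_resTriv hm0 ((resMap_eq_one_iff hcov hm0 i g).mp (h i))
  refine ⟨⟨((g : Fˣ), fun i => (t i)⁻¹), g.2, fun i => ?_⟩, rfl⟩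
  show ((redUnit (M := M) (m := m) i g : Cˣ) : C) * (((t i)⁻¹ : Cˣ) : C) ^ m = 1
  rw [← Units.val_pow_eq_pow_val, ← Units.val_mul, inv_pow, ht, mul_inv_cancel, Units.val_one]

variable {o : Fin 3} (S : M.OldSide o) (G : Subgroup Fˣ)

theorem OldSide.resMap_eq (hcov : M.ChartsCover) (hm0 : 0 < m) (g : M.unitFns m)
    (hgE : ((g : Fˣ) : F) ∈ S.E) : resMap hcov hm0 1 g = resMap hcov hm0 o g := by
  have e : redUnit (M := M) (m := m) 1 g = redUnit (M := M) (m := m) o g :=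
    Units.ext (S.red_eq hgE (M.mem_of_ord_nonneg (g.2.1 o).ge))
  simp only [resMap, MonoidHom.comp_apply]
  congr 1
  exact Subtype.ext e

include M in
theorem card_rootsOfUnity_residue (hm : IsUnit (m : W)) (hm0 : 0 < m) :
    Nat.card (rootsOfUnity m k) = m := by
  have := M.algClosed
  haveI : NeZero m := ⟨hm0.ne'⟩
  haveI : NeZero (m : k) := ⟨natCast_ne_zero_of_isUnit (M := M) hm⟩
  exact HasEnoughRootsOfUnity.natCard_rootsOfUnity k m

include M in
theorem card_delta_quot (hm : IsUnit (m : W)) (hm0 : 0 < m) [Finite ι] :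
    Finite ((ι → rootsOfUnity m k) ⧸ (diag k m ι).range) ∧
      Nat.card ((ι → rootsOfUnity m k) ⧸ (diag k m ι).range) = m ^ (Nat.card ι - 1) := by
  have hc := card_rootsOfUnity_residue (M := M) hm hm0
  have : Finite (rootsOfUnity m k) := Nat.finite_of_card_ne_zero (by rw [hc]; exact hm0.ne')
  refine ⟨inferInstance, ?_⟩
  rcases isEmpty_or_nonempty ι with hι | ⟨⟨σ⟩⟩
  · rw [Nat.card_of_isEmpty (α := ι), Nat.zero_sub, pow_zero]
    exact Nat.card_eq_one_iff_unique.mpr ⟨inferInstance, inferInstance⟩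
  have h1 := Subgroup.card_eq_card_quotient_mul_card_subgroup (diag k m ι).range
  have hD : Nat.card (diag k m ι).range = m := by
    exact (Nat.card_congr (MonoidHom.ofInjective (f := diag k m ι)
      fun a b h => congrFun h σ).toEquiv).symm.trans hc
  rw [Nat.card_fun, hc, hD] at h1
  have : Nonempty ι := ⟨σ⟩
  refine mul_right_cancel₀ hm0.ne' (h1.symm.trans ?_)
  rw [← pow_succ, Nat.sub_add_cancel (Nat.card_pos (α := ι))]

/-- Roots agreeing on the two branches of the side. -/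
theorem OldSide.exists_good_roots (hm : IsUnit (m : W)) (hm0 : 0 < m) (hcov : M.ChartsCover) (p : Fin 3)
    (hop : ∀ i, i = o ∨ i = 1 ∨ i = p) (g : M.unitFns m) (hE : ((g : Fˣ) : F) ∈ S.E)
    (hgo : resMap hcov hm0 o g = 1) (hgp : resMap hcov hm0 p g = 1) :
    ∃ r : M.rootedFns m, (r : Fˣ × (Fin 3 → Cˣ)).1 = (g : Fˣ) ∧
      P.delta hm hm0 o r ∈ (diag k m ι).range := by
  obtain ⟨r, hr⟩ := exists_rooted_of_resMap hcov hm0 g fun i => by
    rcases hop i with rfl | rfl | rfl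
    · exact hgo
    · rw [S.resMap_eq hcov hm0 _ hE]; exact hgo
    · exact hgp
  let s : Fin 3 → Cˣ := Function.update (r : Fˣ × (Fin 3 → Cˣ)).2 1 ((r : Fˣ × (Fin 3 → Cˣ)).2 o)
  have hgeq : (r : Fˣ × (Fin 3 → Cˣ)).1 = (g : Fˣ) := hr
  have hEr : (((r : Fˣ × (Fin 3 → Cˣ)).1 : Fˣ) : F) ∈ S.E := by rw [hgeq]; exact hE
  have hmem : ((r : Fˣ × (Fin 3 → Cˣ)).1, s) ∈ M.rootedFns m := ⟨r.2.1, fun i => by
    by_cases hi : i = 1
    · subst hi
      simp only [s, Function.update_self]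
      rw [S.red_eq hEr (M.mem_of_ord_nonneg (r.2.1.1 o).ge)]
      exact r.2.2 o
    · simp only [s, Function.update_of_ne hi]
      exact r.2.2 i⟩
  refine ⟨⟨_, hmem⟩, hgeq, 1, ?_⟩
  rw [map_one]
  refine funext fun σ => (P.delta_eq hm hm0 o _ σ ?_).symm
  have := P.maximal σ
  obtain ⟨V, hV, -⟩ := P.delta_spec hm hm0 o ⟨_, hmem⟩ σ
  refine ⟨V, hV, ?_⟩
  rw [Pi.one_apply, Subgroup.coe_one, Units.val_one, map_one, one_mul]
  exact S.vals_eq hm hm0 hEr (r : Fˣ × (Fin 3 → Cˣ)).1.ne_zero r.2.1.1 hmem.2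
    (by
      show ((s 1 : Cˣ) : C) = ((s o : Cˣ) : C)
      by_cases ho : o = 1
      · rw [ho]
      · simp only [s, Function.update_self, Function.update_of_ne ho])
    (P.q_mem σ) (P.on σ) hV

/-- Up to constants the discrepancy does not depend on the roots. -/
theorem SSPts.delta_indep (hm : IsUnit (m : W)) (hm0 : 0 < m) (r r' : M.rootedFns m)
    (he : (r : Fˣ × (Fin 3 → Cˣ)).1 = (r' : Fˣ × (Fin 3 → Cˣ)).1) (i : Fin 3) :
    (P.delta hm hm0 i r)⁻¹ * P.delta hm hm0 i r' ∈ (diag k m ι).range := by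
  set d := r⁻¹ * r'
  have hd1 : (d : Fˣ × (Fin 3 → Cˣ)).1 = 1 := by
    show ((r : Fˣ × (Fin 3 → Cˣ))⁻¹ * r').1 = 1
    rw [Prod.fst_mul, Prod.fst_inv, he, inv_mul_cancel]
  have hex : ∀ j, ∃ κ : rootsOfUnity m k,
      ((d : Fˣ × (Fin 3 → Cˣ)).2 j : C) = algebraMap k C ((κ : kˣ) : k) := fun j => by
    have h := d.2.2 j
    rw [hd1, Units.val_one, M.red_one, one_mul] at h
    obtain ⟨e, he, hx⟩ := M.eq_const_of_pow_eq hm0 isUnit_one (x := ((d : Fˣ × (Fin 3 → Cˣ)).2 j : C))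
      (by rw [h, map_one, map_one])
    refine ⟨⟨(he.map M.ρ).unit, ?_⟩, by simpa using hx⟩
    rw [mem_rootsOfUnity]
    ext
    rw [Units.val_pow_eq_pow_val, IsUnit.unit_spec, Units.val_one]
    refine (algebraMap k C).injective ?_
    rw [map_pow, ← hx, h, map_one]
  choose κ hκ using hex
  have hdt : d = M.twist κ :=
    Subtype.ext (Prod.ext hd1 (funext fun j => Units.ext (hκ j)))
  rw [← map_inv, ← map_mul, show r⁻¹ * r' = d from rfl, hdt, P.delta_twist]
  exact ⟨_, rfl⟩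

/-- As many classes as data: both maps are onto. The second one only has to separate classes. -/
theorem surjective_of_card {G A : Type*} [Group G] [Group A] [Finite A] {B : Type*} [Finite B]
    (Φ : G →* A × A) (f : Φ.ker → B) (T : Subgroup G) (hTΦ : T ≤ Φ.ker)
    (hker : ∀ g g', f g = f g' → ((g : G))⁻¹ * g' ∈ T)
    (hcard : Nat.card (A × A) * Nat.card B ≤ T.index) :
    Function.Surjective Φ ∧ Function.Surjective f := by
  have : Nonempty B := ⟨f 1⟩
  have hidx : T.index = (T.subgroupOf Φ.ker).index * Φ.ker.index :=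
    (Subgroup.relIndex_mul_index hTΦ).symm
  let φ : Φ.ker ⧸ T.subgroupOf Φ.ker → B := fun x => f x.out
  have hφ : Function.Injective φ := fun x y h => by
    rw [← QuotientGroup.out_eq' x, ← QuotientGroup.out_eq' y, QuotientGroup.eq]
    exact hker _ _ h
  have : Finite (Φ.ker ⧸ T.subgroupOf Φ.ker) := Finite.of_injective φ hφ
  have h1 : (T.subgroupOf Φ.ker).index ≤ Nat.card B := Nat.card_le_card_of_injective φ hφ
  have h3 := Nat.card_le_card_of_injective (Subtype.val : Φ.range → A × A) Subtype.val_injective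
  rw [Subgroup.index_ker Φ] at hidx
  rw [hidx, mul_comm _ (Nat.card Φ.range)] at hcard
  refine ⟨MonoidHom.range_eq_top.mp (Subgroup.eq_top_of_le_card _ ?_), fun d => ?_⟩
  · exact Nat.le_of_mul_le_mul_right (hcard.trans (Nat.mul_le_mul_left _ h1)) Nat.card_pos
  · obtain ⟨x, hx⟩ := (hφ.bijective_of_nat_card_le (Nat.le_of_mul_le_mul_left
      (hcard.trans (Nat.mul_le_mul_right _ h3)) Nat.card_pos)).2 d
    exact ⟨x.out, hx⟩

/-- One side: as many classes as data means that every datum is reached. -/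
theorem OldSide.surjective (hm : IsUnit (m : W)) (hm0 : 0 < m) (hcov : M.ChartsCover) [Finite ι]
    [Finite (ResClass k C m)] (p : Fin 3) (hop : ∀ i, i = o ∨ i = 1 ∨ i = p)
    (hG : G ≤ M.unitFns m) (hGE : ∀ g ∈ G, (g : F) ∈ S.E)
    (hcard : Nat.card (ResClass k C m) ^ 2 * m ^ (Nat.card ι - 1) ≤ (M.trivFns m).relIndex G) :
    (∀ u v, ∃ g : G, resMap hcov hm0 o (Subgroup.inclusion hG g) = u ∧
      resMap hcov hm0 1 (Subgroup.inclusion hG g) = u ∧
      resMap hcov hm0 p (Subgroup.inclusion hG g) = v) ∧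
    ∀ d : ι → rootsOfUnity m k, ∃ r : M.rootedFns m, (r : Fˣ × (Fin 3 → Cˣ)).1 ∈ G ∧
      P.delta hm hm0 o r ∈ (diag k m ι).range ∧
      (P.delta hm hm0 p r)⁻¹ * d ∈ (diag k m ι).range := by
  classical
  set T' : Subgroup G := (M.trivFns m).subgroupOf G with hT'
  let Φ : G →* ResClass k C m × ResClass k C m :=
    ((resMap hcov hm0 o).comp (Subgroup.inclusion hG)).prod
      ((resMap hcov hm0 p).comp (Subgroup.inclusion hG))
  have hTΦ : T' ≤ Φ.ker := fun g hg => by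
    rw [MonoidHom.mem_ker]
    exact Prod.ext (resMap_triv hcov hm0 o hg) (resMap_triv hcov hm0 p hg)
  have hroots : ∀ g : Φ.ker, ∃ r : M.rootedFns m,
      (r : Fˣ × (Fin 3 → Cˣ)).1 = ((g : G) : Fˣ) ∧ P.delta hm hm0 o r ∈ (diag k m ι).range :=
    fun g => S.exists_good_roots P hm hm0 hcov p hop (Subgroup.inclusion hG (g : G))
      (hGE _ (g : G).2) (congrArg Prod.fst (MonoidHom.mem_ker.mp g.2))
      (congrArg Prod.snd (MonoidHom.mem_ker.mp g.2))
  choose r hr1 hro using hroots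
  have h1d : ∀ q : M.rootedFns m, P.delta hm hm0 1 q ∈ (diag k m ι).range := fun q => by
    refine ⟨1, ?_⟩
    rw [map_one]
    refine funext fun σ => (P.delta_eq hm hm0 1 _ σ ?_).symm
    have := P.maximal σ
    obtain ⟨V, hV, -⟩ := P.delta_spec hm hm0 1 q σ
    exact ⟨V, hV, by simp⟩
  let f : Φ.ker → (ι → rootsOfUnity m k) ⧸ (diag k m ι).range := fun g =>
    QuotientGroup.mk (P.delta hm hm0 p (r g))
  have hker : ∀ g g', f g = f g' → ((g : G))⁻¹ * g' ∈ T' := fun g g' h => by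
    have h' := QuotientGroup.eq.mp h
    have hfst : (((r g)⁻¹ * r g' : M.rootedFns m) : Fˣ × (Fin 3 → Cˣ)).1 =
        ((((g : G))⁻¹ * g' : G) : Fˣ) := by
      rw [Subgroup.coe_mul, Subgroup.coe_inv, Prod.fst_mul, Prod.fst_inv, hr1, hr1, Subgroup.coe_mul,
        Subgroup.coe_inv]
    show ((((g : G))⁻¹ * g' : G) : Fˣ) ∈ M.trivFns m
    rw [← hfst]
    refine P.mem_trivFns hm hm0 _ fun i => ?_
    rw [map_mul, map_inv]
    rcases hop i with rfl | rfl | rfl
    · exact mul_mem (inv_mem (hro g)) (hro g')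
    · exact mul_mem (inv_mem (h1d _)) (h1d _)
    · exact h'
  obtain ⟨hQfin, hQ⟩ := card_delta_quot (M := M) (ι := ι) hm hm0
  have := hQfin
  have hc' : Nat.card (ResClass k C m × ResClass k C m) *
      Nat.card ((ι → rootsOfUnity m k) ⧸ (diag k m ι).range) ≤ T'.index := by
    rw [Nat.card_prod, hQ, ← sq]
    exact hcard
  obtain ⟨hΦ, hψ⟩ := surjective_of_card Φ f T' hTΦ hker hc'
  refine ⟨fun u v => ?_, fun d => ?_⟩
  · obtain ⟨g, hg⟩ := hΦ (u, v)
    have hgo : resMap hcov hm0 o (Subgroup.inclusion hG g) = u := congrArg Prod.fst hg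
    exact ⟨g, hgo, by rw [S.resMap_eq hcov hm0 _ (hGE _ g.2)]; exact hgo, congrArg Prod.snd hg⟩
  · obtain ⟨g, hg⟩ := hψ (QuotientGroup.mk d)
    exact ⟨r g, by rw [hr1]; exact (g : G).2, hro g, QuotientGroup.eq.mp hg⟩

/-- **Old classes fill everything.** -/
theorem exists_old_decomposition (hm : IsUnit (m : W)) (hm0 : 0 < m) (hcov : M.ChartsCover)
    [Finite ι] (P : M.SSPts ι) [Finite (ResClass k C m)] (Sα : M.OldSide 0) (Sβ : M.OldSide 2)
    (Gα Gβ : Subgroup Fˣ) (hα : Gα ≤ M.unitFns m) (hαE : ∀ g ∈ Gα, (g : F) ∈ Sα.E)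
    (hβ : Gβ ≤ M.unitFns m) (hβE : ∀ g ∈ Gβ, (g : F) ∈ Sβ.E)
    (hαcard : Nat.card (ResClass k C m) ^ 2 * m ^ (Nat.card ι - 1) ≤ (M.trivFns m).relIndex Gα)
    (hβcard : Nat.card (ResClass k C m) ^ 2 * m ^ (Nat.card ι - 1) ≤ (M.trivFns m).relIndex Gβ)
    {g : Fˣ} (hg : g ∈ M.unitFns m) :
    ∃ ga ∈ Gα, ∃ gb ∈ Gβ, g / (ga * gb) ∈ M.trivFns m := by
  obtain ⟨hαs, hαd⟩ := Sα.surjective P Gα hm hm0 hcov 2 (by decide) hα hαE hαcard
  obtain ⟨hβs, hβd⟩ := Sβ.surjective P Gβ hm hm0 hcov 0 (by decide) hβ hβE hβcard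
  let R := fun i => resMap hcov hm0 i (⟨g, hg⟩ : M.unitFns m)
  obtain ⟨a, ha0, ha1, ha2⟩ := hαs (R 1) (R 2)
  obtain ⟨b, hb2, hb1, hb0⟩ := hβs 1 (R 0 / R 1)
  let a' := Subgroup.inclusion hα a
  let b' := Subgroup.inclusion hβ b
  obtain ⟨p, hp⟩ := exists_rooted_of_resMap hcov hm0 ((⟨g, hg⟩ : M.unitFns m) / (a' * b')) fun i => by
    rw [map_div, map_mul]
    fin_cases i
    · show R 0 / (resMap hcov hm0 0 a' * resMap hcov hm0 0 b') = 1
      rw [ha0, hb0]
      exact (congrArg (R 0 / ·) (mul_div_cancel (R 1) (R 0))).trans (div_self' _)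
    · show R 1 / (resMap hcov hm0 1 a' * resMap hcov hm0 1 b') = 1
      rw [ha1, hb1]
      exact (congrArg (R 1 / ·) (mul_one _)).trans (div_self' _)
    · show R 2 / (resMap hcov hm0 2 a' * resMap hcov hm0 2 b') = 1
      rw [ha2, hb2]
      exact (congrArg (R 2 / ·) (mul_one _)).trans (div_self' _)
  obtain ⟨ra, hra, hra0, hra2⟩ := hαd (P.delta hm hm0 2 p)
  obtain ⟨rb, hrb, hrb2, hrb0⟩ := hβd (P.delta hm hm0 0 p)
  have hfin : (p * (ra * rb)⁻¹ : M.rootedFns m).1.1 ∈ M.trivFns m := P.mem_trivFns hm hm0 _ fun i => by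
    rw [map_mul, map_inv, map_mul]
    fin_cases i
    · show P.delta hm hm0 0 p * (P.delta hm hm0 0 ra * P.delta hm hm0 0 rb)⁻¹ ∈ _
      rw [mul_inv, mul_left_comm, mul_comm (P.delta hm hm0 0 p)]
      exact mul_mem (inv_mem hra0) hrb0
    · refine ⟨1, ?_⟩
      rw [map_one]
      have e1 : ∀ q : M.rootedFns m, P.delta hm hm0 1 q = 1 := fun q => funext fun σ => by
        have := P.maximal σ
        obtain ⟨V, hV, -⟩ := P.delta_spec hm hm0 1 q σ
        exact P.delta_eq hm hm0 1 q σ ⟨V, hV, by simp⟩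
      show 1 = P.delta hm hm0 1 p * (P.delta hm hm0 1 ra * P.delta hm hm0 1 rb)⁻¹
      rw [e1, e1, e1, mul_one, inv_one, mul_one]
    · show P.delta hm hm0 2 p * (P.delta hm hm0 2 ra * P.delta hm hm0 2 rb)⁻¹ ∈ _
      rw [mul_inv, ← mul_assoc, mul_comm (P.delta hm hm0 2 p)]
      exact mul_mem hra2 (inv_mem hrb2)
  refine ⟨(a : Fˣ) * (ra : Fˣ × (Fin 3 → Cˣ)).1, mul_mem a.2 hra,
    (b : Fˣ) * (rb : Fˣ × (Fin 3 → Cˣ)).1, mul_mem b.2 hrb, ?_⟩
  convert hfin using 1
  show _ = (p : Fˣ × (Fin 3 → Cˣ)).1 * ((ra : Fˣ × (Fin 3 → Cˣ)).1 * (rb : Fˣ × (Fin 3 → Cˣ)).1)⁻¹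
  rw [hp]
  show g / _ = g / ((a : Fˣ) * (b : Fˣ)) * _
  rw [mul_mul_mul_comm, div_mul_eq_div_div, div_eq_mul_inv (_ / _)]

end Model

end Fermat.Agent.Carayol
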