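/-
The prime of a branch at a point, and local units when only the branches through the point matter.
-/
import Fermat.Agent.Carayol.ModelLocal

set_option autoImplicit false
set_option linter.unusedSectionVars false

noncomputable section

namespace Fermat.Agent.Carayol.Model

variable {W F k C : Type} [CommRing W] [IsDomain W] [IsDiscreteValuationRing W] [Field F]
  [Algebra W F] [Field k] [Field C] [Algebra k C] (M : Model W F k C) (c : Fin 2)

/-- The chart coordinate is a unit on every branch. -/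
theorem ord_x (i : Fin 3) : M.ord i M.x = 0 := by
  have h1 := (M.mem_iff i _ M.x_ne_zero).mp (M.mem_of_mem M.x_mem i)
  have h2 := (M.mem_iff i _ (inv_ne_zero M.x_ne_zero)).mp (M.mem_of_mem M.x_inv_mem i)
  rw [M.ord_inv M.x_ne_zero] at h2
  omega

theorem red_eq_zero_of_ord_pos {i : Fin 3} {a : F} (h : 0 < M.ord i a) : M.red i a = 0 := by
  rcases eq_or_ne a 0 with rfl | ha
  · exact M.red_zero i
  rw [red_of_mem M (M.mem_of_ord_nonneg h.le), M.res_eq_zero_iff i a _ ha]
  exact h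

/-- In every chart a function separates a branch from the others. -/
theorem exists_sep_chart (i : Fin 3) :
    ∃ a : M.R c, M.red i (a : F) ≠ 0 ∧ ∀ j, j ≠ i → M.red j (a : F) = 0 := by
  obtain ⟨e, he, he0, hei, hej⟩ := M.exists_sep i
  fin_cases c
  · exact ⟨⟨e, he⟩, M.red_ne_zero_of_ord he0 hei, fun j hj => M.red_eq_zero_of_ord_pos (hej j hj)⟩
  · obtain ⟨N, hN⟩ := M.glue₀ e he
    have hx := pow_ne_zero N (inv_ne_zero M.x_ne_zero)
    have ho : ∀ j, M.ord j (e * M.x⁻¹ ^ N) = M.ord j e := fun j => by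
      rw [M.ord_mul j _ _ he0 hx, M.ord_pow (inv_ne_zero M.x_ne_zero),
        M.ord_inv M.x_ne_zero, M.ord_x, neg_zero, mul_zero, add_zero]
    exact ⟨⟨_, hN⟩, M.red_ne_zero_of_ord (mul_ne_zero he0 hx) ((ho i).trans hei),
      fun j hj => M.red_eq_zero_of_ord_pos (by rw [ho]; exact hej j hj)⟩

/-- The branch of the kernel is determined. -/
theorem eq_of_red_imp {i j : Fin 3}
    (h : ∀ a : M.R c, M.red j (a : F) = 0 → M.red i (a : F) = 0) : j = i := by
  by_contra hne
  obtain ⟨a, hai, haj⟩ := M.exists_sep_chart c i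
  exact hai (h a (haj j hne))

variable (y : Ideal (M.R c)) [y.IsMaximal]

/-- The local ring of a point inside the function field. -/
abbrev locAt : Subalgebra (M.R c) F :=
  Localization.subalgebra.ofField F y.primeCompl y.primeCompl_le_nonZeroDivisors

theorem ufm_locAt (hy : M.qR c ∈ y) : UniqueFactorizationMonoid (M.locAt c y) :=
  (IsLocalization.algEquiv y.primeCompl (Localization.AtPrime y) (M.locAt c y)).toMulEquiv
    |>.uniqueFactorizationMonoid (M.ufm c y hy)

theorem exists_rep_locAt (x : M.locAt c y) :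
    ∃ r s : M.R c, s ∉ y ∧ (x : F) * (s : F) = (r : F) := by
  obtain ⟨⟨r, s⟩, h⟩ := IsLocalization.surj y.primeCompl x
  exact ⟨r, s, s.2, congrArg Subtype.val h⟩

theorem not_dvd_of_notMem {p : M.locAt c y} (hp : Prime p) {r : M.R c} (hr : r ∉ y) :
    ¬ p ∣ algebraMap (M.R c) (M.locAt c y) r := fun hd =>
  hp.not_isUnit (isUnit_of_dvd_unit hd
    (IsLocalization.map_units (M.locAt c y) (⟨r, hr⟩ : y.primeCompl)))

/-- A prime of the local ring containing `q` is the prime of a branch through the point. -/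
theorem exists_branch_of_prime (hy : M.qR c ∈ y) {p : M.locAt c y} (hp : Prime p)
    (hq : p ∣ algebraMap (M.R c) (M.locAt c y) (M.qR c)) :
    ∃ i, M.OnBranch c y i ∧
      (∀ a : M.R c, M.red i (a : F) = 0 → p ∣ algebraMap (M.R c) (M.locAt c y) a) ∧
      (∀ x : M.locAt c y, ¬ p ∣ x → (x : F) ≠ 0 ∧ M.ord i (x : F) = 0) ∧
      M.ord i (p : F) = 1 := by
  have := M.ufm_locAt c y hy
  let P : Ideal (M.R c) := (Ideal.span {p}).comap (algebraMap (M.R c) (M.locAt c y))
  have : (Ideal.span {p}).IsPrime := (Ideal.span_singleton_prime hp.ne_zero).mpr hp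
  have : P.IsPrime := Ideal.IsPrime.comap _
  have hPmem : ∀ r, r ∈ P ↔ p ∣ algebraMap (M.R c) (M.locAt c y) r := fun r =>
    Ideal.mem_span_singleton
  have hPy : ∀ r, r ∈ P → r ∈ y := fun r h => by
    by_contra hr
    exact M.not_dvd_of_notMem c y hp hr ((hPmem r).mp h)
  obtain ⟨i, hi⟩ := M.exists_branch_le c P ((hPmem _).mpr hq)
  have hR : ∀ r : M.R c, r ∉ P → M.ord i (r : F) = 0 := fun r hr =>
    (M.ord_eq_zero_of_red (M.mem_of_mem r.2 i) (by
      rw [red_of_mem M (M.mem_of_mem r.2 i)]; exact fun h => hr (hi r _ h))).2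
  have hS : ∀ x : M.locAt c y, ¬ p ∣ x → (x : F) ≠ 0 ∧ M.ord i (x : F) = 0 := by
    intro x hx
    obtain ⟨r, s, hs, h⟩ := M.exists_rep_locAt c y x
    have hs' : s ∉ P := fun h' => hs (hPy s h')
    have hr' : r ∉ P := by
      intro h'
      have h2 : x * algebraMap (M.R c) (M.locAt c y) s = algebraMap (M.R c) (M.locAt c y) r :=
        Subtype.ext h
      exact (hp.dvd_or_dvd (h2 ▸ (hPmem r).mp h')).elim hx (M.not_dvd_of_notMem c y hp hs)
    have hx0 : (x : F) ≠ 0 := fun e => hx (by rw [show x = 0 from Subtype.ext e]; exact dvd_zero p)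
    have hs0 : (s : F) ≠ 0 := fun e => hs (by rw [show s = 0 from Subtype.ext e]; exact zero_mem _)
    have := M.ord_mul i (x : F) s hx0 hs0
    rw [h, hR r hr', hR s hs'] at this
    exact ⟨hx0, by omega⟩
  refine ⟨i, fun a h ha => hPy a (hi a h ha), fun a ha => (hPmem a).mp (hi a (M.mem_of_mem a.2 i)
    (by rwa [← red_of_mem M])), hS, ?_⟩
  have hp0 : (p : F) ≠ 0 := fun e => hp.ne_zero (Subtype.ext e)
  obtain ⟨π, -, hπ0, hπ1⟩ := M.exists_unif i
  obtain ⟨n, u, v, hu, hv, h⟩ := exists_zpow_prime (K := F) hp hπ0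
  have h1 := M.ord_mul i π v hπ0 (hS v hv).1
  rw [show π * (v : F) = (p : F) ^ n * (u : F) from h,
    M.ord_mul i _ _ (zpow_ne_zero _ hp0) (hS u hu).1, M.ord_zpow hp0, (hS u hu).2, (hS v hv).2,
    hπ1, add_zero, add_zero] at h1
  obtain ⟨r, s, hs, hrs⟩ := M.exists_rep_locAt c y p
  have hs0 : (s : F) ≠ 0 := fun e => hs (by rw [show s = 0 from Subtype.ext e]; exact zero_mem _)
  have hr0 : (r : F) ≠ 0 := hrs ▸ mul_ne_zero hp0 hs0
  have h2 := M.ord_mul i (p : F) s hp0 hs0
  rw [hrs, hR s fun h => hs (hPy s h), add_zero] at h2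
  have h3 : 0 ≤ M.ord i (p : F) := h2 ▸ (M.mem_iff i _ hr0).mp (M.mem_of_mem r.2 i)
  exact Int.eq_one_of_mul_eq_one_left h3 h1

/-- **Local generator**, using the orders on the branches through the point only, and the
horizontal divisor at the valuations containing the local ring. -/
theorem exists_local_unit_of (hy : M.qR c ∈ y) {m : ℕ} (hm : m ≠ 0) {f : F} (hf : f ≠ 0)
    (hord : ∀ i, M.OnBranch c y i → M.ord i f = 0)
    (hor : ∀ O : ValuationSubring F, IsDiscreteValuationRing O → (∀ r : M.R c, (r : F) ∈ O) →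
      (∀ r : M.R c, r ∉ y → (r : F)⁻¹ ∈ O) → (M.qR c : F)⁻¹ ∈ O →
        ∃ a u : F, u ∈ O ∧ u⁻¹ ∈ O ∧ f = a ^ m * u) :
    ∃ (a : F) (u : M.R c), a ≠ 0 ∧ u ∉ y ∧ a ^ m * f = (u : F) := by
  classical
  have := M.ufm_locAt c y hy
  have hgen : ∀ p : M.locAt c y, Prime p → ∃ (a : F) (u v : M.locAt c y), ¬ p ∣ u ∧ ¬ p ∣ v ∧
      f * algebraMap (M.locAt c y) F v = a ^ m * algebraMap (M.locAt c y) F u := by
    intro p hp
    by_cases hq : p ∣ algebraMap (M.R c) (M.locAt c y) (M.qR c)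
    · obtain ⟨i, hiy, -, hS, hpi⟩ := M.exists_branch_of_prime c y hy hp hq
      have hp0 : (p : F) ≠ 0 := fun e => hp.ne_zero (Subtype.ext e)
      obtain ⟨n, u, v, hu, hv, h⟩ := exists_zpow_prime (K := F) hp hf
      have h1 := M.ord_mul i f v hf (hS v hv).1
      rw [show f * (v : F) = (p : F) ^ n * (u : F) from h,
        M.ord_mul i _ _ (zpow_ne_zero _ hp0) (hS u hu).1, M.ord_zpow hp0, (hS u hu).2,
        (hS v hv).2, hord i hiy, hpi, mul_one, add_zero, add_zero] at h1
      subst h1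
      exact ⟨1, u, v, hu, hv, by
        rw [one_pow, one_mul]
        exact h.trans (by rw [zpow_zero, one_mul])⟩
    · obtain ⟨a, u, hu, hu', hfu⟩ := hor (primeValSubring F hp) (isDVR_primeValSubring hp)
        (fun r => algebraMap_mem_primeValSubring hp (algebraMap (M.R c) (M.locAt c y) r))
        (fun r hr => inv_mem_primeValSubring hp
          (x := algebraMap (M.R c) (M.locAt c y) r) (M.not_dvd_of_notMem c y hp hr))
        (inv_mem_primeValSubring hp (x := algebraMap (M.R c) (M.locAt c y) (M.qR c)) hq)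
      obtain ⟨u1, v1, hv1, h1⟩ := hu
      obtain ⟨u2, v2, hv2, h2⟩ := hu'
      refine ⟨a, u1, v1, fun hd => ?_, hv1, by rw [hfu, mul_assoc, h1]⟩
      have hu0 : u ≠ 0 := fun e => hf (by rw [hfu, e, mul_zero])
      have h3 : u1 * u2 = v1 * v2 := by
        apply IsFractionRing.injective (M.locAt c y) F
        rw [map_mul, map_mul, ← h1, ← h2]
        field_simp
      exact (hp.dvd_or_dvd (h3 ▸ dvd_mul_of_dvd_left hd u2)).elim hv1 hv2
  obtain ⟨a, u, ha, hu, hau⟩ := exists_pow_mul_eq_unit hm hf hgen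
  obtain ⟨r, s, hs, hrs⟩ := M.exists_rep_locAt c y u
  have hr : r ∉ y := by
    intro hr
    have h2 : u * algebraMap (M.R c) (M.locAt c y) s = algebraMap (M.R c) (M.locAt c y) r :=
      Subtype.ext hrs
    have : IsUnit (algebraMap (M.R c) (M.locAt c y) r) :=
      h2 ▸ hu.mul (IsLocalization.map_units (M.locAt c y) (⟨s, hs⟩ : y.primeCompl))
    rw [IsLocalization.AtPrime.isUnit_to_map_iff (M.locAt c y) y] at this
    exact this hr
  obtain ⟨k', rfl⟩ := Nat.exists_eq_succ_of_ne_zero hm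
  refine ⟨a * (s : F), r * s ^ k', mul_ne_zero ha fun e => hs ?_, fun h => ?_, ?_⟩
  · rw [show s = 0 from Subtype.ext e]; exact zero_mem _
  · exact ((inferInstance : y.IsMaximal).isPrime.mem_or_mem h).elim hr
      fun h' => hs ((inferInstance : y.IsMaximal).isPrime.mem_of_pow_mem _ h')
  · push_cast
    rw [mul_pow, mul_right_comm, hau, ← hrs, pow_succ' (s : F)]
    show (u : F) * ((s : F) * (s : F) ^ k') = (u : F) * s * (s : F) ^ k'
    ring

/-- A local equation of the branch `i` at a point lying on every branch. -/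
theorem exists_branch_equation (hy : M.qR c ∈ y) (hon : ∀ j, M.OnBranch c y j) (i : Fin 3) :
    ∃ r : M.R c, r ∈ y ∧ (r : F) ≠ 0 ∧ M.ord i (r : F) = 1 ∧
      (∀ j, j ≠ i → M.ord j (r : F) = 0 ∧ M.red j (r : F) ≠ 0) ∧
      ∃ s t : M.R c, s ∉ y ∧ M.qR c * s = r * t := by
  classical
  have := M.ufm_locAt c y hy
  let φ : M.R c →+* C := chartRes M.Br (M.chart c) i
  have hφ : ∀ a, φ a = M.red i (a : F) := fun a =>
    (red_of_mem M (M.mem_of_mem a.2 i)).symm
  have hK : (RingHom.ker φ).IsPrime := RingHom.ker_isPrime φ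
  have hmemK : ∀ a, a ∈ RingHom.ker φ ↔ M.red i (a : F) = 0 := fun a => by
    rw [RingHom.mem_ker, hφ]
  have hd : Disjoint (y.primeCompl : Set (M.R c)) (RingHom.ker φ : Set (M.R c)) :=
    Set.disjoint_left.mpr fun a ha hK' => ha (hon i a (M.mem_of_mem a.2 i)
      (by rw [← red_of_mem M]; exact (hmemK a).mp hK'))
  set K' := (RingHom.ker φ).map (algebraMap (M.R c) (M.locAt c y))
  have hK'p : K'.IsPrime := IsLocalization.isPrime_of_isPrime_disjoint y.primeCompl _ _ hK hd
  have hcm : ∀ a, algebraMap (M.R c) (M.locAt c y) a ∈ K' → M.red i (a : F) = 0 := fun a ha => by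
    rw [← hmemK, ← IsLocalization.under_map_of_isPrime_disjoint y.primeCompl (M.locAt c y) hK hd]
    exact ha
  have hqK : M.qR c ∈ RingHom.ker φ := by
    rw [hmemK, red_of_mem M (M.mem_of_mem (M.qR c).2 i)]
    exact (M.chart c).res_π i _
  have hq0 : algebraMap (M.R c) (M.locAt c y) (M.qR c) ≠ 0 := fun h =>
    M.q_ne_zero (congrArg Subtype.val h)
  obtain ⟨fs, hfs, w, hw⟩ := UniqueFactorizationMonoid.exists_prime_factors _ hq0
  have hqK' : algebraMap (M.R c) (M.locAt c y) (M.qR c) ∈ K' := Ideal.mem_map_of_mem _ hqK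
  rw [← hw, Ideal.mul_unit_mem_iff_mem _ w.isUnit] at hqK'
  obtain ⟨p, hpf, hpK⟩ := (hK'p.multiset_prod_mem_iff_exists_mem _).mp hqK'
  have hp := hfs p hpf
  have hpq : p ∣ algebraMap (M.R c) (M.locAt c y) (M.qR c) :=
    hw ▸ dvd_mul_of_dvd_left (Multiset.dvd_prod hpf) _
  obtain ⟨j, -, hjP, hS, hpj⟩ := M.exists_branch_of_prime c y hy hp hpq
  -- the prime lies in the kernel of `i`
  obtain rfl : j = i := M.eq_of_red_imp c fun a ha => hcm a (Ideal.mem_of_dvd _ (hjP a ha) hpK)
  obtain ⟨r, s, hs, hrs⟩ := M.exists_rep_locAt c y p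
  have hs0 : (s : F) ≠ 0 := fun e => hs (by rw [show s = 0 from Subtype.ext e]; exact zero_mem _)
  have hp0 : (p : F) ≠ 0 := fun e => hp.ne_zero (Subtype.ext e)
  have hpr : p * algebraMap (M.R c) (M.locAt c y) s = algebraMap (M.R c) (M.locAt c y) r :=
    Subtype.ext hrs
  have hr0 : (r : F) ≠ 0 := hrs ▸ mul_ne_zero hp0 hs0
  refine ⟨r, ?_, hr0, ?_, fun l hl => ?_, ?_⟩
  · refine hon j r (M.mem_of_mem r.2 j) ?_
    rw [← red_of_mem M]
    exact hcm r (hpr ▸ K'.mul_mem_right _ hpK)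
  · have h1 : M.ord j (s : F) = 0 :=
      (hS (algebraMap (M.R c) (M.locAt c y) s) (M.not_dvd_of_notMem c y hp hs)).2
    rw [← hrs, M.ord_mul j _ _ hp0 hs0, hpj, h1, add_zero]
  · have hne : M.red l (r : F) ≠ 0 := by
      intro hlr
      refine hl (M.eq_of_red_imp c fun a ha => ?_).symm
      obtain ⟨b, hb⟩ := hjP a ha
      obtain ⟨b₁, s₁, hs₁, hbs⟩ := M.exists_rep_locAt c y b
      have e1 : a * (s₁ * s) = r * b₁ := Subtype.ext (by
        push_cast
        rw [← hrs, ← hbs, show (a : F) = (p : F) * (b : F) from congrArg Subtype.val hb]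
        ring)
      have e2 := congrArg (fun z : M.R c => M.red l (z : F)) e1
      simp only [MulMemClass.coe_mul, M.red_mul (M.mem_of_mem a.2 l)
        (mul_mem (M.mem_of_mem s₁.2 l) (M.mem_of_mem s.2 l)),
        M.red_mul (M.mem_of_mem s₁.2 l) (M.mem_of_mem s.2 l),
        M.red_mul (M.mem_of_mem r.2 l) (M.mem_of_mem b₁.2 l), hlr, zero_mul, mul_eq_zero] at e2
      rcases e2 with h | h | h
      · exact h
      · exact absurd (hon l s₁ (M.mem_of_mem s₁.2 l) (by rwa [← red_of_mem M])) hs₁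
      · exact absurd (hon l s (M.mem_of_mem s.2 l) (by rwa [← red_of_mem M])) hs
    exact ⟨(M.ord_eq_zero_of_red (M.mem_of_mem r.2 l) hne).2, hne⟩
  · obtain ⟨b, hb⟩ := hpq
    obtain ⟨t, s₀, hs₀, hbs⟩ := M.exists_rep_locAt c y b
    refine ⟨s * s₀, t, fun h => ((inferInstance : y.IsMaximal).isPrime.mem_or_mem h).elim hs hs₀,
      Subtype.ext ?_⟩
    push_cast
    rw [← hrs, ← hbs, show (M.qR c : F) = (p : F) * (b : F) from congrArg Subtype.val hb]
    ring

end Fermat.Agent.Carayol.Model
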