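/-
Orders of torsion functions along the outer branches.

A function whose horizontal divisor is divisible by `m` and with orders `(0, (q-1)·0, d)` reduces on
the branch `0` to a function whose divisor is, modulo `m`, `d` times the contact divisor of the
branches `0` and `2`. So `m` divides `E * d`, where `E > 0` is the degree of that divisor.
-/
import Fermat.Agent.Carayol.OrdLocal
import Fermat.Agent.Carayol.Coherent
import Fermat.Agent.FF.Approximation
import Fermat.Agent.FF.Degree
import Mathlib.RingTheory.RootsOfUnity.AlgebraicallyClosed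

set_option autoImplicit false
set_option linter.unusedSectionVars false
set_option linter.style.haveILetI false

noncomputable section

open AlgebraicCurve

namespace Fermat.Agent.Carayol.Model

variable {W F k C : Type} [CommRing W] [IsDomain W] [IsDiscreteValuationRing W] [Field F]
  [Algebra W F] [Field k] [Field C] [Algebra k C] (M : Model W F k C)

/-- The point is the centre of a place of the branch `0`. -/
def IsCentre (c : Fin 2) (y : Ideal (M.R c)) (P : Place k C) : Prop :=
  ∀ a : M.R c, M.red 0 (a : F) ∈ P.toValuationSubring ∧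
    (a ∈ y ↔ M.red 0 (a : F) = 0 ∨ 0 < P.ord (M.red 0 (a : F)))

/-- A place of the branch `0` over a supersingular point. -/
def IsSSPlace (P : Place k C) : Prop :=
  ∃ (c : Fin 2) (y : Ideal (M.R c)), y.IsMaximal ∧ M.qR c ∈ y ∧ M.IsCentre c y P ∧
    ∀ i, M.OnBranch c y i

theorem IsCentre.onBranch {M : Model W F k C} {c : Fin 2} {y : Ideal (M.R c)} {P : Place k C}
    (h : M.IsCentre c y P) : M.OnBranch c y 0 := fun a ha h0 =>
  (h a).2.mpr (Or.inl (by rw [red_of_mem M ha, h0]))

/-- Residues of elements integral over `W[z]` are integral where the residue of `z` is. -/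
theorem red_mem_of_isIntegral (P : Place k C) {c : Fin 2} {z : F} (hz : z ∈ M.R c)
    (hzP : M.red 0 z ∈ P.toValuationSubring) {a : F} (ha : a ∈ M.R c)
    (hint : IsIntegral (Algebra.adjoin W ({z} : Set F)) a) :
    M.red 0 a ∈ P.toValuationSubring := by
  classical
  have hle : Algebra.adjoin W ({z} : Set F) ≤ M.R c :=
    Algebra.adjoin_le (Set.singleton_subset_iff.mpr hz)
  have hO : ∀ b : Algebra.adjoin W ({z} : Set F), M.red 0 (b : F) ∈ P.toValuationSubring := by
    rintro ⟨b, hb⟩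
    induction hb using Algebra.adjoin_induction with
    | mem x hx =>
      obtain rfl : x = z := hx
      exact hzP
    | algebraMap w =>
      show M.red 0 (algebraMap W F w) ∈ _
      rw [M.red_const]
      exact P.algebraMap_mem' _
    | add x x' hx hx' ihx ihx' =>
      show M.red 0 (x + x') ∈ _
      rw [M.red_add (M.mem_of_mem (hle hx) 0) (M.mem_of_mem (hle hx') 0)]
      exact add_mem ihx ihx'
    | mul x x' hx hx' ihx ihx' =>
      show M.red 0 (x * x') ∈ _
      rw [M.red_mul (M.mem_of_mem (hle hx) 0) (M.mem_of_mem (hle hx') 0)]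
      exact mul_mem ihx ihx'
  let φ : M.R c →+* C := chartRes M.Br (M.chart c) 0
  have hφ : ∀ r, φ r = M.red 0 (r : F) := fun r => (red_of_mem M (M.mem_of_mem r.2 0)).symm
  let ι : Algebra.adjoin W ({z} : Set F) →+* M.R c := (Subalgebra.inclusion hle).toRingHom
  let ψ : Algebra.adjoin W ({z} : Set F) →+* P.toValuationSubring :=
    (φ.comp ι).codRestrict P.toValuationSubring fun b => by
      show φ (ι b) ∈ _
      rw [hφ]
      exact hO b
  obtain ⟨p, hp, hp0⟩ := hint
  have hi : IsIntegral P.toValuationSubring (M.red 0 a) := by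
    refine ⟨p.map ψ, hp.map ψ, ?_⟩
    rw [Polynomial.eval₂_map]
    have hcomp : (algebraMap P.toValuationSubring C).comp ψ = φ.comp ι := RingHom.ext fun _ => rfl
    rw [hcomp, ← hφ ⟨a, ha⟩, ← Polynomial.hom_eval₂, show Polynomial.eval₂ ι (⟨a, ha⟩ : M.R c) p = 0
      from Subtype.ext ?_, map_zero]
    have e := Polynomial.hom_eval₂ p ι ((M.R c).val.toRingHom) (⟨a, ha⟩ : M.R c)
    exact e.trans hp0
  obtain ⟨b, hb⟩ := IsIntegrallyClosed.algebraMap_eq_of_integral hi
  rw [← hb]
  exact b.2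

variable [FF.IsFunctionField k C]

include M in
theorem ρ_surjective_residue (P : Place k C) :
    Function.Surjective (algebraMap k P.ResidueField) := by
  have := M.algClosed
  exact IsAlgClosed.algebraMap_bijective_of_isIntegral.2

/-- Every place has a centre on one of the two charts. -/
theorem exists_centre (hint : ∀ a ∈ M.R 1, IsIntegral (Algebra.adjoin W ({M.x⁻¹} : Set F)) a)
    (P : Place k C) :
    ∃ (c : Fin 2) (y : Ideal (M.R c)), y.IsMaximal ∧ M.qR c ∈ y ∧ M.IsCentre c y P := by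
  classical
  have hint0 : ∀ a ∈ M.R 0, IsIntegral (Algebra.adjoin W ({M.x} : Set F)) a := by
    intro a ha
    let B : Subalgebra (Algebra.adjoin W ({M.x} : Set F)) F :=
      { (M.R 0).toSubsemiring with
        algebraMap_mem' := fun b =>
          (Algebra.adjoin_le (Set.singleton_subset_iff.mpr M.x_mem)) b.2 }
    obtain ⟨s₀, hs₀, hspan⟩ := M.finite₀
    refine IsIntegral.of_mem_of_fg B ⟨s₀, le_antisymm ?_ fun b hb => hspan b hb⟩ a ha
    exact Submodule.span_le.mpr fun b hb => hs₀ hb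
  obtain ⟨c, hc⟩ : ∃ c : Fin 2, ∀ a : M.R c, M.red 0 (a : F) ∈ P.toValuationSubring := by
    rcases P.toValuationSubring.mem_or_inv_mem (M.red 0 M.x) with h | h
    · exact ⟨0, fun a => M.red_mem_of_isIntegral P M.x_mem h a.2 (hint0 a a.2)⟩
    · refine ⟨1, fun a => M.red_mem_of_isIntegral P M.x_inv_mem ?_ a.2 (hint a a.2)⟩
      have hx := M.mem_of_mem M.x_mem 0
      have hxi := M.mem_of_mem M.x_inv_mem 0
      have e := M.red_mul hx hxi
      rw [mul_inv_cancel₀ M.x_ne_zero, M.red_one] at e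
      rwa [eq_inv_of_mul_eq_one_right e.symm]
  let φ : M.R c →+* P.toValuationSubring :=
    (chartRes M.Br (M.chart c) 0).codRestrict P.toValuationSubring fun a => by
      show M.Br.res 0 ⟨(a : F), _⟩ ∈ _
      rw [← red_of_mem M]
      exact hc a
  have hφ : ∀ a, ((φ a : P.toValuationSubring) : C) = M.red 0 (a : F) := fun a =>
    (red_of_mem M (M.mem_of_mem a.2 0)).symm
  let ψ : M.R c →+* P.ResidueField := (IsLocalRing.residue P.toValuationSubring).comp φ
  have hψ : Function.Surjective ψ := by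
    intro z
    obtain ⟨t, rfl⟩ := M.ρ_surjective_residue P z
    obtain ⟨w, rfl⟩ := M.ρ_surjective t
    refine ⟨algebraMap W (M.R c) w, ?_⟩
    show IsLocalRing.residue _ (φ _) = _
    rw [show φ (algebraMap W (M.R c) w) = algebraMap k P.toValuationSubring (M.ρ w) from
      Subtype.ext ((hφ _).trans (M.red_const 0 w))]
    rfl
  have hker : ∀ a, a ∈ RingHom.ker ψ ↔
      M.red 0 (a : F) = 0 ∨ 0 < P.ord (M.red 0 (a : F)) := by
    intro a
    rw [RingHom.mem_ker]
    show IsLocalRing.residue _ (φ a) = 0 ↔ _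
    rw [IsLocalRing.residue_eq_zero_iff, IsLocalRing.mem_maximalIdeal, mem_nonunits_iff]
    rcases eq_or_ne (M.red 0 (a : F)) 0 with h0 | h0
    · simp only [h0, true_or, iff_true]
      intro hu
      exact hu.ne_zero (Subtype.ext ((hφ a).trans h0))
    rw [← P.adicValuation_coe_eq_one_iff, hφ, or_iff_right h0, Place.ord]
    have hne := P.adicValuation_ne_zero h0
    have hle := P.adicValuation_le_one_of_mem (hc a)
    rw [neg_pos]
    constructor
    · intro h
      exact (WithZero.log_lt_iff_lt_exp hne).mpr (by simpa using lt_of_le_of_ne hle h)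
    · intro h e
      rw [e, WithZero.log_one] at h
      exact lt_irrefl _ h
  refine ⟨c, RingHom.ker ψ, RingHom.ker_isMaximal_of_surjective ψ hψ, (hker _).mpr (Or.inl ?_),
    fun a => ⟨hc a, hker a⟩⟩
  rw [red_of_mem M (M.mem_of_mem (M.qR c).2 0)]
  exact (M.chart c).res_π 0 _

/-- The places over supersingular points are finite in number. -/
theorem finite_isSSPlace : {P : Place k C | M.IsSSPlace P}.Finite := by
  classical
  choose e he0 he1 using fun c => M.exists_sep_chart c 0
  choose D hD hD' using fun c =>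
    HasPrincipalDivisors.exists_divisor (K := k) (M.red 0 (e c : F)) (he0 c)
  refine Set.Finite.subset ((D 0).support ∪ (D 1).support).finite_toSet ?_
  rintro P ⟨c, y, -, -, hcen, hon⟩
  have hy : e c ∈ y := hon 1 _ (M.mem_of_mem (e c).2 1)
    (by rw [← red_of_mem M]; exact he1 c 1 (by decide))
  have hpos := ((hcen (e c)).2.mp hy).resolve_left (he0 c)
  have hsupp : P ∈ (D c).support := by
    rw [Finsupp.mem_support_iff, hD]
    exact hpos.ne'
  rw [Finset.coe_union]
  fin_cases c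
  · exact Or.inl hsupp
  · exact Or.inr hsupp

include M in
/-- A point lying on all branches exists: the branches cannot be separated. -/
theorem exists_supersingular :
    ∃ (c : Fin 2) (y : Ideal (M.R c)), y.IsMaximal ∧ M.qR c ∈ y ∧ ∀ i, M.OnBranch c y i := by
  classical
  by_contra hno
  push Not at hno
  obtain ⟨m, hmp, hmq⟩ : ∃ m : ℕ, m.Prime ∧ m ≠ M.q := by
    by_cases h : M.q = 2
    · exact ⟨3, Nat.prime_three, by omega⟩
    · exact ⟨2, Nat.prime_two, Ne.symm h⟩
  have hm : IsUnit (m : W) := by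
    obtain ⟨u, v, huv⟩ := Int.isCoprime_iff_nat_coprime.mpr
      (show Nat.Coprime (m : ℤ).natAbs (M.q : ℤ).natAbs by
        simpa using (Nat.coprime_primes hmp M.hq).mpr hmq)
    have e := congrArg (fun t : ℤ => (t : W)) huv
    push_cast at e
    refine isUnit_of_mul_isUnit_right (x := (u : W)) ?_
    by_contra hnu
    have h1 : (u : W) * m ∈ IsLocalRing.maximalIdeal W := hnu
    have h2 : (v : W) * M.q ∈ IsLocalRing.maximalIdeal W :=
      Ideal.mul_mem_left _ _ M.irreducible_q.not_isUnit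
    exact (IsLocalRing.maximalIdeal.isMaximal W).ne_top
      ((Ideal.eq_top_iff_one _).mpr (e ▸ add_mem h1 h2))
  have := M.algClosed
  have : NeZero (m : k) := ⟨by rw [← map_natCast M.ρ]; exact (hm.map M.ρ).ne_zero⟩
  obtain ⟨ζ, hζ⟩ := HasEnoughRootsOfUnity.exists_primitiveRoot k m
  obtain ⟨w₁, hw₁⟩ := M.ρ_surjective ζ
  let ws : Fin 3 → W := ![1, w₁, 1]
  let s : Fin 3 → C := fun i => algebraMap k C (M.ρ (ws i))
  have hws : ∀ i, M.ρ (ws i) ^ m = 1 := fun i => by
    fin_cases i <;> simp [ws, hw₁, hζ.pow_eq_one]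
  have hf : ∀ i, ∃ h : (1 : F) ∈ M.Br.V i, M.Br.res i ⟨1, h⟩ * s i ^ m = 1 := fun i =>
    ⟨one_mem _, by
      rw [← red_of_mem M, M.red_one, one_mul, ← map_pow, hws, map_one]⟩
  have hloc : ∀ c (y : Ideal (M.R c)), y.IsMaximal → M.qR c ∈ y →
      LocalRootAt M.Br (M.R c) m 1 s y := by
    intro c y hymax hy
    rcases M.dichotomy c y hy with ⟨i, hi⟩ | ⟨hall, -⟩
    · choose r hr hr0 hry using hi
      let R' : M.R c := ∏ j ∈ (Finset.univ.erase i).attach, r j (Finset.ne_of_mem_erase j.2)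
      have hR'y : R' ∉ y := fun h => by
        obtain ⟨j, -, hj⟩ := hymax.isPrime.prod_mem_iff.mp h
        exact hry _ _ hj
      refine ⟨((algebraMap W (M.R c) (ws i) * R' : M.R c) : F), ?_, R', hR'y,
        fun j ha hR' => ?_⟩
      · show _ ^ m * (1 : F) ∈ M.R c
        rw [mul_one]
        exact pow_mem (algebraMap W (M.R c) (ws i) * R' : M.R c).2 m
      · rw [← red_of_mem M, ← red_of_mem M, MulMemClass.coe_mul,
          M.red_mul (M.mem_of_mem (algebraMap W (M.R c) (ws i)).2 j) (M.mem_of_mem R'.2 j),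
          show ((algebraMap W (M.R c) (ws i) : M.R c) : F) = algebraMap W F (ws i) from rfl,
          M.red_const, mul_comm]
        rcases eq_or_ne j i with rfl | hji
        · rfl
        · have h0 : M.red j (R' : F) = 0 := by
            obtain ⟨b, hb⟩ : r j hji ∣ R' :=
              Finset.dvd_prod_of_mem (fun l : {l // l ∈ Finset.univ.erase i} =>
                r l (Finset.ne_of_mem_erase l.2))
                (Finset.mem_attach _ ⟨j, Finset.mem_erase.mpr ⟨hji, Finset.mem_univ j⟩⟩)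
            rw [hb, MulMemClass.coe_mul, M.red_mul (M.mem_of_mem (r j hji).2 j)
              (M.mem_of_mem b.2 j), red_of_mem M (hr j hji), hr0 j hji, zero_mul]
          rw [h0, zero_mul, zero_mul]
    · obtain ⟨i, hi⟩ := hno c y hymax hy
      exact absurd (hall i) hi
  obtain ⟨h, h0, h1, hres⟩ := exists_global_root M.Br (M.q : W) m 1 s M.x M.x_ne_zero
    (M.chart 0) (M.chart 1) M.x_mem M.x_inv_mem M.finite₀ (M.frac 0) M.glue₀ M.glue₁ hm hmp.pos hf
    (fun y hy hq => hloc 0 y hy hq) (fun y hy hq => hloc 1 y hy hq)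
  rw [mul_one] at h0 h1
  have hh0 := mem_of_pow_mem_chart M.Br (M.chart 0) hmp.ne_zero h0
  obtain ⟨w, rfl⟩ := M.const h hh0 (mem_of_pow_mem_chart M.Br (M.chart 1) hmp.ne_zero h1)
  have e : ∀ i, M.ρ w = M.ρ (ws i) := fun i => (algebraMap k C).injective (by
    show _ = s i
    rw [← hres i (M.const_mem i w), ← red_of_mem M, M.red_const])
  refine hζ.ne_one hmp.one_lt ?_
  have e01 := (e 1).symm.trans (e 0)
  simpa [ws, hw₁] using e01

include M in
/-- A place over a supersingular point exists. -/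
theorem exists_isSSPlace : ∃ P : Place k C, M.IsSSPlace P := by
  classical
  obtain ⟨c, y, hymax, hy, hon⟩ := M.exists_supersingular
  let φ : M.R c →+* C := chartRes M.Br (M.chart c) 0
  have hφ : ∀ a, φ a = M.red 0 (a : F) := fun a => (red_of_mem M (M.mem_of_mem a.2 0)).symm
  obtain ⟨O, hO, hrep⟩ := M.branchValue c y hy 0 (hon 0)
  have hOφ : ∀ a, φ a ∈ O := fun a => hO a _
  have hk : ∀ t : k, algebraMap k C t ∈ O := fun t => by
    obtain ⟨w, rfl⟩ := M.ρ_surjective t
    have := hOφ (algebraMap W (M.R c) w)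
    rwa [hφ, show ((algebraMap W (M.R c) w : M.R c) : F) = algebraMap W F w from rfl,
      M.red_const] at this
  -- elements of the point are not units
  have hnu : ∀ a ∈ y, φ a ∈ O.nonunits := by
    intro a ha
    rw [ValuationSubring.mem_nonunits_iff_exists_mem_maximalIdeal]
    refine ⟨hOφ a, (IsLocalRing.mem_maximalIdeal _).mpr fun hu => ?_⟩
    obtain ⟨⟨z, hz⟩, hzu⟩ := isUnit_iff_exists_inv.mp hu
    obtain ⟨b, r, hr, hbr⟩ := hrep z hz
    refine hr ?_
    have h1 : φ a * z = 1 := congrArg Subtype.val hzu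
    have h2 : φ (a * b - r) = 0 := by
      have h3 : z * φ r = φ b := hbr (M.mem_of_mem b.2 0) (M.mem_of_mem r.2 0)
      rw [map_sub, map_mul, ← h3, ← mul_assoc, h1, one_mul, sub_self]
    have h4 := hon 0 _ (M.mem_of_mem (a * b - r).2 0) h2
    simpa using sub_mem (y.mul_mem_right b ha) h4
  obtain ⟨e, he0, he⟩ := M.exists_sep_chart c 0
  have hey : e ∈ y := hon 1 _ (M.mem_of_mem e.2 1)
    (by rw [← red_of_mem M]; exact he 1 (by decide))
  have hOtop : O ≠ ⊤ := by
    rintro rfl
    have h := hnu e hey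
    rw [ValuationSubring.mem_nonunits_iff_exists_mem_maximalIdeal] at h
    obtain ⟨h1, h2⟩ := h
    exact (IsLocalRing.mem_maximalIdeal _).mp h2 (isUnit_iff_exists_inv.mpr
      ⟨⟨(φ e)⁻¹, ValuationSubring.mem_top _⟩,
        Subtype.ext (mul_inv_cancel₀ (by rw [hφ]; exact he0))⟩)
  let P : Place k C := FF.placeOfValuationSubring O hk hOtop
  have hsub : ∀ a : M.R c, a ∈ y → M.red 0 (a : F) = 0 ∨ 0 < P.ord (M.red 0 (a : F)) := by
    intro a ha
    by_contra hcon
    push Not at hcon
    have hle : 0 ≤ P.ord (M.red 0 (a : F)) :=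
      (FF.mem_iff_ord_nonneg P).mp (show M.red 0 (a : F) ∈ O from hφ a ▸ hOφ a)
    have hinv : (M.red 0 (a : F))⁻¹ ∈ O := (FF.mem_iff_ord_nonneg P).mpr (by
      rw [P.ord_inv]; omega)
    have h := hnu a ha
    rw [ValuationSubring.mem_nonunits_iff_exists_mem_maximalIdeal] at h
    obtain ⟨h1, h2⟩ := h
    exact (IsLocalRing.mem_maximalIdeal _).mp h2 (isUnit_iff_exists_inv.mpr
      ⟨⟨_, hinv⟩, Subtype.ext (show φ a * (M.red 0 (a : F))⁻¹ = 1 by
        rw [hφ]; exact mul_inv_cancel₀ hcon.1)⟩)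
  refine ⟨P, c, y, hymax, hy, fun a => ⟨hφ a ▸ hOφ a, hsub a, fun ha => ?_⟩, hon⟩
  by_contra hay
  -- the point is maximal
  obtain ⟨b, hb⟩ := hymax.exists_inv hay
  obtain ⟨t, ht, htab⟩ := hb
  have h1 : φ b * φ a + φ t = 1 := by rw [← map_mul, ← map_add, htab, map_one]
  have hb' : 0 ≤ P.ord (φ b) := (FF.mem_iff_ord_nonneg P).mp (hOφ b)
  have hpa : φ b * φ a = 0 ∨ 0 < P.ord (φ b * φ a) := by
    rcases ha with h | h
    · exact Or.inl (by rw [hφ a, h, mul_zero])
    rcases eq_or_ne (φ b) 0 with hb0 | hb0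
    · exact Or.inl (by rw [hb0, zero_mul])
    refine Or.inr ?_
    rw [P.ord_mul hb0 (by rw [hφ]; intro e; rw [e, P.ord_zero] at h; omega), hφ a]
    omega
  have hpt := hsub t ht
  rw [← hφ t] at hpt
  have hm1 : ∀ z : C, z = 0 ∨ 0 < P.ord z → z ∈ FF.ordGE P 1 := fun z hz => by
    rcases hz with rfl | hz
    · exact Submodule.zero_mem _
    · exact FF.mem_ordGE_of_le P hz
  have h2 := Submodule.add_mem _ (hm1 _ hpa) (hm1 _ hpt)
  rw [h1] at h2
  have h3 := FF.le_ord_of_mem_ordGE P h2 one_ne_zero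
  rw [P.ord_one] at h3
  omega

/-- The order at a place of the residue on the branch `0`. -/
def ordRed (P : Place k C) (a : F) : ℤ := P.ord (M.red 0 a)

theorem ordRed_mul (P : Place k C) {a b : F} (ha : a ≠ 0) (hb : b ≠ 0) (ha0 : M.ord 0 a = 0)
    (hb0 : M.ord 0 b = 0) : M.ordRed P (a * b) = M.ordRed P a + M.ordRed P b := by
  rw [ordRed, M.red_mul (M.mem_of_ord_nonneg ha0.ge) (M.mem_of_ord_nonneg hb0.ge),
    P.ord_mul (M.red_ne_zero_of_ord ha ha0) (M.red_ne_zero_of_ord hb hb0)]
  rfl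

theorem ordRed_inv (P : Place k C) {a : F} (ha : a ≠ 0) (ha0 : M.ord 0 a = 0) :
    M.ordRed P a⁻¹ = - M.ordRed P a := by
  have h := M.ordRed_mul P ha (inv_ne_zero ha) ha0 (by rw [M.ord_inv ha, ha0, neg_zero])
  rw [mul_inv_cancel₀ ha, show M.ordRed P 1 = 0 by rw [ordRed, M.red_one, P.ord_one]] at h
  omega

theorem ordRed_pow (P : Place k C) {a : F} (_ha : a ≠ 0) (ha0 : M.ord 0 a = 0) (n : ℕ) :
    M.ordRed P (a ^ n) = n * M.ordRed P a := by
  rw [ordRed, M.red_pow (M.mem_of_ord_nonneg ha0.ge), ← zpow_natCast, P.ord_zpow]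
  rfl

theorem ordRed_zpow (P : Place k C) {a : F} (ha : a ≠ 0) (ha0 : M.ord 0 a = 0) (n : ℤ) :
    M.ordRed P (a ^ n) = n * M.ordRed P a := by
  rcases Int.eq_nat_or_neg n with ⟨N, rfl | rfl⟩
  · rw [zpow_natCast, M.ordRed_pow P ha ha0]
  · rw [zpow_neg, zpow_natCast, M.ordRed_inv P (pow_ne_zero _ ha)
      (by rw [M.ord_pow ha, ha0, mul_zero]), M.ordRed_pow P ha ha0]
    ring

variable (m : ℕ)

/-- The residue of `f` at a place centred at `y`, when `f * z` has an `m`-divisible divisor there. -/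
theorem dvd_ordRed_add {c : Fin 2} {y : Ideal (M.R c)} [y.IsMaximal] (hy : M.qR c ∈ y)
    {P : Place k C} (hcen : M.IsCentre c y P) (hm : m ≠ 0) {f z : F} (hf : f ≠ 0) (hz : z ≠ 0)
    (hf0 : M.ord 0 f = 0) (hz0 : M.ord 0 z = 0)
    (hord : ∀ i, M.OnBranch c y i → M.ord i (f * z) = 0)
    (hor : HorizDvd W m f)
    (hzO : ∀ O : ValuationSubring F, (∀ r : M.R c, (r : F) ∈ O) →
      (∀ r : M.R c, r ∉ y → (r : F)⁻¹ ∈ O) → (M.qR c : F)⁻¹ ∈ O → z ∈ O ∧ z⁻¹ ∈ O) :
    (m : ℤ) ∣ M.ordRed P f + M.ordRed P z := by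
  obtain ⟨a, u, ha, hu, hau⟩ := M.exists_local_unit_of c y hy hm (mul_ne_zero hf hz) hord
    fun O hO hR hRy hqO => by
      obtain ⟨b, v, hv, hv', rfl⟩ := hor O hO fun w hw => by
        obtain ⟨n, e, he, rfl, -⟩ := M.exists_const_eq hw
        obtain ⟨e', he'⟩ := he.exists_right_inv
        refine ⟨hR ⟨_, (M.R c).algebraMap_mem _⟩, ?_⟩
        rw [map_mul, map_pow, mul_inv, ← inv_pow]
        refine mul_mem (pow_mem hqO _) ?_
        rw [inv_eq_of_mul_eq_one_right (by rw [← map_mul, he', map_one])]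
        exact hR ⟨_, (M.R c).algebraMap_mem e'⟩
      obtain ⟨h1, h2⟩ := hzO O hR hRy hqO
      exact ⟨b, v * z, mul_mem hv h1, by rw [mul_inv]; exact mul_mem hv' h2, by ring⟩
  have hu0 : (u : F) ≠ 0 := fun e => hu (by rw [show u = 0 from Subtype.ext e]; exact zero_mem _)
  have hur : M.red 0 (u : F) ≠ 0 := fun e => hu ((hcen u).2.mpr (Or.inl e))
  have hu1 := (M.ord_eq_zero_of_red (M.mem_of_mem u.2 0) hur).2
  have hfz0 : M.ord 0 (f * z) = 0 := by rw [M.ord_mul 0 f z hf hz, hf0, hz0, add_zero]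
  have ha0 : M.ord 0 a = 0 := by
    have h := M.ord_mul 0 (a ^ m) (f * z) (pow_ne_zero _ ha) (mul_ne_zero hf hz)
    rw [hau, hu1, M.ord_pow ha, hfz0, add_zero] at h
    exact (mul_eq_zero.mp h.symm).resolve_left (by exact_mod_cast hm)
  have hPu : M.ordRed P (u : F) = 0 := by
    have h1 := (FF.mem_iff_ord_nonneg P).mp (hcen u).1
    have h2 : ¬ 0 < P.ord (M.red 0 (u : F)) := fun e => hu ((hcen u).2.mpr (Or.inr e))
    rw [ordRed]
    omega
  have h := M.ordRed_mul P (pow_ne_zero m ha) (mul_ne_zero hf hz)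
    (by rw [M.ord_pow ha, ha0, mul_zero]) hfz0
  rw [hau, hPu, M.ordRed_pow P ha ha0, M.ordRed_mul P hf hz hf0 hz0] at h
  exact ⟨-M.ordRed P a, by linear_combination -h⟩

/-- **The branches `0` and `2`.** For some `E > 0`, the orders of a function with horizontal
divisor divisible by `m` along the branches `0` and `2` agree modulo `m` after multiplication by
`E`, when the middle one is as for a function of level `q L`. -/
theorem exists_dvd_sub_ord
    (hint : ∀ a ∈ M.R 1, IsIntegral (Algebra.adjoin W ({M.x⁻¹} : Set F)) a) :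
    ∃ E : ℕ, 0 < E ∧ ∀ (m : ℕ) (g : F), m ≠ 0 → g ≠ 0 → HorizDvd W m g →
      M.ord 1 g = ((M.q : ℤ) - 1) * M.ord 0 g → (m : ℤ) ∣ (E : ℤ) * (M.ord 2 g - M.ord 0 g) := by
  classical
  -- a local equation of the branch `2` at every place over a supersingular point
  have hex : ∀ P : Place k C, ∃ e : ℕ, (M.IsSSPlace P → 0 < e ∧
      ∃ (c : Fin 2) (y : Ideal (M.R c)) (r : M.R c), y.IsMaximal ∧ M.qR c ∈ y ∧ M.IsCentre c y P ∧
        (r : F) ≠ 0 ∧ M.ord 2 (r : F) = 1 ∧ (∀ j, j ≠ 2 → M.ord j (r : F) = 0) ∧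
        (∃ s t : M.R c, s ∉ y ∧ M.qR c * s = r * t) ∧ M.ordRed P (r : F) = e) ∧
      (¬ M.IsSSPlace P → e = 0) := by
    intro P
    by_cases h : M.IsSSPlace P
    · obtain ⟨c, y, hymax, hy, hcen, hon⟩ := h
      obtain ⟨r, hry, hr0, hr2, hrj, hrs⟩ := M.exists_branch_equation c y hy hon 2
      have hpos := ((hcen r).2.mp hry).resolve_left (hrj 0 (by decide)).2
      exact ⟨(P.ord (M.red 0 (r : F))).toNat, fun _ => ⟨by omega, c, y, r, hymax, hy, hcen, hr0,
        hr2, fun j hj => (hrj j hj).1, hrs, (Int.toNat_of_nonneg hpos.le).symm⟩,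
        fun h' => absurd ⟨c, y, hymax, hy, hcen, hon⟩ h'⟩
    · exact ⟨0, fun h' => absurd h' h, fun _ => rfl⟩
  choose e he he' using hex
  set Z := M.finite_isSSPlace.toFinset with hZ
  obtain ⟨P₀, hP₀⟩ := M.exists_isSSPlace
  refine ⟨∑ P ∈ Z, e P, lt_of_lt_of_le (he P₀ hP₀).1
    (Finset.single_le_sum (fun _ _ => Nat.zero_le _) (M.finite_isSSPlace.mem_toFinset.mpr hP₀)),
    fun m g hm hg hor h1 => ?_⟩
  set d := M.ord 2 g - M.ord 0 g with hd
  set o := M.ord 0 g with ho
  have hx : (M.q : W) ^ (-o).toNat ≠ 0 := pow_ne_zero _ M.irreducible_q.ne_zero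
  have hz : (M.q : W) ^ o.toNat ≠ 0 := pow_ne_zero _ M.irreducible_q.ne_zero
  set f := g * (algebraMap W F ((M.q : W) ^ (-o).toNat) /
    algebraMap W F ((M.q : W) ^ o.toNat)) * (1 : F) ^ m with hf
  have hfor : HorizDvd W m f := hor.adjust hx hz 1
  have hcx := M.const_ne_zero hx
  have hcz := M.const_ne_zero hz
  have hf0 : f ≠ 0 :=
    mul_ne_zero (mul_ne_zero hg (div_ne_zero hcx hcz)) (pow_ne_zero _ one_ne_zero)
  have hfo : ∀ i, M.ord i f = M.ord i g - o * M.ord i (algebraMap W F (M.q : W)) := fun i => by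
    rw [hf, one_pow, mul_one, M.ord_mul i _ _ hg (div_ne_zero hcx hcz), M.ord_div hcx hcz,
      map_pow, map_pow, M.ord_pow M.q_ne_zero, M.ord_pow M.q_ne_zero]
    have := Int.toNat_sub_toNat_neg o
    linear_combination (-M.ord i (algebraMap W F (M.q : W))) * this
  have hfo0 : M.ord 0 f = 0 := by rw [hfo, M.ord_q.1]; ring
  have hfo1 : M.ord 1 f = 0 := by rw [hfo, M.ord_q.2.1, h1]; ring
  have hfo2 : M.ord 2 f = d := by rw [hfo, M.ord_q.2.2, hd]; ring
  have key : ∀ P : Place k C, (m : ℤ) ∣ M.ordRed P f - d * e P := by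
    intro P
    by_cases hP : M.IsSSPlace P
    · obtain ⟨-, c, y, r, hymax, hy, hcen, hr0, hr2, hrj, ⟨s, t, hs, hst⟩, her⟩ := he P hP
      have hz0 : M.ord 0 ((r : F) ^ (-d)) = 0 := by
        rw [M.ord_zpow hr0, hrj 0 (by decide), mul_zero]
      have h := M.dvd_ordRed_add m hy hcen hm hf0 (zpow_ne_zero (-d) hr0) hfo0 hz0
        (fun i _ => by
          rw [M.ord_mul i _ _ hf0 (zpow_ne_zero _ hr0), M.ord_zpow hr0]
          fin_cases i
          · show M.ord 0 f + -d * M.ord 0 (r : F) = 0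
            rw [hfo0, hrj 0 (by decide), mul_zero, add_zero]
          · show M.ord 1 f + -d * M.ord 1 (r : F) = 0
            rw [hfo1, hrj 1 (by decide), mul_zero, add_zero]
          · show M.ord 2 f + -d * M.ord 2 (r : F) = 0
            rw [hfo2, hr2]; ring) hfor
        fun O hR hRy hqO => by
          have hinv : (r : F)⁻¹ ∈ O := by
            have e1 : (M.qR c : F) * (s : F) = (r : F) * (t : F) := congrArg Subtype.val hst
            have hs0 : (s : F) ≠ 0 := fun e2 => hs (by
              rw [show s = 0 from Subtype.ext e2]; exact zero_mem _)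
            have hq0 : (M.qR c : F) ≠ 0 := M.q_ne_zero
            rw [show (r : F)⁻¹ = (t : F) * (M.qR c : F)⁻¹ * (s : F)⁻¹ by
              field_simp
              linear_combination e1]
            exact mul_mem (mul_mem (hR t) hqO) (hRy s hs)
          have hz' : ∀ n : ℤ, (r : F) ^ n ∈ O := fun n => by
            rcases Int.eq_nat_or_neg n with ⟨N, rfl | rfl⟩
            · rw [zpow_natCast]; exact pow_mem (hR r) N
            · rw [zpow_neg, zpow_natCast, ← inv_pow]; exact pow_mem hinv N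
          exact ⟨hz' _, by rw [← zpow_neg]; exact hz' _⟩
      rw [M.ordRed_zpow P hr0 (hrj 0 (by decide)), her] at h
      rwa [sub_eq_add_neg, ← neg_mul]
    · rw [he' P hP, Nat.cast_zero, mul_zero, sub_zero]
      obtain ⟨c, y, hymax, hy, hcen⟩ := M.exists_centre hint P
      rcases M.dichotomy c y hy with ⟨i, hi⟩ | ⟨hall, -⟩
      · have hon : ∀ j, M.OnBranch c y j → j = i := fun j hj => by
          by_contra hji
          obtain ⟨r, hr, hr0, hry⟩ := hi j hji
          exact hry (hj r hr hr0)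
        obtain rfl := hon 0 hcen.onBranch
        have h := M.dvd_ordRed_add m hy hcen hm hf0 one_ne_zero hfo0 (M.ord_one 0)
          (fun j hj => by rw [mul_one, hon j hj, hfo0]) hfor
          fun O _ _ _ => ⟨one_mem O, by rw [inv_one]; exact one_mem O⟩
        rwa [show M.ordRed P 1 = 0 by rw [ordRed, M.red_one, P.ord_one], add_zero] at h
      · exact absurd ⟨c, y, hymax, hy, hcen, hall⟩ hP
  -- the degree of the divisor of the residue
  have := M.algClosed
  obtain ⟨D, hD, hdeg⟩ := HasPrincipalDivisors.exists_divisor (K := k) (M.red 0 f)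
    (M.red_ne_zero_of_ord hf0 hfo0)
  have hsum : ∑ P ∈ D.support ∪ Z, M.ordRed P f = 0 := by
    rw [← hdeg, FF.degree_eq_sum, ← Finset.sum_subset Finset.subset_union_left
      (fun P _ hP => by rw [ordRed, ← hD, Finsupp.notMem_support_iff.mp hP])]
    exact Finset.sum_congr rfl fun P _ => by
      rw [ordRed, ← hD, P.deg_eq_one_of_isAlgClosed_of_finite, Nat.cast_one, mul_one]
  have hsumE : ∑ P ∈ D.support ∪ Z, (e P : ℤ) = ((∑ P ∈ Z, e P : ℕ) : ℤ) := by
    rw [Nat.cast_sum]
    refine (Finset.sum_subset Finset.subset_union_right fun P _ hP => ?_).symm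
    rw [he' P fun h => hP (M.finite_isSSPlace.mem_toFinset.mpr h), Nat.cast_zero]
  have h := Finset.dvd_sum fun P (_ : P ∈ D.support ∪ Z) => key P
  rw [Finset.sum_sub_distrib, hsum, ← Finset.mul_sum, hsumE, zero_sub, dvd_neg] at h
  rwa [mul_comm]

/-- **Compatible systems.** If `d` is, modulo the prime `p`, the difference of the outer orders of
functions with horizontal divisors divisible by all powers of `p`, then `p` divides `d`. -/
theorem dvd_sub_ord_of_system
    (hint : ∀ a ∈ M.R 1, IsIntegral (Algebra.adjoin W ({M.x⁻¹} : Set F)) a) {p : ℕ} (hp : p.Prime)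
    {d : ℤ} (h : ∀ n : ℕ, ∃ g : F, g ≠ 0 ∧ HorizDvd W (p ^ n) g ∧
      M.ord 1 g = ((M.q : ℤ) - 1) * M.ord 0 g ∧ (p : ℤ) ∣ M.ord 2 g - M.ord 0 g - d) :
    (p : ℤ) ∣ d := by
  obtain ⟨E, hE, hdvd⟩ := M.exists_dvd_sub_ord hint
  obtain ⟨v, E', hE', rfl⟩ := Nat.exists_eq_pow_mul_and_not_dvd hE.ne' p hp.one_lt.ne'
  obtain ⟨g, hg, hor, h1, hd⟩ := h (v + 1)
  have h2 := hdvd _ g (pow_ne_zero _ hp.ne_zero) hg hor h1
  push_cast at h2
  rw [pow_succ, mul_assoc, mul_dvd_mul_iff_left (pow_ne_zero _ (by exact_mod_cast hp.ne_zero))] at h2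
  have h3 := (Nat.prime_iff_prime_int.mp hp).dvd_or_dvd h2
  have h4 := h3.resolve_left fun e => hE' (by exact_mod_cast e)
  simpa using dvd_sub h4 hd

end Fermat.Agent.Carayol.Model
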