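/-
A root of a local unit with coherent values lies in the local ring (curve singularities).
Owner of the proof: helper2 (statement: helper85).
-/
import Mathlib.RingTheory.Jacobson.Ideal
import Mathlib.RingTheory.IntegralClosure.IsIntegralClosure.Basic
import Mathlib.RingTheory.Nakayama
import Mathlib.RingTheory.Adjoin.Polynomial.Basic

set_option autoImplicit false

noncomputable section

namespace Fermat.Agent.Carayol

/-- If `w ^ m = u` is a unit at `y` and `w` takes the value `v` at every point above `y`,
then `r * w ∈ B` for some `r` not vanishing at `y`. -/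
theorem exists_mul_mem_of_root {P : Type} [CommRing P] (B : Subring P) (y : Ideal B)
    [y.IsMaximal] (m : ℕ) (hm : (m : B) ∉ y) (u v : B) (hu : u ∉ y) (w : P)
    (hw : w ^ m = (u : P))
    (hv : ∀ Y : Ideal (Subring.closure ((B : Set P) ∪ {w})), Y.IsPrime →
      (∀ b : B, b ∈ y ↔
        (⟨(b : P), Subring.subset_closure (Or.inl b.2)⟩ :
          Subring.closure ((B : Set P) ∪ {w})) ∈ Y) →
      (⟨w - (v : P), sub_mem (Subring.subset_closure (Or.inr rfl))
          (Subring.subset_closure (Or.inl v.2))⟩ :
        Subring.closure ((B : Set P) ∪ {w})) ∈ Y) :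
    ∃ r : B, r ∉ y ∧ (r : P) * w ∈ B := by
  let M : Subalgebra B P := Algebra.adjoin B {w}
  have hwM : w ∈ M := Algebra.subset_adjoin rfl
  have hle : Subring.closure ((B : Set P) ∪ {w}) ≤ M.toSubring := by
    rw [Subring.closure_le]
    rintro x (hx | rfl)
    · exact M.algebraMap_mem ⟨x, hx⟩
    · exact hwM
  let yM : Ideal M := y.map (algebraMap B M)
  let W : M := ⟨w, hwM⟩
  let g : M := ∑ i ∈ Finset.range m, W ^ i * algebraMap B M v ^ (m - 1 - i)
  have hg : g * (W - algebraMap B M v) = algebraMap B M (u - v ^ m) := by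
    rw [map_sub, map_pow, show algebraMap B M u = W ^ m from Subtype.ext hw.symm]
    exact geom_sum₂_mul _ _ m
  have hover : ∀ Q : Ideal M, Q.IsPrime → yM ≤ Q →
      W - algebraMap B M v ∈ Q ∧ g ∉ Q := by
    intro Q hQ hyQ
    have hcon : Q.comap (algebraMap B M) = y :=
      (Ideal.IsMaximal.eq_of_le inferInstance (Ideal.IsPrime.ne_top inferInstance)
        (Ideal.map_le_iff_le_comap.mp hyQ)).symm
    have h1 : W - algebraMap B M v ∈ Q :=
      hv (Q.comap (Subring.inclusion hle)) inferInstance (fun b => by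
        rw [Ideal.mem_comap, ← hcon, Ideal.mem_comap]; rfl)
    refine ⟨h1, fun hgQ => ?_⟩
    have h2 : g - (m : M) * algebraMap B M v ^ (m - 1) ∈ Q := by
      have h3 : (m : M) * algebraMap B M v ^ (m - 1) =
          ∑ i ∈ Finset.range m, algebraMap B M v ^ i * algebraMap B M v ^ (m - 1 - i) := by
        rw [Finset.sum_congr rfl fun i hi => by
          rw [← pow_add, Nat.add_sub_cancel' (by have := Finset.mem_range.mp hi; omega)]]
        simp
      rw [h3, ← Finset.sum_sub_distrib]
      exact Submodule.sum_mem _ fun i _ => by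
        rw [← sub_mul]
        exact Ideal.mul_mem_right _ _ (Ideal.mem_of_dvd _ (sub_dvd_pow_sub_pow _ _ i) h1)
    have h4 : (m : B) * v ^ (m - 1) ∈ y := by
      rw [← hcon, Ideal.mem_comap]
      simpa using sub_mem hgQ h2
    have hvy : v ∈ y := (inferInstance : y.IsPrime).mem_of_pow_mem (m - 1)
      (((inferInstance : y.IsPrime).mem_or_mem h4).resolve_left hm)
    have h5 : u - v ^ m ∈ y := by
      rw [← hcon, Ideal.mem_comap, ← hg]
      exact Ideal.mul_mem_right _ _ hgQ
    have hm0 : m ≠ 0 := by rintro rfl; simp at hm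
    exact hu (by simpa using add_mem h5 (y.pow_mem_of_mem hvy m (Nat.pos_of_ne_zero hm0)))
  have hw_mem : W - algebraMap B M v ∈ yM := by
    by_cases hunit : Ideal.span {g} ⊔ yM = ⊤
    · have huv : algebraMap B M (u - v ^ m) ∈ yM := by
        by_cases hyM : yM = ⊤
        · simp [hyM]
        obtain ⟨Q, hQ, hyQ⟩ := Ideal.exists_le_maximal yM hyM
        refine Ideal.mem_map_of_mem _ ?_
        have := (Ideal.IsMaximal.eq_of_le (inferInstance : y.IsMaximal)
          (Ideal.IsPrime.ne_top (Ideal.IsPrime.comap _)) (Ideal.map_le_iff_le_comap.mp hyQ))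
        rw [this, Ideal.mem_comap, ← hg]
        exact Ideal.mul_mem_left _ _ (hover Q hQ.isPrime hyQ).1
      obtain ⟨a, ha, b, hb, hab⟩ := Submodule.mem_sup.mp ((Ideal.eq_top_iff_one _).mp hunit)
      obtain ⟨c, rfl⟩ := Ideal.mem_span_singleton'.mp ha
      rw [show W - algebraMap B M v =
        c * (g * (W - algebraMap B M v)) + b * (W - algebraMap B M v) by
          linear_combination -(W - algebraMap B M v) * hab, hg]
      exact add_mem (Ideal.mul_mem_left _ _ huv) (Ideal.mul_mem_right _ _ hb)
    · exfalso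
      obtain ⟨Q, hQ, hQle⟩ := Ideal.exists_le_maximal _ hunit
      exact (hover Q hQ.isPrime (le_trans le_sup_right hQle)).2
        (hQle (Submodule.mem_sup_left (Ideal.mem_span_singleton_self g)))
  have hm0 : m ≠ 0 := by rintro rfl; simp at hm
  have hint : IsIntegral B w :=
    ⟨Polynomial.X ^ m - Polynomial.C u, Polynomial.monic_X_pow_sub_C u hm0, by
      simp [hw, Algebra.algebraMap_ofSubsemiring_apply]⟩
  have hfg : (Subalgebra.toSubmodule M).FG := hint.fg_adjoin_singleton
  let N : Submodule B P := (1 : Submodule B P)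
  let E : Submodule B (P ⧸ N) := (Subalgebra.toSubmodule M).map N.mkQ
  have hwM' : ∀ z : M, z ∈ yM → (z : P) ∈ y • Subalgebra.toSubmodule M := by
    intro z hz
    refine Submodule.span_induction (R := M) (M := M) (s := algebraMap B M '' (y : Set B))
      (p := fun z _ => (z : P) ∈ y • Subalgebra.toSubmodule M) ?_ ?_ ?_ ?_ hz
    · rintro _ ⟨b, hb, rfl⟩
      rw [show ((algebraMap B M b : M) : P) = b • (1 : P) by simp [Algebra.smul_def]]
      exact Submodule.smul_mem_smul hb M.one_mem
    · exact zero_mem _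
    · intro a b _ _ ha hb; exact add_mem ha hb
    · intro c a _ ha
      refine Submodule.smul_induction_on (p := fun x : P => (c : P) * x ∈ _) ha ?_ ?_
      · intro b hb x hx
        rw [mul_smul_comm]
        exact Submodule.smul_mem_smul hb (M.mul_mem c.2 hx)
      · intro a b ha hb; rw [mul_add]; exact add_mem ha hb
  have hE : E ≤ y • E := by
    rw [Submodule.map_le_iff_le_comap, ← Submodule.map_smul'', Submodule.comap_map_mkQ]
    intro x hx
    refine Algebra.adjoin_induction (p := fun x _ => x ∈ N ⊔ y • Subalgebra.toSubmodule M)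
      ?_ ?_ ?_ ?_ hx
    · intro x hxw
      rw [Set.mem_singleton_iff] at hxw
      rw [hxw]
      have h2 := hwM' _ hw_mem
      rw [show w = (v : P) + (W - algebraMap B M v : M) by simp [W]; exact (add_sub_cancel _ _).symm]
      exact Submodule.add_mem_sup (Submodule.mem_one.mpr ⟨v, rfl⟩) h2
    · intro b; exact Submodule.mem_sup_left (Submodule.mem_one.mpr ⟨b, rfl⟩)
    · intro a b _ _ ha hb; exact add_mem ha hb
    · intro a b haM hbM ha hb
      obtain ⟨a0, ha0, a1, ha1, rfl⟩ := Submodule.mem_sup.mp ha
      rw [add_mul]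
      obtain ⟨c, rfl⟩ := Submodule.mem_one.mp ha0
      refine add_mem ?_ (Submodule.mem_sup_right ?_)
      · simpa [Algebra.smul_def] using Submodule.smul_mem _ c hb
      · refine Submodule.smul_induction_on (p := fun x : P => x * b ∈ _) ha1 ?_ ?_
        · intro t ht z hz
          rw [smul_mul_assoc]
          exact Submodule.smul_mem_smul ht (M.mul_mem hz hbM)
        · intro s t hs ht; rw [add_mul]; exact add_mem hs ht
  obtain ⟨r, hr1, hr2⟩ :=
    Submodule.exists_sub_one_mem_and_smul_eq_zero_of_fg_of_le_smul y E (hfg.map _) hE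
  refine ⟨r, fun hry => (inferInstance : y.IsPrime).ne_top
    ((Ideal.eq_top_iff_one _).mpr (by simpa using sub_mem hry hr1)), ?_⟩
  have h3 := hr2 (N.mkQ w) ⟨w, hwM, rfl⟩
  rw [← map_smul, Submodule.mkQ_apply, Submodule.Quotient.mk_eq_zero, Submodule.mem_one] at h3
  obtain ⟨b, hb⟩ := h3
  rw [show (r : P) * w = r • w from rfl, ← hb]
  exact b.2

end Fermat.Agent.Carayol
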