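import Fermat.Agent.Carayol.ChartConcrete
import Fermat.Agent.Carayol.EtaleChart
import Fermat.Agent.Carayol.Identity
import Fermat.Agent.MF.Coeff.Data

/-!
# The level `L₀` chart inside the finite chart of `X₀(q² L₀)`

The functions `b (q^j τ)`, `b` in the `j`-chart of level `L₀`, lie in the finite chart; along the
branch `i` such a function reduces to the reduced `b` with `Q ↦ Q^(q^depth i j)`. The reductions of
the finite chart land in the reduced `j`-chart.
-/

set_option autoImplicit false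
set_option linter.unusedSectionVars false

noncomputable section

open Polynomial ModularCurve
open Fermat.Agent.Igusa Fermat.Agent.RED Fermat.Agent.RED.Spec Fermat.Agent.HK.Corr
open Fermat.Agent.CarayolHigh

set_option maxHeartbeats 1600000
set_option synthInstance.maxHeartbeats 400000

namespace Fermat.Agent.Carayol.SS

/-- Integrality transported along a homomorphism into a ring closed under integral elements. -/
theorem mem_coordRing_map {K E F : Type*} [Field K] [Field E] [Field F] [Algebra K E] [Algebra K F]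
    (f : E →ₐ[K] F) {x : E} {y : F} (hx : f x ∈ coordRing K y) {a : E} (ha : a ∈ coordRing K x) :
    f a ∈ coordRing K y := by
  refine coordRing_le_of_mem hx ?_
  obtain ⟨p, hp, h0⟩ := ha
  refine ⟨p, hp, ?_⟩
  have h := congrArg f.toRingHom h0
  rw [map_zero, Polynomial.hom_eval₂,
    show f.toRingHom.comp (coordEval K x) = coordEval K (f x) from
      RingHom.ext fun r => (aeval_algHom_apply f x r).symm] at h
  exact h

theorem qExpand_int_eq_pow {k : Type*} [CommRing k] (q : ℕ) [Fact q.Prime] [NeZero q] [CharP k q]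
    (x : LaurentSeries ℤ) (m : ℕ) :
    qExpand k (q ^ m) (coeffMap (Int.castRingHom k) x) =
      coeffMap (Int.castRingHom k) x ^ (q ^ m) := by
  induction m with
  | zero => rw [qExpand_congr (pow_zero q), qExpand_one_apply, pow_zero, pow_one]
  | succ m ih =>
    rw [qExpand_congr (pow_succ q m), ← qExpand_qExpand,
      show qExpand k q (coeffMap (Int.castRingHom k) x) = coeffMap (Int.castRingHom k) x ^ q by
        rw [← coeffMap_qExpand, coeffMap_qExpand_eq_pow],
      map_pow, ih, ← pow_mul, pow_succ]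

section Degeneracy

variable {K K' : Type} [Field K] [Algebra ℚ K] [Field K'] [Algebra ℚ K']
  {L₀ q : ℕ} [NeZero L₀] [NeZero q] {hq : q.Prime} {hqL : ¬ q ∣ L₀} {κ : K →+* K'} {z : K'ˣ}
  {e0 e02 : modField K (L₀ * q ^ 2) →+* LaurentSeries K'}
  {ez : Fin (q - 1) → modField K (L₀ * q ^ 2) →+* LaurentSeries K'}

omit [Algebra ℚ K] in
theorem dvd_degen (j : Fin 3) : L₀ * q ^ (j : ℕ) ∣ L₀ * q ^ 2 :=
  mul_dvd_mul_left L₀ (pow_dvd_pow q (Nat.le_of_lt_succ j.2))

/-- `g (q^j τ)` at level `L₀ q²`. -/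
def degen (j : Fin 3) : modField K L₀ →ₐ[K] modField K (L₀ * q ^ 2) :=
  degenMap K (q ^ (j : ℕ)) (dvd_degen j)

/-- **The branches on the three images of level `L₀`.** -/
theorem branch_degen (hB : BranchEmbs hq hqL κ z e0 e02 ez) (k₀ : Fin (q - 1)) (i j : Fin 3) :
    ∃ u : K'ˣ, u ^ q = 1 ∧ ∀ g : modField K L₀, branchTriple e0 e02 ez k₀ i (degen j g) =
      qScale u (qExpand K' (q ^ depth i j) (baseEmb κ L₀ g)) := by
  have hb := fun u : K'ˣ =>
    ((isSubst_baseEmb κ L₀).qExpand_comp (q ^ depth i j)).qScale_comp u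
  have one : qScale (1 : K'ˣ) = RingHom.id (LaurentSeries K') := qScale_one
  have hd : ∀ d : DivIdx L₀, (mulIdx (q ^ (j : ℕ)) (dvd_degen j) d).1 = d.1 * q ^ (j : ℕ) :=
    fun d => by rw [coe_mulIdx, mul_comm]
  fin_cases i
  · refine ⟨1, one_pow _, fun g => DFunLike.congr_fun ((hB.h0.comp_degen (q ^ (j : ℕ))
      (dvd_degen j)).ext (hb 1) fun d => ?_) g⟩
    rw [one, RingHom.id_apply]
    refine (qExpand_genSer K' (?_ : _ = _)).symm
    rw [hd, mul_comm]
    congr 2
    fin_cases j <;> rfl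
  · by_cases h2 : j = 2
    · subst h2
      refine ⟨z ^ ((k₀ : ℕ) + 1), unit_pow_pow_eq_one hB.prim _ dvd_rfl,
        fun g => DFunLike.congr_fun (((hB.hz k₀).comp_degen (q ^ ((2 : Fin 3) : ℕ))
          (dvd_degen 2)).ext (hb _) fun d => ?_) g⟩
      rw [midVal_of_eq_two hq hqL _ d (hd d)]
      refine congrArg _ ?_
      rw [qExpand_congr (show q ^ depth ⟨1, by omega⟩ 2 = 1 by simp [depth]), qExpand_one_apply]
    · refine ⟨1, one_pow _, fun g => DFunLike.congr_fun (((hB.hz k₀).comp_degen (q ^ (j : ℕ))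
        (dvd_degen j)).ext (hb 1) fun d => ?_) g⟩
      rw [one, RingHom.id_apply,
        midVal_of_eq hq hqL _ (hd d) d.2.2 (by
          have := j.2
          have hj : (j : ℕ) ≠ 2 := fun h => h2 (Fin.ext h)
          omega)]
      refine (qExpand_genSer K' (?_ : _ = _)).symm
      rw [hd, mul_comm]
      congr 2
      fin_cases j
      · rfl
      · rfl
      · exact absurd rfl h2
  · refine ⟨1, one_pow _, fun g => DFunLike.congr_fun ((hB.h02.comp_degen (q ^ (j : ℕ))
      (dvd_degen j)).ext (hb 1) fun d => ?_) g⟩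
    rw [one, RingHom.id_apply]
    refine (qExpand_genSer K' (?_ : _ = _)).symm
    rw [coe_swapTwo_of_eq hq hqL (hd d) d.2.2, mul_comm]
    congr 2
    fin_cases j <;> rfl

end Degeneracy

section Chart

variable {K : Type} [Field K] [Algebra ℚ K] [Algebra K (AlgebraicClosure ℚ)] {K' : Type} [Field K'] [Algebra ℚ K']
  {O : ValuationSubring K'} {k : Type} [Field k] {π : O →+* k}
  {L₀ q : ℕ} [NeZero L₀] [NeZero q] {hq : q.Prime} {hqL : ¬ q ∣ L₀}
  {κ : K →+* K'} {z : K'ˣ} {e0 e02 : modField K (L₀ * q ^ 2) →+* LaurentSeries K'}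
  {ez : Fin (q - 1) → modField K (L₀ * q ^ 2) →+* LaurentSeries K'} {η : K'ˣ}
  {A : ValuationSubring K}
  {Br : Branches (modField K (L₀ * q ^ 2)) (Fin 3) (fun _ => modularFunctionFieldFullC k L₀)}
  {k₀ : Fin (q - 1)}
  (D : ChartData hq hqL π κ z e0 e02 ez η A Br
    (modularFunctionFieldFullC k L₀).val.toRingHom k₀)
  (ρ : A →+* k) (hρA : ∀ w : A, π ⟨κ (w : K), D.hA w w.2⟩ = ρ w)
  (hρ : Function.Surjective ρ) (hN : (L₀ : k) ≠ 0)

include hρA

theorem isGauss_baseEmb_jChart (b : Etale.jChart L₀ K A) :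
    IsGauss π (baseEmb κ L₀ (b : modField K L₀))
      ((Etale.jChartRed₀ ρ hρ hN b : modularFunctionFieldFullC k L₀) : LaurentSeries k) := by
  haveI := D.dvr
  have hmem : (b : modField K L₀) ∈ (levelRed (A := A) L₀ hρ hN).W :=
    LiftBase.chartRing_mem_W _ (LiftBase.baseParam L₀ ρ hρ hN)
      (by rw [LiftBase.coe_baseParam ρ hρ hN]; exact b.2)
  obtain ⟨a, c, hc, heq, hred⟩ := exists_levelFrac O π κ D.hA hρA L₀ 1 hρ hN ⟨_, hmem⟩
  refine ⟨a, c, hc, ?_, ?_⟩
  · rw [← heq]
    congr 1
    exact (qExpand_one_apply _).symm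
  · rw [hred, qExpand_one_apply, Etale.jChartRed₀_eq ρ hρ hN b hmem]
    rfl

/-- The branches on `b (q^j τ)`. -/
theorem mem_V_degen (i j : Fin 3) (b : Etale.jChart L₀ K A) :
    ∃ h : degen j (b : modField K L₀) ∈ Br.V i,
      ((Br.res i ⟨_, h⟩ : modularFunctionFieldFullC k L₀) : LaurentSeries k) =
        qExpand k (q ^ depth i j)
          ((Etale.jChartRed₀ ρ hρ hN b : modularFunctionFieldFullC k L₀) : LaurentSeries k) := by
  haveI := Fact.mk hq
  haveI := D.charP
  obtain ⟨u, hu, hg⟩ := branch_degen D.branches k₀ i j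
  obtain ⟨h, hr⟩ := (D.isGauss_iff i (degen j (b : modField K L₀)) _).mp (by
    rw [hg]
    exact ((isGauss_baseEmb_jChart D ρ hρA hρ hN b).qExpand (q ^ depth i j)).qScale_root
      (u := u) (m := 1) (by rwa [pow_one]))
  exact ⟨h, hr⟩

omit hρA in
theorem degen_jElem_mem (j : Fin 3) :
    degen j (MF.Coeff.jElem K L₀) ∈ coordRing K (jTop K L₀ q) := by
  let φ : ℤ[X] →+* modField K (L₀ * q ^ 2) := eval₂RingHom (Int.castRingHom _) (jTop K L₀ q)
  refine mem_coordRing_of_isIntegralElem (φ := φ) (fun p => ?_) ?_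
  · show p.eval₂ (Int.castRingHom _) (jTop K L₀ q) ∈ _
    rw [eval₂_eq_sum_range]
    exact sum_mem fun l _ => mul_mem (intCast_mem _ _) (pow_mem (self_mem_coordRing K _) _)
  obtain ⟨p, hp, h0⟩ := MF.Coeff.isIntegralElem_jqN_all (q ^ (j : ℕ))
  refine ⟨p, hp, (modField K (L₀ * q ^ 2)).val.toRingHom.injective ?_⟩
  have h := congrArg (coeffMap (algebraMap ℚ K)) h0
  rw [Polynomial.hom_eval₂, map_zero] at h
  rw [Polynomial.hom_eval₂, map_zero, ← h]
  congr 1
  · refine Polynomial.ringHom_ext' (RingHom.ext_int _ _) ?_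
    simp only [RingHom.comp_apply, φ, coe_eval₂RingHom, eval₂_X, evalAtJ_X]
    exact (coeffMap_jqModC _).symm
  · exact (coe_degenMap (q ^ (j : ℕ)) (dvd_degen j) (MF.Coeff.jElem K L₀)).trans
      (coeffMap_jqNModC (algebraMap ℚ K) (q ^ (j : ℕ))).symm

variable (hϖ : Irreducible (q : A))

/-- The finite chart. -/
abbrev topChart (A : ValuationSubring K) (L₀ q : ℕ) [NeZero L₀] [NeZero q] :
    Subalgebra A (modField K (L₀ * q ^ 2)) :=
  chartRing A (jTop K L₀ q)

include hϖ in
theorem mem_topChart_degen (hN' : (L₀ : k) ≠ 0) (hρ' : Function.Surjective ρ) (j : Fin 3)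
    (b : Etale.jChart L₀ K A) : degen j (b : modField K L₀) ∈ topChart A L₀ q := by
  haveI := D.dvrA
  haveI := isScalarTower_valuationSubring (E := modField K L₀) A
  have hc := (D.chart false hϖ).2 (degen j (b : modField K L₀))
  simp only [Bool.false_eq_true, if_false] at hc
  refine hc.mpr ⟨mem_coordRing_map _ (degen_jElem_mem j) ?_,
    fun i => (mem_V_degen D ρ hρA hρ' hN' i j b).1⟩
  refine mem_coordRing_of_isIntegralElem (fun p => ?_)
    (mem_chartRing_iff_isIntegralElem.mp b.2)
  show aeval (MF.Coeff.jElem K L₀) p ∈ _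
  rw [← aeval_map_algebraMap K]
  exact aeval_mem_coordRing K _ _

omit hρA in
include D hϖ in
theorem isChart_top : IsChart Br (q : A) (topChart A L₀ q) := by
  have h := (D.chart false hϖ).1
  simpa using h

omit hρA in
include D hϖ in
theorem mem_topChart_iff {a : modField K (L₀ * q ^ 2)} :
    a ∈ topChart A L₀ q ↔ a ∈ coordRing K (jTop K L₀ q) ∧ ∀ i, a ∈ Br.V i := by
  have h := (D.chart false hϖ).2 a
  simpa using h

/-- `b ↦ b (q^j τ)` into the finite chart. -/
def degenChart (hN' : (L₀ : k) ≠ 0) (hρ' : Function.Surjective ρ) (j : Fin 3) :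
    Etale.jChart L₀ K A →ₐ[A] topChart A L₀ q where
  toFun b := ⟨degen j (b : modField K L₀), mem_topChart_degen D ρ hρA hϖ hN' hρ' j b⟩
  map_one' := Subtype.ext (map_one (degen j : modField K L₀ →ₐ[K] modField K (L₀ * q ^ 2)))
  map_mul' a b := Subtype.ext
    (map_mul (degen j : modField K L₀ →ₐ[K] modField K (L₀ * q ^ 2)) (a : modField K L₀) b)
  map_zero' := Subtype.ext (map_zero (degen j : modField K L₀ →ₐ[K] modField K (L₀ * q ^ 2)))
  map_add' a b := Subtype.ext
    (map_add (degen j : modField K L₀ →ₐ[K] modField K (L₀ * q ^ 2)) (a : modField K L₀) b)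
  commutes' w := Subtype.ext
    ((degen j : modField K L₀ →ₐ[K] modField K (L₀ * q ^ 2)).commutes (w : K))

omit hρA in
theorem coe_degenChart (hρA : ∀ w : A, π ⟨κ (w : K), D.hA w w.2⟩ = ρ w) (hN' : (L₀ : k) ≠ 0)
    (hρ' : Function.Surjective ρ) (j : Fin 3) (b : Etale.jChart L₀ K A) :
    ((degenChart D ρ hρA hϖ hN' hρ' j b : topChart A L₀ q) : modField K (L₀ * q ^ 2)) =
      degen j (b : modField K L₀) := rfl

/-- `j` of level `L₀` in its chart. -/
def jBase (K : Type) [Field K] [Algebra ℚ K] (L₀ : ℕ) [NeZero L₀] (A : ValuationSubring K) :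
    Etale.jChart L₀ K A :=
  ⟨MF.Coeff.jElem K L₀, self_mem_chartRing _⟩

omit hρA in
theorem jChartRed₀_jBase :
    ((Etale.jChartRed₀ ρ hρ hN (jBase K L₀ A) : modularFunctionFieldFullC k L₀) :
      LaurentSeries k) = jqModC k := by
  have hmem : MF.Coeff.jElem K L₀ ∈ (LiftBase.baseConstRed L₀ ρ hρ hN).W :=
    LiftBase.coe_baseParam ρ hρ hN ▸ (LiftBase.baseParam L₀ ρ hρ hN).2
  exact congrArg Subtype.val ((Etale.jChartRed₀_eq ρ hρ hN (jBase K L₀ A) hmem).trans
    ((congrArg _ (Subtype.ext (LiftBase.coe_baseParam ρ hρ hN).symm)).trans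
      (LiftBase.red_baseParam ρ hρ hN)))

omit hρA in
theorem jTop_eq_degen : jTop K L₀ q = degen 0 (MF.Coeff.jElem K L₀) := by
  apply Subtype.ext
  show jqModC K = qExpand K (q ^ ((0 : Fin 3) : ℕ)) (jqModC K)
  rw [qExpand_congr (show q ^ ((0 : Fin 3) : ℕ) = 1 from pow_zero q), qExpand_one_apply]

include hρ hN hϖ in
/-- The reductions of the finite chart lie in the reduced `j`-chart. -/
theorem res_mem_coordRing (i : Fin 3) (a : topChart A L₀ q) :
    chartRes Br (isChart_top D hϖ) i a ∈ coordRing k (jSpecial (k := k) L₀) := by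
  haveI := Fact.mk hq
  haveI := D.charP
  set hR := isChart_top D hϖ
  obtain ⟨p, hp, h0⟩ := mem_chartRing_iff_isIntegralElem.mp a.2
  let xR : topChart A L₀ q := ⟨jTop K L₀ q, self_mem_chartRing _⟩
  refine mem_coordRing_of_isIntegralElem
    (φ := (chartRes Br hR i).comp (aeval (R := A) xR).toRingHom) (fun r => ?_) ⟨p, hp, ?_⟩
  · have hx : chartRes Br hR i xR ∈ coordRing k (jSpecial (k := k) L₀) := by
      have e : xR = degenChart D ρ hρA hϖ hN hρ 0 (jBase K L₀ A) := Subtype.ext jTop_eq_degen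
      obtain ⟨h, hres⟩ := mem_V_degen D ρ hρA hρ hN i 0 (jBase K L₀ A)
      rw [jChartRed₀_jBase ρ hρ hN, ← coeffMap_jqModC (Int.castRingHom k),
        qExpand_int_eq_pow q, coeffMap_jqModC] at hres
      have : chartRes Br hR i xR = jSpecial L₀ ^ (q ^ depth i 0) := by
        rw [e]
        exact Subtype.ext hres
      rw [this]
      exact pow_mem (self_mem_coordRing k _) _
    induction r using Polynomial.induction_on with
    | C w =>
      obtain ⟨h, hres⟩ := mem_V_degen D ρ hρA hρ hN i 0 (algebraMap A (Etale.jChart L₀ K A) w)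
      rw [Etale.jChartRed₀_algebraMap] at hres
      have : ((chartRes Br hR i).comp (aeval (R := A) xR).toRingHom) (Polynomial.C w) =
          algebraMap k (modularFunctionFieldFullC k L₀) (ρ w) := by
        apply Subtype.ext
        rw [RingHom.comp_apply, AlgHom.toRingHom_eq_coe, RingHom.coe_coe, aeval_C,
          ← (degenChart D ρ hρA hϖ hN hρ 0).commutes w]
        refine hres.trans ?_
        rw [show ((algebraMap k (modularFunctionFieldFullC k L₀) (ρ w) :
            modularFunctionFieldFullC k L₀) : LaurentSeries k) =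
            algebraMap k (LaurentSeries k) (ρ w) from rfl, algebraMap_laurentSeries_eq_single,
          qExpand_single, mul_zero]
      rw [this]
      exact Subalgebra.algebraMap_mem _ _
    | add r s hr hs => rw [map_add]; exact add_mem hr hs
    | monomial n w ih =>
      rw [show Polynomial.C w * X ^ (n + 1) = Polynomial.C w * X ^ n * X by rw [pow_succ, mul_assoc],
        map_mul]
      refine mul_mem ih ?_
      rw [RingHom.comp_apply, AlgHom.toRingHom_eq_coe, RingHom.coe_coe, aeval_X]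
      exact hx
  · have h1 : p.eval₂ (aeval (R := A) xR).toRingHom a = 0 := by
      have hv : Function.Injective (topChart A L₀ q).val.toRingHom := Subtype.val_injective
      apply hv
      rw [map_zero, Polynomial.hom_eval₂]
      refine Eq.trans ?_ h0
      congr 1
      exact RingHom.ext fun r => (aeval_algHom_apply (topChart A L₀ q).val xR r).symm
    rw [← Polynomial.hom_eval₂, h1, map_zero]

end Chart

end Fermat.Agent.Carayol.SS
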