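import Fermat.Agent.Carayol.SSBase
import Fermat.Agent.Carayol.HauptEquation
import Fermat.Agent.Carayol.BranchData
import Fermat.Agent.Carayol.Points

/-!
# The supersingular points of the finite chart of `X₀(q² L₀)` at `q`

Where all separators vanish, `d = Δ^(1-q)` vanishes, so the value of `t` is supersingular
(`Haupt.isSS_of_vanish`), the point lies on the three branches as one point and its local ring is
factorial (`SSData`).
-/

set_option autoImplicit false
set_option linter.unusedSectionVars false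
set_option maxHeartbeats 1600000
set_option synthInstance.maxHeartbeats 400000

noncomputable section

open Polynomial ModularCurve AlgebraicCurve
open Fermat.Agent.Igusa Fermat.Agent.RED Fermat.Agent.RED.Spec Fermat.Agent.HK.Corr
open Fermat.Agent.CarayolHigh

namespace Fermat.Agent.Carayol.SS

section General

variable {K : Type} [Field K] [Algebra ℚ K] [Algebra K (AlgebraicClosure ℚ)] {K' : Type} [Field K']
  [Algebra ℚ K'] {O : ValuationSubring K'} {k : Type} [Field k] {π : O →+* k}
  {L₀ q : ℕ} [NeZero L₀] [NeZero q] {hq : q.Prime} {hqL : ¬ q ∣ L₀}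
  {κ : K →+* K'} {z : K'ˣ} {e0 e02 : modField K (L₀ * q ^ 2) →+* LaurentSeries K'}
  {ez : Fin (q - 1) → modField K (L₀ * q ^ 2) →+* LaurentSeries K'} {η : K'ˣ}
  {A : ValuationSubring K}
  {Br : Branches (modField K (L₀ * q ^ 2)) (Fin 3) (fun _ => modularFunctionFieldFullC k L₀)}
  {k₀ : Fin (q - 1)}
  (D : ChartData hq hqL π κ z e0 e02 ez η A Br
    (modularFunctionFieldFullC k L₀).val.toRingHom k₀)
  (ρ : A →+* k) (hρA : ∀ w : A, π ⟨κ (w : K), D.hA w w.2⟩ = ρ w)
  (hρ : Function.Surjective ρ) (hN : (L₀ : k) ≠ 0) (hϖ : Irreducible (q : A))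

/-- The reduced `j`-chart of level `L₀`. -/
abbrev redChart (k : Type) [Field k] (L₀ : ℕ) :
    Subalgebra k (modularFunctionFieldFullC k L₀) :=
  coordRing k (jSpecial (k := k) L₀)

/-- The series of a function on the reduced chart. -/
def seriesHom (k : Type) [Field k] (L₀ : ℕ) : redChart k L₀ →ₐ[k] LaurentSeries k :=
  (modularFunctionFieldFullC k L₀).val.comp (redChart k L₀).val

theorem seriesHom_injective : Function.Injective (seriesHom k L₀) :=
  fun a b h => Subtype.ext (Subtype.ext h)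

include hρA hρ hN in
/-- The reduction along the branch `i`, into the reduced chart. -/
def redOn (i : Fin 3) : topChart A L₀ q →+* redChart k L₀ :=
  (chartRes Br (isChart_top D hϖ) i).codRestrict (redChart k L₀)
    (res_mem_coordRing D ρ hρA hρ hN hϖ i)

include hρA hρ hN in
theorem seriesHom_redOn_degen (i j : Fin 3) (b : Etale.jChart L₀ K A) :
    seriesHom k L₀ (redOn D ρ hρA hρ hN hϖ i (degenChart D ρ hρA hϖ hN hρ j b)) =
      qExpand k (q ^ depth i j) (seriesHom k L₀ (Etale.jChartRed ρ hρ hN b)) := by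
  obtain ⟨h, hr⟩ := mem_V_degen D ρ hρA hρ hN i j b
  exact hr

variable (hsurj : Function.Surjective (Etale.jChartRed (K := K) ρ hρ hN))

include D hρA hρ hN hϖ hsurj in
/-- `Q ↦ Q^q` preserves the reduced chart. -/
theorem exists_frob : ∃ σ : redChart k L₀ →ₐ[k] redChart k L₀,
    ∀ g, seriesHom k L₀ (σ g) = qExpand k q (seriesHom k L₀ g) := by
  let v := seriesHom k L₀
  let F : LaurentSeries k →ₐ[k] LaurentSeries k :=
    { qExpand k q with
      commutes' := fun a => by
        show qExpand k q (algebraMap k (LaurentSeries k) a) = algebraMap k (LaurentSeries k) a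
        rw [algebraMap_laurentSeries_eq_single, qExpand_single, mul_zero] }
  have hmem : ∀ g, F (v g) ∈ v.range := fun g => by
    obtain ⟨b, rfl⟩ := hsurj g
    refine ⟨redOn D ρ hρA hρ hN hϖ 0 (degenChart D ρ hρA hϖ hN hρ 1 b), ?_⟩
    refine (seriesHom_redOn_degen D ρ hρA hρ hN hϖ 0 1 b).trans ?_
    exact qExpand_congr (show q ^ depth 0 1 = q from pow_one q) _
  let e := AlgEquiv.ofInjective v seriesHom_injective
  refine ⟨e.symm.toAlgHom.comp ((F.comp v).codRestrict v.range hmem), fun g => ?_⟩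
  show ((e (e.symm ⟨F (v g), hmem g⟩) : v.range) : LaurentSeries k) = F (v g)
  rw [e.apply_symm_apply]

variable {N₀ : ℕ} (H : Haupt N₀)

include D in
theorem isDomain_and_charP : Fact q.Prime ∧ CharP k q := ⟨⟨hq⟩, D.charP⟩

/-- The expansion of `t` along a branch. -/
theorem baseEmb_of_coe {g : modField K L₀}
    (hg : (g : LaurentSeries K) = coeffMap (Int.castRingHom K) H.tZ) :
    baseEmb κ L₀ g = coeffMap (Int.castRingHom K') H.tZ := by
  show coeffMap κ (g : LaurentSeries K) = _
  rw [hg, coeffMap_coeffMap, RingHom.ext_int (κ.comp _) (Int.castRingHom K')]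

variable (tB : Etale.jChart L₀ K A)
  (htK : ((tB : modField K L₀) : LaurentSeries K) = coeffMap (Int.castRingHom K) H.tZ)

include D htK in
/-- `(t_j, t_1)` along the branch `i`. -/
theorem branch_pair (i j : Fin 3) : ∃ u : K'ˣ, u ^ q = 1 ∧
    branchTriple e0 e02 ez k₀ i (degen j (tB : modField K L₀)) =
      qScale u (qExpand K' (q ^ depth i j) (coeffMap (Int.castRingHom K') H.tZ)) ∧
    branchTriple e0 e02 ez k₀ i (degen 1 (tB : modField K L₀)) =
      qScale u (qExpand K' q (coeffMap (Int.castRingHom K') H.tZ)) := by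
  obtain ⟨u, hu, hg⟩ := branch_degen D.branches k₀ i j
  obtain ⟨u', hu', hg'⟩ := branch_degen D.branches k₀ i 1
  refine ⟨u, hu, by rw [hg, baseEmb_of_coe H htK], ?_⟩
  have h1 : q ^ depth i 1 = q := by fin_cases i <;> simp [depth]
  rw [hg', baseEmb_of_coe H htK, qExpand_congr h1, qScale_qExpand, qScale_qExpand, hu, hu']

variable {H}
variable {e : ℕ} {U : Polynomial ℤ[X]}
  (hΦ : evalZ H.tZ H.D ^ e * ((H.tZ - qExpand ℤ q H.tZ ^ q) * (H.tZ ^ q - qExpand ℤ q H.tZ)) +
    (q : LaurentSeries ℤ) * bieval H.tZ (qExpand ℤ q H.tZ) U = 0)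

include hρA hρ hN htK hΦ in
/-- The modular equation between `t_j` and `t_1` in the chart, both ways round. -/
theorem chart_rel (j : Fin 3) (hj : j ≠ 1) :
    (evalZ (degenChart D ρ hρA hϖ hN hρ j tB) H.D ^ e *
      ((degenChart D ρ hρA hϖ hN hρ j tB - degenChart D ρ hρA hϖ hN hρ 1 tB ^ q) *
        (degenChart D ρ hρA hϖ hN hρ j tB ^ q - degenChart D ρ hρA hϖ hN hρ 1 tB)) +
      (q : topChart A L₀ q) *
        bieval (degenChart D ρ hρA hϖ hN hρ j tB) (degenChart D ρ hρA hϖ hN hρ 1 tB) U = 0) ∧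
    (evalZ (degenChart D ρ hρA hϖ hN hρ 1 tB) H.D ^ e *
      ((degenChart D ρ hρA hϖ hN hρ 1 tB - degenChart D ρ hρA hϖ hN hρ j tB ^ q) *
        (degenChart D ρ hρA hϖ hN hρ 1 tB ^ q - degenChart D ρ hρA hϖ hN hρ j tB)) +
      (q : topChart A L₀ q) *
        bieval (degenChart D ρ hρA hϖ hN hρ 1 tB) (degenChart D ρ hρA hϖ hN hρ j tB) U = 0) := by
  set tj := degenChart D ρ hρA hϖ hN hρ j tB
  set t1 := degenChart D ρ hρA hϖ hN hρ 1 tB
  let Θ : Fin 3 → topChart A L₀ q →+* LaurentSeries K' := fun i =>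
    (branchTriple e0 e02 ez k₀ i).comp (topChart A L₀ q).val.toRingHom
  have hΘ : ∀ i, Function.Injective (Θ i) := fun i a b h =>
    Subtype.ext ((branchTriple e0 e02 ez k₀ i).injective h)
  have h0 := congrArg (coeffMap (Int.castRingHom K')) hΦ
  simp only [map_add, map_mul, map_pow, map_sub, map_natCast, map_bieval, map_evalZ, map_zero,
    coeffMap_qExpand] at h0
  constructor
  · obtain ⟨i, hi⟩ : ∃ i : Fin 3, depth i j = 0 := ⟨j, by fin_cases j <;> first | rfl | exact absurd rfl hj⟩
    obtain ⟨u, -, hu1, hu2⟩ := branch_pair D H tB htK i j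
    rw [qExpand_congr (show q ^ depth i j = 1 by rw [hi, pow_zero]), qExpand_one_apply] at hu1
    have e1 : Θ i tj = _ := hu1
    have e2 : Θ i t1 = _ := hu2
    apply hΘ i
    simp only [map_add, map_mul, map_pow, map_sub, map_natCast, map_bieval, map_evalZ, map_zero,
      e1, e2]
    have := congrArg (qScale u) h0
    simpa only [map_add, map_mul, map_pow, map_sub, map_natCast, map_bieval, map_evalZ, map_zero]
      using this
  · obtain ⟨i, hi⟩ : ∃ i : Fin 3, depth i j = 2 := ⟨2 - j, by fin_cases j <;> first | rfl | exact absurd rfl hj⟩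
    obtain ⟨u, -, hu1, hu2⟩ := branch_pair D H tB htK i j
    rw [qExpand_congr (show q ^ depth i j = q * q by rw [hi, sq]), ← qExpand_qExpand] at hu1
    have e1 : Θ i tj = _ := hu1
    have e2 : Θ i t1 = _ := hu2
    apply hΘ i
    simp only [map_add, map_mul, map_pow, map_sub, map_natCast, map_bieval, map_evalZ, map_zero,
      e1, e2]
    have := congrArg (qScale u) (congrArg (qExpand K' q) h0)
    simpa only [map_add, map_mul, map_pow, map_sub, map_natCast, map_bieval, map_evalZ, map_zero]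
      using this

variable (hdiv : ∀ i, i ≠ 1 → ∀ a (h : a ∈ Br.V i), Br.res i ⟨a, h⟩ = 0 →
  (q : modField K (L₀ * q ^ 2))⁻¹ * a ∈ Br.V i)

include hρA hρ hN htK hdiv in
/-- What vanishes on the branch `i` opposite to `j` times `(t₁ - t_j^q)/q` is in the chart. -/
theorem chart_div {i j : Fin 3} (hi : i ≠ 1) (hji : ∀ l, l ≠ i → depth l j = 0)
    (a : topChart A L₀ q) (ha : redOn D ρ hρA hρ hN hϖ i a = 0) :
    ∃ a' : topChart A L₀ q, (q : topChart A L₀ q) * a' =
      a * (degenChart D ρ hρA hϖ hN hρ 1 tB - degenChart D ρ hρA hϖ hN hρ j tB ^ q) := by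
  haveI := Fact.mk hq
  haveI := D.charP
  obtain ⟨y, hy⟩ := exists_qExpand_sub_pow q H.tZ
  set t1 := degenChart D ρ hρA hϖ hN hρ 1 tB
  set tj := degenChart D ρ hρA hϖ hN hρ j tB
  haveI : CharZero K := charZero_of_injective_algebraMap (algebraMap ℚ K).injective
  haveI : CharZero (modField K (L₀ * q ^ 2)) := charZero_of_injective_algebraMap (algebraMap K (modField K (L₀ * q ^ 2))).injective
  haveI : CharZero K' := charZero_of_injective_algebraMap (algebraMap ℚ K').injective
  have hqF : (q : (modField K (L₀ * q ^ 2))) ≠ 0 := Nat.cast_ne_zero.mpr (NeZero.ne q)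
  have hmem := fun {x : (modField K (L₀ * q ^ 2))} => mem_topChart_iff (a := x) D hϖ
  set c : (modField K (L₀ * q ^ 2)) := (t1 : (modField K (L₀ * q ^ 2))) - (tj : (modField K (L₀ * q ^ 2))) ^ q
  have hc : ∀ l, c ∈ Br.V l := fun l =>
    (hmem.mp (sub_mem t1.2 (pow_mem tj.2 q))).2 l
  suffices h : (q : (modField K (L₀ * q ^ 2)))⁻¹ * ((a : (modField K (L₀ * q ^ 2))) * c) ∈ topChart A L₀ q by
    refine ⟨⟨_, h⟩, Subtype.ext ?_⟩
    show (q : (modField K (L₀ * q ^ 2))) * ((q : (modField K (L₀ * q ^ 2)))⁻¹ * ((a : (modField K (L₀ * q ^ 2))) * c)) = (a : (modField K (L₀ * q ^ 2))) * c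
    rw [mul_inv_cancel_left₀ hqF]
  refine hmem.mpr ⟨?_, fun l => ?_⟩
  · rw [show (q : (modField K (L₀ * q ^ 2)))⁻¹ = algebraMap K (modField K (L₀ * q ^ 2)) (q : K)⁻¹ by rw [map_inv₀, map_natCast]]
    exact mul_mem (Subalgebra.algebraMap_mem _ _)
      (mul_mem (hmem.mp a.2).1 (hmem.mp (sub_mem t1.2 (pow_mem tj.2 q))).1)
  · rcases eq_or_ne l i with rfl | hl
    · rw [← mul_assoc]
      refine mul_mem (hdiv l hi (a : (modField K (L₀ * q ^ 2))) ((hmem.mp a.2).2 l) ?_) (hc l)
      exact congrArg Subtype.val ha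
    · rw [mul_left_comm]
      refine mul_mem ((hmem.mp a.2).2 l) ?_
      obtain ⟨u, hu, hu1, hu2⟩ := branch_pair D H tB htK l j
      rw [qExpand_congr (show q ^ depth l j = 1 by rw [hji l hl, pow_zero]), qExpand_one_apply] at hu1
      refine ((D.isGauss_iff l ((q : (modField K (L₀ * q ^ 2)))⁻¹ * c) (coeffMap (Int.castRingHom k) y)).mp ?_).1
      have hyK : qExpand K' q (coeffMap (Int.castRingHom K') H.tZ) -
          coeffMap (Int.castRingHom K') H.tZ ^ q = q * coeffMap (Int.castRingHom K') y := by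
        have := congrArg (coeffMap (Int.castRingHom K')) hy
        rwa [map_sub, map_pow, map_mul, map_natCast, coeffMap_qExpand] at this
      have hqL' : (q : LaurentSeries K') ≠ 0 := by
        rw [← map_natCast (algebraMap K' (LaurentSeries K'))]
        exact (_root_.map_ne_zero _).mpr (Nat.cast_ne_zero.mpr (NeZero.ne q))
      have hval : branchTriple e0 e02 ez k₀ l ((q : (modField K (L₀ * q ^ 2)))⁻¹ * c) =
          qScale u (coeffMap (Int.castRingHom K') y) := by
        show branchTriple e0 e02 ez k₀ l ((q : (modField K (L₀ * q ^ 2)))⁻¹ *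
          (degen 1 (tB : modField K L₀) - degen j (tB : modField K L₀) ^ q)) = _
        rw [map_mul, map_inv₀, map_natCast, map_sub, map_pow, hu1, hu2, ← map_pow, ← map_sub,
          hyK, map_mul, map_natCast, inv_mul_cancel_left₀ hqL']
      rw [hval]
      refine IsGauss.qScale_root (m := 1) ?_ (by rwa [pow_one])
      have h := isGauss_int (π := π) (coeffMap (Int.castRingHom O) y)
      rwa [intSeries, coeffMap_coeffMap, coeffMap_coeffMap,
        RingHom.ext_int (O.subtype.comp _) (Int.castRingHom K'),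
        RingHom.ext_int (π.comp _) (Int.castRingHom k)] at h

include hρA hρ hN hϖ hsurj hdiv htK hΦ in
/-- The data of the supersingular points. -/
theorem exists_ssData
    (htk : seriesHom k L₀ (Etale.jChartRed ρ hρ hN tB) = H.tBar k) :
    ∃ S : SSData A k (topChart A L₀ q) (Etale.jChart L₀ K A) (redChart k L₀),
      S.q = q ∧ S.ρ = ρ ∧ S.r = redOn D ρ hρA hρ hN hϖ ∧
      S.ι = degenChart D ρ hρA hϖ hN hρ ∧ S.red = Etale.jChartRed ρ hρ hN ∧ S.t = tB ∧
      S.D = H.D ∧ S.U = U := by
  haveI := Fact.mk hq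
  haveI := D.charP
  obtain ⟨σ, hσ⟩ := exists_frob D ρ hρA hρ hN hϖ hsurj
  have hσn : ∀ (n : ℕ) g, seriesHom k L₀ (σ^[n] g) = qExpand k (q ^ n) (seriesHom k L₀ g) := by
    intro n g
    induction n with
    | zero => rw [Function.iterate_zero_apply, qExpand_congr (pow_zero q), qExpand_one_apply]
    | succ n ih =>
      rw [Function.iterate_succ_apply', hσ, ih, qExpand_qExpand]
      exact qExpand_congr (pow_succ' q n).symm _
  have hrι : ∀ i j b, redOn D ρ hρA hρ hN hϖ i (degenChart D ρ hρA hϖ hN hρ j b) =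
      σ^[depth i j] (Etale.jChartRed ρ hρ hN b) := fun i j b => seriesHom_injective (by
    rw [seriesHom_redOn_degen, hσn])
  refine ⟨
    { q := q
      hq := hq
      ρ := ρ
      r := redOn D ρ hρA hρ hN hϖ
      r_const := fun i w => ?_
      ι := degenChart D ρ hρA hϖ hN hρ
      red := Etale.jChartRed ρ hρ hN
      red_surjective := hsurj
      σ := σ
      r_ι := hrι
      t := tB
      σ_t := ?_
      D := H.D
      e := e
      U := U
      rel := fun j hj => (chart_rel D ρ hρA hρ hN hϖ tB htK hΦ j hj).1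
      rel' := fun j hj => (chart_rel D ρ hρA hρ hN hϖ tB htK hΦ j hj).2
      div₀ := fun a ha => ?_
      div₂ := fun a ha => ?_
      q_ne_zero := ?_ }, rfl, rfl, rfl, rfl, rfl, rfl, rfl, rfl⟩
  · rw [← (degenChart D ρ hρA hϖ hN hρ 0).commutes w, hrι, Etale.jChartRed_algebraMap]
    generalize depth i 0 = n
    induction n with
    | zero => rfl
    | succ n ih => rw [Function.iterate_succ_apply', ih, AlgHom.commutes]
  · refine seriesHom_injective ?_
    rw [hσ, map_pow, htk, Haupt.tBar, ← coeffMap_qExpand, coeffMap_qExpand_eq_pow]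
  · exact chart_div D ρ hρA hρ hN hϖ tB htK hdiv (i := 2) (j := 0) (by decide)
      (fun l hl => by fin_cases l <;> first | rfl | exact absurd rfl hl) a ha
  · exact chart_div D ρ hρA hρ hN hϖ tB htK hdiv (i := 0) (j := 2) (by decide)
      (fun l hl => by fin_cases l <;> first | rfl | exact absurd rfl hl) a ha
  · haveI : CharZero K := charZero_of_injective_algebraMap (algebraMap ℚ K).injective
    haveI : CharZero (modField K (L₀ * q ^ 2)) :=
      charZero_of_injective_algebraMap (algebraMap K (modField K (L₀ * q ^ 2))).injective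
    exact fun h => Nat.cast_ne_zero.mpr (NeZero.ne q)
      (congrArg Subtype.val h : ((q : modField K (L₀ * q ^ 2))) = 0)

/-- The subalgebra generated by the three images of the level `L₀` chart. -/
def threeImages : Subalgebra A (topChart A L₀ q) :=
  Algebra.adjoin A (⋃ j, Set.range (degenChart D ρ hρA hϖ hN hρ j))

include hρA hρ hN hϖ in
/-- The three images generate an order in the chart: Noetherian, with integral and birational
extension. -/
theorem threeImages_facts :
    IsNoetherianRing (threeImages D ρ hρA hρ hN hϖ) ∧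
    (∀ a : topChart A L₀ q, IsIntegral (threeImages D ρ hρA hρ hN hϖ) a) ∧
    ∀ a : topChart A L₀ q, ∃ s z : threeImages D ρ hρA hρ hN hϖ,
      (s : topChart A L₀ q) ≠ 0 ∧ a * s = z := by
  haveI := D.dvrA
  let xR : (topChart A L₀ q) := ⟨jTop K L₀ q, self_mem_chartRing _⟩
  have hxG : xR ∈ (threeImages D ρ hρA hρ hN hϖ) := by
    refine Algebra.subset_adjoin (Set.mem_iUnion_of_mem 0 ⟨jBase K L₀ A, ?_⟩)
    exact Subtype.ext jTop_eq_degen.symm
  let xG : (threeImages D ρ hρA hρ hN hϖ) := ⟨xR, hxG⟩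
  have hval : ∀ p : A[X], ((aeval xG p : (threeImages D ρ hρA hρ hN hϖ)) : (topChart A L₀ q)) = aeval xR p := fun p =>
    (aeval_algHom_apply (threeImages D ρ hρA hρ hN hϖ).val xG p).symm
  have hvalF : ∀ p : A[X], ((aeval xR p : (topChart A L₀ q)) : modField K (L₀ * q ^ 2)) =
      aeval (jTop K L₀ q) p := fun p => (aeval_algHom_apply (topChart A L₀ q).val xR p).symm
  refine ⟨?_, fun a => ?_, ?_⟩
  · letI : Algebra A[X] (topChart A L₀ q) := (aeval xR).toRingHom.toAlgebra
    letI : Algebra A[X] (threeImages D ρ hρA hρ hN hϖ) := (aeval xG).toRingHom.toAlgebra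
    obtain ⟨⟨s₀, hs₀, hspan⟩, -⟩ := D.chart_facts
    haveI : Module.Finite A[X] (topChart A L₀ q) := by
      classical
      refine ⟨⟨s₀.attach.image fun v => ⟨v.1, hs₀ v.2⟩, eq_top_iff.mpr fun a _ => ?_⟩⟩
      set T : Set (topChart A L₀ q) := ↑(s₀.attach.image fun v => (⟨v.1, hs₀ v.2⟩ : (topChart A L₀ q)))
      suffices h : ∀ y ∈ Submodule.span (Algebra.adjoin A {jTop K L₀ q}) (s₀ : Set _),
          ∃ b ∈ Submodule.span A[X] T, (b : modField K (L₀ * q ^ 2)) = y by
        obtain ⟨b, hb, hba⟩ := h _ (hspan a a.2)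
        rwa [show a = b from Subtype.ext hba.symm]
      intro y hy
      refine Submodule.span_induction ?_ ⟨0, zero_mem _, rfl⟩ ?_ ?_ hy
      · intro v hv
        exact ⟨⟨v, hs₀ hv⟩, Submodule.subset_span
          (Finset.mem_coe.mpr (Finset.mem_image.mpr ⟨⟨v, hv⟩, Finset.mem_attach _ _, rfl⟩)), rfl⟩
      · rintro u v - - ⟨b, hb, rfl⟩ ⟨b', hb', rfl⟩
        exact ⟨b + b', add_mem hb hb', rfl⟩
      · rintro ⟨c, hc⟩ v - ⟨b, hb, rfl⟩
        rw [Algebra.adjoin_singleton_eq_range_aeval] at hc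
        obtain ⟨p, rfl⟩ := hc
        refine ⟨p • b, Submodule.smul_mem _ p hb, ?_⟩
        show ((aeval xR p * b : (topChart A L₀ q)) : modField K (L₀ * q ^ 2)) = _
        rw [MulMemClass.coe_mul, hvalF]
        rfl
    haveI : IsScalarTower A[X] (threeImages D ρ hρA hρ hN hϖ) (threeImages D ρ hρA hρ hN hϖ) := IsScalarTower.right
    let f : (threeImages D ρ hρA hρ hN hϖ) →ₗ[A[X]] (topChart A L₀ q) :=
      { toFun := fun g => g
        map_add' := fun _ _ => rfl
        map_smul' := fun p g => by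
          show ((aeval xG p * g : (threeImages D ρ hρA hρ hN hϖ)) : (topChart A L₀ q)) = aeval xR p * (g : (topChart A L₀ q))
          rw [MulMemClass.coe_mul, hval] }
    have : IsNoetherian A[X] (threeImages D ρ hρA hρ hN hϖ) :=
      isNoetherian_of_injective f Subtype.val_injective
    exact isNoetherianRing_iff.mpr (isNoetherian_of_tower A[X] this)
  · obtain ⟨p, hp, h0⟩ := mem_chartRing_iff_isIntegralElem.mp a.2
    refine ⟨p.map (aeval xG).toRingHom, hp.map _, ?_⟩
    have hv : Function.Injective (topChart A L₀ q).val.toRingHom := Subtype.val_injective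
    apply hv
    rw [map_zero, eval₂_map, Polynomial.hom_eval₂]
    refine Eq.trans ?_ h0
    congr 1
    refine RingHom.ext fun p => ?_
    show (((aeval xG p : (threeImages D ρ hρA hρ hN hϖ)) : (topChart A L₀ q)) : modField K (L₀ * q ^ 2)) = _
    rw [hval, hvalF]
    rfl
  · let GF : Subalgebra A (modField K (L₀ * q ^ 2)) := (threeImages D ρ hρA hρ hN hϖ).map (topChart A L₀ q).val
    let T : Subfield (modField K (L₀ * q ^ 2)) := Subfield.closure (GF : Set (modField K (L₀ * q ^ 2)))
    suffices htop : ∀ y : (modField K (L₀ * q ^ 2)), y ∈ T by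
      intro a
      obtain ⟨u, hu, v, hv, huv⟩ := Subfield.mem_closure_iff.mp (htop (a : (modField K (L₀ * q ^ 2))))
      rw [show Subring.closure (GF : Set (modField K (L₀ * q ^ 2))) = GF.toSubring from
        Subring.closure_eq GF.toSubring] at hu hv
      obtain ⟨u₀, hu₀, rfl⟩ := hu
      obtain ⟨v₀, hv₀, rfl⟩ := hv
      change (u₀ : (modField K (L₀ * q ^ 2))) / (v₀ : (modField K (L₀ * q ^ 2))) = a at huv
      rcases eq_or_ne (v₀ : (modField K (L₀ * q ^ 2))) 0 with h0 | h0
      · refine ⟨1, 0, one_ne_zero, ?_⟩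
        rw [h0, div_zero] at huv
        rw [show a = 0 from Subtype.ext huv.symm]
        simp
      · refine ⟨⟨v₀, hv₀⟩, ⟨u₀, hu₀⟩, fun h => h0 (congrArg Subtype.val h), Subtype.ext ?_⟩
        show (a : (modField K (L₀ * q ^ 2))) * v₀ = u₀
        rw [← huv, div_mul_cancel₀ _ h0]
    have hG : ∀ (j : Fin 3) (b : Etale.jChart L₀ K A), degen j (b : modField K L₀) ∈ T :=
      fun j b => Subfield.subset_closure ⟨degenChart D ρ hρA hϖ hN hρ j b,
        Algebra.subset_adjoin (Set.mem_iUnion_of_mem j ⟨b, rfl⟩), rfl⟩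
    have hA : ∀ w : A, algebraMap A (modField K (L₀ * q ^ 2)) w ∈ T := fun w =>
      Subfield.subset_closure (GF.algebraMap_mem w)
    let T' : IntermediateField K (modField K (L₀ * q ^ 2)) := T.toIntermediateField fun c => by
      rcases A.mem_or_inv_mem c with h | h
      · exact hA ⟨c, h⟩
      · rw [show algebraMap K (modField K (L₀ * q ^ 2)) c = (algebraMap K (modField K (L₀ * q ^ 2)) c⁻¹)⁻¹ by rw [map_inv₀, inv_inv]]
        exact inv_mem (hA ⟨c⁻¹, h⟩)
    have hbase : ∀ (j : Fin 3) (g : modField K L₀), degen j g ∈ T := by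
      intro j g
      haveI := isScalarTower_valuationSubring (E := modField K L₀) A
      haveI : CharZero K := charZero_of_injective_algebraMap (algebraMap ℚ K).injective
      haveI : CharZero (modField K L₀) :=
        charZero_of_injective_algebraMap (algebraMap K (modField K L₀)).injective
      haveI := MF.Coeff.isFunctionField_laurentBaseChange K L₀
      have ht := MF.Coeff.transcendental_jElem K L₀
      obtain ⟨b, c, hb, hc, -, rfl⟩ := (chartRing_finite (W := A) (MF.Coeff.jElem K L₀)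
        (injective_aeval_of_transcendental ht)
        (exists_span_closure_of_finiteDimensional (FF.finiteDimensional_adjoin ht))).2.2 g
      rw [map_div₀]
      exact div_mem (hG j ⟨b, hb⟩) (hG j ⟨c, hc⟩)
    intro y
    have hle : modField K (L₀ * q ^ 2) ≤ IntermediateField.lift T' := by
      refine (modField_eq_adjoin_genSer (L := K) (L₀ * q ^ 2)).le.trans ?_
      rw [IntermediateField.adjoin_le_iff]
      rintro _ ⟨d, rfl⟩
      obtain ⟨hd, hi, he, he0⟩ := qFree_spec hq hqL d
      refine (IntermediateField.mem_lift (⟨_, genSer_mem d⟩ : (modField K (L₀ * q ^ 2)))).mpr ?_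
      show (⟨genSer K d, genSer_mem d⟩ : (modField K (L₀ * q ^ 2))) ∈ T
      have e : (⟨genSer K d, genSer_mem d⟩ : (modField K (L₀ * q ^ 2))) =
          degen ⟨qExp hq d, by omega⟩ ⟨genSer K (freeIdx hq hqL d), genSer_mem _⟩ :=
        Subtype.ext (qExpand_genSer K (show d.1 = q ^ qExp hq d * (freeIdx hq hqL d).1 by
          exact hd.trans (mul_comm _ _))).symm
      rw [e]
      exact hbase _ _
    exact (IntermediateField.mem_lift y).mp (hle y.2)

include D hρA hρ hN hϖ hsurj hdiv htK in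
/-- **The supersingular points of the finite chart**, abstract form. -/
theorem pointProps_of_vanish [IsAlgClosed k] [NeZero N₀] (hN₀ : ¬ q ∣ N₀)
    (htk : seriesHom k L₀ (Etale.jChartRed ρ hρ hN tB) = H.tBar k)
    (het : ∀ χ : redChart k L₀ →ₐ[k] k, evalZ (χ (Etale.jChartRed ρ hρ hN tB)) H.D ≠ 0 →
      ∀ w, ρ w = χ (Etale.jChartRed ρ hρ hN tB) → ∀ b, χ (Etale.jChartRed ρ hρ hN b) = 0 →
        ∃ s, χ (Etale.jChartRed ρ hρ hN s) ≠ 0 ∧
          s * b ∈ Ideal.span {(q : Etale.jChart L₀ K A), tB - algebraMap A (Etale.jChart L₀ K A) w})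
    (hker : ∀ w, ρ w = 0 → (q : A) ∣ w)
    (dC : modularFunctionFieldFullC k L₀)
    (hdC : (dC : LaurentSeries k) * deltaSeries k ^ (q - 1) = 1)
    (sep : Fin 3 → topChart A L₀ q) (n : Fin 3 → ℕ) (hn : ∀ i, 0 < n i)
    (hsep : ∀ i, chartRes Br (isChart_top D hϖ) i (sep i) = dC ^ n i)
    (y : Ideal (topChart A L₀ q)) [y.IsMaximal]
    (hqy : (⟨algebraMap A (modField K (L₀ * q ^ 2)) (q : A), (topChart A L₀ q).algebraMap_mem _⟩ :
      topChart A L₀ q) ∈ y)
    (hsy : ∀ i, sep i ∈ y) : PointProps Br (topChart A L₀ q) y := by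
  haveI := Fact.mk hq
  haveI := D.charP
  haveI := D.dvrA
  have hR := isChart_top D hϖ
  obtain ⟨e', U', hΦ'⟩ := H.exists_rel q hN₀
  obtain ⟨S, hSq, hSρ, hSr, hSι, hSred, hSt, hSD, hSU⟩ :=
    exists_ssData D ρ hρA hρ hN hϖ hsurj tB htK hΦ' hdiv htk
  set r := redOn D ρ hρA hρ hN hϖ
  have hrv : ∀ i a, ((r i a : redChart k L₀) : modularFunctionFieldFullC k L₀) =
      chartRes Br hR i a := fun i a => rfl
  have hdC0 : dC ≠ 0 := fun h => by
    rw [h, ZeroMemClass.coe_zero, zero_mul] at hdC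
    exact zero_ne_one hdC
  have hdB : dC ∈ redChart k L₀ := by
    have h1 : dC ^ n 0 ∈ redChart k L₀ := hsep 0 ▸ hrv 0 (sep 0) ▸ (r 0 (sep 0)).2
    let : Algebra k[X] (modularFunctionFieldFullC k L₀) :=
      (coordEval k (jSpecial (k := k) L₀)).toAlgebra
    exact IsIntegral.of_pow (R := k[X]) (hn 0) h1
  -- all branches are onto
  have hsurjr : ∀ i, Function.Surjective (r i) := by
    intro i g
    obtain ⟨b, hb⟩ := hsurj g
    obtain ⟨j, hj⟩ : ∃ j, depth i j = 0 := ⟨![0, 0, 2] i, by fin_cases i <;> rfl⟩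
    refine ⟨S.ι j b, ?_⟩
    have := S.r_ι i j b
    rw [hSr, hj, Function.iterate_zero_apply, hSred, hb] at this
    exact this
  -- one branch passes through `y`
  obtain ⟨i₀, hi₀⟩ : ∃ i₀, ∀ a, r i₀ a = 0 → a ∈ y := by
    by_contra h
    push Not at h
    choose a ha hay using h
    obtain ⟨N, b, hb, hN'⟩ := hR.radical _ (a 0 * a 1 * a 2).2 (fun i hmem => by
      show chartRes Br hR i (a 0 * a 1 * a 2) = 0
      rw [← hrv, map_mul, map_mul]
      fin_cases i <;> simp [ha 0, ha 1, ha 2])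
    have h1 : (a 0 * a 1 * a 2) ^ N ∈ y := by
      rw [show (a 0 * a 1 * a 2) ^ N = (⟨algebraMap A (modField K (L₀ * q ^ 2)) (q : A),
        (topChart A L₀ q).algebraMap_mem _⟩ : topChart A L₀ q) * ⟨b, hb⟩ from Subtype.ext hN']
      exact y.mul_mem_right _ hqy
    have hp : y.IsPrime := inferInstance
    rcases hp.mem_or_mem (hp.mem_of_pow_mem N h1) with h2 | h2
    · rcases hp.mem_or_mem h2 with h3 | h3
      · exact hay 0 h3
      · exact hay 1 h3
    · exact hay 2 h2
  -- the place of the reduced curve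
  have hcomap : (y.map (r i₀)).comap (r i₀) = y := by
    rw [Ideal.comap_map_of_surjective _ (hsurjr i₀)]
    exact sup_of_le_left fun a ha => hi₀ a ha
  have hne : y.map (r i₀) ≠ ⊤ := fun h => Ideal.IsMaximal.ne_top (I := y) inferInstance
    (by rw [← hcomap, h, Ideal.comap_top])
  haveI := isFunctionField_special (k := k) L₀ hN
  haveI := FF.finiteDimensional_adjoin (transcendental_jSpecial (k := k) L₀)
  have hsep0 : r i₀ (sep i₀) ≠ 0 := fun h => pow_ne_zero (n i₀) hdC0 (by
    rw [← hsep i₀, ← hrv, h]; rfl)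
  obtain ⟨v, hv0, hv1⟩ := FF.exists_place_of_ideal (K := k) (A := (redChart k L₀).toSubring)
    (fun a => (redChart k L₀).algebraMap_mem a) (y.map (r i₀)) hne
    (Ideal.mem_map_of_mem (r i₀) (hsy i₀)) hsep0
  have hvmem : ∀ g : redChart k L₀, (g : modularFunctionFieldFullC k L₀) ∈ v.toValuationSubring :=
    fun g => (FF.mem_iff_ord_nonneg v).mpr (hv0 _ g.2)
  have hdeg := Normal.deg_eq_one' v
  let χ : redChart k L₀ →ₐ[k] k :=
    { (placeVal v hdeg).comp ((redChart k L₀).val.toRingHom.codRestrict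
        v.toValuationSubring.toSubring hvmem) with
      commutes' := fun a => placeVal_algebraMap v hdeg a }
  have hχ : ∀ g : redChart k L₀, χ g = pval v (g : modularFunctionFieldFullC k L₀) := fun g =>
    (pval_eq hdeg (hvmem g)).symm
  have hχy : ∀ a ∈ y, χ (r i₀ a) = 0 := fun a ha => by
    rw [hχ]
    exact Normal.pval_eq_zero_of_mem_ordGE v hdeg (hv1 _ (Ideal.mem_map_of_mem (r i₀) ha))
  let dB : redChart k L₀ := ⟨dC, hdB⟩
  have hχd : χ dB = 0 := by
    have h := hχy _ (hsy i₀)
    rw [show r i₀ (sep i₀) = dB ^ n i₀ from Subtype.ext ((hrv _ _).trans (hsep i₀)), map_pow] at h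
    exact eq_zero_of_pow_eq_zero h
  -- the point is supersingular
  have hjt : evalZ (Etale.jChartRed ρ hρ hN tB) H.D *
      (⟨jSpecial (k := k) L₀, self_mem_coordRing k _⟩ : redChart k L₀) =
      evalZ (Etale.jChartRed ρ hρ hN tB) H.P ^ 3 := by
    apply seriesHom_injective
    have hev : ∀ P : ℤ[X], seriesHom k L₀ (evalZ (Etale.jChartRed ρ hρ hN tB) P) =
        evalZ (H.tBar k) P := fun P => by
      rw [← htk]
      exact map_evalZ (seriesHom k L₀).toRingHom _ P
    rw [map_mul, map_pow, hev, hev]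
    have h := congrArg (coeffMap (Int.castRingHom k)) H.j_eq
    rw [map_mul, map_pow, coeffMap_jqModC] at h
    rw [Haupt.tBar]
    simp only [evalZ] at h ⊢
    rw [Polynomial.hom_eval₂, Polynomial.hom_eval₂,
      RingHom.ext_int ((coeffMap (Int.castRingHom k)).comp _) (Int.castRingHom _)] at h
    exact h
  have hD : evalZ (χ (Etale.jChartRed ρ hρ hN tB)) H.D ≠ 0 :=
    H.D_eval_ne_zero k χ.toRingHom hq hN₀ hjt
  have hSS : S.IsSS χ := by
    have hΦ'' := H.isSS_of_vanish k hΦ' (seriesHom k L₀) seriesHom_injective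
      (Etale.jChartRed ρ hρ hN tB) dB htk hdC χ hD hχd
    refine ⟨?_, ?_, ?_⟩
    · rw [SSData.x, hSred, hSt, hSD]; exact hD
    · rw [SSData.x, hSred, hSt, hSq]; exact hΦ''.1
    · rw [SSData.x, hSred, hSt, hSq, hSU]; exact hΦ''.2
  -- the point on the branches
  have hpt : ∀ i a, S.point χ i a = χ (r i a) := fun i a => by rw [SSData.point_apply, hSr]
  have hyker : RingHom.ker (S.point χ 1) = y := by
    refine ((inferInstance : y.IsMaximal).eq_of_le (RingHom.ker_isPrime _).ne_top ?_).symm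
    intro a ha
    rw [RingHom.mem_ker, ← S.point_eq hSS i₀, hpt]
    exact hχy a ha
  have hmem : ∀ i a, a ∈ y ↔ χ (r i a) = 0 := fun i a => by
    rw [← hyker, RingHom.mem_ker, ← S.point_eq hSS i, hpt]
  have hon : ∀ i, LiesOnBranch Br (topChart A L₀ q) y i := fun i a h ha => by
    rw [hmem i, show r i a = 0 from Subtype.ext ha, map_zero]
  refine pointProps_of_supersingular hR ?_ hon (fun i => ⟨v.toValuationSubring, inferInstance,
    fun z hz => ?_, sep i, hsy i, ?_⟩) ?_
  · -- factorial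
    obtain ⟨hnoeth, hint, hfrac⟩ := threeImages_facts D ρ hρA hρ hN hϖ
    have hgens : S.gens = threeImages D ρ hρA hρ hN hϖ := by
      rw [SSData.gens, hSι]; rfl
    rw [← hgens] at hnoeth
    haveI := hnoeth
    haveI : CharP k S.q := hSq.symm ▸ D.charP
    haveI : Fact S.q.Prime := ⟨S.hq⟩
    haveI : (RingHom.ker (S.point χ 1)).IsPrime := RingHom.ker_isPrime _
    have htk1 : (seriesHom k L₀ (Etale.jChartRed ρ hρ hN tB)).coeff (-1) = 1 := by
      rw [htk, H.coeff_neg_one_tBar]
    have key := S.ufm hSS (by rw [hSρ]; exact hρ) (by rw [hSρ, hSq]; exact hker)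
      (by rw [hSred, hSt, hSD, hSρ, hSq]; exact het)
      (by
        rw [hSι, hSt]
        intro h
        have h' := congrArg (fun a : topChart A L₀ q =>
          ((a : modField K (L₀ * q ^ 2)) : LaurentSeries K).coeff (-1)) h
        have e0 : ∀ j : Fin 3,
            (((degenChart D ρ hρA hϖ hN hρ j tB : topChart A L₀ q) : modField K (L₀ * q ^ 2)) :
              LaurentSeries K) = qExpand K (q ^ (j : ℕ)) (coeffMap (Int.castRingHom K) H.tZ) :=
          fun j => (coe_degenMap _ _ _).trans (congrArg _ htK)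
        simp only [e0] at h'
        rw [qExpand_congr (show q ^ ((0 : Fin 3) : ℕ) = 1 from pow_zero q), qExpand_one_apply,
          coeffMap_coeff, H.coeff_neg_one, map_one, qExpand_coeff_of_not_dvd] at h'
        · exact one_ne_zero h'
        · intro hd
          have h2 : (q : ℤ) ^ 2 ∣ -1 := by simpa using hd
          have h3 := Int.eq_one_of_dvd_one (by positivity) (Int.dvd_neg.mp h2)
          have : (2 : ℤ) ≤ q := by exact_mod_cast hq.two_le
          nlinarith)
      (by
        rw [hSred, hSt]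
        intro c h
        rw [h, AlgHom.commutes, algebraMap_laurentSeries_eq_single,
          HahnSeries.coeff_single_of_ne (by norm_num)] at htk1
        exact zero_ne_one htk1)
      (by rw [hgens]; exact hint) (by rw [hgens]; exact hfrac)
    subst hyker
    exact key
  · -- the image contains the valuation ring
    have hj : jSpecial (k := k) L₀ ∈ v.toValuationSubring :=
      hvmem ⟨_, self_mem_coordRing k _⟩
    obtain ⟨s, hs, hsv, hsz⟩ :=
      Etale.exists_mul_mem_coordRing (transcendental_jSpecial (k := k) L₀) v hj hz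
    obtain ⟨r', hr'⟩ := hsurjr i ⟨s, hs⟩
    obtain ⟨a, ha⟩ := hsurjr i ⟨_, hsz⟩
    refine ⟨a, r', fun h => hsv ?_, ?_⟩
    · have h0 := (hmem i r').mp h
      rw [hr', hχ, pval_eq_zero_iff hdeg (hvmem ⟨s, hs⟩)] at h0
      refine (FF.mem_ordGE v).mpr (h0.imp_right fun h => ?_)
      exact h
    · rw [← hrv, ← hrv, hr', ha, mul_comm]
  · rw [hsep i]
    exact pow_ne_zero _ hdC0
  · -- values agree
    intro i j a r' hr' ha hr''
    obtain ⟨a', ha'⟩ := hsurjr j (r i a)
    obtain ⟨s', hs'⟩ := hsurjr j (r i r')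
    refine ⟨a', s', fun h => hr' ?_, ?_, fun _ _ => ?_⟩
    · rw [hmem i, ← hs']
      exact (hmem j s').mp h
    · rw [hmem j, map_sub, map_mul, map_mul, map_sub, map_mul, map_mul, ha', hs']
      have e1 : ∀ l x, χ (r l x) = S.point χ 1 x := fun l x => by
        rw [← hpt, S.point_eq hSS]
      rw [e1 j, e1 j r', e1 i, e1 i]
      ring
    · have e1 := congrArg Subtype.val ha'
      have e2 := congrArg Subtype.val hs'
      rw [hrv, hrv] at e1 e2
      show chartRes Br hR i a * chartRes Br hR j s' = chartRes Br hR j a' * chartRes Br hR i r'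
      rw [e1, e2]

end General

section Final

local notation "Qb" => AlgebraicClosure ℚ

variable {A₀ : ValuationSubring Qb} {K K' k : Type} [Field K] [Algebra ℚ K] [Algebra K Qb]
  [Field K'] [Algebra ℚ K'] [Field k] {q L₀ : ℕ} [NeZero q] [NeZero L₀]
  {hq : q.Prime} {hqL : ¬ q ∣ L₀} {π₀ : A₀ →+* k} {κ : K →+* K'} {ι : K' →+* Qb} {η : K'ˣ}
  {e0 e02 : modField K (L₀ * q ^ 2) →+* LaurentSeries K'}
  {ez : Fin (q - 1) → modField K (L₀ * q ^ 2) →+* LaurentSeries K'} {k₀ : Fin (q - 1)}
  {Br : Branches (modField K (L₀ * q ^ 2)) (Fin 3) (fun _ => modularFunctionFieldFullC k L₀)}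
  {ord : Fin 3 → modField K (L₀ * q ^ 2) → ℤ}

/-- **The supersingular points of the finite chart**: where all separators vanish. -/
theorem pointProps_ss (hC : Consts A₀ q π₀ κ ι η)
    (B : BranchData A₀ hq hqL π₀ κ ι η e0 e02 ez k₀ Br ord) (hL : 4 ∣ L₀ ∨ 9 ∣ L₀)
    (dC : modularFunctionFieldFullC k L₀)
    (hdC : (dC : LaurentSeries k) * deltaSeries k ^ (q - 1) = 1)
    (sep : Fin 3 → topChart (constA A₀ K) L₀ q) (n : Fin 3 → ℕ) (hn : ∀ i, 0 < n i)
    (hsep : ∀ i, ∃ h : ((sep i : topChart (constA A₀ K) L₀ q) : modField K (L₀ * q ^ 2)) ∈ Br.V i,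
      Br.res i ⟨_, h⟩ = dC ^ n i)
    (y : Ideal (topChart (constA A₀ K) L₀ q)) [y.IsMaximal]
    (hqy : (⟨algebraMap (constA A₀ K) (modField K (L₀ * q ^ 2)) (q : constA A₀ K),
      (topChart (constA A₀ K) L₀ q).algebraMap_mem _⟩ : topChart (constA A₀ K) L₀ q) ∈ y)
    (hsy : ∀ i, sep i ∈ y) : PointProps Br (topChart (constA A₀ K) L₀ q) y := by
  haveI := hC.algClosed
  haveI := hC.charP
  haveI := hC.dvrA
  haveI := hC.galois
  haveI := Fact.mk hq
  have D := B.chartData
  have hN : (L₀ : k) ≠ 0 := D.hL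
  let ρ : constA A₀ K →+* k := constRes π₀ (algebraMap K Qb)
  have hρ : Function.Surjective ρ := hC.surj
  have hρA : ∀ w : constA A₀ K, constRes π₀ ι ⟨κ (w : K), D.hA w w.2⟩ = ρ w :=
    fun w => hC.constRes_κ w _
  have hker : ∀ w, ρ w = 0 → (q : constA A₀ K) ∣ w := fun w hw => by
    have h : ¬ IsUnit w := (D.hAπ w).mp ((hρA w).trans hw)
    rw [← Ideal.mem_span_singleton, ← hC.irreducible_q.maximalIdeal_eq]
    exact h
  have hq0 : ρ (q : constA A₀ K) = 0 := by rw [map_natCast, CharP.cast_eq_zero]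
  have hnormal := hC.normal L₀ hN hqL
  have hsurj : Function.Surjective (Etale.jChartRed (K := K) ρ hρ hN) :=
    Etale.jChartRed_surjective π₀ ρ hC.π₀_surj hρ hN (fun w => w.2) (fun w => rfl) hnormal
  have hdiv : ∀ i, i ≠ 1 → ∀ a (h : a ∈ Br.V i), Br.res i ⟨a, h⟩ = 0 →
      (q : modField K (L₀ * q ^ 2))⁻¹ * a ∈ Br.V i := by
    intro i hi a h h0
    rcases eq_or_ne a 0 with rfl | ha
    · rw [mul_zero]; exact zero_mem _
    haveI : CharZero K := charZero_of_injective_algebraMap (algebraMap ℚ K).injective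
    haveI : CharZero (modField K (L₀ * q ^ 2)) :=
      charZero_of_injective_algebraMap (algebraMap K (modField K (L₀ * q ^ 2))).injective
    have hqF : (q : modField K (L₀ * q ^ 2)) ≠ 0 := Nat.cast_ne_zero.mpr (NeZero.ne q)
    have hne := mul_ne_zero (inv_ne_zero hqF) ha
    have h1 := B.ord_mul i _ _ hqF hne
    rw [mul_inv_cancel_left₀ hqF] at h1
    have h2 := (B.res_eq_zero_iff i a h ha).mp h0
    have h3 : ord i (q : modField K (L₀ * q ^ 2)) = 1 := by
      fin_cases i
      · exact B.ord_q.1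
      · exact absurd rfl hi
      · exact B.ord_q.2.2
    exact (B.mem_iff i _ hne).mpr (by omega)
  have hsep' : ∀ i, chartRes Br (isChart_top D hC.irreducible_q) i (sep i) = dC ^ n i :=
    fun i => (hsep i).2
  rcases hL with h4 | h9
  · obtain ⟨tB, htK, htk⟩ := Etale.exists_hauptElem (K := K) ρ hρ hN
      (full_degeneracyC_le (K := ℚ) h4 haupt4.mem) haupt4.j_eq haupt4.P_monic haupt4.degree_lt
    exact pointProps_of_vanish D ρ hρA hρ hN hC.irreducible_q hsurj tB htK hdiv
      (fun h => hqL (h.trans h4)) htk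
      (Etale.het_haupt4 π₀ ρ hC.π₀_surj hρ hN (fun w => w.2) (fun w => rfl) hker hq0 h4 hnormal
        htk) hker dC hdC sep n hn hsep' y hqy hsy
  · haveI : NeZero (9 : ℕ) := ⟨by norm_num⟩
    obtain ⟨tB, htK, htk⟩ := Etale.exists_hauptElem (K := K) ρ hρ hN
      (full_degeneracyC_le (K := ℚ) h9 haupt9.mem) haupt9.j_eq haupt9.P_monic haupt9.degree_lt
    exact pointProps_of_vanish D ρ hρA hρ hN hC.irreducible_q hsurj tB htK hdiv
      (fun h => hqL (h.trans h9)) htk
      (Etale.het_haupt9 π₀ ρ hC.π₀_surj hρ hN (fun w => w.2) (fun w => rfl) hker hq0 h9 hnormal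
        htk) hker dC hdC sep n hn hsep' y hqy hsy

end Final

end Fermat.Agent.Carayol.SS
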